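import Mathlib
import Fermat.Prelude.Def_AlgebraicCurve_DivisorClassGroup

/-!
# Existence of places in one-variable function fields (S18, generic half of DICT), helper60

`k ⊆ F` fields, `V` a valuation subring of `F` containing `k`, `g ∈ V` with `g⁻¹ ∉ V`, and `F`
finite-dimensional over `k(g)`.  Then `V` is a principal ideal ring (a DVR), hence a `Place`.
Consequences: a transcendental `g` has a place with `ord g > 0`, and an element without zeros
and poles is constant (for `k` algebraically closed).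
-/

set_option autoImplicit false

noncomputable section

namespace Fermat.Agent.S18.H60

open IntermediateField Polynomial

variable {k F : Type*} [Field k] [Field F] [Algebra k F]

section Local

variable (V : ValuationSubring F)

/-- polynomials in `g` lie in `V` -/
theorem aeval_mem (hk : ∀ a : k, algebraMap k F a ∈ V) {g : F}
    (hg : g ∈ V) (p : k[X]) : aeval g p ∈ V := by
  induction p using Polynomial.induction_on' with
  | add p q hp hq => rw [map_add]; exact V.add_mem _ _ hp hq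
  | monomial n a =>
    rw [aeval_monomial]
    exact V.mul_mem _ _ (hk a) (pow_mem hg n)

variable (k) in
/-- `u = κ + g w` with `κ` a nonzero constant and `w ∈ V`. -/
def IsU (g u : F) : Prop :=
  ∃ κ : k, κ ≠ 0 ∧ ∃ w : F, w ∈ V ∧ u = algebraMap k F κ + g * w

variable {V}

theorem IsU.mem (hk : ∀ a : k, algebraMap k F a ∈ V) {g u : F} (hg : g ∈ V)
    (hu : IsU k V g u) : u ∈ V := by
  obtain ⟨κ, -, w, hw, rfl⟩ := hu
  exact V.add_mem _ _ (hk κ) (V.mul_mem _ _ hg hw)

theorem ne_zero_of_inv_not_mem {g : F} (hg' : g⁻¹ ∉ V) : g ≠ 0 := by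
  rintro rfl
  exact hg' (by rw [inv_zero]; exact V.zero_mem)

theorem IsU.ne_zero (hk : ∀ a : k, algebraMap k F a ∈ V) {g u : F} (hg' : g⁻¹ ∉ V)
    (hu : IsU k V g u) : u ≠ 0 := by
  obtain ⟨κ, hκ, w, hw, rfl⟩ := hu
  intro h0
  -- `κ = - g w`, so `g⁻¹ = - w κ⁻¹ ∈ V`
  have hg0 := ne_zero_of_inv_not_mem hg'
  have hκF : algebraMap k F κ ≠ 0 := by simpa using hκ
  apply hg'
  have : g⁻¹ = -(w * algebraMap k F κ⁻¹) := by
    rw [map_inv₀]
    field_simp
    linear_combination h0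
  rw [this]
  exact V.neg_mem _ (V.mul_mem _ _ hw (hk _))

theorem IsU.inv_mem (hk : ∀ a : k, algebraMap k F a ∈ V) {g u : F} (hg' : g⁻¹ ∉ V)
    (hu : IsU k V g u) : u⁻¹ ∈ V := by
  have hu0 := hu.ne_zero hk hg'
  obtain ⟨κ, hκ, w, hw, rfl⟩ := hu
  set u := algebraMap k F κ + g * w with hu_def
  have hg0 := ne_zero_of_inv_not_mem hg'
  have hκF : algebraMap k F κ ≠ 0 := by simpa using hκ
  by_contra hinv
  rcases V.mem_or_inv_mem (g / u) with h | h
  · -- `u⁻¹ = κ⁻¹ (1 - (g/u) w)`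
    apply hinv
    have : u⁻¹ = algebraMap k F κ⁻¹ * (1 - g / u * w) := by
      rw [map_inv₀]
      field_simp
      rw [hu_def]; ring
    rw [this]
    exact V.mul_mem _ _ (hk _) (sub_mem V.one_mem (V.mul_mem _ _ h hw))
  · -- `g⁻¹ = κ⁻¹ (u/g - w)`
    apply hg'
    have hug : u / g ∈ V := by simpa using h
    have : g⁻¹ = algebraMap k F κ⁻¹ * (u / g - w) := by
      rw [map_inv₀]
      field_simp
      rw [hu_def]; ring
    rw [this]
    exact V.mul_mem _ _ (hk _) (sub_mem hug hw)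

theorem IsU.mul (hk : ∀ a : k, algebraMap k F a ∈ V) {g u u' : F} (hg : g ∈ V)
    (hu : IsU k V g u) (hu' : IsU k V g u') : IsU k V g (u * u') := by
  obtain ⟨κ, hκ, w, hw, rfl⟩ := hu
  obtain ⟨κ', hκ', w', hw', rfl⟩ := hu'
  refine ⟨κ * κ', mul_ne_zero hκ hκ', algebraMap k F κ * w' + w * algebraMap k F κ' + g * w * w',
    ?_, ?_⟩
  · exact V.add_mem _ _ (V.add_mem _ _ (V.mul_mem _ _ (hk _) hw') (V.mul_mem _ _ hw (hk _)))
      (V.mul_mem _ _ (V.mul_mem _ _ hg hw) hw')
  · rw [map_mul]; ring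

theorem IsU.inv (hk : ∀ a : k, algebraMap k F a ∈ V) {g u : F} (hg' : g⁻¹ ∉ V)
    (hu : IsU k V g u) : IsU k V g u⁻¹ := by
  have hu0 := hu.ne_zero hk hg'
  have hinv := hu.inv_mem hk hg'
  obtain ⟨κ, hκ, w, hw, hu_def⟩ := hu
  have hκF : algebraMap k F κ ≠ 0 := by simpa using hκ
  refine ⟨κ⁻¹, inv_ne_zero hκ, -(w * algebraMap k F κ⁻¹ * u⁻¹), ?_, ?_⟩
  · exact V.neg_mem _ (V.mul_mem _ _ (V.mul_mem _ _ hw (hk _)) hinv)
  · rw [map_inv₀]
    field_simp
    rw [hu_def]; ring

theorem isU_aeval (hk : ∀ a : k, algebraMap k F a ∈ V) {g : F} (hg : g ∈ V) (p : k[X])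
    (hp : p.coeff 0 ≠ 0) : IsU k V g (aeval g p) := by
  refine ⟨p.coeff 0, hp, aeval g p.divX, aeval_mem V hk hg _, ?_⟩
  conv_lhs => rw [← Polynomial.divX_mul_X_add p]
  simp only [map_add, map_mul, aeval_X, aeval_C]
  ring

/-- structure of nonzero elements of `k(g)`: `g ^ b * c = g ^ a * u` with `u` a unit of the
form `κ + g w`. -/
theorem exists_pow_mul_eq (hk : ∀ a : k, algebraMap k F a ∈ V) {g : F} (hg : g ∈ V)
    (hg' : g⁻¹ ∉ V) {c : F} (hc : c ∈ k⟮g⟯) (hc0 : c ≠ 0) :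
    ∃ (a b : ℕ) (u : F), IsU k V g u ∧ g ^ b * c = g ^ a * u := by
  have hg0 := ne_zero_of_inv_not_mem hg'
  obtain ⟨r, s, rfl⟩ := (mem_adjoin_simple_iff k c).mp hc
  have hr0 : aeval g r ≠ 0 := fun h => hc0 (by rw [h, zero_div])
  have hs0 : aeval g s ≠ 0 := fun h => hc0 (by rw [h, div_zero])
  have hr : r ≠ 0 := fun h => hr0 (by rw [h, map_zero])
  have hs : s ≠ 0 := fun h => hs0 (by rw [h, map_zero])
  obtain ⟨r₁, hr₁, hr₁'⟩ := Polynomial.exists_eq_pow_rootMultiplicity_mul_and_not_dvd r hr 0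
  obtain ⟨s₁, hs₁, hs₁'⟩ := Polynomial.exists_eq_pow_rootMultiplicity_mul_and_not_dvd s hs 0
  rw [map_zero, sub_zero] at hr₁ hr₁' hs₁ hs₁'
  rw [Polynomial.X_dvd_iff] at hr₁' hs₁'
  have hUr := isU_aeval hk hg r₁ hr₁'
  have hUs := isU_aeval hk hg s₁ hs₁'
  have hs₁0 := hUs.ne_zero hk hg'
  refine ⟨rootMultiplicity 0 r, rootMultiplicity 0 s, aeval g r₁ * (aeval g s₁)⁻¹,
    hUr.mul hk hg (hUs.inv hk hg'), ?_⟩
  have e1 : aeval g r = g ^ rootMultiplicity 0 r * aeval g r₁ := by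
    conv_lhs => rw [hr₁]
    simp
  have e2 : aeval g s = g ^ rootMultiplicity 0 s * aeval g s₁ := by
    conv_lhs => rw [hs₁]
    simp
  rw [e1, e2]
  field_simp

/-- elements of `k(g) ∩ V` are congruent to a constant modulo `g V`. -/
theorem exists_const_add (hk : ∀ a : k, algebraMap k F a ∈ V) {g : F} (hg : g ∈ V)
    (hg' : g⁻¹ ∉ V) {c : F} (hc : c ∈ k⟮g⟯) (hcV : c ∈ V) :
    ∃ κ : k, ∃ w : F, w ∈ V ∧ c = algebraMap k F κ + g * w := by
  have hg0 := ne_zero_of_inv_not_mem hg'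
  rcases eq_or_ne c 0 with rfl | hc0
  · exact ⟨0, 0, V.zero_mem, by simp⟩
  obtain ⟨a, b, u, hu, h⟩ := exists_pow_mul_eq hk hg hg' hc hc0
  have huV := hu.mem hk hg
  have hu0 := hu.ne_zero hk hg'
  have huinv := hu.inv_mem hk hg'
  rcases lt_trichotomy a b with hab | hab | hab
  · -- impossible: `g⁻¹ = g^(b-a-1) c u⁻¹ ∈ V`
    exfalso
    apply hg'
    obtain ⟨d, rfl⟩ := Nat.exists_eq_add_of_lt hab
    have : g⁻¹ = g ^ d * c * u⁻¹ := by
      have h' : g ^ (a + d + 1) * c = g ^ a * u := h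
      field_simp
      have hga : g ^ a ≠ 0 := pow_ne_zero _ hg0
      apply mul_left_cancel₀ hga
      rw [← h']; ring
    rw [this]
    exact V.mul_mem _ _ (V.mul_mem _ _ (pow_mem hg d) hcV) huinv
  · subst hab
    have hcu : c = u := mul_left_cancel₀ (pow_ne_zero _ hg0) h
    obtain ⟨κ, -, w, hw, hu'⟩ := hu
    exact ⟨κ, w, hw, hcu.trans hu'⟩
  · obtain ⟨d, rfl⟩ := Nat.exists_eq_add_of_lt hab
    refine ⟨0, g ^ d * u, V.mul_mem _ _ (pow_mem hg d) huV, ?_⟩
    have h' : g ^ b * c = g ^ (b + d + 1) * u := h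
    rw [map_zero, zero_add]
    apply mul_left_cancel₀ (pow_ne_zero b hg0)
    rw [h']; ring

end Local

section Noeth

variable (V : ValuationSubring F)

/-- the `k`-algebra structure on `V` coming from `k ⊆ V`. -/
@[reducible] def algOf (hk : ∀ a : k, algebraMap k F a ∈ V) : Algebra k V :=
  ((algebraMap k F).codRestrict V hk).toAlgebra

/-- `V ⧸ g V` is finite-dimensional over `k` (any compatible `k`-algebra structure on `V`). -/
theorem finite_quotient' [Algebra k V] [IsScalarTower k V F] {g : F} (hg : g ∈ V)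
    (hg' : g⁻¹ ∉ V) [FiniteDimensional k⟮g⟯ F] :
    Module.Finite k (V ⧸ Ideal.span {(⟨g, hg⟩ : V)}) := by
  have hk : ∀ a : k, algebraMap k F a ∈ V := fun a => by
    rw [IsScalarTower.algebraMap_apply k V F]
    exact (algebraMap k V a).2
  rw [← Module.rank_lt_aleph0_iff]
  refine lt_of_le_of_lt (rank_le (n := Module.finrank k⟮g⟯ F) ?_) Cardinal.natCast_lt_aleph0
  intro s hs
  have hsurj := Ideal.Quotient.mk_surjective (I := Ideal.span {(⟨g, hg⟩ : V)})
  choose y hy using fun i : s => hsurj (i : V ⧸ Ideal.span {(⟨g, hg⟩ : V)})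
  have hli : LinearIndependent k⟮g⟯ (fun i : s => ((y i : V) : F)) := by
    rw [Fintype.linearIndependent_iff]
    intro c hc
    by_contra hne
    push Not at hne
    obtain ⟨i₁, hi₁⟩ := hne
    obtain ⟨i₀, -, hmax⟩ := Finset.exists_max_image Finset.univ
      (fun i => V.valuation ((c i : k⟮g⟯) : F)) ⟨i₁, Finset.mem_univ _⟩
    have hc₀ : ((c i₀ : k⟮g⟯) : F) ≠ 0 := by
      intro h0
      have h1 := hmax i₁ (Finset.mem_univ _)
      rw [h0, map_zero, le_zero_iff, map_eq_zero] at h1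
      exact hi₁ (by exact_mod_cast h1)
    have hv₀ : V.valuation ((c i₀ : k⟮g⟯) : F) ≠ 0 := by
      rwa [ne_eq, map_eq_zero]
    have hmemK : ∀ i, ((c i : k⟮g⟯) : F) / ((c i₀ : k⟮g⟯) : F) ∈ k⟮g⟯ :=
      fun i => div_mem (c i).2 (c i₀).2
    have hmemV : ∀ i, ((c i : k⟮g⟯) : F) / ((c i₀ : k⟮g⟯) : F) ∈ V := by
      intro i
      rw [← V.valuation_le_one_iff, map_div₀]
      exact (div_le_one₀ (zero_lt_iff.mpr hv₀)).mpr (hmax i (Finset.mem_univ _))
    choose κ w hw hκw using fun i => exists_const_add hk hg hg' (hmemK i) (hmemV i)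
    -- the relation divided by `c i₀`
    have hrel : ∑ i, (((c i : k⟮g⟯) : F) / ((c i₀ : k⟮g⟯) : F)) * ((y i : V) : F) = 0 := by
      have : ∑ i, ((c i : k⟮g⟯) : F) * ((y i : V) : F) = 0 := by
        simpa [IntermediateField.smul_def] using hc
      calc ∑ i, (((c i : k⟮g⟯) : F) / ((c i₀ : k⟮g⟯) : F)) * ((y i : V) : F)
          = (∑ i, ((c i : k⟮g⟯) : F) * ((y i : V) : F)) / ((c i₀ : k⟮g⟯) : F) := by
            rw [Finset.sum_div]
            exact Finset.sum_congr rfl fun i _ => by ring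
        _ = 0 := by rw [this, zero_div]
    -- hence `∑ κ i • y i ∈ g V`
    have hV : (∑ i, κ i • y i : V) = (⟨g, hg⟩ : V) * (-∑ i, (⟨w i, hw i⟩ : V) * y i) := by
      apply Subtype.ext
      have e1 : (((∑ i, κ i • y i : V) : V) : F) = ∑ i, algebraMap k F (κ i) * ((y i : V) : F) := by
        rw [show (((∑ i, κ i • y i : V) : V) : F) = V.subtype (∑ i, κ i • y i) from rfl, map_sum]
        exact Finset.sum_congr rfl fun i _ => by
          rw [Algebra.smul_def, map_mul, IsScalarTower.algebraMap_apply k V F]; rfl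
      have e2 : (((⟨g, hg⟩ : V) * (-∑ i, (⟨w i, hw i⟩ : V) * y i) : V) : F)
          = g * (-∑ i, w i * ((y i : V) : F)) := by
        rw [show ((((⟨g, hg⟩ : V) * (-∑ i, (⟨w i, hw i⟩ : V) * y i) : V)) : F)
          = V.subtype ((⟨g, hg⟩ : V) * (-∑ i, (⟨w i, hw i⟩ : V) * y i)) from rfl, map_mul, map_neg,
          map_sum]
        rfl
      rw [e1, e2]
      have : ∑ i, (algebraMap k F (κ i) + g * w i) * ((y i : V) : F) = 0 := by
        rw [← hrel]
        exact Finset.sum_congr rfl fun i _ => by rw [← hκw i]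
      rw [mul_neg, Finset.mul_sum, ← add_eq_zero_iff_eq_neg, ← Finset.sum_add_distrib, ← this]
      exact Finset.sum_congr rfl fun i _ => by ring
    have hq : ∑ i, κ i • ((i : V ⧸ Ideal.span {(⟨g, hg⟩ : V)})) = 0 := by
      have h1 : ∑ i, κ i • ((i : V ⧸ Ideal.span {(⟨g, hg⟩ : V)}))
          = Ideal.Quotient.mk (Ideal.span {(⟨g, hg⟩ : V)}) (∑ i, κ i • y i) := by
        rw [map_sum]
        refine Finset.sum_congr rfl fun i _ => ?_
        rw [← hy i]
        rfl
      rw [h1, hV]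
      exact Ideal.Quotient.eq_zero_iff_mem.mpr
        (Ideal.mul_mem_right _ _ (Ideal.subset_span rfl))
    have hκ0 := Fintype.linearIndependent_iff.mp hs κ hq i₀
    -- but `c i₀ / c i₀ = 1`
    have h1 := hκw i₀
    rw [div_self hc₀, hκ0, map_zero, zero_add] at h1
    apply hg'
    rw [← eq_inv_of_mul_eq_one_right h1.symm]
    exact hw i₀
  calc s.card = Fintype.card s := (Fintype.card_coe s).symm
    _ ≤ Module.finrank k⟮g⟯ F := hli.fintype_card_le_finrank

/-- `V ⧸ g V` is a Noetherian `V`-module. -/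
theorem isNoetherian_quotient (hk : ∀ a : k, algebraMap k F a ∈ V) {g : F} (hg : g ∈ V)
    (hg' : g⁻¹ ∉ V) [FiniteDimensional k⟮g⟯ F] :
    IsNoetherian V (V ⧸ Ideal.span {(⟨g, hg⟩ : V)}) := by
  let _ := algOf V hk
  have : IsScalarTower k V F := IsScalarTower.of_algebraMap_eq fun _ => rfl
  have := finite_quotient' V (k := k) hg hg'
  exact isNoetherian_of_tower k (inferInstance : IsNoetherian k (V ⧸ Ideal.span {(⟨g, hg⟩ : V)}))

/-- `V ⧸ g ^ n V` is a Noetherian `V`-module. -/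
theorem isNoetherian_quotient_pow (hk : ∀ a : k, algebraMap k F a ∈ V) {g : F} (hg : g ∈ V)
    (hg' : g⁻¹ ∉ V) [FiniteDimensional k⟮g⟯ F] (n : ℕ) :
    IsNoetherian V (V ⧸ Ideal.span {(⟨g, hg⟩ : V) ^ n}) := by
  induction n with
  | zero =>
    have htop : Ideal.span {(⟨g, hg⟩ : V) ^ 0} = ⊤ := by
      rw [pow_zero, Ideal.span_singleton_one]
    have : Subsingleton (V ⧸ Ideal.span {(⟨g, hg⟩ : V) ^ 0}) :=
      Ideal.Quotient.subsingleton_iff.mpr htop
    infer_instance
  | succ n ih =>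
    have := isNoetherian_quotient V hk hg hg'
    set gV : V := ⟨g, hg⟩ with hgV
    have h₁ : Ideal.span {gV} ≤ LinearMap.ker
        ((Submodule.mkQ (Ideal.span {gV ^ (n + 1)})).comp (LinearMap.mulLeft V (gV ^ n))) := by
      intro x hx
      obtain ⟨t, rfl⟩ := Ideal.mem_span_singleton'.mp hx
      rw [LinearMap.mem_ker, LinearMap.comp_apply, Submodule.mkQ_apply,
        Submodule.Quotient.mk_eq_zero, LinearMap.mulLeft_apply]
      exact Ideal.mem_span_singleton'.mpr ⟨t, by ring⟩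
    have h₂ : Ideal.span {gV ^ (n + 1)} ≤ LinearMap.ker (Submodule.mkQ (Ideal.span {gV ^ n})) := by
      rw [Submodule.ker_mkQ]
      intro x hx
      obtain ⟨t, rfl⟩ := Ideal.mem_span_singleton'.mp hx
      exact Ideal.mem_span_singleton'.mpr ⟨t * gV, by ring⟩
    refine isNoetherian_of_range_eq_ker (Submodule.liftQ _ _ h₁) (Submodule.liftQ _ _ h₂) ?_
    ext z
    obtain ⟨v, rfl⟩ := Submodule.mkQ_surjective _ z
    rw [LinearMap.mem_ker, Submodule.mkQ_apply, Submodule.liftQ_apply, Submodule.mkQ_apply,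
      Submodule.Quotient.mk_eq_zero]
    constructor
    · rintro ⟨t, ht⟩
      obtain ⟨t, rfl⟩ := Submodule.mkQ_surjective _ t
      rw [Submodule.mkQ_apply, Submodule.liftQ_apply, LinearMap.comp_apply, Submodule.mkQ_apply,
        LinearMap.mulLeft_apply, Submodule.Quotient.eq] at ht
      -- `g^n t - v ∈ (g^(n+1))`
      obtain ⟨r, hr⟩ := Ideal.mem_span_singleton'.mp ht
      exact Ideal.mem_span_singleton'.mpr ⟨t - r * gV, by linear_combination -hr⟩
    · intro hv
      obtain ⟨t, rfl⟩ := Ideal.mem_span_singleton'.mp hv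
      refine ⟨Submodule.mkQ _ t, ?_⟩
      rw [Submodule.mkQ_apply, Submodule.liftQ_apply, LinearMap.comp_apply, Submodule.mkQ_apply,
        LinearMap.mulLeft_apply, mul_comm]

/-- for `x ∈ V` and `Q` a polynomial over `k(g)`, some `g ^ M * Q(x)` lies in `V`. -/
theorem exists_pow_mul_aeval_mem (hk : ∀ a : k, algebraMap k F a ∈ V) {g : F} (hg : g ∈ V)
    (hg' : g⁻¹ ∉ V) {x : F} (hx : x ∈ V) (Q : (k⟮g⟯)[X]) :
    ∃ M : ℕ, g ^ M * aeval x Q ∈ V := by
  induction Q using Polynomial.induction_on' with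
  | add p q hp hq =>
    obtain ⟨M₁, h₁⟩ := hp
    obtain ⟨M₂, h₂⟩ := hq
    refine ⟨M₁ + M₂, ?_⟩
    have : g ^ (M₁ + M₂) * aeval x (p + q)
        = g ^ M₂ * (g ^ M₁ * aeval x p) + g ^ M₁ * (g ^ M₂ * aeval x q) := by
      rw [map_add]; ring
    rw [this]
    exact V.add_mem _ _ (V.mul_mem _ _ (pow_mem hg _) h₁) (V.mul_mem _ _ (pow_mem hg _) h₂)
  | monomial n c =>
    rw [aeval_monomial]
    rcases eq_or_ne (c : F) 0 with hc0 | hc0
    · refine ⟨0, ?_⟩
      rw [show algebraMap k⟮g⟯ F c = (c : F) from rfl, hc0, zero_mul, mul_zero]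
      exact V.zero_mem
    · obtain ⟨a, b, u, hu, h⟩ := exists_pow_mul_eq hk hg hg' c.2 hc0
      refine ⟨b, ?_⟩
      rw [show algebraMap k⟮g⟯ F c = (c : F) from rfl, ← mul_assoc, h]
      exact V.mul_mem _ _ (V.mul_mem _ _ (pow_mem hg _) (hu.mem hk hg)) (pow_mem hx _)

/-- every nonzero `x ∈ V` divides a power of `g`. -/
theorem exists_pow_mem_span (hk : ∀ a : k, algebraMap k F a ∈ V) {g : F} (hg : g ∈ V)
    (hg' : g⁻¹ ∉ V) [FiniteDimensional k⟮g⟯ F] (x : V) (hx : x ≠ 0) :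
    ∃ n : ℕ, (⟨g, hg⟩ : V) ^ n ∈ Ideal.span {x} := by
  have hg0 := ne_zero_of_inv_not_mem hg'
  have hxF : (x : F) ≠ 0 := fun h => hx (Subtype.ext h)
  have hint : IsIntegral k⟮g⟯ (x : F) := Algebra.IsIntegral.isIntegral _
  set P := minpoly k⟮g⟯ (x : F) with hP
  have hP0 : P.coeff 0 ≠ 0 := minpoly.coeff_zero_ne_zero hint hxF
  have hroot : aeval (x : F) P = 0 := minpoly.aeval _ _
  have hsplit : aeval (x : F) P.divX * (x : F) + ((P.coeff 0 : k⟮g⟯) : F) = 0 := by
    conv_rhs => rw [← hroot, ← Polynomial.divX_mul_X_add P]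
    simp only [map_add, map_mul, aeval_X, aeval_C]
    rfl
  obtain ⟨M, hM⟩ := exists_pow_mul_aeval_mem V hk hg hg' x.2 P.divX
  have hc0 : ((P.coeff 0 : k⟮g⟯) : F) ≠ 0 := fun h => hP0 (Subtype.ext h)
  obtain ⟨a, b, u, hu, h⟩ := exists_pow_mul_eq hk hg hg' (P.coeff 0).2 hc0
  have hu0 := hu.ne_zero hk hg'
  have huinv := hu.inv_mem hk hg'
  refine ⟨M + a, Ideal.mem_span_singleton'.mpr
    ⟨⟨-(g ^ b * (g ^ M * aeval (x : F) P.divX) * u⁻¹),
      V.neg_mem _ (V.mul_mem _ _ (V.mul_mem _ _ (pow_mem hg _) hM) huinv)⟩, ?_⟩⟩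
  apply Subtype.ext
  show -(g ^ b * (g ^ M * aeval (x : F) P.divX) * u⁻¹) * (x : F) = g ^ (M + a)
  have e : ((P.coeff 0 : k⟮g⟯) : F) = -(aeval (x : F) P.divX * (x : F)) :=
    eq_neg_of_add_eq_zero_right hsplit
  rw [e] at h
  field_simp
  rw [pow_add]
  linear_combination g ^ M * h

/-- **Main local statement**: a valuation subring `V ⊇ k` of `F` with `g ∈ V`, `g⁻¹ ∉ V` and
`[F : k(g)] < ∞` is Noetherian. -/
theorem isNoetherianRing_of_finiteDimensional (hk : ∀ a : k, algebraMap k F a ∈ V) (g : F)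
    (hg : g ∈ V) (hg' : g⁻¹ ∉ V) [FiniteDimensional k⟮g⟯ F] : IsNoetherianRing V := by
  rw [isNoetherianRing_iff_ideal_fg]
  intro J
  rcases eq_or_ne J ⊥ with rfl | hJ
  · exact Submodule.fg_bot
  obtain ⟨x, hxJ, hx0⟩ := Submodule.exists_mem_ne_zero_of_ne_bot hJ
  obtain ⟨n, hn⟩ := exists_pow_mem_span V hk hg hg' x hx0
  have hle : Ideal.span {(⟨g, hg⟩ : V) ^ n} ≤ J :=
    (Ideal.span_singleton_le_iff_mem _).mpr
      ((Ideal.span_singleton_le_iff_mem J).mpr hxJ hn)
  have := isNoetherian_quotient_pow V hk hg hg' n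
  refine Submodule.fg_of_fg_map_of_fg_inf_ker (Submodule.mkQ (Ideal.span {(⟨g, hg⟩ : V) ^ n}))
    (IsNoetherian.noetherian _) ?_
  rw [Submodule.ker_mkQ, inf_eq_right.mpr hle]
  exact Submodule.fg_span_singleton _

/-- **(P1)** such a `V` is a principal ideal ring. -/
theorem isPrincipalIdealRing_of_finiteDimensional (hk : ∀ a : k, algebraMap k F a ∈ V) (g : F)
    (hg : g ∈ V) (hg' : g⁻¹ ∉ V) [FiniteDimensional k⟮g⟯ F] : IsPrincipalIdealRing V := by
  have := isNoetherianRing_of_finiteDimensional V hk g hg hg'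
  infer_instance

end Noeth

section Global

open AlgebraicCurve

/-- if `k(x) ⊆ V` and `F` is algebraic over `k(x)`, then `V = ⊤`. -/
theorem eq_top_of_adjoin_le (V : ValuationSubring F) (x : F) [Algebra.IsAlgebraic k⟮x⟯ F]
    (h : ∀ c ∈ k⟮x⟯, c ∈ V) : V = ⊤ := by
  refine eq_top_iff.mpr fun y _ => ?_
  let φ : k⟮x⟯ →+* V := (algebraMap k⟮x⟯ F).codRestrict V (fun c => h _ c.2)
  let _ : Algebra k⟮x⟯ V := φ.toAlgebra
  have : IsScalarTower k⟮x⟯ V F := IsScalarTower.of_algebraMap_eq fun _ => rfl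
  have hint : IsIntegral V y := (Algebra.IsIntegral.isIntegral (R := k⟮x⟯) y).tower_top
  obtain ⟨z, rfl⟩ := IsIntegrallyClosed.isIntegral_iff.mp hint
  exact z.2

theorem adjoin_simple_inv_eq (x : F) : k⟮x⁻¹⟯ = k⟮x⟯ := by
  apply le_antisymm
  · rw [adjoin_simple_le_iff]
    exact inv_mem (mem_adjoin_simple_self k x)
  · rw [adjoin_simple_le_iff]
    have := inv_mem (mem_adjoin_simple_self k x⁻¹)
    rwa [inv_inv] at this

theorem adjoin_simple_sub_eq (x : F) (a : k) : k⟮x - algebraMap k F a⟯ = k⟮x⟯ := by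
  apply le_antisymm
  · rw [adjoin_simple_le_iff]
    exact sub_mem (mem_adjoin_simple_self k x) (IntermediateField.algebraMap_mem _ a)
  · rw [adjoin_simple_le_iff]
    have := add_mem (mem_adjoin_simple_self k (x - algebraMap k F a))
      (IntermediateField.algebraMap_mem k⟮x - algebraMap k F a⟯ a)
    rwa [sub_add_cancel] at this

/-- a parameter of `k(x)` lying in the maximal ideal of `V`. -/
theorem exists_param [IsAlgClosed k] (x : F) [Algebra.IsAlgebraic k⟮x⟯ F]
    (V : ValuationSubring F) (hk : ∀ a : k, algebraMap k F a ∈ V) (hV : V ≠ ⊤) :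
    ∃ t : F, t ∈ V ∧ t⁻¹ ∉ V ∧ k⟮t⟯ = k⟮x⟯ := by
  by_cases hx : x ∈ V
  · by_cases hex : ∃ a : k, (x - algebraMap k F a)⁻¹ ∉ V
    · obtain ⟨a, ha⟩ := hex
      exact ⟨x - algebraMap k F a, sub_mem hx (hk a), ha, adjoin_simple_sub_eq x a⟩
    · push Not at hex
      exfalso
      apply hV
      apply eq_top_of_adjoin_le (k := k) V x
      intro c hc
      obtain ⟨r, s, rfl⟩ := (mem_adjoin_simple_iff k c).mp hc
      have key : ∀ m : Multiset k, ((m.map (fun a => x - algebraMap k F a)).prod)⁻¹ ∈ V := by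
        intro m
        induction m using Multiset.induction_on with
        | empty => simp
        | cons a m ih =>
          rw [Multiset.map_cons, Multiset.prod_cons, mul_inv]
          exact V.mul_mem _ _ (hex a) ih
      have hinv : ∀ p : k[X], (aeval x p)⁻¹ ∈ V := by
        intro p
        have hp : aeval x p = algebraMap k F p.leadingCoeff *
            (p.roots.map (fun a => x - algebraMap k F a)).prod := by
          conv_lhs => rw [(IsAlgClosed.splits p).eq_prod_roots]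
          rw [map_mul, aeval_C, map_multiset_prod, Multiset.map_map]
          congr 2
          exact Multiset.map_congr rfl fun a _ => by simp
        rw [hp, mul_inv, ← map_inv₀]
        exact V.mul_mem _ _ (hk _) (key _)
      rw [div_eq_mul_inv]
      exact V.mul_mem _ _ (aeval_mem V hk hx r) (hinv s)
  · have hxinv : x⁻¹ ∈ V := (V.mem_or_inv_mem x).resolve_left hx
    exact ⟨x⁻¹, hxinv, by rwa [inv_inv], adjoin_simple_inv_eq x⟩

/-- **(P2)** in a one-variable function field over an algebraically closed field, every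
valuation subring `V ≠ ⊤` containing the constants is a principal ideal ring. -/
theorem isPrincipalIdealRing_of_ne_top [IsAlgClosed k] (x : F) [FiniteDimensional k⟮x⟯ F]
    (V : ValuationSubring F) (hk : ∀ a : k, algebraMap k F a ∈ V) (hV : V ≠ ⊤) :
    IsPrincipalIdealRing V := by
  obtain ⟨t, ht, ht', heq⟩ := exists_param x V hk hV
  have : FiniteDimensional k⟮t⟯ F := by rw [heq]; infer_instance
  exact isPrincipalIdealRing_of_finiteDimensional V hk t ht ht'

/-- the place attached to a nontrivial valuation subring containing the constants. -/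
def placeOf [IsAlgClosed k] (x : F) [FiniteDimensional k⟮x⟯ F]
    (V : ValuationSubring F) (hk : ∀ a : k, algebraMap k F a ∈ V) (hV : V ≠ ⊤) : Place k F where
  toValuationSubring := V
  algebraMap_mem' := hk
  ne_top' := hV
  isPrincipalIdealRing' := isPrincipalIdealRing_of_ne_top x V hk hV

@[simp] theorem placeOf_toValuationSubring [IsAlgClosed k] (x : F) [FiniteDimensional k⟮x⟯ F]
    (V : ValuationSubring F) (hk : ∀ a : k, algebraMap k F a ∈ V) (hV : V ≠ ⊤) :
    (placeOf x V hk hV).toValuationSubring = V := rfl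

/-- an element of the maximal ideal has positive order. -/
theorem ord_pos_of_mem (Q : Place k F) {f : F} (hf : f ∈ Q.toValuationSubring)
    (hf' : f⁻¹ ∉ Q.toValuationSubring) : 0 < Q.ord f := by
  have hf0 : f ≠ 0 := ne_zero_of_inv_not_mem hf'
  obtain ⟨π, hπ⟩ := IsDiscreteValuationRing.exists_irreducible Q.toValuationSubring
  have hfV0 : (⟨f, hf⟩ : Q.toValuationSubring) ≠ 0 := fun h => hf0 (congrArg Subtype.val h)
  obtain ⟨n, u, hu⟩ := IsDiscreteValuationRing.associated_pow_irreducible hfV0 hπ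
  have hn : n ≠ 0 := by
    rintro rfl
    rw [pow_zero] at hu
    apply hf'
    have h1 : f * ((u : Q.toValuationSubring) : F) = 1 := congrArg Subtype.val hu
    rw [← eq_inv_of_mul_eq_one_right h1]
    exact (u : Q.toValuationSubring).2
  have hfeq : f = (((u⁻¹ : (Q.toValuationSubring)ˣ) : Q.toValuationSubring) : F)
      * ((π : F) ^ (n : ℤ)) := by
    have h1 : f * ((u : Q.toValuationSubring) : F) = (π : F) ^ n := congrArg Subtype.val hu
    have h2 : ((u : Q.toValuationSubring) : F)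
        * (((u⁻¹ : (Q.toValuationSubring)ˣ) : Q.toValuationSubring) : F) = 1 :=
      congrArg Subtype.val (u.mul_inv)
    rw [zpow_natCast, ← h1]
    linear_combination -f * h2
  rw [hfeq, Q.ord_unit_smul_zpow u⁻¹ hπ]
  exact_mod_cast Nat.pos_of_ne_zero hn

/-- nonconstant elements are transcendental. -/
theorem transcendental_of_not_mem_range [IsAlgClosed k] {g : F}
    (hg : g ∉ Set.range (algebraMap k F)) : Transcendental k g := by
  intro halg
  have hint : IsIntegral k g := halg.isIntegral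
  have hdeg := IsAlgClosed.degree_eq_one_of_irreducible k (minpoly.irreducible hint)
  obtain ⟨c, hc⟩ := minpoly.mem_range_of_degree_eq_one k g hdeg
  exact hg ⟨c, hc⟩

/-- **(P3)** every nonconstant `g` has a zero: a place `Q` with `ord_Q g > 0`. -/
theorem exists_place_ord_pos [IsAlgClosed k] (x : F) [FiniteDimensional k⟮x⟯ F] (g : F)
    (hg : g ∉ Set.range (algebraMap k F)) : ∃ Q : Place k F, 0 < Q.ord g := by
  have htr := transcendental_of_not_mem_range hg
  have hg0 : g ≠ 0 := fun h => hg ⟨0, by rw [h, map_zero]⟩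
  let A : Subring F := (Algebra.adjoin k {g}).toSubring
  have hgA : g ∈ A := Algebra.subset_adjoin rfl
  have hI : Ideal.span {(⟨g, hgA⟩ : A)} ≠ ⊤ := by
    intro h
    rw [Ideal.span_singleton_eq_top] at h
    obtain ⟨⟨y, hyA⟩, hy⟩ := isUnit_iff_exists_inv.mp h
    have hy' : g * y = 1 := congrArg Subtype.val hy
    have hyA' : y ∈ Algebra.adjoin k {g} := hyA
    rw [Algebra.adjoin_singleton_eq_range_aeval] at hyA'
    obtain ⟨p, rfl⟩ := hyA'
    have h0 : aeval g (X * p - 1) = 0 := by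
      simp only [map_sub, map_mul, aeval_X, map_one]
      rw [sub_eq_zero]
      exact hy'
    have h1 := transcendental_iff.mp htr _ h0
    have h2 := congrArg (fun q => q.coeff 0) h1
    simp at h2
  obtain ⟨V, hAV, hnon⟩ := Ideal.image_subset_nonunits_valuationSubring _ hI
  have hgnon : g ∈ V.nonunits := hnon ⟨⟨g, hgA⟩, Ideal.subset_span rfl, rfl⟩
  have hk : ∀ a : k, algebraMap k F a ∈ V := fun a =>
    hAV (Subalgebra.algebraMap_mem (Algebra.adjoin k {g}) a)
  have hgV : g ∈ V := hAV hgA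
  have hg' : g⁻¹ ∉ V := (V.mem_nonunits_iff_or.mp hgnon).resolve_left hg0
  have hV : V ≠ ⊤ := fun h => hg' (by rw [h]; exact ValuationSubring.mem_top _)
  exact ⟨placeOf x V hk hV, ord_pos_of_mem (placeOf x V hk hV) hgV hg'⟩

/-- every nonconstant `g` has a pole. -/
theorem exists_place_ord_neg [IsAlgClosed k] (x : F) [FiniteDimensional k⟮x⟯ F] (g : F)
    (hg : g ∉ Set.range (algebraMap k F)) : ∃ Q : Place k F, Q.ord g < 0 := by
  have hg0 : g ≠ 0 := fun h => hg ⟨0, by rw [h, map_zero]⟩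
  have hginv : g⁻¹ ∉ Set.range (algebraMap k F) := by
    rintro ⟨c, hc⟩
    exact hg ⟨c⁻¹, by rw [map_inv₀, hc, inv_inv]⟩
  obtain ⟨Q, hQ⟩ := exists_place_ord_pos x g⁻¹ hginv
  refine ⟨Q, ?_⟩
  rw [Q.ord_inv] at hQ
  linarith

/-- **(P4)** `div g = 0` implies `g` constant. -/
theorem exists_algebraMap_eq_of_forall_ord_eq_zero [IsAlgClosed k] (x : F)
    [FiniteDimensional k⟮x⟯ F] (g : F) (h : ∀ Q : Place k F, Q.ord g = 0) :
    ∃ c : k, g = algebraMap k F c := by
  by_contra hne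
  have hg : g ∉ Set.range (algebraMap k F) := fun ⟨c, hc⟩ => hne ⟨c, hc.symm⟩
  obtain ⟨Q, hQ⟩ := exists_place_ord_pos x g hg
  rw [h Q] at hQ
  exact lt_irrefl _ hQ

/-- no poles implies constant. -/
theorem exists_algebraMap_eq_of_forall_ord_nonneg [IsAlgClosed k] (x : F)
    [FiniteDimensional k⟮x⟯ F] (g : F) (h : ∀ Q : Place k F, 0 ≤ Q.ord g) :
    ∃ c : k, g = algebraMap k F c := by
  by_contra hne
  have hg : g ∉ Set.range (algebraMap k F) := fun ⟨c, hc⟩ => hne ⟨c, hc.symm⟩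
  obtain ⟨Q, hQ⟩ := exists_place_ord_neg x g hg
  exact absurd (h Q) (not_le.mpr hQ)

end Global

end Fermat.Agent.S18.H60
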