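import Mathlib
import Fermat.Prelude.Def_AlgebraicCurve_DivisorClassGroup
import Fermat.Agent.S24.Basics_helper19
import Fermat.Agent.S18.PlaceExist_helper60

/-!
# S18: from the Place form of the branch statement to `hunr` of `(NC)`

`K₀` a field of characteristic `0` (a number field), `F₀` a field with an algebra structure
`K₀[X] → F₀` (`X ↦ x`, the chart coordinate of the `K₀`-model), `S` the integral closure of
`K₀[X]` in `F₀`.  `K̄` an algebraically closed field algebraic over `K₀`, `F̄` a function field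
over `K̄`, `φ : F₀ → F̄` a ring homomorphism which is "`K₀ → K̄` on constants and `x ↦ ξ`".

If every place `v` of `F̄ / K̄` over a point `ξ = a` with `Π(a) ≠ 0` is unramified over the
`ξ`-line (`ord_v (ξ - a) = 1`: the landed Place form of the branch statement), then every maximal
ideal `p` of `K₀[X]` with `Π ∉ p` is unramified in `S`: `p S` is a radical ideal.  This is
literally the hypothesis `hunr` of `H57.mul_mem_of_trace_mem` (node (C) of `(NC)`).

No valuation-subring form, no restriction of places, no constant-field-extension lemma.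
-/

set_option autoImplicit false

open Polynomial AlgebraicCurve IntermediateField

namespace Fermat.Agent.S18.H66

open Fermat.Agent.S24.H19

section PlaceLemmas

variable {K F : Type*} [Field K] [Field F] [Algebra K F] (v : Place K F)

/-- polynomials in an integral element are integral -/
theorem aeval_mem_of_mem {ξ : F} (hξ : ξ ∈ v.toValuationSubring) (q : K[X]) :
    aeval ξ q ∈ v.toValuationSubring := by
  induction q using Polynomial.induction_on' with
  | add p q hp hq => rw [map_add]; exact add_mem hp hq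
  | monomial n c =>
    rw [aeval_monomial]
    exact mul_mem (v.algebraMap_mem' c) (pow_mem hξ n)

/-- a polynomial that does not vanish at the residue `a` of `ξ` is a unit at the place -/
theorem ord_aeval_eq_zero_of_eval_ne_zero' {ξ : F} (a : K)
    (hXa : 0 < v.ord (ξ - algebraMap K F a)) (q : K[X]) (hq : q.eval a ≠ 0) :
    aeval ξ q ≠ 0 ∧ v.ord (aeval ξ q) = 0 := by
  have hξ : ξ ∈ v.toValuationSubring := by
    have h1 : ξ - algebraMap K F a ∈ v.toValuationSubring := mem_of_ord_nonneg v hXa.le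
    have := add_mem h1 (v.algebraMap_mem' a)
    simpa using this
  obtain ⟨s, hs⟩ := Polynomial.X_sub_C_dvd_sub_C_eval (a := a) (p := q)
  have h1 : q = C (q.eval a) + (X - C a) * s := by rw [← hs]; ring
  have e : aeval ξ q = algebraMap K F (q.eval a) + (ξ - algebraMap K F a) * aeval ξ s := by
    conv_lhs => rw [h1]
    simp
  have hXa0 : ξ - algebraMap K F a ≠ 0 := by
    intro h0
    rw [h0, v.ord_zero] at hXa
    exact lt_irrefl _ hXa
  have hc0 : algebraMap K F (q.eval a) ≠ 0 := (_root_.map_ne_zero _).mpr hq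
  by_cases hs0 : aeval ξ s = 0
  · rw [e, hs0, mul_zero, add_zero]
    exact ⟨hc0, ord_algebraMap v _⟩
  have hpos : 0 < v.ord ((ξ - algebraMap K F a) * aeval ξ s) := by
    rw [v.ord_mul hXa0 hs0]
    have := ord_nonneg_of_mem v (aeval_mem_of_mem v hξ s)
    omega
  have hprod0 : (ξ - algebraMap K F a) * aeval ξ s ≠ 0 := mul_ne_zero hXa0 hs0
  have hne : aeval ξ q ≠ 0 := by
    intro h0
    have h2 : (ξ - algebraMap K F a) * aeval ξ s = -algebraMap K F (q.eval a) := by
      rw [e] at h0
      exact eq_neg_of_add_eq_zero_right h0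
    rw [h2, ord_neg, ord_algebraMap] at hpos
    exact lt_irrefl _ hpos
  refine ⟨hne, ?_⟩
  have h3 := ord_add_ge v (f := algebraMap K F (q.eval a))
    (g := (ξ - algebraMap K F a) * aeval ξ s) (by rw [← e]; exact hne)
  rw [← e, ord_algebraMap, min_eq_left hpos.le] at h3
  have h4 := ord_sub_ge v (f := aeval ξ q) (g := (ξ - algebraMap K F a) * aeval ξ s)
    (by rw [e, add_sub_cancel_right]; exact hc0)
  rw [show aeval ξ q - (ξ - algebraMap K F a) * aeval ξ s = algebraMap K F (q.eval a) by
    rw [e, add_sub_cancel_right], ord_algebraMap] at h4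
  rcases le_total (v.ord (aeval ξ q)) (v.ord ((ξ - algebraMap K F a) * aeval ξ s)) with h | h
  · rw [min_eq_left h] at h4
    omega
  · rw [min_eq_right h] at h4
    omega

/-- at an unramified point, a separable polynomial vanishing at the residue has order one -/
theorem ord_aeval_eq_one_of_simple_root {ξ : F} (a : K)
    (h1 : v.ord (ξ - algebraMap K F a) = 1) (q : K[X]) (hsep : q.Separable)
    (hroot : q.eval a = 0) : aeval ξ q ≠ 0 ∧ v.ord (aeval ξ q) = 1 := by
  have hXa : 0 < v.ord (ξ - algebraMap K F a) := by rw [h1]; exact one_pos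
  obtain ⟨r, hr⟩ := Polynomial.dvd_iff_isRoot.mpr (show q.IsRoot a from hroot)
  have hra : r.eval a ≠ 0 := by
    intro h0
    obtain ⟨r', hr'⟩ := Polynomial.dvd_iff_isRoot.mpr (show r.IsRoot a from h0)
    have hsq : (X - C a) * (X - C a) ∣ q := ⟨r', by rw [hr, hr']; ring⟩
    exact Polynomial.not_isUnit_X_sub_C a (hsep.squarefree _ hsq)
  obtain ⟨hne, hord⟩ := ord_aeval_eq_zero_of_eval_ne_zero' v a hXa r hra
  have hXa0 : ξ - algebraMap K F a ≠ 0 := by
    intro h0
    rw [h0, v.ord_zero] at hXa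
    exact lt_irrefl _ hXa
  have e : aeval ξ q = (ξ - algebraMap K F a) * aeval ξ r := by
    rw [hr, map_mul]
    simp
  rw [e]
  exact ⟨mul_ne_zero hXa0 hne, by rw [v.ord_mul hXa0 hne, h1, hord, add_zero]⟩

end PlaceLemmas

section Unr

variable {K0 F0 Kb Fb S : Type*} [Field K0] [CharZero K0] [Field F0] [Algebra K0[X] F0]
  [Field Kb] [IsAlgClosed Kb] [Algebra K0 Kb] [Algebra.IsAlgebraic K0 Kb]
  [Field Fb] [Algebra Kb Fb]
  [CommRing S] [Algebra K0[X] S] [Algebra S F0] [IsScalarTower K0[X] S F0]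
  [IsIntegralClosure S K0[X] F0]

omit [CharZero K0] [CommRing S] [Algebra K0[X] S] [Algebra S F0] [IsScalarTower K0[X] S F0]
  [IsIntegralClosure S K0[X] F0] [IsAlgClosed Kb] [Algebra.IsAlgebraic K0 Kb] in
/-- a ring homomorphism `φ : F₀ → F̄` which is `K₀ → K̄` on constants and sends the coordinate
`x` to `ξ` is `p(x) ↦ p(ξ)` on `K₀[X]`. -/
theorem map_algebraMap_eq_aeval (φ : F0 →+* Fb) (ξ : Fb)
    (hC : ∀ c : K0, φ (algebraMap K0[X] F0 (C c)) = algebraMap Kb Fb (algebraMap K0 Kb c))
    (hX : φ (algebraMap K0[X] F0 X) = ξ) (p : K0[X]) :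
    φ (algebraMap K0[X] F0 p) = aeval ξ (p.map (algebraMap K0 Kb)) := by
  have h : (φ.comp (algebraMap K0[X] F0)) =
      ((aeval ξ : Kb[X] →ₐ[Kb] Fb) : Kb[X] →+* Fb).comp (mapRingHom (algebraMap K0 Kb)) := by
    refine Polynomial.ringHom_ext (fun c => ?_) ?_
    · simp only [RingHom.comp_apply, coe_mapRingHom, Polynomial.map_C, RingHom.coe_coe, aeval_C]
      exact hC c
    · simp only [RingHom.comp_apply, coe_mapRingHom, Polynomial.map_X, RingHom.coe_coe, aeval_X]
      exact hX
  exact RingHom.congr_fun h p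

omit [CharZero K0] in
/-- the core: if `y ^ n = τ(x) * s` in the integral closure `S` of `K₀[X]`, with `τ` separable
and coprime to the branch polynomial `Π`, then `y / τ(x)` is integral over `K₀[X]`. -/
theorem isIntegral_div_of_pow_eq (φ : F0 →+* Fb) (ξ : Fb) (hξ : Transcendental Kb ξ)
    [FiniteDimensional Kb⟮ξ⟯ Fb]
    (hφ : ∀ p : K0[X], φ (algebraMap K0[X] F0 p) = aeval ξ (p.map (algebraMap K0 Kb)))
    (Pi : K0[X])
    (hbr : ∀ (v : Place Kb Fb) (a : Kb), (Pi.map (algebraMap K0 Kb)).eval a ≠ 0 →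
      0 < v.ord (ξ - algebraMap Kb Fb a) → v.ord (ξ - algebraMap Kb Fb a) = 1)
    (τ : K0[X]) (hτsep : τ.Separable) (u w : K0[X]) (huw : u * τ + w * Pi = 1)
    (y s : S) (n : ℕ) (hn : 0 < n) (hys : y ^ n = algebraMap K0[X] S τ * s) :
    IsIntegral K0[X] (algebraMap S F0 y / algebraMap K0[X] F0 τ) := by
  classical
  set τb : Kb[X] := τ.map (algebraMap K0 Kb) with hτb
  have hτbsep : τb.Separable := hτsep.map
  set τ' : F0 := algebraMap K0[X] F0 τ with hτ'
  have hφτ : φ τ' = aeval ξ τb := hφ τ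
  set y' : F0 := algebraMap S F0 y with hy'
  set s' : F0 := algebraMap S F0 s with hs'
  have hys' : y' ^ n = τ' * s' := by
    have := congrArg (algebraMap S F0) hys
    rwa [map_pow, map_mul, ← IsScalarTower.algebraMap_apply] at this
  have hy'int : IsIntegral K0[X] y' := (IsIntegralClosure.isIntegral_iff (A := S)).mpr ⟨y, rfl⟩
  have hs'int : IsIntegral K0[X] s' := (IsIntegralClosure.isIntegral_iff (A := S)).mpr ⟨s, rfl⟩
  -- transport to `Fb`
  let _ : Algebra K0[X] Fb := (φ.comp (algebraMap K0[X] F0)).toAlgebra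
  let φa : F0 →ₐ[K0[X]] Fb := { φ with commutes' := fun r => rfl }
  have hφa : ∀ x, φa x = φ x := fun x => rfl
  suffices h : IsIntegral K0[X] (φa (y' / τ')) from (isIntegral_algHom_iff φa φ.injective).mp h
  by_contra hcon
  have hnot : φa (y' / τ') ∉ (integralClosure K0[X] Fb).toSubring := hcon
  obtain ⟨V, hle, hV⟩ := Subring.exists_le_valuationSubring_of_isIntegrallyClosedIn hnot
  have hmemV : ∀ x : Fb, IsIntegral K0[X] x → x ∈ V := fun x hx => hle hx
  -- constants
  have hk : ∀ c : Kb, algebraMap Kb Fb c ∈ V := by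
    intro c
    apply hmemV
    obtain ⟨P, hPm, hP⟩ := (Algebra.IsAlgebraic.isAlgebraic (R := K0) c).isIntegral
    refine ⟨P.map (C : K0 →+* K0[X]), hPm.map _, ?_⟩
    rw [Polynomial.eval₂_map]
    have hcomp : (algebraMap K0[X] Fb).comp (C : K0 →+* K0[X]) =
        (algebraMap Kb Fb).comp (algebraMap K0 Kb) := by
      ext k
      show φ (algebraMap K0[X] F0 (C k)) = _
      rw [hφ, Polynomial.map_C, aeval_C]
      rfl
    rw [hcomp, ← Polynomial.hom_eval₂, hP, map_zero]
  have hξV : ξ ∈ V := by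
    apply hmemV
    have : ξ = algebraMap K0[X] Fb X := by
      show ξ = φ (algebraMap K0[X] F0 X)
      rw [hφ, Polynomial.map_X, aeval_X]
    rw [this]
    exact isIntegral_algebraMap
  have hVtop : V ≠ ⊤ := fun h => hV (h ▸ ValuationSubring.mem_top _)
  let v : Place Kb Fb := H60.placeOf ξ V hk hVtop
  have hy'V : φ y' ∈ v.toValuationSubring := hmemV _ (hy'int.map φa)
  have hs'V : φ s' ∈ v.toValuationSubring := hmemV _ (hs'int.map φa)
  obtain ⟨a, ha⟩ := residue_eq ξ hξ inferInstance v (u := ξ) hξV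
  have hXa : 0 < v.ord (ξ - algebraMap Kb Fb a) := by
    rcases ha with ha | ha
    · exact absurd (ha ▸ isAlgebraic_algebraMap a) hξ
    · exact ha
  apply hV
  show φ (y' / τ') ∈ v.toValuationSubring
  rw [map_div₀]
  by_cases hy0 : φ y' = 0
  · rw [hy0, zero_div]
    exact zero_mem _
  by_cases hroot : τb.eval a = 0
  · -- a point over a root of `τ`: unramified by `hbr`
    have hPia : (Pi.map (algebraMap K0 Kb)).eval a ≠ 0 := by
      intro h0
      have h := congrArg (fun q : K0[X] => (q.map (algebraMap K0 Kb)).eval a) huw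
      simp only [Polynomial.map_add, Polynomial.map_mul, Polynomial.eval_add,
        Polynomial.eval_mul, Polynomial.map_one, Polynomial.eval_one] at h
      rw [← hτb, hroot, h0, mul_zero, mul_zero, add_zero] at h
      exact zero_ne_one h
    have h1 := hbr v a hPia hXa
    obtain ⟨hne, hord⟩ := ord_aeval_eq_one_of_simple_root v a h1 τb hτbsep hroot
    apply mem_of_ord_nonneg
    rw [ord_div v hy0 (by rw [hφτ]; exact hne), hφτ, hord]
    have e := congrArg (fun z => v.ord (φ z)) hys'
    simp only [map_pow, map_mul] at e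
    rw [ord_pow, hφτ] at e
    have hs0 : φ s' ≠ 0 := by
      intro hs0
      have : φ y' ^ n = 0 := by rw [← map_pow, hys', map_mul, hs0, mul_zero]
      exact hy0 ((pow_eq_zero_iff hn.ne').mp this)
    rw [v.ord_mul hne hs0, hord] at e
    have hsn := ord_nonneg_of_mem v hs'V
    have hk1 : 1 ≤ v.ord (φ y') := by
      by_contra hlt
      have h0 : v.ord (φ y') ≤ 0 := by omega
      have : (n : ℤ) * v.ord (φ y') ≤ 0 :=
        mul_nonpos_of_nonneg_of_nonpos (by positivity) h0
      omega
    omega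
  · obtain ⟨hne, hord⟩ := ord_aeval_eq_zero_of_eval_ne_zero' v a hXa τb hroot
    apply mem_of_ord_nonneg
    rw [ord_div v hy0 (by rw [hφτ]; exact hne), hφτ, hord]
    have := ord_nonneg_of_mem v hy'V
    omega

/-- **Place form ⟹ `hunr`.**  Every maximal ideal of `K₀[X]` not containing the branch
polynomial `Π` is unramified in the integral closure `S` of `K₀[X]` in `F₀`. -/
theorem isRadical_map_of_place_unramified (φ : F0 →+* Fb) (ξ : Fb) (hξ : Transcendental Kb ξ)
    [FiniteDimensional Kb⟮ξ⟯ Fb]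
    (hφ : ∀ p : K0[X], φ (algebraMap K0[X] F0 p) = aeval ξ (p.map (algebraMap K0 Kb)))
    (Pi : K0[X])
    (hbr : ∀ (v : Place Kb Fb) (a : Kb), (Pi.map (algebraMap K0 Kb)).eval a ≠ 0 →
      0 < v.ord (ξ - algebraMap Kb Fb a) → v.ord (ξ - algebraMap Kb Fb a) = 1)
    (p : Ideal K0[X]) (hp : p.IsMaximal) (hPi : Pi ∉ p) :
    (p.map (algebraMap K0[X] S)).IsRadical := by
  classical
  obtain ⟨τ, hτ⟩ := Submodule.IsPrincipal.principal p
  have hpτ : p = Ideal.span {τ} := hτ
  have hτ0 : τ ≠ 0 := by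
    rintro rfl
    have hX : (X : K0[X]) ∉ p := by
      rw [hpτ, Ideal.mem_span_singleton, zero_dvd_iff]
      exact X_ne_zero
    obtain ⟨y, i, hi, hyi⟩ := hp.exists_inv hX
    rw [hpτ, Ideal.mem_span_singleton, zero_dvd_iff] at hi
    rw [hi, add_zero] at hyi
    exact Polynomial.not_isUnit_X (IsUnit.of_mul_eq_one y (by rw [mul_comm]; exact hyi))
  have hτprime : Prime τ := (Ideal.span_singleton_prime hτ0).mp (hpτ ▸ hp.isPrime)
  have hτsep : τ.Separable := hτprime.irreducible.separable
  obtain ⟨w, i, hi, hwi⟩ := hp.exists_inv hPi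
  rw [hpτ, Ideal.mem_span_singleton'] at hi
  obtain ⟨u, rfl⟩ := hi
  have huw : u * τ + w * Pi = 1 := by rw [add_comm]; exact hwi
  have hτ'0 : algebraMap K0[X] F0 τ ≠ 0 := by
    intro h0
    have h1 : aeval ξ (τ.map (algebraMap K0 Kb)) = 0 := by rw [← hφ, h0, map_zero]
    exact Polynomial.map_ne_zero hτ0 ((transcendental_iff.mp hξ) _ h1)
  rw [hpτ, Ideal.map_span, Set.image_singleton]
  intro y hy
  obtain ⟨n, hn⟩ := hy
  rw [Ideal.mem_span_singleton'] at hn ⊢
  obtain ⟨s, hs⟩ := hn
  rcases Nat.eq_zero_or_pos n with rfl | hnpos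
  · exact ⟨y * s, by rw [mul_assoc, hs, pow_zero, mul_one]⟩
  · have hint := isIntegral_div_of_pow_eq (S := S) φ ξ hξ hφ Pi hbr τ hτsep u w huw y s n hnpos
      (by rw [← hs, mul_comm])
    refine ⟨IsIntegralClosure.mk' S _ hint, ?_⟩
    apply IsIntegralClosure.algebraMap_injective S K0[X] F0
    rw [map_mul, IsIntegralClosure.algebraMap_mk', ← IsScalarTower.algebraMap_apply]
    exact div_mul_cancel₀ _ hτ'0

end Unr

end Fermat.Agent.S18.H66
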