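import Mathlib
import Fermat.Agent.S24.CoverRam_helper98
import Fermat.Agent.S24.CoverAsm_helper31
import Fermat.Agent.S24.ValSpec_helper90
import Fermat.Agent.S24.PhiData_helper69
import Fermat.Agent.S24.Finite_helper89
import Fermat.Agent.S24.JTrans_helper89
import Fermat.Agent.S24.HurwitzFinal_helper14

/-!
# S18, node RAM0: the exact ramification of `Qbar(j) ⊆ Qbar(X₀(N))` in characteristic `0`

The landed S24 interface (`H98.ramification_data_of_cover`) exports only the *number* of places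
above `0`, `1728`, `∞`.  Here we extract from the same analytic cover the *exact divisibility*
of the ramification indices:

* `ord_sub_eq_one`   : `e = 1` above every `a ∉ {0, 1728}`;
* `ord_j_dvd_three`  : `e ∣ 3` above `j = 0`;
* `ord_j_sub_dvd_two`: `e ∣ 2` above `j = 1728`;
* `ord_inv_j_dvd_level` / `neg_ord_j_dvd_level` : `e ∣ N` at the poles of `j` (the cusps).

Key point: every place above `y` is cut out by one of the conjugate cover valuations
(`exists_zval_of_place`, the surjectivity step of `H98.count_places_action`), so its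
index divides the order of `y` at the cover valuation (`3`, `2`, `N`).
-/

set_option autoImplicit false

open AlgebraicCurve IntermediateField
open scoped MatrixGroups
open ModularCurve CongruenceSubgroup ModularGroup
open Fermat.Agent.S24 Fermat.Agent.S24.H98
open Fermat.Agent.S24.H31 (ZVal)

namespace Fermat.Agent.S18.H10

section Generic

variable {K F : Type*} [Field K] [Field F] [Algebra K F]

/-- **Every place above `y` is cut out by one of the valuations `W ξ`.**
(The surjectivity step of `H98.count_places_action`, exported with the comparison factor.) -/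
theorem exists_zval_of_place [IsAlgClosed K] [CharZero K] (y : F) (hy : Transcendental K y)
    [FiniteDimensional K⟮y⟯ F] {X : Type*} [Fintype X] (W : X → ZVal F)
    (hK : ∀ ξ (c : K), c ≠ 0 → (W ξ).ord (algebraMap K F c) = 0)
    (hy0 : ∀ ξ, 0 < (W ξ).ord y)
    (hnorm : ∀ f : F, f ≠ 0 → IsIntegral (Algebra.adjoin K {y}) f →
      ∃ (c : F) (p : Polynomial K), IsIntegral (Algebra.adjoin K {y}) c ∧
        f * c = Polynomial.aeval y p ∧ (p.eval 0 = 0 → ∃ ξ, 0 < (W ξ).ord f))
    (v : Place K F) (hv : 0 < v.ord y) :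
    ∃ (ξ : X) (m : ℤ), 0 < m ∧ ∀ f : F, f ≠ 0 → (W ξ).ord f = m * v.ord f := by
  classical
  have hy_ne : y ≠ 0 := fun h => hy (h ▸ isAlgebraic_zero)
  have hex : ∀ ξ, ∃ (v : Place K F) (m : ℤ), 0 < m ∧
      ∀ f : F, f ≠ 0 → (W ξ).ord f = m * v.ord f :=
    fun ξ => H19.exists_place_of_zval (W ξ) (hK ξ) ⟨y, hy_ne, (hy0 ξ).ne'⟩
  choose vp m hm hW using hex
  have hpos : ∀ ξ, 0 < (vp ξ).ord y := by
    intro ξ
    have := hy0 ξ
    rw [hW ξ y hy_ne] at this
    exact (mul_pos_iff_of_pos_left (hm ξ)).mp this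
  by_contra hne
  have hne' : ∀ ξ, vp ξ ≠ v := by
    intro ξ h
    exact hne ⟨ξ, m ξ, hm ξ, fun f hf => by rw [← h]; exact hW ξ f hf⟩
  let S' : Finset (Place K F) := Finset.univ.image vp
  have hS' : ∀ w ∈ S', 0 < w.ord y := by
    intro w hw
    obtain ⟨ξ, -, rfl⟩ := Finset.mem_image.mp hw
    exact hpos ξ
  have hnot : v ∉ S' := by
    intro hw
    obtain ⟨ξ, -, hξ⟩ := Finset.mem_image.mp hw
    exact hne' ξ hξ
  obtain ⟨f, hf0, hfint, hfv', hfS⟩ :=
    H32.exists_integral_separating y hy v hv S' hS' hnot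
  obtain ⟨c, P, hcint, hfc, hP⟩ := hnorm f hf0 hfint
  have hP0 : P.eval 0 = 0 := by
    by_contra hP0
    obtain ⟨hne'', hord⟩ := H98.aeval_ord_eq_zero v hv P hP0
    have hc0 : c ≠ 0 := by
      rintro rfl
      rw [mul_zero] at hfc
      exact hne'' hfc.symm
    have h1 := v.ord_mul hf0 hc0
    rw [hfc, hord] at h1
    have hcn := H19.isIntegral_ord_nonneg v hv.le hcint
    omega
  obtain ⟨ξ, hξ⟩ := hP hP0
  rw [hW ξ f hf0, hfS (vp ξ) (Finset.mem_image_of_mem _ (Finset.mem_univ ξ)), mul_zero] at hξ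
  exact lt_irrefl _ hξ

end Generic

section Cover

variable {N : ℕ} [NeZero N] (C : AnalyticCover N)

/-- **Every place of `F_N` above `y` is cut out by a conjugate of the cover valuation `z`.** -/
theorem exists_conj_of_place (y : FN N) (hy : Transcendental Kbar y)
    [FiniteDimensional Kbar⟮y⟯ (FN N)]
    (hyfix : ∀ (g : SL(2, ℤ)) (c : FN N), c ∈ Algebra.adjoin Kbar {y} → g • C.Φ c = C.Φ c)
    (hinv : ∀ x : C.L, (∀ g : SL(2, ℤ), g • x = x) →
      IsIntegral ((Algebra.adjoin Kbar {y}).toSubring.map C.Φ) x →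
      ∃ P : Polynomial Kbar, x = C.Φ (Polynomial.aeval y P))
    (z : ZVal C.L) (hzc : ∀ c : Kbar, c ≠ 0 → z.ord (C.Φ (algebraMap Kbar (FN N) c)) = 0)
    (hzy : 0 < z.ord (C.Φ y))
    (v : Place Kbar (FN N)) (hv : 0 < v.ord y) :
    ∃ (ξ : XN N) (m : ℤ), 0 < m ∧ ∀ f : FN N, f ≠ 0 → z.ord (C.conj ξ f) = m * v.ord f := by
  classical
  have hy_ne : y ≠ 0 := fun h => hy (h ▸ isAlgebraic_zero)
  have hyself : ∀ g : SL(2, ℤ), g • C.Φ y = C.Φ y := fun g =>
    hyfix g y (Algebra.self_mem_adjoin_singleton _ _)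
  have hconj_y : ∀ ξ : XN N, C.conj ξ y = C.Φ y := fun ξ => by rw [C.conj_apply, hyself]
  have hconj_c : ∀ (ξ : XN N) (c : Kbar),
      C.conj ξ (algebraMap Kbar (FN N) c) = C.Φ (algebraMap Kbar (FN N) c) := fun ξ c => by
    rw [C.conj_apply, C.smul_const]
  let W : XN N → ZVal (FN N) := fun ξ => z.comap (C.conj ξ)
  refine exists_zval_of_place y hy W ?hK ?hy0 ?hnorm v hv
  case hK =>
    intro ξ c hc
    show z.ord (C.conj ξ _) = 0
    rw [hconj_c]; exact hzc c hc
  case hy0 =>
    intro ξ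
    show 0 < z.ord (C.conj ξ y)
    rw [hconj_y]; exact hzy
  case hnorm =>
    intro f hf hfint
    obtain ⟨c, p, hcint, hfc, hprod⟩ := H45.exists_norm_relation (K := Kbar) (G := SL(2, ℤ))
      C.Φ y (fun ξ : XN N => ξ.out) (QuotientGroup.mk 1) (fun f => C.conj_one f)
      (fun g => ⟨MulAction.toPerm g, fun ξ f => C.smul_conj g ξ f⟩) hyfix hinv f hfint
    refine ⟨c, p, hcint, hfc, fun hp0 => ?_⟩
    have hprod_ne : ∏ ξ : XN N, C.conj ξ f ≠ 0 :=
      Finset.prod_ne_zero_iff.mpr fun ξ _ => C.conj_ne_zero ξ hf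
    have hprod' : C.Φ (Polynomial.aeval y p) = ∏ ξ : XN N, C.conj ξ f ∨
        C.Φ (Polynomial.aeval y p) = - ∏ ξ : XN N, C.conj ξ f := hprod
    have hΦp_ne : C.Φ (Polynomial.aeval y p) ≠ 0 := by
      rcases hprod' with h | h
      · rw [h]; exact hprod_ne
      · rw [h]; exact neg_ne_zero.mpr hprod_ne
    have hord : z.ord (C.Φ (Polynomial.aeval y p)) = ∑ ξ : XN N, z.ord (C.conj ξ f) := by
      rcases hprod' with h | h
      · rw [h, z.ord_prod _ _ fun ξ _ => C.conj_ne_zero ξ hf]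
      · rw [h, z.ord_neg hprod_ne, z.ord_prod _ _ fun ξ _ => C.conj_ne_zero ξ hf]
    obtain ⟨q, rfl⟩ : Polynomial.X ∣ p :=
      Polynomial.X_dvd_iff.mpr (by rwa [Polynomial.coeff_zero_eq_eval_zero])
    have hq_ne : Polynomial.aeval y q ≠ 0 := by
      intro h0
      apply hΦp_ne
      rw [map_mul, h0, mul_zero, map_zero]
    have hΦy_ne : C.Φ y ≠ 0 := (map_ne_zero C.Φ).mpr hy_ne
    have hΦq_ne : C.Φ (Polynomial.aeval y q) ≠ 0 := (map_ne_zero C.Φ).mpr hq_ne
    have hqnn := C.ord_aeval_nonneg y hy_ne z hzc hzy q hq_ne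
    have hpos : 0 < z.ord (C.Φ (Polynomial.aeval y (Polynomial.X * q))) := by
      rw [map_mul, Polynomial.aeval_X, map_mul, z.ord_mul hΦy_ne hΦq_ne]
      omega
    by_contra hall
    have hall' : ∀ ξ : XN N, z.ord (C.conj ξ f) ≤ 0 := fun ξ =>
      not_lt.mp fun h => hall ⟨ξ, h⟩
    have hsum : ∑ ξ : XN N, z.ord (C.conj ξ f) ≤ 0 := Finset.sum_nonpos fun ξ _ => hall' ξ
    omega

/-- the index of a place above `y` divides the order of `y` at the cover valuation -/
theorem ord_dvd_of_place (y : FN N) (hy : Transcendental Kbar y)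
    [FiniteDimensional Kbar⟮y⟯ (FN N)]
    (hyfix : ∀ (g : SL(2, ℤ)) (c : FN N), c ∈ Algebra.adjoin Kbar {y} → g • C.Φ c = C.Φ c)
    (hinv : ∀ x : C.L, (∀ g : SL(2, ℤ), g • x = x) →
      IsIntegral ((Algebra.adjoin Kbar {y}).toSubring.map C.Φ) x →
      ∃ P : Polynomial Kbar, x = C.Φ (Polynomial.aeval y P))
    (z : ZVal C.L) (hzc : ∀ c : Kbar, c ≠ 0 → z.ord (C.Φ (algebraMap Kbar (FN N) c)) = 0)
    (hzy : 0 < z.ord (C.Φ y))
    (v : Place Kbar (FN N)) (hv : 0 < v.ord y) :
    v.ord y ∣ z.ord (C.Φ y) := by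
  have hy_ne : y ≠ 0 := fun h => hy (h ▸ isAlgebraic_zero)
  obtain ⟨ξ, m, -, hm⟩ := exists_conj_of_place C y hy hyfix hinv z hzc hzy v hv
  have h := hm y hy_ne
  have hyself : C.conj ξ y = C.Φ y := by
    rw [C.conj_apply]
    exact hyfix _ y (Algebra.self_mem_adjoin_singleton _ _)
  rw [hyself] at h
  exact ⟨m, by rw [h, mul_comm]⟩

/-- `ord_dvd_of_place` for `y = j - a`. -/
theorem ord_sub_dvd (a : Kbar) (hx : Transcendental Kbar (jBar N))
    (z : ZVal C.L) (hzc : ∀ c : Kbar, c ≠ 0 → z.ord (C.Φ (algebraMap Kbar (FN N) c)) = 0)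
    (hzy : 0 < z.ord (C.Φ (jBar N - algebraMap Kbar (FN N) a)))
    (v : Place Kbar (FN N)) (hv : 0 < v.ord (jBar N - algebraMap Kbar (FN N) a)) :
    v.ord (jBar N - algebraMap Kbar (FN N) a)
      ∣ z.ord (C.Φ (jBar N - algebraMap Kbar (FN N) a)) := by
  have hcongr := finrank_congr_intermediateField (adjoin_sub_algebraMap (jBar N) a)
  have : FiniteDimensional Kbar⟮jBar N - algebraMap Kbar (FN N) a⟯ (FN N) :=
    hcongr.1.mpr C.finite
  have hadj := algebraAdjoin_sub_algebraMap (jBar N) a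
  exact ord_dvd_of_place C (jBar N - algebraMap Kbar (FN N) a)
    (transcendental_sub_algebraMap hx a)
    (fun g c hc => C.smul_adjoin_j g c (hadj ▸ hc))
    (fun x hxfix hxint => by
      rw [hadj] at hxint
      obtain ⟨P, hP⟩ := C.invariant_j x hxfix hxint
      refine ⟨P.comp (Polynomial.X + Polynomial.C a), ?_⟩
      rw [hP, Polynomial.aeval_comp]
      congr 2
      rw [Polynomial.aeval_add, Polynomial.aeval_X, Polynomial.aeval_C, sub_add_cancel])
    z hzc hzy v hv

/-- `ord_dvd_of_place` for `y = 1 / j`. -/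
theorem ord_inv_dvd (hx : Transcendental Kbar (jBar N))
    (z : ZVal C.L) (hzc : ∀ c : Kbar, c ≠ 0 → z.ord (C.Φ (algebraMap Kbar (FN N) c)) = 0)
    (hzy : 0 < z.ord (C.Φ (jBar N)⁻¹))
    (v : Place Kbar (FN N)) (hv : 0 < v.ord (jBar N)⁻¹) :
    v.ord (jBar N)⁻¹ ∣ z.ord (C.Φ (jBar N)⁻¹) := by
  have hcongr := finrank_congr_intermediateField (adjoin_inv (K := Kbar) (jBar N))
  have : FiniteDimensional Kbar⟮(jBar N)⁻¹⟯ (FN N) := hcongr.1.mpr C.finite
  exact ord_dvd_of_place C (jBar N)⁻¹ (transcendental_inv hx)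
    (fun g c hc => C.smul_adjoin_jinv g c hc) C.invariant_jinv z hzc hzy v hv

include C

/-- above `j = 0` the ramification index divides `3` -/
theorem cover_ord_j_dvd_three (hx : Transcendental Kbar (jBar N)) (v : Place Kbar (FN N))
    (hv : 0 < v.ord (jBar N - algebraMap Kbar (FN N) 0)) :
    v.ord (jBar N - algebraMap Kbar (FN N) 0) ∣ 3 := by
  have h := ord_sub_dvd C 0 hx C.zRho C.zRho_const (by rw [C.zRho_j]; norm_num) v hv
  rwa [C.zRho_j] at h

/-- above `j = 1728` the ramification index divides `2` -/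
theorem cover_ord_j_sub_dvd_two (hx : Transcendental Kbar (jBar N)) (v : Place Kbar (FN N))
    (hv : 0 < v.ord (jBar N - algebraMap Kbar (FN N) 1728)) :
    v.ord (jBar N - algebraMap Kbar (FN N) 1728) ∣ 2 := by
  have h := ord_sub_dvd C 1728 hx C.zI C.zI_const (by rw [C.zI_j]; norm_num) v hv
  rwa [C.zI_j] at h

/-- at a pole of `j` the ramification index divides `N` -/
theorem cover_ord_inv_j_dvd_level (hx : Transcendental Kbar (jBar N)) (v : Place Kbar (FN N))
    (hv : 0 < v.ord (jBar N)⁻¹) :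
    v.ord (jBar N)⁻¹ ∣ (N : ℤ) := by
  have hN : 0 < N := Nat.pos_of_ne_zero (NeZero.ne N)
  have h := ord_inv_dvd C hx C.zInf C.zInf_const (by rw [C.zInf_j]; exact_mod_cast hN) v hv
  rwa [C.zInf_j] at h

end Cover

/-! ### Unconditional statements -/

section Final

variable (N : ℕ) [NeZero N]

/-- `j` is transcendental over `Qbar` in `F_N`. -/
theorem transcendental_jBar : Transcendental Kbar (jBar N) :=
  H89.transcendental_jBar N _

/-- the analytic cover exists -/
theorem nonempty_analyticCover : Nonempty (AnalyticCover N) := by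
  obtain ⟨P⟩ := H69.nonempty_phiData N
  exact ⟨H31.analyticCoverOf (H90.valSpec N) P (H89.finite_FN P)⟩

/-- `F_N` is finite over `Qbar(j)` -/
theorem finiteDimensional_FN : FiniteDimensional Kbar⟮jBar N⟯ (FN N) := by
  obtain ⟨C⟩ := nonempty_analyticCover N
  exact C.finite

/-- the degree of `F_N` over `Qbar(j)` is the index of `Γ₀(N)` -/
theorem finrank_FN : Module.finrank Kbar⟮jBar N⟯ (FN N) = Nat.card (XN N) := by
  obtain ⟨C⟩ := nonempty_analyticCover N
  rw [C.finrank_eq (transcendental_jBar N), Nat.card_eq_fintype_card]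

/-- **(R1)** `j` is unramified above every `a ∉ {0, 1728}`. -/
theorem ord_sub_eq_one (a : Kbar) (ha0 : a ≠ 0) (ha1 : a ≠ 1728) (v : Place Kbar (FN N))
    (hv : 0 < v.ord (jBar N - algebraMap Kbar (FN N) a)) :
    v.ord (jBar N - algebraMap Kbar (FN N) a) = 1 := by
  obtain ⟨C⟩ := nonempty_analyticCover N
  exact C.unramified (transcendental_jBar N) a ha0 ha1 v hv

/-- **(R2)** above `j = 0` the ramification index divides `3`. -/
theorem ord_j_dvd_three (v : Place Kbar (FN N)) (hv : 0 < v.ord (jBar N)) :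
    v.ord (jBar N) ∣ 3 := by
  obtain ⟨C⟩ := nonempty_analyticCover N
  have h0 : jBar N - algebraMap Kbar (FN N) 0 = jBar N := by rw [map_zero, sub_zero]
  have h := cover_ord_j_dvd_three C (transcendental_jBar N) v (by rwa [h0])
  rwa [h0] at h

/-- **(R3)** above `j = 1728` the ramification index divides `2`. -/
theorem ord_j_sub_dvd_two (v : Place Kbar (FN N))
    (hv : 0 < v.ord (jBar N - algebraMap Kbar (FN N) 1728)) :
    v.ord (jBar N - algebraMap Kbar (FN N) 1728) ∣ 2 := by
  obtain ⟨C⟩ := nonempty_analyticCover N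
  exact cover_ord_j_sub_dvd_two C (transcendental_jBar N) v hv

/-- **(R4)** at a pole of `j` (a cusp) the ramification index divides the level. -/
theorem ord_inv_j_dvd_level (v : Place Kbar (FN N)) (hv : 0 < v.ord (jBar N)⁻¹) :
    v.ord (jBar N)⁻¹ ∣ (N : ℤ) := by
  obtain ⟨C⟩ := nonempty_analyticCover N
  exact cover_ord_inv_j_dvd_level C (transcendental_jBar N) v hv

/-- **(R4')** the same in terms of the pole order of `j`. -/
theorem neg_ord_j_dvd_level (v : Place Kbar (FN N)) (hv : v.ord (jBar N) < 0) :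
    (-v.ord (jBar N)) ∣ (N : ℤ) := by
  have h := ord_inv_j_dvd_level N v (by rw [Place.ord_inv]; omega)
  rwa [Place.ord_inv] at h

/-- **(R5)** the general function-field inputs (degree-one places, centres, fundamental identity,
behaviour of `dj`) for `F_N` over `Qbar(j)`. -/
theorem rhInputs_FN : H14.RHInputs Kbar (FN N) (jBar N) := by
  have := finiteDimensional_FN N
  exact H14.rhInputs (jBar N) (transcendental_jBar N)

end Final

end Fermat.Agent.S18.H10
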