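import Mathlib
import Fermat.Prelude.Def_AlgebraicCurve_DivisorClassGroup
import Fermat.Agent.S24.Basics_helper19
import Fermat.Agent.S18.Ram0_helper10

/-!
# S18, node BR: the branch statement over the Hauptmodul line of `X₀(2)` and `X₀(3)`

Let `F / K` be a function field, `j t : F` with `j t² = (t + 256)³` (the relation between `j`
and the Hauptmodul of `X₀(2)`), resp. `j t³ = (t + 27)(t + 243)³` (`X₀(3)`).  Assume the
ramification of `F` over the `j`-line is as for modular function fields (`e = 1` above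
`a ∉ {0, 1728}`, `e ∣ 3` above `0`, `e ∣ 2` above `1728`: exactly the landed conclusions of
`Ram0_helper10`).  Then `F` is unramified over the `t`-line outside `t ∈ {0, -64, ∞}`, resp.
`t ∈ {0, -27, ∞}`:

* `ord_sub_eq_one_of_rel_two`, `ord_sub_eq_one_of_rel_three` : `ord_v (t - a) = 1` whenever it is
  positive and `a ∉ {0, -64}` (resp. `{0, -27}`);
* `ord_inv_sub_eq_one_of_rel_two`, `ord_inv_sub_eq_one_of_rel_three` : the same in the chart `1/t`;
* `branch_two`, `branch_three`, `branch_inv_two`, `branch_inv_three` : the instances for the modular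
  function field `F_N` over `ℚ̄`, with no hypothesis left except the relation.
-/

set_option autoImplicit false

open AlgebraicCurve

namespace Fermat.Agent.S18.H66

open Fermat.Agent.S24.H19

section Generic

variable {K F : Type*} [Field K] [Field F] [Algebra K F] (v : Place K F)

/-- an element of positive order plus a nonzero constant has order zero -/
theorem ord_add_algebraMap_eq_zero {w : F} (hw : 0 < v.ord w) {b : K} (hb : b ≠ 0) :
    v.ord (w + algebraMap K F b) = 0 := by
  have hb0 : v.ord (algebraMap K F b) = 0 := ord_algebraMap v b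
  have hbne : algebraMap K F b ≠ 0 := by simpa using hb
  have hs : w + algebraMap K F b ≠ 0 := by
    intro h0
    have hw' : w = -algebraMap K F b := eq_neg_of_add_eq_zero_left h0
    rw [hw', ord_neg, hb0] at hw
    exact lt_irrefl _ hw
  have h1 := ord_add_ge v hs
  have h2 := ord_sub_ge v (f := w + algebraMap K F b) (g := w) (by simpa using hbne)
  rw [add_sub_cancel_left, hb0] at h2
  rw [hb0] at h1
  have h3 : min (v.ord w) 0 = 0 := min_eq_right hw.le
  rw [h3] at h1
  rcases le_total (v.ord (w + algebraMap K F b)) (v.ord w) with h | h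
  · rw [min_eq_left h] at h2
    omega
  · rw [min_eq_right h] at h2
    omega

/-- `G = w * H + g₀` with `ord w > 0`, `H` integral and `g₀ ≠ 0` a constant: `ord G = 0` -/
theorem ord_eq_zero_of_eq {G H w : F} {g0 : K} (hg0 : g0 ≠ 0) (hw : 0 < v.ord w)
    (hH : H ∈ v.toValuationSubring) (hG : G = w * H + algebraMap K F g0) : v.ord G = 0 := by
  by_cases hH0 : H = 0
  · rw [hG, hH0, mul_zero, zero_add]
    exact ord_algebraMap v g0
  have hw0 : w ≠ 0 := by
    rintro rfl
    simp at hw
  rw [hG]
  refine ord_add_algebraMap_eq_zero v ?_ hg0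
  rw [v.ord_mul hw0 hH0]
  have := ord_nonneg_of_mem v hH
  omega

/-- `t` is integral at a place where `t - a` has positive order -/
theorem mem_of_ord_sub_pos {t : F} {a : K} (hv : 0 < v.ord (t - algebraMap K F a)) :
    t ∈ v.toValuationSubring := by
  have h1 : t - algebraMap K F a ∈ v.toValuationSubring := mem_of_ord_nonneg v hv.le
  have h2 : algebraMap K F a ∈ v.toValuationSubring := v.algebraMap_mem' a
  have := add_mem h1 h2
  simpa using this

/-- if `t - a` has positive order and `b ≠ a`, then `t - b` has order zero -/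
theorem ord_sub_eq_zero_of_ne {t : F} {a b : K} (hv : 0 < v.ord (t - algebraMap K F a))
    (hab : a ≠ b) : v.ord (t - algebraMap K F b) = 0 := by
  have h := ord_add_algebraMap_eq_zero v hv (b := a - b) (sub_ne_zero.mpr hab)
  have e : t - algebraMap K F a + algebraMap K F (a - b) = t - algebraMap K F b := by
    rw [map_sub]; ring
  rwa [e] at h

/-- a positive integer `n` with `d * n ∣ d` is `1` -/
theorem eq_one_of_mul_dvd {d n : ℤ} (hd : 0 < d) (hn : 0 < n) (h : d * n ∣ d) : n = 1 := by
  have h1 : d * n ≤ d := Int.le_of_dvd hd h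
  nlinarith

/-- **(BR2)** Over the Hauptmodul line of `X₀(2)` there is no ramification outside
`t ∈ {0, -64, ∞}`. -/
theorem ord_sub_eq_one_of_rel_two (h2K : (2 : K) ≠ 0) (h3K : (3 : K) ≠ 0) {j t : F}
    (hrel : j * t ^ 2 = (t + 256) ^ 3)
    (h1 : ∀ c : K, c ≠ 0 → c ≠ 1728 → 0 < v.ord (j - algebraMap K F c) →
      v.ord (j - algebraMap K F c) = 1)
    (h0 : 0 < v.ord j → v.ord j ∣ 3)
    (h1728 : 0 < v.ord (j - algebraMap K F 1728) → v.ord (j - algebraMap K F 1728) ∣ 2)
    (a : K) (ha0 : a ≠ 0) (ha : a ≠ -64) (hv : 0 < v.ord (t - algebraMap K F a)) :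
    v.ord (t - algebraMap K F a) = 1 := by
  set α : F := algebraMap K F a with hα
  have htα : t - α ≠ 0 := by
    intro h
    rw [h] at hv
    simp at hv
  have htmem : t ∈ v.toValuationSubring := mem_of_ord_sub_pos v hv
  have hαmem : α ∈ v.toValuationSubring := v.algebraMap_mem' a
  -- `ord t = 0`
  have ht0 : v.ord t = 0 := by
    have := ord_sub_eq_zero_of_ne v hv (b := 0) ha0
    simpa using this
  have htne : t ≠ 0 := by
    rintro rfl
    apply htα
    have : v.ord (0 - α) = 0 := by rw [zero_sub, ord_neg]; exact ord_algebraMap v a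
    rw [this] at hv
    exact absurd hv (lt_irrefl _)
  have h6K : (576 : K) ≠ 0 := by
    have : (576 : K) = 2 ^ 6 * 3 ^ 2 := by norm_num
    rw [this]
    exact mul_ne_zero (pow_ne_zero _ h2K) (pow_ne_zero _ h3K)
  by_cases ha256 : a = -256
  · -- above `j = 0`
    have hα256 : α = -256 := by rw [hα, ha256, map_neg, map_ofNat]
    have ht256 : t + 256 = t - α := by rw [hα256]; ring
    have hj : j ≠ 0 := by
      rintro rfl
      rw [zero_mul] at hrel
      have : t + 256 = 0 := by
        have := hrel.symm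
        exact pow_eq_zero_iff (by norm_num) |>.mp this
      exact htα (ht256 ▸ this)
    have hord : v.ord j = 3 * v.ord (t - α) := by
      have e1 := congrArg v.ord hrel
      rw [v.ord_mul hj (pow_ne_zero _ htne), ord_pow, ord_pow, ht0, ht256] at e1
      simpa using e1
    have hdvd := h0 (by rw [hord]; omega)
    rw [hord] at hdvd
    exact eq_one_of_mul_dvd (by norm_num) hv hdvd
  by_cases ha512 : a = 512
  · -- above `j = 1728`, the ramified point of the `t`-line
    have hα512 : α = 512 := by rw [hα, ha512, map_ofNat]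
    have e64 : v.ord (t + 64) = 0 := by
      have := ord_sub_eq_zero_of_ne v hv (b := -64) ha
      simpa [map_ofNat] using this
    have h64ne : t + 64 ≠ 0 := by
      intro h
      have h576 : v.ord (t - α) = 0 := by
        have : t - α = algebraMap K F (-576) := by
          have : t = -64 := eq_neg_of_add_eq_zero_left h
          rw [this, hα512, map_neg, map_ofNat]; norm_num
        rw [this]; exact ord_algebraMap v _
      omega
    have hid : (j - algebraMap K F 1728) * t ^ 2 = (t + 64) * (t - α) ^ 2 := by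
      rw [hα512]
      simp only [map_ofNat]
      linear_combination hrel
    have hj : j - algebraMap K F 1728 ≠ 0 := by
      intro h
      rw [h, zero_mul] at hid
      exact mul_ne_zero h64ne (pow_ne_zero _ htα) hid.symm
    have hord : v.ord (j - algebraMap K F 1728) = 2 * v.ord (t - α) := by
      have e1 := congrArg v.ord hid
      rw [v.ord_mul hj (pow_ne_zero _ htne), v.ord_mul h64ne (pow_ne_zero _ htα), ord_pow,
        ord_pow, ht0, e64] at e1
      simpa using e1
    have hdvd := h1728 (by rw [hord]; omega)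
    rw [hord] at hdvd
    exact eq_one_of_mul_dvd (by norm_num) hv hdvd
  · -- generic point: `c = j(a) ∉ {0, 1728}`
    have ha256' : a + 256 ≠ 0 := fun h => ha256 (eq_neg_of_add_eq_zero_left h)
    have ha512' : a - 512 ≠ 0 := sub_ne_zero.mpr ha512
    have ha64' : a + 64 ≠ 0 := fun h => ha (eq_neg_of_add_eq_zero_left h)
    set c : K := (a + 256) ^ 3 / a ^ 2 with hc
    have hca : c * a ^ 2 = (a + 256) ^ 3 := by rw [hc]; field_simp
    have hc0 : c ≠ 0 := by
      rw [hc]; exact div_ne_zero (pow_ne_zero _ ha256') (pow_ne_zero _ ha0)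
    have hc1728 : c ≠ 1728 := by
      intro h
      rw [h] at hca
      have : (a + 64) * (a - 512) ^ 2 = 0 := by linear_combination -hca
      exact mul_ne_zero ha64' (pow_ne_zero _ ha512') this
    have hcα : algebraMap K F c * α ^ 2 = (α + 256) ^ 3 := by
      have := congrArg (algebraMap K F) hca
      simpa [hα, map_ofNat] using this
    set g0 : K := a * (a + 256) ^ 2 * (a - 512) with hg0
    have hg0ne : g0 ≠ 0 := mul_ne_zero (mul_ne_zero ha0 (pow_ne_zero _ ha256')) ha512'
    set G : F := α ^ 2 * t ^ 2 - (196608 * α + 16777216) * t - 16777216 * α with hG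
    set H : F := α ^ 2 * t + (α ^ 3 - 196608 * α - 16777216) with hH
    have hHmem : H ∈ v.toValuationSubring := by
      rw [hH]
      have h196608 : (196608 : F) ∈ v.toValuationSubring := ofNat_mem _ _
      have h16777216 : (16777216 : F) ∈ v.toValuationSubring := ofNat_mem _ _
      exact add_mem (mul_mem (pow_mem hαmem 2) htmem)
        (sub_mem (sub_mem (pow_mem hαmem 3) (mul_mem h196608 hαmem)) h16777216)
    have hGH : G = (t - α) * H + algebraMap K F g0 := by
      rw [hG, hH, hg0]
      simp only [map_mul, map_pow, map_add, map_sub, map_ofNat, ← hα]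
      ring
    have hGord : v.ord G = 0 := ord_eq_zero_of_eq v hg0ne hv hHmem hGH
    have hGne : G ≠ 0 := by
      intro h
      have h' : (t - α) * H = -algebraMap K F g0 := by
        rw [h] at hGH; exact eq_neg_of_add_eq_zero_left hGH.symm
      by_cases hH0 : H = 0
      · rw [hH0, mul_zero] at h'
        have : algebraMap K F g0 = 0 := by rw [← neg_eq_zero]; exact h'.symm
        exact hg0ne ((map_eq_zero _).mp this)
      · have e := congrArg v.ord h'
        rw [v.ord_mul htα hH0, ord_neg, ord_algebraMap] at e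
        have := ord_nonneg_of_mem v hHmem
        omega
    have hid : (j - algebraMap K F c) * (t ^ 2 * α ^ 2) = (t - α) * G := by
      rw [hG]
      linear_combination α ^ 2 * hrel - t ^ 2 * hcα
    have hαne : α ≠ 0 := by rw [hα]; exact (map_ne_zero _).mpr ha0
    have hαord : v.ord α = 0 := ord_algebraMap v a
    have hjc : j - algebraMap K F c ≠ 0 := by
      intro h
      rw [h, zero_mul] at hid
      exact mul_ne_zero htα hGne hid.symm
    have hord : v.ord (j - algebraMap K F c) = v.ord (t - α) := by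
      have e1 := congrArg v.ord hid
      rw [v.ord_mul hjc (mul_ne_zero (pow_ne_zero _ htne) (pow_ne_zero _ hαne)),
        v.ord_mul (pow_ne_zero _ htne) (pow_ne_zero _ hαne), v.ord_mul htα hGne, ord_pow,
        ord_pow, ht0, hαord, hGord] at e1
      simpa using e1
    have := h1 c hc0 hc1728 (by rw [hord]; exact hv)
    rw [hord] at this
    exact this

/-- if `t - a` has positive order and `b ≠ a`, then `t ≠ b` -/
theorem sub_ne_zero_of_ord_pos {t : F} {a b : K} (hv : 0 < v.ord (t - algebraMap K F a))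
    (_hab : a ≠ b) : t - algebraMap K F b ≠ 0 := by
  intro h
  have ht : t = algebraMap K F b := sub_eq_zero.mp h
  rw [ht, ← map_sub, ord_algebraMap] at hv
  exact lt_irrefl _ hv

/-- **(BR3)** Over the Hauptmodul line of `X₀(3)` there is no ramification outside
`t ∈ {0, -27, ∞}`. -/
theorem ord_sub_eq_one_of_rel_three (h2K : (2 : K) ≠ 0) (h3K : (3 : K) ≠ 0) {j t : F}
    (hrel : j * t ^ 3 = (t + 27) * (t + 243) ^ 3)
    (h1 : ∀ c : K, c ≠ 0 → c ≠ 1728 → 0 < v.ord (j - algebraMap K F c) →
      v.ord (j - algebraMap K F c) = 1)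
    (h0 : 0 < v.ord j → v.ord j ∣ 3)
    (h1728 : 0 < v.ord (j - algebraMap K F 1728) → v.ord (j - algebraMap K F 1728) ∣ 2)
    (a : K) (ha0 : a ≠ 0) (ha : a ≠ -27) (hv : 0 < v.ord (t - algebraMap K F a)) :
    v.ord (t - algebraMap K F a) = 1 := by
  set α : F := algebraMap K F a with hα
  have htα : t - α ≠ 0 := by
    intro h
    rw [h] at hv
    simp at hv
  have htmem : t ∈ v.toValuationSubring := mem_of_ord_sub_pos v hv
  have hαmem : α ∈ v.toValuationSubring := v.algebraMap_mem' a
  have ht0 : v.ord t = 0 := by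
    have := ord_sub_eq_zero_of_ne v hv (b := 0) ha0
    simpa using this
  have htne : t ≠ 0 := by
    have := sub_ne_zero_of_ord_pos v hv (b := 0) ha0
    simpa using this
  have e27 : v.ord (t + 27) = 0 := by
    have := ord_sub_eq_zero_of_ne v hv (b := -27) ha
    simpa [map_ofNat] using this
  have h27ne : t + 27 ≠ 0 := by
    have := sub_ne_zero_of_ord_pos v hv (b := -27) ha
    simpa [map_ofNat] using this
  have hbig : (314928 : K) ≠ 0 := by
    have : (314928 : K) = 2 ^ 4 * 3 ^ 9 := by norm_num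
    rw [this]
    exact mul_ne_zero (pow_ne_zero _ h2K) (pow_ne_zero _ h3K)
  by_cases ha243 : a = -243
  · -- above `j = 0`, the point with `e_t = 3`
    have hα243 : α = -243 := by rw [hα, ha243, map_neg, map_ofNat]
    have ht243 : t + 243 = t - α := by rw [hα243]; ring
    have hj : j ≠ 0 := by
      rintro rfl
      rw [zero_mul] at hrel
      exact mul_ne_zero h27ne (pow_ne_zero _ (ht243 ▸ htα)) hrel.symm
    have hord : v.ord j = 3 * v.ord (t - α) := by
      have e1 := congrArg v.ord hrel
      rw [v.ord_mul hj (pow_ne_zero _ htne),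
        v.ord_mul h27ne (pow_ne_zero _ (ht243 ▸ htα)), ord_pow, ord_pow, ht0, e27, ht243] at e1
      simpa using e1
    have hdvd := h0 (by rw [hord]; omega)
    rw [hord] at hdvd
    exact eq_one_of_mul_dvd (by norm_num) hv hdvd
  by_cases hq : a ^ 2 - 486 * a - 19683 = 0
  · -- above `j = 1728`
    have hqα : α ^ 2 - 486 * α - 19683 = 0 := by
      have := congrArg (algebraMap K F) hq
      simpa [hα, map_ofNat] using this
    have haa' : a ≠ 486 - a := by
      intro h
      apply hbig
      linear_combination (2 * a - 486) * h - 4 * hq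
    have eα' : v.ord (t - algebraMap K F (486 - a)) = 0 := ord_sub_eq_zero_of_ne v hv haa'
    have hα'ne : t - algebraMap K F (486 - a) ≠ 0 := sub_ne_zero_of_ord_pos v hv haa'
    have hid : (j - algebraMap K F 1728) * t ^ 3 =
        ((t - α) * (t - algebraMap K F (486 - a))) ^ 2 := by
      simp only [map_ofNat, map_sub, ← hα]
      linear_combination hrel +
        (2 * (t ^ 2 - 486 * t - 19683) - (α ^ 2 - 486 * α - 19683)) * hqα
    have hj : j - algebraMap K F 1728 ≠ 0 := by
      intro h
      rw [h, zero_mul] at hid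
      exact pow_ne_zero _ (mul_ne_zero htα hα'ne) hid.symm
    have hord : v.ord (j - algebraMap K F 1728) = 2 * v.ord (t - α) := by
      have e1 := congrArg v.ord hid
      rw [v.ord_mul hj (pow_ne_zero _ htne), ord_pow, ord_pow, v.ord_mul htα hα'ne, ht0,
        eα'] at e1
      simpa using e1
    have hdvd := h1728 (by rw [hord]; omega)
    rw [hord] at hdvd
    exact eq_one_of_mul_dvd (by norm_num) hv hdvd
  · -- generic point: `c = j(a) ∉ {0, 1728}`
    have ha243' : a + 243 ≠ 0 := fun h => ha243 (eq_neg_of_add_eq_zero_left h)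
    have ha27' : a + 27 ≠ 0 := fun h => ha (eq_neg_of_add_eq_zero_left h)
    set c : K := (a + 27) * (a + 243) ^ 3 / a ^ 3 with hc
    have hca : c * a ^ 3 = (a + 27) * (a + 243) ^ 3 := by rw [hc]; field_simp
    have hc0 : c ≠ 0 := by
      rw [hc]
      exact div_ne_zero (mul_ne_zero ha27' (pow_ne_zero _ ha243')) (pow_ne_zero _ ha0)
    have hc1728 : c ≠ 1728 := by
      intro h
      rw [h] at hca
      have : (a ^ 2 - 486 * a - 19683) ^ 2 = 0 := by linear_combination -hca
      exact hq (pow_eq_zero_iff (by norm_num) |>.mp this)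
    have hcα : algebraMap K F c * α ^ 3 = (α + 27) * (α + 243) ^ 3 := by
      have := congrArg (algebraMap K F) hca
      simpa [hα, map_ofNat] using this
    set g0 : K := a ^ 2 * (a + 243) ^ 2 * (a ^ 2 - 486 * a - 19683) with hg0
    have hg0ne : g0 ≠ 0 :=
      mul_ne_zero (mul_ne_zero (pow_ne_zero _ ha0) (pow_ne_zero _ ha243')) hq
    set G : F := α ^ 3 * t ^ 3 - (196830 * α ^ 2 + 19131876 * α + 387420489) * t ^ 2
      - (19131876 * α ^ 2 + 387420489 * α) * t - 387420489 * α ^ 2 with hG
    set H : F := α ^ 3 * t ^ 2 + (α ^ 4 - 196830 * α ^ 2 - 19131876 * α - 387420489) * t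
      + (α ^ 5 - 196830 * α ^ 3 - 38263752 * α ^ 2 - 774840978 * α) with hH
    have hnum : ∀ n : ℕ, (n : F) ∈ v.toValuationSubring := fun n => natCast_mem _ n
    have hHmem : H ∈ v.toValuationSubring := by
      rw [hH]
      have n1 := hnum 196830
      have n2 := hnum 19131876
      have n3 := hnum 387420489
      have n4 := hnum 38263752
      have n5 := hnum 774840978
      simp only [Nat.cast_ofNat] at n1 n2 n3 n4 n5
      refine add_mem (add_mem (mul_mem (pow_mem hαmem 3) (pow_mem htmem 2)) (mul_mem ?_ htmem)) ?_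
      · exact sub_mem (sub_mem (sub_mem (pow_mem hαmem 4) (mul_mem n1 (pow_mem hαmem 2)))
          (mul_mem n2 hαmem)) n3
      · exact sub_mem (sub_mem (sub_mem (pow_mem hαmem 5) (mul_mem n1 (pow_mem hαmem 3)))
          (mul_mem n4 (pow_mem hαmem 2))) (mul_mem n5 hαmem)
    have hGH : G = (t - α) * H + algebraMap K F g0 := by
      rw [hG, hH, hg0]
      simp only [map_mul, map_pow, map_add, map_sub, map_ofNat, ← hα]
      ring
    have hGord : v.ord G = 0 := ord_eq_zero_of_eq v hg0ne hv hHmem hGH
    have hGne : G ≠ 0 := by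
      intro h
      have h' : (t - α) * H = -algebraMap K F g0 := by
        rw [h] at hGH; exact eq_neg_of_add_eq_zero_left hGH.symm
      by_cases hH0 : H = 0
      · rw [hH0, mul_zero] at h'
        have : algebraMap K F g0 = 0 := by rw [← neg_eq_zero]; exact h'.symm
        exact hg0ne ((map_eq_zero _).mp this)
      · have e := congrArg v.ord h'
        rw [v.ord_mul htα hH0, ord_neg, ord_algebraMap] at e
        have := ord_nonneg_of_mem v hHmem
        omega
    have hid : (j - algebraMap K F c) * (t ^ 3 * α ^ 3) = (t - α) * G := by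
      rw [hG]
      linear_combination α ^ 3 * hrel - t ^ 3 * hcα
    have hαne : α ≠ 0 := by rw [hα]; exact (map_ne_zero _).mpr ha0
    have hαord : v.ord α = 0 := ord_algebraMap v a
    have hjc : j - algebraMap K F c ≠ 0 := by
      intro h
      rw [h, zero_mul] at hid
      exact mul_ne_zero htα hGne hid.symm
    have hord : v.ord (j - algebraMap K F c) = v.ord (t - α) := by
      have e1 := congrArg v.ord hid
      rw [v.ord_mul hjc (mul_ne_zero (pow_ne_zero _ htne) (pow_ne_zero _ hαne)),
        v.ord_mul (pow_ne_zero _ htne) (pow_ne_zero _ hαne), v.ord_mul htα hGne, ord_pow,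
        ord_pow, ht0, hαord, hGord] at e1
      simpa using e1
    have := h1 c hc0 hc1728 (by rw [hord]; exact hv)
    rw [hord] at this
    exact this

/-- transfer to the chart `1/t`: `ord (t⁻¹ - b) = ord (t - b⁻¹)` when the former is positive and
`b ≠ 0` -/
theorem ord_inv_sub_eq {t : F} {b : K} (hb0 : b ≠ 0)
    (hv : 0 < v.ord (t⁻¹ - algebraMap K F b)) :
    v.ord (t - algebraMap K F b⁻¹) = v.ord (t⁻¹ - algebraMap K F b) := by
  set β : F := algebraMap K F b with hβ
  have hβne : β ≠ 0 := by rw [hβ]; simpa using hb0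
  have hβord : v.ord β = 0 := ord_algebraMap v b
  have htinv0 : v.ord t⁻¹ = 0 := by
    have := ord_sub_eq_zero_of_ne v hv (b := 0) hb0
    simpa using this
  have htinvne : t⁻¹ ≠ 0 := by
    have := sub_ne_zero_of_ord_pos v hv (b := 0) hb0
    simpa using this
  have htne : t ≠ 0 := by
    rintro rfl
    simp at htinvne
  have ht0 : v.ord t = 0 := by
    have := v.ord_inv t
    omega
  have hne : t⁻¹ - β ≠ 0 := by
    intro h
    rw [h] at hv
    simp at hv
  have e : t - algebraMap K F b⁻¹ = -((t⁻¹ - β) * (t * β⁻¹)) := by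
    rw [map_inv₀, ← hβ]
    field_simp
    ring
  rw [e, ord_neg, v.ord_mul hne (mul_ne_zero htne (inv_ne_zero hβne)),
    v.ord_mul htne (inv_ne_zero hβne), v.ord_inv, ht0, hβord]
  simp

/-- **(BR2), chart `1/t`.** -/
theorem ord_inv_sub_eq_one_of_rel_two (h2K : (2 : K) ≠ 0) (h3K : (3 : K) ≠ 0) {j t : F}
    (hrel : j * t ^ 2 = (t + 256) ^ 3)
    (h1 : ∀ c : K, c ≠ 0 → c ≠ 1728 → 0 < v.ord (j - algebraMap K F c) →
      v.ord (j - algebraMap K F c) = 1)
    (h0 : 0 < v.ord j → v.ord j ∣ 3)
    (h1728 : 0 < v.ord (j - algebraMap K F 1728) → v.ord (j - algebraMap K F 1728) ∣ 2)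
    (b : K) (hb0 : b ≠ 0) (hb : 64 * b + 1 ≠ 0) (hv : 0 < v.ord (t⁻¹ - algebraMap K F b)) :
    v.ord (t⁻¹ - algebraMap K F b) = 1 := by
  have e := ord_inv_sub_eq v hb0 hv
  have hb' : b⁻¹ ≠ -64 := by
    intro h
    apply hb
    have : b * b⁻¹ = 1 := mul_inv_cancel₀ hb0
    rw [h] at this
    linear_combination -this
  rw [← e]
  exact ord_sub_eq_one_of_rel_two v h2K h3K hrel h1 h0 h1728 b⁻¹ (inv_ne_zero hb0) hb'
    (by rw [e]; exact hv)

/-- **(BR3), chart `1/t`.** -/
theorem ord_inv_sub_eq_one_of_rel_three (h2K : (2 : K) ≠ 0) (h3K : (3 : K) ≠ 0) {j t : F}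
    (hrel : j * t ^ 3 = (t + 27) * (t + 243) ^ 3)
    (h1 : ∀ c : K, c ≠ 0 → c ≠ 1728 → 0 < v.ord (j - algebraMap K F c) →
      v.ord (j - algebraMap K F c) = 1)
    (h0 : 0 < v.ord j → v.ord j ∣ 3)
    (h1728 : 0 < v.ord (j - algebraMap K F 1728) → v.ord (j - algebraMap K F 1728) ∣ 2)
    (b : K) (hb0 : b ≠ 0) (hb : 27 * b + 1 ≠ 0) (hv : 0 < v.ord (t⁻¹ - algebraMap K F b)) :
    v.ord (t⁻¹ - algebraMap K F b) = 1 := by
  have e := ord_inv_sub_eq v hb0 hv
  have hb' : b⁻¹ ≠ -27 := by
    intro h
    apply hb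
    have : b * b⁻¹ = 1 := mul_inv_cancel₀ hb0
    rw [h] at this
    linear_combination -this
  rw [← e]
  exact ord_sub_eq_one_of_rel_three v h2K h3K hrel h1 h0 h1728 b⁻¹ (inv_ne_zero hb0) hb'
    (by rw [e]; exact hv)

end Generic

/-! ### The modular instances (level `N` arbitrary; used at level `lcm(N, M)`) -/

section Modular

open Fermat.Agent.S24.H98

variable (N : ℕ) [NeZero N]

/-- **(BR), `M = 2`.** If `t ∈ F_N` satisfies `j t² = (t + 256)³`, then `F_N` is unramified over
the `t`-line outside `t ∈ {0, -64, ∞}`. -/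
theorem branch_two (t : FN N) (hrel : jBar N * t ^ 2 = (t + 256) ^ 3)
    (v : Place Kbar (FN N)) (a : Kbar) (ha0 : a ≠ 0) (ha : a ≠ -64)
    (hv : 0 < v.ord (t - algebraMap Kbar (FN N) a)) :
    v.ord (t - algebraMap Kbar (FN N) a) = 1 :=
  ord_sub_eq_one_of_rel_two v two_ne_zero three_ne_zero hrel
    (fun c hc0 hc1 hc => H10.ord_sub_eq_one N c hc0 hc1 v hc)
    (H10.ord_j_dvd_three N v) (H10.ord_j_sub_dvd_two N v) a ha0 ha hv

/-- **(BR), `M = 3`.** If `t ∈ F_N` satisfies `j t³ = (t + 27)(t + 243)³`, then `F_N` is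
unramified over the `t`-line outside `t ∈ {0, -27, ∞}`. -/
theorem branch_three (t : FN N) (hrel : jBar N * t ^ 3 = (t + 27) * (t + 243) ^ 3)
    (v : Place Kbar (FN N)) (a : Kbar) (ha0 : a ≠ 0) (ha : a ≠ -27)
    (hv : 0 < v.ord (t - algebraMap Kbar (FN N) a)) :
    v.ord (t - algebraMap Kbar (FN N) a) = 1 :=
  ord_sub_eq_one_of_rel_three v two_ne_zero three_ne_zero hrel
    (fun c hc0 hc1 hc => H10.ord_sub_eq_one N c hc0 hc1 v hc)
    (H10.ord_j_dvd_three N v) (H10.ord_j_sub_dvd_two N v) a ha0 ha hv

/-- **(BR), `M = 2`, chart `1/t`.** -/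
theorem branch_inv_two (t : FN N) (hrel : jBar N * t ^ 2 = (t + 256) ^ 3)
    (v : Place Kbar (FN N)) (b : Kbar) (hb0 : b ≠ 0) (hb : 64 * b + 1 ≠ 0)
    (hv : 0 < v.ord (t⁻¹ - algebraMap Kbar (FN N) b)) :
    v.ord (t⁻¹ - algebraMap Kbar (FN N) b) = 1 :=
  ord_inv_sub_eq_one_of_rel_two v two_ne_zero three_ne_zero hrel
    (fun c hc0 hc1 hc => H10.ord_sub_eq_one N c hc0 hc1 v hc)
    (H10.ord_j_dvd_three N v) (H10.ord_j_sub_dvd_two N v) b hb0 hb hv

/-- **(BR), `M = 3`, chart `1/t`.** -/
theorem branch_inv_three (t : FN N) (hrel : jBar N * t ^ 3 = (t + 27) * (t + 243) ^ 3)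
    (v : Place Kbar (FN N)) (b : Kbar) (hb0 : b ≠ 0) (hb : 27 * b + 1 ≠ 0)
    (hv : 0 < v.ord (t⁻¹ - algebraMap Kbar (FN N) b)) :
    v.ord (t⁻¹ - algebraMap Kbar (FN N) b) = 1 :=
  ord_inv_sub_eq_one_of_rel_three v two_ne_zero three_ne_zero hrel
    (fun c hc0 hc1 hc => H10.ord_sub_eq_one N c hc0 hc1 v hc)
    (H10.ord_j_dvd_three N v) (H10.ord_j_sub_dvd_two N v) b hb0 hb hv

end Modular

end Fermat.Agent.S18.H66
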