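import Mathlib
import Fermat.Agent.S18.Branch_helper66
import Fermat.Agent.S18.BranchUnr_helper66

/-!
# S18: the hypothesis `hunr` of `(NC)` for the modular function fields

Instances of `H66.isRadical_map_of_place_unramified` for `F̄ = F_N` (the modular function field
over `ℚ̄`) and the chart coordinates `ξ = j, 1/j` (branch polynomial `X (X - 1728)`,
`X (X - 1/1728)`), `ξ = t₂, 1/t₂` (`X (X + 64)`, `X (X + 1/64)`), `ξ = t₃, 1/t₃`
(`X (X + 27)`, `X (X + 1/27)`).  The only hypotheses left are the Hauptmodul relation and the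
comparison map `φ : F₀ → F_N` of the `K₀`-model (`K₀ → ℚ̄` on constants, `x ↦ ξ`).
-/

set_option autoImplicit false

open Polynomial AlgebraicCurve IntermediateField

namespace Fermat.Agent.S18.H66

open Fermat.Agent.S24.H98 Fermat.Agent.S24.H19

section Aux

variable (N : ℕ) [NeZero N]

theorem isAlgebraic_ofNat' (n : ℕ) [n.AtLeastTwo] :
    IsAlgebraic Kbar (OfNat.ofNat n : FN N) := by
  have := isAlgebraic_algebraMap (R := Kbar) (A := FN N) (OfNat.ofNat n : Kbar)
  rwa [map_ofNat] at this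

/-- the Hauptmodul of `X₀(2)` is transcendental -/
theorem transcendental_of_rel_two (t : FN N) (hrel : jBar N * t ^ 2 = (t + 256) ^ 3) :
    Transcendental Kbar t := by
  intro halg
  apply H10.transcendental_jBar N
  have ht0 : t ≠ 0 := by
    rintro rfl
    norm_num at hrel
  have e : jBar N = (t + 256) ^ 3 * (t ^ 2)⁻¹ := by
    rw [← hrel, mul_assoc, mul_inv_cancel₀ (pow_ne_zero 2 ht0), mul_one]
  rw [e]
  exact ((halg.add (isAlgebraic_ofNat' N 256)).pow 3).mul (halg.pow 2).inv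

/-- the Hauptmodul of `X₀(3)` is transcendental -/
theorem transcendental_of_rel_three (t : FN N)
    (hrel : jBar N * t ^ 3 = (t + 27) * (t + 243) ^ 3) : Transcendental Kbar t := by
  intro halg
  apply H10.transcendental_jBar N
  have ht0 : t ≠ 0 := by
    rintro rfl
    norm_num at hrel
  have e : jBar N = (t + 27) * (t + 243) ^ 3 * (t ^ 3)⁻¹ := by
    rw [← hrel, mul_assoc, mul_inv_cancel₀ (pow_ne_zero 3 ht0), mul_one]
  rw [e]
  exact ((halg.add (isAlgebraic_ofNat' N 27)).mul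
    ((halg.add (isAlgebraic_ofNat' N 243)).pow 3)).mul (halg.pow 3).inv

theorem transcendental_inv {x : FN N} (hx : Transcendental Kbar x) : Transcendental Kbar x⁻¹ := by
  intro halg
  apply hx
  have := halg.inv
  rwa [inv_inv] at this

theorem finiteDimensional_of_transcendental {x : FN N} (hx : Transcendental Kbar x) :
    FiniteDimensional Kbar⟮x⟯ (FN N) :=
  finiteDimensional_adjoin (jBar N) x (H10.transcendental_jBar N) (H10.finiteDimensional_FN N) hx

/-- the branch statement for the chart `1/j` -/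
theorem branch_inv_one (v : Place Kbar (FN N)) (b : Kbar) (hb0 : b ≠ 0) (hb : 1728 * b - 1 ≠ 0)
    (hv : 0 < v.ord ((jBar N)⁻¹ - algebraMap Kbar (FN N) b)) :
    v.ord ((jBar N)⁻¹ - algebraMap Kbar (FN N) b) = 1 := by
  have e := ord_inv_sub_eq v hb0 hv
  have hb' : b⁻¹ ≠ 1728 := by
    intro h
    apply hb
    have : b * b⁻¹ = 1 := mul_inv_cancel₀ hb0
    rw [h] at this
    linear_combination this
  rw [← e]
  exact H10.ord_sub_eq_one N b⁻¹ (inv_ne_zero hb0) hb' v (by rw [e]; exact hv)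

end Aux

section Inst

variable (N : ℕ) [NeZero N]
variable {K0 F0 S : Type*} [Field K0] [CharZero K0] [Field F0] [Algebra K0[X] F0]
  [Algebra K0 Kbar] [Algebra.IsAlgebraic K0 Kbar]
  [CommRing S] [Algebra K0[X] S] [Algebra S F0] [IsScalarTower K0[X] S F0]
  [IsIntegralClosure S K0[X] F0]

/-- **`hunr`, chart `j`** (general branch polynomial). -/
theorem isRadical_map_j (φ : F0 →+* FN N)
    (hφ : ∀ p : K0[X], φ (algebraMap K0[X] F0 p) = aeval (jBar N) (p.map (algebraMap K0 Kbar)))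
    (Pi : K0[X])
    (hPi : ∀ a : Kbar, (Pi.map (algebraMap K0 Kbar)).eval a ≠ 0 → a ≠ 0 ∧ a ≠ 1728)
    (p : Ideal K0[X]) (hp : p.IsMaximal) (hPip : Pi ∉ p) :
    (p.map (algebraMap K0[X] S)).IsRadical := by
  have := H10.finiteDimensional_FN N
  exact isRadical_map_of_place_unramified φ (jBar N) (H10.transcendental_jBar N) hφ Pi
    (fun v a ha hv => H10.ord_sub_eq_one N a (hPi a ha).1 (hPi a ha).2 v hv) p hp hPip

/-- **`hunr`, chart `1/j`** (general branch polynomial). -/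
theorem isRadical_map_inv_j (φ : F0 →+* FN N)
    (hφ : ∀ p : K0[X], φ (algebraMap K0[X] F0 p) =
      aeval (jBar N)⁻¹ (p.map (algebraMap K0 Kbar)))
    (Pi : K0[X])
    (hPi : ∀ a : Kbar, (Pi.map (algebraMap K0 Kbar)).eval a ≠ 0 → a ≠ 0 ∧ 1728 * a - 1 ≠ 0)
    (p : Ideal K0[X]) (hp : p.IsMaximal) (hPip : Pi ∉ p) :
    (p.map (algebraMap K0[X] S)).IsRadical := by
  have ht := transcendental_inv N (H10.transcendental_jBar N)
  have := finiteDimensional_of_transcendental N ht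
  exact isRadical_map_of_place_unramified φ (jBar N)⁻¹ ht hφ Pi
    (fun v a ha hv => branch_inv_one N v a (hPi a ha).1 (hPi a ha).2 hv) p hp hPip

/-- **`hunr`, chart `t₂`** (general branch polynomial). -/
theorem isRadical_map_two (φ : F0 →+* FN N) (t : FN N) (hrel : jBar N * t ^ 2 = (t + 256) ^ 3)
    (hφ : ∀ p : K0[X], φ (algebraMap K0[X] F0 p) = aeval t (p.map (algebraMap K0 Kbar)))
    (Pi : K0[X])
    (hPi : ∀ a : Kbar, (Pi.map (algebraMap K0 Kbar)).eval a ≠ 0 → a ≠ 0 ∧ a ≠ -64)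
    (p : Ideal K0[X]) (hp : p.IsMaximal) (hPip : Pi ∉ p) :
    (p.map (algebraMap K0[X] S)).IsRadical := by
  have ht := transcendental_of_rel_two N t hrel
  have := finiteDimensional_of_transcendental N ht
  exact isRadical_map_of_place_unramified φ t ht hφ Pi
    (fun v a ha hv => branch_two N t hrel v a (hPi a ha).1 (hPi a ha).2 hv) p hp hPip

/-- **`hunr`, chart `1/t₂`** (general branch polynomial). -/
theorem isRadical_map_inv_two (φ : F0 →+* FN N) (t : FN N)
    (hrel : jBar N * t ^ 2 = (t + 256) ^ 3)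
    (hφ : ∀ p : K0[X], φ (algebraMap K0[X] F0 p) = aeval t⁻¹ (p.map (algebraMap K0 Kbar)))
    (Pi : K0[X])
    (hPi : ∀ a : Kbar, (Pi.map (algebraMap K0 Kbar)).eval a ≠ 0 → a ≠ 0 ∧ 64 * a + 1 ≠ 0)
    (p : Ideal K0[X]) (hp : p.IsMaximal) (hPip : Pi ∉ p) :
    (p.map (algebraMap K0[X] S)).IsRadical := by
  have ht := transcendental_inv N (transcendental_of_rel_two N t hrel)
  have := finiteDimensional_of_transcendental N ht
  exact isRadical_map_of_place_unramified φ t⁻¹ ht hφ Pi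
    (fun v a ha hv => branch_inv_two N t hrel v a (hPi a ha).1 (hPi a ha).2 hv) p hp hPip

/-- **`hunr`, chart `t₃`** (general branch polynomial). -/
theorem isRadical_map_three (φ : F0 →+* FN N) (t : FN N)
    (hrel : jBar N * t ^ 3 = (t + 27) * (t + 243) ^ 3)
    (hφ : ∀ p : K0[X], φ (algebraMap K0[X] F0 p) = aeval t (p.map (algebraMap K0 Kbar)))
    (Pi : K0[X])
    (hPi : ∀ a : Kbar, (Pi.map (algebraMap K0 Kbar)).eval a ≠ 0 → a ≠ 0 ∧ a ≠ -27)
    (p : Ideal K0[X]) (hp : p.IsMaximal) (hPip : Pi ∉ p) :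
    (p.map (algebraMap K0[X] S)).IsRadical := by
  have ht := transcendental_of_rel_three N t hrel
  have := finiteDimensional_of_transcendental N ht
  exact isRadical_map_of_place_unramified φ t ht hφ Pi
    (fun v a ha hv => branch_three N t hrel v a (hPi a ha).1 (hPi a ha).2 hv) p hp hPip

/-- **`hunr`, chart `1/t₃`** (general branch polynomial). -/
theorem isRadical_map_inv_three (φ : F0 →+* FN N) (t : FN N)
    (hrel : jBar N * t ^ 3 = (t + 27) * (t + 243) ^ 3)
    (hφ : ∀ p : K0[X], φ (algebraMap K0[X] F0 p) = aeval t⁻¹ (p.map (algebraMap K0 Kbar)))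
    (Pi : K0[X])
    (hPi : ∀ a : Kbar, (Pi.map (algebraMap K0 Kbar)).eval a ≠ 0 → a ≠ 0 ∧ 27 * a + 1 ≠ 0)
    (p : Ideal K0[X]) (hp : p.IsMaximal) (hPip : Pi ∉ p) :
    (p.map (algebraMap K0[X] S)).IsRadical := by
  have ht := transcendental_inv N (transcendental_of_rel_three N t hrel)
  have := finiteDimensional_of_transcendental N ht
  exact isRadical_map_of_place_unramified φ t⁻¹ ht hφ Pi
    (fun v a ha hv => branch_inv_three N t hrel v a (hPi a ha).1 (hPi a ha).2 hv) p hp hPip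

end Inst

/-! ### The six standard branch polynomials -/

section Pi

variable {K0 : Type*} [Field K0] [Algebra K0 Kbar]

/-- `Π = X (X - c)` does not vanish at `a` iff `a ≠ 0` and `a ≠ c` -/
theorem eval_map_X_mul_X_sub_C (c : K0) (a : Kbar)
    (h : ((X * (X - C c) : K0[X]).map (algebraMap K0 Kbar)).eval a ≠ 0) :
    a ≠ 0 ∧ a ≠ algebraMap K0 Kbar c := by
  simp only [Polynomial.map_mul, Polynomial.map_X, Polynomial.map_sub, Polynomial.map_C,
    eval_mul, eval_X, eval_sub, eval_C] at h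
  exact ⟨left_ne_zero_of_mul h, sub_ne_zero.mp (right_ne_zero_of_mul h)⟩

theorem hPi_j (a : Kbar)
    (h : ((X * (X - C 1728) : K0[X]).map (algebraMap K0 Kbar)).eval a ≠ 0) :
    a ≠ 0 ∧ a ≠ 1728 := by
  have := eval_map_X_mul_X_sub_C (1728 : K0) a h
  rwa [map_ofNat] at this

theorem hPi_two (a : Kbar)
    (h : ((X * (X - C (-64)) : K0[X]).map (algebraMap K0 Kbar)).eval a ≠ 0) :
    a ≠ 0 ∧ a ≠ -64 := by
  have := eval_map_X_mul_X_sub_C (-64 : K0) a h
  rwa [map_neg, map_ofNat] at this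

theorem hPi_three (a : Kbar)
    (h : ((X * (X - C (-27)) : K0[X]).map (algebraMap K0 Kbar)).eval a ≠ 0) :
    a ≠ 0 ∧ a ≠ -27 := by
  have := eval_map_X_mul_X_sub_C (-27 : K0) a h
  rwa [map_neg, map_ofNat] at this

theorem hPi_inv_j (a : Kbar)
    (h : ((X * (X - C (1728⁻¹)) : K0[X]).map (algebraMap K0 Kbar)).eval a ≠ 0) :
    a ≠ 0 ∧ 1728 * a - 1 ≠ 0 := by
  obtain ⟨h0, h1⟩ := eval_map_X_mul_X_sub_C ((1728 : K0)⁻¹) a h
  rw [map_inv₀, map_ofNat] at h1
  refine ⟨h0, fun h2 => h1 ?_⟩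
  have h3 : (1728 : Kbar) ≠ 0 := by norm_num
  field_simp
  linear_combination h2

theorem hPi_inv_two (a : Kbar)
    (h : ((X * (X - C (-64⁻¹)) : K0[X]).map (algebraMap K0 Kbar)).eval a ≠ 0) :
    a ≠ 0 ∧ 64 * a + 1 ≠ 0 := by
  obtain ⟨h0, h1⟩ := eval_map_X_mul_X_sub_C (-(64 : K0)⁻¹) a h
  rw [map_neg, map_inv₀, map_ofNat] at h1
  refine ⟨h0, fun h2 => h1 ?_⟩
  have h3 : (64 : Kbar) ≠ 0 := by norm_num
  field_simp
  linear_combination h2

theorem hPi_inv_three (a : Kbar)
    (h : ((X * (X - C (-27⁻¹)) : K0[X]).map (algebraMap K0 Kbar)).eval a ≠ 0) :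
    a ≠ 0 ∧ 27 * a + 1 ≠ 0 := by
  obtain ⟨h0, h1⟩ := eval_map_X_mul_X_sub_C (-(27 : K0)⁻¹) a h
  rw [map_neg, map_inv₀, map_ofNat] at h1
  refine ⟨h0, fun h2 => h1 ?_⟩
  have h3 : (27 : Kbar) ≠ 0 := by norm_num
  field_simp
  linear_combination h2

end Pi

end Fermat.Agent.S18.H66
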