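/-
S18, node PB (place bridge), generic half: restriction of places to a subfield,
ramification index, extension of places (Chevalley), going up a finite extension.
-/
import Mathlib
import Fermat.Prelude.Def_AlgebraicCurve_DivisorClassGroup
import Fermat.Agent.S24.Basics_helper19
import Fermat.Agent.S24.CountPlaces_helper98

set_option autoImplicit false

namespace Fermat.Agent.S18.H74

open AlgebraicCurve Fermat.Agent.S24

section Comap

variable {F0 F : Type*} [Field F0] [Field F]

/-- **(PB1)** The restriction of a principal valuation subring (a DVR or a field) to a subfield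
is again principal. -/
theorem isPrincipalIdealRing_comap (f : F0 →+* F) (V : ValuationSubring F)
    [IsPrincipalIdealRing V] : IsPrincipalIdealRing (V.comap f) := by
  have hwf : WfDvdMonoid (V.comap f) := by
    refine ⟨?_⟩
    let g : (V.comap f) → V := fun x => ⟨f x.1, x.2⟩
    have hV : WellFounded (DvdNotUnit (α := V)) := wellFounded_dvdNotUnit
    refine Subrelation.wf ?_ (InvImage.wf g hV)
    rintro a b ⟨ha, c, hc, rfl⟩
    refine ⟨?_, g c, ?_, ?_⟩
    · intro h
      apply ha
      have h1 : f a.1 = 0 := congrArg Subtype.val h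
      exact Subtype.ext ((map_eq_zero f).mp h1)
    · intro hu
      apply hc
      obtain ⟨d, hd⟩ := isUnit_iff_exists_inv.mp hu
      have hd' : f c.1 * (d : F) = 1 := congrArg Subtype.val hd
      have hfc0 : f c.1 ≠ 0 := left_ne_zero_of_mul_eq_one hd'
      have hc0 : (c : F0) ≠ 0 := fun h => hfc0 (by rw [h, map_zero])
      have hdeq : (d : F) = (f c.1)⁻¹ := eq_inv_of_mul_eq_one_right hd'
      have hmem : (c : F0)⁻¹ ∈ V.comap f := by
        rw [ValuationSubring.mem_comap, map_inv₀, ← hdeq]
        exact d.2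
      exact isUnit_iff_exists_inv.mpr ⟨⟨(c : F0)⁻¹, hmem⟩, Subtype.ext (mul_inv_cancel₀ hc0)⟩
    · exact Subtype.ext (by simp [g])
  exact ((IsBezout.TFAE (R := V.comap f)).out 3 1).mp hwf

end Comap

section Integral

/-- a valuation subring contains every element integral over a subring it contains -/
theorem mem_of_isIntegral_of_forall_mem {R F : Type*} [CommRing R] [Field F] [Algebra R F]
    (V : ValuationSubring F) (hR : ∀ c : R, algebraMap R F c ∈ V) {x : F}
    (hx : IsIntegral R x) : x ∈ V := by
  obtain ⟨p, hp, hpx⟩ := hx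
  let φ : R →+* V := (algebraMap R F).codRestrict V.toSubring hR
  have hint : IsIntegral V x := by
    refine ⟨p.map φ, hp.map φ, ?_⟩
    rw [Polynomial.eval₂_map]
    have : (algebraMap V F).comp φ = algebraMap R F := by
      ext a; rfl
    rw [this]
    exact hpx
  obtain ⟨y, hy⟩ := (IsIntegrallyClosed.isIntegral_iff (R := V) (K := F)).mp hint
  rw [← hy]
  exact y.2

theorem val_eq_one_of_mem_of_inv_mem {L : Type*} [Field L] (V : ValuationSubring L) {x : L}
    (hx0 : x ≠ 0) (hx : x ∈ V) (hx' : x⁻¹ ∈ V) : V.valuation x = 1 := by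
  have h1 := (V.valuation_le_one_iff x).mpr hx
  have h2 := (V.valuation_le_one_iff x⁻¹).mpr hx'
  rw [map_inv₀] at h2
  have hv0 : V.valuation x ≠ 0 := (Valuation.ne_zero_iff _).mpr hx0
  exact le_antisymm h1 ((inv_le_one₀ (zero_lt_iff.mpr hv0)).mp h2)

theorem val_lt_one_of_mem_of_inv_not_mem {L : Type*} [Field L] (V : ValuationSubring L) {x : L}
    (hx : x ∈ V) (hx' : x⁻¹ ∉ V) : V.valuation x < 1 := by
  have h1 := (V.valuation_le_one_iff x).mpr hx
  refine lt_of_le_of_ne h1 fun h => hx' ((V.valuation_le_one_iff _).mp ?_)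
  rw [map_inv₀, h, inv_one]

end Integral

section GoingUp

/-- in a vanishing sum with a nonzero term, the maximal valuation is attained twice -/
theorem exists_ne_val_eq_of_sum_eq_zero {R Γ : Type*} [Ring R]
    [LinearOrderedCommGroupWithZero Γ] (v : Valuation R Γ) {ι : Type*} (s : Finset ι)
    (f : ι → R) (hsum : ∑ i ∈ s, f i = 0) (hne : ∃ i ∈ s, v (f i) ≠ 0) :
    ∃ i ∈ s, ∃ j ∈ s, i ≠ j ∧ v (f i) ≠ 0 ∧ v (f i) = v (f j) := by
  classical
  obtain ⟨i0, hi0s, hi0⟩ := hne
  obtain ⟨j, hjs, hjmax⟩ := Finset.exists_max_image s (fun i => v (f i)) ⟨i0, hi0s⟩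
  have hj0 : v (f j) ≠ 0 := by
    intro h
    have := hjmax i0 hi0s
    rw [h] at this
    exact hi0 (le_antisymm this zero_le)
  by_contra hcon
  push Not at hcon
  have hlt : ∀ i ∈ s \ {j}, v (f i) < v (f j) := by
    intro i hi
    rw [Finset.mem_sdiff, Finset.mem_singleton] at hi
    refine lt_of_le_of_ne (hjmax i hi.1) ?_
    intro heq
    exact hcon j hjs i hi.1 (Ne.symm hi.2) hj0 heq.symm
  have := v.map_sum_eq_of_lt hjs hlt
  rw [hsum, map_zero] at this
  exact hj0 this.symm

variable {K L : Type*} [Field K] [Field L] [Algebra K L]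

/-- **(PB2)** Going up a finite extension: a valuation subring of `L` whose restriction to `K`
is principal (a DVR or a field) is principal. No separability hypothesis. -/
theorem isPrincipalIdealRing_of_finite [FiniteDimensional K L] (V : ValuationSubring L)
    (h : IsPrincipalIdealRing (V.comap (algebraMap K L))) : IsPrincipalIdealRing V := by
  classical
  by_cases htop : V.comap (algebraMap K L) = ⊤
  · have hVtop : V = ⊤ := by
      refine SetLike.ext fun x => ⟨fun _ => ValuationSubring.mem_top x, fun _ => ?_⟩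
      refine mem_of_isIntegral_of_forall_mem (R := K) V (fun c => ?_)
        (Algebra.IsIntegral.isIntegral x)
      have : c ∈ V.comap (algebraMap K L) := by rw [htop]; exact ValuationSubring.mem_top c
      exact this
    refine IsField.isPrincipalIdealRing ?_
    refine ⟨⟨0, 1, zero_ne_one⟩, mul_comm, fun {a} ha => ?_⟩
    have ha0 : (a : L) ≠ 0 := fun h0 => ha (Subtype.ext h0)
    have hall : ∀ x : L, x ∈ V := fun x => by rw [hVtop]; exact ValuationSubring.mem_top x
    have hinv : (a : L)⁻¹ ∈ V := hall _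
    exact ⟨⟨(a : L)⁻¹, hinv⟩, Subtype.ext (mul_inv_cancel₀ ha0)⟩
  · set W := V.comap (algebraMap K L) with hW
    have : IsPrincipalIdealRing W := h
    have : IsDiscreteValuationRing W :=
      { not_a_field' := by
          rw [ne_eq, ← IsLocalRing.isField_iff_maximalIdeal_eq]
          exact ValuationSubring.not_isField_of_ne_top K htop }
    obtain ⟨ϖ, hϖ⟩ := IsDiscreteValuationRing.exists_irreducible W
    set v := V.valuation with hv
    set g := v (algebraMap K L (ϖ : K)) with hg
    have hϖ0 : (ϖ : K) ≠ 0 := by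
      have := hϖ.ne_zero
      simpa using this
    have hg0 : g ≠ 0 := (Valuation.ne_zero_iff _).mpr ((map_ne_zero _).mpr hϖ0)
    have hunit : ∀ u : Wˣ, v (algebraMap K L ((u : W) : K)) = 1 := by
      intro u
      have hu0 : ((u : W) : K) ≠ 0 := by
        have := u.ne_zero
        simpa using this
      have h1 : algebraMap K L ((u : W) : K) ∈ V := (u : W).2
      have h2 : (algebraMap K L ((u : W) : K))⁻¹ ∈ V := by
        rw [← map_inv₀]
        have hinv : (((u⁻¹ : Wˣ) : W) : K) = ((u : W) : K)⁻¹ := by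
          have h3 : ((u : W) : K) * (((u⁻¹ : Wˣ) : W) : K) = 1 :=
            congrArg (fun w : W => (w : K)) u.mul_inv
          exact eq_inv_of_mul_eq_one_right h3
        rw [← hinv]
        exact ((u⁻¹ : Wˣ) : W).2
      exact val_eq_one_of_mem_of_inv_mem V ((map_ne_zero _).mpr hu0) h1 h2
    have hg1 : g < 1 := by
      have h1 : algebraMap K L (ϖ : K) ∈ V := ϖ.2
      refine val_lt_one_of_mem_of_inv_not_mem V h1 fun h2 => hϖ.not_isUnit ?_
      rw [← map_inv₀] at h2
      exact isUnit_iff_exists_inv.mpr ⟨⟨(ϖ : K)⁻¹, h2⟩, Subtype.ext (mul_inv_cancel₀ hϖ0)⟩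
    have hKval : ∀ c : K, c ≠ 0 → ∃ k : ℤ, v (algebraMap K L c) = g ^ k := by
      intro c hc
      obtain ⟨n, u, hcu⟩ :=
        IsDiscreteValuationRing.exists_units_eq_smul_zpow_of_irreducible (K := K) hϖ hc
      refine ⟨n, ?_⟩
      have hcu' : c = ((u : W) : K) * (ϖ : K) ^ n := by
        rw [hcu, Units.smul_def, Algebra.smul_def]; rfl
      rw [hcu', map_mul, map_mul, map_zpow₀, map_zpow₀, hunit u, one_mul]
    set n := Module.finrank K L with hn
    have hrel : ∀ y : L, y ≠ 0 → ∃ e : ℕ, 0 < e ∧ e ≤ n ∧ ∃ k : ℤ, v y ^ e = g ^ k := by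
      intro y hy
      have hvy0 : v y ≠ 0 := (Valuation.ne_zero_iff _).mpr hy
      have hdep : ¬ LinearIndependent K (fun i : Fin (n + 1) => y ^ (i : ℕ)) := by
        intro hli
        have := hli.fintype_card_le_finrank
        simp at this
        omega
      obtain ⟨c, hsum, i0, hi0⟩ := Fintype.not_linearIndependent_iff.mp hdep
      have hterm : ∀ i : Fin (n + 1), v (c i • y ^ (i : ℕ)) = v (algebraMap K L (c i)) * v y ^ (i : ℕ) := by
        intro i
        rw [Algebra.smul_def, map_mul, map_pow]
      have hterm0 : ∀ i : Fin (n + 1), v (c i • y ^ (i : ℕ)) ≠ 0 ↔ c i ≠ 0 := by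
        intro i
        rw [hterm i]
        constructor
        · intro h hc
          apply h
          rw [hc, map_zero, map_zero, zero_mul]
        · intro hc
          exact mul_ne_zero ((Valuation.ne_zero_iff _).mpr ((map_ne_zero _).mpr hc))
            (pow_ne_zero _ hvy0)
      have key : ∀ i j : Fin (n + 1), i < j → c i ≠ 0 → c j ≠ 0 →
          v (c i • y ^ (i : ℕ)) = v (c j • y ^ (j : ℕ)) →
          ∃ e : ℕ, 0 < e ∧ e ≤ n ∧ ∃ k : ℤ, v y ^ e = g ^ k := by
        intro i j hij hci hcj heq
        obtain ⟨ki, hki⟩ := hKval (c i) hci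
        obtain ⟨kj, hkj⟩ := hKval (c j) hcj
        have hij' : (i : ℕ) < (j : ℕ) := hij
        have hjn : (j : ℕ) ≤ n := Nat.lt_succ_iff.mp j.2
        refine ⟨(j : ℕ) - (i : ℕ), by omega, by omega, ki - kj, ?_⟩
        rw [hterm i, hterm j, hki, hkj] at heq
        have hsplit : v y ^ (j : ℕ) = v y ^ (i : ℕ) * v y ^ ((j : ℕ) - (i : ℕ)) := by
          rw [← pow_add]; congr 1; omega
        rw [hsplit] at heq
        have hgkj : g ^ kj ≠ 0 := zpow_ne_zero _ hg0
        have hvi : v y ^ (i : ℕ) ≠ 0 := pow_ne_zero _ hvy0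
        have h1 : g ^ kj * v y ^ ((j : ℕ) - (i : ℕ)) * v y ^ (i : ℕ) = g ^ ki * v y ^ (i : ℕ) := by
          rw [heq, mul_assoc, mul_comm (v y ^ ((j : ℕ) - (i : ℕ)))]
        have h2 := mul_right_cancel₀ hvi h1
        rw [zpow_sub₀ hg0, eq_div_iff hgkj, mul_comm]
        exact h2
      obtain ⟨i, -, j, -, hij, hvi, hvij⟩ :=
        exists_ne_val_eq_of_sum_eq_zero v Finset.univ (fun i => c i • y ^ (i : ℕ)) hsum
          ⟨i0, Finset.mem_univ _, (hterm0 i0).mpr hi0⟩
      have hci : c i ≠ 0 := (hterm0 i).mp hvi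
      have hcj : c j ≠ 0 := (hterm0 j).mp (hvij ▸ hvi)
      rcases lt_or_gt_of_ne hij with hlt | hlt
      · exact key i j hlt hci hcj hvij
      · exact key j i hlt hcj hci hvij.symm
    set M := n.factorial with hM
    have hMpos : 0 < M := Nat.factorial_pos n
    have hN : ∀ y : V, y ≠ 0 → ∃ N : ℕ, v (y : L) ^ M = g ^ N := by
      intro y hy
      have hy0 : (y : L) ≠ 0 := fun h0 => hy (Subtype.ext h0)
      obtain ⟨e, he, hen, k, hk⟩ := hrel (y : L) hy0
      obtain ⟨q, hq⟩ := Nat.dvd_factorial he hen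
      have hpow : v (y : L) ^ M = g ^ (k * q) := by
        rw [hM, hq, pow_mul, hk, ← zpow_natCast, ← zpow_mul]
      have hle : v (y : L) ^ M ≤ 1 := pow_le_one₀ zero_le ((V.valuation_le_one_iff _).mpr y.2)
      have hkq : 0 ≤ k * q := by
        by_contra hneg
        push Not at hneg
        obtain ⟨t, ht⟩ : ∃ t : ℕ, k * q = -((t : ℤ) + 1) := ⟨(-(k * q) - 1).toNat, by omega⟩
        rw [hpow, ht, zpow_neg] at hle
        have h1 : g ^ ((t : ℤ) + 1) < 1 := by
          have : g ^ ((t : ℤ) + 1) = g ^ (t + 1) := by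
            rw [← zpow_natCast]; push_cast; rfl
          rw [this]
          exact pow_lt_one₀ zero_le hg1 (Nat.succ_ne_zero t)
        have h2 : 0 < g ^ ((t : ℤ) + 1) := zero_lt_iff.mpr (zpow_ne_zero _ hg0)
        have h3 : 1 < (g ^ ((t : ℤ) + 1))⁻¹ := (one_lt_inv₀ h2).mpr h1
        exact absurd hle (not_le.mpr h3)
      refine ⟨(k * q).toNat, ?_⟩
      rw [hpow, ← zpow_natCast, Int.toNat_of_nonneg hkq]
    choose N hNspec using hN
    let μ : V → WithTop ℕ := fun y => if hy : y = 0 then ⊤ else (N y hy : WithTop ℕ)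
    have hwf : WfDvdMonoid V := by
      refine ⟨Subrelation.wf ?_ (InvImage.wf μ wellFounded_lt)⟩
      rintro a b ⟨ha, c, hc, rfl⟩
      show μ a < μ (a * c)
      by_cases hc0 : c = 0
      · subst hc0
        simp only [μ, mul_zero, dif_pos, dif_neg ha]
        exact WithTop.coe_lt_top _
      · have hac : a * c ≠ 0 := mul_ne_zero ha hc0
        simp only [μ, dif_neg ha, dif_neg hac]
        have hlt : N a ha < N (a * c) hac := by
          by_contra hle
          push Not at hle
          have h1 : g ^ (N a ha) ≤ g ^ (N (a * c) hac) :=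
            pow_le_pow_of_le_one zero_le hg1.le hle
          rw [← hNspec a ha, ← hNspec (a * c) hac] at h1
          have hvc : v (c : L) < 1 := by
            rcases V.valuation_lt_one_or_eq_one c with h | h
            · exact h
            · exact absurd ((V.valuation_eq_one_iff c).mpr h) hc
          have hvcM : v (c : L) ^ M < 1 := pow_lt_one₀ zero_le hvc hMpos.ne'
          have hva0 : 0 < v (a : L) ^ M :=
            zero_lt_iff.mpr (pow_ne_zero _ ((Valuation.ne_zero_iff _).mpr
              (fun h0 => ha (Subtype.ext h0))))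
          have h2 : v ((a * c : V) : L) ^ M = v (a : L) ^ M * v (c : L) ^ M := by
            rw [← mul_pow, ← map_mul]; rfl
          rw [h2] at h1
          have h3 : v (a : L) ^ M * v (c : L) ^ M < v (a : L) ^ M := by
            calc v (a : L) ^ M * v (c : L) ^ M < v (a : L) ^ M * 1 :=
                  mul_lt_mul_of_pos_left hvcM hva0
              _ = v (a : L) ^ M := mul_one _
          exact absurd h1 (not_le.mpr h3)
        exact_mod_cast hlt
    exact ((IsBezout.TFAE (R := V)).out 3 1).mp hwf

end GoingUp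

section Restrict

variable {K0 K F0 F : Type*} [Field K0] [Field K] [Field F0] [Field F]
  [Algebra K0 K] [Algebra K F] [Algebra K0 F0] [Algebra F0 F] [Algebra K0 F]
  [IsScalarTower K0 K F] [IsScalarTower K0 F0 F]

/-- **(PB3)** The restriction of a place of `F / K` to a subfield `F0 / K0` on which it is
not trivial. -/
def restrictPlace (P : Place K F)
    (hne : ∃ y : F0, algebraMap F0 F y ∉ P.toValuationSubring) : Place K0 F0 where
  toValuationSubring := P.toValuationSubring.comap (algebraMap F0 F)
  algebraMap_mem' := fun a => by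
    rw [ValuationSubring.mem_comap, ← IsScalarTower.algebraMap_apply,
      IsScalarTower.algebraMap_apply K0 K F]
    exact P.algebraMap_mem' _
  ne_top' := by
    obtain ⟨y, hy⟩ := hne
    intro h
    apply hy
    have : y ∈ P.toValuationSubring.comap (algebraMap F0 F) := by
      rw [h]; exact ValuationSubring.mem_top y
    exact this
  isPrincipalIdealRing' := isPrincipalIdealRing_comap _ _

@[simp]
theorem restrictPlace_toValuationSubring (P : Place K F)
    (hne : ∃ y : F0, algebraMap F0 F y ∉ P.toValuationSubring) :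
    (restrictPlace (K0 := K0) P hne).toValuationSubring =
      P.toValuationSubring.comap (algebraMap F0 F) := rfl

theorem mem_restrictPlace_iff (P : Place K F)
    (hne : ∃ y : F0, algebraMap F0 F y ∉ P.toValuationSubring) (y : F0) :
    y ∈ (restrictPlace (K0 := K0) P hne).toValuationSubring ↔
      algebraMap F0 F y ∈ P.toValuationSubring := Iff.rfl

/-- an element of a place ring whose inverse is also in the ring has order zero -/
theorem ord_eq_zero_of_mem_of_inv_mem (P : Place K F) {u : F}
    (hu : u ∈ P.toValuationSubring) (hu' : u⁻¹ ∈ P.toValuationSubring) : P.ord u = 0 := by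
  have h1 := H19.ord_nonneg_of_mem P hu
  have h2 := H19.ord_nonneg_of_mem P hu'
  rw [P.ord_inv] at h2
  omega

/-- **(PB3)** ramification index of a place over its restriction: `ord_P = e * ord_O` on `F0`
for every `t` with `ord_O t = 1`, with `e = ord_P t`. -/
theorem ord_algebraMap_eq_mul (P : Place K F)
    (hne : ∃ y : F0, algebraMap F0 F y ∉ P.toValuationSubring) (t : F0)
    (ht : (restrictPlace (K0 := K0) P hne).ord t = 1) (y : F0) :
    P.ord (algebraMap F0 F y) =
      P.ord (algebraMap F0 F t) * (restrictPlace (K0 := K0) P hne).ord y := by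
  set O := restrictPlace (K0 := K0) P hne with hO
  rcases eq_or_ne y 0 with rfl | hy
  · simp
  have ht0 : t ≠ 0 := by
    rintro rfl
    simp at ht
  set n := O.ord y with hn
  set w : F0 := y * (t ^ n)⁻¹ with hw
  have htn : t ^ n ≠ 0 := zpow_ne_zero n ht0
  have hw0 : w ≠ 0 := mul_ne_zero hy (inv_ne_zero htn)
  have hordw : O.ord w = 0 := by
    rw [hw, O.ord_mul hy (inv_ne_zero htn), O.ord_inv, O.ord_zpow, ht, ← hn]
    ring
  have hwm : w ∈ O.toValuationSubring := H19.mem_of_ord_nonneg O (by rw [hordw])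
  have hwm' : w⁻¹ ∈ O.toValuationSubring :=
    H19.mem_of_ord_nonneg O (by rw [O.ord_inv, hordw]; simp)
  have h1 : algebraMap F0 F w ∈ P.toValuationSubring := hwm
  have h2 : (algebraMap F0 F w)⁻¹ ∈ P.toValuationSubring := by
    rw [← map_inv₀]; exact hwm'
  have h3 := ord_eq_zero_of_mem_of_inv_mem P h1 h2
  have hy' : y = w * t ^ n := by
    rw [hw, mul_assoc, inv_mul_cancel₀ htn, mul_one]
  have hιw0 : algebraMap F0 F w ≠ 0 := (map_ne_zero _).mpr hw0
  have hιt0 : algebraMap F0 F t ^ n ≠ 0 := zpow_ne_zero n ((map_ne_zero _).mpr ht0)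
  conv_lhs => rw [hy', map_mul, map_zpow₀, P.ord_mul hιw0 hιt0, h3, P.ord_zpow]
  ring

/-- the ramification index is positive -/
theorem ord_algebraMap_pos (P : Place K F)
    (hne : ∃ y : F0, algebraMap F0 F y ∉ P.toValuationSubring) (t : F0)
    (ht : 0 < (restrictPlace (K0 := K0) P hne).ord t) :
    0 < P.ord (algebraMap F0 F t) := by
  set O := restrictPlace (K0 := K0) P hne with hO
  have h1 : t⁻¹ ∉ O.toValuationSubring := by
    intro h
    have := H19.ord_nonneg_of_mem O h
    rw [O.ord_inv] at this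
    omega
  have h2 : (algebraMap F0 F t)⁻¹ ∉ P.toValuationSubring := by
    rw [← map_inv₀]; exact h1
  have h3 : ¬ (0 ≤ P.ord (algebraMap F0 F t)⁻¹) := fun h => h2 (H19.mem_of_ord_nonneg P h)
  rw [P.ord_inv] at h3
  omega

/-- **(PB3)** existence of the ramification index. -/
theorem exists_ramIdx (P : Place K F)
    (hne : ∃ y : F0, algebraMap F0 F y ∉ P.toValuationSubring) :
    ∃ e : ℕ, 0 < e ∧ ∀ y : F0,
      P.ord (algebraMap F0 F y) = e * (restrictPlace (K0 := K0) P hne).ord y := by
  obtain ⟨t, ht⟩ := H19.exists_ord_eq_one (restrictPlace (K0 := K0) P hne)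
  have hpos := ord_algebraMap_pos (K0 := K0) P hne t (by rw [ht]; exact one_pos)
  refine ⟨(P.ord (algebraMap F0 F t)).toNat, by omega, fun y => ?_⟩
  rw [ord_algebraMap_eq_mul (K0 := K0) P hne t ht y, Int.toNat_of_nonneg hpos.le]

/-- **(PB3)** the ramification index is one as soon as a uniformiser of `P` lies in `F0`. -/
theorem ord_algebraMap_eq_of_exists (P : Place K F)
    (hne : ∃ y : F0, algebraMap F0 F y ∉ P.toValuationSubring)
    (hu : ∃ t : F0, P.ord (algebraMap F0 F t) = 1) (y : F0) :
    P.ord (algebraMap F0 F y) = (restrictPlace (K0 := K0) P hne).ord y := by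
  obtain ⟨e, he, hey⟩ := exists_ramIdx (K0 := K0) P hne
  obtain ⟨t, ht⟩ := hu
  have h1 := hey t
  rw [ht] at h1
  have he1 : (e : ℤ) = 1 := by
    have h2 : (e : ℤ) ∣ 1 := ⟨_, h1⟩
    have h3 : (0 : ℤ) ≤ e := by positivity
    exact Int.eq_one_of_dvd_one h3 h2
  rw [hey y, he1, one_mul]

/-- the restriction is automatically nontrivial when `F` is algebraic over `F0` -/
theorem exists_not_mem_of_isAlgebraic [Algebra.IsAlgebraic F0 F] (P : Place K F) :
    ∃ y : F0, algebraMap F0 F y ∉ P.toValuationSubring := by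
  by_contra hcon
  push Not at hcon
  apply P.ne_top'
  refine SetLike.ext fun x => ⟨fun _ => ValuationSubring.mem_top x, fun _ => ?_⟩
  exact mem_of_isIntegral_of_forall_mem (R := F0) P.toValuationSubring hcon
    (Algebra.IsAlgebraic.isAlgebraic x).isIntegral

end Restrict

section Extend

variable {K0 K F0 F : Type*} [Field K0] [Field K] [Field F0] [Field F]
  [Algebra K0 K] [Algebra K F] [Algebra K0 F0] [Algebra F0 F] [Algebra K0 F]
  [IsScalarTower K0 K F] [IsScalarTower K0 F0 F]

omit [Field K0] [Field K] [Algebra K0 K] [Algebra K F] [Algebra K0 F0] [Algebra K0 F]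
  [IsScalarTower K0 K F] [IsScalarTower K0 F0 F] in
/-- Chevalley: every valuation subring of a subfield is the restriction of a valuation subring. -/
theorem exists_valuationSubring_comap_eq (O : ValuationSubring F0) :
    ∃ V : ValuationSubring F, V.comap (algebraMap F0 F) = O := by
  obtain ⟨V, hle, hloc⟩ :=
    (LocalSubring.map (algebraMap F0 F) O.toLocalSubring).exists_le_valuationSubring
  refine ⟨V, ?_⟩
  have hsub : ∀ y : F0, y ∈ O → algebraMap F0 F y ∈ V := fun y hy => hle ⟨y, hy, rfl⟩
  have hdom : O.toLocalSubring ≤ (V.comap (algebraMap F0 F)).toLocalSubring := by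
    refine ⟨fun y hy => hsub y hy, ⟨fun a ha => ?_⟩⟩
    obtain ⟨b, hb⟩ := isUnit_iff_exists_inv.mp ha
    have hb' : (a : F0) * (b : F0) = 1 := congrArg Subtype.val hb
    have hbV : algebraMap F0 F (b : F0) ∈ V := b.2
    -- the image of `a` is a unit of `V`, hence of the image of `O`
    let x : (LocalSubring.map (algebraMap F0 F) O.toLocalSubring).toSubring :=
      ⟨algebraMap F0 F (a : F0), ⟨(a : F0), a.2, rfl⟩⟩
    have hxu : IsUnit (Subring.inclusion hle x) := by
      refine isUnit_iff_exists_inv.mpr ⟨⟨algebraMap F0 F (b : F0), hbV⟩, Subtype.ext ?_⟩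
      show algebraMap F0 F (a : F0) * algebraMap F0 F (b : F0) = 1
      rw [← map_mul, hb', map_one]
    have hxu' : IsUnit x := hloc.map_nonunit x hxu
    obtain ⟨x', hx'⟩ := isUnit_iff_exists_inv.mp hxu'
    obtain ⟨a', ha'O, ha'⟩ := x'.2
    have h1 : algebraMap F0 F (a : F0) * algebraMap F0 F a' = 1 := by
      have := congrArg Subtype.val hx'
      rw [ha']
      exact this
    have h2 : (a : F0) * a' = 1 := by
      apply (algebraMap F0 F).injective
      rw [map_mul, h1, map_one]
    exact isUnit_iff_exists_inv.mpr ⟨⟨a', ha'O⟩, Subtype.ext h2⟩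
  have hle' := O.isMax_toLocalSubring hdom
  exact (ValuationSubring.toLocalSubring_injective (le_antisymm hle' hdom))

/-- **(PB4)** Every place of `F0 / K0` is the restriction of a place of `F / K`, provided the
nontrivial valuation subrings of `F` over `K` are discrete (`hDVR`, true for function fields of
one variable) and `K` is algebraic over `K0`. -/
theorem exists_place_restrict_eq [Algebra.IsAlgebraic K0 K]
    (hDVR : ∀ V : ValuationSubring F, (∀ a : K, algebraMap K F a ∈ V) → V ≠ ⊤ →
      IsPrincipalIdealRing V)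
    (O : Place K0 F0) :
    ∃ (P : Place K F) (hne : ∃ y : F0, algebraMap F0 F y ∉ P.toValuationSubring),
      restrictPlace (K0 := K0) P hne = O := by
  obtain ⟨V, hV⟩ := exists_valuationSubring_comap_eq (F := F) O.toValuationSubring
  have hK0 : ∀ c : K0, algebraMap K0 F c ∈ V := by
    intro c
    rw [IsScalarTower.algebraMap_apply K0 F0 F]
    have : algebraMap K0 F0 c ∈ V.comap (algebraMap F0 F) := by
      rw [hV]; exact O.algebraMap_mem' c
    exact this
  have hK : ∀ a : K, algebraMap K F a ∈ V := by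
    intro a
    refine mem_of_isIntegral_of_forall_mem (R := K0) V hK0 ?_
    have ha : IsIntegral K0 a := (Algebra.IsAlgebraic.isAlgebraic a).isIntegral
    exact ha.map (IsScalarTower.toAlgHom K0 K F)
  obtain ⟨y, hy⟩ : ∃ y : F0, y ∉ O.toValuationSubring := by
    by_contra hcon
    push Not at hcon
    exact O.ne_top' (SetLike.ext fun x => ⟨fun _ => ValuationSubring.mem_top x, fun _ => hcon x⟩)
  have hyV : algebraMap F0 F y ∉ V := by
    intro h
    apply hy
    rw [← hV]
    exact h
  have hVtop : V ≠ ⊤ := by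
    rintro rfl
    exact hyV (ValuationSubring.mem_top _)
  exact ⟨⟨V, hK, hVtop, hDVR V hK hVtop⟩, ⟨y, hyV⟩, Place.ext hV⟩

end Extend

section Bridge

variable {K0 K F0 F : Type*} [Field K0] [Field K] [Field F0] [Field F]
  [Algebra K0 K] [Algebra K F] [Algebra K0 F0] [Algebra F0 F] [Algebra K0 F]
  [IsScalarTower K0 K F] [IsScalarTower K0 F0 F]

omit [Field K0] [Field F0] [Algebra K0 K] [Algebra K0 F0] [Algebra F0 F] [Algebra K0 F]
  [IsScalarTower K0 K F] [IsScalarTower K0 F0 F] in
/-- Taylor expansion to first order -/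
theorem exists_aeval_eq_eval_add (p : Polynomial K) (a : K) (X : F) :
    ∃ s : Polynomial K, Polynomial.aeval X p =
      algebraMap K F (p.eval a) + (X - algebraMap K F a) * Polynomial.aeval X s := by
  obtain ⟨s, hs⟩ := Polynomial.X_sub_C_dvd_sub_C_eval (a := a) (p := p)
  refine ⟨s, ?_⟩
  have h1 : p = Polynomial.C (p.eval a) + (Polynomial.X - Polynomial.C a) * s := by
    rw [← hs]; ring
  conv_lhs => rw [h1]
  simp

omit [Field K0] [Field F0] [Algebra K0 K] [Algebra K0 F0] [Algebra F0 F] [Algebra K0 F]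
  [IsScalarTower K0 K F] [IsScalarTower K0 F0 F] in
theorem ord_aeval_nonneg (P : Place K F) {X : F} (hX : X ∈ P.toValuationSubring)
    (p : Polynomial K) : Polynomial.aeval X p ∈ P.toValuationSubring := by
  induction p using Polynomial.induction_on' with
  | add p q hp hq => rw [map_add]; exact add_mem hp hq
  | monomial n c =>
    rw [Polynomial.aeval_monomial]
    exact mul_mem (P.algebraMap_mem' c) (pow_mem hX n)

omit [Field K0] [Field F0] [Algebra K0 K] [Algebra K0 F0] [Algebra F0 F] [Algebra K0 F]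
  [IsScalarTower K0 K F] [IsScalarTower K0 F0 F] in
/-- a polynomial that does not vanish at the residue `a` of `X` is a unit at the place -/
theorem ord_aeval_eq_zero_of_eval_ne_zero (P : Place K F) {X : F}
    (hX : X ∈ P.toValuationSubring) (a : K) (hXa : 0 < P.ord (X - algebraMap K F a))
    (p : Polynomial K) (hp : p.eval a ≠ 0) :
    Polynomial.aeval X p ≠ 0 ∧ P.ord (Polynomial.aeval X p) = 0 := by
  obtain ⟨s, hs⟩ := exists_aeval_eq_eval_add p a X
  rw [hs]
  refine H98.ord_add_eq_zero P ((map_ne_zero _).mpr hp) (H19.ord_algebraMap P _) ?_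
  by_cases hs0 : Polynomial.aeval X s = 0
  · left; rw [hs0, mul_zero]
  · right
    have hXa0 : X - algebraMap K F a ≠ 0 := by
      intro h0
      rw [h0, P.ord_zero] at hXa
      exact lt_irrefl _ hXa
    rw [P.ord_mul hXa0 hs0]
    have := H19.ord_nonneg_of_mem P (ord_aeval_nonneg P hX s)
    omega

/-- **(PB5)** unramified bridge: if every place of `F / K` over a root `a` of the separable
polynomial `c` is unramified over the `x`-line (`ord_P (x - a) = 1`), then the restriction `O` of
`P` to the model `F0 / K0` has `ord_O (c(x)) = 1` as soon as it is positive. -/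
theorem ord_aeval_eq_one_of_unramified (P : Place K F)
    (hne : ∃ y : F0, algebraMap F0 F y ∉ P.toValuationSubring)
    (x : F0) (c : Polynomial K0) (hsep : c.Separable)
    (hres : ∀ u ∈ P.toValuationSubring,
      ∃ a : K, u = algebraMap K F a ∨ 0 < P.ord (u - algebraMap K F a))
    (hxtr : ∀ a : K, algebraMap F0 F x ≠ algebraMap K F a)
    (hx : x ∈ (restrictPlace (K0 := K0) P hne).toValuationSubring)
    (hpos : 0 < (restrictPlace (K0 := K0) P hne).ord (Polynomial.aeval x c))
    (hram : ∀ a : K, (c.map (algebraMap K0 K)).IsRoot a →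
      0 < P.ord (algebraMap F0 F x - algebraMap K F a) →
      P.ord (algebraMap F0 F x - algebraMap K F a) = 1) :
    (restrictPlace (K0 := K0) P hne).ord (Polynomial.aeval x c) = 1 := by
  set O := restrictPlace (K0 := K0) P hne with hO
  set X : F := algebraMap F0 F x with hXdef
  set cK : Polynomial K := c.map (algebraMap K0 K) with hcK
  have hXmem : X ∈ P.toValuationSubring := hx
  have hfact0 : algebraMap F0 F (Polynomial.aeval x c) = Polynomial.aeval X cK := by
    rw [hcK, Polynomial.aeval_map_algebraMap, hXdef, Polynomial.aeval_algebraMap_apply]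
  have hposP : 0 < P.ord (Polynomial.aeval X cK) := by
    rw [← hfact0]
    exact ord_algebraMap_pos (K0 := K0) P hne _ hpos
  obtain ⟨a, ha⟩ := hres X hXmem
  have hXa : 0 < P.ord (X - algebraMap K F a) := ha.resolve_left (hxtr a)
  have hXa0 : X - algebraMap K F a ≠ 0 := sub_ne_zero.mpr (hxtr a)
  have hroot : cK.IsRoot a := by
    by_contra hnr
    have := (ord_aeval_eq_zero_of_eval_ne_zero P hXmem a hXa cK hnr).2
    omega
  have hXa1 : P.ord (X - algebraMap K F a) = 1 := hram a hroot hXa
  obtain ⟨q, hq⟩ := Polynomial.dvd_iff_isRoot.mpr hroot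
  have hsepK : cK.Separable := hsep.map
  have hqa : q.eval a ≠ 0 := by
    intro hq0
    obtain ⟨q', hq'⟩ := Polynomial.dvd_iff_isRoot.mpr (show q.IsRoot a from hq0)
    have hsq : (Polynomial.X - Polynomial.C a) * (Polynomial.X - Polynomial.C a) ∣ cK :=
      ⟨q', by rw [hq, hq']; ring⟩
    have := hsepK.squarefree _ hsq
    exact Polynomial.not_isUnit_X_sub_C a this
  have hq1 := ord_aeval_eq_zero_of_eval_ne_zero P hXmem a hXa q hqa
  have hval : P.ord (Polynomial.aeval X cK) = 1 := by
    rw [hq, map_mul]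
    simp only [map_sub, Polynomial.aeval_X, Polynomial.aeval_C]
    rw [P.ord_mul hXa0 hq1.1, hXa1, hq1.2, add_zero]
  obtain ⟨e, he, hey⟩ := exists_ramIdx (K0 := K0) P hne
  have h1 := hey (Polynomial.aeval x c)
  rw [hfact0, hval] at h1
  have h2 : (e : ℤ) ∣ 1 := ⟨_, h1⟩
  have h3 : (e : ℤ) = 1 := Int.eq_one_of_dvd_one (by positivity) h2
  rw [h3, one_mul] at h1
  exact h1.symm

/-- **(PB5')** divisibility of orders descends to the model, provided the places in the
support have a uniformiser in the model. -/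
theorem dvd_ord_restrictPlace (m : ℤ) (P : Place K F)
    (hne : ∃ y : F0, algebraMap F0 F y ∉ P.toValuationSubring) (u : F0)
    (hP : m ∣ P.ord (algebraMap F0 F u))
    (ht : P.ord (algebraMap F0 F u) ≠ 0 → ∃ t : F0, P.ord (algebraMap F0 F t) = 1) :
    m ∣ (restrictPlace (K0 := K0) P hne).ord u := by
  by_cases h0 : P.ord (algebraMap F0 F u) = 0
  · obtain ⟨e, he, hey⟩ := exists_ramIdx (K0 := K0) P hne
    have h1 := hey u
    rw [h0] at h1
    have he0 : (e : ℤ) ≠ 0 := by positivity
    have : (restrictPlace (K0 := K0) P hne).ord u = 0 := by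
      rcases mul_eq_zero.mp h1.symm with h | h
      · exact absurd h he0
      · exact h
    rw [this]
    exact dvd_zero m
  · rw [← ord_algebraMap_eq_of_exists (K0 := K0) P hne (ht h0) u]
    exact hP

/-- **(PB5')**, quantified over all places of the model. -/
theorem dvd_ord_of_forall_place [Algebra.IsAlgebraic K0 K]
    (hDVR : ∀ V : ValuationSubring F, (∀ a : K, algebraMap K F a ∈ V) → V ≠ ⊤ →
      IsPrincipalIdealRing V)
    (m : ℤ) (u : F0) (hP : ∀ P : Place K F, m ∣ P.ord (algebraMap F0 F u))
    (ht : ∀ P : Place K F, P.ord (algebraMap F0 F u) ≠ 0 →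
      ∃ t : F0, P.ord (algebraMap F0 F t) = 1)
    (O : Place K0 F0) : m ∣ O.ord u := by
  obtain ⟨P, hne, rfl⟩ := exists_place_restrict_eq (K0 := K0) (K := K) (F := F) hDVR O
  exact dvd_ord_restrictPlace (K0 := K0) m P hne u (hP P) (ht P)

end Bridge

section StepD

/-- **STEP D, places.** Divisibility of all orders goes up an algebraic extension of function
fields with the same constants. -/
theorem dvd_ord_algebraMap_of_forall {K F F' : Type*} [Field K] [Field F] [Field F']
    [Algebra K F] [Algebra F F'] [Algebra K F'] [IsScalarTower K F F']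
    [Algebra.IsAlgebraic F F'] (m : ℤ) (u : F) (h : ∀ P : Place K F, m ∣ P.ord u)
    (P' : Place K F') : m ∣ P'.ord (algebraMap F F' u) := by
  have hne := exists_not_mem_of_isAlgebraic (F0 := F) P'
  obtain ⟨e, -, hey⟩ := exists_ramIdx (K0 := K) (K := K) (F0 := F) P' hne
  rw [hey u]
  exact Dvd.dvd.mul_left (h _) _

/-- **STEP D, norm.** If `u ∈ F` becomes an `m`-th power in a finite extension of degree prime
to `m`, it is an `m`-th power in `F`. -/
theorem exists_pow_eq_of_coprime_finrank {F F' : Type*} [Field F] [Field F'] [Algebra F F']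
    [FiniteDimensional F F'] (m : ℕ) (hcop : Nat.Coprime (Module.finrank F F') m) (u : F)
    (hu : ∃ w : F', w ^ m = algebraMap F F' u) : ∃ w0 : F, w0 ^ m = u := by
  obtain ⟨w, hw⟩ := hu
  rcases Nat.eq_zero_or_pos m with rfl | hm
  · rw [pow_zero] at hw
    refine ⟨1, ?_⟩
    rw [pow_zero]
    exact (algebraMap F F').injective (by rw [map_one]; exact hw)
  rcases eq_or_ne u 0 with rfl | hu0
  · exact ⟨0, zero_pow hm.ne'⟩
  set d := Module.finrank F F' with hd
  have hnorm : Algebra.norm F w ^ m = u ^ d := by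
    rw [← map_pow, hw, Algebra.norm_algebraMap]
  have hNw0 : Algebra.norm F w ≠ 0 := by
    intro h0
    rw [h0, zero_pow hm.ne'] at hnorm
    exact pow_ne_zero d hu0 hnorm.symm
  obtain ⟨a, b, hab⟩ : ∃ a b : ℤ, a * d + b * m = 1 := by
    have h := Int.gcd_eq_gcd_ab d m
    rw [Int.gcd_natCast_natCast, hcop.gcd_eq_one] at h
    exact ⟨Int.gcdA d m, Int.gcdB d m, by push_cast at h; linarith⟩
  refine ⟨Algebra.norm F w ^ a * u ^ b, ?_⟩
  rw [mul_pow, ← zpow_natCast, ← zpow_mul, mul_comm a (m : ℤ), zpow_mul, zpow_natCast, hnorm,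
    ← zpow_natCast (u ^ b), ← zpow_mul, ← zpow_natCast u d, ← zpow_mul, ← zpow_add₀ hu0]
  have : (d : ℤ) * a + b * m = 1 := by linarith
  rw [this, zpow_one]

end StepD

end Fermat.Agent.S18.H74
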