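import Mathlib
import Fermat.Agent.S18.Ram0_helper10
import Fermat.Agent.S18.PlaceExist_helper60
import Fermat.Agent.S18.PlaceRestrict_helper74
import Fermat.Agent.S18.Branch_helper66

/-!
# S18, node (BR), instance half: hypothesis (iii) of (NC) in valuation-subring form

* `UnramOutside K F x Pi` : `x` is a coordinate on the function field `F / K` (transcendental,
  `F` finite over `K(x)`) and `F` is unramified over the `x`-line outside the roots of `Pi`.
* `unramOutside_one`, `unramOutside_one_inv`, `unramOutside_two`, `unramOutside_two_inv`,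
  `unramOutside_three`, `unramOutside_three_inv` : the six charts of the modular function field
  `F_N` over `ℚ̄` (`x = j, 1/j`; `x = t, 1/t` for a Hauptmodul `t` of level `2` resp. `3`, the
  Hauptmodul relation being a hypothesis), from `Ram0_helper10` and `Branch_helper66`.
* `exists_generator_of_unram` : **field form**.  `K0 ⊆ K` algebraic, `K` algebraically closed of
  characteristic `0`, `F0 / K0` a model of `FL / K` (a ring map `φ : F0 → FL` compatible with the
  constants), `xi ∈ F0` with `UnramOutside K FL (φ xi) Pi`.  Then every valuation subring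
  `W ≠ ⊤` of `F0` containing `K0`, `xi` and `Pi(xi)⁻¹` has its maximal ideal generated by `g(xi)`
  for a monic irreducible `g ∈ K0[X]`.
* `exists_dvd_of_unram` : **the shape of (NC) HYP (iii)**, for an algebra structure
  `A0[X] → F0`, `X ↦ xi`, over a domain `A0` with fraction field `K0`: every nonzero non-unit
  `y` of a valuation subring `W ⊇ A0[xi]` in which the nonzero constants and `Pi(xi)` are
  invertible is divisible in `W` by a non-unit `g(xi)`, `g ∈ A0[X]`.
* `inv_mem_of_irreducible` : for a discrete valuation ring `A0` it is enough to invert a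
  uniformiser.
-/

set_option autoImplicit false

open AlgebraicCurve IntermediateField Polynomial
open Fermat.Agent.S24 Fermat.Agent.S24.H98

namespace Fermat.Agent.S18.H10

/-- `x` is a coordinate on the function field `F / K`, and `F` is unramified over the `x`-line
outside the roots of `Pi` (no condition at `x = ∞`). -/
structure UnramOutside (K F : Type*) [Field K] [Field F] [Algebra K F] (x : F)
    (Pi : Polynomial K) : Prop where
  /-- the coordinate is not constant -/
  transcendental : Transcendental K x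
  /-- the field is finite over the coordinate line -/
  finite : FiniteDimensional K⟮x⟯ F
  /-- unramified above `a` when `Pi a ≠ 0` -/
  unram : ∀ (v : Place K F) (a : K), 0 < v.ord (x - algebraMap K F a) → Pi.eval a ≠ 0 →
    v.ord (x - algebraMap K F a) = 1

section Generic

variable {K F : Type*} [Field K] [Field F] [Algebra K F]

/-- enlarge the excluded set -/
theorem UnramOutside.of_eval {x : F} {Pi : Polynomial K} (h : UnramOutside K F x Pi)
    (Pi' : Polynomial K) (hPi : ∀ a : K, Pi'.eval a ≠ 0 → Pi.eval a ≠ 0) :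
    UnramOutside K F x Pi' :=
  ⟨h.transcendental, h.finite, fun v a hv ha => h.unram v a hv (hPi a ha)⟩

/-- transcendence passes to a generator of a bigger rational subfield -/
theorem transcendental_of_mem_adjoin {j t : F} (hj : Transcendental K j) (hmem : j ∈ K⟮t⟯) :
    Transcendental K t := by
  intro ht
  apply hj
  have : Algebra.IsAlgebraic K K⟮t⟯ := isAlgebraic_adjoin_simple ht.isIntegral
  have h1 : IsAlgebraic K (⟨j, hmem⟩ : K⟮t⟯) := Algebra.IsAlgebraic.isAlgebraic _
  exact (IntermediateField.isAlgebraic_iff (S := K⟮t⟯) (x := ⟨j, hmem⟩)).mp h1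

/-- finiteness passes to a bigger rational subfield -/
theorem finite_of_mem_adjoin {j t : F} (hmem : j ∈ K⟮t⟯) (hfin : FiniteDimensional K⟮j⟯ F) :
    FiniteDimensional K⟮t⟯ F := by
  have hle : K⟮j⟯ ≤ K⟮t⟯ := adjoin_simple_le_iff.mpr hmem
  let _ : Algebra K⟮j⟯ K⟮t⟯ := (IntermediateField.inclusion hle).toRingHom.toAlgebra
  have : IsScalarTower K⟮j⟯ K⟮t⟯ F := IsScalarTower.of_algebraMap_eq (fun _ => rfl)
  exact FiniteDimensional.right K⟮j⟯ K⟮t⟯ F

/-- transcendence of the inverse -/
theorem transcendental_inv {t : F} (ht : Transcendental K t) : Transcendental K t⁻¹ := by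
  intro h
  apply ht
  have := h.inv
  rwa [inv_inv] at this

/-- finiteness over the line of the inverse coordinate -/
theorem finite_inv {t : F} (hfin : FiniteDimensional K⟮t⟯ F) : FiniteDimensional K⟮t⁻¹⟯ F := by
  rw [H60.adjoin_simple_inv_eq]
  exact hfin

end Generic

section ValuationSubring

variable {K0 K F0 FL : Type*} [Field K0] [Field K] [Field F0] [Field FL]
  [Algebra K0 K] [Algebra K FL] [Algebra K0 F0]

/-- **(BR), field form.**  `F0 / K0` a model of the function field `FL / K` (`K` algebraically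
closed, algebraic over `K0`, characteristic `0`), `xi ∈ F0` a coordinate such that `FL` is
unramified over the `xi`-line outside the roots of `Pi ∈ K0[X]`.  Then every valuation subring
`W ≠ ⊤` of `F0` which contains `K0` and `xi`, and in which `Pi(xi)` is invertible, has its
maximal ideal generated by `g(xi)` for a monic irreducible `g ∈ K0[X]`. -/
theorem exists_generator_of_unram [IsAlgClosed K] [CharZero K0] [Algebra.IsAlgebraic K0 K]
    (φ : F0 →+* FL)
    (hφ : ∀ c : K0, φ (algebraMap K0 F0 c) = algebraMap K FL (algebraMap K0 K c))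
    (xi : F0) (Pi : Polynomial K0) (hPi0 : Pi ≠ 0)
    (hU : UnramOutside K FL (φ xi) (Pi.map (algebraMap K0 K)))
    (W : ValuationSubring F0) (hK0 : ∀ c : K0, algebraMap K0 F0 c ∈ W) (hxi : xi ∈ W)
    (hPi : (aeval xi Pi)⁻¹ ∈ W) (hW : W ≠ ⊤) :
    ∃ g : Polynomial K0, g.Monic ∧ Irreducible g ∧ aeval xi g ∈ W ∧ (aeval xi g)⁻¹ ∉ W ∧
      ∀ y ∈ W, y⁻¹ ∉ W → y / aeval xi g ∈ W := by
  classical
  let _ : Algebra F0 FL := φ.toAlgebra
  let _ : Algebra K0 FL := ((algebraMap K FL).comp (algebraMap K0 K)).toAlgebra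
  have : IsScalarTower K0 K FL := IsScalarTower.of_algebraMap_eq (fun _ => rfl)
  have : IsScalarTower K0 F0 FL := IsScalarTower.of_algebraMap_eq (fun c => (hφ c).symm)
  have hφalg : ∀ z : F0, algebraMap F0 FL z = φ z := fun _ => rfl
  have := hU.finite
  -- Chevalley: a valuation subring of `FL` above `W`
  obtain ⟨V, hV⟩ := H74.exists_valuationSubring_comap_eq (F := FL) W
  have hmemV : ∀ z : F0, φ z ∈ V ↔ z ∈ W := fun z => by
    rw [← hV]; exact Iff.rfl
  have hK0V : ∀ c : K0, algebraMap K0 FL c ∈ V := fun c => by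
    rw [IsScalarTower.algebraMap_apply K0 F0 FL, hφalg]
    exact (hmemV _).mpr (hK0 c)
  have hKV : ∀ a : K, algebraMap K FL a ∈ V := fun a => by
    refine H74.mem_of_isIntegral_of_forall_mem (R := K0) V hK0V ?_
    have ha : IsIntegral K0 a := (Algebra.IsAlgebraic.isAlgebraic a).isIntegral
    exact ha.map (IsScalarTower.toAlgHom K0 K FL)
  obtain ⟨y0, hy0⟩ : ∃ y : F0, y ∉ W := by
    by_contra hcon
    push Not at hcon
    exact hW (SetLike.ext fun x => ⟨fun _ => ValuationSubring.mem_top x, fun _ => hcon x⟩)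
  have hVtop : V ≠ ⊤ := by
    rintro rfl
    exact hy0 ((hmemV y0).mp (ValuationSubring.mem_top _))
  -- the place of `FL / K` and its restriction to the model
  let P : Place K FL := H60.placeOf (φ xi) V hKV hVtop
  have hPV : P.toValuationSubring = V := rfl
  have hne : ∃ y : F0, algebraMap F0 FL y ∉ P.toValuationSubring :=
    ⟨y0, fun h => hy0 ((hmemV y0).mp h)⟩
  set O : Place K0 F0 := H74.restrictPlace (K0 := K0) P hne with hOdef
  have hO : ∀ z : F0, z ∈ O.toValuationSubring ↔ z ∈ W := fun z => by
    rw [hOdef, H74.mem_restrictPlace_iff, hPV, hφalg]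
    exact hmemV z
  -- the centre of `xi`
  have hxV : φ xi ∈ P.toValuationSubring := (hmemV xi).mpr hxi
  have hxtr : ∀ a : K, algebraMap F0 FL xi ≠ algebraMap K FL a := fun a h => by
    apply hU.transcendental
    rw [← hφalg, h]
    exact isAlgebraic_algebraMap a
  have hres : ∀ u ∈ P.toValuationSubring,
      ∃ a : K, u = algebraMap K FL a ∨ 0 < P.ord (u - algebraMap K FL a) :=
    fun u hu => H19.residue_eq (φ xi) hU.transcendental hU.finite P hu
  obtain ⟨a, ha⟩ := hres (φ xi) hxV
  have hXa : 0 < P.ord (φ xi - algebraMap K FL a) := ha.resolve_left (hxtr a)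
  have hXa0 : φ xi - algebraMap K FL a ≠ 0 := sub_ne_zero.mpr (hxtr a)
  -- a factor `X - a'` of a polynomial over `K` forces positive order at `P`
  have hpos_of_root : ∀ (p : Polynomial K) (a' : K), p ≠ 0 → p.IsRoot a' →
      0 < P.ord (φ xi - algebraMap K FL a') → 0 < P.ord (aeval (φ xi) p) := by
    intro p a' hp0 hroot hpos
    obtain ⟨q, hq⟩ := dvd_iff_isRoot.mpr hroot
    have hq0 : q ≠ 0 := by
      rintro rfl
      exact hp0 (by rw [hq, mul_zero])
    have hqx0 : aeval (φ xi) q ≠ 0 := fun h0 => hU.transcendental ⟨q, hq0, h0⟩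
    have hqV : 0 ≤ P.ord (aeval (φ xi) q) :=
      H19.ord_nonneg_of_mem P (H60.aeval_mem P.toValuationSubring P.algebraMap_mem' hxV q)
    have hne0 : φ xi - algebraMap K FL a' ≠ 0 := by
      intro h0
      rw [h0, P.ord_zero] at hpos
      exact lt_irrefl _ hpos
    rw [hq, map_mul, map_sub, aeval_X, aeval_C, P.ord_mul hne0 hqx0]
    omega
  -- the minimal polynomial of the centre
  have haint : IsIntegral K0 a := (Algebra.IsAlgebraic.isAlgebraic a).isIntegral
  set c : Polynomial K0 := minpoly K0 a with hc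
  have hcirr : Irreducible c := minpoly.irreducible haint
  have hcsep : c.Separable := hcirr.separable
  have hc0 : c.map (algebraMap K0 K) ≠ 0 :=
    (Polynomial.map_ne_zero_iff (algebraMap K0 K).injective).mpr hcirr.ne_zero
  have hcroot : (c.map (algebraMap K0 K)).IsRoot a := by
    rw [IsRoot, eval_map_algebraMap, hc, minpoly.aeval]
  have hfact : ∀ p : Polynomial K0,
      φ (aeval xi p) = aeval (φ xi) (p.map (algebraMap K0 K)) := by
    intro p
    rw [aeval_map_algebraMap, ← hφalg, ← hφalg, aeval_algebraMap_apply]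
  have hcW : aeval xi c ∈ W := H60.aeval_mem W hK0 hxi c
  have hcP : 0 < P.ord (φ (aeval xi c)) := by
    rw [hfact]
    exact hpos_of_root _ a hc0 hcroot hXa
  have hcinv : (aeval xi c)⁻¹ ∉ W := by
    intro h
    have h1 : φ (aeval xi c)⁻¹ ∈ P.toValuationSubring := (hmemV _).mpr h
    have h2 := H19.ord_nonneg_of_mem P h1
    rw [map_inv₀, P.ord_inv] at h2
    omega
  have hposO : 0 < O.ord (aeval xi c) :=
    H60.ord_pos_of_mem O ((hO _).mpr hcW) (fun h => hcinv ((hO _).mp h))
  -- `Pi(xi)` is a unit at `P`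
  have hPiK0 : Pi.map (algebraMap K0 K) ≠ 0 :=
    (Polynomial.map_ne_zero_iff (algebraMap K0 K).injective).mpr hPi0
  have hPiord : P.ord (aeval (φ xi) (Pi.map (algebraMap K0 K))) = 0 := by
    rw [← hfact]
    refine H74.ord_eq_zero_of_mem_of_inv_mem P ?_ ?_
    · exact (hmemV _).mpr (H60.aeval_mem W hK0 hxi Pi)
    · rw [← map_inv₀]
      exact (hmemV _).mpr hPi
  have hram : ∀ a' : K, (c.map (algebraMap K0 K)).IsRoot a' →
      0 < P.ord (algebraMap F0 FL xi - algebraMap K FL a') →
      P.ord (algebraMap F0 FL xi - algebraMap K FL a') = 1 := by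
    intro a' _ hpos
    refine hU.unram P a' hpos (fun hroot => ?_)
    have := hpos_of_root _ a' hPiK0 hroot hpos
    omega
  have hone : O.ord (aeval xi c) = 1 :=
    H74.ord_aeval_eq_one_of_unramified (K0 := K0) P hne xi c hcsep hres hxtr
      ((hO xi).mpr hxi) hposO hram
  have hcx0 : aeval xi c ≠ 0 := by
    intro h0
    rw [h0, O.ord_zero] at hone
    exact zero_ne_one hone
  refine ⟨c, minpoly.monic haint, hcirr, hcW, hcinv, fun y hy hy' => ?_⟩
  have hy0 : y ≠ 0 := H60.ne_zero_of_inv_not_mem hy'
  have hyO : 0 < O.ord y :=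
    H60.ord_pos_of_mem O ((hO _).mpr hy) (fun h => hy' ((hO _).mp h))
  refine (hO _).mp (H19.mem_of_ord_nonneg O ?_)
  rw [div_eq_mul_inv, O.ord_mul hy0 (inv_ne_zero hcx0), O.ord_inv, hone]
  omega

/-- In a discrete valuation ring it is enough to invert a uniformiser: if `W` contains the image
of `A0` and the inverse of the image of a uniformiser, it contains the inverses of all nonzero
constants. -/
theorem inv_mem_of_irreducible {A0 : Type*} [CommRing A0] [IsDomain A0]
    [IsDiscreteValuationRing A0] {ϖ : A0} (hϖ : Irreducible ϖ) {E : Type*} [Field E]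
    (f : A0 →+* E) (W : ValuationSubring E) (hW : ∀ a : A0, f a ∈ W) (hϖW : (f ϖ)⁻¹ ∈ W)
    (a : A0) (ha : a ≠ 0) : (f a)⁻¹ ∈ W := by
  obtain ⟨n, u, hu⟩ := IsDiscreteValuationRing.associated_pow_irreducible ha hϖ
  have h1 : f a * f (u : A0) = f ϖ ^ n := by rw [← map_mul, hu, map_pow]
  have hfu : f (u : A0) ≠ 0 := by
    intro h0
    have h3 : f ((u : A0) * ((u⁻¹ : A0ˣ) : A0)) = 1 := by simp
    rw [map_mul, h0, zero_mul] at h3
    exact zero_ne_one h3
  have h2 : (f a)⁻¹ = f (u : A0) * ((f ϖ)⁻¹) ^ n := by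
    rw [inv_pow, ← h1, mul_inv, mul_comm (f a)⁻¹, ← mul_assoc, mul_inv_cancel₀ hfu, one_mul]
  rw [h2]
  exact mul_mem (hW _) (pow_mem hϖW n)

/-- **(BR) = hypothesis (iii) of (NC), valuation-subring form.**  `A0` a domain with fraction
field `K0`, `F0` an `A0[X]`-algebra through `X ↦ xi` (`halg`), `φ : F0 → FL` a model of the
function field `FL / K` over `K0` (`K` algebraically closed, algebraic over `K0`,
characteristic `0`) such that `FL` is unramified over the `xi`-line outside the roots of
`Pi ∈ A0[X]`.  Then for every valuation subring `W` of `F0` containing the image of `A0[X]`, the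
inverses of the nonzero constants and the inverse of `Pi(xi)`: every nonzero non-unit `y` of `W`
is divisible in `W` by a non-unit `g(xi)`, `g ∈ A0[X]`. -/
theorem exists_dvd_of_unram {A0 : Type*} [CommRing A0] [IsDomain A0] [Algebra A0 K0]
    [IsFractionRing A0 K0] [Algebra (Polynomial A0) F0]
    [IsAlgClosed K] [CharZero K0] [Algebra.IsAlgebraic K0 K]
    (φ : F0 →+* FL)
    (hφ : ∀ c : K0, φ (algebraMap K0 F0 c) = algebraMap K FL (algebraMap K0 K c))
    (xi : F0)
    (halg : ∀ p : Polynomial A0,
      algebraMap (Polynomial A0) F0 p = aeval xi (p.map (algebraMap A0 K0)))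
    (Pi : Polynomial A0) (hPi0 : Pi ≠ 0)
    (hU : UnramOutside K FL (φ xi) ((Pi.map (algebraMap A0 K0)).map (algebraMap K0 K)))
    (W : ValuationSubring F0) (hW : ∀ p : Polynomial A0, algebraMap (Polynomial A0) F0 p ∈ W)
    (hunit : ∀ a : A0, a ≠ 0 → (algebraMap (Polynomial A0) F0 (C a))⁻¹ ∈ W)
    (hPi : (algebraMap (Polynomial A0) F0 Pi)⁻¹ ∈ W)
    (y : F0) (hy : y ∈ W) (hy' : y⁻¹ ∉ W) :
    ∃ g : Polynomial A0, (algebraMap (Polynomial A0) F0 g)⁻¹ ∉ W ∧
      y / algebraMap (Polynomial A0) F0 g ∈ W := by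
  have hC : ∀ a : A0, algebraMap (Polynomial A0) F0 (C a)
      = algebraMap K0 F0 (algebraMap A0 K0 a) := by
    intro a
    rw [halg, Polynomial.map_C, aeval_C]
  have hK0 : ∀ c : K0, algebraMap K0 F0 c ∈ W := by
    intro c
    obtain ⟨a, b, hb, rfl⟩ := IsFractionRing.div_surjective (A := A0) c
    rw [map_div₀, div_eq_mul_inv, ← hC, ← hC]
    exact mul_mem (hW _) (hunit b (nonZeroDivisors.ne_zero hb))
  have hxi : xi ∈ W := by
    have := hW X
    rwa [halg, Polynomial.map_X, aeval_X] at this
  have hPiK0 : Pi.map (algebraMap A0 K0) ≠ 0 :=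
    (Polynomial.map_ne_zero_iff (IsFractionRing.injective A0 K0)).mpr hPi0
  have hW' : W ≠ ⊤ := by
    rintro rfl
    exact hy' (ValuationSubring.mem_top _)
  obtain ⟨g0, -, -, -, hg0inv, hdiv⟩ := exists_generator_of_unram φ hφ xi
    (Pi.map (algebraMap A0 K0)) hPiK0 hU W hK0 hxi (by rw [← halg]; exact hPi) hW'
  obtain ⟨b, hbmem, hb⟩ := IsLocalization.integerNormalization_spec (nonZeroDivisors A0) g0
  have hb0 : (b : A0) ≠ 0 := nonZeroDivisors.ne_zero hbmem
  have hB0 : algebraMap K0 F0 (algebraMap A0 K0 (b : A0)) ≠ 0 :=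
    (_root_.map_ne_zero _).mpr
      ((_root_.map_ne_zero_iff _ (IsFractionRing.injective A0 K0)).mpr hb0)
  have hBinv : (algebraMap K0 F0 (algebraMap A0 K0 (b : A0)))⁻¹ ∈ W := by
    rw [← hC]; exact hunit _ hb0
  have hBmem : algebraMap K0 F0 (algebraMap A0 K0 (b : A0)) ∈ W := hK0 _
  have hgx : algebraMap (Polynomial A0) F0
      (IsLocalization.integerNormalization (nonZeroDivisors A0) g0)
      = algebraMap K0 F0 (algebraMap A0 K0 (b : A0)) * aeval xi g0 := by
    rw [halg, hb, Algebra.smul_def, Polynomial.algebraMap_apply, map_mul, aeval_C]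
  refine ⟨IsLocalization.integerNormalization (nonZeroDivisors A0) g0, ?_, ?_⟩
  · intro h
    apply hg0inv
    have e : (aeval xi g0)⁻¹ = algebraMap K0 F0 (algebraMap A0 K0 (b : A0))
        * (algebraMap (Polynomial A0) F0
            (IsLocalization.integerNormalization (nonZeroDivisors A0) g0))⁻¹ := by
      rw [hgx, mul_inv, ← mul_assoc, mul_inv_cancel₀ hB0, one_mul]
    rw [e]
    exact mul_mem hBmem h
  · have e : y / algebraMap (Polynomial A0) F0
        (IsLocalization.integerNormalization (nonZeroDivisors A0) g0)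
        = y / aeval xi g0 * (algebraMap K0 F0 (algebraMap A0 K0 (b : A0)))⁻¹ := by
      rw [hgx, div_eq_mul_inv, div_eq_mul_inv, mul_inv, mul_assoc, mul_comm (aeval xi g0)⁻¹]
    rw [e]
    exact mul_mem (hdiv y hy hy') hBinv

end ValuationSubring

section Modular

variable (N : ℕ) [NeZero N]

/-- `M = 1`, finite chart: `F_N` is unramified over the `j`-line outside `{0, 1728, ∞}`. -/
theorem unramOutside_one :
    UnramOutside Kbar (FN N) (jBar N) (X * (X - C 1728)) where
  transcendental := transcendental_jBar N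
  finite := finiteDimensional_FN N
  unram v a hv ha := by
    have h0 : a ≠ 0 := by
      rintro rfl
      simp at ha
    have h1 : a ≠ 1728 := by
      rintro rfl
      simp at ha
    exact ord_sub_eq_one N a h0 h1 v hv

/-- `M = 1`, chart at `∞`: unramified over the `1/j`-line outside `{0, 1/1728, ∞}`. -/
theorem unramOutside_one_inv (c' : Kbar) (hc' : c' * 1728 = 1) :
    UnramOutside Kbar (FN N) (jBar N)⁻¹ (X * (X - C c')) where
  transcendental := transcendental_inv (transcendental_jBar N)
  finite := finite_inv (finiteDimensional_FN N)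
  unram v b hv hb := by
    have h0 : b ≠ 0 := by
      rintro rfl
      simp at hb
    have h1 : b ≠ c' := by
      rintro rfl
      simp at hb
    have e := H66.ord_inv_sub_eq v h0 hv
    rw [← e]
    refine ord_sub_eq_one N b⁻¹ (inv_ne_zero h0) (fun h2 => h1 ?_) v (by rw [e]; exact hv)
    have h3 : b * 1728 = 1 := by rw [← h2, mul_inv_cancel₀ h0]
    have h4 : (1728 : Kbar) ≠ 0 := by norm_num
    exact mul_right_cancel₀ h4 (h3.trans hc'.symm)

/-- the `j`-function is a rational function of a level-`2` Hauptmodul -/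
theorem jBar_mem_adjoin_two (t : FN N) (hrel : jBar N * t ^ 2 = (t + 256) ^ 3) :
    jBar N ∈ Kbar⟮t⟯ := by
  have ht0 : t ≠ 0 := by
    rintro rfl
    norm_num at hrel
  have e : jBar N = (t + 256) ^ 3 / t ^ 2 := by
    rw [eq_div_iff (pow_ne_zero 2 ht0), hrel]
  have h256 : (256 : FN N) ∈ Kbar⟮t⟯ := by
    have : (256 : FN N) = algebraMap Kbar (FN N) 256 := (map_ofNat _ 256).symm
    rw [this]
    exact IntermediateField.algebraMap_mem _ _
  rw [e]
  exact div_mem (pow_mem (add_mem (mem_adjoin_simple_self Kbar t) h256) 3)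
    (pow_mem (mem_adjoin_simple_self Kbar t) 2)

/-- the `j`-function is a rational function of a level-`3` Hauptmodul -/
theorem jBar_mem_adjoin_three (t : FN N) (hrel : jBar N * t ^ 3 = (t + 27) * (t + 243) ^ 3) :
    jBar N ∈ Kbar⟮t⟯ := by
  have ht0 : t ≠ 0 := by
    rintro rfl
    norm_num at hrel
  have e : jBar N = (t + 27) * (t + 243) ^ 3 / t ^ 3 := by
    rw [eq_div_iff (pow_ne_zero 3 ht0), hrel]
  have h27 : (27 : FN N) ∈ Kbar⟮t⟯ := by
    have : (27 : FN N) = algebraMap Kbar (FN N) 27 := (map_ofNat _ 27).symm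
    rw [this]
    exact IntermediateField.algebraMap_mem _ _
  have h243 : (243 : FN N) ∈ Kbar⟮t⟯ := by
    have : (243 : FN N) = algebraMap Kbar (FN N) 243 := (map_ofNat _ 243).symm
    rw [this]
    exact IntermediateField.algebraMap_mem _ _
  rw [e]
  exact div_mem (mul_mem (add_mem (mem_adjoin_simple_self Kbar t) h27)
    (pow_mem (add_mem (mem_adjoin_simple_self Kbar t) h243) 3))
    (pow_mem (mem_adjoin_simple_self Kbar t) 3)

/-- `M = 2`, finite chart: unramified over the `t`-line outside `{0, -64, ∞}`. -/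
theorem unramOutside_two (t : FN N) (hrel : jBar N * t ^ 2 = (t + 256) ^ 3) :
    UnramOutside Kbar (FN N) t (X * (X + C 64)) where
  transcendental :=
    transcendental_of_mem_adjoin (transcendental_jBar N) (jBar_mem_adjoin_two N t hrel)
  finite := finite_of_mem_adjoin (jBar_mem_adjoin_two N t hrel) (finiteDimensional_FN N)
  unram v a hv ha := by
    have h0 : a ≠ 0 := by
      rintro rfl
      simp at ha
    have h1 : a ≠ -64 := by
      rintro rfl
      simp at ha
    exact H66.branch_two N t hrel v a h0 h1 hv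

/-- `M = 2`, chart at `∞`: unramified over the `1/t`-line outside `{0, -1/64, ∞}`. -/
theorem unramOutside_two_inv (t : FN N) (hrel : jBar N * t ^ 2 = (t + 256) ^ 3)
    (c' : Kbar) (hc' : c' * 64 = 1) :
    UnramOutside Kbar (FN N) t⁻¹ (X * (X + C c')) where
  transcendental := transcendental_inv
    (transcendental_of_mem_adjoin (transcendental_jBar N) (jBar_mem_adjoin_two N t hrel))
  finite := finite_inv
    (finite_of_mem_adjoin (jBar_mem_adjoin_two N t hrel) (finiteDimensional_FN N))
  unram v b hv hb := by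
    have h0 : b ≠ 0 := by
      rintro rfl
      simp at hb
    have h1 : 64 * b + 1 ≠ 0 := by
      intro h2
      apply hb
      have h3 : b + c' = 0 := by linear_combination c' * h2 - b * hc'
      simp [h3]
    exact H66.branch_inv_two N t hrel v b h0 h1 hv

/-- `M = 3`, finite chart: unramified over the `t`-line outside `{0, -27, ∞}`. -/
theorem unramOutside_three (t : FN N) (hrel : jBar N * t ^ 3 = (t + 27) * (t + 243) ^ 3) :
    UnramOutside Kbar (FN N) t (X * (X + C 27)) where
  transcendental :=
    transcendental_of_mem_adjoin (transcendental_jBar N) (jBar_mem_adjoin_three N t hrel)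
  finite := finite_of_mem_adjoin (jBar_mem_adjoin_three N t hrel) (finiteDimensional_FN N)
  unram v a hv ha := by
    have h0 : a ≠ 0 := by
      rintro rfl
      simp at ha
    have h1 : a ≠ -27 := by
      rintro rfl
      simp at ha
    exact H66.branch_three N t hrel v a h0 h1 hv

/-- `M = 3`, chart at `∞`: unramified over the `1/t`-line outside `{0, -1/27, ∞}`. -/
theorem unramOutside_three_inv (t : FN N) (hrel : jBar N * t ^ 3 = (t + 27) * (t + 243) ^ 3)
    (c' : Kbar) (hc' : c' * 27 = 1) :
    UnramOutside Kbar (FN N) t⁻¹ (X * (X + C c')) where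
  transcendental := transcendental_inv
    (transcendental_of_mem_adjoin (transcendental_jBar N) (jBar_mem_adjoin_three N t hrel))
  finite := finite_inv
    (finite_of_mem_adjoin (jBar_mem_adjoin_three N t hrel) (finiteDimensional_FN N))
  unram v b hv hb := by
    have h0 : b ≠ 0 := by
      rintro rfl
      simp at hb
    have h1 : 27 * b + 1 ≠ 0 := by
      intro h2
      apply hb
      have h3 : b + c' = 0 := by linear_combination c' * h2 - b * hc'
      simp [h3]
    exact H66.branch_inv_three N t hrel v b h0 h1 hv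

end Modular

end Fermat.Agent.S18.H10
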