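import Mathlib
import Fermat.Prelude.Def_ModularCurve_JqCoeff

/-!
# S18, node HAUPT (helper69): formal data of the Hauptmoduln of `X₀(2)` and `X₀(3)`

With `P = eisenstein4` (the Prelude's formal `E₄`) and `Q = P(q^M)`:

* `hU M` with `P - Q = 240 q · hU M`;
* `hW2` with `16 Q - P = 15 · hW2`, `hW3` with `81 Q - P = 80 · hW3`, `hV3` with `P + 9 Q = 10 · hV3`.

The Hauptmodul is `t_M = q⁻¹ · hW / hU` (`= 16 (16 Q - P) / (P - Q)` resp. `3 (81 Q - P) / (P - Q)`).
This file only contains the definitions and the linear relations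

`hW2 + 256 q hU 2 = P`, `hW2 + 16 q hU 2 = Q`,
`hW3 + 243 q hU 3 = P`, `hW3 + 3 q hU 3 = Q`, `hW3 + 27 q hU 3 = hV3`.
-/

set_option autoImplicit false

namespace Fermat.Agent.S18.H69

open ModularCurve PowerSeries

noncomputable section

/-- `σ₃` with integer values. -/
def s3 (n : ℕ) : ℤ := ∑ d ∈ n.divisors, (d : ℤ) ^ 3

/-- `σ₃ (n / M)` if `M ∣ n`, and `0` otherwise. -/
def s3d (M n : ℕ) : ℤ := if M ∣ n then s3 (n / M) else 0

/-- `F(q) ↦ F(q^p)` on power series, by coefficients. -/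
def expPS {R : Type*} [Semiring R] (p : ℕ) (F : PowerSeries R) : PowerSeries R :=
  PowerSeries.mk fun n => if p ∣ n then coeff (n / p) F else 0

theorem coeff_expPS {R : Type*} [Semiring R] (p : ℕ) (F : PowerSeries R) (n : ℕ) :
    coeff n (expPS p F) = if p ∣ n then coeff (n / p) F else 0 := by
  rw [expPS, coeff_mk]

theorem coeff_expPS_mul {R : Type*} [Semiring R] (p : ℕ) (hp : 0 < p) (F : PowerSeries R)
    (n : ℕ) : coeff (p * n) (expPS p F) = coeff n F := by
  rw [coeff_expPS, if_pos (dvd_mul_right p n), Nat.mul_div_cancel_left n hp]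

theorem coeff_expPS_of_not_dvd {R : Type*} [Semiring R] (p : ℕ) (F : PowerSeries R) {n : ℕ}
    (h : ¬ p ∣ n) : coeff n (expPS p F) = 0 := by
  rw [coeff_expPS, if_neg h]

theorem map_expPS {R S : Type*} [Semiring R] [Semiring S] (f : R →+* S) (p : ℕ)
    (F : PowerSeries R) : (expPS p F).map f = expPS p (F.map f) := by
  ext n
  rw [coeff_map, coeff_expPS, coeff_expPS]
  split_ifs
  · rw [coeff_map]
  · rw [map_zero]

theorem coeff_eisenstein4 (n : ℕ) :
    coeff n eisenstein4 = if n = 0 then 1 else 240 * s3 n := by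
  rw [eisenstein4, coeff_mk, s3]

theorem coeff_expPS_eisenstein4 (M : ℕ) (hM : 0 < M) (n : ℕ) :
    coeff n (expPS M eisenstein4) = if n = 0 then 1 else 240 * s3d M n := by
  rw [coeff_expPS, s3d]
  by_cases hn : n = 0
  · subst hn
    simp [coeff_eisenstein4]
  · rw [if_neg hn]
    by_cases hd : M ∣ n
    · rw [if_pos hd, if_pos hd, coeff_eisenstein4, if_neg]
      intro h0
      obtain ⟨c, rfl⟩ := hd
      rw [Nat.mul_div_cancel_left c hM] at h0
      subst h0
      exact hn (mul_zero M)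
    · rw [if_neg hd, if_neg hd, mul_zero]

/-- `(P - P(q^M)) / (240 q)`. -/
def hU (M : ℕ) : PowerSeries ℤ := mk fun n => s3 (n + 1) - s3d M (n + 1)

/-- `(16 P(q²) - P) / 15`. -/
def hW2 : PowerSeries ℤ := mk fun n => if n = 0 then 1 else 16 * (16 * s3d 2 n - s3 n)

/-- `(81 P(q³) - P) / 80`. -/
def hW3 : PowerSeries ℤ := mk fun n => if n = 0 then 1 else 3 * (81 * s3d 3 n - s3 n)

/-- `(P + 9 P(q³)) / 10`. -/
def hV3 : PowerSeries ℤ := mk fun n => if n = 0 then 1 else 24 * (s3 n + 9 * s3d 3 n)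

theorem coeff_hU (M n : ℕ) : coeff n (hU M) = s3 (n + 1) - s3d M (n + 1) := by
  rw [hU, coeff_mk]

theorem coeff_hW2 (n : ℕ) :
    coeff n hW2 = if n = 0 then 1 else 16 * (16 * s3d 2 n - s3 n) := by
  rw [hW2, coeff_mk]

theorem coeff_hW3 (n : ℕ) :
    coeff n hW3 = if n = 0 then 1 else 3 * (81 * s3d 3 n - s3 n) := by
  rw [hW3, coeff_mk]

theorem coeff_hV3 (n : ℕ) :
    coeff n hV3 = if n = 0 then 1 else 24 * (s3 n + 9 * s3d 3 n) := by
  rw [hV3, coeff_mk]

theorem s3_one : s3 1 = 1 := by decide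

theorem s3d_one {M : ℕ} (hM : 2 ≤ M) : s3d M 1 = 0 := by
  rw [s3d, if_neg]
  intro h
  have := Nat.le_of_dvd one_pos h
  omega

theorem constantCoeff_hU {M : ℕ} (hM : 2 ≤ M) : constantCoeff (hU M) = 1 := by
  rw [← coeff_zero_eq_constantCoeff_apply, coeff_hU, zero_add, s3_one, s3d_one hM, sub_zero]

theorem constantCoeff_hW2 : constantCoeff hW2 = 1 := by
  rw [← coeff_zero_eq_constantCoeff_apply, coeff_hW2, if_pos rfl]

theorem constantCoeff_hW3 : constantCoeff hW3 = 1 := by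
  rw [← coeff_zero_eq_constantCoeff_apply, coeff_hW3, if_pos rfl]

theorem constantCoeff_hV3 : constantCoeff hV3 = 1 := by
  rw [← coeff_zero_eq_constantCoeff_apply, coeff_hV3, if_pos rfl]

/-- coefficient of `c * X * F` -/
theorem coeff_C_mul_X_mul (c : ℤ) (F : PowerSeries ℤ) (n : ℕ) :
    coeff n (C c * (X * F)) = if n = 0 then 0 else c * coeff (n - 1) F := by
  rw [coeff_C_mul]
  rcases n with _ | n
  · simp
  · rw [if_neg (Nat.succ_ne_zero n), mul_comm X F, coeff_succ_mul_X, Nat.add_sub_cancel]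

/-- `hW2 + 256 q hU 2 = P`. -/
theorem hW2_add_eq_P : hW2 + C 256 * (X * hU 2) = eisenstein4 := by
  ext n
  rw [map_add, coeff_C_mul_X_mul, coeff_hW2, coeff_eisenstein4]
  rcases n with _ | n
  · simp
  · rw [if_neg (Nat.succ_ne_zero n), if_neg (Nat.succ_ne_zero n), if_neg (Nat.succ_ne_zero n),
      Nat.add_sub_cancel, coeff_hU]
    ring

/-- `hW2 + 16 q hU 2 = P(q²)`. -/
theorem hW2_add_eq_Q : hW2 + C 16 * (X * hU 2) = expPS 2 eisenstein4 := by
  ext n
  rw [map_add, coeff_C_mul_X_mul, coeff_hW2, coeff_expPS_eisenstein4 2 two_pos]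
  rcases n with _ | n
  · simp
  · rw [if_neg (Nat.succ_ne_zero n), if_neg (Nat.succ_ne_zero n), if_neg (Nat.succ_ne_zero n),
      Nat.add_sub_cancel, coeff_hU]
    ring

/-- `hW3 + 243 q hU 3 = P`. -/
theorem hW3_add_eq_P : hW3 + C 243 * (X * hU 3) = eisenstein4 := by
  ext n
  rw [map_add, coeff_C_mul_X_mul, coeff_hW3, coeff_eisenstein4]
  rcases n with _ | n
  · simp
  · rw [if_neg (Nat.succ_ne_zero n), if_neg (Nat.succ_ne_zero n), if_neg (Nat.succ_ne_zero n),
      Nat.add_sub_cancel, coeff_hU]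
    ring

/-- `hW3 + 3 q hU 3 = P(q³)`. -/
theorem hW3_add_eq_Q : hW3 + C 3 * (X * hU 3) = expPS 3 eisenstein4 := by
  ext n
  rw [map_add, coeff_C_mul_X_mul, coeff_hW3, coeff_expPS_eisenstein4 3 three_pos]
  rcases n with _ | n
  · simp
  · rw [if_neg (Nat.succ_ne_zero n), if_neg (Nat.succ_ne_zero n), if_neg (Nat.succ_ne_zero n),
      Nat.add_sub_cancel, coeff_hU]
    ring

/-- `hW3 + 27 q hU 3 = hV3`. -/
theorem hW3_add_eq_V : hW3 + C 27 * (X * hU 3) = hV3 := by
  ext n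
  rw [map_add, coeff_C_mul_X_mul, coeff_hW3, coeff_hV3]
  rcases n with _ | n
  · simp
  · rw [if_neg (Nat.succ_ne_zero n), if_neg (Nat.succ_ne_zero n), if_neg (Nat.succ_ne_zero n),
      Nat.add_sub_cancel, coeff_hU]
    ring

end

end Fermat.Agent.S18.H69
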