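import Mathlib
import Fermat.Agent.S24.JqBridge_helper74
import Fermat.Agent.S18.HauptDefs_helper69

/-!
# S18, node HAUPT (helper69): the finitely many coefficients needed for the Sturm bound

Truncated computations in `ℤ⟦X⟧` (`η24 = dedekindEtaUnit = etaProd ^ 24`):

* `trunc2a : X ^ 3 ∣ hU 2 * hW2 ^ 2 - η24`
* `trunc2b : X ^ 2 ∣ hU 2 ^ 2 * hW2 - expPS 2 η24`
* `trunc3a : X ^ 5 ∣ hU 3 * hW3 ^ 3 - hV3 * η24`
* `trunc3b : X ^ 3 ∣ hU 3 ^ 3 * hW3 - hV3 * expPS 3 η24`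
-/

set_option autoImplicit false

namespace Fermat.Agent.S18.H69

open ModularCurve PowerSeries

noncomputable section

/-! ### Generic truncation -/

theorem trunc_two (F : PowerSeries ℤ) :
    (X : PowerSeries ℤ) ^ 2 ∣ F - (C (coeff 0 F) + C (coeff 1 F) * X) := by
  rw [X_pow_dvd_iff]
  intro m hm
  interval_cases m <;>
    simp only [map_sub, map_add, coeff_C_mul, coeff_C, coeff_X] <;> norm_num

theorem trunc_three (F : PowerSeries ℤ) :
    (X : PowerSeries ℤ) ^ 3 ∣ F - (C (coeff 0 F) + C (coeff 1 F) * X + C (coeff 2 F) * X ^ 2) := by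
  rw [X_pow_dvd_iff]
  intro m hm
  interval_cases m <;>
    simp only [map_sub, map_add, coeff_C_mul, coeff_C, coeff_X, coeff_X_pow] <;> norm_num

theorem trunc_five (F : PowerSeries ℤ) :
    (X : PowerSeries ℤ) ^ 5 ∣ F - (C (coeff 0 F) + C (coeff 1 F) * X + C (coeff 2 F) * X ^ 2 +
      C (coeff 3 F) * X ^ 3 + C (coeff 4 F) * X ^ 4) := by
  rw [X_pow_dvd_iff]
  intro m hm
  interval_cases m <;>
    simp only [map_sub, map_add, coeff_C_mul, coeff_C, coeff_X, coeff_X_pow] <;> norm_num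

/-! ### Congruences modulo `X ^ n` through the quotient ring -/

/-- The quotient map `ℤ⟦X⟧ → ℤ⟦X⟧ / (X ^ n)`. -/
def qm (n : ℕ) : PowerSeries ℤ →+* (PowerSeries ℤ ⧸ Ideal.span {(X : PowerSeries ℤ) ^ n}) :=
  Ideal.Quotient.mk _

theorem qm_eq_zero_iff {n : ℕ} {a : PowerSeries ℤ} : qm n a = 0 ↔ (X : PowerSeries ℤ) ^ n ∣ a := by
  rw [qm, Ideal.Quotient.eq_zero_iff_mem, Ideal.mem_span_singleton]

theorem qm_eq_iff {n : ℕ} {a b : PowerSeries ℤ} :
    qm n a = qm n b ↔ (X : PowerSeries ℤ) ^ n ∣ a - b := by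
  rw [← qm_eq_zero_iff, map_sub, sub_eq_zero]

/-! ### The coefficients of `etaProd` below `X ^ 5` -/

theorem pP_five_dvd : (X : PowerSeries ℤ) ^ 5 ∣
    ((Fermat.Agent.S24.H74.pP 5 : Polynomial ℤ) : PowerSeries ℤ) - (1 - X - X ^ 2) := by
  refine ⟨1 + X + X ^ 2 - X ^ 3 - X ^ 4 - X ^ 5 + X ^ 8 + X ^ 9 - X ^ 10, ?_⟩
  rw [Fermat.Agent.S24.H74.coe_pP]
  simp only [Finset.prod_range_succ, Finset.prod_range_zero]
  ring

theorem pP_dvd (N : ℕ) (hN : 5 ≤ N) : (X : PowerSeries ℤ) ^ 5 ∣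
    ((Fermat.Agent.S24.H74.pP N : Polynomial ℤ) : PowerSeries ℤ) - (1 - X - X ^ 2) := by
  induction N, hN using Nat.le_induction with
  | base => exact pP_five_dvd
  | succ N hN ih =>
    have h1 : ((Fermat.Agent.S24.H74.pP (N + 1) : Polynomial ℤ) : PowerSeries ℤ) - (1 - X - X ^ 2)
        = (((Fermat.Agent.S24.H74.pP N : Polynomial ℤ) : PowerSeries ℤ) - (1 - X - X ^ 2))
          - X ^ 5 * (X ^ (N + 1 - 5) * ((Fermat.Agent.S24.H74.pP N : Polynomial ℤ) :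
            PowerSeries ℤ)) := by
      rw [Fermat.Agent.S24.H74.pP_succ, Polynomial.coe_mul, ← mul_assoc, ← pow_add,
        show 5 + (N + 1 - 5) = N + 1 by omega]
      simp only [Polynomial.coe_sub, Polynomial.coe_one, Polynomial.coe_pow, Polynomial.coe_X]
      ring
    rw [h1]
    exact dvd_sub ih (dvd_mul_right _ _)

theorem etaProd_trunc : (X : PowerSeries ℤ) ^ 5 ∣ etaProd - (1 - X - X ^ 2) := by
  rw [X_pow_dvd_iff]
  intro m hm
  obtain ⟨N, hN, hN5⟩ :=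
    ((Fermat.Agent.S24.H74.eventually_coeff_pP m).and (Filter.eventually_ge_atTop 5)).exists
  have h := (X_pow_dvd_iff.mp (pP_dvd N hN5)) m hm
  rw [map_sub, Polynomial.coeff_coe, hN] at h
  rw [map_sub]
  exact h

/-! ### Truncations of `hU`, `hW`, `hV` -/

theorem s3_two : s3 2 = 9 := by decide
theorem s3_three : s3 3 = 28 := by decide
theorem s3_four : s3 4 = 73 := by decide
theorem s3_five : s3 5 = 126 := by decide

theorem hU2_trunc : (X : PowerSeries ℤ) ^ 3 ∣ hU 2 - (1 + 8 * X + 28 * X ^ 2) := by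
  have h := trunc_three (hU 2)
  have c0 : coeff 0 (hU 2) = 1 := by rw [coeff_hU]; decide
  have c1 : coeff 1 (hU 2) = 8 := by rw [coeff_hU]; decide
  have c2 : coeff 2 (hU 2) = 28 := by rw [coeff_hU]; decide
  rw [c0, c1, c2] at h
  simpa only [map_one, map_ofNat] using h

theorem hW2_trunc : (X : PowerSeries ℤ) ^ 3 ∣ hW2 - (1 - 16 * X + 112 * X ^ 2) := by
  have h := trunc_three hW2
  have c0 : coeff 0 hW2 = 1 := by rw [coeff_hW2]; decide
  have c1 : coeff 1 hW2 = -16 := by rw [coeff_hW2]; decide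
  have c2 : coeff 2 hW2 = 112 := by rw [coeff_hW2]; decide
  rw [c0, c1, c2] at h
  have e : (1 - 16 * X + 112 * X ^ 2 : PowerSeries ℤ) = C 1 + C (-16) * X + C 112 * X ^ 2 := by
    simp only [map_one, map_ofNat, map_neg]; ring
  rw [e]
  exact h

theorem hU3_trunc : (X : PowerSeries ℤ) ^ 5 ∣
    hU 3 - (1 + 9 * X + 27 * X ^ 2 + 73 * X ^ 3 + 126 * X ^ 4) := by
  have h := trunc_five (hU 3)
  have c0 : coeff 0 (hU 3) = 1 := by rw [coeff_hU]; decide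
  have c1 : coeff 1 (hU 3) = 9 := by rw [coeff_hU]; decide
  have c2 : coeff 2 (hU 3) = 27 := by rw [coeff_hU]; decide
  have c3 : coeff 3 (hU 3) = 73 := by rw [coeff_hU]; decide
  have c4 : coeff 4 (hU 3) = 126 := by rw [coeff_hU]; decide
  rw [c0, c1, c2, c3, c4] at h
  simpa only [map_one, map_ofNat] using h

theorem hW3_trunc : (X : PowerSeries ℤ) ^ 5 ∣
    hW3 - (1 - 3 * X - 27 * X ^ 2 + 159 * X ^ 3 - 219 * X ^ 4) := by
  have h := trunc_five hW3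
  have c0 : coeff 0 hW3 = 1 := by rw [coeff_hW3]; decide
  have c1 : coeff 1 hW3 = -3 := by rw [coeff_hW3]; decide
  have c2 : coeff 2 hW3 = -27 := by rw [coeff_hW3]; decide
  have c3 : coeff 3 hW3 = 159 := by rw [coeff_hW3]; decide
  have c4 : coeff 4 hW3 = -219 := by rw [coeff_hW3]; decide
  rw [c0, c1, c2, c3, c4] at h
  have e : (1 - 3 * X - 27 * X ^ 2 + 159 * X ^ 3 - 219 * X ^ 4 : PowerSeries ℤ) =
      C 1 + C (-3) * X + C (-27) * X ^ 2 + C 159 * X ^ 3 + C (-219) * X ^ 4 := by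
    simp only [map_one, map_ofNat, map_neg]; ring
  rw [e]
  exact h

theorem hV3_trunc : (X : PowerSeries ℤ) ^ 5 ∣
    hV3 - (1 + 24 * X + 216 * X ^ 2 + 888 * X ^ 3 + 1752 * X ^ 4) := by
  have h := trunc_five hV3
  have c0 : coeff 0 hV3 = 1 := by rw [coeff_hV3]; decide
  have c1 : coeff 1 hV3 = 24 := by rw [coeff_hV3]; decide
  have c2 : coeff 2 hV3 = 216 := by rw [coeff_hV3]; decide
  have c3 : coeff 3 hV3 = 888 := by rw [coeff_hV3]; decide
  have c4 : coeff 4 hV3 = 1752 := by rw [coeff_hV3]; decide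
  rw [c0, c1, c2, c3, c4] at h
  simpa only [map_one, map_ofNat] using h

theorem pow_dvd_of_le {m n : ℕ} (h : m ≤ n) {a : PowerSeries ℤ} (ha : (X : PowerSeries ℤ) ^ n ∣ a) :
    (X : PowerSeries ℤ) ^ m ∣ a :=
  (pow_dvd_pow X h).trans ha

/-- `expPS p F ≡ F(0)` modulo `X ^ p`. -/
theorem expPS_trunc (p : ℕ) (_hp : 0 < p) (F : PowerSeries ℤ) :
    (X : PowerSeries ℤ) ^ p ∣ expPS p F - C (constantCoeff F) := by
  rw [X_pow_dvd_iff]
  intro m hm
  rw [map_sub, coeff_expPS, coeff_C]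
  rcases Nat.eq_zero_or_pos m with rfl | hm0
  · simp
  · rw [if_neg (Nat.not_dvd_of_pos_of_lt hm0 hm), if_neg hm0.ne', sub_zero]

theorem constantCoeff_dedekindEtaUnit' : constantCoeff dedekindEtaUnit = 1 :=
  constantCoeff_dedekindEtaUnit

/-! ### The four truncated identities -/

theorem trunc2a : (X : PowerSeries ℤ) ^ 3 ∣ hU 2 * hW2 ^ 2 - dedekindEtaUnit := by
  rw [← qm_eq_zero_iff, map_sub, map_mul, map_pow, dedekindEtaUnit, map_pow,
    qm_eq_iff.mpr hU2_trunc, qm_eq_iff.mpr hW2_trunc,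
    qm_eq_iff.mpr (pow_dvd_of_le (by norm_num : 3 ≤ 5) etaProd_trunc),
    ← map_pow, ← map_pow, ← map_mul, ← map_sub, qm_eq_zero_iff]
  refine ⟨
      832 - 7518 * X + 6072 * X ^ 2 + 367424 * X ^ 3 - 78936 * X ^ 4 + 82731 * X ^ 5
      + 212520 * X ^ 6 - 649704 * X ^ 7 + 73416 * X ^ 8 + 1977862 * X ^ 9 - 2034672 * X ^ 10
      - 3487260 * X ^ 11 + 7072408 * X ^ 12 + 3432198 * X ^ 13 - 15343944 * X ^ 14
      - 134596 * X ^ 15 + 25077360 * X ^ 16 - 6067446 * X ^ 17 - 33474936 * X ^ 18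
      + 12286968 * X ^ 19 + 38228232 * X ^ 20 - 14903725 * X ^ 21 - 38228232 * X ^ 22
      + 12286968 * X ^ 23 + 33474936 * X ^ 24 - 6067446 * X ^ 25 - 25077360 * X ^ 26
      - 134596 * X ^ 27 + 15343944 * X ^ 28 + 3432198 * X ^ 29 - 7072408 * X ^ 30
      - 3487260 * X ^ 31 + 2034672 * X ^ 32 + 1977862 * X ^ 33 - 73416 * X ^ 34
      - 649704 * X ^ 35 - 212520 * X ^ 36 + 82731 * X ^ 37 + 78936 * X ^ 38 + 16192 * X ^ 39
      - 6072 * X ^ 40 - 4830 * X ^ 41 - 1472 * X ^ 42 - 252 * X ^ 43 - 24 * X ^ 44 - X ^ 45, ?_⟩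
  ring

theorem trunc2b : (X : PowerSeries ℤ) ^ 2 ∣ hU 2 ^ 2 * hW2 - expPS 2 dedekindEtaUnit := by
  have hU' : (X : PowerSeries ℤ) ^ 2 ∣ hU 2 - (1 + 8 * X) := by
    obtain ⟨r, hr⟩ := hU2_trunc
    exact ⟨28 + X * r, by linear_combination hr⟩
  have hW' : (X : PowerSeries ℤ) ^ 2 ∣ hW2 - (1 - 16 * X) := by
    obtain ⟨r, hr⟩ := hW2_trunc
    exact ⟨112 + X * r, by linear_combination hr⟩
  have hE : (X : PowerSeries ℤ) ^ 2 ∣ expPS 2 dedekindEtaUnit - 1 := by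
    have := expPS_trunc 2 two_pos dedekindEtaUnit
    rwa [constantCoeff_dedekindEtaUnit', map_one] at this
  rw [← qm_eq_zero_iff, map_sub, map_mul, map_pow, qm_eq_iff.mpr hU', qm_eq_iff.mpr hW',
    qm_eq_iff.mpr hE, ← map_pow, ← map_mul, ← map_sub, qm_eq_zero_iff]
  refine ⟨-192 - 1024 * X, ?_⟩
  ring

theorem trunc3a : (X : PowerSeries ℤ) ^ 5 ∣ hU 3 * hW3 ^ 3 - hV3 * dedekindEtaUnit := by
  rw [← qm_eq_zero_iff, map_sub, map_mul, map_pow, map_mul, dedekindEtaUnit, map_pow,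
    qm_eq_iff.mpr hU3_trunc, qm_eq_iff.mpr hW3_trunc, qm_eq_iff.mpr hV3_trunc,
    qm_eq_iff.mpr etaProd_trunc,
    ← map_pow, ← map_pow, ← map_mul, ← map_mul, ← map_sub, qm_eq_zero_iff]
  refine ⟨
      3939 - 63608 * X + 500178 * X ^ 2 - 2513787 * X ^ 3 + 7184214 * X ^ 4 + 2038773 * X ^ 5
      - 99616290 * X ^ 6 + 291565660 * X ^ 7 + 46610946 * X ^ 8 - 1894034316 * X ^ 9
      + 3484654819 * X ^ 10 - 245088516 * X ^ 11 - 5066763288 * X ^ 12 + 543584300 * X ^ 13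
      + 12146205792 * X ^ 14 - 7045494918 * X ^ 15 - 21764495016 * X ^ 16 + 19931203656 * X ^ 17
      + 31650171960 * X ^ 18 - 36799349629 * X ^ 19 - 39875879808 * X ^ 20
      + 51349042752 * X ^ 21 + 45812418720 * X ^ 22 - 56606680110 * X ^ 23
      - 49005144768 * X ^ 24 + 49339951532 * X ^ 25 + 47855599704 * X ^ 26
      - 32556246954 * X ^ 27 - 40665463720 * X ^ 28 + 13957739796 * X ^ 29
      + 28321082016 * X ^ 30 - 969525578 * X ^ 31 - 15000661272 * X ^ 32 - 3878084280 * X ^ 33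
      + 5289423528 * X ^ 34 + 3254667003 * X ^ 35 - 749401824 * X ^ 36 - 1307218616 * X ^ 37
      - 281437200 * X ^ 38 + 218386794 * X ^ 39 + 151245424 * X ^ 40 + 21897588 * X ^ 41
      - 15251208 * X ^ 42 - 9824305 * X ^ 43 - 2807928 * X ^ 44 - 463032 * X ^ 45
      - 42936 * X ^ 46 - 1752 * X ^ 47, ?_⟩
  ring

theorem trunc3b : (X : PowerSeries ℤ) ^ 3 ∣ hU 3 ^ 3 * hW3 - hV3 * expPS 3 dedekindEtaUnit := by
  have hU' : (X : PowerSeries ℤ) ^ 3 ∣ hU 3 - (1 + 9 * X + 27 * X ^ 2) := by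
    obtain ⟨r, hr⟩ := hU3_trunc
    exact ⟨73 + 126 * X + X ^ 2 * r, by linear_combination hr⟩
  have hW' : (X : PowerSeries ℤ) ^ 3 ∣ hW3 - (1 - 3 * X - 27 * X ^ 2) := by
    obtain ⟨r, hr⟩ := hW3_trunc
    exact ⟨159 - 219 * X + X ^ 2 * r, by linear_combination hr⟩
  have hV' : (X : PowerSeries ℤ) ^ 3 ∣ hV3 - (1 + 24 * X + 216 * X ^ 2) := by
    obtain ⟨r, hr⟩ := hV3_trunc
    exact ⟨888 + 1752 * X + X ^ 2 * r, by linear_combination hr⟩
  have hE : (X : PowerSeries ℤ) ^ 3 ∣ expPS 3 dedekindEtaUnit - 1 := by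
    have := expPS_trunc 3 three_pos dedekindEtaUnit
    rwa [constantCoeff_dedekindEtaUnit', map_one] at this
  rw [← qm_eq_zero_iff, map_sub, map_mul, map_pow, map_mul, qm_eq_iff.mpr hU', qm_eq_iff.mpr hW',
    qm_eq_iff.mpr hV', qm_eq_iff.mpr hE, ← map_pow, ← map_mul, ← map_mul, ← map_sub,
    qm_eq_zero_iff]
  refine ⟨486 - 6561 * X - 65610 * X ^ 2 - 275562 * X ^ 3 - 590490 * X ^ 4 - 531441 * X ^ 5, ?_⟩
  ring

end

end Fermat.Agent.S18.H69
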