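import Mathlib
import Fermat.Prelude.Thm_ModularForm_sturm_bound_Gamma0
import Fermat.Agent.S24.JqBridge_helper74
import Fermat.Agent.S24.Cosets_helper35
import Fermat.Agent.S16.Eis_helper26
import Fermat.Agent.S20.Util_helper78
import Fermat.Agent.S18.HauptTrunc_helper69

/-!
# S18, node HAUPT (helper69): the four Hauptmodul identities from the Sturm bound

With `P = eisenstein4`, `Q = P(q^p)`, `η24 = dedekindEtaUnit` (so `Δ = q η24`) and the integral
series `hU p`, `hW2`, `hW3`, `hV3` of `HauptDefs_helper69`: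

* `eta24_eq_two   : η24 = hU 2 * hW2 ^ 2`            (`54000 Δ = (P - Q)(16 Q - P)²`)
* `eta24_two_eq   : η24(q²) = hU 2 ^ 2 * hW2`        (`864000 Δ(2z) = (P - Q)²(16 Q - P)`)
* `eta24_eq_three : hV3 * η24 = hU 3 * hW3 ^ 3`      (`(P - Q)(81 Q - P)³ = 12288000 (P + 9 Q) Δ`)
* `eta24_three_eq : hV3 * η24(q³) = hU 3 ^ 3 * hW3`  (`(P - Q)³(81 Q - P) = 110592000 (P + 9 Q) Δ(3z)`)

Proof: both sides are `q`-expansions of modular forms of weight 12 on `Γ₀(2)` resp. weight 16 on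
`Γ₀(3)` (`V_p f = f(p z)` is built from helper26's conjugation lemmas), the difference vanishes to
order `> ⌊k ψ(p) / 12⌋` by `HauptTrunc_helper69`, and the Prelude's
`ModularForm.sturm_bound_Gamma0` applies.  `IsFormal p k f F` packages "`f` is a form of weight `k`
on `Γ₀(p)` with `q`-expansion the integral series `F`".
-/

set_option autoImplicit false

namespace Fermat.Agent.S18.H69

open UpperHalfPlane ModularForm CongruenceSubgroup
open scoped MatrixGroups ModularForm Manifold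
open Fermat.Agent.S16.H26 Fermat.Agent.S20 Fermat.Agent.S23.H30 Fermat.Agent.S23.H52

local notation "𝕢" => Function.Periodic.qParam

noncomputable section

/-- Pointwise transformation law of a level one form. -/
theorem levelOne_smul {k : ℤ} (f : ModularForm 𝒮ℒ k) (γ : SL(2, ℤ)) (z : ℍ) :
    f (γ • z) = ((γ 1 0 : ℂ) * z + γ 1 1) ^ k * f z := by
  have h := congrFun (slash_levelOne f γ) z
  rw [SL_slash_apply, ModularGroup.denom_apply] at h
  have hd : ((γ 1 0 : ℂ) * z + γ 1 1) ≠ 0 := denom_ne γ z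
  rw [zpow_neg] at h
  rw [← h, mul_comm (f (γ • z)), ← mul_assoc, mul_inv_cancel₀ (zpow_ne_zero k hd), one_mul]

/-- `z ↦ f (p z)`. -/
def vFun (p : ℕ) [NeZero p] (f : ℍ → ℂ) : ℍ → ℂ := fun z => f (mulH p z)

theorem vFun_apply (p : ℕ) [NeZero p] (f : ℍ → ℂ) (z : ℍ) : vFun p f z = f (mulH p z) := rfl

theorem vFun_slash_of_dvd (p : ℕ) [NeZero p] {k : ℤ} (f : ModularForm 𝒮ℒ k) (γ : SL(2, ℤ))
    (h : (p : ℤ) ∣ γ 1 0) : vFun p f ∣[k] γ = vFun p f := by
  obtain ⟨γ', h10, h11, hz⟩ := exists_conj_of_dvd p γ h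
  ext z
  rw [SL_slash_apply, ModularGroup.denom_apply, vFun_apply, vFun_apply, hz z,
    levelOne_smul f γ' (mulH p z), coe_mulH, h11]
  have h1 := denom_ne γ z
  have hc : (γ 1 0 : ℂ) = (γ' 1 0 : ℂ) * p := by
    rw [← h10]; push_cast; ring
  have h2 : ((γ' 1 0 : ℂ) * ((p : ℂ) * z) + γ 1 1) = (γ 1 0 : ℂ) * z + γ 1 1 := by rw [hc]; ring
  rw [h2, zpow_neg, mul_comm _ (f (mulH p z)), mul_assoc, mul_inv_cancel₀ (zpow_ne_zero k h1),
    mul_one]

theorem vFun_slash_of_not_dvd (p : ℕ) [NeZero p] (hp : p.Prime) {k : ℤ} (f : ModularForm 𝒮ℒ k)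
    (γ : SL(2, ℤ)) (h : ¬ (p : ℤ) ∣ γ 1 0) :
    ∃ j : ℤ, vFun p f ∣[k] γ = fun z => ((p : ℂ) ^ k)⁻¹ * f (divH p j z) := by
  obtain ⟨j, γ', h10, h11, hz⟩ := exists_conj_of_not_dvd p hp γ h
  refine ⟨j, ?_⟩
  ext z
  rw [SL_slash_apply, ModularGroup.denom_apply, vFun_apply, hz z,
    levelOne_smul f γ' (divH p j z), coe_divH, h10]
  have h1 := denom_ne γ z
  have hp0 : (p : ℂ) ≠ 0 := Nat.cast_ne_zero.mpr (NeZero.ne p)
  have h11' : (γ' 1 1 : ℂ) = ((γ 1 1 : ℂ) - γ 1 0 * j) / p := by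
    rw [eq_div_iff hp0]
    exact_mod_cast congrArg (Int.cast : ℤ → ℂ) h11
  have h2 : ((γ 1 0 : ℂ) * (((z : ℂ) + j) / p) + γ' 1 1) = ((γ 1 0 : ℂ) * z + γ 1 1) / p := by
    rw [h11']; field_simp; ring
  rw [h2, div_zpow, zpow_neg]
  field_simp

theorem vFun_slash_bdd (p : ℕ) [NeZero p] (hp : p.Prime) {k : ℤ} (f : ModularForm 𝒮ℒ k)
    (hf : IsBoundedAtImInfty f) (γ : SL(2, ℤ)) : IsBoundedAtImInfty (vFun p f ∣[k] γ) := by
  by_cases h : (p : ℤ) ∣ γ 1 0
  · rw [vFun_slash_of_dvd p f γ h]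
    exact bdd_comp_mulH p hf
  · obtain ⟨j, hj⟩ := vFun_slash_of_not_dvd p hp f γ h
    rw [hj]
    have h1 := bdd_comp_divH p j hf
    rw [isBoundedAtImInfty_iff] at h1 ⊢
    obtain ⟨M, A, hMA⟩ := h1
    refine ⟨‖((p : ℂ) ^ k)⁻¹‖ * M, A, fun z hz => ?_⟩
    rw [norm_mul]
    exact mul_le_mul_of_nonneg_left (hMA z hz) (norm_nonneg _)

/-- `V_p f`: the level `Γ₀(p)` form `z ↦ f (p z)` attached to a level one form. -/
def vForm (p : ℕ) [NeZero p] (hp : p.Prime) {k : ℤ} (f : ModularForm 𝒮ℒ k) :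
    ModularForm (Gamma0 p) k :=
  mkModularForm p k (vFun p f) (mdiff_comp_mulH p f.holo')
    (fun γ hγ => vFun_slash_of_dvd p f γ (by
      rw [Gamma0_mem] at hγ
      exact (ZMod.intCast_zmod_eq_zero_iff_dvd _ _).mp hγ))
    (fun γ => vFun_slash_bdd p hp f (isNice_of_levelOne f).bdd γ)

theorem coe_vForm (p : ℕ) [NeZero p] (hp : p.Prime) {k : ℤ} (f : ModularForm 𝒮ℒ k) :
    ⇑(vForm p hp f) = vFun p f := rfl

/-- Restriction of a level one form to `Γ₀(N)`. -/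
def resForm (N : ℕ) [NeZero N] {k : ℤ} (f : ModularForm 𝒮ℒ k) : ModularForm (Gamma0 N) k :=
  mkModularForm N k f f.holo' (fun γ _ => slash_levelOne f γ)
    (fun γ => by rw [slash_levelOne f γ]; exact (isNice_of_levelOne f).bdd)

theorem coe_resForm (N : ℕ) [NeZero N] {k : ℤ} (f : ModularForm 𝒮ℒ k) :
    ⇑(resForm N f) = ⇑f := rfl

theorem qParam_mulH (p : ℕ) [NeZero p] (τ : ℍ) : 𝕢 1 (mulH p τ : ℂ) = 𝕢 1 (τ : ℂ) ^ p := by
  rw [coe_mulH]
  simp only [Function.Periodic.qParam, Complex.ofReal_one, div_one, ← Complex.exp_nat_mul]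
  ring_nf

/-- `q`-expansion of `z ↦ f (p z)`. -/
theorem qExpansion_vFun (p : ℕ) [NeZero p] (hp : p.Prime) {k : ℤ} (f : ModularForm 𝒮ℒ k) :
    qExpansion 1 (vFun p f) = expPS p (qExpansion 1 f) := by
  have hnice : IsNice (vFun p f) := by
    rw [← coe_vForm p hp f]; exact isNice_of_Gamma0 _
  ext m
  rw [coeff_expPS]
  refine (Fermat.Agent.S24.H74.qExpansion_coeff_unique_of_isNice hnice
    (c := fun m => if p ∣ m then PowerSeries.coeff (m / p) (qExpansion 1 f) else 0) ?_ m).symm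
  intro τ
  have h1 := (isNice_of_levelOne f).hasSum_qExpansion (mulH p τ)
  rw [qParam_mulH] at h1
  have hinj : Function.Injective (fun n : ℕ => p * n) :=
    mul_right_injective₀ (NeZero.ne p)
  rw [vFun_apply, ← hinj.hasSum_iff]
  · convert h1 using 2 with n
    simp only [Function.comp_apply]
    rw [if_pos (dvd_mul_right p n), Nat.mul_div_cancel_left n (NeZero.pos p), pow_mul]
  · intro x hx
    rw [if_neg, zero_smul]
    rintro ⟨c, rfl⟩
    exact hx ⟨c, rfl⟩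

/-- `Δ` as a level one modular form. -/
def deltaForm : ModularForm 𝒮ℒ 12 :=
  mkLevelOne 12 ModularForm.discriminant CuspForm.discriminant.holo'
    (fun γ => by
      rw [ModularForm.SL_slash]
      exact SlashInvariantFormClass.slash_action_eq CuspForm.discriminant _ ⟨γ, rfl⟩)
    discriminant_isZeroAtImInfty.isBoundedAtImInfty

theorem coe_deltaForm : ⇑deltaForm = ModularForm.discriminant := rfl

/-- `f` is (the underlying function of) a form of weight `k` on `Γ₀(p)` whose `q`-expansion is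
the image of the integral power series `F`. -/
def IsFormal (p : ℕ) (k : ℤ) (f : ℍ → ℂ) (F : PowerSeries ℤ) : Prop :=
  (∃ g : ModularForm (Gamma0 p) k, ⇑g = f) ∧
    qExpansion 1 f = F.map (Int.castRingHom ℂ)

variable {p : ℕ} [NeZero p]

theorem IsFormal.isNice {k : ℤ} {f : ℍ → ℂ} {F : PowerSeries ℤ} (h : IsFormal p k f F) :
    IsNice f := by
  obtain ⟨⟨g, rfl⟩, -⟩ := h
  exact isNice_of_Gamma0 g

omit [NeZero p] in
theorem IsFormal.cast {k k' : ℤ} {f : ℍ → ℂ} {F : PowerSeries ℤ} (h : IsFormal p k f F)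
    (hk : k = k') : IsFormal p k' f F := by
  subst hk; exact h

theorem IsFormal.mul {k₁ k₂ : ℤ} {f₁ f₂ : ℍ → ℂ} {F₁ F₂ : PowerSeries ℤ}
    (h₁ : IsFormal p k₁ f₁ F₁) (h₂ : IsFormal p k₂ f₂ F₂) :
    IsFormal p (k₁ + k₂) (f₁ * f₂) (F₁ * F₂) := by
  refine ⟨?_, ?_⟩
  · obtain ⟨⟨g₁, rfl⟩, -⟩ := h₁
    obtain ⟨⟨g₂, rfl⟩, -⟩ := h₂
    exact ⟨g₁.mul g₂, rfl⟩
  · rw [h₁.isNice.qExpansion_mul h₂.isNice, h₁.2, h₂.2, map_mul]

theorem IsFormal.sub {k : ℤ} {f₁ f₂ : ℍ → ℂ} {F₁ F₂ : PowerSeries ℤ}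
    (h₁ : IsFormal p k f₁ F₁) (h₂ : IsFormal p k f₂ F₂) :
    IsFormal p k (f₁ - f₂) (F₁ - F₂) := by
  refine ⟨?_, ?_⟩
  · obtain ⟨⟨g₁, rfl⟩, -⟩ := h₁
    obtain ⟨⟨g₂, rfl⟩, -⟩ := h₂
    exact ⟨g₁ - g₂, rfl⟩
  · rw [h₁.isNice.qExpansion_sub h₂.isNice, h₁.2, h₂.2, map_sub]

theorem IsFormal.add {k : ℤ} {f₁ f₂ : ℍ → ℂ} {F₁ F₂ : PowerSeries ℤ}
    (h₁ : IsFormal p k f₁ F₁) (h₂ : IsFormal p k f₂ F₂) :
    IsFormal p k (f₁ + f₂) (F₁ + F₂) := by
  refine ⟨?_, ?_⟩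
  · obtain ⟨⟨g₁, rfl⟩, -⟩ := h₁
    obtain ⟨⟨g₂, rfl⟩, -⟩ := h₂
    exact ⟨g₁ + g₂, rfl⟩
  · rw [h₁.isNice.qExpansion_add h₂.isNice, h₁.2, h₂.2, map_add]

theorem IsFormal.smul {k : ℤ} {f : ℍ → ℂ} {F : PowerSeries ℤ}
    (h : IsFormal p k f F) (n : ℤ) :
    IsFormal p k ((n : ℂ) • f) (PowerSeries.C n * F) := by
  refine ⟨?_, ?_⟩
  · obtain ⟨⟨g, rfl⟩, -⟩ := h
    exact ⟨(n : ℂ) • g, rfl⟩
  · rw [h.isNice.qExpansion_smul, h.2, map_mul, PowerSeries.map_C, PowerSeries.smul_eq_C_mul]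
    simp

theorem isFormal_res {k : ℤ} (f : ModularForm 𝒮ℒ k) {F : PowerSeries ℤ}
    (hF : qExpansion 1 f = F.map (Int.castRingHom ℂ)) : IsFormal p k f F :=
  ⟨⟨resForm p f, rfl⟩, hF⟩

theorem isFormal_vFun (hp : p.Prime) {k : ℤ} (f : ModularForm 𝒮ℒ k) {F : PowerSeries ℤ}
    (hF : qExpansion 1 f = F.map (Int.castRingHom ℂ)) : IsFormal p k (vFun p f) (expPS p F) :=
  ⟨⟨vForm p hp f, rfl⟩, by rw [qExpansion_vFun p hp f, hF, map_expPS]⟩

/-- **Sturm bound, formal version**: an integral power series that is the `q`-expansion of a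
form of weight `k` on `Γ₀(p)` and is divisible by `X ^ (B + 1)`, `B = ⌊k ψ(p) / 12⌋`, is zero. -/
theorem IsFormal.eq_zero {k : ℤ} {f : ℍ → ℂ} {F : PowerSeries ℤ} (h : IsFormal p k f F)
    {B : ℕ} (hB : (k * (ModularCurve.dedekindPsi p : ℤ)).toNat / 12 ≤ B)
    (hdvd : PowerSeries.X ^ (B + 1) ∣ F) : F = 0 := by
  obtain ⟨⟨g, rfl⟩, hq⟩ := h
  have hg : g = 0 := by
    refine ModularForm.sturm_bound_Gamma0 p g fun n hn => ?_
    rw [Fermat.Agent.S24.H35.index_Gamma0 p (NeZero.ne p)] at hn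
    rw [hq, PowerSeries.coeff_map, (PowerSeries.X_pow_dvd_iff.mp hdvd) n (by omega)]
    simp
  have h0 : F.map (Int.castRingHom ℂ) = 0 := by
    rw [← hq, hg]
    have : (⇑(0 : ModularForm (Gamma0 p) k) : ℍ → ℂ) = 0 := rfl
    rw [this]
    exact qExpansion_zero 1
  ext n
  have := congrArg (PowerSeries.coeff n) h0
  rw [PowerSeries.coeff_map] at this
  simpa using this

open ModularCurve PowerSeries

theorem expPS_X_mul (q : ℕ) (hq : 0 < q) (F : PowerSeries ℤ) :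
    expPS q (X * F) = X ^ q * expPS q F := by
  ext n
  rw [coeff_expPS, coeff_X_pow_mul', coeff_expPS]
  by_cases hd : q ∣ n
  · obtain ⟨c, rfl⟩ := hd
    rw [if_pos (dvd_mul_right q c), Nat.mul_div_cancel_left c hq]
    rcases c with _ | c
    · simp [hq.ne']
    · rw [coeff_succ_X_mul, if_pos (by nlinarith), if_pos ⟨c, by ring_nf; omega⟩]
      congr 1
      rw [show q * (c + 1) - q = q * c by rw [mul_add, mul_one, Nat.add_sub_cancel],
        Nat.mul_div_cancel_left c hq]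
  · rw [if_neg hd]
    split_ifs with h1 h2
    · exact absurd ((Nat.dvd_sub_iff_left h1 dvd_rfl).mp h2) hd  
    · rfl
    · rfl

theorem isFormal_E4 : IsFormal p 4 ⇑E₄ eisenstein4 :=
  isFormal_res E₄ Fermat.Agent.S24.H74.qExpansion_E4

theorem isFormal_E4V (hp : p.Prime) : IsFormal p 4 (vFun p ⇑E₄) (expPS p eisenstein4) :=
  isFormal_vFun hp E₄ Fermat.Agent.S24.H74.qExpansion_E4

theorem qExpansion_deltaForm :
    qExpansion 1 deltaForm = (X * dedekindEtaUnit).map (Int.castRingHom ℂ) := by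
  rw [coe_deltaForm, Fermat.Agent.S24.H74.qExpansion_discriminant, map_mul, map_X]

theorem isFormal_delta : IsFormal p 12 ModularForm.discriminant (X * dedekindEtaUnit) :=
  isFormal_res deltaForm qExpansion_deltaForm

theorem isFormal_deltaV (hp : p.Prime) :
    IsFormal p 12 (vFun p ModularForm.discriminant) (X ^ p * expPS p dedekindEtaUnit) := by
  have h := isFormal_vFun hp deltaForm qExpansion_deltaForm
  rwa [expPS_X_mul p hp.pos] at h

theorem dedekindPsi_of_prime {q : ℕ} (hq : q.Prime) : dedekindPsi q = q + 1 := by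
  rw [dedekindPsi, hq.divisors, Finset.filter_true_of_mem, Finset.sum_pair hq.one_lt.ne]
  · rw [Nat.div_one, Nat.div_self hq.pos]
  · intro d hd
    rw [Finset.mem_insert, Finset.mem_singleton] at hd
    rcases hd with rfl | rfl
    · exact squarefree_one
    · exact hq.squarefree

theorem dedekindPsi_two : dedekindPsi 2 = 3 := dedekindPsi_of_prime Nat.prime_two

theorem dedekindPsi_three : dedekindPsi 3 = 4 := dedekindPsi_of_prime Nat.prime_three

theorem natCast_mul_X_ne_zero {c : ℤ} (hc : c ≠ 0) {F : PowerSeries ℤ}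
    (h : C c * F = 0) : F = 0 := by
  rcases mul_eq_zero.mp h with h | h
  · exact absurd ((map_eq_zero_iff C C_injective).mp h) hc
  · exact h

theorem X_pow_mul_eq_zero {n : ℕ} {F : PowerSeries ℤ} (h : X ^ n * F = 0) : F = 0 := by
  rcases mul_eq_zero.mp h with h | h
  · exact absurd h (pow_ne_zero n X_ne_zero)
  · exact h

/-- **(Z2a)** `Δ = (P - Q)(16 Q - P)² / 54000` on `Γ₀(2)`, in the form `η²⁴ = u w²`. -/
theorem eta24_eq_two : dedekindEtaUnit = hU 2 * hW2 ^ 2 := by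
  have hA : IsFormal 2 4 ⇑E₄ eisenstein4 := isFormal_E4
  have hB : IsFormal 2 4 (vFun 2 ⇑E₄) (expPS 2 eisenstein4) := isFormal_E4V Nat.prime_two
  have hD : IsFormal 2 12 ModularForm.discriminant (X * dedekindEtaUnit) := isFormal_delta
  have h1 := ((hA.sub hB).mul (((hB.smul 16).sub hA).mul ((hB.smul 16).sub hA))).cast
    (by norm_num : (4 : ℤ) + (4 + 4) = 12)
  have h2 := h1.sub (hD.smul 54000)
  have e : (eisenstein4 - expPS 2 eisenstein4) *
      ((C 16 * expPS 2 eisenstein4 - eisenstein4) * (C 16 * expPS 2 eisenstein4 - eisenstein4)) -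
        C 54000 * (X * dedekindEtaUnit) =
      C 54000 * (X * (hU 2 * hW2 ^ 2 - dedekindEtaUnit)) := by
    rw [← hW2_add_eq_Q, ← hW2_add_eq_P]
    simp only [map_ofNat]
    ring
  rw [e] at h2
  have h3 := h2.eq_zero (B := 3) (by rw [dedekindPsi_two]; decide) (by
    obtain ⟨r, hr⟩ := trunc2a
    exact ⟨C 54000 * r, by rw [hr]; ring⟩)
  have h4 := X_pow_mul_eq_zero (n := 1) (by rw [pow_one]; exact natCast_mul_X_ne_zero (by norm_num) h3)
  exact (sub_eq_zero.mp h4).symm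

/-- **(Z2b)** `Δ(2z) = (P - Q)²(16 Q - P) / 864000`, in the form `η²⁴(q²) = u² w`. -/
theorem eta24_two_eq : expPS 2 dedekindEtaUnit = hU 2 ^ 2 * hW2 := by
  have hA : IsFormal 2 4 ⇑E₄ eisenstein4 := isFormal_E4
  have hB : IsFormal 2 4 (vFun 2 ⇑E₄) (expPS 2 eisenstein4) := isFormal_E4V Nat.prime_two
  have hD : IsFormal 2 12 (vFun 2 ModularForm.discriminant) (X ^ 2 * expPS 2 dedekindEtaUnit) :=
    isFormal_deltaV Nat.prime_two
  have h1 := (((hA.sub hB).mul (hA.sub hB)).mul ((hB.smul 16).sub hA)).cast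
    (by norm_num : ((4 : ℤ) + 4) + 4 = 12)
  have h2 := h1.sub (hD.smul 864000)
  have e : (eisenstein4 - expPS 2 eisenstein4) * (eisenstein4 - expPS 2 eisenstein4) *
      (C 16 * expPS 2 eisenstein4 - eisenstein4) -
        C 864000 * (X ^ 2 * expPS 2 dedekindEtaUnit) =
      C 864000 * (X ^ 2 * (hU 2 ^ 2 * hW2 - expPS 2 dedekindEtaUnit)) := by
    rw [← hW2_add_eq_Q, ← hW2_add_eq_P]
    simp only [map_ofNat]
    ring
  rw [e] at h2
  have h3 := h2.eq_zero (B := 3) (by rw [dedekindPsi_two]; decide) (by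
    obtain ⟨r, hr⟩ := trunc2b
    exact ⟨C 864000 * r, by rw [hr]; ring⟩)
  have h4 := X_pow_mul_eq_zero (natCast_mul_X_ne_zero (by norm_num) h3)
  exact (sub_eq_zero.mp h4).symm

/-- **(Z3a)** `(P - Q)(81 Q - P)³ = 12288000 (P + 9 Q) Δ` on `Γ₀(3)`, in the form
`v η²⁴ = u w³`. -/
theorem eta24_eq_three : hV3 * dedekindEtaUnit = hU 3 * hW3 ^ 3 := by
  have hA : IsFormal 3 4 ⇑E₄ eisenstein4 := isFormal_E4
  have hB : IsFormal 3 4 (vFun 3 ⇑E₄) (expPS 3 eisenstein4) := isFormal_E4V Nat.prime_three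
  have hD : IsFormal 3 12 ModularForm.discriminant (X * dedekindEtaUnit) := isFormal_delta
  have h1 := ((hA.sub hB).mul (((hB.smul 81).sub hA).mul
    (((hB.smul 81).sub hA).mul ((hB.smul 81).sub hA)))).cast
    (by norm_num : (4 : ℤ) + (4 + (4 + 4)) = 16)
  have h1' := (((hA.add (hB.smul 9)).mul hD).cast (by norm_num : (4 : ℤ) + 12 = 16)).smul 12288000
  have h2 := h1.sub h1'
  have e : (eisenstein4 - expPS 3 eisenstein4) *
      ((C 81 * expPS 3 eisenstein4 - eisenstein4) * ((C 81 * expPS 3 eisenstein4 - eisenstein4) *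
        (C 81 * expPS 3 eisenstein4 - eisenstein4))) -
        C 12288000 * ((eisenstein4 + C 9 * expPS 3 eisenstein4) * (X * dedekindEtaUnit)) =
      C 122880000 * (X * (hU 3 * hW3 ^ 3 - hV3 * dedekindEtaUnit)) := by
    rw [← hW3_add_eq_Q, ← hW3_add_eq_P, ← hW3_add_eq_V]
    simp only [map_ofNat]
    ring
  rw [e] at h2
  have h3 := h2.eq_zero (B := 5) (by rw [dedekindPsi_three]; decide) (by
    obtain ⟨r, hr⟩ := trunc3a
    exact ⟨C 122880000 * r, by rw [hr]; ring⟩)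
  have h4 := X_pow_mul_eq_zero (n := 1) (by rw [pow_one]; exact natCast_mul_X_ne_zero (by norm_num) h3)
  exact (sub_eq_zero.mp h4).symm

/-- **(Z3b)** `(P - Q)³(81 Q - P) = 110592000 (P + 9 Q) Δ(3z)`, in the form
`v η²⁴(q³) = u³ w`. -/
theorem eta24_three_eq : hV3 * expPS 3 dedekindEtaUnit = hU 3 ^ 3 * hW3 := by
  have hA : IsFormal 3 4 ⇑E₄ eisenstein4 := isFormal_E4
  have hB : IsFormal 3 4 (vFun 3 ⇑E₄) (expPS 3 eisenstein4) := isFormal_E4V Nat.prime_three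
  have hD : IsFormal 3 12 (vFun 3 ModularForm.discriminant) (X ^ 3 * expPS 3 dedekindEtaUnit) :=
    isFormal_deltaV Nat.prime_three
  have h1 := (((hA.sub hB).mul ((hA.sub hB).mul (hA.sub hB))).mul ((hB.smul 81).sub hA)).cast
    (by norm_num : ((4 : ℤ) + (4 + 4)) + 4 = 16)
  have h1' := (((hA.add (hB.smul 9)).mul hD).cast (by norm_num : (4 : ℤ) + 12 = 16)).smul 110592000
  have h2 := h1.sub h1'
  have e : (eisenstein4 - expPS 3 eisenstein4) *
      ((eisenstein4 - expPS 3 eisenstein4) * (eisenstein4 - expPS 3 eisenstein4)) *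
        (C 81 * expPS 3 eisenstein4 - eisenstein4) -
        C 110592000 * ((eisenstein4 + C 9 * expPS 3 eisenstein4) *
          (X ^ 3 * expPS 3 dedekindEtaUnit)) =
      C 1105920000 * (X ^ 3 * (hU 3 ^ 3 * hW3 - hV3 * expPS 3 dedekindEtaUnit)) := by
    rw [← hW3_add_eq_Q, ← hW3_add_eq_P, ← hW3_add_eq_V]
    simp only [map_ofNat]
    ring
  rw [e] at h2
  have h3 := h2.eq_zero (B := 5) (by rw [dedekindPsi_three]; decide) (by
    obtain ⟨r, hr⟩ := trunc3b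
    exact ⟨C 1105920000 * r, by rw [hr]; ring⟩)
  have h4 := X_pow_mul_eq_zero (natCast_mul_X_ne_zero (by norm_num) h3)
  exact (sub_eq_zero.mp h4).symm

end

end Fermat.Agent.S18.H69
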