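import Mathlib
import Fermat.Prelude.Def_ModularCurve_X0ModL
import Fermat.Agent.S18.HauptSturm_helper69

/-!
# S18, node HAUPT (helper69): the Hauptmoduln of `X₀(2)`, `X₀(3)` as formal Laurent series

* `hauptZ2, hauptZ3 : LaurentSeries ℤ` (`= q⁻¹ - 24 + 276 q - …`, `q⁻¹ - 12 + 54 q - …`), with
  integral inverses `hauptZ2Inv`, `hauptZ3Inv`;
* `haupt2 K`, `haupt3 K`: their images in `LaurentSeries K` for every commutative ring `K`
  (`coeffMap f (haupt2 K) = haupt2 K'`);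
* over every commutative ring `K`, with `J = jqModC K`, `t = haupt2 K`:
  `J * t ^ 2 = (t + 256) ^ 3`, `qExpand K 2 J * t = (t + 16) ^ 3`,
  `(J - 1728) * t ^ 2 = (t + 64) * (t - 512) ^ 2`;
  and with `t = haupt3 K`:
  `J * t ^ 3 = (t + 27) * (t + 243) ^ 3`, `qExpand K 3 J * t = (t + 27) * (t + 3) ^ 3`,
  `(J - 1728) * t ^ 3 = (t ^ 2 - 486 * t - 19683) ^ 2`.
-/

set_option autoImplicit false

namespace Fermat.Agent.S18.H69

open ModularCurve PowerSeries

noncomputable section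

/-! ### Commutative algebra behind the identities -/

theorem alg_two {R : Type*} [CommRing R] {x xi U Ui E Ei E2 E2i Pp Qq W : R}
    (hx : x * xi = 1) (hU : U * Ui = 1) (hE : E * Ei = 1) (hE2 : E2 * E2i = 1)
    (hP : W + 256 * (x * U) = Pp) (hQ : W + 16 * (x * U) = Qq)
    (hZa : E = U * W ^ 2) (hZb : E2 = U ^ 2 * W) :
    (xi * (Pp ^ 3 * Ei)) * (xi * (W * Ui)) ^ 2 = (xi * (W * Ui) + 256) ^ 3 ∧
    (xi ^ 2 * (Qq ^ 3 * E2i)) * (xi * (W * Ui)) = (xi * (W * Ui) + 16) ^ 3 := by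
  have ht : xi * (W * Ui) + 256 = xi * Ui * Pp := by
    rw [← hP]; linear_combination (-256 * U * Ui) * hx + (-256 : R) * hU
  have ht' : xi * (W * Ui) + 16 = xi * Ui * Qq := by
    rw [← hQ]; linear_combination (-16 * U * Ui) * hx + (-16 : R) * hU
  have h1 : W ^ 2 * Ei = Ui := by
    linear_combination (-Ei * Ui) * hZa + Ui * hE - (W ^ 2 * Ei) * hU
  have h2 : W * E2i = Ui ^ 2 := by
    linear_combination (-E2i * Ui ^ 2) * hZb + Ui ^ 2 * hE2 - (W * E2i) * (U * Ui + 1) * hU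
  refine ⟨?_, ?_⟩
  · rw [ht]; linear_combination (xi ^ 3 * Pp ^ 3 * Ui ^ 2) * h1
  · rw [ht']; linear_combination (xi ^ 3 * Qq ^ 3 * Ui) * h2

theorem alg_three {R : Type*} [CommRing R] {x xi U Ui E Ei E3 E3i Pp Qq V W : R}
    (hx : x * xi = 1) (hU : U * Ui = 1) (hE : E * Ei = 1) (hE3 : E3 * E3i = 1)
    (hP : W + 243 * (x * U) = Pp) (hQ : W + 3 * (x * U) = Qq) (hV : W + 27 * (x * U) = V)
    (hZa : V * E = U * W ^ 3) (hZb : V * E3 = U ^ 3 * W) :
    (xi * (Pp ^ 3 * Ei)) * (xi * (W * Ui)) ^ 3 =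
        (xi * (W * Ui) + 27) * (xi * (W * Ui) + 243) ^ 3 ∧
    (xi ^ 3 * (Qq ^ 3 * E3i)) * (xi * (W * Ui)) =
        (xi * (W * Ui) + 27) * (xi * (W * Ui) + 3) ^ 3 := by
  have ht : xi * (W * Ui) + 243 = xi * Ui * Pp := by
    rw [← hP]; linear_combination (-243 * U * Ui) * hx + (-243 : R) * hU
  have ht' : xi * (W * Ui) + 3 = xi * Ui * Qq := by
    rw [← hQ]; linear_combination (-3 * U * Ui) * hx + (-3 : R) * hU
  have ht'' : xi * (W * Ui) + 27 = xi * Ui * V := by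
    rw [← hV]; linear_combination (-27 * U * Ui) * hx + (-27 : R) * hU
  have h1 : W ^ 3 * Ei = Ui * V := by
    linear_combination (-Ei * Ui) * hZa + Ui * V * hE - (W ^ 3 * Ei) * hU
  have h2 : W * E3i = Ui ^ 3 * V := by
    linear_combination (-E3i * Ui ^ 3) * hZb + Ui ^ 3 * V * hE3
      - (W * E3i) * (U ^ 2 * Ui ^ 2 + U * Ui + 1) * hU
  refine ⟨?_, ?_⟩
  · rw [ht, ht'']; linear_combination (xi ^ 4 * Pp ^ 3 * Ui ^ 3) * h1
  · rw [ht', ht'']; linear_combination (xi ^ 4 * Qq ^ 3 * Ui) * h2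

/-! ### `q ↦ q^p` on power series versus the Prelude's `qExpand` -/

theorem qExpand_ofPS {R : Type*} [CommRing R] (p : ℕ) [NeZero p] (F : PowerSeries R) :
    qExpand R p (HahnSeries.ofPowerSeries ℤ R F) = HahnSeries.ofPowerSeries ℤ R (expPS p F) := by
  ext k
  by_cases hk : (p : ℤ) ∣ k
  · obtain ⟨m, rfl⟩ := hk
    rw [qExpand_coeff_mul]
    rcases lt_or_ge m 0 with hm | hm
    · rw [ofPowerSeries_coeff_of_neg _ hm, ofPowerSeries_coeff_of_neg _
        (mul_neg_of_pos_of_neg (by exact_mod_cast NeZero.pos p) hm)]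
    · lift m to ℕ using hm
      rw [show (p : ℤ) * (m : ℤ) = ((p * m : ℕ) : ℤ) by push_cast; ring,
        HahnSeries.ofPowerSeries_apply_coeff, HahnSeries.ofPowerSeries_apply_coeff,
        coeff_expPS_mul p (NeZero.pos p)]
  · rw [qExpand_coeff_of_not_dvd p _ hk]
    rcases lt_or_ge k 0 with hk0 | hk0
    · rw [ofPowerSeries_coeff_of_neg _ hk0]
    · lift k to ℕ using hk0
      rw [HahnSeries.ofPowerSeries_apply_coeff, coeff_expPS_of_not_dvd]
      exact fun h => hk (Int.natCast_dvd_natCast.mpr h)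

/-! ### The Hauptmoduln over `ℤ` -/

/-- inverse of `hU M` -/
def hUinv (M : ℕ) : PowerSeries ℤ := (hU M).invOfUnit 1

theorem hU_mul_hUinv {M : ℕ} (hM : 2 ≤ M) : hU M * hUinv M = 1 :=
  PowerSeries.mul_invOfUnit _ _ (by rw [constantCoeff_hU hM]; rfl)

/-- inverse of `hW2` -/
def hW2inv : PowerSeries ℤ := hW2.invOfUnit 1

theorem hW2_mul_hW2inv : hW2 * hW2inv = 1 :=
  PowerSeries.mul_invOfUnit _ _ (by rw [constantCoeff_hW2]; rfl)

/-- inverse of `hW3` -/
def hW3inv : PowerSeries ℤ := hW3.invOfUnit 1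

theorem hW3_mul_hW3inv : hW3 * hW3inv = 1 :=
  PowerSeries.mul_invOfUnit _ _ (by rw [constantCoeff_hW3]; rfl)

/-- The Hauptmodul `t₂ = 16 (16 Q - P) / (P - Q) = q⁻¹ - 24 + 276 q - …` of `X₀(2)`. -/
def hauptZ2 : LaurentSeries ℤ :=
  HahnSeries.single (-1 : ℤ) (1 : ℤ) * HahnSeries.ofPowerSeries ℤ ℤ (hW2 * hUinv 2)

/-- `1 / t₂ ∈ q ℤ⟦q⟧`. -/
def hauptZ2Inv : LaurentSeries ℤ :=
  HahnSeries.single (1 : ℤ) (1 : ℤ) * HahnSeries.ofPowerSeries ℤ ℤ (hU 2 * hW2inv)

/-- The Hauptmodul `t₃ = 3 (81 Q - P) / (P - Q) = q⁻¹ - 12 + 54 q - …` of `X₀(3)`. -/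
def hauptZ3 : LaurentSeries ℤ :=
  HahnSeries.single (-1 : ℤ) (1 : ℤ) * HahnSeries.ofPowerSeries ℤ ℤ (hW3 * hUinv 3)

/-- `1 / t₃ ∈ q ℤ⟦q⟧`. -/
def hauptZ3Inv : LaurentSeries ℤ :=
  HahnSeries.single (1 : ℤ) (1 : ℤ) * HahnSeries.ofPowerSeries ℤ ℤ (hU 3 * hW3inv)

theorem single_one_mul_single_neg_one :
    (HahnSeries.single (1 : ℤ) (1 : ℤ)) * HahnSeries.single (-1 : ℤ) (1 : ℤ) = 1 := by
  rw [HahnSeries.single_mul_single]; simp

theorem hauptZ2_mul_inv : hauptZ2 * hauptZ2Inv = 1 := by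
  have h : (hW2 * hUinv 2) * (hU 2 * hW2inv) = 1 := by
    linear_combination (hUinv 2 * hU 2) * hW2_mul_hW2inv + hU_mul_hUinv (le_refl 2)
  have h' := congrArg (HahnSeries.ofPowerSeries ℤ ℤ) h
  rw [map_mul, map_one] at h'
  rw [hauptZ2, hauptZ2Inv]
  linear_combination (HahnSeries.single (1 : ℤ) (1 : ℤ) * HahnSeries.single (-1 : ℤ) (1 : ℤ)) * h'
    + single_one_mul_single_neg_one

theorem hauptZ3_mul_inv : hauptZ3 * hauptZ3Inv = 1 := by
  have h : (hW3 * hUinv 3) * (hU 3 * hW3inv) = 1 := by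
    linear_combination (hUinv 3 * hU 3) * hW3_mul_hW3inv + hU_mul_hUinv (by norm_num : 2 ≤ 3)
  have h' := congrArg (HahnSeries.ofPowerSeries ℤ ℤ) h
  rw [map_mul, map_one] at h'
  rw [hauptZ3, hauptZ3Inv]
  linear_combination (HahnSeries.single (1 : ℤ) (1 : ℤ) * HahnSeries.single (-1 : ℤ) (1 : ℤ)) * h'
    + single_one_mul_single_neg_one

theorem jqModC_int_eq : jqModC ℤ = HahnSeries.single (-1 : ℤ) (1 : ℤ) *
    (HahnSeries.ofPowerSeries ℤ ℤ eisenstein4 ^ 3 *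
      HahnSeries.ofPowerSeries ℤ ℤ dedekindEtaUnitInv) := by
  have h : jNum.map (Int.castRingHom ℤ) = jNum := by
    ext n; simp
  rw [jqModC, h, jNum, map_mul, map_pow]

theorem qExpand_jqModC_int_eq (p : ℕ) [NeZero p] : qExpand ℤ p (jqModC ℤ) =
    HahnSeries.single (-1 : ℤ) (1 : ℤ) ^ p *
      (HahnSeries.ofPowerSeries ℤ ℤ (expPS p eisenstein4) ^ 3 *
        HahnSeries.ofPowerSeries ℤ ℤ (expPS p dedekindEtaUnitInv)) := by
  rw [jqModC_int_eq, map_mul, map_mul, map_pow, qExpand_ofPS, qExpand_ofPS, qExpand_single,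
    HahnSeries.single_pow, one_pow, nsmul_eq_mul]

/-- hypotheses of `alg_two` / `alg_three` common to both levels -/
theorem ofPS_eta_mul_inv : HahnSeries.ofPowerSeries ℤ ℤ dedekindEtaUnit *
    HahnSeries.ofPowerSeries ℤ ℤ dedekindEtaUnitInv = 1 := by
  rw [← map_mul, dedekindEtaUnit_mul_inv, map_one]

theorem ofPS_expPS_eta_mul_inv (p : ℕ) [NeZero p] :
    HahnSeries.ofPowerSeries ℤ ℤ (expPS p dedekindEtaUnit) *
      HahnSeries.ofPowerSeries ℤ ℤ (expPS p dedekindEtaUnitInv) = 1 := by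
  rw [← qExpand_ofPS, ← qExpand_ofPS, ← map_mul, ← map_mul, dedekindEtaUnit_mul_inv, map_one,
    map_one]

theorem hauptZ2_rel : jqModC ℤ * hauptZ2 ^ 2 = (hauptZ2 + 256) ^ 3 ∧
    qExpand ℤ 2 (jqModC ℤ) * hauptZ2 = (hauptZ2 + 16) ^ 3 := by
  have hU := congrArg (HahnSeries.ofPowerSeries ℤ ℤ) (hU_mul_hUinv (le_refl 2))
  have hP := congrArg (HahnSeries.ofPowerSeries ℤ ℤ) hW2_add_eq_P
  have hQ := congrArg (HahnSeries.ofPowerSeries ℤ ℤ) hW2_add_eq_Q
  have hZa := congrArg (HahnSeries.ofPowerSeries ℤ ℤ) eta24_eq_two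
  have hZb := congrArg (HahnSeries.ofPowerSeries ℤ ℤ) eta24_two_eq
  simp only [map_add, map_mul, map_pow, map_one, map_ofNat, HahnSeries.ofPowerSeries_X]
    at hU hP hQ hZa hZb
  have h := alg_two single_one_mul_single_neg_one hU ofPS_eta_mul_inv
    (ofPS_expPS_eta_mul_inv 2) hP hQ hZa hZb
  rw [qExpand_jqModC_int_eq, jqModC_int_eq, hauptZ2, map_mul]
  exact h

theorem hauptZ3_rel : jqModC ℤ * hauptZ3 ^ 3 = (hauptZ3 + 27) * (hauptZ3 + 243) ^ 3 ∧
    qExpand ℤ 3 (jqModC ℤ) * hauptZ3 = (hauptZ3 + 27) * (hauptZ3 + 3) ^ 3 := by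
  have hU := congrArg (HahnSeries.ofPowerSeries ℤ ℤ) (hU_mul_hUinv (by norm_num : 2 ≤ 3))
  have hP := congrArg (HahnSeries.ofPowerSeries ℤ ℤ) hW3_add_eq_P
  have hQ := congrArg (HahnSeries.ofPowerSeries ℤ ℤ) hW3_add_eq_Q
  have hV := congrArg (HahnSeries.ofPowerSeries ℤ ℤ) hW3_add_eq_V
  have hZa := congrArg (HahnSeries.ofPowerSeries ℤ ℤ) eta24_eq_three
  have hZb := congrArg (HahnSeries.ofPowerSeries ℤ ℤ) eta24_three_eq
  simp only [map_add, map_mul, map_pow, map_one, map_ofNat, HahnSeries.ofPowerSeries_X]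
    at hU hP hQ hV hZa hZb
  have h := alg_three single_one_mul_single_neg_one hU ofPS_eta_mul_inv
    (ofPS_expPS_eta_mul_inv 3) hP hQ hV hZa hZb
  rw [qExpand_jqModC_int_eq, jqModC_int_eq, hauptZ3, map_mul]
  exact h

/-! ### The Hauptmoduln over an arbitrary commutative ring -/

section General

variable (K : Type*) [CommRing K]

/-- The Hauptmodul `t₂` of `X₀(2)` in `LaurentSeries K`. -/
def haupt2 : LaurentSeries K := coeffMap (Int.castRingHom K) hauptZ2

/-- `1 / t₂`. -/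
def haupt2Inv : LaurentSeries K := coeffMap (Int.castRingHom K) hauptZ2Inv

/-- The Hauptmodul `t₃` of `X₀(3)` in `LaurentSeries K`. -/
def haupt3 : LaurentSeries K := coeffMap (Int.castRingHom K) hauptZ3

/-- `1 / t₃`. -/
def haupt3Inv : LaurentSeries K := coeffMap (Int.castRingHom K) hauptZ3Inv

theorem haupt2_mul_inv : haupt2 K * haupt2Inv K = 1 := by
  rw [haupt2, haupt2Inv, ← map_mul, hauptZ2_mul_inv, map_one]

theorem haupt3_mul_inv : haupt3 K * haupt3Inv K = 1 := by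
  rw [haupt3, haupt3Inv, ← map_mul, hauptZ3_mul_inv, map_one]

variable {K} in
theorem coeffMap_haupt2 {K' : Type*} [CommRing K'] (f : K →+* K') :
    coeffMap f (haupt2 K) = haupt2 K' := by
  rw [haupt2, coeffMap_coeffMap, RingHom.ext_int (f.comp (Int.castRingHom K)) (Int.castRingHom K')]
  rfl

variable {K} in
theorem coeffMap_haupt2Inv {K' : Type*} [CommRing K'] (f : K →+* K') :
    coeffMap f (haupt2Inv K) = haupt2Inv K' := by
  rw [haupt2Inv, coeffMap_coeffMap,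
    RingHom.ext_int (f.comp (Int.castRingHom K)) (Int.castRingHom K')]
  rfl

variable {K} in
theorem coeffMap_haupt3 {K' : Type*} [CommRing K'] (f : K →+* K') :
    coeffMap f (haupt3 K) = haupt3 K' := by
  rw [haupt3, coeffMap_coeffMap, RingHom.ext_int (f.comp (Int.castRingHom K)) (Int.castRingHom K')]
  rfl

variable {K} in
theorem coeffMap_haupt3Inv {K' : Type*} [CommRing K'] (f : K →+* K') :
    coeffMap f (haupt3Inv K) = haupt3Inv K' := by
  rw [haupt3Inv, coeffMap_coeffMap,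
    RingHom.ext_int (f.comp (Int.castRingHom K)) (Int.castRingHom K')]
  rfl

/-- `haupt2 ℤ` is `hauptZ2`. -/
theorem haupt2_int : haupt2 ℤ = hauptZ2 := by
  rw [haupt2, Int.castRingHom_int, coeffMap_id]

/-- `haupt3 ℤ` is `hauptZ3`. -/
theorem haupt3_int : haupt3 ℤ = hauptZ3 := by
  rw [haupt3, Int.castRingHom_int, coeffMap_id]

/-- **(H1, level 2)** `j · t² = (t + 256)³`. -/
theorem haupt2_rel : jqModC K * haupt2 K ^ 2 = (haupt2 K + 256) ^ 3 := by
  have h := congrArg (coeffMap (Int.castRingHom K)) hauptZ2_rel.1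
  simpa only [map_mul, map_pow, map_add, map_ofNat, coeffMap_jqModC, haupt2] using h

/-- **(H1, level 2)** `j(q²) · t = (t + 16)³`. -/
theorem haupt2_rel' : qExpand K 2 (jqModC K) * haupt2 K = (haupt2 K + 16) ^ 3 := by
  have h := congrArg (coeffMap (Int.castRingHom K)) hauptZ2_rel.2
  simpa only [map_mul, map_pow, map_add, map_ofNat, coeffMap_qExpand, coeffMap_jqModC, haupt2]
    using h

/-- **(H1, level 2)** `(j - 1728) · t² = (t + 64) (t - 512)²`. -/
theorem haupt2_rel_1728 :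
    (jqModC K - 1728) * haupt2 K ^ 2 = (haupt2 K + 64) * (haupt2 K - 512) ^ 2 := by
  linear_combination haupt2_rel K

/-- **(H1, level 3)** `j · t³ = (t + 27) (t + 243)³`. -/
theorem haupt3_rel : jqModC K * haupt3 K ^ 3 = (haupt3 K + 27) * (haupt3 K + 243) ^ 3 := by
  have h := congrArg (coeffMap (Int.castRingHom K)) hauptZ3_rel.1
  simpa only [map_mul, map_pow, map_add, map_ofNat, coeffMap_jqModC, haupt3] using h

/-- **(H1, level 3)** `j(q³) · t = (t + 27) (t + 3)³`. -/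
theorem haupt3_rel' :
    qExpand K 3 (jqModC K) * haupt3 K = (haupt3 K + 27) * (haupt3 K + 3) ^ 3 := by
  have h := congrArg (coeffMap (Int.castRingHom K)) hauptZ3_rel.2
  simpa only [map_mul, map_pow, map_add, map_ofNat, coeffMap_qExpand, coeffMap_jqModC, haupt3]
    using h

/-- **(H1, level 3)** `(j - 1728) · t³ = (t² - 486 t - 19683)²`. -/
theorem haupt3_rel_1728 :
    (jqModC K - 1728) * haupt3 K ^ 3 = (haupt3 K ^ 2 - 486 * haupt3 K - 19683) ^ 2 := by
  linear_combination haupt3_rel K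

/-! ### Shape: `t = q⁻¹ · (unit power series)` -/

/-- `haupt2 K = q⁻¹ · G₂` with `G₂` an integral power series with constant coefficient `1`. -/
theorem haupt2_eq : haupt2 K = HahnSeries.single (-1 : ℤ) (1 : K) *
    HahnSeries.ofPowerSeries ℤ K ((hW2 * hUinv 2).map (Int.castRingHom K)) := by
  rw [haupt2, hauptZ2, map_mul, coeffMap_single, map_one, coeffMap_ofPowerSeries]

theorem haupt3_eq : haupt3 K = HahnSeries.single (-1 : ℤ) (1 : K) *
    HahnSeries.ofPowerSeries ℤ K ((hW3 * hUinv 3).map (Int.castRingHom K)) := by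
  rw [haupt3, hauptZ3, map_mul, coeffMap_single, map_one, coeffMap_ofPowerSeries]

theorem constantCoeff_hUinv {M : ℕ} (hM : 2 ≤ M) : constantCoeff (hUinv M) = 1 := by
  have h := congrArg constantCoeff (hU_mul_hUinv hM)
  rwa [map_mul, constantCoeff_hU hM, one_mul, map_one] at h

theorem coeff_haupt2 (k : ℤ) : (haupt2 K).coeff k =
    (HahnSeries.ofPowerSeries ℤ K ((hW2 * hUinv 2).map (Int.castRingHom K))).coeff (k + 1) := by
  rw [haupt2_eq, HahnSeries.coeff_single_mul, one_mul, sub_neg_eq_add]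

theorem coeff_haupt3 (k : ℤ) : (haupt3 K).coeff k =
    (HahnSeries.ofPowerSeries ℤ K ((hW3 * hUinv 3).map (Int.castRingHom K))).coeff (k + 1) := by
  rw [haupt3_eq, HahnSeries.coeff_single_mul, one_mul, sub_neg_eq_add]

/-- leading coefficient: `t₂ = q⁻¹ + …`. -/
theorem coeff_haupt2_neg_one : (haupt2 K).coeff (-1) = 1 := by
  rw [coeff_haupt2, show (-1 : ℤ) + 1 = ((0 : ℕ) : ℤ) by norm_num,
    HahnSeries.ofPowerSeries_apply_coeff, coeff_map, coeff_zero_eq_constantCoeff_apply, map_mul,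
    constantCoeff_hW2, constantCoeff_hUinv (le_refl 2)]
  simp

theorem coeff_haupt2_of_lt {k : ℤ} (hk : k < -1) : (haupt2 K).coeff k = 0 := by
  rw [coeff_haupt2]
  exact ofPowerSeries_coeff_of_neg _ (by omega)

/-- leading coefficient: `t₃ = q⁻¹ + …`. -/
theorem coeff_haupt3_neg_one : (haupt3 K).coeff (-1) = 1 := by
  rw [coeff_haupt3, show (-1 : ℤ) + 1 = ((0 : ℕ) : ℤ) by norm_num,
    HahnSeries.ofPowerSeries_apply_coeff, coeff_map, coeff_zero_eq_constantCoeff_apply, map_mul,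
    constantCoeff_hW3, constantCoeff_hUinv (by norm_num : 2 ≤ 3)]
  simp

theorem coeff_haupt3_of_lt {k : ℤ} (hk : k < -1) : (haupt3 K).coeff k = 0 := by
  rw [coeff_haupt3]
  exact ofPowerSeries_coeff_of_neg _ (by omega)

theorem haupt2_ne_zero [Nontrivial K] : haupt2 K ≠ 0 := fun h => by
  have := coeff_haupt2_neg_one K
  rw [h] at this
  simp at this

theorem haupt3_ne_zero [Nontrivial K] : haupt3 K ≠ 0 := fun h => by
  have := coeff_haupt3_neg_one K
  rw [h] at this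
  simp at this

end General

end

end Fermat.Agent.S18.H69
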