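/-
S18, node PB (place bridge), model half: the `K0`-model `modularFunctionFieldFullC K0 L` of
`modularFunctionFieldBar L`, the comparison map, and the place bridge statements for it.
-/
import Mathlib
import Fermat.Prelude.Def_ModularCurve_ReductionModL
import Fermat.Prelude.Thm_ModularCurve_coeffMap_qExpand
import Fermat.Agent.S24.PhiCore_helper20
import Fermat.Agent.S18.PlaceRestrict_helper74
import Fermat.Agent.S18.PlaceExist_helper60
import Fermat.Agent.S18.Ram0_helper10

set_option autoImplicit false

noncomputable section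

namespace Fermat.Agent.S18.H74

open ModularCurve AlgebraicCurve Fermat.Agent.S24 Fermat.Agent.S24.H98 IntermediateField

section Model

variable (K0 : Type*) [Field K0] [Algebra K0 Kbar] (L : ℕ) [NeZero L]

omit [NeZero L] in
/-- the generators `j(q^d)`, `d ∣ L`, over `Qbar` lie in the frozen field -/
theorem qExpand_jqModC_mem_bar [NeZero L] {d : ℕ} [NeZero d] (hd : d ∣ L) :
    qExpand Kbar d (jqModC Kbar) ∈ modularFunctionFieldBar L := by
  rw [H20.modularFunctionFieldBar_eq_adjoin]
  refine IntermediateField.subset_adjoin _ _ ⟨⟨d, hd⟩, ?_⟩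
  rw [H20.Jd_eq, coeffEmb, coeffMap_qExpand, H20.coeffMap_jq]

/-- base change of coefficients maps the `K0`-model into the frozen field -/
theorem coeffMap_mem_bar {y : LaurentSeries K0} (hy : y ∈ modularFunctionFieldFullC K0 L) :
    coeffMap (algebraMap K0 Kbar) y ∈ modularFunctionFieldBar L := by
  unfold modularFunctionFieldFullC at hy
  induction hy using IntermediateField.adjoin_induction with
  | mem y hy =>
    obtain ⟨d, hd, hdL, rfl⟩ := hy
    rw [coeffMap_qExpand, coeffMap_jqModC]
    exact qExpand_jqModC_mem_bar L hdL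
  | algebraMap c =>
    rw [algebraMap_laurentSeries_eq_single, coeffMap_single, ← algebraMap_laurentSeries_eq_single]
    exact IntermediateField.algebraMap_mem _ _
  | add y z _ _ ihy ihz => rw [map_add]; exact add_mem ihy ihz
  | inv y _ ih => rw [map_inv₀]; exact inv_mem ih
  | mul y z _ _ ihy ihz => rw [map_mul]; exact mul_mem ihy ihz

/-- **the comparison map** from the `K0`-model to the frozen field `Fbar_L`. -/
def toBar : ↥(modularFunctionFieldFullC K0 L) →+* ↥(modularFunctionFieldBar L) :=
  ((coeffMap (algebraMap K0 Kbar)).comp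
      (algebraMap ↥(modularFunctionFieldFullC K0 L) (LaurentSeries K0))).codRestrict
    (modularFunctionFieldBar L) (fun y => coeffMap_mem_bar K0 L y.2)

@[simp]
theorem coe_toBar (y : ↥(modularFunctionFieldFullC K0 L)) :
    ((toBar K0 L y : ↥(modularFunctionFieldBar L)) : LaurentSeries Kbar) =
      coeffMap (algebraMap K0 Kbar) (y : LaurentSeries K0) := rfl

theorem toBar_injective : Function.Injective (toBar K0 L) := (toBar K0 L).injective

/-- the algebra structure of `Fbar_L` over the `K0`-model given by the comparison map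
(activate with `letI := algModel K0 L`). -/
@[reducible] def algModel :
    Algebra ↥(modularFunctionFieldFullC K0 L) ↥(modularFunctionFieldBar L) :=
  (toBar K0 L).toAlgebra

/-- the algebra structure of `Fbar_L` over `K0` (through `Qbar`). -/
@[reducible] def algK0Bar : Algebra K0 ↥(modularFunctionFieldBar L) :=
  ((algebraMap Kbar ↥(modularFunctionFieldBar L)).comp (algebraMap K0 Kbar)).toAlgebra

attribute [local instance] algModel algK0Bar

local instance isScalarTower_K0_bar : IsScalarTower K0 Kbar ↥(modularFunctionFieldBar L) :=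
  IsScalarTower.of_algebraMap_eq fun _ => rfl

theorem toBar_algebraMap (c : K0) :
    toBar K0 L (algebraMap K0 ↥(modularFunctionFieldFullC K0 L) c) =
      algebraMap Kbar ↥(modularFunctionFieldBar L) (algebraMap K0 Kbar c) := by
  apply Subtype.ext
  show coeffMap (algebraMap K0 Kbar) (algebraMap K0 (LaurentSeries K0) c) =
    algebraMap Kbar (LaurentSeries Kbar) (algebraMap K0 Kbar c)
  rw [algebraMap_laurentSeries_eq_single, coeffMap_single, ← algebraMap_laurentSeries_eq_single]

local instance isScalarTower_model :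
    IsScalarTower K0 ↥(modularFunctionFieldFullC K0 L) ↥(modularFunctionFieldBar L) :=
  IsScalarTower.of_algebraMap_eq fun c => (toBar_algebraMap K0 L c).symm

/-- the generators of the model map to the generators of `Fbar_L` -/
theorem toBar_gen {d : ℕ} [NeZero d] (hd : d ∣ L) :
    ((toBar K0 L ⟨qExpand K0 d (jqModC K0), jqModCd_mem_full K0 L hd⟩ :
      ↥(modularFunctionFieldBar L)) : LaurentSeries Kbar) = qExpand Kbar d (jqModC Kbar) := by
  rw [coe_toBar, coeffMap_qExpand, coeffMap_jqModC]

/-- `Fbar_L` is algebraic over the `K0`-model -/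
theorem isAlgebraic_model [Algebra.IsAlgebraic K0 Kbar] :
    Algebra.IsAlgebraic ↥(modularFunctionFieldFullC K0 L) ↥(modularFunctionFieldBar L) := by
  have key : ∀ (y : LaurentSeries Kbar)
      (_ : y ∈ IntermediateField.adjoin Kbar (Set.range (H20.Jd L Kbar)))
      (hy : y ∈ modularFunctionFieldBar L),
      IsIntegral ↥(modularFunctionFieldFullC K0 L) (⟨y, hy⟩ : ↥(modularFunctionFieldBar L)) := by
    intro y hy'
    induction hy' using IntermediateField.adjoin_induction with
    | mem y hy =>
      intro hyb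
      obtain ⟨⟨d, hd⟩, rfl⟩ := hy
      haveI : NeZero d := H20.neZero_of_dvd hd
      have heq : (⟨H20.Jd L Kbar ⟨d, hd⟩, hyb⟩ : ↥(modularFunctionFieldBar L)) =
          algebraMap ↥(modularFunctionFieldFullC K0 L) ↥(modularFunctionFieldBar L)
            ⟨qExpand K0 d (jqModC K0), jqModCd_mem_full K0 L hd⟩ := by
        apply Subtype.ext
        show H20.Jd L Kbar ⟨d, hd⟩ = ((toBar K0 L ⟨qExpand K0 d (jqModC K0),
          jqModCd_mem_full K0 L hd⟩ : ↥(modularFunctionFieldBar L)) : LaurentSeries Kbar)
        rw [toBar_gen K0 L hd, H20.Jd_eq, coeffEmb, coeffMap_qExpand, H20.coeffMap_jq]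
      rw [heq]
      exact isIntegral_algebraMap
    | algebraMap c =>
      intro hyb
      have hc : IsIntegral K0 c := (Algebra.IsAlgebraic.isAlgebraic c).isIntegral
      have h1 : IsIntegral K0 (algebraMap Kbar ↥(modularFunctionFieldBar L) c) :=
        hc.map (IsScalarTower.toAlgHom K0 Kbar ↥(modularFunctionFieldBar L))
      exact h1.tower_top
    | add y z hy hz ihy ihz =>
      intro hyb
      have hy1 : y ∈ modularFunctionFieldBar L := by
        rw [H20.modularFunctionFieldBar_eq_adjoin]; exact hy
      have hz1 : z ∈ modularFunctionFieldBar L := by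
        rw [H20.modularFunctionFieldBar_eq_adjoin]; exact hz
      have e : (⟨y + z, hyb⟩ : ↥(modularFunctionFieldBar L)) = ⟨y, hy1⟩ + ⟨z, hz1⟩ := rfl
      rw [e]
      exact (ihy hy1).add (ihz hz1)
    | inv y hy ih =>
      intro hyb
      have hy1 : y ∈ modularFunctionFieldBar L := by
        rw [H20.modularFunctionFieldBar_eq_adjoin]; exact hy
      have h1 : IsAlgebraic ↥(modularFunctionFieldFullC K0 L)
          (⟨y, hy1⟩ : ↥(modularFunctionFieldBar L)) := (ih hy1).isAlgebraic
      have e : (⟨y⁻¹, hyb⟩ : ↥(modularFunctionFieldBar L)) = (⟨y, hy1⟩ : ↥(modularFunctionFieldBar L))⁻¹ := rfl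
      rw [e]
      exact h1.inv.isIntegral
    | mul y z hy hz ihy ihz =>
      intro hyb
      have hy1 : y ∈ modularFunctionFieldBar L := by
        rw [H20.modularFunctionFieldBar_eq_adjoin]; exact hy
      have hz1 : z ∈ modularFunctionFieldBar L := by
        rw [H20.modularFunctionFieldBar_eq_adjoin]; exact hz
      have e : (⟨y * z, hyb⟩ : ↥(modularFunctionFieldBar L)) = ⟨y, hy1⟩ * ⟨z, hz1⟩ := rfl
      rw [e]
      exact (ihy hy1).mul (ihz hz1)
  refine ⟨?_⟩
  rintro ⟨y, hy⟩
  have hy' : y ∈ IntermediateField.adjoin Kbar (Set.range (H20.Jd L Kbar)) := by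
    rw [← H20.modularFunctionFieldBar_eq_adjoin]; exact hy
  have h := key y hy' hy
  exact h.isAlgebraic

omit [Field K0] [Algebra K0 Kbar] in
/-- every nontrivial valuation subring of `Fbar_L` over `Qbar` is discrete -/
theorem hDVR_bar : ∀ V : ValuationSubring ↥(modularFunctionFieldBar L),
    (∀ a : Kbar, algebraMap Kbar ↥(modularFunctionFieldBar L) a ∈ V) → V ≠ ⊤ →
      IsPrincipalIdealRing V := by
  intro V hk hV
  haveI := H10.finiteDimensional_FN L
  exact H60.isPrincipalIdealRing_of_ne_top (jBar L) V hk hV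

/-- **restriction of a place of `Fbar_L` to the `K0`-model.** -/
def restrictModel [Algebra.IsAlgebraic K0 Kbar] (P : Place Kbar ↥(modularFunctionFieldBar L)) :
    Place K0 ↥(modularFunctionFieldFullC K0 L) :=
  haveI := isAlgebraic_model K0 L
  restrictPlace (K0 := K0) P (exists_not_mem_of_isAlgebraic P)

theorem mem_restrictModel_iff [Algebra.IsAlgebraic K0 Kbar]
    (P : Place Kbar ↥(modularFunctionFieldBar L)) (y : ↥(modularFunctionFieldFullC K0 L)) :
    y ∈ (restrictModel K0 L P).toValuationSubring ↔ toBar K0 L y ∈ P.toValuationSubring :=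
  Iff.rfl

/-- ramification index of a place of `Fbar_L` over the `K0`-model -/
theorem exists_ramIdx_model [Algebra.IsAlgebraic K0 Kbar]
    (P : Place Kbar ↥(modularFunctionFieldBar L)) :
    ∃ e : ℕ, 0 < e ∧ ∀ y : ↥(modularFunctionFieldFullC K0 L),
      P.ord (toBar K0 L y) = e * (restrictModel K0 L P).ord y := by
  haveI := isAlgebraic_model K0 L
  exact exists_ramIdx (K0 := K0) P (exists_not_mem_of_isAlgebraic P)

/-- the index is one as soon as a uniformiser of `P` comes from the model -/
theorem ord_toBar_eq_of_exists [Algebra.IsAlgebraic K0 Kbar]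
    (P : Place Kbar ↥(modularFunctionFieldBar L))
    (hu : ∃ t : ↥(modularFunctionFieldFullC K0 L), P.ord (toBar K0 L t) = 1)
    (y : ↥(modularFunctionFieldFullC K0 L)) :
    P.ord (toBar K0 L y) = (restrictModel K0 L P).ord y := by
  haveI := isAlgebraic_model K0 L
  exact ord_algebraMap_eq_of_exists (K0 := K0) P (exists_not_mem_of_isAlgebraic P) hu y

/-- **(PB4), model form.** Every place of the `K0`-model is the restriction of a place of
`Fbar_L`. -/
theorem exists_restrictModel_eq [Algebra.IsAlgebraic K0 Kbar]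
    (O : Place K0 ↥(modularFunctionFieldFullC K0 L)) :
    ∃ P : Place Kbar ↥(modularFunctionFieldBar L), restrictModel K0 L P = O := by
  haveI := isAlgebraic_model K0 L
  obtain ⟨P, hne, hP⟩ := exists_place_restrict_eq (K0 := K0) (K := Kbar)
    (F := ↥(modularFunctionFieldBar L)) (hDVR_bar L) O
  exact ⟨P, hP⟩

/-- **(DIV), Place form.** If all orders of `u` at the places of `Fbar_L` are divisible by `m`
and the places in the support of `div u` have a uniformiser in the model, then all orders of `u`
at the places of the `K0`-model are divisible by `m`. -/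
theorem dvd_ord_model [Algebra.IsAlgebraic K0 Kbar] (m : ℤ)
    (u : ↥(modularFunctionFieldFullC K0 L))
    (hP : ∀ P : Place Kbar ↥(modularFunctionFieldBar L), m ∣ P.ord (toBar K0 L u))
    (ht : ∀ P : Place Kbar ↥(modularFunctionFieldBar L), P.ord (toBar K0 L u) ≠ 0 →
      ∃ t : ↥(modularFunctionFieldFullC K0 L), P.ord (toBar K0 L t) = 1)
    (O : Place K0 ↥(modularFunctionFieldFullC K0 L)) : m ∣ O.ord u :=
  dvd_ord_of_forall_place (K0 := K0) (K := Kbar) (F := ↥(modularFunctionFieldBar L))
    (hDVR_bar L) m u hP ht O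

/-- **(DIV), `ZVal` form** (the literal hypothesis of the generic Kummer core). -/
theorem dvd_zval_ord_model [Algebra.IsAlgebraic K0 Kbar] (m : ℤ)
    (u : ↥(modularFunctionFieldFullC K0 L)) (hu : u ≠ 0)
    (hP : ∀ P : Place Kbar ↥(modularFunctionFieldBar L), m ∣ P.ord (toBar K0 L u))
    (ht : ∀ P : Place Kbar ↥(modularFunctionFieldBar L), P.ord (toBar K0 L u) ≠ 0 →
      ∃ t : ↥(modularFunctionFieldFullC K0 L), P.ord (toBar K0 L t) = 1)
    (w : H31.ZVal ↥(modularFunctionFieldFullC K0 L))
    (hw : ∀ c : K0, c ≠ 0 → w.ord (algebraMap K0 ↥(modularFunctionFieldFullC K0 L) c) = 0) :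
    m ∣ w.ord u := by
  by_cases hnt : ∃ f : ↥(modularFunctionFieldFullC K0 L), f ≠ 0 ∧ w.ord f ≠ 0
  · obtain ⟨O, d, -, hd⟩ := H19.exists_place_of_zval w hw hnt
    rw [hd u hu]
    exact Dvd.dvd.mul_left (dvd_ord_model K0 L m u hP ht O) d
  · push Not at hnt
    rw [hnt u hu]
    exact dvd_zero m

/-- **(PB5), model form = the unramified bridge for (NC)(iii).** `x` a non-constant element of
the model, `c ∈ K0[X]` separable, `O` a place of the model with `x ∈ O` and `ord_O (c(x)) > 0`.
If every place of `Fbar_L` over a root `a` of `c` is unramified over the `x`-line, then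
`ord_O (c(x)) = 1`. -/
theorem ord_aeval_eq_one_model [Algebra.IsAlgebraic K0 Kbar]
    (x : ↥(modularFunctionFieldFullC K0 L))
    (hxtr : ∀ a : Kbar, toBar K0 L x ≠ algebraMap Kbar ↥(modularFunctionFieldBar L) a)
    (c : Polynomial K0) (hsep : c.Separable)
    (hram : ∀ (P : Place Kbar ↥(modularFunctionFieldBar L)) (a : Kbar),
      (c.map (algebraMap K0 Kbar)).IsRoot a →
      0 < P.ord (toBar K0 L x - algebraMap Kbar ↥(modularFunctionFieldBar L) a) →
      P.ord (toBar K0 L x - algebraMap Kbar ↥(modularFunctionFieldBar L) a) = 1)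
    (O : Place K0 ↥(modularFunctionFieldFullC K0 L)) (hx : x ∈ O.toValuationSubring)
    (hpos : 0 < O.ord (Polynomial.aeval x c)) : O.ord (Polynomial.aeval x c) = 1 := by
  haveI := isAlgebraic_model K0 L
  obtain ⟨P, hne, rfl⟩ := exists_place_restrict_eq (K0 := K0) (K := Kbar)
    (F := ↥(modularFunctionFieldBar L)) (hDVR_bar L) O
  refine ord_aeval_eq_one_of_unramified (K0 := K0) P hne x c hsep ?_ hxtr hx hpos (hram P)
  intro u hu
  exact H19.residue_eq (jBar L) (H10.transcendental_jBar L) (H10.finiteDimensional_FN L) P hu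

end Model

end Fermat.Agent.S18.H74
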