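import Mathlib
import Fermat.Agent.S18.Branch_helper10
import Fermat.Agent.S18.BranchUnrInst_helper66
import Fermat.Agent.S18.PlaceModel_helper74
import Fermat.Agent.S18.HauptId_helper69

/-!
# S18, node (BR): the branch hypothesis of (NC) for the `K0`-model, literally

`K0` a field with `[Algebra K0 Kbar]`, algebraic (`Kbar = ℚ̄`), `L` a level,
`F0 = modularFunctionFieldFullC K0 L` the `K0`-model of the modular function field (inside
`LaurentSeries K0`), `toBar K0 L : F0 →+* F_L` the comparison map of `PlaceModel_helper74`.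
For a chart coordinate `xi : F0` whose `q`-expansion is

* `jqModC K0`, or an inverse of it               (`M = 1`, charts `j`, `1/j`),
* `haupt2 K0`, or an inverse of it               (`M = 2`, charts `t₂`, `1/t₂`),
* `haupt3 K0`, or an inverse of it               (`M = 3`, charts `t₃`, `1/t₃`),

and ANY algebra structure `K0[X] → F0` with `X ↦ xi` (`hx`), every maximal ideal `p` of `K0[X]`
not containing the branch polynomial `Pi` is unramified in the integral closure `S` of `K0[X]`
in `F0`: `(p.map (algebraMap K0[X] S)).IsRadical`.  This is the hypothesis `hunr` of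
`H57.mul_mem_of_trace_mem` / `H68.hC_of_unramified` / `H49.nc_core` literally (`O = K0[X]`,
`q = Pi`), with no hypothesis left: the Hauptmodul relations are `HauptId_helper69`, the
geometric input is `Ram0_helper10` + `Branch_helper66`, the bridge is `BranchUnr_helper66`.

`Pi` is arbitrary subject to the root condition (`hPi`); the `_std` versions take the monic
polynomials `X (X - 1728)`, `X (X + 64)`, `X (X + 27)` and, for the charts at `∞`, the
inverse-free polynomials `X (1728 X - 1)`, `X (64 X + 1)`, `X (27 X + 1)`.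
-/

set_option autoImplicit false

open AlgebraicCurve IntermediateField Polynomial ModularCurve
open Fermat.Agent.S24 Fermat.Agent.S24.H98

namespace Fermat.Agent.S18.H10

section Model

variable (K0 : Type*) [Field K0] [Algebra K0 Kbar] (L : ℕ) [NeZero L]

/-- the `q`-expansion of `jBar L` is `jqModC Kbar` -/
theorem coe_jBar : ((jBar L : FN L) : LaurentSeries Kbar) = jqModC Kbar :=
  H20.coeffMap_jq (algebraMap ℚ Kbar)

/-- the comparison map sends an element with `q`-expansion `jqModC K0` to `jBar L` -/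
theorem toBar_eq_jBar (xi : ↥(modularFunctionFieldFullC K0 L))
    (hxi : (xi : LaurentSeries K0) = jqModC K0) : H74.toBar K0 L xi = jBar L := by
  apply Subtype.ext
  rw [H74.coe_toBar, hxi, coeffMap_jqModC, coe_jBar]

/-- the comparison map sends an inverse of `jqModC K0` to `(jBar L)⁻¹` -/
theorem toBar_eq_jBar_inv (xi : ↥(modularFunctionFieldFullC K0 L))
    (hxi : (xi : LaurentSeries K0) * jqModC K0 = 1) : H74.toBar K0 L xi = (jBar L)⁻¹ := by
  refine eq_inv_of_mul_eq_one_left ?_
  apply Subtype.ext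
  have h := congrArg (coeffMap (algebraMap K0 Kbar)) hxi
  rw [map_mul, map_one, coeffMap_jqModC] at h
  show ((H74.toBar K0 L xi : FN L) : LaurentSeries Kbar) * ((jBar L : FN L) : LaurentSeries Kbar)
    = 1
  rw [H74.coe_toBar, coe_jBar]
  exact h

/-- the Hauptmodul relation of level `2` in `F_L`, for the image of an element of the model
with `q`-expansion `haupt2 K0` -/
theorem toBar_rel_two (xi : ↥(modularFunctionFieldFullC K0 L))
    (hxi : (xi : LaurentSeries K0) = H69.haupt2 K0) :
    jBar L * H74.toBar K0 L xi ^ 2 = (H74.toBar K0 L xi + 256) ^ 3 := by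
  apply Subtype.ext
  show ((jBar L : FN L) : LaurentSeries Kbar) *
      ((H74.toBar K0 L xi : FN L) : LaurentSeries Kbar) ^ 2
    = (((H74.toBar K0 L xi : FN L) : LaurentSeries Kbar) + 256) ^ 3
  rw [H74.coe_toBar, hxi, H69.coeffMap_haupt2, coe_jBar]
  exact H69.haupt2_rel Kbar

/-- the Hauptmodul relation of level `3` in `F_L` -/
theorem toBar_rel_three (xi : ↥(modularFunctionFieldFullC K0 L))
    (hxi : (xi : LaurentSeries K0) = H69.haupt3 K0) :
    jBar L * H74.toBar K0 L xi ^ 3
      = (H74.toBar K0 L xi + 27) * (H74.toBar K0 L xi + 243) ^ 3 := by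
  apply Subtype.ext
  show ((jBar L : FN L) : LaurentSeries Kbar) *
      ((H74.toBar K0 L xi : FN L) : LaurentSeries Kbar) ^ 3
    = (((H74.toBar K0 L xi : FN L) : LaurentSeries Kbar) + 27) *
      (((H74.toBar K0 L xi : FN L) : LaurentSeries Kbar) + 243) ^ 3
  rw [H74.coe_toBar, hxi, H69.coeffMap_haupt3, coe_jBar]
  exact H69.haupt3_rel Kbar

/-- an inverse in the model goes to the inverse -/
theorem toBar_eq_inv (xi t : ↥(modularFunctionFieldFullC K0 L))
    (h : (xi : LaurentSeries K0) * (t : LaurentSeries K0) = 1) :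
    H74.toBar K0 L xi = (H74.toBar K0 L t)⁻¹ := by
  refine eq_inv_of_mul_eq_one_left ?_
  have h1 : xi * t = 1 := Subtype.ext h
  rw [← map_mul, h1, map_one]

variable [Algebra (Polynomial K0) ↥(modularFunctionFieldFullC K0 L)]

/-- the comparison map is `p(xi) ↦ p(toBar xi)` on `K0[X]` -/
theorem toBar_algebraMap_poly (xi : ↥(modularFunctionFieldFullC K0 L))
    (hx : ∀ p : Polynomial K0,
      algebraMap (Polynomial K0) ↥(modularFunctionFieldFullC K0 L) p = aeval xi p)
    (p : Polynomial K0) :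
    H74.toBar K0 L (algebraMap (Polynomial K0) ↥(modularFunctionFieldFullC K0 L) p)
      = aeval (H74.toBar K0 L xi) (p.map (algebraMap K0 Kbar)) := by
  refine H66.map_algebraMap_eq_aeval (H74.toBar K0 L) (H74.toBar K0 L xi) (fun c => ?_) ?_ p
  · rw [hx, aeval_C]
    exact H74.toBar_algebraMap K0 L c
  · rw [hx, aeval_X]

variable [Algebra.IsAlgebraic K0 Kbar]
variable {S : Type*} [CommRing S] [Algebra (Polynomial K0) S]
  [Algebra S ↥(modularFunctionFieldFullC K0 L)]
  [IsScalarTower (Polynomial K0) S ↥(modularFunctionFieldFullC K0 L)]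
  [IsIntegralClosure S (Polynomial K0) ↥(modularFunctionFieldFullC K0 L)]

/-- **`hunr` for the model, chart `j`.** -/
theorem isRadical_model_j (xi : ↥(modularFunctionFieldFullC K0 L))
    (hxi : (xi : LaurentSeries K0) = jqModC K0)
    (hx : ∀ p : Polynomial K0,
      algebraMap (Polynomial K0) ↥(modularFunctionFieldFullC K0 L) p = aeval xi p)
    (Pi : Polynomial K0)
    (hPi : ∀ a : Kbar, (Pi.map (algebraMap K0 Kbar)).eval a ≠ 0 → a ≠ 0 ∧ a ≠ 1728)
    (p : Ideal (Polynomial K0)) (hp : p.IsMaximal) (hPip : Pi ∉ p) :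
    (p.map (algebraMap (Polynomial K0) S)).IsRadical := by
  have : CharZero K0 := (algebraMap K0 Kbar).charZero
  refine H66.isRadical_map_j L (H74.toBar K0 L) (fun q => ?_) Pi hPi p hp hPip
  rw [toBar_algebraMap_poly K0 L xi hx q, toBar_eq_jBar K0 L xi hxi]

/-- **`hunr` for the model, chart `1/j`.** -/
theorem isRadical_model_j_inv (xi : ↥(modularFunctionFieldFullC K0 L))
    (hxi : (xi : LaurentSeries K0) * jqModC K0 = 1)
    (hx : ∀ p : Polynomial K0,
      algebraMap (Polynomial K0) ↥(modularFunctionFieldFullC K0 L) p = aeval xi p)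
    (Pi : Polynomial K0)
    (hPi : ∀ a : Kbar, (Pi.map (algebraMap K0 Kbar)).eval a ≠ 0 → a ≠ 0 ∧ 1728 * a - 1 ≠ 0)
    (p : Ideal (Polynomial K0)) (hp : p.IsMaximal) (hPip : Pi ∉ p) :
    (p.map (algebraMap (Polynomial K0) S)).IsRadical := by
  have : CharZero K0 := (algebraMap K0 Kbar).charZero
  refine H66.isRadical_map_inv_j L (H74.toBar K0 L) (fun q => ?_) Pi hPi p hp hPip
  rw [toBar_algebraMap_poly K0 L xi hx q, toBar_eq_jBar_inv K0 L xi hxi]

/-- **`hunr` for the model, chart `t₂`.** -/
theorem isRadical_model_two (xi : ↥(modularFunctionFieldFullC K0 L))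
    (hxi : (xi : LaurentSeries K0) = H69.haupt2 K0)
    (hx : ∀ p : Polynomial K0,
      algebraMap (Polynomial K0) ↥(modularFunctionFieldFullC K0 L) p = aeval xi p)
    (Pi : Polynomial K0)
    (hPi : ∀ a : Kbar, (Pi.map (algebraMap K0 Kbar)).eval a ≠ 0 → a ≠ 0 ∧ a ≠ -64)
    (p : Ideal (Polynomial K0)) (hp : p.IsMaximal) (hPip : Pi ∉ p) :
    (p.map (algebraMap (Polynomial K0) S)).IsRadical := by
  have : CharZero K0 := (algebraMap K0 Kbar).charZero
  exact H66.isRadical_map_two L (H74.toBar K0 L) (H74.toBar K0 L xi)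
    (toBar_rel_two K0 L xi hxi) (toBar_algebraMap_poly K0 L xi hx) Pi hPi p hp hPip

/-- **`hunr` for the model, chart `1/t₂`**: `xi` is an inverse of an element `t` of the model
with `q`-expansion `haupt2 K0`. -/
theorem isRadical_model_two_inv (xi t : ↥(modularFunctionFieldFullC K0 L))
    (ht : (t : LaurentSeries K0) = H69.haupt2 K0)
    (hxi : (xi : LaurentSeries K0) * (t : LaurentSeries K0) = 1)
    (hx : ∀ p : Polynomial K0,
      algebraMap (Polynomial K0) ↥(modularFunctionFieldFullC K0 L) p = aeval xi p)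
    (Pi : Polynomial K0)
    (hPi : ∀ a : Kbar, (Pi.map (algebraMap K0 Kbar)).eval a ≠ 0 → a ≠ 0 ∧ 64 * a + 1 ≠ 0)
    (p : Ideal (Polynomial K0)) (hp : p.IsMaximal) (hPip : Pi ∉ p) :
    (p.map (algebraMap (Polynomial K0) S)).IsRadical := by
  have : CharZero K0 := (algebraMap K0 Kbar).charZero
  refine H66.isRadical_map_inv_two L (H74.toBar K0 L) (H74.toBar K0 L t)
    (toBar_rel_two K0 L t ht) (fun q => ?_) Pi hPi p hp hPip
  rw [toBar_algebraMap_poly K0 L xi hx q, toBar_eq_inv K0 L xi t hxi]

/-- **`hunr` for the model, chart `t₃`.** -/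
theorem isRadical_model_three (xi : ↥(modularFunctionFieldFullC K0 L))
    (hxi : (xi : LaurentSeries K0) = H69.haupt3 K0)
    (hx : ∀ p : Polynomial K0,
      algebraMap (Polynomial K0) ↥(modularFunctionFieldFullC K0 L) p = aeval xi p)
    (Pi : Polynomial K0)
    (hPi : ∀ a : Kbar, (Pi.map (algebraMap K0 Kbar)).eval a ≠ 0 → a ≠ 0 ∧ a ≠ -27)
    (p : Ideal (Polynomial K0)) (hp : p.IsMaximal) (hPip : Pi ∉ p) :
    (p.map (algebraMap (Polynomial K0) S)).IsRadical := by
  have : CharZero K0 := (algebraMap K0 Kbar).charZero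
  exact H66.isRadical_map_three L (H74.toBar K0 L) (H74.toBar K0 L xi)
    (toBar_rel_three K0 L xi hxi) (toBar_algebraMap_poly K0 L xi hx) Pi hPi p hp hPip

/-- **`hunr` for the model, chart `1/t₃`.** -/
theorem isRadical_model_three_inv (xi t : ↥(modularFunctionFieldFullC K0 L))
    (ht : (t : LaurentSeries K0) = H69.haupt3 K0)
    (hxi : (xi : LaurentSeries K0) * (t : LaurentSeries K0) = 1)
    (hx : ∀ p : Polynomial K0,
      algebraMap (Polynomial K0) ↥(modularFunctionFieldFullC K0 L) p = aeval xi p)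
    (Pi : Polynomial K0)
    (hPi : ∀ a : Kbar, (Pi.map (algebraMap K0 Kbar)).eval a ≠ 0 → a ≠ 0 ∧ 27 * a + 1 ≠ 0)
    (p : Ideal (Polynomial K0)) (hp : p.IsMaximal) (hPip : Pi ∉ p) :
    (p.map (algebraMap (Polynomial K0) S)).IsRadical := by
  have : CharZero K0 := (algebraMap K0 Kbar).charZero
  refine H66.isRadical_map_inv_three L (H74.toBar K0 L) (H74.toBar K0 L t)
    (toBar_rel_three K0 L t ht) (fun q => ?_) Pi hPi p hp hPip
  rw [toBar_algebraMap_poly K0 L xi hx q, toBar_eq_inv K0 L xi t hxi]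

end Model

/-! ### Root conditions of the standard branch polynomials -/

section Roots

variable {K0 : Type*} [Field K0] [Algebra K0 Kbar]

/-- `X (X - 1728)` -/
theorem roots_std_j (a : Kbar)
    (h : ((X * (X - C 1728) : Polynomial K0).map (algebraMap K0 Kbar)).eval a ≠ 0) :
    a ≠ 0 ∧ a ≠ 1728 := H66.hPi_j a h

/-- `X (X + 64)` -/
theorem roots_std_two (a : Kbar)
    (h : ((X * (X + C 64) : Polynomial K0).map (algebraMap K0 Kbar)).eval a ≠ 0) :
    a ≠ 0 ∧ a ≠ -64 := by
  simp only [Polynomial.map_mul, Polynomial.map_X, Polynomial.map_add, Polynomial.map_C,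
    eval_mul, eval_X, eval_add, eval_C] at h
  rw [map_ofNat] at h
  refine ⟨left_ne_zero_of_mul h, fun h1 => right_ne_zero_of_mul h ?_⟩
  rw [h1]; ring

/-- `X (X + 27)` -/
theorem roots_std_three (a : Kbar)
    (h : ((X * (X + C 27) : Polynomial K0).map (algebraMap K0 Kbar)).eval a ≠ 0) :
    a ≠ 0 ∧ a ≠ -27 := by
  simp only [Polynomial.map_mul, Polynomial.map_X, Polynomial.map_add, Polynomial.map_C,
    eval_mul, eval_X, eval_add, eval_C] at h
  rw [map_ofNat] at h
  refine ⟨left_ne_zero_of_mul h, fun h1 => right_ne_zero_of_mul h ?_⟩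
  rw [h1]; ring

/-- `X (1728 X - 1)` -/
theorem roots_std_j_inv (a : Kbar)
    (h : ((X * (C 1728 * X - 1) : Polynomial K0).map (algebraMap K0 Kbar)).eval a ≠ 0) :
    a ≠ 0 ∧ 1728 * a - 1 ≠ 0 := by
  simp only [Polynomial.map_mul, Polynomial.map_X, Polynomial.map_sub, Polynomial.map_C,
    Polynomial.map_one, eval_mul, eval_X, eval_sub, eval_C, eval_one] at h
  rw [map_ofNat] at h
  exact ⟨left_ne_zero_of_mul h, right_ne_zero_of_mul h⟩

/-- `X (64 X + 1)` -/
theorem roots_std_two_inv (a : Kbar)
    (h : ((X * (C 64 * X + 1) : Polynomial K0).map (algebraMap K0 Kbar)).eval a ≠ 0) :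
    a ≠ 0 ∧ 64 * a + 1 ≠ 0 := by
  simp only [Polynomial.map_mul, Polynomial.map_X, Polynomial.map_add, Polynomial.map_C,
    Polynomial.map_one, eval_mul, eval_X, eval_add, eval_C, eval_one] at h
  rw [map_ofNat] at h
  exact ⟨left_ne_zero_of_mul h, right_ne_zero_of_mul h⟩

/-- `X (27 X + 1)` -/
theorem roots_std_three_inv (a : Kbar)
    (h : ((X * (C 27 * X + 1) : Polynomial K0).map (algebraMap K0 Kbar)).eval a ≠ 0) :
    a ≠ 0 ∧ 27 * a + 1 ≠ 0 := by
  simp only [Polynomial.map_mul, Polynomial.map_X, Polynomial.map_add, Polynomial.map_C,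
    Polynomial.map_one, eval_mul, eval_X, eval_add, eval_C, eval_one] at h
  rw [map_ofNat] at h
  exact ⟨left_ne_zero_of_mul h, right_ne_zero_of_mul h⟩

/-! The same for polynomials coming from a subring `A0 → K0` (the shape
`algebraMap A0[X] K0[X] Pi = Pi.map f` of the (NC) consumers). -/

variable {A0 : Type*} [CommRing A0] (f : A0 →+* K0)

theorem roots_std_j_map (a : Kbar)
    (h : (((X * (X - C 1728) : Polynomial A0).map f).map (algebraMap K0 Kbar)).eval a ≠ 0) :
    a ≠ 0 ∧ a ≠ 1728 := by
  have e : (X * (X - C 1728) : Polynomial A0).map f = X * (X - C 1728) := by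
    simp only [Polynomial.map_mul, Polynomial.map_X, Polynomial.map_sub,
      map_ofNat, Polynomial.map_ofNat]
  rw [e] at h
  exact roots_std_j a h

theorem roots_std_two_map (a : Kbar)
    (h : (((X * (X + C 64) : Polynomial A0).map f).map (algebraMap K0 Kbar)).eval a ≠ 0) :
    a ≠ 0 ∧ a ≠ -64 := by
  have e : (X * (X + C 64) : Polynomial A0).map f = X * (X + C 64) := by
    simp only [Polynomial.map_mul, Polynomial.map_X, Polynomial.map_add,
      map_ofNat, Polynomial.map_ofNat]
  rw [e] at h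
  exact roots_std_two a h

theorem roots_std_three_map (a : Kbar)
    (h : (((X * (X + C 27) : Polynomial A0).map f).map (algebraMap K0 Kbar)).eval a ≠ 0) :
    a ≠ 0 ∧ a ≠ -27 := by
  have e : (X * (X + C 27) : Polynomial A0).map f = X * (X + C 27) := by
    simp only [Polynomial.map_mul, Polynomial.map_X, Polynomial.map_add,
      map_ofNat, Polynomial.map_ofNat]
  rw [e] at h
  exact roots_std_three a h

theorem roots_std_j_inv_map (a : Kbar)
    (h : (((X * (C 1728 * X - 1) : Polynomial A0).map f).map (algebraMap K0 Kbar)).eval a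
      ≠ 0) : a ≠ 0 ∧ 1728 * a - 1 ≠ 0 := by
  have e : (X * (C 1728 * X - 1) : Polynomial A0).map f = X * (C 1728 * X - 1) := by
    simp only [Polynomial.map_mul, Polynomial.map_X, Polynomial.map_sub,
      Polynomial.map_one, map_ofNat, Polynomial.map_ofNat]
  rw [e] at h
  exact roots_std_j_inv a h

theorem roots_std_two_inv_map (a : Kbar)
    (h : (((X * (C 64 * X + 1) : Polynomial A0).map f).map (algebraMap K0 Kbar)).eval a ≠ 0) :
    a ≠ 0 ∧ 64 * a + 1 ≠ 0 := by
  have e : (X * (C 64 * X + 1) : Polynomial A0).map f = X * (C 64 * X + 1) := by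
    simp only [Polynomial.map_mul, Polynomial.map_X, Polynomial.map_add,
      Polynomial.map_one, map_ofNat, Polynomial.map_ofNat]
  rw [e] at h
  exact roots_std_two_inv a h

theorem roots_std_three_inv_map (a : Kbar)
    (h : (((X * (C 27 * X + 1) : Polynomial A0).map f).map (algebraMap K0 Kbar)).eval a ≠ 0) :
    a ≠ 0 ∧ 27 * a + 1 ≠ 0 := by
  have e : (X * (C 27 * X + 1) : Polynomial A0).map f = X * (C 27 * X + 1) := by
    simp only [Polynomial.map_mul, Polynomial.map_X, Polynomial.map_add,
      Polynomial.map_one, map_ofNat, Polynomial.map_ofNat]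
  rw [e] at h
  exact roots_std_three_inv a h

end Roots

/-! ### The six charts with the standard branch polynomials -/

section Std

variable (K0 : Type*) [Field K0] [Algebra K0 Kbar] [Algebra.IsAlgebraic K0 Kbar]
  (L : ℕ) [NeZero L] [Algebra (Polynomial K0) ↥(modularFunctionFieldFullC K0 L)]
variable {S : Type*} [CommRing S] [Algebra (Polynomial K0) S]
  [Algebra S ↥(modularFunctionFieldFullC K0 L)]
  [IsScalarTower (Polynomial K0) S ↥(modularFunctionFieldFullC K0 L)]
  [IsIntegralClosure S (Polynomial K0) ↥(modularFunctionFieldFullC K0 L)]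

/-- chart `j`, `Pi = X (X - 1728)` -/
theorem isRadical_model_j_std (xi : ↥(modularFunctionFieldFullC K0 L))
    (hxi : (xi : LaurentSeries K0) = jqModC K0)
    (hx : ∀ p : Polynomial K0,
      algebraMap (Polynomial K0) ↥(modularFunctionFieldFullC K0 L) p = aeval xi p)
    (p : Ideal (Polynomial K0)) (hp : p.IsMaximal) (hPip : X * (X - C 1728) ∉ p) :
    (p.map (algebraMap (Polynomial K0) S)).IsRadical :=
  isRadical_model_j K0 L xi hxi hx _ roots_std_j p hp hPip

/-- chart `1/j`, `Pi = X (1728 X - 1)` -/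
theorem isRadical_model_j_inv_std (xi : ↥(modularFunctionFieldFullC K0 L))
    (hxi : (xi : LaurentSeries K0) * jqModC K0 = 1)
    (hx : ∀ p : Polynomial K0,
      algebraMap (Polynomial K0) ↥(modularFunctionFieldFullC K0 L) p = aeval xi p)
    (p : Ideal (Polynomial K0)) (hp : p.IsMaximal) (hPip : X * (C 1728 * X - 1) ∉ p) :
    (p.map (algebraMap (Polynomial K0) S)).IsRadical :=
  isRadical_model_j_inv K0 L xi hxi hx _ roots_std_j_inv p hp hPip

/-- chart `t₂`, `Pi = X (X + 64)` -/
theorem isRadical_model_two_std (xi : ↥(modularFunctionFieldFullC K0 L))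
    (hxi : (xi : LaurentSeries K0) = H69.haupt2 K0)
    (hx : ∀ p : Polynomial K0,
      algebraMap (Polynomial K0) ↥(modularFunctionFieldFullC K0 L) p = aeval xi p)
    (p : Ideal (Polynomial K0)) (hp : p.IsMaximal) (hPip : X * (X + C 64) ∉ p) :
    (p.map (algebraMap (Polynomial K0) S)).IsRadical :=
  isRadical_model_two K0 L xi hxi hx _ roots_std_two p hp hPip

/-- chart `1/t₂` (`xi` with `q`-expansion `haupt2Inv K0`), `Pi = X (64 X + 1)` -/
theorem isRadical_model_two_inv_std (xi : ↥(modularFunctionFieldFullC K0 L))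
    (hxi : (xi : LaurentSeries K0) = H69.haupt2Inv K0)
    (hx : ∀ p : Polynomial K0,
      algebraMap (Polynomial K0) ↥(modularFunctionFieldFullC K0 L) p = aeval xi p)
    (p : Ideal (Polynomial K0)) (hp : p.IsMaximal) (hPip : X * (C 64 * X + 1) ∉ p) :
    (p.map (algebraMap (Polynomial K0) S)).IsRadical := by
  have ht : ((xi⁻¹ : ↥(modularFunctionFieldFullC K0 L)) : LaurentSeries K0)
      = H69.haupt2 K0 := by
    rw [IntermediateField.coe_inv, hxi]
    exact (eq_inv_of_mul_eq_one_left (H69.haupt2_mul_inv K0)).symm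
  refine isRadical_model_two_inv K0 L xi xi⁻¹ ht ?_ hx _ roots_std_two_inv p hp hPip
  rw [ht, hxi, mul_comm]
  exact H69.haupt2_mul_inv K0

/-- chart `t₃`, `Pi = X (X + 27)` -/
theorem isRadical_model_three_std (xi : ↥(modularFunctionFieldFullC K0 L))
    (hxi : (xi : LaurentSeries K0) = H69.haupt3 K0)
    (hx : ∀ p : Polynomial K0,
      algebraMap (Polynomial K0) ↥(modularFunctionFieldFullC K0 L) p = aeval xi p)
    (p : Ideal (Polynomial K0)) (hp : p.IsMaximal) (hPip : X * (X + C 27) ∉ p) :
    (p.map (algebraMap (Polynomial K0) S)).IsRadical :=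
  isRadical_model_three K0 L xi hxi hx _ roots_std_three p hp hPip

/-- chart `1/t₃` (`xi` with `q`-expansion `haupt3Inv K0`), `Pi = X (27 X + 1)` -/
theorem isRadical_model_three_inv_std (xi : ↥(modularFunctionFieldFullC K0 L))
    (hxi : (xi : LaurentSeries K0) = H69.haupt3Inv K0)
    (hx : ∀ p : Polynomial K0,
      algebraMap (Polynomial K0) ↥(modularFunctionFieldFullC K0 L) p = aeval xi p)
    (p : Ideal (Polynomial K0)) (hp : p.IsMaximal) (hPip : X * (C 27 * X + 1) ∉ p) :
    (p.map (algebraMap (Polynomial K0) S)).IsRadical := by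
  have ht : ((xi⁻¹ : ↥(modularFunctionFieldFullC K0 L)) : LaurentSeries K0)
      = H69.haupt3 K0 := by
    rw [IntermediateField.coe_inv, hxi]
    exact (eq_inv_of_mul_eq_one_left (H69.haupt3_mul_inv K0)).symm
  refine isRadical_model_three_inv K0 L xi xi⁻¹ ht ?_ hx _ roots_std_three_inv p hp hPip
  rw [ht, hxi, mul_comm]
  exact H69.haupt3_mul_inv K0

end Std

end Fermat.Agent.S18.H10
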