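import Mathlib
import Fermat.Prelude.Def_ModularCurve_LaurentCoeff

/-!
# S18: the Gauss valuation of a function field of Laurent series (helper93)

`L` is a field, `A` a valuation subring (no discreteness, no rank assumption), `k` its residue
field.  `iotaA A : A((q)) → L((q))` and `redA A : A((q)) → k((q))` are the two coefficientwise maps
of the frozen `IsPlaceReductionAlong`.

Part 1 (this section `Generic`): ring theory of `A((q))`:
* `exists_unit_decomp`: a series `P` with nonzero reduction is, up to a unit of `A((q))`,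
  of the form `1 + a * T` with `a` in the maximal ideal;
* `exists_dvd_of_mul_eq`: if `P * y = c * g` with `red P ≠ 0` and `c` a non-unit, then `y` is
  divisible by a non-unit constant.

Part 2: the abstract structure theory (`GaussData`): a subfield `F ⊆ L((q))` spanned over `L(J)`
by finitely many integral series whose reductions are `k(J̄)`-independent.
-/

set_option autoImplicit false

noncomputable section

open HahnSeries ModularCurve

namespace Fermat.Agent.S18.H93

section Coeff

variable {R S : Type*} [CommRing R] [CommRing S]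

theorem coeffMap_C (f : R →+* S) (c : R) :
    coeffMap f (HahnSeries.C c : LaurentSeries R) = HahnSeries.C (f c) := by
  show coeffMap f (HahnSeries.single 0 c) = HahnSeries.single 0 (f c)
  exact coeffMap_single f 0 c

/-- Evaluation of a polynomial at a Laurent series; the coefficients act through `C`. -/
def evC (P : Polynomial R) (x : LaurentSeries R) : LaurentSeries R :=
  Polynomial.eval₂ (HahnSeries.C : R →+* LaurentSeries R) x P

theorem coeffMap_evC (f : R →+* S) (P : Polynomial R) (x : LaurentSeries R) :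
    coeffMap f (evC P x) = evC (P.map f) (coeffMap f x) := by
  unfold evC
  rw [Polynomial.hom_eval₂, Polynomial.eval₂_map]
  congr 1
  ext c : 1
  exact coeffMap_C f c

theorem evC_zero (x : LaurentSeries R) : evC (0 : Polynomial R) x = 0 := by
  unfold evC; simp

theorem evC_C_mul (c : R) (P : Polynomial R) (x : LaurentSeries R) :
    evC (Polynomial.C c * P) x = HahnSeries.C c * evC P x := by
  unfold evC
  rw [Polynomial.eval₂_mul, Polynomial.eval₂_C]

theorem coeffMap_injective_of_injective (f : R →+* S) (hf : Function.Injective f) :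
    Function.Injective (coeffMap f) := by
  intro x y h
  ext n
  have := congrArg (fun z : LaurentSeries S => z.coeff n) h
  exact hf (by simpa using this)

end Coeff

section Field

variable (K : Type*) [Field K]

theorem C_eq_algebraMap (c : K) :
    (HahnSeries.C c : LaurentSeries K) = algebraMap K (LaurentSeries K) c := by
  rw [algebraMap_laurentSeries_eq_single]
  rfl

theorem evC_eq_aeval (P : Polynomial K) (x : LaurentSeries K) :
    evC P x = Polynomial.aeval x P := by
  unfold evC
  rw [Polynomial.aeval_def]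
  congr 1
  ext c : 1
  exact C_eq_algebraMap K c

end Field

section Generic

variable {L : Type*} [Field L] (A : ValuationSubring L)

/-- Coefficient embedding `A((q)) → L((q))`. -/
abbrev iotaA : LaurentSeries A →+* LaurentSeries L := coeffMap A.subtype

/-- Coefficientwise reduction `A((q)) → k((q))`. -/
abbrev redA : LaurentSeries A →+* LaurentSeries (IsLocalRing.ResidueField A) :=
  coeffMap (IsLocalRing.residue A)

theorem iotaA_injective : Function.Injective (iotaA A) :=
  coeffMap_injective_of_injective _ Subtype.val_injective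

/-- A Laurent series over `L` with coefficients in `A` comes from `A((q))`. -/
theorem exists_iotaA_eq (x : LaurentSeries L) (hx : ∀ n : ℤ, x.coeff n ∈ A) :
    ∃ g : LaurentSeries A, iotaA A g = x := by
  have hsupp : Function.support (fun n : ℤ => (⟨x.coeff n, hx n⟩ : A)) = x.support := by
    ext n
    simp [Subtype.ext_iff]
  refine ⟨⟨fun n => ⟨x.coeff n, hx n⟩, ?_⟩, ?_⟩
  · rw [hsupp]; exact x.isPWO_support
  · ext n
    rfl

theorem residue_eq_zero_of_inv_not_mem {d : A} (c : L) (hc : c ∉ A) (hd : (d : L) = c⁻¹) :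
    IsLocalRing.residue A d = 0 := by
  by_contra hres
  have hu : IsUnit d := by
    by_contra hnu
    exact hres ((IsLocalRing.residue_eq_zero_iff d).mpr ((IsLocalRing.mem_maximalIdeal d).mpr hnu))
  obtain ⟨e, he⟩ := hu.exists_right_inv
  have h1 : (d : L) * (e : L) = 1 := by
    have := congrArg (fun z : A => (z : L)) he
    simpa using this
  rw [hd] at h1
  have hc0 : c ≠ 0 := by
    rintro rfl
    simp at h1
  have : (e : L) = c := by
    field_simp at h1
    exact h1
  exact hc (this ▸ e.2)

/-- Finitely many non-units of a valuation ring have a common non-unit divisor. -/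
theorem exists_common_dvd (s : Finset ℤ) (f : ℤ → A)
    (hf : ∀ n ∈ s, IsLocalRing.residue A (f n) = 0) :
    ∃ a : A, IsLocalRing.residue A a = 0 ∧ ∀ n ∈ s, a ∣ f n := by
  classical
  induction s using Finset.induction_on with
  | empty => exact ⟨0, map_zero _, fun n hn => absurd hn (Finset.notMem_empty n)⟩
  | insert n s hn ih =>
    obtain ⟨a, ha, hdiv⟩ := ih (fun m hm => hf m (Finset.mem_insert_of_mem hm))
    rcases ValuationRing.dvd_total a (f n) with h | h
    · refine ⟨a, ha, fun m hm => ?_⟩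
      rcases Finset.mem_insert.mp hm with rfl | hm
      · exact h
      · exact hdiv m hm
    · refine ⟨f n, hf n (Finset.mem_insert_self n s), fun m hm => ?_⟩
      rcases Finset.mem_insert.mp hm with rfl | hm
      · exact dvd_rfl
      · exact h.trans (hdiv m hm)

/-- **Key decomposition.** A series with nonzero reduction is, up to a unit of `A((q))`,
congruent to `1` modulo a non-unit constant. -/
theorem exists_unit_decomp (P : LaurentSeries A) (hP : redA A P ≠ 0) :
    ∃ (U T : LaurentSeries A) (a : A), IsLocalRing.residue A a = 0 ∧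
      U * P = 1 + HahnSeries.C a * T := by
  set n₀ : ℤ := (redA A P).order with hn₀
  have h0 : IsLocalRing.residue A (P.coeff n₀) ≠ 0 := by
    have := HahnSeries.coeff_order_eq_zero.not.mpr hP
    simpa using this
  have hlow : ∀ n < n₀, IsLocalRing.residue A (P.coeff n) = 0 := by
    intro n hn
    have := HahnSeries.coeff_eq_zero_of_lt_order (x := redA A P) hn
    simpa using this
  set s : Finset ℤ := Finset.Ico P.order n₀ with hs
  obtain ⟨a, ha, hdiv⟩ := exists_common_dvd A s P.coeff
    (fun n hn => hlow n (Finset.mem_Ico.mp hn).2)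
  choose! t ht using hdiv
  set Plow : LaurentSeries A := ∑ n ∈ s, HahnSeries.single n (P.coeff n) with hPlow
  set P₁ : LaurentSeries A := ∑ n ∈ s, HahnSeries.single n (t n) with hP₁
  have hlowmul : Plow = HahnSeries.C a * P₁ := by
    rw [hPlow, hP₁, Finset.mul_sum]
    refine Finset.sum_congr rfl fun n hn => ?_
    show _ = HahnSeries.single 0 a * HahnSeries.single n (t n)
    rw [HahnSeries.single_mul_single, zero_add, ← ht n hn]
  have hcoeff : ∀ m : ℤ, Plow.coeff m = if m ∈ s then P.coeff m else 0 := by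
    intro m
    rw [hPlow, HahnSeries.coeff_sum]
    by_cases hm : m ∈ s
    · rw [if_pos hm, Finset.sum_eq_single m]
      · rw [HahnSeries.coeff_single_same]
      · intro b _ hb
        exact HahnSeries.coeff_single_of_ne (Ne.symm hb)
      · intro h
        exact absurd hm h
    · rw [if_neg hm]
      refine Finset.sum_eq_zero fun b hb => ?_
      exact HahnSeries.coeff_single_of_ne (fun h => hm (h ▸ hb))
  set P₂ : LaurentSeries A := P - Plow with hP₂
  have hc2 : ∀ m : ℤ, P₂.coeff m = if m ∈ s then 0 else P.coeff m := by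
    intro m
    rw [hP₂, HahnSeries.coeff_sub, hcoeff]
    split_ifs <;> simp
  have hc2n₀ : P₂.coeff n₀ = P.coeff n₀ := by
    rw [hc2, if_neg]
    simp [hs]
  have hc2low : ∀ m < n₀, P₂.coeff m = 0 := by
    intro m hm
    rw [hc2]
    split_ifs with h
    · rfl
    · apply HahnSeries.coeff_eq_zero_of_lt_order
      by_contra hlt
      exact h (Finset.mem_Ico.mpr ⟨not_lt.mp hlt, hm⟩)
  have hP₂n₀ : P₂.coeff n₀ ≠ 0 := by
    rw [hc2n₀]
    intro h
    exact h0 (by rw [h, map_zero])
  have hP₂ne : P₂ ≠ 0 := by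
    intro h
    exact hP₂n₀ (by rw [h]; rfl)
  have hord : P₂.order = n₀ := by
    apply le_antisymm
    · exact HahnSeries.order_le_of_coeff_ne_zero hP₂n₀
    · by_contra hlt
      exact HahnSeries.coeff_order_eq_zero.not.mpr hP₂ne (hc2low _ (not_le.mp hlt))
  have hlead : IsUnit P₂.leadingCoeff := by
    rw [HahnSeries.leadingCoeff_eq, hord, hc2n₀]
    by_contra hnu
    exact h0 ((IsLocalRing.residue_eq_zero_iff _).mpr ((IsLocalRing.mem_maximalIdeal _).mpr hnu))
  obtain ⟨U, hU⟩ := (HahnSeries.isUnit_iff.mpr hlead).exists_left_inv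
  refine ⟨U, U * P₁, a, ha, ?_⟩
  have hPsplit : P = P₂ + Plow := by rw [hP₂]; ring
  calc U * P = U * (P₂ + Plow) := by rw [← hPsplit]
    _ = U * P₂ + U * Plow := mul_add _ _ _
    _ = 1 + HahnSeries.C a * (U * P₁) := by rw [hU, hlowmul]; ring

/-- **(G4), ring-theoretic core.** If `P * y = c * g` with `red P ≠ 0` and `c` a non-unit of
`A`, then `y` is divisible by a non-unit constant.  (No rank or discreteness hypothesis.) -/
theorem exists_dvd_of_mul_eq (P y g : LaurentSeries A) (hP : redA A P ≠ 0) (c : A)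
    (hc : IsLocalRing.residue A c = 0) (h : P * y = HahnSeries.C c * g) :
    ∃ (a : A) (y' : LaurentSeries A), IsLocalRing.residue A a = 0 ∧ y = HahnSeries.C a * y' := by
  obtain ⟨U, T, a₁, ha₁, e1⟩ := exists_unit_decomp A P hP
  rcases ValuationRing.dvd_total a₁ c with ⟨s, hs⟩ | ⟨s, hs⟩
  · refine ⟨a₁, HahnSeries.C s * (U * g) - T * y, ha₁, ?_⟩
    have hC : (HahnSeries.C c : LaurentSeries A) = HahnSeries.C a₁ * HahnSeries.C s := by
      rw [hs, map_mul]
    linear_combination (-y) * e1 + U * h + (U * g) * hC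
  · refine ⟨c, U * g - HahnSeries.C s * (T * y), hc, ?_⟩
    have hC : (HahnSeries.C a₁ : LaurentSeries A) = HahnSeries.C c * HahnSeries.C s := by
      rw [hs, map_mul]
    linear_combination (-y) * e1 + U * h - (T * y) * hC

/-- Scaling a finite family of elements of `L`, not all zero, by its largest member. -/
theorem exists_scale {ι : Type*} (s : Finset ι) (f : ι → L) (h : ∃ i ∈ s, f i ≠ 0) :
    ∃ i₀ ∈ s, f i₀ ≠ 0 ∧ ∀ i ∈ s, f i / f i₀ ∈ A := by
  obtain ⟨i₁, hi₁, hne⟩ := h
  obtain ⟨i₀, hi₀, hmax⟩ := Finset.exists_max_image s (fun i => A.valuation (f i)) ⟨i₁, hi₁⟩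
  have hv0 : A.valuation (f i₀) ≠ 0 := by
    intro h0
    have h1 := hmax i₁ hi₁
    rw [h0] at h1
    exact (A.valuation.ne_zero_iff.mpr hne) (le_antisymm h1 zero_le)
  refine ⟨i₀, hi₀, A.valuation.ne_zero_iff.mp hv0, fun i hi => ?_⟩
  rw [← A.valuation_le_one_iff, map_div₀]
  exact (div_le_one₀ (zero_lt_iff.mpr hv0)).mpr (hmax i hi)

/-- Scaling a finite family of polynomials over `L`, not all zero, to a family over `A` with
nonzero reduction. -/
theorem exists_scale_poly {ι : Type*} [Fintype ι] (Q : ι → Polynomial L) (hQ : Q ≠ 0) :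
    ∃ (c : L) (Q' : ι → Polynomial A), c ≠ 0 ∧
      (∀ i, Q i = Polynomial.C c * (Q' i).map A.subtype) ∧
      ∃ i, (Q' i).map (IsLocalRing.residue A) ≠ 0 := by
  classical
  have hex : ∃ p ∈ (Finset.univ : Finset ι).sigma (fun i => (Q i).support),
      (Q p.1).coeff p.2 ≠ 0 := by
    by_contra hcon
    apply hQ
    funext i
    by_contra hi
    obtain ⟨m, hm⟩ := Polynomial.nonempty_support_iff.mpr hi
    exact hcon ⟨⟨i, m⟩, Finset.mem_sigma.mpr ⟨Finset.mem_univ _, hm⟩,
      Polynomial.mem_support_iff.mp hm⟩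
  obtain ⟨p₀, -, hc0, hall⟩ := exists_scale A _ (fun p : (_ : ι) × ℕ => (Q p.1).coeff p.2) hex
  set c : L := (Q p₀.1).coeff p₀.2 with hc
  have hmem : ∀ i m, (Q i).coeff m / c ∈ A := by
    intro i m
    by_cases hm : m ∈ (Q i).support
    · exact hall ⟨i, m⟩ (Finset.mem_sigma.mpr ⟨Finset.mem_univ _, hm⟩)
    · rw [Polynomial.notMem_support_iff.mp hm, zero_div]
      exact A.zero_mem
  have hlift : ∀ i, ∃ q : Polynomial A, q.map A.subtype = Polynomial.C c⁻¹ * Q i := by
    intro i
    rw [← Polynomial.mem_lifts, Polynomial.lifts_iff_coeff_lifts]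
    intro m
    rw [Polynomial.coeff_C_mul]
    refine ⟨⟨(Q i).coeff m / c, hmem i m⟩, ?_⟩
    show (Q i).coeff m / c = _
    rw [div_eq_inv_mul]
  choose Q' hQ' using hlift
  refine ⟨c, Q', hc0, fun i => ?_, p₀.1, ?_⟩
  · rw [hQ', ← mul_assoc, ← Polynomial.C_mul, mul_inv_cancel₀ hc0, Polynomial.C_1, one_mul]
  · intro h0
    have h1 : ((Q' p₀.1).map A.subtype).coeff p₀.2 = 1 := by
      rw [hQ', Polynomial.coeff_C_mul, ← hc, inv_mul_cancel₀ hc0]
    rw [Polynomial.coeff_map] at h1
    have h2 : (Q' p₀.1).coeff p₀.2 = 1 := Subtype.ext h1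
    have h3 := congrArg (fun q : Polynomial (IsLocalRing.ResidueField A) => q.coeff p₀.2) h0
    simp only [Polynomial.coeff_map, h2, map_one, Polynomial.coeff_zero] at h3
    exact one_ne_zero h3

end Generic

section Structure

variable {L : Type*} [Field L] (A : ValuationSubring L)
variable (F : IntermediateField L (LaurentSeries L))
variable (Fk : IntermediateField (IsLocalRing.ResidueField A)
  (LaurentSeries (IsLocalRing.ResidueField A)))

/-- The abstract input of the Gauss valuation: `F ⊆ L((q))` is spanned over `L(J)` by the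
integral series `b i`, whose reductions are independent over `k(J̄)` (and `J̄` is transcendental). -/
structure GaussData (J : LaurentSeries A) {n : ℕ} (b : Fin n → LaurentSeries A) : Prop where
  J_mem : iotaA A J ∈ F
  b_mem : ∀ i, iotaA A (b i) ∈ F
  redJ_mem : redA A J ∈ Fk
  redb_mem : ∀ i, redA A (b i) ∈ Fk
  span : ∀ x ∈ F, ∃ (P : Polynomial L) (Q : Fin n → Polynomial L), P ≠ 0 ∧
      evC P (iotaA A J) * x = ∑ i, evC (Q i) (iotaA A J) * iotaA A (b i)
  indep : ∀ Q : Fin n → Polynomial (IsLocalRing.ResidueField A),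
      ∑ i, evC (Q i) (redA A J) * redA A (b i) = 0 → Q = 0
  trans : ∀ P : Polynomial (IsLocalRing.ResidueField A), evC P (redA A J) = 0 → P = 0

omit A F Fk in
theorem evC_mem {K : Type*} [Field K] (E : IntermediateField K (LaurentSeries K))
    {x : LaurentSeries K} (hx : x ∈ E) (P : Polynomial K) : evC P x ∈ E := by
  unfold evC
  rw [Polynomial.eval₂_eq_sum_range]
  refine sum_mem fun i _ => mul_mem ?_ (pow_mem hx i)
  rw [C_eq_algebraMap]
  exact E.algebraMap_mem _

variable {A F Fk}
variable {J : LaurentSeries A} {n : ℕ} {b : Fin n → LaurentSeries A}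

/-- **(G2) Structure theorem.** Every nonzero element of `F` is, up to a nonzero constant, a
quotient of two integral series of `F` with nonzero reductions in `Fk`. -/
theorem GaussData.exists_structure (hD : GaussData A F Fk J b) (x : LaurentSeries L)
    (hx : x ∈ F) (hx0 : x ≠ 0) :
    ∃ (c : L) (P u : LaurentSeries A), c ≠ 0 ∧ iotaA A P ∈ F ∧ iotaA A u ∈ F ∧
      redA A P ≠ 0 ∧ redA A u ≠ 0 ∧ redA A P ∈ Fk ∧ redA A u ∈ Fk ∧
      iotaA A P * x = HahnSeries.C c * iotaA A u := by
  obtain ⟨P, Q, hP, hPQ⟩ := hD.span x hx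
  obtain ⟨c₁, P', hc₁, hP', hP'res⟩ := exists_scale_poly A (fun _ : Fin 1 => P)
    (by intro h; exact hP (congrFun h 0))
  have hP'res0 : (P' 0).map (IsLocalRing.residue A) ≠ 0 := by
    obtain ⟨i, hi⟩ := hP'res
    rwa [Subsingleton.elim 0 i]
  set Pser : LaurentSeries A := evC (P' 0) J with hPserdef
  have hPser : evC P (iotaA A J) = HahnSeries.C c₁ * iotaA A Pser := by
    rw [hP' 0, evC_C_mul, hPserdef, coeffMap_evC]
  have hPred : redA A Pser ≠ 0 := by
    rw [hPserdef, coeffMap_evC]
    exact fun h => hP'res0 (hD.trans _ h)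
  have hC₁ : (HahnSeries.C c₁ : LaurentSeries L) ≠ 0 := by
    intro h
    exact hc₁ (HahnSeries.C_injective (by rw [h, map_zero]))
  have hιP : iotaA A Pser ≠ 0 := by
    intro h
    apply hPred
    rw [iotaA_injective A (h.trans (map_zero _).symm), map_zero]
  have hQ : Q ≠ 0 := by
    intro hQ0
    rw [hQ0] at hPQ
    simp only [Pi.zero_apply, evC_zero, zero_mul, Finset.sum_const_zero] at hPQ
    rw [hPser] at hPQ
    rcases mul_eq_zero.mp hPQ with h | h
    · exact (mul_ne_zero hC₁ hιP) h
    · exact hx0 h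
  obtain ⟨c₂, Q', hc₂, hQ', i₀, hi₀⟩ := exists_scale_poly A Q hQ
  set u : LaurentSeries A := ∑ i, evC (Q' i) J * b i with hudef
  have hu : ∑ i, evC (Q i) (iotaA A J) * iotaA A (b i) = HahnSeries.C c₂ * iotaA A u := by
    rw [hudef, map_sum, Finset.mul_sum]
    refine Finset.sum_congr rfl fun i _ => ?_
    rw [hQ' i, evC_C_mul, map_mul, coeffMap_evC]
    ring
  have hured : redA A u ≠ 0 := by
    rw [hudef, map_sum]
    intro h
    have h' : ∑ i, evC ((Q' i).map (IsLocalRing.residue A)) (redA A J) * redA A (b i) = 0 := by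
      rw [← h]
      refine Finset.sum_congr rfl fun i _ => ?_
      rw [map_mul, coeffMap_evC]
    exact hi₀ (congrFun (hD.indep _ h') i₀)
  refine ⟨c₂ / c₁, Pser, u, div_ne_zero hc₂ hc₁, ?_, ?_, hPred, hured, ?_, ?_, ?_⟩
  · rw [hPserdef, coeffMap_evC]
    exact evC_mem F hD.J_mem _
  · rw [hudef, map_sum]
    refine sum_mem fun i _ => ?_
    rw [map_mul, coeffMap_evC]
    exact mul_mem (evC_mem F hD.J_mem _) (hD.b_mem i)
  · rw [hPserdef, coeffMap_evC]
    exact evC_mem Fk hD.redJ_mem _
  · rw [hudef, map_sum]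
    refine sum_mem fun i _ => ?_
    rw [map_mul, coeffMap_evC]
    exact mul_mem (evC_mem Fk hD.redJ_mem _) (hD.redb_mem i)
  · rw [hPser, hu] at hPQ
    apply mul_left_cancel₀ hC₁
    rw [← mul_assoc, hPQ, ← mul_assoc, ← map_mul, mul_div_cancel₀ _ hc₁]

/-- Independence lifts from the reductions to `L` (scaling argument); `indep` is the only
hypothesis used. -/
theorem indep_lift
    (hind : ∀ Q : Fin n → Polynomial (IsLocalRing.ResidueField A),
      ∑ i, evC (Q i) (redA A J) * redA A (b i) = 0 → Q = 0)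
    (Q : Fin n → Polynomial L)
    (h : ∑ i, evC (Q i) (iotaA A J) * iotaA A (b i) = 0) : Q = 0 := by
  by_contra hQ
  obtain ⟨c₂, Q', hc₂, hQ', i₀, hi₀⟩ := exists_scale_poly A Q hQ
  have hC₂ : (HahnSeries.C c₂ : LaurentSeries L) ≠ 0 := by
    intro h0
    exact hc₂ (HahnSeries.C_injective (by rw [h0, map_zero]))
  have hu : ∑ i, evC (Q i) (iotaA A J) * iotaA A (b i) =
      HahnSeries.C c₂ * iotaA A (∑ i, evC (Q' i) J * b i) := by
    rw [map_sum, Finset.mul_sum]
    refine Finset.sum_congr rfl fun i _ => ?_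
    rw [hQ' i, evC_C_mul, map_mul, coeffMap_evC]
    ring
  rw [hu] at h
  have h0 : iotaA A (∑ i, evC (Q' i) J * b i) = 0 := by
    rcases mul_eq_zero.mp h with h1 | h1
    · exact absurd h1 hC₂
    · exact h1
  have h1 : ∑ i, evC (Q' i) J * b i = 0 := iotaA_injective A (h0.trans (map_zero _).symm)
  have h2 : ∑ i, evC ((Q' i).map (IsLocalRing.residue A)) (redA A J) * redA A (b i) = 0 := by
    have h3 := congrArg (redA A) h1
    rw [map_sum, map_zero] at h3
    rw [← h3]
    refine Finset.sum_congr rfl fun i _ => ?_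
    rw [map_mul, coeffMap_evC]
  exact hi₀ (congrFun (hind _ h2) i₀)

/-- Integral form of the structure theorem: for an integral series the constant is integral. -/
theorem GaussData.exists_structure_int (hD : GaussData A F Fk J b) (y : LaurentSeries A)
    (hy : iotaA A y ∈ F) (hy0 : y ≠ 0) :
    ∃ (c : A) (P u : LaurentSeries A), iotaA A P ∈ F ∧ iotaA A u ∈ F ∧
      redA A P ≠ 0 ∧ redA A u ≠ 0 ∧ redA A P ∈ Fk ∧ redA A u ∈ Fk ∧
      P * y = HahnSeries.C c * u := by
  have hιy : iotaA A y ≠ 0 := fun h => hy0 (iotaA_injective A (h.trans (map_zero _).symm))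
  obtain ⟨c, P, u, hc, hPF, huF, hPred, hured, hPk, huk, h⟩ :=
    hD.exists_structure (iotaA A y) hy hιy
  by_cases hcA : c ∈ A
  · refine ⟨⟨c, hcA⟩, P, u, hPF, huF, hPred, hured, hPk, huk, ?_⟩
    apply iotaA_injective A
    rw [map_mul, map_mul, h, coeffMap_C]
    rfl
  · exfalso
    have hinv : c⁻¹ ∈ A := (A.mem_or_inv_mem c).resolve_left hcA
    have hd : IsLocalRing.residue A (⟨c⁻¹, hinv⟩ : A) = 0 :=
      residue_eq_zero_of_inv_not_mem A c hcA rfl
    have hu' : u = HahnSeries.C (⟨c⁻¹, hinv⟩ : A) * (P * y) := by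
      apply iotaA_injective A
      rw [map_mul, map_mul, h, coeffMap_C, ← mul_assoc, ← map_mul]
      show _ = HahnSeries.C (c⁻¹ * c) * _
      rw [inv_mul_cancel₀ hc, map_one, one_mul]
    apply hured
    rw [hu', map_mul, coeffMap_C, hd, map_zero, zero_mul]

/-- **(G3)** The reduction of an integral series of `F` lies in `Fk`. -/
theorem GaussData.red_mem (hD : GaussData A F Fk J b) (y : LaurentSeries A)
    (hy : iotaA A y ∈ F) : redA A y ∈ Fk := by
  by_cases hy0 : y = 0
  · rw [hy0, map_zero]
    exact zero_mem _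
  obtain ⟨c, P, u, -, -, hPred, -, hPk, huk, h⟩ := hD.exists_structure_int y hy hy0
  have h2 : redA A P * redA A y = HahnSeries.C (IsLocalRing.residue A c) * redA A u := by
    rw [← map_mul, h, map_mul, coeffMap_C]
  have h3 : redA A y = (redA A P)⁻¹ * (HahnSeries.C (IsLocalRing.residue A c) * redA A u) := by
    rw [← h2, ← mul_assoc, inv_mul_cancel₀ hPred, one_mul]
  rw [h3]
  refine mul_mem (inv_mem hPk) (mul_mem ?_ huk)
  rw [C_eq_algebraMap]
  exact Fk.algebraMap_mem _

/-- **(G4)** An integral series of `F` with zero reduction is divisible by a non-unit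
constant of `A`. -/
theorem GaussData.exists_dvd_of_red_eq_zero (hD : GaussData A F Fk J b) (y : LaurentSeries A)
    (hy : iotaA A y ∈ F) (hred : redA A y = 0) :
    ∃ (a : A) (y' : LaurentSeries A), IsLocalRing.residue A a = 0 ∧
      y = HahnSeries.C a * y' := by
  by_cases hy0 : y = 0
  · exact ⟨0, 0, map_zero _, by rw [hy0, mul_zero]⟩
  obtain ⟨c, P, u, -, -, hPred, hured, -, -, h⟩ := hD.exists_structure_int y hy hy0
  have h2 : redA A P * redA A y = HahnSeries.C (IsLocalRing.residue A c) * redA A u := by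
    rw [← map_mul, h, map_mul, coeffMap_C]
  rw [hred, mul_zero] at h2
  have hc : IsLocalRing.residue A c = 0 := by
    rcases mul_eq_zero.mp h2.symm with h3 | h3
    · exact HahnSeries.C_injective (by rw [h3, map_zero])
    · exact absurd h3 hured
  exact exists_dvd_of_mul_eq A P y u hPred c hc h

variable (A F) in
/-- Gauss-integrality: a series of `L((q))` that becomes integral after multiplication by an
integral series of `F` with nonzero reduction. -/
def IsGaussInt (x : LaurentSeries L) : Prop :=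
  ∃ u g : LaurentSeries A, iotaA A u ∈ F ∧ redA A u ≠ 0 ∧ iotaA A u * x = iotaA A g

theorem isGaussInt_iota (y : LaurentSeries A) : IsGaussInt A F (iotaA A y) :=
  ⟨1, y, by rw [map_one]; exact one_mem _, by rw [map_one]; exact one_ne_zero,
    by rw [map_one, one_mul]⟩

theorem IsGaussInt.add {x y : LaurentSeries L} (hx : IsGaussInt A F x) (hy : IsGaussInt A F y) :
    IsGaussInt A F (x + y) := by
  obtain ⟨u, g, huF, hu, h⟩ := hx
  obtain ⟨u', g', huF', hu', h'⟩ := hy
  refine ⟨u * u', g * u' + g' * u, ?_, ?_, ?_⟩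
  · rw [map_mul]; exact mul_mem huF huF'
  · rw [map_mul]; exact mul_ne_zero hu hu'
  · rw [map_mul, map_add, map_mul, map_mul, ← h, ← h']
    ring

theorem IsGaussInt.mul {x y : LaurentSeries L} (hx : IsGaussInt A F x) (hy : IsGaussInt A F y) :
    IsGaussInt A F (x * y) := by
  obtain ⟨u, g, huF, hu, h⟩ := hx
  obtain ⟨u', g', huF', hu', h'⟩ := hy
  refine ⟨u * u', g * g', ?_, ?_, ?_⟩
  · rw [map_mul]; exact mul_mem huF huF'
  · rw [map_mul]; exact mul_ne_zero hu hu'
  · rw [map_mul, map_mul, ← h, ← h']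
    ring

theorem IsGaussInt.neg {x : LaurentSeries L} (hx : IsGaussInt A F x) : IsGaussInt A F (-x) := by
  obtain ⟨u, g, huF, hu, h⟩ := hx
  exact ⟨u, -g, huF, hu, by rw [map_neg, ← h, mul_neg]⟩

/-- **(G5)** The Gauss valuation ring of `F`. -/
def gaussW (hD : GaussData A F Fk J b) : ValuationSubring F where
  carrier := {x | IsGaussInt A F (x : LaurentSeries L)}
  mul_mem' := fun hx hy => IsGaussInt.mul hx hy
  one_mem' := by
    have h := isGaussInt_iota (A := A) (F := F) 1
    rwa [map_one] at h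
  add_mem' := fun hx hy => IsGaussInt.add hx hy
  zero_mem' := by
    have h := isGaussInt_iota (A := A) (F := F) 0
    rwa [map_zero] at h
  neg_mem' := fun hx => IsGaussInt.neg hx
  mem_or_inv_mem' := by
    intro x
    by_cases hx0 : x = 0
    · left
      rw [hx0]
      have h := isGaussInt_iota (A := A) (F := F) 0
      rwa [map_zero] at h
    have hx0' : (x : LaurentSeries L) ≠ 0 := fun h => hx0 (Subtype.ext h)
    obtain ⟨c, P, u, hc, hPF, huF, hPred, hured, -, -, h⟩ :=
      hD.exists_structure (x : LaurentSeries L) x.2 hx0'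
    by_cases hcA : c ∈ A
    · left
      refine ⟨P, HahnSeries.C (⟨c, hcA⟩ : A) * u, hPF, hPred, ?_⟩
      rw [h, map_mul, coeffMap_C]
      rfl
    · right
      have hinv : c⁻¹ ∈ A := (A.mem_or_inv_mem c).resolve_left hcA
      refine ⟨u, HahnSeries.C (⟨c⁻¹, hinv⟩ : A) * P, huF, hured, ?_⟩
      rw [map_mul, coeffMap_C]
      show iotaA A u * (x : LaurentSeries L)⁻¹ = HahnSeries.C c⁻¹ * iotaA A P
      have hC : (HahnSeries.C c : LaurentSeries L) ≠ 0 := by
        intro h0
        exact hc (HahnSeries.C_injective (by rw [h0, map_zero]))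
      have e1 : iotaA A u = (HahnSeries.C c : LaurentSeries L)⁻¹ * (iotaA A P * x) := by
        rw [h, ← mul_assoc, inv_mul_cancel₀ hC, one_mul]
      rw [e1, map_inv₀, mul_assoc, mul_assoc, mul_inv_cancel₀ hx0', mul_one]

theorem mem_gaussW_iff (hD : GaussData A F Fk J b) (x : F) :
    x ∈ gaussW hD ↔ IsGaussInt A F (x : LaurentSeries L) := Iff.rfl

variable (A) in
open Classical in
/-- The reduction of a Gauss-integral series (junk value `0` otherwise). -/
def rhoL (x : LaurentSeries L) : LaurentSeries (IsLocalRing.ResidueField A) :=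
  if h : ∃ u g : LaurentSeries A, redA A u ≠ 0 ∧ iotaA A u * x = iotaA A g then
    redA A h.choose_spec.choose / redA A h.choose else 0

theorem rhoL_eq (x : LaurentSeries L) (u g : LaurentSeries A) (hu : redA A u ≠ 0)
    (h : iotaA A u * x = iotaA A g) : rhoL A x = redA A g / redA A u := by
  have hex : ∃ u g : LaurentSeries A, redA A u ≠ 0 ∧ iotaA A u * x = iotaA A g := ⟨u, g, hu, h⟩
  rw [rhoL, dif_pos hex]
  have hu₀ := hex.choose_spec.choose_spec.1
  have h₀ := hex.choose_spec.choose_spec.2
  rw [div_eq_div_iff hu₀ hu, ← map_mul, ← map_mul]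
  congr 1
  apply iotaA_injective A
  rw [map_mul, map_mul, ← h₀, ← h]
  ring

theorem rhoL_mem (hD : GaussData A F Fk J b) (x : LaurentSeries L) (hx : x ∈ F)
    (hint : IsGaussInt A F x) : rhoL A x ∈ Fk := by
  obtain ⟨u, g, huF, hu, h⟩ := hint
  rw [rhoL_eq x u g hu h]
  have hgF : iotaA A g ∈ F := by rw [← h]; exact mul_mem huF hx
  exact div_mem (hD.red_mem g hgF) (hD.red_mem u huF)

/-- **(G5)** The reduction homomorphism of the Gauss valuation ring. -/
def gaussRho (hD : GaussData A F Fk J b) : gaussW hD →+* Fk where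
  toFun x := ⟨rhoL A ((x : F) : LaurentSeries L), rhoL_mem hD _ (x : F).2 x.2⟩
  map_one' := by
    apply Subtype.ext
    show rhoL A (1 : LaurentSeries L) = 1
    rw [rhoL_eq (1 : LaurentSeries L) 1 1 (by rw [map_one]; exact one_ne_zero) (by simp),
      map_one, div_one]
  map_mul' x y := by
    apply Subtype.ext
    obtain ⟨u, g, -, hu, h⟩ := x.2
    obtain ⟨u', g', -, hu', h'⟩ := y.2
    show rhoL A (((x : F) : LaurentSeries L) * ((y : F) : LaurentSeries L)) =
      rhoL A ((x : F) : LaurentSeries L) * rhoL A ((y : F) : LaurentSeries L)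
    rw [rhoL_eq _ u g hu h, rhoL_eq _ u' g' hu' h',
      rhoL_eq _ (u * u') (g * g') (by rw [map_mul]; exact mul_ne_zero hu hu')
        (by rw [map_mul, map_mul, ← h, ← h']; ring), map_mul, map_mul]
    field_simp
  map_zero' := by
    apply Subtype.ext
    show rhoL A (0 : LaurentSeries L) = 0
    rw [rhoL_eq (0 : LaurentSeries L) 1 0 (by rw [map_one]; exact one_ne_zero) (by simp),
      map_zero, zero_div]
  map_add' x y := by
    apply Subtype.ext
    obtain ⟨u, g, -, hu, h⟩ := x.2
    obtain ⟨u', g', -, hu', h'⟩ := y.2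
    show rhoL A (((x : F) : LaurentSeries L) + ((y : F) : LaurentSeries L)) =
      rhoL A ((x : F) : LaurentSeries L) + rhoL A ((y : F) : LaurentSeries L)
    rw [rhoL_eq _ u g hu h, rhoL_eq _ u' g' hu' h',
      rhoL_eq _ (u * u') (g * u' + g' * u) (by rw [map_mul]; exact mul_ne_zero hu hu')
        (by rw [map_mul, map_add, map_mul, map_mul, ← h, ← h']; ring), map_mul, map_add,
      map_mul, map_mul]
    field_simp

theorem coe_gaussRho (hD : GaussData A F Fk J b) (x : gaussW hD) :
    ((gaussRho hD x : Fk) : LaurentSeries (IsLocalRing.ResidueField A)) =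
      rhoL A ((x : F) : LaurentSeries L) := rfl

/-- Computing the reduction from any presentation `u * x = g`. -/
theorem coe_gaussRho_eq (hD : GaussData A F Fk J b) (x : gaussW hD) (u g : LaurentSeries A)
    (hu : redA A u ≠ 0) (h : iotaA A u * ((x : F) : LaurentSeries L) = iotaA A g) :
    ((gaussRho hD x : Fk) : LaurentSeries (IsLocalRing.ResidueField A)) =
      redA A g / redA A u := by
  rw [coe_gaussRho, rhoL_eq _ u g hu h]

/-- Integral series of `F` lie in the Gauss ring ... -/
theorem iota_mem_gaussW (hD : GaussData A F Fk J b) (y : LaurentSeries A)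
    (hy : iotaA A y ∈ F) : (⟨iotaA A y, hy⟩ : F) ∈ gaussW hD :=
  isGaussInt_iota y

/-- ... and their Gauss reduction is the coefficientwise reduction. -/
theorem gaussRho_iota (hD : GaussData A F Fk J b) (y : LaurentSeries A)
    (hy : iotaA A y ∈ F) :
    gaussRho hD ⟨⟨iotaA A y, hy⟩, iota_mem_gaussW hD y hy⟩ = ⟨redA A y, hD.red_mem y hy⟩ := by
  apply Subtype.ext
  rw [coe_gaussRho_eq hD _ 1 y (by rw [map_one]; exact one_ne_zero)
    (by rw [map_one, one_mul]), map_one, div_one]

/-- An element of the Gauss ring with nonzero reduction is a unit. -/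
theorem inv_mem_gaussW_of_rho_ne_zero (hD : GaussData A F Fk J b) (x : gaussW hD)
    (hx : gaussRho hD x ≠ 0) : (x : F)⁻¹ ∈ gaussW hD := by
  obtain ⟨u, g, huF, hu, h⟩ := x.2
  have hg : redA A g ≠ 0 := by
    intro hg
    apply hx
    apply Subtype.ext
    rw [coe_gaussRho_eq hD x u g hu h, hg, zero_div]
    rfl
  have hx0 : ((x : F) : LaurentSeries L) ≠ 0 := by
    intro h0
    rw [h0, mul_zero] at h
    apply hg
    rw [iotaA_injective A (h.symm.trans (map_zero _).symm), map_zero]
  refine ⟨g, u, ?_, hg, ?_⟩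
  · rw [← h]; exact mul_mem huF (x : F).2
  · show iotaA A g * ((x : F) : LaurentSeries L)⁻¹ = iotaA A u
    rw [← h, mul_assoc, mul_inv_cancel₀ hx0, mul_one]

/-- The kernel of the Gauss reduction is `𝔪_A • gaussW`. -/
theorem gaussRho_eq_zero_iff (hD : GaussData A F Fk J b) (x : gaussW hD) :
    gaussRho hD x = 0 ↔ ∃ (a : A) (x' : gaussW hD), IsLocalRing.residue A a = 0 ∧
      ((x : F) : LaurentSeries L) = HahnSeries.C (a : L) * ((x' : F) : LaurentSeries L) := by
  constructor
  · intro hx
    obtain ⟨u, g, huF, hu, h⟩ := x.2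
    have hρ := coe_gaussRho_eq hD x u g hu h
    rw [hx] at hρ
    have hg : redA A g = 0 := by
      have h1 : redA A g / redA A u = 0 := hρ.symm
      rcases div_eq_zero_iff.mp h1 with h2 | h2
      · exact h2
      · exact absurd h2 hu
    have hgF : iotaA A g ∈ F := by rw [← h]; exact mul_mem huF (x : F).2
    have hιu : iotaA A u ≠ 0 := by
      intro h0
      apply hu
      rw [iotaA_injective A (h0.trans (map_zero _).symm), map_zero]
    by_cases hg0 : g = 0
    · refine ⟨0, 0, map_zero _, ?_⟩
      rw [hg0, map_zero] at h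
      rcases mul_eq_zero.mp h with h1 | h1
      · exact absurd h1 hιu
      · rw [h1]; simp
    obtain ⟨a, g', ha, hg'⟩ := hD.exists_dvd_of_red_eq_zero g hgF hg
    have ha0 : (a : L) ≠ 0 := by
      intro h0
      apply hg0
      have : a = 0 := Subtype.ext h0
      rw [hg', this, map_zero, zero_mul]
    have hCa : (HahnSeries.C (a : L) : LaurentSeries L) ≠ 0 := by
      intro h0
      exact ha0 (HahnSeries.C_injective (by rw [h0, map_zero]))
    have hιg : iotaA A g = HahnSeries.C (a : L) * iotaA A g' := by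
      rw [hg', map_mul, coeffMap_C]
      rfl
    have hg'F : iotaA A g' ∈ F := by
      have : iotaA A g' = (HahnSeries.C (a : L) : LaurentSeries L)⁻¹ * iotaA A g := by
        rw [hιg, ← mul_assoc, inv_mul_cancel₀ hCa, one_mul]
      rw [this]
      refine mul_mem (inv_mem ?_) hgF
      rw [C_eq_algebraMap]
      exact F.algebraMap_mem _
    have hx'F : (iotaA A u)⁻¹ * iotaA A g' ∈ F := mul_mem (inv_mem huF) hg'F
    have hx'W : (⟨(iotaA A u)⁻¹ * iotaA A g', hx'F⟩ : F) ∈ gaussW hD :=
      ⟨u, g', huF, hu, by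
        show iotaA A u * ((iotaA A u)⁻¹ * iotaA A g') = iotaA A g'
        rw [← mul_assoc, mul_inv_cancel₀ hιu, one_mul]⟩
    refine ⟨a, ⟨⟨(iotaA A u)⁻¹ * iotaA A g', hx'F⟩, hx'W⟩, ha, ?_⟩
    show ((x : F) : LaurentSeries L) = HahnSeries.C (a : L) * ((iotaA A u)⁻¹ * iotaA A g')
    have e1 : ((x : F) : LaurentSeries L) = (iotaA A u)⁻¹ * iotaA A g := by
      rw [← h, ← mul_assoc, inv_mul_cancel₀ hιu, one_mul]
    rw [e1, hιg]
    ring
  · rintro ⟨a, x', ha, hxa⟩
    obtain ⟨u, g, huF, hu, h⟩ := x'.2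
    apply Subtype.ext
    rw [coe_gaussRho_eq hD x u (HahnSeries.C a * g) hu
      (by rw [hxa, map_mul, coeffMap_C, ← h]; show _ = HahnSeries.C (a : L) * _; ring),
      map_mul, coeffMap_C, ha, map_zero, zero_mul, zero_div]
    rfl

/-- Every nonzero element of `F` is a nonzero constant times a unit of the Gauss ring. -/
theorem exists_const_mul_unit (hD : GaussData A F Fk J b) (x : F) (hx : x ≠ 0) :
    ∃ (c : L) (w : gaussW hD), c ≠ 0 ∧ gaussRho hD w ≠ 0 ∧
      (x : LaurentSeries L) = HahnSeries.C c * ((w : F) : LaurentSeries L) := by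
  have hx0' : (x : LaurentSeries L) ≠ 0 := fun h => hx (Subtype.ext h)
  obtain ⟨c, P, u, hc, hPF, huF, hPred, hured, -, -, h⟩ :=
    hD.exists_structure (x : LaurentSeries L) x.2 hx0'
  have hιP : iotaA A P ≠ 0 := by
    intro h0
    apply hPred
    rw [iotaA_injective A (h0.trans (map_zero _).symm), map_zero]
  have hwF : (iotaA A P)⁻¹ * iotaA A u ∈ F := mul_mem (inv_mem hPF) huF
  have hPw : iotaA A P * ((iotaA A P)⁻¹ * iotaA A u) = iotaA A u := by
    rw [← mul_assoc, mul_inv_cancel₀ hιP, one_mul]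
  have hwW : (⟨(iotaA A P)⁻¹ * iotaA A u, hwF⟩ : F) ∈ gaussW hD := ⟨P, u, hPF, hPred, hPw⟩
  refine ⟨c, ⟨⟨(iotaA A P)⁻¹ * iotaA A u, hwF⟩, hwW⟩, hc, ?_, ?_⟩
  · intro h0
    have h1 := coe_gaussRho_eq hD ⟨⟨(iotaA A P)⁻¹ * iotaA A u, hwF⟩, hwW⟩ P u hPred hPw
    rw [h0] at h1
    have h2 : redA A u / redA A P = 0 := h1.symm
    rcases div_eq_zero_iff.mp h2 with h3 | h3
    · exact hured h3
    · exact hPred h3
  · show (x : LaurentSeries L) = HahnSeries.C c * ((iotaA A P)⁻¹ * iotaA A u)
    rw [mul_left_comm, ← h, ← mul_assoc, inv_mul_cancel₀ hιP, one_mul]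

/-- The Gauss reduction is onto as soon as `Fk` is generated by reductions of integral
series of `F`. -/
theorem gaussRho_surjective (hD : GaussData A F Fk J b)
    (S : Set (LaurentSeries (IsLocalRing.ResidueField A)))
    (hS : ∀ z ∈ S, ∃ y : LaurentSeries A, iotaA A y ∈ F ∧ redA A y = z)
    (hgen : Fk ≤ IntermediateField.adjoin (IsLocalRing.ResidueField A) S) :
    Function.Surjective (gaussRho hD) := by
  have key : ∀ z ∈ IntermediateField.adjoin (IsLocalRing.ResidueField A) S,
      ∃ x : gaussW hD, ((gaussRho hD x : Fk) :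
        LaurentSeries (IsLocalRing.ResidueField A)) = z := by
    intro z hz
    induction hz using IntermediateField.adjoin_induction with
    | mem z hz =>
      obtain ⟨y, hyF, rfl⟩ := hS z hz
      exact ⟨⟨⟨iotaA A y, hyF⟩, iota_mem_gaussW hD y hyF⟩, by rw [gaussRho_iota]⟩
    | algebraMap c =>
      obtain ⟨c', rfl⟩ := IsLocalRing.residue_surjective c
      have hF : iotaA A (HahnSeries.C c') ∈ F := by
        rw [coeffMap_C, C_eq_algebraMap]
        exact F.algebraMap_mem _
      refine ⟨⟨⟨iotaA A (HahnSeries.C c'), hF⟩, iota_mem_gaussW hD _ hF⟩, ?_⟩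
      rw [gaussRho_iota]
      show redA A (HahnSeries.C c') = _
      rw [coeffMap_C, C_eq_algebraMap]
    | add z z' _ _ hz hz' =>
      obtain ⟨x, rfl⟩ := hz
      obtain ⟨x', rfl⟩ := hz'
      exact ⟨x + x', by rw [map_add]; rfl⟩
    | inv z _ hz =>
      obtain ⟨x, rfl⟩ := hz
      by_cases hx : gaussRho hD x = 0
      · exact ⟨0, by rw [hx, map_zero]; simp⟩
      · refine ⟨⟨(x : F)⁻¹, inv_mem_gaussW_of_rho_ne_zero hD x hx⟩, ?_⟩
        have h1 : gaussRho hD x * gaussRho hD ⟨(x : F)⁻¹, inv_mem_gaussW_of_rho_ne_zero hD x hx⟩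
            = 1 := by
          rw [← map_mul, ← map_one (gaussRho hD)]
          congr 1
          apply Subtype.ext
          show (x : F) * (x : F)⁻¹ = 1
          refine mul_inv_cancel₀ fun h0 => hx ?_
          have : x = 0 := Subtype.ext h0
          rw [this, map_zero]
        have h2 := eq_inv_of_mul_eq_one_right h1
        rw [h2]
        rfl
    | mul z z' _ _ hz hz' =>
      obtain ⟨x, rfl⟩ := hz
      obtain ⟨x', rfl⟩ := hz'
      exact ⟨x * x', by rw [map_mul]; rfl⟩
  intro z
  obtain ⟨x, hx⟩ := key (z : LaurentSeries (IsLocalRing.ResidueField A)) (hgen z.2)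
  exact ⟨x, Subtype.ext hx⟩

end Structure

end Fermat.Agent.S18.H93
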