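import Mathlib
import Fermat.Agent.S18.HauptId_helper69
import Fermat.Agent.S18.GaussA_helper93
import Fermat.Agent.S28.Monomials_helper72

/-!
S18 (helper36): closed coordinate facts for the six chart coordinates
`j, 1/j, t₂, 1/t₂, t₃, 1/t₃` over an arbitrary field: transcendence (over `K0` and over the
residue field `k0`, in `Transcendental` form and in the `evC` form of `H93.gauss_chart`), and
`j ∈ K(ξ)` in any subfield of `K((q))`.  Inputs of the chart-generic arrow (T4)/(T5).
-/

set_option autoImplicit false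

noncomputable section

namespace Fermat.Agent.S18.H36.Coord

open Polynomial ModularCurve Fermat.Agent.S18.H69

section Generic

variable {k E : Type*} [Field k] [Field E] [Algebra k E]

/-- `j ∈ k(t)` from a relation `j * Q(t) = P(t)`, `Q(t) ≠ 0`. -/
theorem mem_adjoin_of_rel (t j : E) (P Q : k[X]) (hQ : aeval t Q ≠ 0)
    (h : j * aeval t Q = aeval t P) : j ∈ IntermediateField.adjoin k {t} := by
  rw [IntermediateField.mem_adjoin_simple_iff]
  exact ⟨P, Q, by rw [← h, mul_div_assoc, div_self hQ, mul_one]⟩

/-- transcendence of `t` from a relation `j * Q(t) = P(t)`, `Q(t) ≠ 0`, `j` transcendental. -/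
theorem transcendental_of_rel (t j : E) (P Q : k[X]) (hQ : aeval t Q ≠ 0)
    (h : j * aeval t Q = aeval t P) (hj : Transcendental k j) : Transcendental k t := by
  intro ht
  apply hj
  have hmem := mem_adjoin_of_rel t j P Q hQ h
  have : Algebra.IsAlgebraic k ↥(IntermediateField.adjoin k {t}) :=
    IntermediateField.isAlgebraic_adjoin_simple ht.isIntegral
  have h1 : IsAlgebraic k (⟨j, hmem⟩ : ↥(IntermediateField.adjoin k {t})) :=
    Algebra.IsAlgebraic.isAlgebraic _
  exact (h1.algebraMap : IsAlgebraic k (algebraMap ↥(IntermediateField.adjoin k {t}) E ⟨j, hmem⟩))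

/-- the inverse of a transcendental element is transcendental. -/
theorem transcendental_of_mul_eq_one {x x' : E} (h : x * x' = 1) (hx : Transcendental k x) :
    Transcendental k x' := by
  intro hx'
  apply hx
  have : x = x'⁻¹ := eq_inv_of_mul_eq_one_left h
  rw [this]
  exact hx'.inv

/-- `x ∈ k(x')` when `x * x' = 1`. -/
theorem mem_adjoin_of_mul_eq_one {x x' : E} (h : x * x' = 1) :
    x ∈ IntermediateField.adjoin k {x'} := by
  have : x = x'⁻¹ := eq_inv_of_mul_eq_one_left h
  rw [this]
  exact inv_mem (IntermediateField.mem_adjoin_simple_self k x')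

/-- `k(x) ≤ k(x')` when `x * x' = 1`. -/
theorem adjoin_le_of_mul_eq_one {x x' : E} (h : x * x' = 1) :
    IntermediateField.adjoin k {x} ≤ IntermediateField.adjoin k {x'} :=
  IntermediateField.adjoin_simple_le_iff.mpr (mem_adjoin_of_mul_eq_one h)

end Generic

section Series

variable (k : Type*) [Field k]

/-- `j` is transcendental over every field. -/
theorem transcendental_jq : Transcendental k (jqModC k) := by
  rintro ⟨p, hp, h⟩
  exact Fermat.Agent.S28.H72.aeval_jqModC_ne_zero k hp h

/-- any inverse of `j` is transcendental. -/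
theorem transcendental_of_jq_mul_eq_one {x' : LaurentSeries k} (h : jqModC k * x' = 1) :
    Transcendental k x' :=
  transcendental_of_mul_eq_one h (transcendental_jq k)

/-- `t₂` is transcendental over every field. -/
theorem transcendental_haupt2 : Transcendental k (haupt2 k) := by
  have h0 : haupt2 k ≠ 0 := haupt2_ne_zero k
  refine transcendental_of_rel (haupt2 k) (jqModC k) ((X + C 256) ^ 3) (X ^ 2) ?_ ?_
    (transcendental_jq k)
  · rw [map_pow, aeval_X]
    exact pow_ne_zero _ h0
  · rw [map_pow, aeval_X, map_pow, map_add, aeval_X, aeval_C, map_ofNat]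
    exact haupt2_rel k

/-- `1/t₂` is transcendental over every field. -/
theorem transcendental_haupt2Inv : Transcendental k (haupt2Inv k) :=
  transcendental_of_mul_eq_one (haupt2_mul_inv k) (transcendental_haupt2 k)

/-- `t₃` is transcendental over every field. -/
theorem transcendental_haupt3 : Transcendental k (haupt3 k) := by
  have h0 : haupt3 k ≠ 0 := haupt3_ne_zero k
  refine transcendental_of_rel (haupt3 k) (jqModC k) ((X + C 27) * (X + C 243) ^ 3) (X ^ 3) ?_ ?_
    (transcendental_jq k)
  · rw [map_pow, aeval_X]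
    exact pow_ne_zero _ h0
  · rw [map_pow, aeval_X, map_mul, map_pow, map_add, map_add, aeval_X, aeval_C, aeval_C,
      map_ofNat, map_ofNat]
    exact haupt3_rel k

/-- `1/t₃` is transcendental over every field. -/
theorem transcendental_haupt3Inv : Transcendental k (haupt3Inv k) :=
  transcendental_of_mul_eq_one (haupt3_mul_inv k) (transcendental_haupt3 k)

variable {k}

/-- transcendence in the `evC` form of `H93.gauss_chart` (`hxtr`). -/
theorem evC_eq_zero_of_transcendental {x : LaurentSeries k} (hx : Transcendental k x)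
    (P : Polynomial k) (h : Fermat.Agent.S18.H93.evC P x = 0) : P = 0 := by
  by_contra hP
  exact hx ⟨P, hP, by rw [← Fermat.Agent.S18.H93.evC_eq_aeval]; exact h⟩

end Series

section InField

variable {K : Type*} [Field K] (F : IntermediateField K (LaurentSeries K))

set_option synthInstance.maxHeartbeats 400000 in
/-- `j ∈ K(t₂)` inside any subfield `F` of `K((q))` containing both. -/
theorem j_mem_adjoin_haupt2 (j t : ↥F) (hj : (j : LaurentSeries K) = jqModC K)
    (ht : (t : LaurentSeries K) = haupt2 K) : j ∈ IntermediateField.adjoin K {t} := by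
  have ht0 : t ≠ 0 := by
    intro h
    apply haupt2_ne_zero K
    rw [← ht, h]; rfl
  have hrel : j * t ^ 2 = (t + 256) ^ 3 := Subtype.ext (by
    push_cast
    rw [hj, ht]
    exact haupt2_rel K)
  refine mem_adjoin_of_rel t j ((X + C 256) ^ 3) (X ^ 2) ?_ ?_
  · rw [map_pow, aeval_X]
    exact pow_ne_zero _ ht0
  · rw [map_pow, aeval_X, map_pow, map_add, aeval_X, aeval_C, map_ofNat]
    exact hrel

set_option synthInstance.maxHeartbeats 400000 in
/-- `j ∈ K(t₃)` inside any subfield `F` of `K((q))` containing both. -/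
theorem j_mem_adjoin_haupt3 (j t : ↥F) (hj : (j : LaurentSeries K) = jqModC K)
    (ht : (t : LaurentSeries K) = haupt3 K) : j ∈ IntermediateField.adjoin K {t} := by
  have ht0 : t ≠ 0 := by
    intro h
    apply haupt3_ne_zero K
    rw [← ht, h]; rfl
  have hrel : j * t ^ 3 = (t + 27) * (t + 243) ^ 3 := Subtype.ext (by
    push_cast
    rw [hj, ht]
    exact haupt3_rel K)
  refine mem_adjoin_of_rel t j ((X + C 27) * (X + C 243) ^ 3) (X ^ 3) ?_ ?_
  · rw [map_pow, aeval_X]
    exact pow_ne_zero _ ht0
  · rw [map_pow, aeval_X, map_mul, map_pow, map_add, map_add, aeval_X, aeval_C, aeval_C,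
      map_ofNat, map_ofNat]
    exact hrel

/-- `j ∈ K(t')` for any inverse `t'` of a coordinate `t` with `j ∈ K(t)`. -/
theorem j_mem_adjoin_of_mul_eq_one (j t t' : ↥F) (h : t * t' = 1)
    (hjt : j ∈ IntermediateField.adjoin K {t}) : j ∈ IntermediateField.adjoin K {t'} :=
  adjoin_le_of_mul_eq_one h hjt

/-- `j ∈ K(1/t₂)`. -/
theorem j_mem_adjoin_haupt2Inv (j t' : ↥F) (hj : (j : LaurentSeries K) = jqModC K)
    (ht' : (t' : LaurentSeries K) = haupt2Inv K) : j ∈ IntermediateField.adjoin K {t'} := by
  have ht'0 : t' ≠ 0 := by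
    intro h
    have h1 := haupt2_mul_inv K
    rw [← ht', h] at h1
    exact zero_ne_one (by rw [← h1]; simp)
  have hcoe : ((t'⁻¹ : ↥F) : LaurentSeries K) = haupt2 K := by
    rw [IntermediateField.coe_inv, ht', eq_inv_of_mul_eq_one_right (haupt2_mul_inv K), inv_inv]
  exact j_mem_adjoin_of_mul_eq_one F j t'⁻¹ t' (inv_mul_cancel₀ ht'0)
    (j_mem_adjoin_haupt2 F j t'⁻¹ hj hcoe)

/-- `j ∈ K(1/t₃)`. -/
theorem j_mem_adjoin_haupt3Inv (j t' : ↥F) (hj : (j : LaurentSeries K) = jqModC K)
    (ht' : (t' : LaurentSeries K) = haupt3Inv K) : j ∈ IntermediateField.adjoin K {t'} := by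
  have ht'0 : t' ≠ 0 := by
    intro h
    have h1 := haupt3_mul_inv K
    rw [← ht', h] at h1
    exact zero_ne_one (by rw [← h1]; simp)
  have hcoe : ((t'⁻¹ : ↥F) : LaurentSeries K) = haupt3 K := by
    rw [IntermediateField.coe_inv, ht', eq_inv_of_mul_eq_one_right (haupt3_mul_inv K), inv_inv]
  exact j_mem_adjoin_of_mul_eq_one F j t'⁻¹ t' (inv_mul_cancel₀ ht'0)
    (j_mem_adjoin_haupt3 F j t'⁻¹ hj hcoe)

/-- `j ∈ K(1/j)`: for any `t'` with `j * t' = 1`. -/
theorem j_mem_adjoin_jInv (j t' : ↥F) (h : j * t' = 1) :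
    j ∈ IntermediateField.adjoin K {t'} :=
  mem_adjoin_of_mul_eq_one h

end InField

end Fermat.Agent.S18.H36.Coord
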