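import Mathlib
import Fermat.Prelude.Def_ModularCurve_ArithmeticGalois
import Fermat.Prelude.Def_ModularCurve_X0ModL
import Fermat.Prelude.Thm_ModularCurve_coeffMap_qExpand

/-!
# S18, node DESC (D2): field of definition and descent of integral series (helper92)

Notation: `Qb := AlgebraicClosure ℚ`, `A : ValuationSubring Qb`, `K0 : IntermediateField ℚ Qb`,
`A0 := A.comap (algebraMap K0 Qb)` (`= A ∩ K0`), `F0 := modularFunctionFieldFullC K0 N`
(inside `LaurentSeries K0`), `Fbar := modularFunctionFieldBar N` (inside `LaurentSeries Qb`).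
The comparison map is `coeffMap (algebraMap K0 Qb)`.

* `coeffMap_mem_fullC`: a field hom `φ : K →+* L` maps `modularFunctionFieldFullC K N` into
  `modularFunctionFieldFullC L N`.
* `bar_eq_fullC`: `modularFunctionFieldBar N = modularFunctionFieldFullC Qb N`.
* `barHom K0 N : F0 →+* Fbar`, injective, compatible with constants; `adjoin_range_barHom`
  (`Fbar = Qb · F0`).
* `exists_model`, `exists_model_family`: every (finite family of) element(s) of `Fbar` comes
  from `F0` for a finite `K0`, which may be taken to contain any given finite `K1`.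
* `exists_series_descent`: an `A`-integral series whose image over `Qb` comes from
  `LaurentSeries K0` comes from `LaurentSeries A0`.
* `residue_descent_eq`, `residue_descent_ne`: reductions mod the maximal ideals correspond.
* `exists_integral_model`: the package for finite families of integral series.
-/

set_option autoImplicit false

noncomputable section

namespace Fermat.Agent.S18.H92

open ModularCurve

/-! ### Generic coefficient lemmas -/

section Generic

theorem coeffMap_inj {R S : Type*} [CommRing R] [CommRing S] (f : R →+* S)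
    (hf : Function.Injective f) : Function.Injective (coeffMap f) := by
  intro x y h
  ext k
  have hk := congrArg (fun z : LaurentSeries S => z.coeff k) h
  simp only [coeffMap_coeff] at hk
  exact hf hk

theorem coeffMap_algebraMap_field {K L : Type*} [Field K] [Field L] (φ : K →+* L) (c : K) :
    coeffMap φ (algebraMap K (LaurentSeries K) c) = algebraMap L (LaurentSeries L) (φ c) := by
  rw [algebraMap_laurentSeries_eq_single, algebraMap_laurentSeries_eq_single, coeffMap_single]

/-- A Laurent series all of whose coefficients lie in the range of an injective ring hom is in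
the range of `coeffMap`. -/
theorem exists_coeffMap_eq {R S : Type*} [CommRing R] [CommRing S] (f : R →+* S)
    (y : LaurentSeries S) (hy : ∀ k, y.coeff k ∈ Set.range f) :
    ∃ x : LaurentSeries R, coeffMap f x = y := by
  classical
  let c : ℤ → R := fun k => if y.coeff k = 0 then 0 else (hy k).choose
  have hc : ∀ k, f (c k) = y.coeff k := by
    intro k
    by_cases h : y.coeff k = 0
    · simp [c, h]
    · simp only [c, if_neg h]
      exact (hy k).choose_spec
  have hsupp : Function.support c ⊆ y.support := by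
    intro k hk
    rw [Function.mem_support] at hk
    rw [HahnSeries.mem_support]
    intro h
    exact hk (by simp [c, h])
  refine ⟨HahnSeries.mk c (y.isPWO_support.mono hsupp), ?_⟩
  ext k
  rw [coeffMap_coeff]
  exact hc k

end Generic

/-! ### Base change of the coefficient field -/

section BaseChange

variable {K L : Type*} [Field K] [Field L]

/-- A field hom maps the level-`N` field over `K` into the level-`N` field over `L`. -/
theorem coeffMap_mem_fullC (φ : K →+* L) (N : ℕ) {y : LaurentSeries K}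
    (hy : y ∈ modularFunctionFieldFullC K N) :
    coeffMap φ y ∈ modularFunctionFieldFullC L N := by
  unfold modularFunctionFieldFullC at hy
  induction hy using IntermediateField.adjoin_induction with
  | mem x hx =>
    obtain ⟨d, hd0, hd, rfl⟩ := hx
    rw [ModularCurve.coeffMap_qExpand, coeffMap_jqModC]
    exact jqModCd_mem_full L N hd
  | algebraMap c =>
    rw [coeffMap_algebraMap_field]
    exact IntermediateField.algebraMap_mem _ _
  | add _ _ _ _ hx hy => rw [map_add]; exact add_mem hx hy
  | inv _ _ hx => rw [map_inv₀]; exact inv_mem hx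
  | mul _ _ _ _ hx hy => rw [map_mul]; exact mul_mem hx hy

end BaseChange

/-- The Prelude field `modularFunctionFieldBar N` is the level-`N` field over `Qbar`. -/
theorem bar_eq_fullC (N : ℕ) :
    modularFunctionFieldBar N = modularFunctionFieldFullC (AlgebraicClosure ℚ) N := by
  apply le_antisymm
  · unfold modularFunctionFieldBar laurentBaseChange
    rw [IntermediateField.adjoin_le_iff]
    rintro _ ⟨x, hx, rfl⟩
    exact coeffMap_mem_fullC (algebraMap ℚ (AlgebraicClosure ℚ)) N
      (by rw [modularFunctionFieldFullC_rat]; exact hx)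
  · unfold modularFunctionFieldFullC
    rw [IntermediateField.adjoin_le_iff]
    rintro _ ⟨d, hd0, hd, rfl⟩
    refine IntermediateField.subset_adjoin _ _ ⟨qExpand ℚ d (jqModC ℚ), ?_, ?_⟩
    · exact jqModCd_mem_full ℚ N hd
    · show coeffMap (algebraMap ℚ (AlgebraicClosure ℚ)) (qExpand ℚ d (jqModC ℚ)) = _
      rw [ModularCurve.coeffMap_qExpand, coeffMap_jqModC]


/-! ### The comparison map `F0 → Fbar` -/

section Comparison

local notation "Qb" => AlgebraicClosure ℚ

variable (K0 : IntermediateField ℚ Qb) (N : ℕ)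

theorem coeffMap_mem_bar {y : LaurentSeries K0} (hy : y ∈ modularFunctionFieldFullC K0 N) :
    coeffMap (algebraMap K0 Qb) y ∈ modularFunctionFieldBar N := by
  rw [bar_eq_fullC]
  exact coeffMap_mem_fullC _ N hy

/-- The comparison map from the level-`N` field over `K0` to the Prelude field over `Qbar`. -/
def barHom : ↥(modularFunctionFieldFullC (↥K0) N) →+* ↥(modularFunctionFieldBar N) where
  toFun y := ⟨coeffMap (algebraMap K0 Qb) y.1, coeffMap_mem_bar K0 N y.2⟩
  map_zero' := Subtype.ext (map_zero _)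
  map_one' := Subtype.ext (map_one _)
  map_add' _ _ := Subtype.ext (map_add _ _ _)
  map_mul' _ _ := Subtype.ext (map_mul _ _ _)

@[simp]
theorem coe_barHom (y : ↥(modularFunctionFieldFullC (↥K0) N)) :
    ((barHom K0 N y : ↥(modularFunctionFieldBar N)) : LaurentSeries Qb)
      = coeffMap (algebraMap K0 Qb) y.1 := rfl

theorem barHom_injective : Function.Injective (barHom K0 N) :=
  (barHom K0 N).injective

theorem barHom_algebraMap_mk (c : K0) :
    barHom K0 N ⟨algebraMap K0 (LaurentSeries K0) c, IntermediateField.algebraMap_mem _ c⟩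
      = algebraMap Qb _ (algebraMap K0 Qb c) := by
  apply Subtype.ext
  rw [coe_barHom]
  exact coeffMap_algebraMap_field _ c

set_option synthInstance.maxHeartbeats 80000 in
theorem barHom_algebraMap (c : K0) :
    barHom K0 N (algebraMap K0 ↥(modularFunctionFieldFullC (↥K0) N) c)
      = algebraMap Qb _ (algebraMap K0 Qb c) :=
  barHom_algebraMap_mk K0 N c

/-- `Fbar = Qbar · F0` inside `LaurentSeries Qbar`. -/
theorem bar_eq_adjoin_image :
    modularFunctionFieldBar N = IntermediateField.adjoin Qb
      (⇑(coeffMap (algebraMap K0 Qb)) '' (modularFunctionFieldFullC (↥K0) N : Set (LaurentSeries K0))) := by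
  apply le_antisymm
  · rw [bar_eq_fullC]
    unfold modularFunctionFieldFullC
    rw [IntermediateField.adjoin_le_iff]
    rintro _ ⟨d, hd0, hd, rfl⟩
    refine IntermediateField.subset_adjoin _ _ ⟨qExpand K0 d (jqModC K0), ?_, ?_⟩
    · exact IntermediateField.subset_adjoin _ _ ⟨d, hd0, hd, rfl⟩
    · rw [ModularCurve.coeffMap_qExpand, coeffMap_jqModC]
  · rw [IntermediateField.adjoin_le_iff]
    rintro _ ⟨y, hy, rfl⟩
    exact coeffMap_mem_bar K0 N hy

/-- `Fbar = Qbar · F0`, inside `Fbar`. -/
theorem adjoin_range_barHom :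
    IntermediateField.adjoin Qb (Set.range (barHom K0 N)) = ⊤ := by
  have key : ∀ z : LaurentSeries Qb, z ∈ IntermediateField.adjoin Qb
      (⇑(coeffMap (algebraMap K0 Qb)) ''
        (modularFunctionFieldFullC (↥K0) N : Set (LaurentSeries K0))) →
      ∀ hz : z ∈ modularFunctionFieldBar N,
        (⟨z, hz⟩ : ↥(modularFunctionFieldBar N)) ∈
          IntermediateField.adjoin Qb (Set.range (barHom K0 N)) := by
    intro z hz
    induction hz using IntermediateField.adjoin_induction with
    | mem x hx =>
      intro hz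
      obtain ⟨y0, hy0, rfl⟩ := hx
      exact IntermediateField.subset_adjoin _ _ ⟨⟨y0, hy0⟩, Subtype.ext rfl⟩
    | algebraMap c =>
      intro hz
      exact IntermediateField.algebraMap_mem _ c
    | add x y hx hy ihx ihy =>
      intro hz
      have hx' : x ∈ modularFunctionFieldBar N := by rw [bar_eq_adjoin_image K0 N]; exact hx
      have hy' : y ∈ modularFunctionFieldBar N := by rw [bar_eq_adjoin_image K0 N]; exact hy
      have e : (⟨x + y, hz⟩ : ↥(modularFunctionFieldBar N)) = ⟨x, hx'⟩ + ⟨y, hy'⟩ := rfl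
      rw [e]
      exact add_mem (ihx hx') (ihy hy')
    | inv x hx ihx =>
      intro hz
      have hx' : x ∈ modularFunctionFieldBar N := by rw [bar_eq_adjoin_image K0 N]; exact hx
      have e : (⟨x⁻¹, hz⟩ : ↥(modularFunctionFieldBar N)) = (⟨x, hx'⟩)⁻¹ := rfl
      rw [e]
      exact inv_mem (ihx hx')
    | mul x y hx hy ihx ihy =>
      intro hz
      have hx' : x ∈ modularFunctionFieldBar N := by rw [bar_eq_adjoin_image K0 N]; exact hx
      have hy' : y ∈ modularFunctionFieldBar N := by rw [bar_eq_adjoin_image K0 N]; exact hy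
      have e : (⟨x * y, hz⟩ : ↥(modularFunctionFieldBar N)) = ⟨x, hx'⟩ * ⟨y, hy'⟩ := rfl
      rw [e]
      exact mul_mem (ihx hx') (ihy hy')
  rw [eq_top_iff]
  rintro ⟨y, hy⟩ -
  exact key y (by rw [← bar_eq_adjoin_image K0 N]; exact hy) hy

end Comparison


/-! ### Field of definition -/

section FieldOfDefinition

local notation "Qb" => AlgebraicClosure ℚ

theorem coeffMap_algebraMap_inclusion {K0 K1 : IntermediateField ℚ Qb} (h : K0 ≤ K1)
    (y : LaurentSeries K0) :
    coeffMap (algebraMap K1 Qb) (coeffMap (IntermediateField.inclusion h : K0 →+* K1) y)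
      = coeffMap (algebraMap K0 Qb) y := by
  rw [coeffMap_coeffMap]
  exact coeffMap_congr (RingHom.ext fun c => rfl) y

/-- Enlarging the field of definition. -/
theorem model_mono {K0 K1 : IntermediateField ℚ Qb} (h : K0 ≤ K1) (N : ℕ)
    {y : LaurentSeries Qb}
    (hy : ∃ y0 ∈ modularFunctionFieldFullC (↥K0) N, coeffMap (algebraMap K0 Qb) y0 = y) :
    ∃ y0 ∈ modularFunctionFieldFullC (↥K1) N, coeffMap (algebraMap K1 Qb) y0 = y := by
  obtain ⟨y0, hy0, rfl⟩ := hy
  exact ⟨coeffMap (IntermediateField.inclusion h : K0 →+* K1) y0,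
    coeffMap_mem_fullC _ N hy0, coeffMap_algebraMap_inclusion h y0⟩

/-- Every element of `Fbar` is defined over a finite extension of `ℚ`. -/
theorem exists_model_aux (N : ℕ) {y : LaurentSeries Qb} (hy : y ∈ modularFunctionFieldBar N) :
    ∃ K0 : IntermediateField ℚ Qb, FiniteDimensional ℚ K0 ∧
      ∃ y0 ∈ modularFunctionFieldFullC (↥K0) N, coeffMap (algebraMap K0 Qb) y0 = y := by
  rw [bar_eq_fullC] at hy
  unfold modularFunctionFieldFullC at hy
  induction hy using IntermediateField.adjoin_induction with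
  | mem x hx =>
    obtain ⟨d, hd0, hd, rfl⟩ := hx
    refine ⟨⊥, inferInstance, qExpand _ d (jqModC _), jqModCd_mem_full _ N hd, ?_⟩
    rw [ModularCurve.coeffMap_qExpand, coeffMap_jqModC]
  | algebraMap c =>
    have hc : IsIntegral ℚ c := ((AlgebraicClosure.isAlgebraic ℚ).isAlgebraic c).isIntegral
    refine ⟨IntermediateField.adjoin ℚ {c}, IntermediateField.adjoin.finiteDimensional hc,
      algebraMap _ _ ⟨c, IntermediateField.mem_adjoin_simple_self ℚ c⟩,
      IntermediateField.algebraMap_mem _ _, ?_⟩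
    rw [coeffMap_algebraMap_field]
    rfl
  | add _ _ _ _ ihx ihy =>
    obtain ⟨Kx, hKx, hx⟩ := ihx
    obtain ⟨Ky, hKy, hy⟩ := ihy
    obtain ⟨x0, hx0, rfl⟩ := model_mono (le_sup_left : Kx ≤ Kx ⊔ Ky) N hx
    obtain ⟨y0, hy0, rfl⟩ := model_mono (le_sup_right : Ky ≤ Kx ⊔ Ky) N hy
    exact ⟨Kx ⊔ Ky, inferInstance, x0 + y0, add_mem hx0 hy0, map_add _ _ _⟩
  | inv _ _ ihx =>
    obtain ⟨Kx, hKx, x0, hx0, rfl⟩ := ihx
    exact ⟨Kx, hKx, x0⁻¹, inv_mem hx0, map_inv₀ _ _⟩
  | mul _ _ _ _ ihx ihy =>
    obtain ⟨Kx, hKx, hx⟩ := ihx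
    obtain ⟨Ky, hKy, hy⟩ := ihy
    obtain ⟨x0, hx0, rfl⟩ := model_mono (le_sup_left : Kx ≤ Kx ⊔ Ky) N hx
    obtain ⟨y0, hy0, rfl⟩ := model_mono (le_sup_right : Ky ≤ Kx ⊔ Ky) N hy
    exact ⟨Kx ⊔ Ky, inferInstance, x0 * y0, mul_mem hx0 hy0, map_mul _ _ _⟩

/-- **Field of definition.** Every element of `modularFunctionFieldBar N` comes from the
level-`N` field over a number field `K0 ≤ Qbar`, which can be taken to contain any given
finite-dimensional `K1`. -/
theorem exists_model (N : ℕ) {y : LaurentSeries Qb} (hy : y ∈ modularFunctionFieldBar N)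
    (K1 : IntermediateField ℚ Qb) [FiniteDimensional ℚ K1] :
    ∃ K0 : IntermediateField ℚ Qb, K1 ≤ K0 ∧ FiniteDimensional ℚ K0 ∧
      ∃ y0 ∈ modularFunctionFieldFullC (↥K0) N, coeffMap (algebraMap K0 Qb) y0 = y := by
  obtain ⟨K, hK, h⟩ := exists_model_aux N hy
  exact ⟨K1 ⊔ K, le_sup_left, inferInstance, model_mono le_sup_right N h⟩

/-- **Field of definition, finite families.** -/
theorem exists_model_family (N : ℕ) {ι : Type*} [Finite ι] (y : ι → LaurentSeries Qb)
    (hy : ∀ i, y i ∈ modularFunctionFieldBar N)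
    (K1 : IntermediateField ℚ Qb) [FiniteDimensional ℚ K1] :
    ∃ K0 : IntermediateField ℚ Qb, K1 ≤ K0 ∧ FiniteDimensional ℚ K0 ∧
      ∀ i, ∃ y0 ∈ modularFunctionFieldFullC (↥K0) N, coeffMap (algebraMap K0 Qb) y0 = y i := by
  choose K hK h using fun i => exists_model_aux N (hy i)
  have : ∀ i, FiniteDimensional ℚ (K i) := hK
  refine ⟨K1 ⊔ ⨆ i, K i, le_sup_left, inferInstance, fun i => ?_⟩
  exact model_mono ((le_iSup K i).trans le_sup_right) N (h i)

end FieldOfDefinition

/-! ### Descent of integral series -/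

section SeriesDescent

local notation "Qb" => AlgebraicClosure ℚ

variable (A : ValuationSubring Qb) (K0 : IntermediateField ℚ Qb)

/-- The inclusion `A ∩ K0 → A`. -/
def inclA : ↥(A.comap (algebraMap K0 Qb)) →+* ↥A where
  toFun x := ⟨algebraMap K0 Qb x.1, x.2⟩
  map_zero' := Subtype.ext (map_zero _)
  map_one' := Subtype.ext (map_one _)
  map_add' _ _ := Subtype.ext (map_add _ _ _)
  map_mul' _ _ := Subtype.ext (map_mul _ _ _)

@[simp]
theorem coe_inclA (x : ↥(A.comap (algebraMap K0 Qb))) :
    ((inclA A K0 x : ↥A) : Qb) = algebraMap K0 Qb (x : K0) := rfl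

theorem inclA_injective : Function.Injective (inclA A K0) := by
  intro x y h
  have h' := congrArg (fun z : ↥A => (z : Qb)) h
  simp only [coe_inclA] at h'
  exact Subtype.ext ((algebraMap K0 Qb).injective h')

theorem subtype_comp_inclA :
    A.subtype.comp (inclA A K0) = (algebraMap K0 Qb).comp (A.comap (algebraMap K0 Qb)).subtype :=
  rfl

instance isLocalHom_inclA : IsLocalHom (inclA A K0) where
  map_nonunit x hx := by
    have hx0 : (x : K0) ≠ 0 := by
      intro h0
      have : inclA A K0 x = 0 := Subtype.ext (by rw [coe_inclA, h0, map_zero]; rfl)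
      rw [this] at hx
      exact not_isUnit_zero hx
    obtain ⟨u, hu⟩ := hx
    have hinv : algebraMap K0 Qb ((x : K0)⁻¹) ∈ A := by
      have h1 : ((u⁻¹ : (↥A)ˣ) : ↥A) * inclA A K0 x = 1 := by rw [← hu]; exact u.inv_mul
      have h2 : (((u⁻¹ : (↥A)ˣ) : ↥A) : Qb) * algebraMap K0 Qb (x : K0) = 1 := by
        have := congrArg (fun z : ↥A => (z : Qb)) h1
        simpa using this
      have h3 : algebraMap K0 Qb ((x : K0)⁻¹) = (((u⁻¹ : (↥A)ˣ) : ↥A) : Qb) := by
        rw [map_inv₀]
        exact (eq_inv_of_mul_eq_one_left h2).symm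
      rw [h3]
      exact ((u⁻¹ : (↥A)ˣ) : ↥A).2
    exact IsUnit.of_mul_eq_one (⟨(x : K0)⁻¹, hinv⟩ : ↥(A.comap (algebraMap K0 Qb)))
      (Subtype.ext (mul_inv_cancel₀ hx0))

theorem coeffMap_subtype_inclA (Y0 : LaurentSeries ↥(A.comap (algebraMap K0 Qb))) :
    coeffMap A.subtype (coeffMap (inclA A K0) Y0)
      = coeffMap (algebraMap K0 Qb) (coeffMap (A.comap (algebraMap K0 Qb)).subtype Y0) := by
  rw [coeffMap_coeffMap, coeffMap_coeffMap, subtype_comp_inclA]

/-- **Descent of integral series.** An `A`-integral series whose image over `Qbar` has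
coefficients in `K0` comes from a series over `A ∩ K0`. -/
theorem exists_series_descent (Y : LaurentSeries ↥A) (y0 : LaurentSeries K0)
    (h : coeffMap (algebraMap K0 Qb) y0 = coeffMap A.subtype Y) :
    ∃ Y0 : LaurentSeries ↥(A.comap (algebraMap K0 Qb)),
      coeffMap (A.comap (algebraMap K0 Qb)).subtype Y0 = y0 ∧ coeffMap (inclA A K0) Y0 = Y := by
  obtain ⟨Y0, hY0⟩ := exists_coeffMap_eq (A.comap (algebraMap K0 Qb)).subtype y0 (fun k => by
    have hk : algebraMap K0 Qb (y0.coeff k) = ((Y.coeff k : ↥A) : Qb) := by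
      have := congrArg (fun z : LaurentSeries Qb => z.coeff k) h
      simpa using this
    exact ⟨⟨y0.coeff k, by
      show algebraMap K0 Qb (y0.coeff k) ∈ A
      rw [hk]; exact (Y.coeff k).2⟩, rfl⟩)
  refine ⟨Y0, hY0, ?_⟩
  apply coeffMap_inj A.subtype Subtype.val_injective
  rw [coeffMap_subtype_inclA, hY0, h]

/-- The induced map on residue fields. -/
def resA : IsLocalRing.ResidueField ↥(A.comap (algebraMap K0 Qb)) →+*
    IsLocalRing.ResidueField ↥A :=
  IsLocalRing.ResidueField.map (inclA A K0)

theorem resA_residue (x : ↥(A.comap (algebraMap K0 Qb))) :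
    resA A K0 (IsLocalRing.residue _ x) = IsLocalRing.residue _ (inclA A K0 x) :=
  IsLocalRing.ResidueField.map_residue _ x

theorem coeffMap_residue_inclA (Y0 : LaurentSeries ↥(A.comap (algebraMap K0 Qb))) :
    coeffMap (IsLocalRing.residue ↥A) (coeffMap (inclA A K0) Y0)
      = coeffMap (resA A K0) (coeffMap (IsLocalRing.residue ↥(A.comap (algebraMap K0 Qb))) Y0) := by
  rw [coeffMap_coeffMap, coeffMap_coeffMap]
  exact coeffMap_congr (RingHom.ext fun x => (resA_residue A K0 x).symm) Y0

/-- Two series over `A ∩ K0` have the same reduction iff their images over `A` do. -/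
theorem residue_descent_eq (Y1 Y2 : LaurentSeries ↥(A.comap (algebraMap K0 Qb))) :
    coeffMap (IsLocalRing.residue ↥A) (coeffMap (inclA A K0) Y1)
        = coeffMap (IsLocalRing.residue ↥A) (coeffMap (inclA A K0) Y2) ↔
      coeffMap (IsLocalRing.residue ↥(A.comap (algebraMap K0 Qb))) Y1
        = coeffMap (IsLocalRing.residue ↥(A.comap (algebraMap K0 Qb))) Y2 := by
  rw [coeffMap_residue_inclA, coeffMap_residue_inclA]
  exact (coeffMap_inj _ (resA A K0).injective).eq_iff

theorem residue_descent_eq_zero (Y : LaurentSeries ↥(A.comap (algebraMap K0 Qb))) :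
    coeffMap (IsLocalRing.residue ↥A) (coeffMap (inclA A K0) Y) = 0 ↔
      coeffMap (IsLocalRing.residue ↥(A.comap (algebraMap K0 Qb))) Y = 0 := by
  rw [coeffMap_residue_inclA]
  exact map_eq_zero_iff _ (coeffMap_inj _ (resA A K0).injective)

/-- **DESC, the package.** A finite family of `A`-integral series lying in `Fbar` descends to
integral series over `A ∩ K0` lying in `F0`, for a number field `K0 ≤ Qbar` containing any given
finite-dimensional `K1`. -/
theorem exists_integral_model (N : ℕ) {ι : Type*} [Finite ι] (Y : ι → LaurentSeries ↥A)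
    (hY : ∀ i, coeffMap A.subtype (Y i) ∈ modularFunctionFieldBar N)
    (K1 : IntermediateField ℚ Qb) [FiniteDimensional ℚ K1] :
    ∃ K0 : IntermediateField ℚ Qb, K1 ≤ K0 ∧ FiniteDimensional ℚ K0 ∧
      ∃ Y0 : ι → LaurentSeries ↥(A.comap (algebraMap K0 Qb)),
        ∀ i, coeffMap (A.comap (algebraMap K0 Qb)).subtype (Y0 i)
              ∈ modularFunctionFieldFullC (↥K0) N ∧
            coeffMap (inclA A K0) (Y0 i) = Y i := by
  obtain ⟨K0, hK1, hK0, h⟩ := exists_model_family N (fun i => coeffMap A.subtype (Y i)) hY K1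
  choose y0 hy0 hy0' using h
  choose Y0 hY0 hY0' using fun i => exists_series_descent A K0 (Y i) (y0 i) (hy0' i)
  exact ⟨K0, hK1, hK0, Y0, fun i => ⟨by rw [hY0 i]; exact hy0 i, hY0' i⟩⟩

/-- **DESC for a pair** (the shape consumed after the bridge): two `A`-integral series in `Fbar`
with equal nonzero reductions descend to two `A ∩ K0`-integral series in `F0` with equal nonzero
reductions. -/
theorem exists_pair_model (N : ℕ) (Y1 Y2 : LaurentSeries ↥A)
    (h1 : coeffMap A.subtype Y1 ∈ modularFunctionFieldBar N)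
    (h2 : coeffMap A.subtype Y2 ∈ modularFunctionFieldBar N)
    (hne : coeffMap (IsLocalRing.residue ↥A) Y1 ≠ 0)
    (heq : coeffMap (IsLocalRing.residue ↥A) Y1 = coeffMap (IsLocalRing.residue ↥A) Y2)
    (K1 : IntermediateField ℚ Qb) [FiniteDimensional ℚ K1] :
    ∃ K0 : IntermediateField ℚ Qb, K1 ≤ K0 ∧ FiniteDimensional ℚ K0 ∧
      ∃ Z1 Z2 : LaurentSeries ↥(A.comap (algebraMap K0 Qb)),
        coeffMap (A.comap (algebraMap K0 Qb)).subtype Z1 ∈ modularFunctionFieldFullC (↥K0) N ∧
        coeffMap (A.comap (algebraMap K0 Qb)).subtype Z2 ∈ modularFunctionFieldFullC (↥K0) N ∧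
        coeffMap (inclA A K0) Z1 = Y1 ∧ coeffMap (inclA A K0) Z2 = Y2 ∧
        coeffMap (algebraMap K0 Qb) (coeffMap (A.comap (algebraMap K0 Qb)).subtype Z1)
          = coeffMap A.subtype Y1 ∧
        coeffMap (algebraMap K0 Qb) (coeffMap (A.comap (algebraMap K0 Qb)).subtype Z2)
          = coeffMap A.subtype Y2 ∧
        coeffMap (IsLocalRing.residue ↥(A.comap (algebraMap K0 Qb))) Z1 ≠ 0 ∧
        coeffMap (IsLocalRing.residue ↥(A.comap (algebraMap K0 Qb))) Z1
          = coeffMap (IsLocalRing.residue ↥(A.comap (algebraMap K0 Qb))) Z2 := by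
  obtain ⟨K0, hK1, hK0, Y0, hY0⟩ := exists_integral_model A N (fun b : Bool => if b then Y1 else Y2)
    (fun b => by cases b <;> simpa) K1
  obtain ⟨hm1, he1⟩ := hY0 true
  obtain ⟨hm2, he2⟩ := hY0 false
  simp only [if_true] at he1
  simp only [Bool.false_eq_true, if_false] at he2
  refine ⟨K0, hK1, hK0, Y0 true, Y0 false, hm1, hm2, he1, he2, ?_, ?_, ?_, ?_⟩
  · rw [← coeffMap_subtype_inclA, he1]
  · rw [← coeffMap_subtype_inclA, he2]
  · intro h0
    apply hne
    rw [← he1]
    exact (residue_descent_eq_zero A K0 _).mpr h0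
  · apply (residue_descent_eq A K0 _ _).mp
    rw [he1, he2]
    exact heq

end SeriesDescent

end Fermat.Agent.S18.H92
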