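import Mathlib
import Fermat.Prelude.Def_ModularCurve_X0ModL
import Fermat.Prelude.Def_ModularCurve_ArithmeticGalois

/-!
# S18, node HAUPT (H3): the Hauptmoduln of `X₀(2)`, `X₀(3)` lie in the function field

Elimination of `t` between the two relations `j t² = (t + 256)³`, `j(q²) t = (t + 16)³`
(resp. `j t³ = (t + 27)(t + 243)³`, `j(q³) t = (t + 27)(t + 3)³`) gives a relation `A * t = B`
with `A`, `B` polynomials in `j`, `j(q^M)` and `A = q ^ (-3) + ⋯` (resp. `q ^ (-8) + ⋯`),
so `t = B / A` lies in `K(j, j(q^M))` for every field `K`, in every characteristic.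
-/

set_option autoImplicit false

namespace Fermat.Agent.S18.H30

open ModularCurve

/-! ### The abstract eliminations -/

section Elim

variable {F : Type*} [Field F]

/-- Elimination for `X₀(2)`. -/
theorem elim_two (j J t : F) (ht : t ≠ 0) (h1 : j * t ^ 2 = (t + 256) ^ 3)
    (h2 : J * t = (t + 16) ^ 3) :
    (j * J - 720 * j - 720 * J - 16250625) * t
      = J ^ 2 + 195120 * J + 4095 * j + 660960000 := by
  have hj : j = (t + 256) ^ 3 / t ^ 2 := by
    rw [eq_div_iff (pow_ne_zero 2 ht)]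
    exact h1
  have hJ : J = (t + 16) ^ 3 / t := by
    rw [eq_div_iff ht]
    exact h2
  rw [hj, hJ]
  field_simp
  ring

/-- Elimination for `X₀(3)`. -/
theorem elim_three (j J t : F) (ht : t ≠ 0) (h1 : j * t ^ 3 = (t + 27) * (t + 243) ^ 3)
    (h2 : J * t = (t + 27) * (t + 3) ^ 3) :
    (j ^ 2 * J ^ 2 - 1476 * (j ^ 2 * J) - 1476 * (j * J ^ 2) + 347760 * j ^ 2 + 347760 * J ^ 2
        - 1461408480 * (j * J) - 2707292160000 * j - 2707292160000 * J
        + 134217728000000000) * t
      = J ^ 3 + 196830 * (j * J ^ 2) + 729 * (j ^ 2 * J) - 524880 * j ^ 2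
        + 18821147040 * (j * J) - 103456080 * J ^ 2 + 14229831680000 * j
        + 276373831680000 * J - 3623878656000000000 := by
  have hj : j = (t + 27) * (t + 243) ^ 3 / t ^ 3 := by
    rw [eq_div_iff (pow_ne_zero 3 ht)]
    exact h1
  have hJ : J = (t + 27) * (t + 3) ^ 3 / t := by
    rw [eq_div_iff ht]
    exact h2
  rw [hj, hJ]
  field_simp
  ring

end Elim

/-! ### Leading terms of Laurent series -/

section Lead

variable {K : Type*} [Field K]

/-- `x = q ^ n + higher order terms`. -/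
def IsLead (x : LaurentSeries K) (n : ℤ) : Prop :=
  x.coeff n = 1 ∧ ∀ m < n, x.coeff m = 0

theorem IsLead.ne_zero {x : LaurentSeries K} {n : ℤ} (h : IsLead x n) : x ≠ 0 := by
  intro hx
  have := h.1
  rw [hx, HahnSeries.coeff_zero] at this
  exact zero_ne_one this

theorem IsLead.order_eq {x : LaurentSeries K} {n : ℤ} (h : IsLead x n) : x.order = n := by
  refine le_antisymm (HahnSeries.order_le_of_coeff_ne_zero ?_) ?_
  · rw [h.1]
    exact one_ne_zero
  · exact (HahnSeries.le_order_iff_forall h.ne_zero).mpr h.2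

theorem IsLead.leadingCoeff_eq {x : LaurentSeries K} {n : ℤ} (h : IsLead x n) :
    x.leadingCoeff = 1 := by
  rw [HahnSeries.leadingCoeff_eq, h.order_eq, h.1]

theorem IsLead.mul {x y : LaurentSeries K} {a b : ℤ} (hx : IsLead x a) (hy : IsLead y b) :
    IsLead (x * y) (a + b) := by
  have hc : (x * y).coeff (a + b) = 1 := by
    have := HahnSeries.coeff_mul_order_add_order x y
    rwa [hx.order_eq, hy.order_eq, hx.leadingCoeff_eq, hy.leadingCoeff_eq, one_mul] at this
  have ho : (x * y).order = a + b := by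
    have := HahnSeries.order_mul_of_ne_zero (x := x) (y := y)
      (by rw [hx.leadingCoeff_eq, hy.leadingCoeff_eq, one_mul]; exact one_ne_zero)
    rwa [hx.order_eq, hy.order_eq] at this
  refine ⟨hc, fun m hm => HahnSeries.coeff_eq_zero_of_lt_order ?_⟩
  rw [ho]
  exact hm

theorem isLead_one : IsLead (1 : LaurentSeries K) 0 := by
  refine ⟨by simp [HahnSeries.coeff_one], fun m hm => ?_⟩
  rw [HahnSeries.coeff_one, if_neg (ne_of_lt hm)]

theorem IsLead.pow {x : LaurentSeries K} {a : ℤ} (hx : IsLead x a) (n : ℕ) :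
    IsLead (x ^ n) (n * a) := by
  induction n with
  | zero => simpa using isLead_one
  | succ n ih =>
    rw [pow_succ]
    have := ih.mul hx
    convert this using 1
    push_cast
    ring

theorem IsLead.coeff_of_lt {x : LaurentSeries K} {a m : ℤ} (hx : IsLead x a) (hm : m < a) :
    x.coeff m = 0 :=
  hx.2 m hm

variable (K) in
theorem isLead_jqModC : IsLead (jqModC K) (-1) :=
  ⟨coeff_jqModC_neg_one K, fun _ hm => coeff_jqModC_of_lt K hm⟩

theorem IsLead.qExpand {x : LaurentSeries K} {a : ℤ} (hx : IsLead x a) (N : ℕ) [NeZero N] :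
    IsLead (qExpand K N x) (N * a) := by
  refine ⟨by rw [qExpand_coeff_mul]; exact hx.1, fun m hm => ?_⟩
  by_cases hd : (N : ℤ) ∣ m
  · obtain ⟨k, rfl⟩ := hd
    rw [qExpand_coeff_mul]
    have hN : (0 : ℤ) < N := by exact_mod_cast Nat.pos_of_ne_zero (NeZero.ne N)
    exact hx.2 k (lt_of_mul_lt_mul_left hm hN.le)
  · exact qExpand_coeff_of_not_dvd N x hd

theorem coeff_ofNat_mul (c : ℕ) [c.AtLeastTwo] (x : LaurentSeries K) (m : ℤ) :
    ((ofNat(c) : LaurentSeries K) * x).coeff m = (ofNat(c) : K) * x.coeff m := by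
  have h : (OfNat.ofNat c : LaurentSeries K) = HahnSeries.C (OfNat.ofNat c : K) :=
    (map_ofNat (HahnSeries.C (Γ := ℤ) (R := K)) c).symm
  rw [h, HahnSeries.C_mul_eq_smul, HahnSeries.coeff_smul, smul_eq_mul]

theorem coeff_ofNat (c : ℕ) [c.AtLeastTwo] {m : ℤ} (hm : m ≠ 0) :
    (ofNat(c) : LaurentSeries K).coeff m = 0 := by
  have h : (OfNat.ofNat c : LaurentSeries K) = HahnSeries.C (OfNat.ofNat c : K) :=
    (map_ofNat (HahnSeries.C (Γ := ℤ) (R := K)) c).symm
  rw [h, HahnSeries.C_apply, HahnSeries.coeff_single_of_ne hm]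

end Lead

/-! ### Membership in the function field -/

section Mem

variable (K : Type*) [Field K]

theorem cofactor_two_ne_zero :
    jqModC K * qExpand K 2 (jqModC K) - 720 * jqModC K - 720 * qExpand K 2 (jqModC K) - 16250625
      ≠ 0 := by
  have hj := isLead_jqModC K
  have hJ : IsLead (qExpand K 2 (jqModC K)) (-2) := by
    have := hj.qExpand 2
    simpa using this
  have hjJ : IsLead (jqModC K * qExpand K 2 (jqModC K)) (-3) := by
    have := hj.mul hJ
    simpa using this
  intro h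
  have hc := congrArg (fun x : LaurentSeries K => x.coeff (-3)) h
  simp only [HahnSeries.coeff_sub, HahnSeries.coeff_zero, coeff_ofNat_mul] at hc
  rw [hjJ.1, hj.coeff_of_lt (by norm_num), hJ.coeff_of_lt (by norm_num),
    coeff_ofNat _ (by norm_num)] at hc
  simp at hc

/-- **HAUPT (H3), `M = 2`.** -/
theorem haupt2_mem (t : LaurentSeries K) (ht : t ≠ 0)
    (h1 : jqModC K * t ^ 2 = (t + 256) ^ 3)
    (h2 : qExpand K 2 (jqModC K) * t = (t + 16) ^ 3) :
    t ∈ modularFunctionFieldC K 2 := by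
  have hj : jqModC K ∈ modularFunctionFieldC K 2 := jqModC_mem K 2
  have hJ : qExpand K 2 (jqModC K) ∈ modularFunctionFieldC K 2 := jqNModC_mem K 2
  have hrel := elim_two _ _ t ht h1 h2
  have hA := cofactor_two_ne_zero K
  have hn : ∀ n : ℕ, (n : LaurentSeries K) ∈ modularFunctionFieldC K 2 := fun n => natCast_mem _ n
  have ht' : t = (qExpand K 2 (jqModC K) ^ 2 + 195120 * qExpand K 2 (jqModC K)
      + 4095 * jqModC K + 660960000)
      / (jqModC K * qExpand K 2 (jqModC K) - 720 * jqModC K - 720 * qExpand K 2 (jqModC K)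
        - 16250625) := by
    rw [eq_div_iff hA, mul_comm]
    exact hrel
  rw [ht']
  refine div_mem ?_ ?_
  · refine add_mem (add_mem (add_mem (pow_mem hJ 2) (mul_mem ?_ hJ)) (mul_mem ?_ hj)) ?_
    · exact_mod_cast hn 195120
    · exact_mod_cast hn 4095
    · exact_mod_cast hn 660960000
  · refine sub_mem (sub_mem (sub_mem (mul_mem hj hJ) (mul_mem ?_ hj)) (mul_mem ?_ hJ)) ?_
    · exact_mod_cast hn 720
    · exact_mod_cast hn 720
    · exact_mod_cast hn 16250625

theorem cofactor_three_ne_zero :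
    jqModC K ^ 2 * qExpand K 3 (jqModC K) ^ 2 - 1476 * (jqModC K ^ 2 * qExpand K 3 (jqModC K))
        - 1476 * (jqModC K * qExpand K 3 (jqModC K) ^ 2) + 347760 * jqModC K ^ 2
        + 347760 * qExpand K 3 (jqModC K) ^ 2
        - 1461408480 * (jqModC K * qExpand K 3 (jqModC K)) - 2707292160000 * jqModC K
        - 2707292160000 * qExpand K 3 (jqModC K) + 134217728000000000
      ≠ 0 := by
  have hj := isLead_jqModC K
  have hJ : IsLead (qExpand K 3 (jqModC K)) (-3) := by
    have := hj.qExpand 3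
    simpa using this
  have hj2 : IsLead (jqModC K ^ 2) (-2) := by
    have := hj.pow 2
    simpa using this
  have hJ2 : IsLead (qExpand K 3 (jqModC K) ^ 2) (-6) := by
    have := hJ.pow 2
    simpa using this
  have hjJ : IsLead (jqModC K * qExpand K 3 (jqModC K)) (-4) := by
    have := hj.mul hJ
    simpa using this
  have hj2J : IsLead (jqModC K ^ 2 * qExpand K 3 (jqModC K)) (-5) := by
    have := hj2.mul hJ
    simpa using this
  have hjJ2 : IsLead (jqModC K * qExpand K 3 (jqModC K) ^ 2) (-7) := by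
    have := hj.mul hJ2
    simpa using this
  have hj2J2 : IsLead (jqModC K ^ 2 * qExpand K 3 (jqModC K) ^ 2) (-8) := by
    have := hj2.mul hJ2
    simpa using this
  intro h
  have hc := congrArg (fun x : LaurentSeries K => x.coeff (-8)) h
  simp only [HahnSeries.coeff_sub, HahnSeries.coeff_add, HahnSeries.coeff_zero,
    coeff_ofNat_mul] at hc
  rw [hj2J2.1, hj2J.coeff_of_lt (by norm_num), hjJ2.coeff_of_lt (by norm_num),
    hj2.coeff_of_lt (by norm_num), hJ2.coeff_of_lt (by norm_num), hjJ.coeff_of_lt (by norm_num),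
    hj.coeff_of_lt (by norm_num), hJ.coeff_of_lt (by norm_num),
    coeff_ofNat _ (by norm_num)] at hc
  simp at hc

/-- **HAUPT (H3), `M = 3`.** -/
theorem haupt3_mem (t : LaurentSeries K) (ht : t ≠ 0)
    (h1 : jqModC K * t ^ 3 = (t + 27) * (t + 243) ^ 3)
    (h2 : qExpand K 3 (jqModC K) * t = (t + 27) * (t + 3) ^ 3) :
    t ∈ modularFunctionFieldC K 3 := by
  have hj : jqModC K ∈ modularFunctionFieldC K 3 := jqModC_mem K 3
  have hJ : qExpand K 3 (jqModC K) ∈ modularFunctionFieldC K 3 := jqNModC_mem K 3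
  have hrel := elim_three _ _ t ht h1 h2
  have hA := cofactor_three_ne_zero K
  have hn : ∀ n : ℕ, (n : LaurentSeries K) ∈ modularFunctionFieldC K 3 := fun n => natCast_mem _ n
  have hj2 := pow_mem hj 2
  have hJ2 := pow_mem hJ 2
  have ht' := eq_div_of_mul_eq hA ((mul_comm _ _).trans hrel)
  rw [ht']
  refine div_mem ?_ ?_
  · refine sub_mem (add_mem (add_mem (sub_mem (add_mem (sub_mem (add_mem (add_mem (pow_mem hJ 3)
      (mul_mem ?_ (mul_mem hj hJ2))) (mul_mem ?_ (mul_mem hj2 hJ))) (mul_mem ?_ hj2))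
      (mul_mem ?_ (mul_mem hj hJ))) (mul_mem ?_ hJ2)) (mul_mem ?_ hj)) (mul_mem ?_ hJ)) ?_
    · exact_mod_cast hn 196830
    · exact_mod_cast hn 729
    · exact_mod_cast hn 524880
    · exact_mod_cast hn 18821147040
    · exact_mod_cast hn 103456080
    · exact_mod_cast hn 14229831680000
    · exact_mod_cast hn 276373831680000
    · exact_mod_cast hn 3623878656000000000
  · refine add_mem (sub_mem (sub_mem (sub_mem (add_mem (add_mem (sub_mem (sub_mem
      (mul_mem hj2 hJ2) (mul_mem ?_ (mul_mem hj2 hJ))) (mul_mem ?_ (mul_mem hj hJ2)))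
      (mul_mem ?_ hj2)) (mul_mem ?_ hJ2)) (mul_mem ?_ (mul_mem hj hJ))) (mul_mem ?_ hj))
      (mul_mem ?_ hJ)) ?_
    · exact_mod_cast hn 1476
    · exact_mod_cast hn 1476
    · exact_mod_cast hn 347760
    · exact_mod_cast hn 347760
    · exact_mod_cast hn 1461408480
    · exact_mod_cast hn 2707292160000
    · exact_mod_cast hn 2707292160000
    · exact_mod_cast hn 134217728000000000

/-- `t ≠ 0` is automatic away from characteristic `2`. -/
theorem ne_zero_of_haupt2 (hK : (2 : K) ≠ 0) (t : LaurentSeries K)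
    (h2 : qExpand K 2 (jqModC K) * t = (t + 16) ^ 3) : t ≠ 0 := by
  rintro rfl
  rw [mul_zero, zero_add] at h2
  have h16 : (16 : LaurentSeries K) = algebraMap K (LaurentSeries K) 16 := (map_ofNat _ 16).symm
  have h16' : (16 : K) ≠ 0 := by
    have : (16 : K) = 2 ^ 4 := by norm_num
    rw [this]
    exact pow_ne_zero 4 hK
  refine pow_ne_zero 3 ?_ h2.symm
  rw [h16]
  exact (map_ne_zero _).mpr h16'

/-- `t ≠ 0` is automatic away from characteristic `3`. -/
theorem ne_zero_of_haupt3 (hK : (3 : K) ≠ 0) (t : LaurentSeries K)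
    (h2 : qExpand K 3 (jqModC K) * t = (t + 27) * (t + 3) ^ 3) : t ≠ 0 := by
  rintro rfl
  rw [mul_zero, zero_add, zero_add] at h2
  have h27 : (27 : LaurentSeries K) = algebraMap K (LaurentSeries K) 27 := (map_ofNat _ 27).symm
  have h3 : (3 : LaurentSeries K) = algebraMap K (LaurentSeries K) 3 := (map_ofNat _ 3).symm
  have h27' : (27 : K) ≠ 0 := by
    have : (27 : K) = 3 ^ 3 := by norm_num
    rw [this]
    exact pow_ne_zero 3 hK
  refine mul_ne_zero ?_ (pow_ne_zero 3 ?_) h2.symm
  · rw [h27]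
    exact (map_ne_zero _).mpr h27'
  · rw [h3]
    exact (map_ne_zero _).mpr hK

/-- **HAUPT (H3), `M = 2`**, in the full function field of any level divisible by `2`. -/
theorem haupt2_mem_full (L : ℕ) [NeZero L] (hL : 2 ∣ L) (t : LaurentSeries K) (ht : t ≠ 0)
    (h1 : jqModC K * t ^ 2 = (t + 256) ^ 3)
    (h2 : qExpand K 2 (jqModC K) * t = (t + 16) ^ 3) :
    t ∈ modularFunctionFieldFullC K L :=
  full_degeneracyC_le K hL (modularFunctionFieldC_le_full K 2 (haupt2_mem K t ht h1 h2))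

/-- **HAUPT (H3), `M = 3`**, in the full function field of any level divisible by `3`. -/
theorem haupt3_mem_full (L : ℕ) [NeZero L] (hL : 3 ∣ L) (t : LaurentSeries K) (ht : t ≠ 0)
    (h1 : jqModC K * t ^ 3 = (t + 27) * (t + 243) ^ 3)
    (h2 : qExpand K 3 (jqModC K) * t = (t + 27) * (t + 3) ^ 3) :
    t ∈ modularFunctionFieldFullC K L :=
  full_degeneracyC_le K hL (modularFunctionFieldC_le_full K 3 (haupt3_mem K t ht h1 h2))

end Mem

/-! ### The same over `ℚ̄`, in the field `modularFunctionFieldBar N` -/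

section Bar

/-- **HAUPT (H3), `M = 2`**, for `F̄_N = modularFunctionFieldBar N`, `2 ∣ N`. -/
theorem haupt2_mem_bar (N : ℕ) [NeZero N] (hN : 2 ∣ N) (t : LaurentSeries ℚ) (ht : t ≠ 0)
    (h1 : jqModC ℚ * t ^ 2 = (t + 256) ^ 3)
    (h2 : qExpand ℚ 2 (jqModC ℚ) * t = (t + 16) ^ 3) :
    coeffEmb (AlgebraicClosure ℚ) t ∈ modularFunctionFieldBar N :=
  coeffEmb_mem_laurentBaseChange (AlgebraicClosure ℚ)
    (F₀ := modularFunctionFieldFull N) (haupt2_mem_full ℚ N hN t ht h1 h2)

/-- **HAUPT (H3), `M = 3`**, for `F̄_N = modularFunctionFieldBar N`, `3 ∣ N`. -/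
theorem haupt3_mem_bar (N : ℕ) [NeZero N] (hN : 3 ∣ N) (t : LaurentSeries ℚ) (ht : t ≠ 0)
    (h1 : jqModC ℚ * t ^ 3 = (t + 27) * (t + 243) ^ 3)
    (h2 : qExpand ℚ 3 (jqModC ℚ) * t = (t + 27) * (t + 3) ^ 3) :
    coeffEmb (AlgebraicClosure ℚ) t ∈ modularFunctionFieldBar N :=
  coeffEmb_mem_laurentBaseChange (AlgebraicClosure ℚ)
    (F₀ := modularFunctionFieldFull N) (haupt3_mem_full ℚ N hN t ht h1 h2)

end Bar

end Fermat.Agent.S18.H30
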