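import Mathlib
import Fermat.Agent.S18.HauptId_helper69
import Fermat.Agent.S18.HauptMem_helper30
import Fermat.Agent.S18.Desc_helper92
import Fermat.Agent.S18.PlaceModel_helper74

/-!
# S18, node HAUPT (helper69): the Hauptmoduln as elements of the function fields

Instantiation of helper30's elimination (`HauptMem_helper30`) with the Hauptmoduln
`haupt2 K`, `haupt3 K` of `HauptId_helper69`:

* `haupt2_mem_full K L hL : haupt2 K ∈ modularFunctionFieldFullC K L` for every field `K` and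
  every level `L` with `2 ∣ L` (`haupt3_mem_full` for `3 ∣ L`), also for the inverses;
* `hauptEl2 K L hL`, `hauptEl3 K L hL : ↥(modularFunctionFieldFullC K L)` with the relations
  against `jEl K L = ⟨jqModC K, _⟩` (the `K0`-model and the mod-`ℓ` field);
* `hauptBar2 N hN`, `hauptBar3 N hN : ↥(modularFunctionFieldBar N)` with the relations against
  the S24 element `H98.jBar N` (the literal `hrel` of the branch lemmas), and
  `H74.toBar K0 L (hauptEl2 K0 L hL) = hauptBar2 L hL`.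
-/

set_option autoImplicit false

namespace Fermat.Agent.S18.H69

open ModularCurve
open Fermat.Agent.S24.H98 (Kbar FN jBar)

noncomputable section

section Field

variable (K : Type*) [Field K] (L : ℕ) [NeZero L]

/-- **(H3)** `t₂ ∈ K(j(q^d) : d ∣ L)` for `2 ∣ L`, over every field. -/
theorem haupt2_mem_full (hL : 2 ∣ L) : haupt2 K ∈ modularFunctionFieldFullC K L :=
  Fermat.Agent.S18.H30.haupt2_mem_full K L hL (haupt2 K) (haupt2_ne_zero K) (haupt2_rel K)
    (haupt2_rel' K)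

/-- **(H3)** `t₃ ∈ K(j(q^d) : d ∣ L)` for `3 ∣ L`, over every field. -/
theorem haupt3_mem_full (hL : 3 ∣ L) : haupt3 K ∈ modularFunctionFieldFullC K L :=
  Fermat.Agent.S18.H30.haupt3_mem_full K L hL (haupt3 K) (haupt3_ne_zero K) (haupt3_rel K)
    (haupt3_rel' K)

theorem haupt2Inv_eq_inv : haupt2Inv K = (haupt2 K)⁻¹ :=
  eq_inv_of_mul_eq_one_right (haupt2_mul_inv K)

theorem haupt3Inv_eq_inv : haupt3Inv K = (haupt3 K)⁻¹ :=
  eq_inv_of_mul_eq_one_right (haupt3_mul_inv K)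

theorem haupt2Inv_mem_full (hL : 2 ∣ L) : haupt2Inv K ∈ modularFunctionFieldFullC K L := by
  rw [haupt2Inv_eq_inv]
  exact inv_mem (haupt2_mem_full K L hL)

theorem haupt3Inv_mem_full (hL : 3 ∣ L) : haupt3Inv K ∈ modularFunctionFieldFullC K L := by
  rw [haupt3Inv_eq_inv]
  exact inv_mem (haupt3_mem_full K L hL)

/-- `j` as an element of `K(j(q^d) : d ∣ L)`. -/
def jEl : ↥(modularFunctionFieldFullC K L) := ⟨jqModC K, jqModC_mem_full K L⟩

/-- `t₂` as an element of `K(j(q^d) : d ∣ L)`, `2 ∣ L`. -/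
def hauptEl2 (hL : 2 ∣ L) : ↥(modularFunctionFieldFullC K L) := ⟨haupt2 K, haupt2_mem_full K L hL⟩

/-- `t₃` as an element of `K(j(q^d) : d ∣ L)`, `3 ∣ L`. -/
def hauptEl3 (hL : 3 ∣ L) : ↥(modularFunctionFieldFullC K L) := ⟨haupt3 K, haupt3_mem_full K L hL⟩

omit [NeZero L] in
@[simp] theorem coe_jEl : ((jEl K L : ↥(modularFunctionFieldFullC K L)) : LaurentSeries K) =
    jqModC K := rfl

@[simp] theorem coe_hauptEl2 (hL : 2 ∣ L) :
    ((hauptEl2 K L hL : ↥(modularFunctionFieldFullC K L)) : LaurentSeries K) = haupt2 K := rfl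

@[simp] theorem coe_hauptEl3 (hL : 3 ∣ L) :
    ((hauptEl3 K L hL : ↥(modularFunctionFieldFullC K L)) : LaurentSeries K) = haupt3 K := rfl

theorem hauptEl2_ne_zero (hL : 2 ∣ L) : hauptEl2 K L hL ≠ 0 := fun h =>
  haupt2_ne_zero K (by simpa using congrArg Subtype.val h)

theorem hauptEl3_ne_zero (hL : 3 ∣ L) : hauptEl3 K L hL ≠ 0 := fun h =>
  haupt3_ne_zero K (by simpa using congrArg Subtype.val h)

/-- `j · t² = (t + 256)³` in `K(j(q^d) : d ∣ L)`. -/
theorem hauptEl2_rel (hL : 2 ∣ L) :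
    jEl K L * hauptEl2 K L hL ^ 2 = (hauptEl2 K L hL + 256) ^ 3 := by
  apply Subtype.ext
  push_cast
  exact haupt2_rel K

/-- `(j - 1728) · t² = (t + 64)(t - 512)²` in `K(j(q^d) : d ∣ L)`. -/
theorem hauptEl2_rel_1728 (hL : 2 ∣ L) :
    (jEl K L - 1728) * hauptEl2 K L hL ^ 2 =
      (hauptEl2 K L hL + 64) * (hauptEl2 K L hL - 512) ^ 2 := by
  linear_combination hauptEl2_rel K L hL

/-- `j · t³ = (t + 27)(t + 243)³` in `K(j(q^d) : d ∣ L)`. -/
theorem hauptEl3_rel (hL : 3 ∣ L) :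
    jEl K L * hauptEl3 K L hL ^ 3 = (hauptEl3 K L hL + 27) * (hauptEl3 K L hL + 243) ^ 3 := by
  apply Subtype.ext
  push_cast
  exact haupt3_rel K

/-- `(j - 1728) · t³ = (t² - 486 t - 19683)²` in `K(j(q^d) : d ∣ L)`. -/
theorem hauptEl3_rel_1728 (hL : 3 ∣ L) :
    (jEl K L - 1728) * hauptEl3 K L hL ^ 3 =
      (hauptEl3 K L hL ^ 2 - 486 * hauptEl3 K L hL - 19683) ^ 2 := by
  linear_combination hauptEl3_rel K L hL

end Field

section Bar

variable (N : ℕ) [NeZero N]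

theorem haupt2_mem_bar (hN : 2 ∣ N) : haupt2 Kbar ∈ modularFunctionFieldBar N := by
  rw [Fermat.Agent.S18.H92.bar_eq_fullC]
  exact haupt2_mem_full Kbar N hN

theorem haupt3_mem_bar (hN : 3 ∣ N) : haupt3 Kbar ∈ modularFunctionFieldBar N := by
  rw [Fermat.Agent.S18.H92.bar_eq_fullC]
  exact haupt3_mem_full Kbar N hN

/-- `t₂` as an element of the frozen field `Fbar_N = modularFunctionFieldBar N`, `2 ∣ N`. -/
def hauptBar2 (hN : 2 ∣ N) : FN N := ⟨haupt2 Kbar, haupt2_mem_bar N hN⟩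

/-- `t₃` as an element of the frozen field `Fbar_N = modularFunctionFieldBar N`, `3 ∣ N`. -/
def hauptBar3 (hN : 3 ∣ N) : FN N := ⟨haupt3 Kbar, haupt3_mem_bar N hN⟩

@[simp] theorem coe_hauptBar2 (hN : 2 ∣ N) :
    ((hauptBar2 N hN : FN N) : LaurentSeries Kbar) = haupt2 Kbar := rfl

@[simp] theorem coe_hauptBar3 (hN : 3 ∣ N) :
    ((hauptBar3 N hN : FN N) : LaurentSeries Kbar) = haupt3 Kbar := rfl

theorem coe_jBar : ((jBar N : FN N) : LaurentSeries Kbar) = jqModC Kbar := by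
  show coeffEmb Kbar jq = jqModC Kbar
  rw [coeffEmb, ← jqModC_rat, coeffMap_jqModC]

/-- **`hrel` for `X₀(2)`**: `j · t² = (t + 256)³` in `Fbar_N`. -/
theorem hauptBar2_rel (hN : 2 ∣ N) : jBar N * hauptBar2 N hN ^ 2 = (hauptBar2 N hN + 256) ^ 3 := by
  apply Subtype.ext
  push_cast
  rw [coe_jBar]
  exact haupt2_rel Kbar

/-- **`hrel` for `X₀(3)`**: `j · t³ = (t + 27)(t + 243)³` in `Fbar_N`. -/
theorem hauptBar3_rel (hN : 3 ∣ N) :
    jBar N * hauptBar3 N hN ^ 3 = (hauptBar3 N hN + 27) * (hauptBar3 N hN + 243) ^ 3 := by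
  apply Subtype.ext
  push_cast
  rw [coe_jBar]
  exact haupt3_rel Kbar

theorem hauptBar2_ne_zero (hN : 2 ∣ N) : hauptBar2 N hN ≠ 0 := fun h =>
  haupt2_ne_zero Kbar (by simpa using congrArg Subtype.val h)

theorem hauptBar3_ne_zero (hN : 3 ∣ N) : hauptBar3 N hN ≠ 0 := fun h =>
  haupt3_ne_zero Kbar (by simpa using congrArg Subtype.val h)

end Bar

section Model

variable (K0 : Type*) [Field K0] [Algebra K0 Kbar] (L : ℕ) [NeZero L]

/-- the comparison map `K0`-model `→ Fbar_L` sends `t₂` to `t₂`. -/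
theorem toBar_hauptEl2 (hL : 2 ∣ L) :
    Fermat.Agent.S18.H74.toBar K0 L (hauptEl2 K0 L hL) = hauptBar2 L hL := by
  apply Subtype.ext
  rw [Fermat.Agent.S18.H74.coe_toBar, coe_hauptEl2, coe_hauptBar2, coeffMap_haupt2]

/-- the comparison map `K0`-model `→ Fbar_L` sends `t₃` to `t₃`. -/
theorem toBar_hauptEl3 (hL : 3 ∣ L) :
    Fermat.Agent.S18.H74.toBar K0 L (hauptEl3 K0 L hL) = hauptBar3 L hL := by
  apply Subtype.ext
  rw [Fermat.Agent.S18.H74.coe_toBar, coe_hauptEl3, coe_hauptBar3, coeffMap_haupt3]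

/-- the comparison map `K0`-model `→ Fbar_L` sends `j` to `jBar`. -/
theorem toBar_jEl : Fermat.Agent.S18.H74.toBar K0 L (jEl K0 L) = jBar L := by
  apply Subtype.ext
  rw [Fermat.Agent.S18.H74.coe_toBar, coe_jEl, coe_jBar, coeffMap_jqModC]

end Model

end

end Fermat.Agent.S18.H69
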