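import Mathlib
import Fermat.Agent.S18.HauptInst_helper69

/-!
# S18, node HAUPT (helper69): shape of the inverse Hauptmoduln, orders, integrality relations

* `haupt2Inv K = q · (unit power series)`: `coeff_haupt2Inv_one`, `coeff_haupt2Inv_of_lt`
  (and for `3`); power series forms `haupt2Inv_eq_ofPS`;
* orders `order_haupt2 = -1`, `order_haupt2Inv = 1` over a nontrivial ring;
* the `1/j`-relations `haupt2Inv_rel`, `haupt3Inv_rel` over a field, the monic integrality
  relations of `t` over `ℤ[j]` and of `z = t / (t + 256)`, `t / (t + 243)` over `ℤ[1/j]`;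
* the inverse elements `hauptEl2Inv`, `hauptEl3Inv` of the `K`-model.
-/

set_option autoImplicit false

namespace Fermat.Agent.S18.H69

open ModularCurve PowerSeries

noncomputable section

section General

variable (K : Type*) [CommRing K]

theorem constantCoeff_hW2inv : constantCoeff hW2inv = 1 := by
  have h := congrArg constantCoeff hW2_mul_hW2inv
  rwa [map_mul, constantCoeff_hW2, one_mul, map_one] at h

theorem constantCoeff_hW3inv : constantCoeff hW3inv = 1 := by
  have h := congrArg constantCoeff hW3_mul_hW3inv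
  rwa [map_mul, constantCoeff_hW3, one_mul, map_one] at h

/-- `haupt2Inv K = q · H₂` with `H₂` an integral power series with constant coefficient `1`. -/
theorem haupt2Inv_eq : haupt2Inv K = HahnSeries.single (1 : ℤ) (1 : K) *
    HahnSeries.ofPowerSeries ℤ K ((hU 2 * hW2inv).map (Int.castRingHom K)) := by
  rw [haupt2Inv, hauptZ2Inv, map_mul, coeffMap_single, map_one, coeffMap_ofPowerSeries]

theorem haupt3Inv_eq : haupt3Inv K = HahnSeries.single (1 : ℤ) (1 : K) *
    HahnSeries.ofPowerSeries ℤ K ((hU 3 * hW3inv).map (Int.castRingHom K)) := by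
  rw [haupt3Inv, hauptZ3Inv, map_mul, coeffMap_single, map_one, coeffMap_ofPowerSeries]

theorem coeff_haupt2Inv (k : ℤ) : (haupt2Inv K).coeff k =
    (HahnSeries.ofPowerSeries ℤ K ((hU 2 * hW2inv).map (Int.castRingHom K))).coeff (k - 1) := by
  rw [haupt2Inv_eq, HahnSeries.coeff_single_mul, one_mul]

theorem coeff_haupt3Inv (k : ℤ) : (haupt3Inv K).coeff k =
    (HahnSeries.ofPowerSeries ℤ K ((hU 3 * hW3inv).map (Int.castRingHom K))).coeff (k - 1) := by
  rw [haupt3Inv_eq, HahnSeries.coeff_single_mul, one_mul]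

/-- leading coefficient: `1 / t₂ = q + …`. -/
theorem coeff_haupt2Inv_one : (haupt2Inv K).coeff 1 = 1 := by
  rw [coeff_haupt2Inv, show (1 : ℤ) - 1 = ((0 : ℕ) : ℤ) by norm_num,
    HahnSeries.ofPowerSeries_apply_coeff, coeff_map, coeff_zero_eq_constantCoeff_apply, map_mul,
    constantCoeff_hU (le_refl 2), constantCoeff_hW2inv]
  simp

theorem coeff_haupt2Inv_of_lt {k : ℤ} (hk : k < 1) : (haupt2Inv K).coeff k = 0 := by
  rw [coeff_haupt2Inv]
  exact ofPowerSeries_coeff_of_neg _ (by omega)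

/-- leading coefficient: `1 / t₃ = q + …`. -/
theorem coeff_haupt3Inv_one : (haupt3Inv K).coeff 1 = 1 := by
  rw [coeff_haupt3Inv, show (1 : ℤ) - 1 = ((0 : ℕ) : ℤ) by norm_num,
    HahnSeries.ofPowerSeries_apply_coeff, coeff_map, coeff_zero_eq_constantCoeff_apply, map_mul,
    constantCoeff_hU (by norm_num : 2 ≤ 3), constantCoeff_hW3inv]
  simp

theorem coeff_haupt3Inv_of_lt {k : ℤ} (hk : k < 1) : (haupt3Inv K).coeff k = 0 := by
  rw [coeff_haupt3Inv]
  exact ofPowerSeries_coeff_of_neg _ (by omega)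

theorem haupt2Inv_ne_zero [Nontrivial K] : haupt2Inv K ≠ 0 := fun h => by
  have := coeff_haupt2Inv_one K
  rw [h] at this
  simp at this

theorem haupt3Inv_ne_zero [Nontrivial K] : haupt3Inv K ≠ 0 := fun h => by
  have := coeff_haupt3Inv_one K
  rw [h] at this
  simp at this

/-- `1 / t₂` is (the image of) a power series: `1 / t₂ = X · H₂`. -/
theorem haupt2Inv_eq_ofPS : haupt2Inv K =
    HahnSeries.ofPowerSeries ℤ K ((X * (hU 2 * hW2inv)).map (Int.castRingHom K)) := by
  rw [haupt2Inv_eq]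
  simp only [map_mul, PowerSeries.map_X, HahnSeries.ofPowerSeries_X]

/-- `1 / t₃` is (the image of) a power series: `1 / t₃ = X · H₃`. -/
theorem haupt3Inv_eq_ofPS : haupt3Inv K =
    HahnSeries.ofPowerSeries ℤ K ((X * (hU 3 * hW3inv)).map (Int.castRingHom K)) := by
  rw [haupt3Inv_eq]
  simp only [map_mul, PowerSeries.map_X, HahnSeries.ofPowerSeries_X]

/-- `order t₂ = -1`. -/
theorem order_haupt2 [Nontrivial K] : (haupt2 K).order = -1 := by
  refine le_antisymm (HahnSeries.order_le_of_coeff_ne_zero ?_) ?_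
  · rw [coeff_haupt2_neg_one]
    exact one_ne_zero
  · exact (HahnSeries.le_order_iff_forall (haupt2_ne_zero K)).mpr
      fun m hm => coeff_haupt2_of_lt K hm

/-- `order t₃ = -1`. -/
theorem order_haupt3 [Nontrivial K] : (haupt3 K).order = -1 := by
  refine le_antisymm (HahnSeries.order_le_of_coeff_ne_zero ?_) ?_
  · rw [coeff_haupt3_neg_one]
    exact one_ne_zero
  · exact (HahnSeries.le_order_iff_forall (haupt3_ne_zero K)).mpr
      fun m hm => coeff_haupt3_of_lt K hm

/-- `order (1 / t₂) = 1`. -/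
theorem order_haupt2Inv [Nontrivial K] : (haupt2Inv K).order = 1 := by
  refine le_antisymm (HahnSeries.order_le_of_coeff_ne_zero ?_) ?_
  · rw [coeff_haupt2Inv_one]
    exact one_ne_zero
  · exact (HahnSeries.le_order_iff_forall (haupt2Inv_ne_zero K)).mpr
      fun m hm => coeff_haupt2Inv_of_lt K hm

/-- `order (1 / t₃) = 1`. -/
theorem order_haupt3Inv [Nontrivial K] : (haupt3Inv K).order = 1 := by
  refine le_antisymm (HahnSeries.order_le_of_coeff_ne_zero ?_) ?_
  · rw [coeff_haupt3Inv_one]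
    exact one_ne_zero
  · exact (HahnSeries.le_order_iff_forall (haupt3Inv_ne_zero K)).mpr
      fun m hm => coeff_haupt3Inv_of_lt K hm

/-- `t₂` is integral over `ℤ[j]`: the monic cubic. -/
theorem haupt2_monic_rel : haupt2 K ^ 3 + (768 - jqModC K) * haupt2 K ^ 2 + 196608 * haupt2 K
    + 16777216 = 0 := by
  linear_combination - haupt2_rel K

/-- `t₃` is integral over `ℤ[j]`: the monic quartic. -/
theorem haupt3_monic_rel : haupt3 K ^ 4 + (756 - jqModC K) * haupt3 K ^ 3 + 196830 * haupt3 K ^ 2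
    + 19131876 * haupt3 K + 387420489 = 0 := by
  linear_combination - haupt3_rel K

/-- the relation in the inverse chart: with `s = 1 / t₂`, `j · s = (1 + 256 s)³`. -/
theorem haupt2Inv_rel : jqModC K * haupt2Inv K = (1 + 256 * haupt2Inv K) ^ 3 := by
  linear_combination haupt2Inv K ^ 3 * haupt2_rel K
    + ((1 + 256 * haupt2Inv K) ^ 2
        + (1 + 256 * haupt2Inv K) * (haupt2 K * haupt2Inv K + 256 * haupt2Inv K)
        + (haupt2 K * haupt2Inv K + 256 * haupt2Inv K) ^ 2
        - (haupt2 K * haupt2Inv K + 1) * jqModC K * haupt2Inv K) * haupt2_mul_inv K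

/-- the relation in the inverse chart: with `s = 1 / t₃`, `j · s = (1 + 27 s)(1 + 243 s)³`. -/
theorem haupt3Inv_rel :
    jqModC K * haupt3Inv K = (1 + 27 * haupt3Inv K) * (1 + 243 * haupt3Inv K) ^ 3 := by
  linear_combination haupt3Inv K ^ 4 * haupt3_rel K
    + ((1 + 27 * haupt3Inv K) * ((1 + 243 * haupt3Inv K) ^ 2
          + (1 + 243 * haupt3Inv K) * (haupt3 K * haupt3Inv K + 243 * haupt3Inv K)
          + (haupt3 K * haupt3Inv K + 243 * haupt3Inv K) ^ 2)
        + (haupt3 K * haupt3Inv K + 243 * haupt3Inv K) ^ 3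
        - (1 + haupt3 K * haupt3Inv K + (haupt3 K * haupt3Inv K) ^ 2) * jqModC K * haupt3Inv K)
      * haupt3_mul_inv K

end General

section Field

variable (K : Type*) [Field K] (L : ℕ) [NeZero L]

theorem coe_inv_hauptEl2 (hL : 2 ∣ L) :
    (((hauptEl2 K L hL)⁻¹ : ↥(modularFunctionFieldFullC K L)) : LaurentSeries K) =
      haupt2Inv K := by
  rw [haupt2Inv_eq_inv]
  rfl

theorem coe_inv_hauptEl3 (hL : 3 ∣ L) :
    (((hauptEl3 K L hL)⁻¹ : ↥(modularFunctionFieldFullC K L)) : LaurentSeries K) =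
      haupt3Inv K := by
  rw [haupt3Inv_eq_inv]
  rfl

/-- `j · s = (1 + 256 s)³` for `s = 1 / t₂` in `K(j(q^d) : d ∣ L)`. -/
theorem hauptEl2_inv_rel (hL : 2 ∣ L) :
    jEl K L * (hauptEl2 K L hL)⁻¹ = (1 + 256 * (hauptEl2 K L hL)⁻¹) ^ 3 := by
  apply Subtype.ext
  push_cast
  rw [coe_hauptEl2, coe_jEl, ← haupt2Inv_eq_inv]
  exact haupt2Inv_rel K

/-- `j · s = (1 + 27 s)(1 + 243 s)³` for `s = 1 / t₃` in `K(j(q^d) : d ∣ L)`. -/
theorem hauptEl3_inv_rel (hL : 3 ∣ L) :
    jEl K L * (hauptEl3 K L hL)⁻¹ =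
      (1 + 27 * (hauptEl3 K L hL)⁻¹) * (1 + 243 * (hauptEl3 K L hL)⁻¹) ^ 3 := by
  apply Subtype.ext
  push_cast
  rw [coe_hauptEl3, coe_jEl, ← haupt3Inv_eq_inv]
  exact haupt3Inv_rel K

omit [NeZero L] in
theorem coeff_ofNat_neg_one (n : ℕ) [n.AtLeastTwo] :
    (OfNat.ofNat n : LaurentSeries K).coeff (-1) = 0 := by
  rw [← map_ofNat (HahnSeries.C (Γ := ℤ) (R := K)) n, HahnSeries.C_apply,
    HahnSeries.coeff_single_of_ne (by norm_num)]

omit [NeZero L] in
theorem haupt2_add_ofNat_ne_zero (n : ℕ) [n.AtLeastTwo] :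
    haupt2 K + OfNat.ofNat n ≠ 0 := by
  intro h
  have h1 := congrArg (fun f : LaurentSeries K => f.coeff (-1)) h
  simp only [HahnSeries.coeff_add, coeff_haupt2_neg_one, HahnSeries.coeff_zero,
    coeff_ofNat_neg_one, add_zero] at h1
  exact one_ne_zero h1

omit [NeZero L] in
theorem haupt3_add_ofNat_ne_zero (n : ℕ) [n.AtLeastTwo] :
    haupt3 K + OfNat.ofNat n ≠ 0 := by
  intro h
  have h1 := congrArg (fun f : LaurentSeries K => f.coeff (-1)) h
  simp only [HahnSeries.coeff_add, coeff_haupt3_neg_one, HahnSeries.coeff_zero,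
    coeff_ofNat_neg_one, add_zero] at h1
  exact one_ne_zero h1

omit [NeZero L] in
/-- `z = t₂ / (t₂ + 256)` is integral over `ℤ[1/j]`: `j z³ - j z² + 256 = 0`
(i.e. `z³ - z² + 256 / j = 0`). -/
theorem haupt2_z_rel (z : LaurentSeries K) (hz : z * (haupt2 K + 256) = haupt2 K) :
    jqModC K * z ^ 3 - jqModC K * z ^ 2 + 256 = 0 := by
  have h3 : (haupt2 K + 256) ^ 3 ≠ 0 := pow_ne_zero 3 (haupt2_add_ofNat_ne_zero K 256)
  apply mul_left_cancel₀ h3
  linear_combination (jqModC K * ((z * (haupt2 K + 256)) ^ 2 + z * (haupt2 K + 256) * haupt2 K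
      + haupt2 K ^ 2) - jqModC K * (haupt2 K + 256) * (z * (haupt2 K + 256) + haupt2 K)) * hz
    - 256 * haupt2_rel K

omit [NeZero L] in
/-- `z = t₃ / (t₃ + 243)` is integral over `ℤ[1/j]`: `j z⁴ - j z³ + 216 z + 27 = 0`
(i.e. `z⁴ - z³ + (216 z + 27) / j = 0`). -/
theorem haupt3_z_rel (z : LaurentSeries K) (hz : z * (haupt3 K + 243) = haupt3 K) :
    jqModC K * z ^ 4 - jqModC K * z ^ 3 + 216 * z + 27 = 0 := by
  have h4 : (haupt3 K + 243) ^ 4 ≠ 0 := pow_ne_zero 4 (haupt3_add_ofNat_ne_zero K 243)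
  apply mul_left_cancel₀ h4
  linear_combination (jqModC K * ((z * (haupt3 K + 243)) ^ 3
        + (z * (haupt3 K + 243)) ^ 2 * haupt3 K + z * (haupt3 K + 243) * haupt3 K ^ 2
        + haupt3 K ^ 3)
      - jqModC K * (haupt3 K + 243) * ((z * (haupt3 K + 243)) ^ 2
        + z * (haupt3 K + 243) * haupt3 K + haupt3 K ^ 2)
      + 216 * (haupt3 K + 243) ^ 3) * hz
    - 243 * haupt3_rel K

end Field

end

end Fermat.Agent.S18.H69
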