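import Mathlib

/-!
# S18, node NC-ASM: "non-colliding branch points ⇒ normal special fibre" (assembly)

Abstract setting: `R` an integrally closed noetherian domain with fraction field `K` of
characteristic zero, `F / K` a finite extension, `B = integralClosure R F`.  A *reduction datum*
is a pair of surjections `ρR : R →+* Rb`, `ρB : B →+* Bb` with kernels `(π)` and `π B`, compatible
with the algebra structures, where `Rb` is a PID and `Bb` a domain.

* `trace_eq_mul_of_pow_eq_smul` : lemma (D) (characteristic-free, no Dedekind structure).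
* `isIntegrallyClosed_of_core` : the assembly: if the discriminant of `Bb / Rb` is nonzero and the
  characteristic-zero input `(C)` holds for an element `q` with radical reduction, then `Bb` is
  integrally closed.
-/

set_option autoImplicit false

open Polynomial nonZeroDivisors

namespace Fermat.Agent.S18.H81

/-! ## (D): the trace lemma on the special fibre -/

/-- **(D)**  `T` an integrally closed domain, `L` a finite separable extension of its fraction
field, `P : T` a radical element.  If `y : L` is integral over `T` and `y ^ N = P • w` with `w`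
integral, then `P ∣ Tr(y)`. -/
theorem trace_eq_mul_of_pow_eq_smul
    {T Kb L : Type*} [CommRing T] [IsDomain T] [IsIntegrallyClosed T]
    [Field Kb] [Algebra T Kb] [IsFractionRing T Kb]
    [Field L] [Algebra Kb L] [Algebra T L] [IsScalarTower T Kb L]
    [FiniteDimensional Kb L] [Algebra.IsSeparable Kb L]
    (P : T) (hP : IsRadical P) (hP0 : P ≠ 0)
    (y : L) (hy : IsIntegral T y) (N : ℕ) (w : L) (hw : IsIntegral T w) (hyw : y ^ N = P • w) :
    ∃ t : T, Algebra.trace Kb L y = algebraMap T Kb (P * t) := by
  classical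
  let Ω := AlgebraicClosure L
  let I : Subalgebra T Ω := integralClosure T Ω
  let J : Ideal I := Ideal.span {algebraMap T I P}
  have hsum := trace_eq_sum_embeddings (K := Kb) (L := L) Ω (x := y)
  -- each conjugate is integral
  have hint : ∀ (σ : L →ₐ[Kb] Ω) (z : L), IsIntegral T z → IsIntegral T (σ z) := fun σ z hz =>
    hz.map (σ.restrictScalars T)
  -- each conjugate lies in the radical of `J`
  have hrad : ∀ σ : L →ₐ[Kb] Ω, (⟨σ y, hint σ y hy⟩ : I) ∈ J.radical := by
    intro σ
    refine ⟨N, ?_⟩
    rw [Ideal.mem_span_singleton]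
    refine ⟨⟨σ w, hint σ w hw⟩, ?_⟩
    apply Subtype.ext
    have h1 : σ (y ^ N) = σ (P • w) := congrArg σ hyw
    rw [map_pow, Algebra.smul_def, map_mul] at h1
    have h2 : σ (algebraMap T L P) = algebraMap T Ω P := by
      rw [IsScalarTower.algebraMap_apply T Kb L, AlgHom.commutes,
        ← IsScalarTower.algebraMap_apply T Kb Ω]
    rw [h2] at h1
    simpa using h1
  have hS : (∑ σ : L →ₐ[Kb] Ω, (⟨σ y, hint σ y hy⟩ : I)) ∈ J.radical :=
    Ideal.sum_mem _ fun σ _ => hrad σ
  obtain ⟨M, hM⟩ := hS
  rw [Ideal.mem_span_singleton] at hM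
  obtain ⟨v, hv⟩ := hM
  -- the trace is integral, hence in `T`
  obtain ⟨τ, hτ⟩ := IsIntegrallyClosed.isIntegral_iff.mp
    (Algebra.isIntegral_trace (R := T) (L := Kb) (F := L) hy)
  have hSΩ : ((∑ σ : L →ₐ[Kb] Ω, (⟨σ y, hint σ y hy⟩ : I) : I) : Ω) = algebraMap T Ω τ := by
    rw [AddSubmonoidClass.coe_finsetSum, ← hsum, ← hτ, ← IsScalarTower.algebraMap_apply]
  have hvΩ : algebraMap T Ω (τ ^ M) = algebraMap T Ω P * (v : Ω) := by
    have := congrArg (Subtype.val) hv
    simp only [SubmonoidClass.coe_pow, hSΩ, MulMemClass.coe_mul] at this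
    rw [map_pow]
    exact this
  have hPK : algebraMap T Kb P ≠ 0 := by
    simpa using (IsFractionRing.injective T Kb).ne hP0
  have hv' : (v : Ω) = algebraMap Kb Ω (algebraMap T Kb (τ ^ M) / algebraMap T Kb P) := by
    have hPΩ : algebraMap T Ω P ≠ 0 := by
      rw [IsScalarTower.algebraMap_apply T Kb Ω]
      simpa using hPK
    rw [map_div₀, ← IsScalarTower.algebraMap_apply, ← IsScalarTower.algebraMap_apply, hvΩ,
      mul_div_cancel_left₀ _ hPΩ]
  have hq : IsIntegral T (algebraMap T Kb (τ ^ M) / algebraMap T Kb P) := by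
    rw [← isIntegral_algebraMap_iff (algebraMap Kb Ω).injective, ← hv']
    exact v.2
  obtain ⟨t', ht'⟩ := IsIntegrallyClosed.isIntegral_iff.mp hq
  have hdvd : P ∣ τ ^ M := by
    refine ⟨t', ?_⟩
    apply IsFractionRing.injective T Kb
    rw [map_mul, ht', mul_div_cancel₀ _ hPK]
  obtain ⟨t, ht⟩ := hP M τ hdvd
  exact ⟨t, by rw [← hτ, ht]⟩

/-! ## (f): the special-fibre half -/

/-- The special-fibre half of the assembly. -/
theorem exists_algebraMap_eq_of_isIntegral
    {T S Kb L : Type*} [CommRing T] [IsDomain T] [IsIntegrallyClosed T]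
    [CommRing S] [IsDomain S] [Algebra T S] [FaithfulSMul T S]
    [Field Kb] [Algebra T Kb] [IsFractionRing T Kb]
    [Field L] [Algebra S L] [IsFractionRing S L] [Algebra Kb L] [Algebra T L]
    [IsScalarTower T Kb L] [IsScalarTower T S L]
    {n : ℕ} (βb : Module.Basis (Fin n) T S) (hdisc : Algebra.discr T βb ≠ 0)
    (P d : T) (hP : IsRadical P) (hP0 : P ≠ 0) (hd : d ≠ 0)
    (ub : Fin n → S)
    (hub : ∀ i l, Algebra.trace T S (ub i * βb l) = if i = l then d else 0)
    (hY : ∀ i, ∃ (Y W : S) (N : ℕ), d • Y = P • ub i ∧ Y ^ N = P • W)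
    (x : L) (hx : IsIntegral T x) : ∃ y : S, algebraMap S L y = x := by
  classical
  have hfin : Module.Finite T S := Module.Finite.of_basis βb
  have hfree : Module.Free T S := Module.Free.of_basis βb
  have halg : Algebra.IsAlgebraic T S := inferInstance
  have hloc : IsLocalization (Algebra.algebraMapSubmonoid S T⁰) L := inferInstance
  let bL : Module.Basis (Fin n) Kb L := βb.localizationLocalization Kb T⁰ L
  have hbL : ∀ i, bL i = algebraMap S L (βb i) := fun i =>
    Module.Basis.localizationLocalization_apply Kb T⁰ L βb i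
  have hfinL : FiniteDimensional Kb L := Module.Finite.of_basis bL
  have hdiscL : Algebra.discr Kb bL ≠ 0 := by
    rw [Algebra.discr_localizationLocalization T T⁰ L βb]
    simpa using (IsFractionRing.injective T Kb).ne hdisc
  have hn : Nonempty (Fin n) := by
    by_contra hne
    rw [not_nonempty_iff] at hne
    have : Subsingleton L := by
      refine ⟨fun a b => ?_⟩
      apply bL.ext_elem
      intro i
      exact (hne.false i).elim
    exact one_ne_zero (Subsingleton.elim (1 : L) 0)
  have hsep : Algebra.IsSeparable Kb L := by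
    by_contra hns
    apply hdiscL
    have h0 := Algebra.trace_eq_zero_of_not_isSeparable hns
    rw [Algebra.discr_def]
    have : Algebra.traceMatrix Kb bL = 0 := by
      ext i j
      simp [Algebra.traceMatrix, Algebra.traceForm_apply, h0]
    rw [this, Matrix.det_zero]
  -- coordinates of `x`
  have htr : ∀ a : S, Algebra.trace Kb L (algebraMap S L a) = algebraMap T Kb (Algebra.trace T S a) :=
    fun a => Algebra.trace_localization T T⁰ a
  have hkey : ∀ i, ∃ t : T, bL.repr x i = algebraMap T Kb t := by
    intro i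
    obtain ⟨Y, W, N, hYd, hYW⟩ := hY i
    -- trace of `ub i * x`
    have h1 : Algebra.trace Kb L (algebraMap S L (ub i) * x) = bL.repr x i * algebraMap T Kb d := by
      conv_lhs => rw [← bL.sum_repr x]
      rw [Finset.mul_sum, map_sum]
      have : ∀ l, Algebra.trace Kb L (algebraMap S L (ub i) * (bL.repr x l • bL l)) =
          bL.repr x l * algebraMap T Kb (if i = l then d else 0) := by
        intro l
        rw [mul_smul_comm, map_smul, hbL, ← map_mul, htr, hub, smul_eq_mul]
      simp_rw [this, apply_ite (algebraMap T Kb), map_zero, mul_ite, mul_zero]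
      rw [Finset.sum_ite_eq]
      simp
    -- integrality
    have hSint : ∀ a : S, IsIntegral T (algebraMap S L a) := fun a =>
      (Algebra.IsIntegral.isIntegral (R := T) a).map (IsScalarTower.toAlgHom T S L)
    have hy : IsIntegral T (algebraMap S L Y * x) := (hSint Y).mul hx
    have hw : IsIntegral T (algebraMap S L W * x ^ N) := (hSint W).mul (hx.pow N)
    have hyw : (algebraMap S L Y * x) ^ N = P • (algebraMap S L W * x ^ N) := by
      rw [mul_pow, ← map_pow, hYW, Algebra.smul_def, map_mul, Algebra.smul_def,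
        ← IsScalarTower.algebraMap_apply, mul_assoc]
    obtain ⟨t, ht⟩ := trace_eq_mul_of_pow_eq_smul (Kb := Kb) P hP hP0 _ hy N _ hw hyw
    refine ⟨t, ?_⟩
    have h2 : algebraMap T Kb d * Algebra.trace Kb L (algebraMap S L Y * x) =
        algebraMap T Kb P * Algebra.trace Kb L (algebraMap S L (ub i) * x) := by
      have e : ∀ (c : T) (a : S), algebraMap S L (c • a) =
          algebraMap Kb L (algebraMap T Kb c) * algebraMap S L a := by
        intro c a
        rw [Algebra.smul_def, map_mul, ← IsScalarTower.algebraMap_apply T S L,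
          IsScalarTower.algebraMap_apply T Kb L]
      have hsm : ∀ (c : Kb) (v : L), Algebra.trace Kb L (algebraMap Kb L c * v) =
          c * Algebra.trace Kb L v := fun c v => by
        rw [← Algebra.smul_def, map_smul, smul_eq_mul]
      calc algebraMap T Kb d * Algebra.trace Kb L (algebraMap S L Y * x)
          = Algebra.trace Kb L (algebraMap Kb L (algebraMap T Kb d) * (algebraMap S L Y * x)) := by
            rw [hsm]
        _ = Algebra.trace Kb L (algebraMap S L (d • Y) * x) := by rw [e, mul_assoc]
        _ = Algebra.trace Kb L (algebraMap S L (P • ub i) * x) := by rw [hYd]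
        _ = Algebra.trace Kb L (algebraMap Kb L (algebraMap T Kb P) * (algebraMap S L (ub i) * x)) := by
            rw [e, mul_assoc]
        _ = algebraMap T Kb P * Algebra.trace Kb L (algebraMap S L (ub i) * x) := by
            rw [hsm]
    rw [ht, h1, map_mul] at h2
    have hd' : algebraMap T Kb d ≠ 0 := by simpa using (IsFractionRing.injective T Kb).ne hd
    have hP' : algebraMap T Kb P ≠ 0 := by simpa using (IsFractionRing.injective T Kb).ne hP0
    have h3 : algebraMap T Kb P * algebraMap T Kb d * (bL.repr x i - algebraMap T Kb t) = 0 := by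
      linear_combination -h2
    rcases mul_eq_zero.mp h3 with h4 | h4
    · exact absurd h4 (mul_ne_zero hP' hd')
    · exact sub_eq_zero.mp h4
  choose t ht using hkey
  refine ⟨∑ l, t l • βb l, ?_⟩
  rw [map_sum]
  conv_rhs => rw [← bL.sum_repr x]
  refine Finset.sum_congr rfl fun l _ => ?_
  rw [ht, hbL, algebraMap_smul, Algebra.smul_def, map_mul, Algebra.smul_def,
    ← IsScalarTower.algebraMap_apply]

/-! ## The core -/

section Core

variable {R : Type*} (K : Type*) {F : Type*} [CommRing R] [IsDomain R] [IsIntegrallyClosed R]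
  [IsNoetherianRing R]
  [Field K] [Algebra R K] [IsFractionRing R K] [CharZero K]
  [Field F] [Algebra K F] [Algebra R F] [IsScalarTower R K F] [FiniteDimensional K F]
  {Rb Bb : Type*} [CommRing Rb] [IsDomain Rb] [IsPrincipalIdealRing Rb]
  [CommRing Bb] [IsDomain Bb] [Algebra Rb Bb]
  (π : R) (hπ0 : π ≠ 0)
  (ρR : R →+* Rb) (hρR : Function.Surjective ρR) (hkerR : ∀ r, ρR r = 0 ↔ π ∣ r)
  (ρB : integralClosure R F →+* Bb) (hρB : Function.Surjective ρB)
  (hkerB : ∀ b, ρB b = 0 ↔ algebraMap R (integralClosure R F) π ∣ b)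
  (hcompat : ∀ r, ρB (algebraMap R (integralClosure R F) r) = algebraMap Rb Bb (ρR r))

include K hπ0 hρR hkerR hkerB hcompat in
omit [IsNoetherianRing R] [CharZero K] [FiniteDimensional K F] [IsDomain Rb]
  [IsPrincipalIdealRing Rb] [IsDomain Bb] in
/-- `Rb → Bb` is injective (`π B ∩ R = π R`). -/
theorem algebraMap_injective_of_red : Function.Injective (algebraMap Rb Bb) := by
  rw [injective_iff_map_eq_zero]
  intro a ha
  obtain ⟨r, rfl⟩ := hρR a
  rw [← hcompat, hkerB] at ha
  obtain ⟨c, hc⟩ := ha
  rw [hkerR]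
  have hcF : algebraMap R F r = algebraMap R F π * (c : F) := by
    have := congrArg (Subtype.val) hc
    simpa using this
  have hπK : algebraMap R K π ≠ 0 := by
    simpa using (IsFractionRing.injective R K).ne hπ0
  have hπF : algebraMap R F π ≠ 0 := by
    rw [IsScalarTower.algebraMap_apply R K F]
    simpa using hπK
  have hc' : (c : F) = algebraMap K F (algebraMap R K r / algebraMap R K π) := by
    rw [map_div₀, ← IsScalarTower.algebraMap_apply, ← IsScalarTower.algebraMap_apply, hcF,
      mul_div_cancel_left₀ _ hπF]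
  have hint : IsIntegral R (algebraMap R K r / algebraMap R K π) := by
    rw [← isIntegral_algebraMap_iff (algebraMap K F).injective, ← hc']
    exact c.2
  obtain ⟨t, ht⟩ := IsIntegrallyClosed.isIntegral_iff.mp hint
  refine ⟨t, ?_⟩
  apply IsFractionRing.injective R K
  rw [map_mul, ht, mul_div_cancel₀ _ hπK]

include K hπ0 hρR hkerR hρB hkerB hcompat in
/-- Lifting data: an `Rb`-basis of `Bb`, lifts to `B`, and `s ≡ 1` with `s B ⊆ Λ`. -/
theorem exists_lift_data :
    ∃ (n : ℕ) (βb : Module.Basis (Fin n) Rb Bb) (β : Fin n → integralClosure R F) (s : R),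
      (∀ i, ρB (β i) = βb i) ∧ ρR s = 1 ∧
      ∀ b : integralClosure R F, ∃ c : Fin n → R, s • b = ∑ i, c i • β i := by
  classical
  have hinj := algebraMap_injective_of_red K π hπ0 ρR hρR hkerR ρB hkerB hcompat
  have : Module.Finite R (integralClosure R F) := IsIntegralClosure.finite R K F _
  have hsmul : ∀ (r : R) (b : integralClosure R F), ρB (r • b) = ρR r • ρB b := by
    intro r b
    rw [Algebra.smul_def, map_mul, hcompat, Algebra.smul_def]
  let f : integralClosure R F →ₛₗ[ρR] Bb :=
    { toFun := ρB, map_add' := map_add ρB, map_smul' := hsmul }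
  have : RingHomSurjective ρR := ⟨hρR⟩
  have : Module.Finite Rb Bb := Module.Finite.of_surjective f hρB
  have : Module.IsTorsionFree Rb Bb := Module.isTorsionFree_iff_algebraMap_injective.mpr hinj
  obtain ⟨n, βb⟩ := Module.basisOfFiniteTypeTorsionFree' (R := Rb) (M := Bb)
  choose β hβ using fun i => hρB (βb i)
  -- decomposition `b = ∑ c i • β i + π • b'`
  have hdec : ∀ b : integralClosure R F, ∃ c : Fin n → R, ∃ b' : integralClosure R F,
      b = ∑ i, c i • β i + π • b' := by
    intro b
    choose c hc using fun i => hρR (βb.repr (ρB b) i)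
    have h0 : ρB (b - ∑ i, c i • β i) = 0 := by
      rw [map_sub, map_sum, sub_eq_zero]
      conv_lhs => rw [← βb.sum_repr (ρB b)]
      refine Finset.sum_congr rfl fun i _ => ?_
      rw [hsmul, hc, hβ]
    rw [hkerB] at h0
    obtain ⟨b', hb'⟩ := h0
    refine ⟨c, b', ?_⟩
    rw [Algebra.smul_def, ← hb']
    ring
  -- Nakayama
  let Λ : Submodule R (integralClosure R F) := Submodule.span R (Set.range β)
  obtain ⟨s, hs1, hs⟩ := Submodule.exists_sub_one_mem_and_smul_eq_zero_of_fg_of_le_smul
    (Ideal.span {π}) (⊤ : Submodule R (integralClosure R F ⧸ Λ)) Module.Finite.fg_top (by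
      intro x _
      obtain ⟨b, rfl⟩ := Submodule.Quotient.mk_surjective Λ x
      obtain ⟨c, b', hb⟩ := hdec b
      have hx : Submodule.Quotient.mk (p := Λ) b = π • Submodule.Quotient.mk (p := Λ) b' := by
        rw [← Submodule.Quotient.mk_smul, Submodule.Quotient.eq, hb, add_sub_cancel_right]
        exact Submodule.sum_mem _ fun i _ =>
          Submodule.smul_mem _ _ (Submodule.subset_span ⟨i, rfl⟩)
      rw [hx]
      exact Submodule.smul_mem_smul (Ideal.mem_span_singleton_self π) Submodule.mem_top)
  refine ⟨n, βb, β, s, hβ, ?_, ?_⟩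
  · have h1 : ρR (s - 1) = 0 := (hkerR _).mpr (Ideal.mem_span_singleton.mp hs1)
    rw [map_sub, map_one, sub_eq_zero] at h1
    exact h1
  · intro b
    have hb := hs (Submodule.Quotient.mk b) Submodule.mem_top
    rw [← Submodule.Quotient.mk_smul, Submodule.Quotient.mk_eq_zero] at hb
    obtain ⟨c, hc⟩ := (Submodule.mem_span_range_iff_exists_fun R).mp hb
    exact ⟨c, hc.symm⟩


include hcompat in
omit [IsDomain R] [IsIntegrallyClosed R] [IsNoetherianRing R] [IsDomain Rb]
  [IsPrincipalIdealRing Rb] [IsDomain Bb] in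
theorem ρB_smul (r : R) (b : integralClosure R F) : ρB (r • b) = ρR r • ρB b := by
  rw [Algebra.smul_def, map_mul, hcompat, Algebra.smul_def]

include K hπ0 hkerR hcompat in
omit [IsIntegrallyClosed R] [IsPrincipalIdealRing Rb] [IsDomain Bb] in
/-- The lifts form a `K`-basis of `F`. -/
theorem exists_basis_of_lift_data {n : ℕ} (βb : Module.Basis (Fin n) Rb Bb)
    (β : Fin n → integralClosure R F) (s : R) (hβ : ∀ i, ρB (β i) = βb i) (hs1 : ρR s = 1)
    (hs : ∀ b : integralClosure R F, ∃ c : Fin n → R, s • b = ∑ i, c i • β i) :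
    ∃ bF : Module.Basis (Fin n) K F, ∀ i, bF i = (β i : F) := by
  classical
  have hπF : algebraMap R F π ≠ 0 := by
    rw [IsScalarTower.algebraMap_apply R K F]
    simpa using (IsFractionRing.injective R K).ne hπ0
  have hπu : ¬ IsUnit π := by
    intro hu
    have : ρR 1 = 0 := (hkerR 1).mpr hu.dvd
    rw [map_one] at this
    exact one_ne_zero this
  -- `π ∣` all coefficients of a relation
  have hdiv : ∀ g : Fin n → R, ∑ i, g i • (β i : F) = 0 → ∀ i, π ∣ g i := by
    intro g hg i
    have hgB : ∑ i, g i • β i = 0 := by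
      apply Subtype.ext
      simpa using hg
    have h2 := congrArg ρB hgB
    rw [map_sum, map_zero] at h2
    simp_rw [ρB_smul ρR ρB hcompat, hβ] at h2
    have h3 := Fintype.linearIndependent_iff.mp βb.linearIndependent (fun i => ρR (g i)) h2 i
    exact (hkerR _).mp h3
  have hpow : ∀ (m : ℕ) (g : Fin n → R), ∑ i, g i • (β i : F) = 0 → ∀ i, π ^ m ∣ g i := by
    intro m
    induction m with
    | zero => intro g _ i; simp
    | succ m ih =>
      intro g hg i
      choose g' hg' using hdiv g hg
      have hg0 : ∑ i, g' i • (β i : F) = 0 := by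
        have h1 : algebraMap R F π * ∑ i, g' i • (β i : F) = 0 := by
          rw [Finset.mul_sum, ← hg]
          refine Finset.sum_congr rfl fun i _ => ?_
          rw [hg' i, mul_smul, Algebra.smul_def π]
        exact (mul_eq_zero.mp h1).resolve_left hπF
      obtain ⟨c, hc⟩ := ih g' hg0 i
      exact ⟨c, by rw [hg' i, hc, pow_succ]; ring⟩
  have hliR : LinearIndependent R (fun i => (β i : F)) := by
    rw [Fintype.linearIndependent_iff]
    intro g hg i
    by_contra hne
    obtain ⟨m, hm⟩ := FiniteMultiplicity.of_not_isUnit hπu hne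
    exact hm (hpow _ g hg i)
  have hliK : LinearIndependent K (fun i => (β i : F)) :=
    (LinearIndependent.iff_fractionRing R K).mp hliR
  have hs0 : s ≠ 0 := by
    rintro rfl
    rw [map_zero] at hs1
    exact zero_ne_one hs1
  have hsp : ⊤ ≤ Submodule.span K (Set.range fun i => (β i : F)) := by
    intro y _
    obtain ⟨m, hm⟩ := IsIntegral.exists_multiple_integral_of_isLocalization R⁰ y
      (Algebra.IsIntegral.isIntegral (R := K) y)
    obtain ⟨c, hc⟩ := hs ⟨_, hm⟩
    have hcF : s • ((m : R) • y) = ∑ i, c i • (β i : F) := by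
      have := congrArg Subtype.val hc
      simpa [Submonoid.smul_def] using this
    have hsm : algebraMap R K (s * m) ≠ 0 := by
      simpa using (IsFractionRing.injective R K).ne (mul_ne_zero hs0 (nonZeroDivisors.ne_zero m.2))
    have hy : y = (algebraMap R K (s * m))⁻¹ • ∑ i, c i • (β i : F) := by
      rw [← hcF, smul_smul, ← algebraMap_smul K (s * (m : R)) y, smul_smul,
        inv_mul_cancel₀ hsm, one_smul]
    rw [hy]
    refine Submodule.smul_mem _ _ (Submodule.sum_mem _ fun i _ => ?_)
    rw [← algebraMap_smul K (c i) (β i : F)]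
    exact Submodule.smul_mem _ _ (Submodule.subset_span ⟨i, rfl⟩)
  exact ⟨Module.Basis.mk hliK hsp, fun i => Module.Basis.mk_apply hliK hsp i⟩


include hcompat in
omit [IsDomain R] [IsNoetherianRing R] [CharZero K] [IsDomain Rb] [IsPrincipalIdealRing Rb]
  [IsDomain Bb] in
/-- **(b)** the trace of an element of `B` lies in `R` and reduces to the trace of its
reduction. -/
theorem trace_red {n : ℕ} (βb : Module.Basis (Fin n) Rb Bb)
    (β : Fin n → integralClosure R F) (s : R) (hβ : ∀ i, ρB (β i) = βb i) (hs1 : ρR s = 1)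
    (hs : ∀ b : integralClosure R F, ∃ c : Fin n → R, s • b = ∑ i, c i • β i)
    (bF : Module.Basis (Fin n) K F) (hbF : ∀ i, bF i = (β i : F)) (b : integralClosure R F) :
    ∃ t : R, Algebra.trace K F (b : F) = algebraMap R K t ∧
      ρR t = Algebra.trace Rb Bb (ρB b) := by
  classical
  choose c hc using fun j => hs (b * β j)
  have hF : ∀ i j, algebraMap R K s * Algebra.leftMulMatrix bF (b : F) i j =
      algebraMap R K (c j i) := by
    intro i j
    rw [Algebra.leftMulMatrix_eq_repr_mul, hbF]
    have h1 : s • ((b : F) * (β j : F)) = ∑ i, algebraMap R K (c j i) • bF i := by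
      have := congrArg Subtype.val (hc j)
      simp only [hbF, algebraMap_smul]
      simpa using this
    have h2 := congrArg (fun y => bF.repr y i) h1
    simp only [Module.Basis.repr_sum_self] at h2
    rw [← h2, ← algebraMap_smul K s ((b : F) * (β j : F)), map_smul, Finsupp.smul_apply,
      smul_eq_mul]
  have hB : ∀ i j, Algebra.leftMulMatrix βb (ρB b) i j = ρR (c j i) := by
    intro i j
    rw [Algebra.leftMulMatrix_eq_repr_mul]
    have h1 : ρB b * βb j = ∑ i, ρR (c j i) • βb i := by
      have := congrArg ρB (hc j)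
      rw [ρB_smul ρR ρB hcompat, hs1, one_smul, map_mul, hβ, map_sum] at this
      simp_rw [ρB_smul ρR ρB hcompat, hβ] at this
      exact this
    rw [h1, Module.Basis.repr_sum_self]
  obtain ⟨t, ht⟩ := IsIntegrallyClosed.isIntegral_iff.mp
    (Algebra.isIntegral_trace (R := R) (L := K) (F := F) b.2)
  refine ⟨t, ht.symm, ?_⟩
  have h1 : algebraMap R K (s * t) = algebraMap R K (∑ i, c i i) := by
    rw [map_mul, ht, Algebra.trace_eq_matrix_trace bF, Matrix.trace, Finset.mul_sum, map_sum]
    exact Finset.sum_congr rfl fun i _ => hF i i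
  have h2 := IsFractionRing.injective R K h1
  rw [Algebra.trace_eq_matrix_trace βb, Matrix.trace]
  calc ρR t = ρR (s * t) := by rw [map_mul, hs1, one_mul]
    _ = ρR (∑ i, c i i) := by rw [h2]
    _ = ∑ i, ρR (c i i) := map_sum _ _ _
    _ = _ := Finset.sum_congr rfl fun i _ => (hB i i).symm

include K hπ0 hρR hkerR hkerB hcompat in
omit [IsNoetherianRing R] [CharZero K] [FiniteDimensional K F] [IsDomain Rb]
  [IsPrincipalIdealRing Rb] in
/-- **(d)** transfer: `π ^ k • y ∈ B`, `d • y ∈ B`, `ρR d ≠ 0` imply `y ∈ B`. -/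
theorem isIntegral_of_smul_of_pow_smul (d : R) (hd : ρR d ≠ 0) (y : F) (k : ℕ)
    (h1 : IsIntegral R (π ^ k • y)) (h2 : IsIntegral R (d • y)) : IsIntegral R y := by
  have hinj := algebraMap_injective_of_red K π hπ0 ρR hρR hkerR ρB hkerB hcompat
  have hπF : algebraMap R F π ≠ 0 := by
    rw [IsScalarTower.algebraMap_apply R K F]
    simpa using (IsFractionRing.injective R K).ne hπ0
  induction k with
  | zero => simpa using h1
  | succ k ih =>
    apply ih
    let b : integralClosure R F := ⟨π ^ (k + 1) • y, h1⟩
    let e : integralClosure R F := ⟨d • y, h2⟩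
    have hbe : d • b = π • (π ^ k • e) := by
      apply Subtype.ext
      show d • (π ^ (k + 1) • y) = π • (π ^ k • (d • y))
      rw [smul_smul, smul_smul, smul_smul, pow_succ]
      congr 1
      ring
    have h3 := congrArg ρB hbe
    rw [ρB_smul ρR ρB hcompat, ρB_smul ρR ρB hcompat, (hkerR π).mpr dvd_rfl, zero_smul,
      Algebra.smul_def] at h3
    have h4 : ρB b = 0 := by
      rcases mul_eq_zero.mp h3 with h | h
      · exact absurd (hinj (by rw [h, map_zero])) hd
      · exact h
    obtain ⟨c, hc⟩ := (hkerB b).mp h4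
    have hcF : π ^ (k + 1) • y = algebraMap R F π * (c : F) := by
      have := congrArg Subtype.val hc
      simpa [b] using this
    have : π ^ k • y = (c : F) := by
      apply mul_left_cancel₀ hπF
      rw [← hcF, pow_succ, Algebra.smul_def, Algebra.smul_def, map_mul]
      ring
    rw [this]
    exact c.2


include K hπ0 hρR hkerR hρB hkerB hcompat in
/-- **(NC), abstract core.**  Reduction datum `(ρR, ρB)` with `Rb` a PID and `Bb` a domain,
nonzero discriminant on the special fibre, `q` with radical nonzero reduction, and the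
characteristic-zero input `hC`: then `Bb` is integrally closed. -/
theorem isIntegrallyClosed_of_core
    (q : R) (hq : IsRadical (ρR q)) (hq0 : ρR q ≠ 0)
    (hdisc : ∀ (n : ℕ) (b : Module.Basis (Fin n) Rb Bb), Algebra.discr Rb b ≠ 0)
    (hC : ∀ z : F,
      (∀ b : F, IsIntegral R b → ∃ r : R, Algebra.trace K F (z * b) = algebraMap R K r) →
      ∃ (N k : ℕ) (w : F), IsIntegral R (π ^ k • (q • z)) ∧ IsIntegral R (π ^ k • w) ∧
        (q • z) ^ N = q • w) :
    IsIntegrallyClosed Bb := by
  classical
  have hinj := algebraMap_injective_of_red K π hπ0 ρR hρR hkerR ρB hkerB hcompat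
  obtain ⟨n, βb, β, s, hβ, hs1, hs⟩ :=
    exists_lift_data K π hπ0 ρR hρR hkerR ρB hρB hkerB hcompat
  obtain ⟨bF, hbF⟩ := exists_basis_of_lift_data K π hπ0 ρR hkerR ρB hcompat βb β s hβ hs1 hs
  have htr := trace_red K ρR ρB hcompat βb β s hβ hs1 hs bF hbF
  -- Gram matrix
  choose G hG1 hG2 using fun p : Fin n × Fin n => htr (β p.1 * β p.2)
  let Gm : Matrix (Fin n) (Fin n) R := Matrix.of fun i j => G (i, j)
  have hGm : ∀ i j, Gm i j = G (i, j) := fun i j => rfl
  obtain ⟨δ, hδdef⟩ : ∃ δ : R, δ = Gm.det := ⟨_, rfl⟩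
  have hδ : ρR δ ≠ 0 := by
    have : ρR δ = Algebra.discr Rb βb := by
      rw [hδdef, RingHom.map_det, Algebra.discr_def]
      congr 1
      ext i j
      simp [hGm, Algebra.traceMatrix, Algebra.traceForm_apply, hG2, hβ]
    rw [this]
    exact hdisc n βb
  have hδ0 : δ ≠ 0 := by
    rintro rfl
    exact hδ (map_zero _)
  have hδK : algebraMap R K δ ≠ 0 := by
    simpa using (IsFractionRing.injective R K).ne hδ0
  -- the elements `u i`
  let u : Fin n → integralClosure R F := fun i => ∑ j, Gm.adjugate i j • β j
  have huF : ∀ i, (u i : F) = ∑ j, algebraMap R K (Gm.adjugate i j) • (β j : F) := by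
    intro i
    simp only [u, AddSubmonoidClass.coe_finsetSum, algebraMap_smul]
    rfl
  have hu : ∀ i l, Algebra.trace K F ((u i : F) * (β l : F)) =
      algebraMap R K (if i = l then δ else 0) := by
    intro i l
    rw [huF, Finset.sum_mul, map_sum]
    simp_rw [smul_mul_assoc, map_smul, smul_eq_mul]
    have h2 : ∀ j, Algebra.trace K F ((β j : F) * (β l : F)) = algebraMap R K (Gm j l) :=
      fun j => hG1 (j, l)
    simp_rw [h2, ← map_mul, ← map_sum]
    congr 1
    have := congrFun (congrFun (Matrix.adjugate_mul Gm) i) l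
    simp only [Matrix.mul_apply, Matrix.smul_apply, Matrix.one_apply, smul_eq_mul, mul_ite,
      mul_one, mul_zero, ← hδdef] at this
    exact this
  have hub : ∀ i l, Algebra.trace Rb Bb (ρB (u i) * βb l) = if i = l then ρR δ else 0 := by
    intro i l
    obtain ⟨t, ht1, ht2⟩ := htr (u i * β l)
    rw [map_mul, hβ] at ht2
    rw [← ht2]
    have : t = if i = l then δ else 0 := by
      apply IsFractionRing.injective R K
      rw [← ht1, ← hu i l]
      rfl
    rw [this]
    split_ifs <;> simp
  -- the characteristic-zero input, for each `i`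
  have hY : ∀ i, ∃ (Y W : Bb) (N : ℕ), ρR δ • Y = ρR q • ρB (u i) ∧ Y ^ N = ρR q • W := by
    intro i
    obtain ⟨z, hzdef⟩ : ∃ z : F, z = (algebraMap R K s / algebraMap R K δ) • (u i : F) := ⟨_, rfl⟩
    have hz : ∀ b : F, IsIntegral R b →
        ∃ r : R, Algebra.trace K F (z * b) = algebraMap R K r := by
      intro b hb
      obtain ⟨c, hc⟩ := hs ⟨b, hb⟩
      refine ⟨c i, ?_⟩
      have hcF : algebraMap R K s • b = ∑ l, algebraMap R K (c l) • (β l : F) := by
        have := congrArg Subtype.val hc
        simp only [algebraMap_smul]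
        simpa using this
      have h1 : z * b = (algebraMap R K δ)⁻¹ •
          ∑ l, algebraMap R K (c l) • ((u i : F) * (β l : F)) := by
        rw [hzdef, div_eq_mul_inv, mul_comm (algebraMap R K s), mul_smul, smul_mul_assoc,
          smul_mul_assoc, ← mul_smul_comm, hcF, Finset.mul_sum]
        simp_rw [mul_smul_comm]
      rw [h1, map_smul, map_sum]
      simp_rw [map_smul, hu, smul_eq_mul, apply_ite (algebraMap R K), map_zero, mul_ite,
        mul_zero]
      rw [Finset.sum_ite_eq]
      simp only [Finset.mem_univ, if_true]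
      field_simp
    obtain ⟨N, k, w, hy1, hw1, hyw⟩ := hC z hz
    have hδz : δ • (q • z) = (q * s) • (u i : F) := by
      rw [hzdef, ← algebraMap_smul K δ, ← algebraMap_smul K q, ← algebraMap_smul K (q * s),
        smul_smul, smul_smul, map_mul]
      congr 1
      field_simp
    have hy : IsIntegral R (q • z) :=
      isIntegral_of_smul_of_pow_smul K π hπ0 ρR hρR hkerR ρB hkerB hcompat δ hδ _ k hy1
        (by rw [hδz]; exact (u i).2.smul _)
    have hw : IsIntegral R w :=
      isIntegral_of_smul_of_pow_smul K π hπ0 ρR hρR hkerR ρB hkerB hcompat q hq0 w k hw1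
        (by rw [← hyw]; exact hy.pow N)
    refine ⟨ρB ⟨q • z, hy⟩, ρB ⟨w, hw⟩, N, ?_, ?_⟩
    · have h1 : δ • (⟨q • z, hy⟩ : integralClosure R F) = (q * s) • u i := Subtype.ext hδz
      have h := congrArg ρB h1
      rw [ρB_smul ρR ρB hcompat, ρB_smul ρR ρB hcompat, map_mul, hs1, mul_one] at h
      exact h
    · have h1 : (⟨q • z, hy⟩ : integralClosure R F) ^ N = q • ⟨w, hw⟩ := Subtype.ext hyw
      have h := congrArg ρB h1
      rw [map_pow, ρB_smul ρR ρB hcompat] at h
      exact h
  -- finish with the special-fibre half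
  have hfaith : FaithfulSMul Rb Bb := (faithfulSMul_iff_algebraMap_injective Rb Bb).mpr hinj
  have hfin : Module.Finite Rb Bb := Module.Finite.of_basis βb
  rw [isIntegrallyClosed_iff (FractionRing Bb)]
  intro x hx
  let _ : Algebra (FractionRing Rb) (FractionRing Bb) :=
    FractionRing.liftAlgebra Rb (FractionRing Bb)
  have hxR : IsIntegral Rb x := isIntegral_trans x hx
  exact exists_algebraMap_eq_of_isIntegral (Kb := FractionRing Rb) βb (hdisc n βb) (ρR q) (ρR δ)
    hq hq0 hδ (fun i => ρB (u i)) hub hY x hxR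

end Core

end Fermat.Agent.S18.H81
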