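import Mathlib

/-!
# S18, (NC) bridge (BR-ii): separability of the special fibre gives a nonzero discriminant

`Rb` a domain (think `k₀[X]`), `Bb` a domain which is a free `Rb`-module of finite rank (think
`B ⧸ πB`).  If the fraction field of `Bb` is separable over the fraction field of `Rb`, then the
discriminant of every `Rb`-basis of `Bb` is nonzero.  Three shapes:

* `discr_ne_zero_of_isSeparable`: fraction fields given abstractly (`IsFractionRing`);
* `discr_ne_zero_of_forall_isSeparable`: separability given elementwise inside an ambient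
  field `Ω` through an injective ring hom `ψ : Bb →+* Ω`;
* `discr_ne_zero_of_reduction`: the reduction datum `ρ : B →+* Ω`, `rhoB : B →+* Bb`,
  `rhoR : R →+* Rb`.
-/

set_option autoImplicit false

open scoped nonZeroDivisors

namespace Fermat.Agent.S18.H68

/-- **(S1)** separable fraction field extension: every basis has nonzero discriminant. -/
theorem discr_ne_zero_of_isSeparable {Rb Bb : Type*} [CommRing Rb] [IsDomain Rb] [CommRing Bb]
    [IsDomain Bb] [Algebra Rb Bb] (K L : Type*) [Field K] [Field L] [Algebra Rb K]
    [IsFractionRing Rb K] [Algebra Bb L] [IsFractionRing Bb L] [Algebra K L] [Algebra Rb L]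
    [IsScalarTower Rb K L] [IsScalarTower Rb Bb L] [Algebra.IsSeparable K L]
    {ι : Type*} [Fintype ι] [DecidableEq ι] (b : Module.Basis ι Rb Bb) :
    Algebra.discr Rb b ≠ 0 := by
  have hinjL : Function.Injective (algebraMap Rb L) := by
    rw [IsScalarTower.algebraMap_eq Rb K L]
    exact (algebraMap K L).injective.comp (IsFractionRing.injective Rb K)
  have hinj : Function.Injective (algebraMap Rb Bb) := by
    intro x y hxy
    apply hinjL
    rw [IsScalarTower.algebraMap_apply Rb Bb L, IsScalarTower.algebraMap_apply Rb Bb L, hxy]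
  have : FaithfulSMul Rb Bb := (faithfulSMul_iff_algebraMap_injective Rb Bb).mpr hinj
  have : Module.Finite Rb Bb := Module.Finite.of_basis b
  have : Algebra.IsIntegral Rb Bb := Algebra.IsIntegral.of_finite Rb Bb
  have : Algebra.IsAlgebraic Rb Bb := Algebra.IsIntegral.isAlgebraic
  have : IsLocalization (Algebra.algebraMapSubmonoid Bb Rb⁰) L := inferInstance
  have h := Algebra.discr_localizationLocalization Rb Rb⁰ L (Rₘ := K) b
  have : Module.Finite K L := Module.Finite.of_basis (b.localizationLocalization K Rb⁰ L)
  intro h0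
  rw [h0, map_zero] at h
  exact Algebra.discr_not_zero_of_basis K (b.localizationLocalization K Rb⁰ L) h

section Elementwise

attribute [local instance] FractionRing.liftAlgebra FractionRing.isScalarTower_liftAlgebra

/-- **(S2)** separability given elementwise inside an ambient field `Ω`: if every element of
`Bb` (embedded in `Ω` by `ψ`) is separable over the subfield generated by the image of `Rb`,
then every `Rb`-basis of `Bb` has nonzero discriminant. -/
theorem discr_ne_zero_of_forall_isSeparable {Rb Bb : Type*} [CommRing Rb] [IsDomain Rb]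
    [CommRing Bb] [IsDomain Bb] [Algebra Rb Bb] (Ω : Type*) [Field Ω] (ψ : Bb →+* Ω)
    (hψ : Function.Injective ψ)
    (hsep : ∀ β : Bb, IsSeparable
      ↥(Subfield.closure (Set.range (ψ.comp (algebraMap Rb Bb)))) (ψ β))
    {ι : Type*} [Fintype ι] [DecidableEq ι] (b : Module.Basis ι Rb Bb) :
    Algebra.discr Rb b ≠ 0 := by
  classical
  -- injectivity of the structure map, from the basis
  have hinj : Function.Injective (algebraMap Rb Bb) := by
    rw [injective_iff_map_eq_zero]
    intro r hr
    haveI : Nonempty ι := by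
      by_contra hne
      rw [not_nonempty_iff] at hne
      have : (1 : Bb) = 0 := by
        rw [← b.sum_repr 1]
        exact Finset.sum_eq_zero fun i _ => (hne.false i).elim
      exact one_ne_zero this
    obtain ⟨i⟩ := ‹Nonempty ι›
    have h1 : r • b i = 0 := by
      rw [Algebra.smul_def, hr, zero_mul]
    have h2 := b.linearIndependent
    rw [Fintype.linearIndependent_iff] at h2
    have h3 := h2 (fun j => if j = i then r else 0) (by
      rw [Finset.sum_eq_single i]
      · simpa using h1
      · intro j _ hj; simp [hj]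
      · intro hi; exact absurd (Finset.mem_univ i) hi) i
    simpa using h3
  set K := FractionRing Rb with hK
  set L := FractionRing Bb with hL
  have hinjL : Function.Injective (algebraMap Rb L) := by
    rw [IsScalarTower.algebraMap_eq Rb Bb L]
    exact (IsFractionRing.injective Bb L).comp hinj
  haveI : FaithfulSMul Rb L := (faithfulSMul_iff_algebraMap_injective Rb L).mpr hinjL
  haveI : FaithfulSMul Rb Bb := (faithfulSMul_iff_algebraMap_injective Rb Bb).mpr hinj
  haveI : Module.Finite Rb Bb := Module.Finite.of_basis b
  haveI : Algebra.IsIntegral Rb Bb := Algebra.IsIntegral.of_finite Rb Bb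
  haveI : Algebra.IsAlgebraic Rb Bb := Algebra.IsIntegral.isAlgebraic
  haveI : IsLocalization (Algebra.algebraMapSubmonoid Bb Rb⁰) L := inferInstance
  -- the two embeddings in `Ω`
  set φ0 : Rb →+* Ω := ψ.comp (algebraMap Rb Bb) with hφ0
  have hφ0inj : Function.Injective φ0 := hψ.comp hinj
  set Φ : K →+* Ω := IsFractionRing.lift hφ0inj with hΦ
  set Ψ : L →+* Ω := IsFractionRing.lift hψ with hΨ
  have hcomp : Ψ.comp (algebraMap K L) = Φ := by
    apply IsLocalization.ringHom_ext Rb⁰
    ext r
    simp only [RingHom.comp_apply]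
    rw [← IsScalarTower.algebraMap_apply Rb K L, IsScalarTower.algebraMap_apply Rb Bb L, hΨ,
      IsFractionRing.lift_algebraMap, hΦ, IsFractionRing.lift_algebraMap]
    rfl
  have hrange : Φ.fieldRange = Subfield.closure (Set.range φ0) := by
    rw [hΦ, IsFractionRing.lift_fieldRange]
    rfl
  -- elements of `Bb` are separable over `K`
  have hB : ∀ β : Bb, IsSeparable K (algebraMap Bb L β) := by
    intro β
    set E := Subfield.closure (Set.range φ0) with hE
    set p := minpoly E (ψ β) with hp
    have hpsep : p.Separable := hsep β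
    have hlift : p.map E.subtype ∈ Polynomial.lifts Φ := by
      rw [Polynomial.lifts_iff_coeff_lifts]
      intro n
      rw [Polynomial.coeff_map]
      have : (E.subtype (p.coeff n)) ∈ Φ.fieldRange := by
        rw [hrange]
        exact (p.coeff n).2
      obtain ⟨c, hc⟩ := this
      exact ⟨c, hc⟩
    obtain ⟨q, hq⟩ := hlift
    rw [Polynomial.coe_mapRingHom] at hq
    have hqsep : q.Separable := by
      rw [← Polynomial.separable_map Φ, hq]
      exact hpsep.map
    have hq0 : Polynomial.aeval (algebraMap Bb L β) q = 0 := by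
      apply Ψ.injective
      rw [map_zero, Polynomial.aeval_def, Polynomial.hom_eval₂, hcomp, hΨ,
        IsFractionRing.lift_algebraMap, ← Polynomial.eval_map, hq, Polynomial.eval_map]
      exact minpoly.aeval E (ψ β)
    exact hqsep.of_dvd (minpoly.dvd K _ hq0)
  haveI : Algebra.IsSeparable K L := by
    refine ⟨fun x => ?_⟩
    obtain ⟨β, s, rfl⟩ := IsLocalization.exists_mk'_eq
      (Algebra.algebraMapSubmonoid Bb Rb⁰) x
    obtain ⟨r, hr, hrs⟩ := s.2
    have hr0 : algebraMap Rb K r ≠ 0 := by
      intro h0
      exact (nonZeroDivisors.ne_zero hr) (IsFractionRing.injective Rb K (by rw [h0, map_zero]))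
    have hx : IsLocalization.mk' L β s
        = algebraMap Bb L β * algebraMap K L (algebraMap Rb K r)⁻¹ := by
      rw [IsLocalization.mk'_eq_iff_eq_mul, mul_assoc, ← hrs,
        ← IsScalarTower.algebraMap_apply Rb Bb L,
        IsScalarTower.algebraMap_apply Rb K L, ← map_mul, inv_mul_cancel₀ hr0, map_one, mul_one]
    rw [hx]
    exact Field.isSeparable_mul (hB β) (isSeparable_algebraMap (K := L) (algebraMap Rb K r)⁻¹)
  exact discr_ne_zero_of_isSeparable K L b

/-- **(S3)** reduction-datum form: `rhoR : R → Rb` and `rhoB : B → Bb` surjective and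
compatible, `ρ : B →+* Ω` a ring hom to a field with the same kernel as `rhoB`, and every
`ρ x` separable over the subfield of `Ω` generated by `ρ (R)`.  Then every `Rb`-basis of `Bb`
has nonzero discriminant. -/
theorem discr_ne_zero_of_reduction {R B Rb Bb : Type*} [CommRing R] [CommRing B] [Algebra R B]
    [CommRing Rb] [IsDomain Rb] [CommRing Bb] [IsDomain Bb] [Algebra Rb Bb]
    (rhoR : R →+* Rb) (hR : Function.Surjective rhoR)
    (rhoB : B →+* Bb) (hB : Function.Surjective rhoB)
    (hcomp : ∀ r, rhoB (algebraMap R B r) = algebraMap Rb Bb (rhoR r))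
    (Ω : Type*) [Field Ω] (ρ : B →+* Ω) (hker : RingHom.ker ρ = RingHom.ker rhoB)
    (hsep : ∀ x : B,
      IsSeparable ↥(Subfield.closure (Set.range (ρ.comp (algebraMap R B)))) (ρ x))
    {ι : Type*} [Fintype ι] [DecidableEq ι] (b : Module.Basis ι Rb Bb) :
    Algebra.discr Rb b ≠ 0 := by
  set ψ : Bb →+* Ω := RingHom.liftOfSurjective rhoB hB ⟨ρ, hker.ge⟩ with hψ
  have hψρ : ∀ x, ψ (rhoB x) = ρ x := fun x =>
    RingHom.liftOfRightInverse_comp_apply rhoB _ _ ⟨ρ, hker.ge⟩ x
  have hψinj : Function.Injective ψ := by
    rw [injective_iff_map_eq_zero]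
    intro y hy
    obtain ⟨x, rfl⟩ := hB y
    rw [hψρ] at hy
    have : x ∈ RingHom.ker rhoB := by rw [← hker]; exact hy
    exact this
  have hrange : Set.range (ψ.comp (algebraMap Rb Bb)) = Set.range (ρ.comp (algebraMap R B)) := by
    ext w
    constructor
    · rintro ⟨r, rfl⟩
      obtain ⟨r', rfl⟩ := hR r
      exact ⟨r', by simp only [RingHom.comp_apply]; rw [← hcomp, hψρ]⟩
    · rintro ⟨r, rfl⟩
      exact ⟨rhoR r, by simp only [RingHom.comp_apply]; rw [← hcomp, hψρ]⟩
  refine discr_ne_zero_of_forall_isSeparable Ω ψ hψinj (fun β => ?_) b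
  obtain ⟨x, rfl⟩ := hB β
  rw [hψρ, hrange]
  exact hsep x

end Elementwise

end Fermat.Agent.S18.H68
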