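/-
S18, node NC-INST(a): the final instantiation of the abstract (NC) core
(`H81.isIntegrallyClosed_of_core`) at `R = A₀[X]`, `Rb = (A₀ ⧸ π)[X]`,
`Bb = B ⧸ (C π)` with `B = integralClosure A₀[X] F`.

Output shape = the input of `H97.reg_chartU_of_nc'` (literally): the special fibre
`B ⧸ (C π)` of the chart is integrally closed.
-/
import Mathlib
import Fermat.Agent.S18.NCAsm_helper81
import Fermat.Agent.S18.NCSep_helper68

set_option autoImplicit false

namespace Fermat.Agent.S18.H51

open Polynomial

section Red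

variable {A₀ : Type*} [CommRing A₀] (π : A₀)

/-- Reduction of polynomials modulo `π`. -/
noncomputable def redPoly : A₀[X] →+* (A₀ ⧸ Ideal.span {π})[X] :=
  Polynomial.mapRingHom (Ideal.Quotient.mk (Ideal.span {π}))

theorem redPoly_apply (r : A₀[X]) :
    redPoly π r = r.map (Ideal.Quotient.mk (Ideal.span {π})) := rfl

theorem redPoly_surjective : Function.Surjective (redPoly π) :=
  Polynomial.map_surjective _ Ideal.Quotient.mk_surjective

theorem redPoly_eq_zero_iff (r : A₀[X]) : redPoly π r = 0 ↔ C π ∣ r := by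
  rw [Polynomial.C_dvd_iff_dvd_coeff, redPoly_apply]
  constructor
  · intro h n
    have h1 : (r.map (Ideal.Quotient.mk (Ideal.span {π}))).coeff n = 0 := by rw [h, coeff_zero]
    rw [Polynomial.coeff_map] at h1
    exact Ideal.mem_span_singleton.mp (Ideal.Quotient.eq_zero_iff_mem.mp h1)
  · intro h
    ext n
    rw [Polynomial.coeff_map, coeff_zero]
    exact Ideal.Quotient.eq_zero_iff_mem.mpr (Ideal.mem_span_singleton.mpr (h n))

variable (B : Type*) [CommRing B] [Algebra A₀[X] B]

/-- The structure map `(A₀ ⧸ π)[X] → B ⧸ (C π)` of the special fibre. -/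
noncomputable def redAlg :
    (A₀ ⧸ Ideal.span {π})[X] →+* B ⧸ Ideal.span {algebraMap A₀[X] B (C π)} :=
  Polynomial.eval₂RingHom
    (Ideal.Quotient.lift (Ideal.span {π})
      ((Ideal.Quotient.mk (Ideal.span {algebraMap A₀[X] B (C π)})).comp
        ((algebraMap A₀[X] B).comp C))
      (by
        intro a ha
        obtain ⟨c, rfl⟩ := Ideal.mem_span_singleton.mp ha
        show Ideal.Quotient.mk _ (algebraMap A₀[X] B (C (π * c))) = 0
        rw [C_mul, map_mul]
        exact Ideal.Quotient.eq_zero_iff_mem.mpr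
          (Ideal.mul_mem_right _ _ (Ideal.subset_span rfl))))
    (Ideal.Quotient.mk _ (algebraMap A₀[X] B X))

theorem redAlg_redPoly (r : A₀[X]) :
    redAlg π B (redPoly π r) =
      Ideal.Quotient.mk (Ideal.span {algebraMap A₀[X] B (C π)}) (algebraMap A₀[X] B r) := by
  have h : (redAlg π B).comp (redPoly π) =
      (Ideal.Quotient.mk (Ideal.span {algebraMap A₀[X] B (C π)})).comp (algebraMap A₀[X] B) := by
    apply Polynomial.ringHom_ext
    · intro a
      simp [redAlg, redPoly]
    · simp [redAlg, redPoly]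
  exact RingHom.congr_fun h r

end Red

/-- **NC-INST(a).**  Let `A₀` be a PID (e.g. a DVR) with an irreducible element `π`, `F` a finite
extension of `K = Frac A₀[X]` (characteristic zero), `B = integralClosure A₀[X] F`.  Assume
* (i) `(C π) B` is prime;
* (ii) a ring hom `ρ : B → Ω` into a field with kernel `(C π) B` such that every `ρ b` is
  separable over the subfield generated by `ρ (A₀[X])`;
* `Pi : A₀[X]` with squarefree reduction, and the characteristic-zero input `hC`
  (the conclusion of `H68.hC_of_unramified`, i.e. the literal `hC` of the core).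
Then the special fibre `B ⧸ (C π)` is integrally closed. -/
theorem isIntegrallyClosed_quotient_of_nc {A₀ : Type*} [CommRing A₀] [IsDomain A₀]
    [IsPrincipalIdealRing A₀] (π : A₀) (hπ : Irreducible π)
    (K : Type*) {F : Type*} [Field K] [Algebra A₀[X] K] [IsFractionRing A₀[X] K] [CharZero K]
    [Field F] [Algebra K F] [Algebra A₀[X] F] [IsScalarTower A₀[X] K F] [FiniteDimensional K F]
    (hprime : (Ideal.span {algebraMap A₀[X] ↥(integralClosure A₀[X] F) (C π)}).IsPrime)
    {Ω : Type*} [Field Ω] (ρ : ↥(integralClosure A₀[X] F) →+* Ω)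
    (hker : RingHom.ker ρ =
      Ideal.span {algebraMap A₀[X] ↥(integralClosure A₀[X] F) (C π)})
    (hsep : ∀ b : ↥(integralClosure A₀[X] F),
      IsSeparable ↥(Subfield.closure
        (Set.range (ρ.comp (algebraMap A₀[X] ↥(integralClosure A₀[X] F))))) (ρ b))
    (Pi : A₀[X]) (hPi : Squarefree (Pi.map (Ideal.Quotient.mk (Ideal.span {π}))))
    (hC : ∀ z : F,
      (∀ b : F, IsIntegral A₀[X] b →
        ∃ r : A₀[X], Algebra.trace K F (z * b) = algebraMap A₀[X] K r) →
      ∃ (N k : ℕ) (w : F), IsIntegral A₀[X] (C π ^ k • (Pi • z)) ∧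
        IsIntegral A₀[X] (C π ^ k • w) ∧ (Pi • z) ^ N = Pi • w) :
    IsIntegrallyClosed (↥(integralClosure A₀[X] F) ⧸
      Ideal.span {algebraMap A₀[X] ↥(integralClosure A₀[X] F) (C π)}) := by
  classical
  have hmax : (Ideal.span {π}).IsMaximal := PrincipalIdealRing.isMaximal_of_irreducible hπ
  have hπ0 : π ≠ 0 := hπ.ne_zero
  have := hprime
  have hPID : IsPrincipalIdealRing (A₀ ⧸ Ideal.span {π})[X] := by
    let _ : Field (A₀ ⧸ Ideal.span {π}) := Ideal.Quotient.field _
    infer_instance
  let _ : Algebra (A₀ ⧸ Ideal.span {π})[X] (↥(integralClosure A₀[X] F) ⧸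
      Ideal.span {algebraMap A₀[X] ↥(integralClosure A₀[X] F) (C π)}) :=
    (redAlg π ↥(integralClosure A₀[X] F)).toAlgebra
  have hcompat : ∀ r : A₀[X],
      Ideal.Quotient.mk (Ideal.span {algebraMap A₀[X] ↥(integralClosure A₀[X] F) (C π)})
        (algebraMap A₀[X] ↥(integralClosure A₀[X] F) r) =
      algebraMap (A₀ ⧸ Ideal.span {π})[X] (↥(integralClosure A₀[X] F) ⧸
        Ideal.span {algebraMap A₀[X] ↥(integralClosure A₀[X] F) (C π)}) (redPoly π r) :=
    fun r => (redAlg_redPoly π _ r).symm
  have hkerB : ∀ b : ↥(integralClosure A₀[X] F),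
      Ideal.Quotient.mk (Ideal.span {algebraMap A₀[X] ↥(integralClosure A₀[X] F) (C π)}) b = 0 ↔
      algebraMap A₀[X] ↥(integralClosure A₀[X] F) (C π) ∣ b := fun b => by
    rw [Ideal.Quotient.eq_zero_iff_mem, Ideal.mem_span_singleton]
  refine H81.isIntegrallyClosed_of_core K (C π) (C_ne_zero.mpr hπ0) (redPoly π)
    (redPoly_surjective π) (redPoly_eq_zero_iff π)
    (Ideal.Quotient.mk (Ideal.span {algebraMap A₀[X] ↥(integralClosure A₀[X] F) (C π)}))
    Ideal.Quotient.mk_surjective hkerB hcompat Pi hPi.isRadical hPi.ne_zero ?_ hC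
  intro n b
  exact H68.discr_ne_zero_of_reduction (redPoly π) (redPoly_surjective π)
    (Ideal.Quotient.mk (Ideal.span {algebraMap A₀[X] ↥(integralClosure A₀[X] F) (C π)}))
    Ideal.Quotient.mk_surjective hcompat Ω ρ (hker.trans Ideal.mk_ker.symm) hsep b

end Fermat.Agent.S18.H51
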