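/-
S18, small model lemma for (NC): the branch polynomials `X * (X - c)` / `X * (X + c)`
have squarefree reduction modulo `π` as soon as `c ∉ (π)` (e.g. `c` a unit), when `(π)` is a
maximal ideal.  This is the hypothesis `hPi` of `H51.isIntegrallyClosed_quotient_of_nc`.

Mathlib only.
-/
import Mathlib

set_option autoImplicit false

namespace Fermat.Agent.S18.H51

open Polynomial

/-- Over a field, `X * (X - C a)` is squarefree when `a ≠ 0`. -/
theorem squarefree_X_mul_X_sub_C {k : Type*} [Field k] {a : k} (ha : a ≠ 0) :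
    Squarefree (X * (X - C a) : k[X]) := by
  apply Polynomial.Separable.squarefree
  refine Polynomial.Separable.mul separable_X (separable_X_sub_C) ?_
  have h := Polynomial.isCoprime_X_sub_C_of_isUnit_sub (R := k) (a := 0) (b := a)
    (by rw [zero_sub]; exact (neg_ne_zero.mpr ha).isUnit)
  rwa [map_zero, sub_zero] at h

variable {A₀ : Type*} [CommRing A₀] (π : A₀)

/-- `X * (X - C c)` has squarefree reduction modulo a maximal ideal `(π)` not containing `c`. -/
theorem squarefree_map_X_mul_X_sub_C (hπ : (Ideal.span {π}).IsMaximal) {c : A₀}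
    (hc : c ∉ Ideal.span {π}) :
    Squarefree ((X * (X - C c) : A₀[X]).map (Ideal.Quotient.mk (Ideal.span {π}))) := by
  let _ : Field (A₀ ⧸ Ideal.span {π}) := Ideal.Quotient.field _
  have hc' : Ideal.Quotient.mk (Ideal.span {π}) c ≠ 0 := fun h =>
    hc (Ideal.Quotient.eq_zero_iff_mem.mp h)
  have h := squarefree_X_mul_X_sub_C hc'
  simpa only [Polynomial.map_mul, Polynomial.map_sub, Polynomial.map_X, Polynomial.map_C]
    using h

/-- `X * (X + C c)` has squarefree reduction modulo a maximal ideal `(π)` not containing `c`. -/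
theorem squarefree_map_X_mul_X_add_C (hπ : (Ideal.span {π}).IsMaximal) {c : A₀}
    (hc : c ∉ Ideal.span {π}) :
    Squarefree ((X * (X + C c) : A₀[X]).map (Ideal.Quotient.mk (Ideal.span {π}))) := by
  have hc' : -c ∉ Ideal.span {π} := fun h => hc (by simpa using (Ideal.span {π}).neg_mem h)
  have h := squarefree_map_X_mul_X_sub_C π hπ hc'
  have e : (X * (X - C (-c)) : A₀[X]) = X * (X + C c) := by
    rw [C_neg, sub_neg_eq_add]
  rwa [e] at h

/-- A unit does not lie in a maximal ideal (convenience form for `hc` above). -/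
theorem notMem_span_of_isUnit (hπ : (Ideal.span {π}).IsMaximal) {c : A₀} (hc : IsUnit c) :
    c ∉ Ideal.span {π} := fun h =>
  hπ.ne_top (Ideal.eq_top_of_isUnit_mem _ h hc)

/-- `c * d = 1` form. -/
theorem notMem_span_of_mul_eq_one (hπ : (Ideal.span {π}).IsMaximal) {c d : A₀}
    (h : c * d = 1) : c ∉ Ideal.span {π} :=
  notMem_span_of_isUnit π hπ (IsUnit.of_mul_eq_one d h)

/-- For a PID and an irreducible `π`: variants with `Irreducible π`. -/
theorem squarefree_map_X_mul_X_sub_C' [IsDomain A₀] [IsPrincipalIdealRing A₀]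
    (hπ : Irreducible π) {c : A₀} (hc : ¬ π ∣ c) :
    Squarefree ((X * (X - C c) : A₀[X]).map (Ideal.Quotient.mk (Ideal.span {π}))) :=
  squarefree_map_X_mul_X_sub_C π (PrincipalIdealRing.isMaximal_of_irreducible hπ)
    (fun h => hc (Ideal.mem_span_singleton.mp h))

theorem squarefree_map_X_mul_X_add_C' [IsDomain A₀] [IsPrincipalIdealRing A₀]
    (hπ : Irreducible π) {c : A₀} (hc : ¬ π ∣ c) :
    Squarefree ((X * (X + C c) : A₀[X]).map (Ideal.Quotient.mk (Ideal.span {π}))) :=
  squarefree_map_X_mul_X_add_C π (PrincipalIdealRing.isMaximal_of_irreducible hπ)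
    (fun h => hc (Ideal.mem_span_singleton.mp h))

end Fermat.Agent.S18.H51
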