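/-
S18, model lemmas for the hypothesis `hPi` of `H51.isIntegrallyClosed_quotient_of_nc`:

* the inverse-free branch polynomials `X * (C c * X - 1)`, `X * (C c * X + 1)` of the charts at
  infinity have squarefree reduction modulo a maximal `(π)` not containing `c`;
* `hPi` may be checked through ANY residue map `res : A₀ →+* k₀` into a field that kills `π`
  (e.g. `IsLocalRing.residue A₀`);
* `isIntegrallyClosed_quotient_of_nc_res`: NC-INST(a) with `hPi` stated for such a `res`.
-/
import Mathlib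
import Fermat.Agent.S18.NCInst_helper51
import Fermat.Agent.S18.SqfreeRed_helper51

set_option autoImplicit false

namespace Fermat.Agent.S18.H51

open Polynomial

/-- Over a field, `X * (C a * X - 1)` is squarefree when `a ≠ 0`. -/
theorem squarefree_X_mul_C_mul_X_sub_one {k : Type*} [Field k] {a : k} (ha : a ≠ 0) :
    Squarefree (X * (C a * X - 1) : k[X]) := by
  have h : Squarefree (X * (X - C a⁻¹) : k[X]) := squarefree_X_mul_X_sub_C (inv_ne_zero ha)
  refine Squarefree.squarefree_of_dvd ⟨C a⁻¹, ?_⟩ h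
  have h1 : (C a⁻¹ : k[X]) * C a = 1 := by rw [← C_mul, inv_mul_cancel₀ ha, C_1]
  have h2 : (X : k[X]) * (X - C a⁻¹) = X * (C a⁻¹ * C a * X - C a⁻¹) := by rw [h1, one_mul]
  rw [h2]
  ring

/-- Over a field, `X * (C a * X + 1)` is squarefree when `a ≠ 0`. -/
theorem squarefree_X_mul_C_mul_X_add_one {k : Type*} [Field k] {a : k} (ha : a ≠ 0) :
    Squarefree (X * (C a * X + 1) : k[X]) := by
  have h := squarefree_X_mul_C_mul_X_sub_one (neg_ne_zero.mpr ha)
  refine Squarefree.squarefree_of_dvd ⟨-1, ?_⟩ h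
  rw [C_neg]
  ring

variable {A₀ : Type*} [CommRing A₀] (π : A₀)

/-- `X * (C c * X - 1)` has squarefree reduction modulo a maximal ideal `(π)` not containing
`c`. -/
theorem squarefree_map_X_mul_C_mul_X_sub_one (hπ : (Ideal.span {π}).IsMaximal) {c : A₀}
    (hc : c ∉ Ideal.span {π}) :
    Squarefree ((X * (C c * X - 1) : A₀[X]).map (Ideal.Quotient.mk (Ideal.span {π}))) := by
  let _ : Field (A₀ ⧸ Ideal.span {π}) := Ideal.Quotient.field _
  have hc' : Ideal.Quotient.mk (Ideal.span {π}) c ≠ 0 := fun h =>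
    hc (Ideal.Quotient.eq_zero_iff_mem.mp h)
  have h := squarefree_X_mul_C_mul_X_sub_one hc'
  simpa only [Polynomial.map_mul, Polynomial.map_sub, Polynomial.map_X, Polynomial.map_C,
    Polynomial.map_one] using h

/-- `X * (C c * X + 1)` has squarefree reduction modulo a maximal ideal `(π)` not containing
`c`. -/
theorem squarefree_map_X_mul_C_mul_X_add_one (hπ : (Ideal.span {π}).IsMaximal) {c : A₀}
    (hc : c ∉ Ideal.span {π}) :
    Squarefree ((X * (C c * X + 1) : A₀[X]).map (Ideal.Quotient.mk (Ideal.span {π}))) := by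
  let _ : Field (A₀ ⧸ Ideal.span {π}) := Ideal.Quotient.field _
  have hc' : Ideal.Quotient.mk (Ideal.span {π}) c ≠ 0 := fun h =>
    hc (Ideal.Quotient.eq_zero_iff_mem.mp h)
  have h := squarefree_X_mul_C_mul_X_add_one hc'
  simpa only [Polynomial.map_mul, Polynomial.map_add, Polynomial.map_X, Polynomial.map_C,
    Polynomial.map_one] using h

/-- **Change of residue map.**  If `(π)` is maximal and `res : A₀ →+* k₀` is a ring hom into a
field killing `π`, then squarefreeness of `Pi.map res` implies squarefreeness of the reduction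
of `Pi` in `(A₀ ⧸ (π))[X]`. -/
theorem squarefree_map_mk_of_map (hπ : (Ideal.span {π}).IsMaximal) {k₀ : Type*} [Field k₀]
    (res : A₀ →+* k₀) (hres : res π = 0) (Pi : A₀[X]) (h : Squarefree (Pi.map res)) :
    Squarefree (Pi.map (Ideal.Quotient.mk (Ideal.span {π}))) := by
  let _ : Field (A₀ ⧸ Ideal.span {π}) := Ideal.Quotient.field _
  let ψ : A₀ ⧸ Ideal.span {π} →+* k₀ := Ideal.Quotient.lift (Ideal.span {π}) res (by
    intro a ha
    obtain ⟨c, rfl⟩ := Ideal.mem_span_singleton.mp ha
    rw [map_mul, hres, zero_mul])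
  have hψ : ψ.comp (Ideal.Quotient.mk (Ideal.span {π})) = res := by
    ext a
    simp [ψ]
  have hmap : (Pi.map (Ideal.Quotient.mk (Ideal.span {π}))).map ψ = Pi.map res := by
    rw [Polynomial.map_map, hψ]
  intro a ha
  obtain ⟨b, hb⟩ := ha
  have h1 : (a.map ψ) * (a.map ψ) ∣ Pi.map res := by
    refine ⟨b.map ψ, ?_⟩
    rw [← hmap, hb, Polynomial.map_mul, Polynomial.map_mul]
  have h2 : IsUnit (a.map ψ) := h _ h1
  have h3 : (a.map ψ).natDegree = 0 := Polynomial.natDegree_eq_zero_of_isUnit h2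
  rw [Polynomial.natDegree_map] at h3
  have ha0 : a ≠ 0 := by
    rintro rfl
    rw [Polynomial.map_zero] at h2
    exact not_isUnit_zero h2
  obtain ⟨a₀, rfl⟩ := Polynomial.natDegree_eq_zero.mp h3
  have ha₀ : a₀ ≠ 0 := fun h0 => ha0 (by rw [h0, C_0])
  exact Polynomial.isUnit_C.mpr ha₀.isUnit

/-- **NC-INST(a), any residue map.**  The statement of `isIntegrallyClosed_quotient_of_nc` with
`hPi` checked through an arbitrary residue map `res : A₀ →+* k₀` (into a field, killing `π`),
e.g. `IsLocalRing.residue A₀`. -/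
theorem isIntegrallyClosed_quotient_of_nc_res {A₀ : Type*} [CommRing A₀] [IsDomain A₀]
    [IsPrincipalIdealRing A₀] (π : A₀) (hπ : Irreducible π)
    (K : Type*) {F : Type*} [Field K] [Algebra A₀[X] K] [IsFractionRing A₀[X] K] [CharZero K]
    [Field F] [Algebra K F] [Algebra A₀[X] F] [IsScalarTower A₀[X] K F] [FiniteDimensional K F]
    (hprime : (Ideal.span {algebraMap A₀[X] ↥(integralClosure A₀[X] F) (C π)}).IsPrime)
    {Ω : Type*} [Field Ω] (ρ : ↥(integralClosure A₀[X] F) →+* Ω)
    (hker : RingHom.ker ρ =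
      Ideal.span {algebraMap A₀[X] ↥(integralClosure A₀[X] F) (C π)})
    (hsep : ∀ b : ↥(integralClosure A₀[X] F),
      IsSeparable ↥(Subfield.closure
        (Set.range (ρ.comp (algebraMap A₀[X] ↥(integralClosure A₀[X] F))))) (ρ b))
    {k₀ : Type*} [Field k₀] (res : A₀ →+* k₀) (hres : res π = 0)
    (Pi : A₀[X]) (hPi : Squarefree (Pi.map res))
    (hC : ∀ z : F,
      (∀ b : F, IsIntegral A₀[X] b →
        ∃ r : A₀[X], Algebra.trace K F (z * b) = algebraMap A₀[X] K r) →
      ∃ (N k : ℕ) (w : F), IsIntegral A₀[X] (C π ^ k • (Pi • z)) ∧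
        IsIntegral A₀[X] (C π ^ k • w) ∧ (Pi • z) ^ N = Pi • w) :
    IsIntegrallyClosed (↥(integralClosure A₀[X] F) ⧸
      Ideal.span {algebraMap A₀[X] ↥(integralClosure A₀[X] F) (C π)}) :=
  isIntegrallyClosed_quotient_of_nc π hπ K hprime ρ hker hsep Pi
    (squarefree_map_mk_of_map π (PrincipalIdealRing.isMaximal_of_irreducible hπ) res hres Pi hPi)
    hC

end Fermat.Agent.S18.H51
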