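import Mathlib

/-!
# S18, node CHARTS: the three integral-closure charts of a finite cover of the line

For a domain `A`, a field `F` with `Algebra A F` and `x : F` we put

* `chartU A x` : the integral closure of `A[x]` in `F`,
* `chartV A x` : the integral closure of `A[x⁻¹]` in `F`,
* `chartUV A x` : the integral closure of `A[x, x⁻¹]` in `F`,

all three as `Subalgebra A F`.  This file discharges the purely algebraic hypotheses which the
abstract two-chart Kummer core asks of such a triple: inclusions, `x`-localisation relations,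
root-closedness, containment in valuation subrings, saturation bookkeeping, fraction field, and
(over a noetherian integrally closed base, in characteristic zero) finiteness / noetherianity.
-/

set_option autoImplicit false

open Polynomial

namespace Fermat.Agent.S18.H97

section Defs

variable (A : Type*) {F : Type*} [CommRing A] [Field F] [Algebra A F]

/-- The finite chart: integral closure of `A[x]` in `F`. -/
def chartU (x : F) : Subalgebra A F :=
  (integralClosure (Algebra.adjoin A {x}) F).restrictScalars A

/-- The chart at infinity: integral closure of `A[x⁻¹]` in `F`. -/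
def chartV (x : F) : Subalgebra A F := chartU A x⁻¹

/-- The overlap: integral closure of `A[x, x⁻¹]` in `F`. -/
def chartUV (x : F) : Subalgebra A F :=
  (integralClosure (Algebra.adjoin A {x, x⁻¹}) F).restrictScalars A

variable {A}

theorem mem_chartU {x y : F} : y ∈ chartU A x ↔ IsIntegral (Algebra.adjoin A {x}) y := Iff.rfl

theorem mem_chartV {x y : F} : y ∈ chartV A x ↔ IsIntegral (Algebra.adjoin A {x⁻¹}) y := Iff.rfl

theorem mem_chartUV {x y : F} :
    y ∈ chartUV A x ↔ IsIntegral (Algebra.adjoin A {x, x⁻¹}) y := Iff.rfl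

/-- Integrality over a smaller subalgebra implies integrality over a bigger one. -/
theorem isIntegral_of_subalgebra_le {S T : Subalgebra A F} (h : S ≤ T) {y : F}
    (hy : IsIntegral S y) : IsIntegral T y := by
  obtain ⟨p, hp, hpy⟩ := hy
  refine ⟨p.map (Subalgebra.inclusion h).toRingHom, hp.map _, ?_⟩
  rw [eval₂_map]
  exact hpy

/-- An element of a subalgebra is integral over it. -/
theorem isIntegral_of_mem_subalgebra {S : Subalgebra A F} {y : F} (hy : y ∈ S) :
    IsIntegral S y :=
  isIntegral_algebraMap (R := S) (A := F) (x := ⟨y, hy⟩)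

theorem adjoin_le_chartU (x : F) : Algebra.adjoin A {x} ≤ chartU A x :=
  fun _ hy => isIntegral_of_mem_subalgebra hy

theorem adjoin_le_chartUV (x : F) : Algebra.adjoin A {x, x⁻¹} ≤ chartUV A x :=
  fun _ hy => isIntegral_of_mem_subalgebra hy

theorem mem_chartU_self (x : F) : x ∈ chartU A x :=
  adjoin_le_chartU x (Algebra.subset_adjoin (Set.mem_singleton x))

theorem inv_mem_chartV (x : F) : x⁻¹ ∈ chartV A x := mem_chartU_self x⁻¹

theorem chartU_le_chartUV (x : F) : chartU A x ≤ chartUV A x := fun _ hy =>
  isIntegral_of_subalgebra_le (Algebra.adjoin_mono (by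
    intro z hz
    rw [Set.mem_singleton_iff] at hz
    simp [hz])) hy

theorem chartV_le_chartUV (x : F) : chartV A x ≤ chartUV A x := fun _ hy =>
  isIntegral_of_subalgebra_le (Algebra.adjoin_mono (by
    intro z hz
    rw [Set.mem_singleton_iff] at hz
    simp [hz])) hy

theorem chartV_inv (x : F) : chartV A x⁻¹ = chartU A x := by
  unfold chartV
  rw [inv_inv]

theorem chartUV_inv (x : F) : chartUV A x⁻¹ = chartUV A x := by
  have e : Algebra.adjoin A {x⁻¹, x⁻¹⁻¹} = Algebra.adjoin A {x, x⁻¹} := by
    rw [inv_inv, Set.pair_comm]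
  ext y
  exact ⟨fun hy => isIntegral_of_subalgebra_le e.le hy,
    fun hy => isIntegral_of_subalgebra_le e.ge hy⟩

theorem self_mem_chartUV (x : F) : x ∈ chartUV A x := chartU_le_chartUV x (mem_chartU_self x)

theorem inv_mem_chartUV (x : F) : x⁻¹ ∈ chartUV A x := chartV_le_chartUV x (inv_mem_chartV x)

end Defs

section Localisation

variable {A F : Type*} [CommRing A] [Field F] [Algebra A F]

/-- Elements of `A[x, x⁻¹]` become elements of `A[x]` after multiplication by a high power of
`x`. -/
theorem exists_pow_mul_mem_adjoin {x : F} (hx : x ≠ 0) {c : F}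
    (hc : c ∈ Algebra.adjoin A {x, x⁻¹}) :
    ∃ k : ℕ, ∀ n : ℕ, k ≤ n → x ^ n * c ∈ Algebra.adjoin A {x} := by
  have hxS : x ∈ Algebra.adjoin A {x} := Algebra.subset_adjoin (Set.mem_singleton x)
  induction hc using Algebra.adjoin_induction with
  | mem y hy =>
    rcases hy with rfl | hy
    · exact ⟨0, fun n _ => mul_mem (pow_mem hxS n) hxS⟩
    · rw [Set.mem_singleton_iff] at hy
      subst hy
      refine ⟨1, fun n hn => ?_⟩
      obtain ⟨n, rfl⟩ := Nat.exists_eq_add_of_le' hn
      rw [pow_succ, mul_assoc, mul_inv_cancel₀ hx, mul_one]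
      exact pow_mem hxS n
  | algebraMap a =>
    exact ⟨0, fun n _ => mul_mem (pow_mem hxS n) (Subalgebra.algebraMap_mem _ a)⟩
  | add y z _ _ hy hz =>
    obtain ⟨k₁, h₁⟩ := hy
    obtain ⟨k₂, h₂⟩ := hz
    refine ⟨max k₁ k₂, fun n hn => ?_⟩
    rw [mul_add]
    exact add_mem (h₁ n (le_trans (le_max_left _ _) hn)) (h₂ n (le_trans (le_max_right _ _) hn))
  | mul y z _ _ hy hz =>
    obtain ⟨k₁, h₁⟩ := hy
    obtain ⟨k₂, h₂⟩ := hz
    refine ⟨k₁ + k₂, fun n hn => ?_⟩
    obtain ⟨r, rfl⟩ := Nat.exists_eq_add_of_le hn
    have : x ^ (k₁ + k₂ + r) * (y * z) = (x ^ (k₁ + r) * y) * (x ^ k₂ * z) := by ring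
    rw [this]
    exact mul_mem (h₁ _ (Nat.le_add_right _ _)) (h₂ _ le_rfl)

/-- `B_UV = B_U[1/x]`: every element of the overlap chart is `x⁻ⁿ` times an element of the
finite chart. -/
theorem exists_pow_mul_mem_chartU {x : F} (hx : x ≠ 0) {y : F} (hy : y ∈ chartUV A x) :
    ∃ n : ℕ, x ^ n * y ∈ chartU A x := by
  classical
  obtain ⟨p, hp, hpy⟩ := hy
  -- a uniform exponent for the coefficients of `p`
  have hcoef : ∀ i : ℕ, ∃ k : ℕ, ∀ n : ℕ, k ≤ n →
      x ^ n * ((p.coeff i : Algebra.adjoin A {x, x⁻¹}) : F) ∈ Algebra.adjoin A {x} :=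
    fun i => exists_pow_mul_mem_adjoin hx (p.coeff i).2
  choose k hk using hcoef
  set K : ℕ := (Finset.range (p.natDegree + 1)).sup k + 1 with hK
  have hKk : ∀ i ∈ Finset.range (p.natDegree + 1), k i ≤ K := fun i hi =>
    le_trans (Finset.le_sup (f := k) hi) (Nat.le_succ _)
  have hxS : x ∈ Algebra.adjoin A {x} := Algebra.subset_adjoin (Set.mem_singleton x)
  have hle : Algebra.adjoin A {x} ≤ Algebra.adjoin A {x, x⁻¹} := Algebra.adjoin_mono (by
    intro z hz
    rw [Set.mem_singleton_iff] at hz
    simp [hz])
  -- the scaling element, in `A[x, x⁻¹]`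
  set s : Algebra.adjoin A {x, x⁻¹} := ⟨x ^ K, hle (pow_mem hxS K)⟩ with hs
  refine ⟨K, ?_⟩
  have hroot : eval₂ (algebraMap (Algebra.adjoin A {x, x⁻¹}) F) (x ^ K * y) (scaleRoots p s) = 0 :=
    scaleRoots_eval₂_eq_zero (algebraMap (Algebra.adjoin A {x, x⁻¹}) F) (s := s) hpy
  have hmonic : (scaleRoots p s).Monic := (monic_scaleRoots_iff s).mpr hp
  have hlifts : scaleRoots p s ∈ lifts (Subalgebra.inclusion hle).toRingHom := by
    rw [lifts_iff_coeff_lifts]
    intro i
    rw [coeff_scaleRoots]
    rcases lt_trichotomy i p.natDegree with hi | hi | hi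
    · -- a genuine lower coefficient
      have hmem : ((p.coeff i * s ^ (p.natDegree - i) : Algebra.adjoin A {x, x⁻¹}) : F) ∈
          Algebra.adjoin A {x} := by
        obtain ⟨r, hr⟩ := Nat.exists_eq_add_of_lt hi
        have hd : p.natDegree - i = r + 1 := by omega
        rw [hd]
        have : ((p.coeff i * s ^ (r + 1) : Algebra.adjoin A {x, x⁻¹}) : F) =
            (x ^ K * ((p.coeff i : Algebra.adjoin A {x, x⁻¹}) : F)) * (x ^ K) ^ r := by
          simp only [hs, MulMemClass.coe_mul, SubmonoidClass.coe_pow]
          ring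
        rw [this]
        exact mul_mem (hk i K (hKk i (Finset.mem_range.mpr (by omega))))
          (pow_mem (pow_mem hxS K) r)
      exact ⟨⟨_, hmem⟩, Subtype.ext rfl⟩
    · subst hi
      rw [Nat.sub_self, pow_zero, mul_one, hp.coeff_natDegree]
      exact ⟨1, map_one _⟩
    · rw [coeff_eq_zero_of_natDegree_lt hi, zero_mul]
      exact ⟨0, map_zero _⟩
  obtain ⟨q, hq, -, hqm⟩ := lifts_and_natDegree_eq_and_monic hlifts hmonic
  refine ⟨q, hqm, ?_⟩
  rw [← hq, eval₂_map] at hroot
  exact hroot

/-- `B_UV = B_V[x]`: every element of the overlap chart is `xⁿ` times an element of the chart at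
infinity. -/
theorem exists_inv_pow_mul_mem_chartV {x : F} (hx : x ≠ 0) {y : F} (hy : y ∈ chartUV A x) :
    ∃ n : ℕ, x⁻¹ ^ n * y ∈ chartV A x := by
  rw [← chartUV_inv] at hy
  exact exists_pow_mul_mem_chartU (inv_ne_zero hx) hy

end Localisation

section Closed

variable {A F : Type*} [CommRing A] [Field F] [Algebra A F]

/-- The charts are root-closed. -/
theorem mem_chartU_of_pow_mem {x : F} {m : ℕ} (hm : 0 < m) {y : F}
    (hy : y ^ m ∈ chartU A x) : y ∈ chartU A x :=
  IsIntegral.of_pow hm hy

theorem mem_chartV_of_pow_mem {x : F} {m : ℕ} (hm : 0 < m) {y : F}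
    (hy : y ^ m ∈ chartV A x) : y ∈ chartV A x :=
  IsIntegral.of_pow hm hy

theorem mem_chartUV_of_pow_mem {x : F} {m : ℕ} (hm : 0 < m) {y : F}
    (hy : y ^ m ∈ chartUV A x) : y ∈ chartUV A x :=
  IsIntegral.of_pow hm hy

/-- Transitivity of integrality, in subalgebra form. -/
theorem isIntegral_of_isIntegral_subalgebra {S T : Subalgebra A F}
    (hT : ∀ z ∈ T, IsIntegral S z) {y : F} (hy : IsIntegral T y) : IsIntegral S y := by
  obtain ⟨p, hp, hpy⟩ := hy
  let φ : T →+* integralClosure S F :=
    { toFun := fun z => ⟨z.1, hT z.1 z.2⟩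
      map_one' := rfl
      map_mul' := fun _ _ => rfl
      map_zero' := rfl
      map_add' := fun _ _ => rfl }
  have h : IsIntegral (integralClosure S F) y := by
    refine ⟨p.map φ, hp.map _, ?_⟩
    rw [eval₂_map]
    exact hpy
  exact isIntegral_trans (R := S) y h

/-- The charts are integrally closed in `F`. -/
theorem mem_chartU_of_isIntegral {x y : F} (hy : IsIntegral (chartU A x) y) : y ∈ chartU A x :=
  isIntegral_of_isIntegral_subalgebra (S := Algebra.adjoin A {x}) (T := chartU A x)
    (fun _ hz => hz) hy

theorem mem_chartV_of_isIntegral {x y : F} (hy : IsIntegral (chartV A x) y) : y ∈ chartV A x :=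
  mem_chartU_of_isIntegral hy

theorem mem_chartUV_of_isIntegral {x y : F} (hy : IsIntegral (chartUV A x) y) :
    y ∈ chartUV A x :=
  isIntegral_of_isIntegral_subalgebra (S := Algebra.adjoin A {x, x⁻¹}) (T := chartUV A x)
    (fun _ hz => hz) hy

/-- A subalgebra generated by elements of a valuation subring containing the scalars lies in
it. -/
theorem adjoin_le_valuationSubring (W : ValuationSubring F)
    (hA : ∀ a : A, algebraMap A F a ∈ W) {s : Set F} (hs : ∀ z ∈ s, z ∈ W) {y : F}
    (hy : y ∈ Algebra.adjoin A s) : y ∈ W := by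
  induction hy using Algebra.adjoin_induction with
  | mem z hz => exact hs z hz
  | algebraMap a => exact hA a
  | add y z _ _ hy hz => exact W.add_mem _ _ hy hz
  | mul y z _ _ hy hz => exact W.mul_mem _ _ hy hz

/-- Valuation subrings are integrally closed: anything integral over a subalgebra contained in
`W` lies in `W`. -/
theorem mem_valuationSubring_of_isIntegral (W : ValuationSubring F) (S : Subalgebra A F)
    (hS : ∀ z ∈ S, z ∈ W) {y : F} (hy : IsIntegral S y) : y ∈ W := by
  obtain ⟨p, hp, hpy⟩ := hy
  let φ : S →+* W :=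
    { toFun := fun z => ⟨z.1, hS z.1 z.2⟩
      map_one' := rfl
      map_mul' := fun _ _ => rfl
      map_zero' := rfl
      map_add' := fun _ _ => rfl }
  have h : IsIntegral W y := by
    refine ⟨p.map φ, hp.map _, ?_⟩
    rw [eval₂_map]
    exact hpy
  obtain ⟨w, hw⟩ := (IsIntegrallyClosed.isIntegral_iff (R := W) (K := F)).mp h
  rw [← hw]
  exact w.2

/-- `B_U ≤ W` for every valuation subring `W` containing the scalars and `x`. -/
theorem chartU_le_valuationSubring (W : ValuationSubring F)
    (hA : ∀ a : A, algebraMap A F a ∈ W) {x : F} (hx : x ∈ W) {y : F}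
    (hy : y ∈ chartU A x) : y ∈ W :=
  mem_valuationSubring_of_isIntegral W _
    (fun _ hz => adjoin_le_valuationSubring W hA (by
      intro z hz
      rw [Set.mem_singleton_iff] at hz
      exact hz ▸ hx) hz) hy

/-- `B_V ≤ W` for every valuation subring `W` containing the scalars and `x⁻¹`. -/
theorem chartV_le_valuationSubring (W : ValuationSubring F)
    (hA : ∀ a : A, algebraMap A F a ∈ W) {x : F} (hx : x⁻¹ ∈ W) {y : F}
    (hy : y ∈ chartV A x) : y ∈ W :=
  chartU_le_valuationSubring W hA hx hy

/-- `B_UV ≤ W` for every valuation subring `W` containing the scalars, `x` and `x⁻¹`. -/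
theorem chartUV_le_valuationSubring (W : ValuationSubring F)
    (hA : ∀ a : A, algebraMap A F a ∈ W) {x : F} (hx : x ∈ W) (hx' : x⁻¹ ∈ W) {y : F}
    (hy : y ∈ chartUV A x) : y ∈ W :=
  mem_valuationSubring_of_isIntegral W _
    (fun _ hz => adjoin_le_valuationSubring W hA (by
      intro z hz
      rcases hz with rfl | hz
      · exact hx
      · rw [Set.mem_singleton_iff] at hz
        exact hz ▸ hx') hz) hy

/-- An element of `B_U ∩ B_V` lies in every valuation subring of `F` containing the scalars:
it has no poles. -/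
theorem mem_valuationSubring_of_mem_chartU_of_mem_chartV (W : ValuationSubring F)
    (hA : ∀ a : A, algebraMap A F a ∈ W) {x y : F} (hU : y ∈ chartU A x)
    (hV : y ∈ chartV A x) : y ∈ W := by
  rcases W.mem_or_inv_mem x with hx | hx
  · exact chartU_le_valuationSubring W hA hx hU
  · exact chartV_le_valuationSubring W hA hx hV

end Closed

section Saturation

variable {A F : Type*} [CommRing A] [Field F] [Algebra A F]

/-- Saturation for all powers from saturation for the first power. -/
theorem sat_pow_of_sat_one (B : Subalgebra A F) (V : ValuationSubring F) (p : F) (hp : p ∈ V)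
    (h1 : ∀ b ∈ B, (∃ y ∈ V, b = p * y) → ∃ c ∈ B, b = p * c) :
    ∀ b ∈ B, ∀ n : ℕ, (∃ y ∈ V, b = p ^ n * y) → ∃ c ∈ B, b = p ^ n * c := by
  intro b hb n
  induction n generalizing b with
  | zero =>
    rintro ⟨y, -, hby⟩
    exact ⟨b, hb, by rw [pow_zero, one_mul]⟩
  | succ n ih =>
    rintro ⟨y, hy, rfl⟩
    by_cases hp0 : p = 0
    · exact ⟨0, zero_mem _, by simp [hp0]⟩
    obtain ⟨c, hc, hbc⟩ := h1 _ hb ⟨p ^ n * y, V.mul_mem _ _ (pow_mem hp n) hy, by ring⟩
    have hc' : c = p ^ n * y := by
      apply mul_left_cancel₀ hp0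
      rw [← hbc]
      ring
    obtain ⟨c', hc'B, hcc'⟩ := ih c hc ⟨y, hy, hc'⟩
    refine ⟨c', hc'B, ?_⟩
    rw [hbc, hcc']
    ring

/-- Saturation of the overlap chart from saturation of the finite chart. -/
theorem sat_chartUV_of_sat_chartU {x : F} (hx : x ≠ 0) (V : ValuationSubring F) (hxV : x ∈ V)
    (p : F) (n : ℕ)
    (hU : ∀ b ∈ chartU A x, (∃ y ∈ V, b = p ^ n * y) → ∃ c ∈ chartU A x, b = p ^ n * c) :
    ∀ b ∈ chartUV A x, (∃ y ∈ V, b = p ^ n * y) → ∃ c ∈ chartUV A x, b = p ^ n * c := by
  rintro b hb ⟨y, hy, rfl⟩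
  obtain ⟨k, hk⟩ := exists_pow_mul_mem_chartU hx hb
  obtain ⟨c, hc, hbc⟩ := hU _ hk ⟨x ^ k * y, V.mul_mem _ _ (pow_mem hxV k) hy, by ring⟩
  refine ⟨x⁻¹ ^ k * c, mul_mem (pow_mem (inv_mem_chartUV x) k) (chartU_le_chartUV x hc), ?_⟩
  have hxk : x ^ k ≠ 0 := pow_ne_zero k hx
  apply mul_left_cancel₀ hxk
  rw [hbc, inv_pow]
  field_simp

end Saturation

section Frac

variable {A F : Type*} [CommRing A] [Field F] [Algebra A F]

/-- `F` is the fraction field of the finite chart as soon as it is algebraic over `A[x]`. -/
theorem exists_chartU_mul_eq {x : F} [Algebra.IsAlgebraic (Algebra.adjoin A {x}) F] (y : F) :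
    ∃ a ∈ chartU A x, ∃ b ∈ chartU A x, b ≠ 0 ∧ y * b = a := by
  obtain ⟨d, hd, hint⟩ :=
    (Algebra.IsAlgebraic.isAlgebraic (R := Algebra.adjoin A {x}) y).exists_integral_multiple
  refine ⟨d • y, hint, (d : F), adjoin_le_chartU x d.2, ?_, ?_⟩
  · exact fun h => hd (Subtype.ext h)
  · rw [Subalgebra.smul_def, smul_eq_mul, mul_comm]

end Frac

section Noeth

variable {A K F : Type*} [CommRing A] [IsDomain A] [Field K] [Algebra A K] [IsFractionRing A K]
  [Field F] [Algebra K F] [Algebra A F] [IsScalarTower A K F]

omit [IsDomain A] in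
/-- The scalars embed into `F`. -/
theorem algebraMap_injective_of_isFractionRing (A K F : Type*) [CommRing A] [Field K]
    [Algebra A K] [IsFractionRing A K] [Field F] [Algebra K F] [Algebra A F]
    [IsScalarTower A K F] : Function.Injective (algebraMap A F) := by
  rw [IsScalarTower.algebraMap_eq A K F]
  exact (algebraMap K F).injective.comp (IsFractionRing.injective A K)

/-- Every element of `K(x)` is a ratio of two elements of `A[x]`. -/
theorem exists_adjoin_mul_eq (x : F) {c : F} (hc : c ∈ IntermediateField.adjoin K {x}) :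
    ∃ r ∈ Algebra.adjoin A {x}, ∃ d ∈ Algebra.adjoin A {x}, d ≠ 0 ∧ c * d = r := by
  obtain ⟨r, s, rfl⟩ := (IntermediateField.mem_adjoin_simple_iff K c).mp hc
  by_cases hs : aeval x s = 0
  · exact ⟨0, zero_mem _, 1, one_mem _, one_ne_zero, by simp [hs]⟩
  obtain ⟨br, hbr, hr⟩ := IsLocalization.integerNormalization_spec (nonZeroDivisors A) r
  obtain ⟨bs, hbs, hs'⟩ := IsLocalization.integerNormalization_spec (nonZeroDivisors A) s
  set r' := IsLocalization.integerNormalization (nonZeroDivisors A) r with hr'
  set s' := IsLocalization.integerNormalization (nonZeroDivisors A) s with hs''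
  have key : ∀ (b : A) (t : K[X]) (t' : A[X]), t'.map (algebraMap A K) = b • t →
      aeval x t' = algebraMap A F b * aeval x t := by
    intro b t t' h
    have h2 : aeval x (t'.map (algebraMap A K)) = aeval x (b • t) := by rw [h]
    rw [aeval_map_algebraMap] at h2
    rw [h2, ← IsScalarTower.algebraMap_smul K b t, map_smul, Algebra.smul_def,
      ← IsScalarTower.algebraMap_apply]
  have hr2 := key br r r' hr
  have hs2 := key bs s s' hs'
  have hinj := algebraMap_injective_of_isFractionRing A K F
  have hbr0 : algebraMap A F br ≠ 0 := fun h =>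
    nonZeroDivisors.ne_zero hbr (hinj (h.trans (map_zero _).symm))
  have hbs0 : algebraMap A F bs ≠ 0 := fun h =>
    nonZeroDivisors.ne_zero hbs (hinj (h.trans (map_zero _).symm))
  refine ⟨algebraMap A F bs * aeval x r', ?_, algebraMap A F br * aeval x s', ?_, ?_, ?_⟩
  · exact mul_mem (Subalgebra.algebraMap_mem _ _) (aeval_mem_adjoin_singleton A x)
  · exact mul_mem (Subalgebra.algebraMap_mem _ _) (aeval_mem_adjoin_singleton A x)
  · rw [hs2]
    exact mul_ne_zero hbr0 (mul_ne_zero hbs0 hs)
  · rw [hr2, hs2]
    field_simp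

/-- `F` is finite over the fraction field of `A[x]` as soon as it is finite over `K(x)`. -/
theorem finite_fractionRing_adjoin (x : F)
    [FiniteDimensional (IntermediateField.adjoin K {x}) F] :
    letI := FractionRing.liftAlgebra (Algebra.adjoin A {x}) F
    Module.Finite (FractionRing (Algebra.adjoin A {x})) F := by
  let _ : Algebra (FractionRing (Algebra.adjoin A {x})) F :=
    FractionRing.liftAlgebra (Algebra.adjoin A {x}) F
  have : IsScalarTower (Algebra.adjoin A {x}) (FractionRing (Algebra.adjoin A {x})) F :=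
    FractionRing.isScalarTower_liftAlgebra (Algebra.adjoin A {x}) F
  obtain ⟨t, ht⟩ :=
    (Module.Finite.fg_top : (⊤ : Submodule (IntermediateField.adjoin K {x}) F).FG)
  refine ⟨⟨t, ?_⟩⟩
  rw [eq_top_iff]
  rintro y -
  have hy : y ∈ Submodule.span (IntermediateField.adjoin K {x}) (t : Set F) := by
    rw [ht]
    exact Submodule.mem_top
  induction hy using Submodule.span_induction with
  | mem z hz => exact Submodule.subset_span hz
  | zero => exact zero_mem _
  | add a b _ _ ha hb => exact add_mem ha hb
  | smul c z _ hz =>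
    obtain ⟨r, hr, d, hd, hd0, hcd⟩ := exists_adjoin_mul_eq (A := A) x c.2
    have hd0' : algebraMap (Algebra.adjoin A {x}) F ⟨d, hd⟩ ≠ 0 := hd0
    have : c • z = (algebraMap (Algebra.adjoin A {x}) (FractionRing (Algebra.adjoin A {x}))
          ⟨r, hr⟩ / algebraMap (Algebra.adjoin A {x}) (FractionRing (Algebra.adjoin A {x}))
          ⟨d, hd⟩) • z := by
      rw [Algebra.smul_def (R := FractionRing (Algebra.adjoin A {x})), map_div₀,
        ← IsScalarTower.algebraMap_apply, ← IsScalarTower.algebraMap_apply,
        IntermediateField.smul_def, smul_eq_mul]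
      congr 1
      rw [eq_div_iff hd0']
      exact hcd
    rw [this]
    exact Submodule.smul_mem _ _ hz

/-- `F` is algebraic over `A[x]` as soon as it is finite over `K(x)`. -/
theorem isAlgebraic_adjoin (x : F) [FiniteDimensional (IntermediateField.adjoin K {x}) F] :
    Algebra.IsAlgebraic (Algebra.adjoin A {x}) F := by
  let _ : Algebra (FractionRing (Algebra.adjoin A {x})) F :=
    FractionRing.liftAlgebra (Algebra.adjoin A {x}) F
  have : IsScalarTower (Algebra.adjoin A {x}) (FractionRing (Algebra.adjoin A {x})) F :=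
    FractionRing.isScalarTower_liftAlgebra (Algebra.adjoin A {x}) F
  have : Module.Finite (FractionRing (Algebra.adjoin A {x})) F :=
    finite_fractionRing_adjoin (K := K) x
  have h : Algebra.IsAlgebraic (FractionRing (Algebra.adjoin A {x})) F := inferInstance
  exact (IsFractionRing.comap_isAlgebraic_iff
    (K := FractionRing (Algebra.adjoin A {x}))).mpr h

/-- **(frac)**: `F` is the fraction field of the finite chart. -/
theorem exists_chartU_mul_eq_of_finiteDimensional (x : F)
    [FiniteDimensional (IntermediateField.adjoin K {x}) F] (y : F) :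
    ∃ a ∈ chartU A x, ∃ b ∈ chartU A x, b ≠ 0 ∧ y * b = a :=
  haveI := isAlgebraic_adjoin (A := A) (K := K) x
  exists_chartU_mul_eq y

omit [IsDomain A] [Algebra A K] [IsFractionRing A K] [Algebra A F] [IsScalarTower A K F] in
/-- `x⁻¹` is transcendental when `x` is. -/
theorem transcendental_inv {x : F} (hx : Transcendental K x) : Transcendental K x⁻¹ :=
  fun h => hx (by simpa using h.inv)

omit [IsDomain A] [Algebra A K] [IsFractionRing A K] [Algebra A F] [IsScalarTower A K F] in
/-- `K(x⁻¹) = K(x)`. -/
theorem adjoin_inv_eq (x : F) :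
    IntermediateField.adjoin K {x⁻¹} = IntermediateField.adjoin K {x} := by
  apply le_antisymm
  · rw [IntermediateField.adjoin_simple_le_iff]
    exact inv_mem (IntermediateField.mem_adjoin_simple_self K x)
  · rw [IntermediateField.adjoin_simple_le_iff]
    have := inv_mem (IntermediateField.mem_adjoin_simple_self K x⁻¹)
    rwa [inv_inv] at this

omit [IsDomain A] [Algebra A K] [IsFractionRing A K] [Algebra A F] [IsScalarTower A K F] in
/-- `F` is finite over `K(x⁻¹)` when it is finite over `K(x)`. -/
theorem finiteDimensional_adjoin_inv (x : F)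
    [h : FiniteDimensional (IntermediateField.adjoin K {x}) F] :
    FiniteDimensional (IntermediateField.adjoin K {x⁻¹}) F := by
  have aux : ∀ E₁ E₂ : IntermediateField K F, E₁ = E₂ → FiniteDimensional E₁ F →
      FiniteDimensional E₂ F := by
    rintro E₁ _ rfl h'
    exact h'
  exact aux _ _ (adjoin_inv_eq (K := K) x).symm h

/-- **(frac)** for the chart at infinity. -/
theorem exists_chartV_mul_eq_of_finiteDimensional (x : F)
    [FiniteDimensional (IntermediateField.adjoin K {x}) F] (y : F) :
    ∃ a ∈ chartV A x, ∃ b ∈ chartV A x, b ≠ 0 ∧ y * b = a :=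
  haveI := finiteDimensional_adjoin_inv (K := K) x
  exists_chartU_mul_eq_of_finiteDimensional (K := K) x⁻¹ y

variable [IsIntegrallyClosed A] [IsNoetherianRing A] [CharZero K]

/-- **Finiteness of the finite chart**: over a noetherian integrally closed base of
characteristic zero, the integral closure of `A[x]` in a finite extension `F` of `K(x)` is a
noetherian `A[x]`-module. -/
theorem isNoetherian_integralClosure_adjoin {x : F} (hx : Transcendental K x)
    [FiniteDimensional (IntermediateField.adjoin K {x}) F] :
    IsNoetherian (Algebra.adjoin A {x}) (integralClosure (Algebra.adjoin A {x}) F) := by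
  classical
  have hxA : Transcendental A x := hx.restrictScalars (IsFractionRing.injective A K)
  have hinj : Function.Injective (aeval (R := A) x) := transcendental_iff_injective.mp hxA
  let e : A[X] ≃ₐ[A] Algebra.adjoin A {x} :=
    (AlgEquiv.ofInjective (aeval x) hinj).trans
      (Subalgebra.equivOfEq _ _ (Algebra.adjoin_singleton_eq_range_aeval A x).symm)
  have : IsNoetherianRing (Algebra.adjoin A {x}) :=
    isNoetherianRing_of_ringEquiv A[X] e.toRingEquiv
  have : IsIntegrallyClosed (Algebra.adjoin A {x}) := IsIntegrallyClosed.of_equiv e.toRingEquiv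
  let _ : Algebra (FractionRing (Algebra.adjoin A {x})) F :=
    FractionRing.liftAlgebra (Algebra.adjoin A {x}) F
  have : IsScalarTower (Algebra.adjoin A {x}) (FractionRing (Algebra.adjoin A {x})) F :=
    FractionRing.isScalarTower_liftAlgebra (Algebra.adjoin A {x}) F
  have : CharZero F := charZero_of_injective_algebraMap (algebraMap K F).injective
  have : CharZero (FractionRing (Algebra.adjoin A {x})) :=
    (algebraMap (FractionRing (Algebra.adjoin A {x})) F).charZero
  have : Module.Finite (FractionRing (Algebra.adjoin A {x})) F :=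
    finite_fractionRing_adjoin (K := K) x
  exact IsIntegralClosure.isNoetherian (Algebra.adjoin A {x})
    (FractionRing (Algebra.adjoin A {x})) F (integralClosure (Algebra.adjoin A {x}) F)

/-- The integral closure of `A[x]` in `F` is a finite `A[x]`-module. -/
theorem finite_integralClosure_adjoin {x : F} (hx : Transcendental K x)
    [FiniteDimensional (IntermediateField.adjoin K {x}) F] :
    Module.Finite (Algebra.adjoin A {x}) (integralClosure (Algebra.adjoin A {x}) F) :=
  haveI := isNoetherian_integralClosure_adjoin (A := A) hx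
  Module.IsNoetherian.finite _ _

/-- **(noeth), first half**: the finite chart is a noetherian ring. -/
theorem isNoetherianRing_chartU {x : F} (hx : Transcendental K x)
    [FiniteDimensional (IntermediateField.adjoin K {x}) F] :
    IsNoetherianRing (chartU A x) := by
  have h := isNoetherian_integralClosure_adjoin (A := A) hx
  have h2 : IsNoetherianRing (integralClosure (Algebra.adjoin A {x}) F) :=
    isNoetherianRing_iff.mpr (isNoetherian_of_tower (Algebra.adjoin A {x}) h)
  exact h2

/-- **(noeth), second half**: every `A[x]`-submodule of `F` contained in the finite chart is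
finitely generated. -/
theorem fg_of_le_chartU {x : F} (hx : Transcendental K x)
    [FiniteDimensional (IntermediateField.adjoin K {x}) F]
    (M : Submodule (Algebra.adjoin A {x}) F) (hM : ∀ y ∈ M, y ∈ chartU A x) : M.FG := by
  have h := isNoetherian_integralClosure_adjoin (A := A) hx
  set C := integralClosure (Algebra.adjoin A {x}) F with hC
  have hle : M ≤ Subalgebra.toSubmodule C := fun y hy => hM y hy
  have hfg : (M.comap (Subalgebra.toSubmodule C).subtype).FG := IsNoetherian.noetherian _
  have hmap : (M.comap (Subalgebra.toSubmodule C).subtype).map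
      (Subalgebra.toSubmodule C).subtype = M := by
    rw [Submodule.map_comap_eq, Submodule.range_subtype]
    exact inf_eq_right.mpr hle
  rw [← hmap]
  exact hfg.map _

/-- **(noeth)** for the chart at infinity. -/
theorem isNoetherianRing_chartV {x : F} (hx : Transcendental K x)
    [FiniteDimensional (IntermediateField.adjoin K {x}) F] :
    IsNoetherianRing (chartV A x) :=
  haveI := finiteDimensional_adjoin_inv (K := K) x
  isNoetherianRing_chartU (A := A) (transcendental_inv hx)

theorem fg_of_le_chartV {x : F} (hx : Transcendental K x)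
    [FiniteDimensional (IntermediateField.adjoin K {x}) F]
    (M : Submodule (Algebra.adjoin A {x⁻¹}) F) (hM : ∀ y ∈ M, y ∈ chartV A x) : M.FG :=
  haveI := finiteDimensional_adjoin_inv (K := K) x
  fg_of_le_chartU (A := A) (transcendental_inv hx) M hM

end Noeth

end Fermat.Agent.S18.H97
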