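import Mathlib
import Fermat.Agent.S18.Charts_helper97

/-!
# S18, node CHARTS, polynomial-ring adapter

The normality criterion (NC) is stated for `integralClosure A[X] F`, where `F` is an
`A[X]`-algebra through `X ↦ x`.  The Kummer core is stated for the chart
`chartU A x : Subalgebra A F`.  This file identifies the two rings (`polyChartEquiv`), so that
statements about one can be carried to the other, and produces the ambient instances of the
polynomial form from the `K(x)`-form.
-/

set_option autoImplicit false

open Polynomial

namespace Fermat.Agent.S18.H97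

section Poly

variable {A F : Type*} [CommRing A] [Field F] [Algebra A F] [Algebra A[X] F]

/-- Integrality over `A[X]`, acting through `X ↦ x`, is integrality over `A[x]`. -/
theorem isIntegral_polynomial_iff {x : F} (hx : ∀ p : A[X], algebraMap A[X] F p = aeval x p)
    {y : F} : IsIntegral A[X] y ↔ IsIntegral (Algebra.adjoin A {x}) y := by
  let φ : A[X] →+* Algebra.adjoin A {x} :=
    { toFun := fun p => ⟨aeval x p, aeval_mem_adjoin_singleton A x⟩
      map_one' := Subtype.ext (map_one _)
      map_mul' := fun p q => Subtype.ext (map_mul _ p q)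
      map_zero' := Subtype.ext (map_zero _)
      map_add' := fun p q => Subtype.ext (map_add _ p q) }
  have hφ : (algebraMap (Algebra.adjoin A {x}) F).comp φ = algebraMap A[X] F := by
    ext p
    · simp [φ, hx]
    · simp [φ, hx]
  have hsurj : Function.Surjective φ := by
    rintro ⟨z, hz⟩
    rw [Algebra.adjoin_singleton_eq_range_aeval] at hz
    obtain ⟨p, rfl⟩ := hz
    exact ⟨p, rfl⟩
  constructor
  · rintro ⟨p, hp, hpy⟩
    refine ⟨p.map φ, hp.map _, ?_⟩
    rw [eval₂_map, hφ]
    exact hpy
  · rintro ⟨q, hq, hqy⟩
    have hlifts : q ∈ lifts φ := by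
      rw [lifts_iff_coeff_lifts]
      intro n
      exact hsurj _
    obtain ⟨p, hpq, -, hp⟩ := lifts_and_natDegree_eq_and_monic hlifts hq
    refine ⟨p, hp, ?_⟩
    rw [← hpq, eval₂_map, hφ] at hqy
    exact hqy

/-- The integral closure of `A[X]` in `F` has the same elements as the finite chart. -/
theorem mem_integralClosure_polynomial_iff {x : F}
    (hx : ∀ p : A[X], algebraMap A[X] F p = aeval x p) {y : F} :
    y ∈ integralClosure A[X] F ↔ y ∈ chartU A x :=
  isIntegral_polynomial_iff hx

/-- The ring isomorphism between the (NC) carrier `integralClosure A[X] F` and the finite chart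
`chartU A x`; it is the identity on elements of `F`. -/
def polyChartEquiv {x : F} (hx : ∀ p : A[X], algebraMap A[X] F p = aeval x p) :
    integralClosure A[X] F ≃+* chartU A x where
  toFun b := ⟨b.1, (mem_integralClosure_polynomial_iff hx).mp b.2⟩
  invFun b := ⟨b.1, (mem_integralClosure_polynomial_iff hx).mpr b.2⟩
  left_inv _ := rfl
  right_inv _ := rfl
  map_mul' _ _ := rfl
  map_add' _ _ := rfl

@[simp]
theorem coe_polyChartEquiv {x : F} (hx : ∀ p : A[X], algebraMap A[X] F p = aeval x p)
    (b : integralClosure A[X] F) : ((polyChartEquiv hx b : chartU A x) : F) = (b : F) := rfl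

@[simp]
theorem coe_polyChartEquiv_symm {x : F} (hx : ∀ p : A[X], algebraMap A[X] F p = aeval x p)
    (b : chartU A x) : (((polyChartEquiv hx).symm b : integralClosure A[X] F) : F) = (b : F) :=
  rfl

/-- The isomorphism sends the image of a polynomial `p` to `p(x)`. -/
theorem coe_polyChartEquiv_algebraMap {x : F}
    (hx : ∀ p : A[X], algebraMap A[X] F p = aeval x p) (p : A[X]) :
    ((polyChartEquiv hx (algebraMap A[X] (integralClosure A[X] F) p) : chartU A x) : F) =
      aeval x p := by
  rw [coe_polyChartEquiv, ← hx]
  rfl

/-- The isomorphism sends the constant `C a` to the scalar `a` of the chart. -/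
theorem polyChartEquiv_algebraMap_C {x : F}
    (hx : ∀ p : A[X], algebraMap A[X] F p = aeval x p) (a : A) :
    polyChartEquiv hx (algebraMap A[X] (integralClosure A[X] F) (C a)) =
      algebraMap A (chartU A x) a := by
  apply Subtype.ext
  rw [coe_polyChartEquiv_algebraMap, aeval_C]
  rfl

/-- The isomorphism sends `X` to `x`. -/
theorem coe_polyChartEquiv_algebraMap_X {x : F}
    (hx : ∀ p : A[X], algebraMap A[X] F p = aeval x p) :
    ((polyChartEquiv hx (algebraMap A[X] (integralClosure A[X] F) X) : chartU A x) : F) = x := by
  rw [coe_polyChartEquiv_algebraMap, aeval_X]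

end Poly

section Ambient

variable {A K F : Type*} [CommRing A] [IsDomain A] [Field K] [Algebra A K] [IsFractionRing A K]
  [Field F] [Algebra K F] [Algebra A F] [IsScalarTower A K F] [Algebra A[X] F]

omit [IsDomain A] in
/-- `A[X] → F`, `X ↦ x`, is injective when `x` is transcendental over `K`. -/
theorem algebraMap_polynomial_injective {x : F}
    (hx : ∀ p : A[X], algebraMap A[X] F p = aeval x p) (hxK : Transcendental K x) :
    Function.Injective (algebraMap A[X] F) := by
  have hxA : Transcendental A x := hxK.restrictScalars (IsFractionRing.injective A K)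
  have hinj : Function.Injective (aeval (R := A) x) := transcendental_iff_injective.mp hxA
  intro p q hpq
  rw [hx, hx] at hpq
  exact hinj hpq

omit [IsDomain A] in
/-- `F` is a faithful `A[X]`-module when `x` is transcendental over `K`. -/
theorem faithfulSMul_polynomial {x : F}
    (hx : ∀ p : A[X], algebraMap A[X] F p = aeval x p) (hxK : Transcendental K x) :
    FaithfulSMul A[X] F :=
  (faithfulSMul_iff_algebraMap_injective A[X] F).mpr (algebraMap_polynomial_injective hx hxK)

/-- `F` is finite over any field `K₁` through which `A[X] → F` factors (e.g. the fraction field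
of `A[X]`), as soon as it is finite over `K(x)`. -/
theorem finite_of_tower_polynomial {x : F} (hx : ∀ p : A[X], algebraMap A[X] F p = aeval x p)
    (K₁ : Type*) [Field K₁] [Algebra A[X] K₁] [Algebra K₁ F] [IsScalarTower A[X] K₁ F]
    [FiniteDimensional (IntermediateField.adjoin K {x}) F] : Module.Finite K₁ F := by
  obtain ⟨t, ht⟩ :=
    (Module.Finite.fg_top : (⊤ : Submodule (IntermediateField.adjoin K {x}) F).FG)
  refine ⟨⟨t, ?_⟩⟩
  rw [eq_top_iff]
  rintro y -
  have hy : y ∈ Submodule.span (IntermediateField.adjoin K {x}) (t : Set F) := by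
    rw [ht]
    exact Submodule.mem_top
  induction hy using Submodule.span_induction with
  | mem z hz => exact Submodule.subset_span hz
  | zero => exact zero_mem _
  | add a b _ _ ha hb => exact add_mem ha hb
  | smul c z _ hz =>
    obtain ⟨r, hr, d, hd, hd0, hcd⟩ := exists_adjoin_mul_eq (A := A) x c.2
    rw [Algebra.adjoin_singleton_eq_range_aeval] at hr hd
    obtain ⟨R', rfl⟩ := hr
    obtain ⟨D', rfl⟩ := hd
    have hD : algebraMap K₁ F (algebraMap A[X] K₁ D') = aeval x D' := by
      rw [← IsScalarTower.algebraMap_apply, hx]
    have hR : algebraMap K₁ F (algebraMap A[X] K₁ R') = aeval x R' := by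
      rw [← IsScalarTower.algebraMap_apply, hx]
    have : c • z = (algebraMap A[X] K₁ R' / algebraMap A[X] K₁ D') • z := by
      rw [Algebra.smul_def (R := K₁), map_div₀, hD, hR, IntermediateField.smul_def, smul_eq_mul]
      congr 1
      exact (eq_div_iff hd0).mpr hcd
    rw [this]
    exact Submodule.smul_mem _ _ hz

variable [IsIntegrallyClosed A] [IsNoetherianRing A] [CharZero K]

/-- The (NC) carrier is a noetherian ring. -/
theorem isNoetherianRing_integralClosure_polynomial {x : F}
    (hx : ∀ p : A[X], algebraMap A[X] F p = aeval x p) (hxK : Transcendental K x)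
    [FiniteDimensional (IntermediateField.adjoin K {x}) F] :
    IsNoetherianRing (integralClosure A[X] F) :=
  haveI := isNoetherianRing_chartU (A := A) hxK
  isNoetherianRing_of_ringEquiv _ (polyChartEquiv hx).symm

end Ambient

end Fermat.Agent.S18.H97
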