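/-
S18, node (REG-ADAPT): from "the special fibre `B ⧸ (π)` is a Dedekind domain" (the conclusion
of the normality theorem (NC)) to the elementary regularity hypothesis (REG) of the Kummer
core base step:

  for every maximal ideal `n ∋ π` of `B` there is `τ ∈ n` such that every `a ∉ (π)` satisfies
  `a * d - u * τ ^ e ∈ (π)` for some `e : ℕ` and `d, u ∉ n`.

Mathlib only.
-/
import Mathlib

set_option autoImplicit false

namespace Fermat.Agent.S18.H51

open Ideal

/-- Quotient-free core: in a Dedekind domain `C` with a maximal ideal `P` there is a "local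
parameter" `t ∈ P` such that every nonzero `c` is, up to factors outside `P`, a power of `t`.
(The field case `P = ⊥` is included with `t = 0`, `e = 0`.) -/
theorem exists_local_parameter {C : Type*} [CommRing C] [IsDedekindDomain C]
    (P : Ideal C) (hP : P.IsMaximal) :
    ∃ t ∈ P, ∀ c : C, c ≠ 0 → ∃ (e : ℕ) (d u : C), d ∉ P ∧ u ∉ P ∧ c * d = u * t ^ e := by
  classical
  by_cases hbot : P = ⊥
  · refine ⟨0, P.zero_mem, fun c hc => ⟨0, 1, c, ?_, ?_, by ring⟩⟩
    · exact fun h => hP.ne_top ((Ideal.eq_top_iff_one P).2 h)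
    · rw [hbot]
      simpa using hc
  have : P.IsPrime := hP.isPrime
  let S := Localization.AtPrime P
  have : IsDiscreteValuationRing S :=
    IsLocalization.AtPrime.isDiscreteValuationRing_of_dedekind_domain C hbot S
  have hinj : Function.Injective (algebraMap C S) :=
    IsLocalization.injective S P.primeCompl_le_nonZeroDivisors
  obtain ⟨ϖ, hϖ⟩ := IsDiscreteValuationRing.exists_irreducible S
  obtain ⟨t, s, rfl⟩ := IsLocalization.exists_mk'_eq P.primeCompl ϖ
  -- `t / 1` is an associate of `t / s`, hence irreducible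
  have hts : IsLocalization.mk' S t s * algebraMap C S (s : C) = algebraMap C S t :=
    IsLocalization.mk'_spec S t s
  have hsunit : IsUnit (algebraMap C S (s : C)) := IsLocalization.map_units S s
  have hirr : Irreducible (algebraMap C S t) := by
    rw [← hts]
    exact (irreducible_mul_isUnit hsunit).2 hϖ
  have htP : t ∈ P := by
    by_contra h
    exact hirr.not_isUnit ((IsLocalization.AtPrime.isUnit_to_map_iff S P t).2 h)
  refine ⟨t, htP, fun c hc => ?_⟩
  have hc' : algebraMap C S c ≠ 0 := fun h => hc (hinj (by rw [h, map_zero]))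
  obtain ⟨e, w, hw⟩ := IsDiscreteValuationRing.eq_unit_mul_pow_irreducible hc' hirr
  obtain ⟨u, d, hud⟩ := IsLocalization.exists_mk'_eq P.primeCompl (w : S)
  have huP : u ∈ P.primeCompl := by
    rw [← IsLocalization.AtPrime.isUnit_mk'_iff S P u d, hud]
    exact w.isUnit
  refine ⟨e, d, u, d.2, huP, hinj ?_⟩
  have hspec : (w : S) * algebraMap C S (d : C) = algebraMap C S u := by
    rw [← hud]
    exact IsLocalization.mk'_spec S u d
  rw [map_mul, map_mul, map_pow, hw, ← hspec]
  ring

/-- **(REG-ADAPT).**  If `B ⧸ (π)` is a Dedekind domain, then (REG) holds at every maximal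
ideal `n ∋ π` of `B`. -/
theorem reg_of_isDedekindDomain {B : Type*} [CommRing B] (π : B)
    [IsDedekindDomain (B ⧸ Ideal.span {π})]
    (n : Ideal B) (hn : n.IsMaximal) (hπ : π ∈ n) :
    ∃ τ ∈ n, ∀ a : B, a ∉ Ideal.span {π} →
      ∃ (e : ℕ) (d u : B), d ∉ n ∧ u ∉ n ∧ a * d - u * τ ^ e ∈ Ideal.span {π} := by
  set q := Ideal.Quotient.mk (Ideal.span {π}) with hq
  have hsurj : Function.Surjective q := Ideal.Quotient.mk_surjective
  have hker : RingHom.ker q ≤ n := by
    rw [hq, Ideal.mk_ker, Ideal.span_singleton_le_iff_mem]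
    exact hπ
  have := hn
  have hPmax : (n.map q).IsMaximal := Ideal.IsMaximal.map_of_surjective_of_ker_le hsurj hker
  have hmem : ∀ x : B, q x ∈ n.map q → x ∈ n := fun x hx => by
    obtain ⟨y, hy, hxy⟩ := (Ideal.mem_map_iff_of_surjective q hsurj).1 hx
    have : x - y ∈ RingHom.ker q := by rw [RingHom.mem_ker, map_sub, hxy, sub_self]
    have h2 := n.add_mem (hker this) hy
    rwa [sub_add_cancel] at h2
  obtain ⟨t, ht, hloc⟩ := exists_local_parameter (n.map q) hPmax
  obtain ⟨τ, hτn, rfl⟩ := (Ideal.mem_map_iff_of_surjective q hsurj).1 ht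
  refine ⟨τ, hτn, fun a ha => ?_⟩
  have ha' : q a ≠ 0 := fun h => ha (Ideal.Quotient.eq_zero_iff_mem.1 h)
  obtain ⟨e, d', u', hd', hu', h⟩ := hloc (q a) ha'
  obtain ⟨d, rfl⟩ := hsurj d'
  obtain ⟨u, rfl⟩ := hsurj u'
  refine ⟨e, d, u, fun hd => hd' (Ideal.mem_map_of_mem q hd),
    fun hu => hu' (Ideal.mem_map_of_mem q hu), ?_⟩
  rw [← Ideal.Quotient.eq_zero_iff_mem, ← hq, map_sub, map_mul, map_mul, map_pow, h, sub_self]

/-- (REG-ADAPT) from "integrally closed, noetherian, of dimension `≤ 1`". -/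
theorem reg_of_isIntegrallyClosed {B : Type*} [CommRing B] (π : B)
    [IsDomain (B ⧸ Ideal.span {π})] [IsNoetherianRing (B ⧸ Ideal.span {π})]
    [IsIntegrallyClosed (B ⧸ Ideal.span {π})] [Ring.DimensionLEOne (B ⧸ Ideal.span {π})]
    (n : Ideal B) (hn : n.IsMaximal) (hπ : π ∈ n) :
    ∃ τ ∈ n, ∀ a : B, a ∉ Ideal.span {π} →
      ∃ (e : ℕ) (d u : B), d ∉ n ∧ u ∉ n ∧ a * d - u * τ ^ e ∈ Ideal.span {π} := by
  have : IsDedekindDomain (B ⧸ Ideal.span {π}) := {}
  exact reg_of_isDedekindDomain π n hn hπ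

end Fermat.Agent.S18.H51
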