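/-
S18, node (REG-ADAPT), second file: the missing side conditions between the conclusion of the
normality theorem (NC) -- `IsIntegrallyClosed (B ⧸ π B)` for a noetherian chart `B` integral
over `A₀[X]` -- and the hypothesis (REG) of the Kummer core base step.

* `dimensionLEOne_of_surjective`: quotients of rings of dimension `≤ 1`.
* `dimensionLEOne_polynomial_quotient`: `A₀[X] ⧸ p` has dimension `≤ 1` for every prime
  `p ∋ C π`, when `(π)` is a maximal ideal of `A₀`.
* `dimensionLEOne_quotient_of_isIntegral`: `B ⧸ P` has dimension `≤ 1` for `B` integral over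
  `A₀[X]` and `P` a prime of `B` containing `π`.
* `isDedekindDomain_quotient`: `B ⧸ P` is a Dedekind domain as soon as it is integrally closed
  (`B` noetherian).
* `Reg`: the elementary regularity statement as a `Prop`; `Reg.of_ringEquiv` (transport along a
  ring isomorphism, e.g. between `integralClosure A₀[X] F` and a chart presented as a
  `Subalgebra A₀ F`), `reg_of_nc` (the final adapter).

Mathlib only.
-/
import Mathlib
import Fermat.Agent.S18.RegAdapt_helper51

set_option autoImplicit false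

namespace Fermat.Agent.S18.H51

open Ideal Polynomial

/-- A surjective image of a ring of dimension `≤ 1` has dimension `≤ 1`. -/
theorem dimensionLEOne_of_surjective {S T : Type*} [CommRing S] [CommRing T]
    [Ring.DimensionLEOne S] (φ : S →+* T) (hφ : Function.Surjective φ) :
    Ring.DimensionLEOne T where
  maximalOfPrime := fun {Q} hQ hQp => by
    have hcp : (Q.comap φ).IsPrime := Ideal.comap_isPrime φ Q
    have hne : Q.comap φ ≠ ⊥ := by
      obtain ⟨t, htQ, ht0⟩ := Q.ne_bot_iff.mp hQ
      obtain ⟨s, rfl⟩ := hφ t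
      intro h
      have hs : s ∈ Q.comap φ := htQ
      rw [h, Ideal.mem_bot] at hs
      exact ht0 (by rw [hs, map_zero])
    have hmax : (Q.comap φ).IsMaximal := hcp.isMaximal hne
    have hmap : (Q.comap φ).map φ = Q := Ideal.map_comap_of_surjective φ hφ Q
    rw [← hmap]
    exact Ideal.IsMaximal.map_of_surjective_of_ker_le hφ
      (fun x hx => by
        rw [RingHom.mem_ker] at hx
        show φ x ∈ Q
        rw [hx]
        exact Q.zero_mem)

/-- If `(π)` is a maximal ideal of `A₀`, then `A₀[X] ⧸ p` has dimension `≤ 1` for every ideal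
`p` of `A₀[X]` containing `π`. -/
theorem dimensionLEOne_polynomial_quotient {A₀ : Type*} [CommRing A₀] (π : A₀)
    (hπ : (Ideal.span {π}).IsMaximal) (p : Ideal A₀[X]) (hp : C π ∈ p) :
    Ring.DimensionLEOne (A₀[X] ⧸ p) := by
  let _ : Field (A₀ ⧸ Ideal.span {π}) := Ideal.Quotient.field _
  have h1 : Ring.DimensionLEOne ((A₀ ⧸ Ideal.span {π})[X]) := inferInstance
  have hle : (Ideal.span {π}).map (C : A₀ →+* A₀[X]) ≤ p := by
    rw [Ideal.map_span, Set.image_singleton, Ideal.span_singleton_le_iff_mem]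
    exact hp
  have h2 : Ring.DimensionLEOne (A₀[X] ⧸ (Ideal.span {π}).map (C : A₀ →+* A₀[X])) :=
    Ring.DimensionLEOne.of_ringEquiv
      (Ideal.polynomialQuotientEquivQuotientPolynomial (Ideal.span {π})).symm
  exact dimensionLEOne_of_surjective (Ideal.Quotient.factor hle)
    (Ideal.Quotient.factor_surjective hle)

/-- **Dimension of the special fibre.**  Let `(π)` be a maximal ideal of `A₀`, `B` an integral
`A₀[X]`-algebra and `P` a prime ideal of `B` containing (the image of) `π`.  Then `B ⧸ P` has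
dimension `≤ 1`. -/
theorem dimensionLEOne_quotient_of_isIntegral {A₀ : Type*} [CommRing A₀] (π : A₀)
    (hπ : (Ideal.span {π}).IsMaximal) {B : Type*} [CommRing B] [Algebra A₀[X] B]
    [Algebra.IsIntegral A₀[X] B] (P : Ideal B) [P.IsPrime]
    (hP : algebraMap A₀[X] B (C π) ∈ P) :
    Ring.DimensionLEOne (B ⧸ P) := by
  have hp : C π ∈ P.comap (algebraMap A₀[X] B) := hP
  have h1 : Ring.DimensionLEOne (A₀[X] ⧸ P.comap (algebraMap A₀[X] B)) :=
    dimensionLEOne_polynomial_quotient π hπ _ hp
  have hprime : (P.comap (algebraMap A₀[X] B)).IsPrime := Ideal.comap_isPrime _ _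
  exact Ring.DimensionLEOne.of_isIntegral (A₀[X] ⧸ P.comap (algebraMap A₀[X] B)) (B ⧸ P)

/-- **Dedekind special fibre.**  In the situation of `dimensionLEOne_quotient_of_isIntegral`,
if `B` is noetherian and `B ⧸ P` is integrally closed, then `B ⧸ P` is a Dedekind domain. -/
theorem isDedekindDomain_quotient {A₀ : Type*} [CommRing A₀] (π : A₀)
    (hπ : (Ideal.span {π}).IsMaximal) {B : Type*} [CommRing B] [Algebra A₀[X] B]
    [Algebra.IsIntegral A₀[X] B] [IsNoetherianRing B] (P : Ideal B) [P.IsPrime]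
    (hP : algebraMap A₀[X] B (C π) ∈ P) [IsIntegrallyClosed (B ⧸ P)] :
    IsDedekindDomain (B ⧸ P) := by
  have := dimensionLEOne_quotient_of_isIntegral π hπ P hP
  exact {}

/-- The elementary regularity statement (REG) of the Kummer core base step, for a ring `B`
and an element `π : B`. -/
def Reg (B : Type*) [CommRing B] (π : B) : Prop :=
  ∀ n : Ideal B, n.IsMaximal → π ∈ n →
    ∃ τ ∈ n, ∀ a : B, a ∉ Ideal.span {π} →
      ∃ (e : ℕ) (d u : B), d ∉ n ∧ u ∉ n ∧ a * d - u * τ ^ e ∈ Ideal.span {π}

theorem reg_iff (B : Type*) [CommRing B] (π : B) :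
    Reg B π ↔ ∀ n : Ideal B, n.IsMaximal → π ∈ n →
      ∃ τ ∈ n, ∀ a : B, a ∉ Ideal.span {π} →
        ∃ (e : ℕ) (d u : B), d ∉ n ∧ u ∉ n ∧ a * d - u * τ ^ e ∈ Ideal.span {π} :=
  Iff.rfl

/-- (REG) from a Dedekind special fibre (restatement of `reg_of_isDedekindDomain`). -/
theorem Reg.of_isDedekindDomain {B : Type*} [CommRing B] (π : B)
    [IsDedekindDomain (B ⧸ Ideal.span {π})] : Reg B π :=
  fun n hn hπ => reg_of_isDedekindDomain π n hn hπ

/-- (REG) is invariant under ring isomorphisms. -/
theorem Reg.of_ringEquiv {B B' : Type*} [CommRing B] [CommRing B'] (e : B ≃+* B') {π : B}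
    (h : Reg B π) : Reg B' (e π) := by
  intro n hn hπ
  have hspan : ∀ x : B, x ∈ Ideal.span {π} ↔ e x ∈ Ideal.span {e π} := by
    intro x
    simp only [Ideal.mem_span_singleton']
    constructor
    · rintro ⟨c, rfl⟩
      exact ⟨e c, by rw [map_mul]⟩
    · rintro ⟨c, hc⟩
      refine ⟨e.symm c, e.injective ?_⟩
      rw [map_mul, e.apply_symm_apply, hc]
  have hcm : (n.comap (e : B →+* B')).IsMaximal :=
    Ideal.comap_isMaximal_of_surjective (e : B →+* B') e.surjective
  obtain ⟨τ, hτ, hloc⟩ := h (n.comap (e : B →+* B')) hcm hπ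
  refine ⟨e τ, hτ, fun a ha => ?_⟩
  obtain ⟨a, rfl⟩ := e.surjective a
  obtain ⟨k, d, u, hd, hu, hmem⟩ := hloc a (fun h' => ha ((hspan a).1 h'))
  refine ⟨k, e d, e u, hd, hu, ?_⟩
  have := (hspan _).1 hmem
  simpa only [map_sub, map_mul, map_pow] using this

/-- **(NC) ⟹ (REG).**  Let `(π)` be a maximal ideal of `A₀` (e.g. `π` a uniformiser of a DVR),
`B` a noetherian ring which is an integral `A₀[X]`-algebra (e.g. `integralClosure A₀[X] F`),
`ϖ` the image of `π` in `B`.  If `ϖ B` is prime and `B ⧸ ϖ B` is integrally closed (the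
conclusion of (NC)), then (REG) holds for `(B, ϖ)`. -/
theorem reg_of_nc {A₀ : Type*} [CommRing A₀] (π : A₀) (hπ : (Ideal.span {π}).IsMaximal)
    {B : Type*} [CommRing B] [Algebra A₀[X] B] [Algebra.IsIntegral A₀[X] B]
    [IsNoetherianRing B]
    (hprime : (Ideal.span {algebraMap A₀[X] B (C π)}).IsPrime)
    [IsIntegrallyClosed (B ⧸ Ideal.span {algebraMap A₀[X] B (C π)})] :
    Reg B (algebraMap A₀[X] B (C π)) := by
  have := hprime
  have : IsDedekindDomain (B ⧸ Ideal.span {algebraMap A₀[X] B (C π)}) :=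
    isDedekindDomain_quotient π hπ _ (Ideal.subset_span rfl)
  exact Reg.of_isDedekindDomain _

/-- The same with the uniformiser hypothesis in the form "`π` is irreducible in a PID". -/
theorem reg_of_nc_of_irreducible {A₀ : Type*} [CommRing A₀] [IsDomain A₀]
    [IsPrincipalIdealRing A₀] (π : A₀) (hπ : Irreducible π)
    {B : Type*} [CommRing B] [Algebra A₀[X] B] [Algebra.IsIntegral A₀[X] B]
    [IsNoetherianRing B]
    (hprime : (Ideal.span {algebraMap A₀[X] B (C π)}).IsPrime)
    [IsIntegrallyClosed (B ⧸ Ideal.span {algebraMap A₀[X] B (C π)})] :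
    Reg B (algebraMap A₀[X] B (C π)) :=
  reg_of_nc π (PrincipalIdealRing.isMaximal_of_irreducible hπ) hprime

/-- Literal instance of `reg_of_nc_of_irreducible` for the chart `integralClosure A₀[X] F` of
the normality theorem (NC). -/
theorem reg_integralClosure {A₀ : Type*} [CommRing A₀] [IsDomain A₀]
    [IsPrincipalIdealRing A₀] (π : A₀) (hπ : Irreducible π)
    {F : Type*} [Field F] [Algebra A₀[X] F]
    [IsNoetherianRing (integralClosure A₀[X] F)]
    (hprime : (Ideal.span
      {algebraMap A₀[X] (integralClosure A₀[X] F) (C π)}).IsPrime)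
    [IsIntegrallyClosed ((integralClosure A₀[X] F) ⧸
      Ideal.span {algebraMap A₀[X] (integralClosure A₀[X] F) (C π)})] :
    Reg (integralClosure A₀[X] F) (algebraMap A₀[X] (integralClosure A₀[X] F) (C π)) :=
  reg_of_nc_of_irreducible π hπ hprime

end Fermat.Agent.S18.H51
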