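import Mathlib
import Fermat.Agent.S18.ChartsPoly_helper97
import Fermat.Agent.S18.RegAdapt2_helper51

/-!
# S18, node CHARTS: from the (NC) conclusion to the regularity hypothesis of the Kummer core

`reg_chartU_of_nc`: for the `A[X]`-algebra structure `X ↦ x` on `F`, if `C π` generates a prime
ideal of `integralClosure A[X] F` with integrally closed quotient (hypothesis (i) and the
conclusion of the normality criterion), then the finite chart `chartU A x` satisfies the
regularity hypothesis `(REG)` of the Kummer core statements `StmtBase` / `StmtKC`, literally.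
-/

set_option autoImplicit false

open Polynomial

namespace Fermat.Agent.S18.H97

variable {A F : Type*} [CommRing A] [IsDomain A] [IsPrincipalIdealRing A] [Field F]
  [Algebra A F] [Algebra A[X] F]

/-- (REG) for the chart, in `H51.Reg` form. -/
theorem reg_chartU_of_nc (π : A) (hπ : Irreducible π) {x : F}
    (hx : ∀ p : A[X], algebraMap A[X] F p = aeval x p)
    [IsNoetherianRing (integralClosure A[X] F)]
    (hprime : (Ideal.span
      {algebraMap A[X] (integralClosure A[X] F) (C π)}).IsPrime)
    [IsIntegrallyClosed ((integralClosure A[X] F) ⧸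
      Ideal.span {algebraMap A[X] (integralClosure A[X] F) (C π)})] :
    H51.Reg (chartU A x) (algebraMap A (chartU A x) π) := by
  have h := H51.reg_integralClosure π hπ (F := F) hprime
  have h2 := H51.Reg.of_ringEquiv (polyChartEquiv hx) h
  rwa [polyChartEquiv_algebraMap_C] at h2

/-- (REG) for the chart, in the literal shape of the Kummer core statement. -/
theorem reg_chartU_of_nc' (π : A) (hπ : Irreducible π) {x : F}
    (hx : ∀ p : A[X], algebraMap A[X] F p = aeval x p)
    [IsNoetherianRing (integralClosure A[X] F)]
    (hprime : (Ideal.span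
      {algebraMap A[X] (integralClosure A[X] F) (C π)}).IsPrime)
    [IsIntegrallyClosed ((integralClosure A[X] F) ⧸
      Ideal.span {algebraMap A[X] (integralClosure A[X] F) (C π)})] :
    ∀ n : Ideal (chartU A x), n.IsMaximal → algebraMap A (chartU A x) π ∈ n →
      ∃ τ ∈ n, ∀ a : chartU A x, a ∉ Ideal.span {algebraMap A (chartU A x) π} →
        ∃ (e : ℕ) (d u : chartU A x), d ∉ n ∧ u ∉ n ∧
          a * d - u * τ ^ e ∈ Ideal.span {algebraMap A (chartU A x) π} :=
  reg_chartU_of_nc π hπ hx hprime

/-- (REG) for the chart at infinity (algebra structure `X ↦ x⁻¹`), literal shape. -/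
theorem reg_chartV_of_nc' (π : A) (hπ : Irreducible π) {x : F}
    (hx : ∀ p : A[X], algebraMap A[X] F p = aeval x⁻¹ p)
    [IsNoetherianRing (integralClosure A[X] F)]
    (hprime : (Ideal.span
      {algebraMap A[X] (integralClosure A[X] F) (C π)}).IsPrime)
    [IsIntegrallyClosed ((integralClosure A[X] F) ⧸
      Ideal.span {algebraMap A[X] (integralClosure A[X] F) (C π)})] :
    ∀ n : Ideal (chartV A x), n.IsMaximal → algebraMap A (chartV A x) π ∈ n →
      ∃ τ ∈ n, ∀ a : chartV A x, a ∉ Ideal.span {algebraMap A (chartV A x) π} →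
        ∃ (e : ℕ) (d u : chartV A x), d ∉ n ∧ u ∉ n ∧
          a * d - u * τ ^ e ∈ Ideal.span {algebraMap A (chartV A x) π} :=
  reg_chartU_of_nc (x := x⁻¹) π hπ hx hprime

end Fermat.Agent.S18.H97
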