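/-
S18, node (NC) -- interface-free trace-duality lemmas (Mathlib only).

* `isNilpotent_of_trace_mul_eq_zero` (T0): in a finite-dimensional commutative algebra over a field
  of characteristic zero, an element in the radical of the trace form is nilpotent.
* `dvd_intTrace_of_pow_mem` (D): easy half of Dedekind's different theorem, in trace form
  (any characteristic): `(q)` radical, `y ^ N ∈ q S` implies `q ∣ Tr(y)`.
* `mem_radical_of_intTrace_mem` (alpha): residue characteristic zero, all `Tr(y b) ∈ p` implies
  `y ∈ rad(p S)`.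
* `mul_mem_of_trace_mem` (C): tame bound for the inverse different in characteristic zero,
  in elementwise form: `z` in the trace dual, `q` vanishing at all ramified primes implies
  `q z ∈ S` and `(q z) ^ N ∈ q S`.
-/
import Mathlib

set_option autoImplicit false
set_option linter.style.haveILetI false
set_option linter.overlappingInstances false

namespace Fermat.Agent.S18.H57

open Polynomial
open scoped nonZeroDivisors

/-- **(T0)** In a finite-dimensional commutative algebra over a field of characteristic `0`,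
an element `y` with `Tr(y * b) = 0` for all `b` is nilpotent. -/
theorem isNilpotent_of_trace_mul_eq_zero {κ E : Type*} [Field κ] [CharZero κ] [CommRing E]
    [Algebra κ E] [FiniteDimensional κ E] (y : E)
    (h : ∀ b : E, Algebra.trace κ E (y * b) = 0) : IsNilpotent y := by
  have hint : IsIntegral κ y := Algebra.IsIntegral.isIntegral y
  set μ := minpoly κ y with hμ
  have hμ0 : μ ≠ 0 := minpoly.ne_zero hint
  obtain ⟨g, hg, hndvd⟩ := Polynomial.exists_eq_pow_rootMultiplicity_mul_and_not_dvd μ hμ0 0
  set a := Polynomial.rootMultiplicity 0 μ with ha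
  simp only [map_zero, sub_zero] at hg hndvd
  have hcop : IsCoprime ((X : κ[X]) ^ (a + 1)) g :=
    (Polynomial.irreducible_X.coprime_iff_not_dvd.mpr hndvd).pow_left
  obtain ⟨u, v, huv⟩ := hcop
  -- the idempotent
  set f : E := aeval y (u * X ^ (a + 1)) with hf
  have hμy : aeval y μ = 0 := minpoly.aeval κ y
  have hone : f + aeval y (v * g) = 1 := by
    rw [hf, ← map_add, huv, map_one]
  have hfid : IsIdempotentElem f := by
    have h1 : f * aeval y (v * g) = 0 := by
      rw [hf, ← map_mul]
      have : u * X ^ (a + 1) * (v * g) = u * v * X * μ := by rw [hg]; ring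
      rw [this, map_mul, hμy, mul_zero]
    show f * f = f
    have : f * f = f * (f + aeval y (v * g)) - f * aeval y (v * g) := by ring
    rw [this, h1, hone, mul_one, sub_zero]
  have htr : Algebra.trace κ E f = 0 := by
    have : f = y * (aeval y (u * X ^ a)) := by
      rw [hf]
      simp only [map_mul, map_pow, aeval_X]
      ring
    rw [this]; exact h _
  -- multiplication by `f` is an idempotent endomorphism of trace zero
  have hfl : IsIdempotentElem (Algebra.lmul κ E f) := by
    show Algebra.lmul κ E f * Algebra.lmul κ E f = Algebra.lmul κ E f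
    rw [← map_mul, hfid.eq]
  have hzero : Algebra.lmul κ E f = 0 :=
    LinearMap.IsIdempotentElem.eq_zero_of_trace_eq_zero hfl
      (by simpa [Algebra.trace_apply] using htr)
  have hf0 : f = 0 := by
    have := congrArg (fun φ : E →ₗ[κ] E => φ 1) hzero
    simpa using this
  refine ⟨a, ?_⟩
  have h1 : aeval y (v * g) = 1 := by rw [← hone, hf0, zero_add]
  calc y ^ a = y ^ a * aeval y (v * g) := by rw [h1, mul_one]
    _ = aeval y (v * μ) := by
        rw [hg]; simp only [map_mul, map_pow, aeval_X]; ring
    _ = 0 := by rw [map_mul, hμy, mul_zero]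

/-- **(D)** Easy half of Dedekind's different theorem in trace form: if `(q)` is a radical ideal
of the Dedekind domain `O` and `y ^ N ∈ q S`, then `q ∣ Tr(y)`. -/
theorem dvd_intTrace_of_pow_mem {O S : Type*} [CommRing O] [IsDedekindDomain O] [CommRing S]
    [IsDomain S] [Algebra O S] [Module.IsTorsionFree O S] [Module.Finite O S]
    [IsIntegrallyClosed S] (q : O) (hq : q ≠ 0) (hrad : (Ideal.span {q}).IsRadical)
    (y : S) (N : ℕ) (hy : y ^ N ∈ Ideal.span {algebraMap O S q}) :
    q ∣ Algebra.intTrace O S y := by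
  rw [← Ideal.mem_span_singleton, ← hrad.radical, Ideal.radical_eq_sInf, Ideal.mem_sInf]
  rintro p ⟨hqp, hp⟩
  have hqmem : q ∈ p := hqp (Ideal.mem_span_singleton_self q)
  have hpbot : p ≠ ⊥ := fun h => hq (by simpa [h] using hqmem)
  haveI : p.IsMaximal := hp.isMaximal hpbot
  rw [← Ideal.Quotient.eq_zero_iff_mem, ← Algebra.trace_quotient_eq_of_isDedekindDomain,
    ← isNilpotent_iff_eq_zero]
  refine Algebra.isNilpotent_trace_of_isNilpotent ⟨N, ?_⟩
  rw [← map_pow, Ideal.Quotient.eq_zero_iff_mem]
  have : Ideal.span {algebraMap O S q} ≤ Ideal.map (algebraMap O S) p := by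
    rw [Ideal.span_le, Set.singleton_subset_iff]
    exact Ideal.mem_map_of_mem _ hqmem
  exact this hy

/-- (α): an element `y₀` of `S` all of whose traces `Tr(y₀ b)` lie in the maximal ideal `p`
lies in the radical of `p S` (residue characteristic zero). -/
theorem mem_radical_of_intTrace_mem {O S : Type*} [CommRing O] [IsDedekindDomain O] [Algebra ℚ O]
    [CommRing S] [IsDomain S] [Algebra O S] [Module.IsTorsionFree O S] [Module.Finite O S]
    [IsIntegrallyClosed S] (p : Ideal O) [hp : p.IsMaximal] (y₀ : S)
    (h : ∀ b : S, Algebra.intTrace O S (y₀ * b) ∈ p) :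
    y₀ ∈ (p.map (algebraMap O S)).radical := by
  letI : Field (O ⧸ p) := Ideal.Quotient.field p
  haveI : CharZero (O ⧸ p) := algebraRat.charZero (O ⧸ p)
  haveI : Module.Finite (O ⧸ p) (S ⧸ p.map (algebraMap O S)) :=
    Module.Finite.of_restrictScalars_finite O _ _
  have hnil : IsNilpotent (Ideal.Quotient.mk (p.map (algebraMap O S)) y₀) := by
    refine isNilpotent_of_trace_mul_eq_zero (κ := O ⧸ p) _ ?_
    intro b
    obtain ⟨b, rfl⟩ := Ideal.Quotient.mk_surjective b
    rw [← map_mul, Algebra.trace_quotient_eq_of_isDedekindDomain, Ideal.Quotient.eq_zero_iff_mem]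
    exact h b
  obtain ⟨N, hN⟩ := hnil
  rw [← map_pow, Ideal.Quotient.eq_zero_iff_mem] at hN
  exact ⟨N, hN⟩

section LemmaC

variable {O K L S : Type*} [CommRing O] [IsDomain O] [IsPrincipalIdealRing O] [Algebra ℚ O]
  [Field K] [Algebra O K] [IsFractionRing O K] [Field L] [Algebra K L] [FiniteDimensional K L]
  [CommRing S] [IsDomain S] [Algebra O S] [Algebra S L] [Algebra O L] [IsScalarTower O K L]
  [IsScalarTower O S L] [IsIntegralClosure S O L]

/-- Local key step of Lemma (C): for a maximal ideal `P` of `S` over `p = (τ)` and `z` in the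
trace dual of `S`, there is `w ∉ P` with `w τ z ∈ rad(p S)`. -/
theorem exists_not_mem_mul_mem_radical [IsDedekindDomain S] [IsFractionRing S L]
    [Module.Finite O S] [Module.IsTorsionFree O S]
    (z : L) (hz : ∀ b : S, Algebra.trace K L (z * algebraMap S L b) ∈ (algebraMap O K).range)
    (P : Ideal S) [hP : P.IsMaximal] (τ : O) (hτ : P.comap (algebraMap O S) = Ideal.span {τ}) :
    ∃ w : S, w ∉ P ∧ ∃ y₀ : S, algebraMap S L y₀ = algebraMap S L w * (algebraMap O L τ * z) ∧
      y₀ ∈ ((Ideal.span {τ}).map (algebraMap O S)).radical := by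
  haveI : Algebra.IsIntegral O S := IsIntegralClosure.isIntegral_algebra O L
  have hpmax : (Ideal.span {τ} : Ideal O).IsMaximal := by
    rw [← hτ]; exact Ideal.isMaximal_comap_of_isIntegral_of_isMaximal P
  -- (α) in the form needed
  have hα : ∀ w y₀ : S, algebraMap S L y₀ = algebraMap S L w * (algebraMap O L τ * z) →
      y₀ ∈ ((Ideal.span {τ}).map (algebraMap O S)).radical := by
    intro w y₀ hy
    haveI := hpmax
    refine mem_radical_of_intTrace_mem (Ideal.span {τ}) y₀ ?_
    intro b
    obtain ⟨c, hc⟩ := hz (w * b)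
    have h1 : algebraMap O K (Algebra.intTrace O S (y₀ * b)) = algebraMap O K (τ * c) := by
      have h2 : algebraMap S L (y₀ * b) = τ • (z * algebraMap S L (w * b)) := by
        rw [map_mul (algebraMap S L) y₀ b, hy, Algebra.smul_def, map_mul (algebraMap S L) w b]
        ring
      rw [Algebra.algebraMap_intTrace (L := L), h2, map_mul (algebraMap O K), hc,
        ← IsScalarTower.algebraMap_smul K τ (z * algebraMap S L (w * b)), map_smul, smul_eq_mul]
    rw [IsFractionRing.injective O K h1]
    exact Ideal.mem_span_singleton'.mpr ⟨c, mul_comm c τ⟩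
  set J : FractionalIdeal S⁰ L := 1 + FractionalIdeal.spanSingleton S⁰ (algebraMap O L τ * z)
    with hJ
  have hJ0 : J ≠ 0 := by
    intro h0
    have h1 : (1 : FractionalIdeal S⁰ L) ≤ J := by rw [hJ]; exact le_self_add
    rw [h0, FractionalIdeal.le_zero_iff] at h1
    exact one_ne_zero h1
  have hone : (1 : L) ∈ J * J⁻¹ := by
    rw [mul_inv_cancel₀ hJ0]; exact FractionalIdeal.one_mem_one _
  by_contra hcon
  push Not at hcon
  -- every element of `J⁻¹` comes from `P`
  have key : ∀ j ∈ J⁻¹, ∃ w : S, w ∈ P ∧ algebraMap S L w = j ∧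
      ∃ y₀ : S, y₀ ∈ P ∧ algebraMap S L y₀ = j * (algebraMap O L τ * z) := by
    intro j hj
    rw [FractionalIdeal.mem_inv_iff hJ0] at hj
    have h1 := hj 1 (by
      rw [hJ, FractionalIdeal.mem_add]
      exact ⟨1, FractionalIdeal.one_mem_one _, 0, FractionalIdeal.zero_mem _, by simp⟩)
    have h2 := hj (algebraMap O L τ * z) (by
      rw [hJ, FractionalIdeal.mem_add]
      exact ⟨0, FractionalIdeal.zero_mem _, _, FractionalIdeal.mem_spanSingleton_self _ _, by simp⟩)
    rw [mul_one, FractionalIdeal.mem_one_iff] at h1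
    rw [FractionalIdeal.mem_one_iff] at h2
    obtain ⟨w, hw⟩ := h1
    obtain ⟨y₀, hy₀⟩ := h2
    have hy₀' : algebraMap S L y₀ = algebraMap S L w * (algebraMap O L τ * z) := by
      rw [hy₀, hw]
    have hrad := hα w y₀ hy₀'
    have hwP : w ∈ P := by
      by_contra hwP
      exact hcon w hwP y₀ hy₀' hrad
    refine ⟨w, hwP, hw, y₀, ?_, hy₀⟩
    have hle : (Ideal.span {τ}).map (algebraMap O S) ≤ P := by
      rw [← hτ]; exact Ideal.map_comap_le
    exact (hP.isPrime.radical_le_iff.mpr hle) hrad
  have hall : ∃ t : S, t ∈ P ∧ algebraMap S L t = 1 := by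
    refine FractionalIdeal.mul_induction_on (C := fun r => ∃ t : S, t ∈ P ∧ algebraMap S L t = r)
      hone ?_ ?_
    · intro i hi j hj
      obtain ⟨w, hwP, hw, y₀, hy₀P, hy₀⟩ := key j hj
      rw [hJ, FractionalIdeal.mem_add] at hi
      obtain ⟨a, ha, c, hc, rfl⟩ := hi
      rw [FractionalIdeal.mem_one_iff] at ha
      obtain ⟨a₀, rfl⟩ := ha
      rw [FractionalIdeal.mem_spanSingleton] at hc
      obtain ⟨c₀, rfl⟩ := hc
      refine ⟨a₀ * w + c₀ * y₀, P.add_mem (P.mul_mem_left _ hwP) (P.mul_mem_left _ hy₀P), ?_⟩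
      rw [map_add, map_mul, map_mul, hw, hy₀, Algebra.smul_def]
      ring
    · rintro x y ⟨t, ht, rfl⟩ ⟨t', ht', rfl⟩
      exact ⟨t + t', P.add_mem ht ht', map_add _ _ _⟩
  obtain ⟨t, htP, ht⟩ := hall
  have : t = 1 := IsFractionRing.injective S L (by rw [ht, map_one])
  exact hP.ne_top ((Ideal.eq_top_iff_one P).mpr (this ▸ htP))

/-- **(C)** Char-`0` half of the normality criterion. `O` a PID (not a field) containing `ℚ`,
`S` the integral closure of `O` in a finite extension `L` of `K = Frac O`, `q ≠ 0` such that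
every maximal ideal of `O` not containing `q` is unramified in `S`. If `z ∈ L` lies in the trace
dual of `S`, then `q z ∈ S` and `(q z)^N ∈ q S` for some `N`. -/
theorem mul_mem_of_trace_mem (hO : ¬ IsField O) (q : O) (hq : q ≠ 0)
    (hunr : ∀ p : Ideal O, p.IsMaximal → q ∉ p → (p.map (algebraMap O S)).IsRadical)
    (z : L) (hz : ∀ b : S, Algebra.trace K L (z * algebraMap S L b) ∈ (algebraMap O K).range) :
    ∃ y : S, algebraMap S L y = algebraMap O L q * z ∧
      ∃ N : ℕ, y ^ N ∈ Ideal.span {algebraMap O S q} := by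
  haveI : CharZero O := algebraRat.charZero O
  haveI : CharZero K := charZero_of_injective_algebraMap (IsFractionRing.injective O K)
  haveI : Algebra.IsSeparable K L := inferInstance
  haveI : IsDedekindDomain S := IsIntegralClosure.isDedekindDomain O K L S
  haveI : IsFractionRing S L := IsIntegralClosure.isFractionRing_of_finite_extension O K L S
  haveI : Module.Finite O S := IsIntegralClosure.finite O K L S
  haveI : Algebra.IsIntegral O S := IsIntegralClosure.isIntegral_algebra O L
  have hinjOL : Function.Injective (algebraMap O L) := by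
    rw [IsScalarTower.algebraMap_eq O K L]
    exact (algebraMap K L).injective.comp (IsFractionRing.injective O K)
  have hinjOS : Function.Injective (algebraMap O S) := by
    intro a b hab
    apply hinjOL
    rw [IsScalarTower.algebraMap_apply O S L, IsScalarTower.algebraMap_apply O S L, hab]
  haveI : Module.IsTorsionFree O S := Module.isTorsionFree_iff_algebraMap_injective.mpr hinjOS
  -- the local statement at a maximal ideal of `S`
  have hloc : ∀ P : Ideal S, P.IsMaximal → ∃ w : S, w ∉ P ∧ ∃ t : S,
      algebraMap S L t = algebraMap S L w * (algebraMap O L q * z) ∧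
      (algebraMap O S q ∈ P → t ∈ P) := by
    intro P hP
    obtain ⟨τ, hτ⟩ := (IsPrincipalIdealRing.principal (P.comap (algebraMap O S))).principal
    have hτ' : P.comap (algebraMap O S) = Ideal.span {τ} := hτ
    have hpmax : (Ideal.span {τ} : Ideal O).IsMaximal := by
      rw [← hτ']; exact Ideal.isMaximal_comap_of_isIntegral_of_isMaximal P
    have hτ0 : τ ≠ 0 := by
      intro h0
      apply Ring.ne_bot_of_isMaximal_of_not_isField hpmax hO
      rw [h0]; simp
    obtain ⟨w, hwP, y₀, hy₀, hrad⟩ := exists_not_mem_mul_mem_radical (K := K) z hz P τ hτ'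
    have hle : (Ideal.span {τ}).map (algebraMap O S) ≤ P := by
      rw [← hτ']; exact Ideal.map_comap_le
    have hy₀P : y₀ ∈ P := (hP.isPrime.radical_le_iff.mpr hle) hrad
    by_cases hqp : q ∈ Ideal.span {τ}
    · obtain ⟨c, hc⟩ := Ideal.mem_span_singleton'.mp hqp
      refine ⟨w, hwP, algebraMap O S c * y₀, ?_, fun _ => P.mul_mem_left _ hy₀P⟩
      rw [map_mul, hy₀, ← IsScalarTower.algebraMap_apply O S L, ← hc, map_mul]
      ring
    · have hrad' := hunr _ hpmax hqp
      rw [hrad'.radical, Ideal.map_span, Set.image_singleton] at hrad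
      obtain ⟨s', hs'⟩ := Ideal.mem_span_singleton'.mp hrad
      have hτL : algebraMap O L τ ≠ 0 := fun h => hτ0 (hinjOL (by rw [h, map_zero]))
      have hws : algebraMap S L s' = algebraMap S L w * z := by
        have h1 : algebraMap O L τ * algebraMap S L s' = algebraMap O L τ * (algebraMap S L w * z) := by
          rw [IsScalarTower.algebraMap_apply O S L, ← map_mul, mul_comm, hs', hy₀,
            ← IsScalarTower.algebraMap_apply O S L]
          ring
        exact mul_left_cancel₀ hτL h1
      refine ⟨w, hwP, algebraMap O S q * s', ?_, fun hqP => ?_⟩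
      · rw [map_mul, hws, ← IsScalarTower.algebraMap_apply O S L]; ring
      · exact absurd (hτ' ▸ Ideal.mem_comap.mpr hqP : q ∈ Ideal.span {τ}) hqp
  -- the denominator ideal of `q z`
  let 𝔞 : Ideal S :=
    { carrier := {d | ∃ t : S, algebraMap S L t = algebraMap S L d * (algebraMap O L q * z)}
      add_mem' := by
        rintro a b ⟨t, ht⟩ ⟨t', ht'⟩
        exact ⟨t + t', by rw [map_add, map_add, ht, ht']; ring⟩
      zero_mem' := ⟨0, by simp⟩
      smul_mem' := by
        rintro c a ⟨t, ht⟩
        exact ⟨c * t, by rw [smul_eq_mul, map_mul, map_mul, ht]; ring⟩ }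
  have h𝔞 : 𝔞 = ⊤ := by
    by_contra hne
    obtain ⟨P, hP, hle⟩ := Ideal.exists_le_maximal 𝔞 hne
    obtain ⟨w, hwP, t, ht, -⟩ := hloc P hP
    exact hwP (hle ⟨t, ht⟩)
  obtain ⟨y, hy⟩ : (1 : S) ∈ 𝔞 := by rw [h𝔞]; trivial
  rw [map_one, one_mul] at hy
  refine ⟨y, hy, ?_⟩
  have hqS : algebraMap O S q ≠ 0 := fun h => hq (hinjOS (by rw [h, map_zero]))
  have hyrad : y ∈ (Ideal.span {algebraMap O S q}).radical := by
    rw [Ideal.radical_eq_sInf, Ideal.mem_sInf]
    rintro P ⟨hqP, hPprime⟩
    have hqmem : algebraMap O S q ∈ P := hqP (Ideal.mem_span_singleton_self _)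
    have hPbot : P ≠ ⊥ := fun h => hqS (by simpa [h] using hqmem)
    have hPmax : P.IsMaximal := hPprime.isMaximal hPbot
    obtain ⟨w, hwP, t, ht, htP⟩ := hloc P hPmax
    have hwy : w * y = t := by
      apply IsFractionRing.injective S L
      rw [map_mul, hy, ht]
    have : w * y ∈ P := hwy ▸ htP hqmem
    exact (hPprime.mem_or_mem this).resolve_left hwP
  exact hyrad

end LemmaC

end Fermat.Agent.S18.H57
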