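import Mathlib
import Fermat.Agent.S18.NCAsm_helper81
import Fermat.Agent.S18.NCDual_helper57

/-!
# S18, node NC-ASM: instantiation of the abstract core for `R = A₀[X]`

`A₀` a DVR with uniformiser `pi`, `K₀ = Frac A₀`, `F` a field with compatible `A₀[X]`- and
`K₀[X]`-algebra structures, finite over `K = Frac A₀[X]`, of characteristic zero.

* `exists_pow_smul_isIntegral` : clearing denominators from `K₀[X]` to `A₀[X]`.
* `hC_model` : the hypothesis `hC` of `isIntegrallyClosed_of_core` for `R = A₀[X]`, `π = C pi`,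
  `q = Pi`, from `hunr` (the conclusion of `H66.isRadical_map_of_place_unramified`).
* `isIntegrallyClosed_of_unramified` : **(NC)** for an arbitrary reduction datum
  `ρB : integralClosure A₀[X] F →+* Bb` (kernel `pi B`), with the separability hypothesis in
  discriminant form (`hdisc`) and the branch hypothesis in the form of `H57.mul_mem_of_trace_mem`
  (`hunr`).
-/

set_option autoImplicit false

open Polynomial nonZeroDivisors

namespace Fermat.Agent.S18.H81

section Inst

variable {A0 : Type*} [CommRing A0] [IsDomain A0] [IsDiscreteValuationRing A0]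
  {K0 : Type*} [Field K0] [Algebra A0 K0] [IsFractionRing A0 K0]
  {F : Type*} [Field F] [Algebra A0[X] F] [Algebra K0[X] F]

/-- Clearing denominators: an element integral over `K₀[X]` becomes integral over `A₀[X]` after
multiplication by a power of the uniformiser. -/
theorem exists_pow_smul_isIntegral (pi : A0) (hpi : Irreducible pi)
    (hcomp : ∀ p : A0[X], algebraMap K0[X] F (p.map (algebraMap A0 K0)) = algebraMap A0[X] F p)
    (b : F) (hb : IsIntegral K0[X] b) :
    ∃ k : ℕ, IsIntegral A0[X] ((C pi : A0[X]) ^ k • b) := by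
  let _ : Algebra A0[X] K0[X] := Polynomial.algebra A0 K0
  have : IsLocalization (Submonoid.map (C : A0 →+* A0[X]) A0⁰) K0[X] :=
    Polynomial.isLocalization A0⁰ K0
  have : IsScalarTower A0[X] K0[X] F := IsScalarTower.of_algebraMap_eq fun p => (hcomp p).symm
  obtain ⟨⟨m, hm⟩, hint⟩ := IsIntegral.exists_multiple_integral_of_isLocalization
    (Submonoid.map (C : A0 →+* A0[X]) A0⁰) b hb
  obtain ⟨a, ha, rfl⟩ := hm
  obtain ⟨k, u, hu⟩ := IsDiscreteValuationRing.eq_unit_mul_pow_irreducible
    (nonZeroDivisors.ne_zero ha) hpi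
  refine ⟨k, ?_⟩
  have hint' : IsIntegral A0[X] ((C a : A0[X]) • b) := hint
  have : (C pi : A0[X]) ^ k • b = (C ((↑u⁻¹ : A0)) : A0[X]) • ((C a : A0[X]) • b) := by
    rw [smul_smul, ← C_mul, hu, ← mul_assoc, Units.inv_mul, one_mul, C_pow]
  rw [this]
  exact hint'.smul _

/-- **Model form of `hC`** (hypothesis `hC` of `isIntegrallyClosed_of_core` for `R = A₀[X]`,
`π = C pi`, `q = Pi`), from the unramifiedness of `K₀[X] → integralClosure K₀[X] F` away from
`Pi` (the conclusion of `H66.isRadical_map_of_place_unramified`), via `H57.mul_mem_of_trace_mem`.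
The `K₀[X]`-side plumbing (`Algebra K₀[X] K`, `IsFractionRing K₀[X] K`, towers) is internal. -/
theorem hC_model [CharZero K0]
    {K : Type*} [Field K] [Algebra A0[X] K] [IsFractionRing A0[X] K]
    [Algebra K F] [IsScalarTower A0[X] K F] [FiniteDimensional K F]
    (hcomp : ∀ p : A0[X], algebraMap K0[X] F (p.map (algebraMap A0 K0)) = algebraMap A0[X] F p)
    (pi : A0) (hpi : Irreducible pi) (Pi : A0[X]) (hPi0 : Pi ≠ 0)
    (hunr : ∀ p : Ideal K0[X], p.IsMaximal → Pi.map (algebraMap A0 K0) ∉ p →
      (p.map (algebraMap K0[X] (integralClosure K0[X] F))).IsRadical) :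
    ∀ z : F, (∀ b : F, IsIntegral A0[X] b →
        ∃ r : A0[X], Algebra.trace K F (z * b) = algebraMap A0[X] K r) →
      ∃ (N k : ℕ) (w : F), IsIntegral A0[X] ((C pi : A0[X]) ^ k • (Pi • z)) ∧
        IsIntegral A0[X] ((C pi : A0[X]) ^ k • w) ∧ (Pi • z) ^ N = Pi • w := by
  classical
  have hpiC : (C pi : A0[X]) ≠ 0 := by simpa using hpi.ne_zero
  have hinjK0 : Function.Injective (algebraMap A0 K0) := IsFractionRing.injective A0 K0
  intro z hz
  -- instances
  let _ : Algebra A0[X] K0[X] := Polynomial.algebra A0 K0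
  have hloc : IsLocalization (Submonoid.map (C : A0 →+* A0[X]) A0⁰) K0[X] :=
    Polynomial.isLocalization A0⁰ K0
  have htowF : IsScalarTower A0[X] K0[X] F :=
    IsScalarTower.of_algebraMap_eq fun p => (hcomp p).symm
  have hunitK : ∀ y : Submonoid.map (C : A0 →+* A0[X]) A0⁰,
      IsUnit (algebraMap A0[X] K (y : A0[X])) := by
    rintro ⟨y, a, ha, rfl⟩
    refine IsUnit.mk0 _ ?_
    have : (C a : A0[X]) ≠ 0 := by simpa using nonZeroDivisors.ne_zero ha
    simpa using (IsFractionRing.injective A0[X] K).ne this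
  let _ : Algebra K0[X] K := (IsLocalization.lift hunitK).toAlgebra
  have htowK : IsScalarTower A0[X] K0[X] K :=
    IsScalarTower.of_algebraMap_eq fun p => (IsLocalization.lift_eq hunitK p).symm
  have hfrac : IsFractionRing K0[X] K :=
    IsFractionRing.isFractionRing_of_isDomain_of_isLocalization
      (Submonoid.map (C : A0 →+* A0[X]) A0⁰) K0[X] K
  have htowKF : IsScalarTower K0[X] K F := by
    refine IsScalarTower.of_algebraMap_eq' ?_
    refine IsLocalization.ringHom_ext (Submonoid.map (C : A0 →+* A0[X]) A0⁰) ?_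
    refine RingHom.ext fun p => ?_
    simp only [RingHom.comp_apply]
    rw [← IsScalarTower.algebraMap_apply A0[X] K0[X] F,
      ← IsScalarTower.algebraMap_apply A0[X] K0[X] K,
      ← IsScalarTower.algebraMap_apply A0[X] K F]
  have hz' : ∀ b : integralClosure K0[X] F,
      Algebra.trace K F (z * algebraMap (integralClosure K0[X] F) F b) ∈
        (algebraMap K0[X] K).range := by
    intro b
    show Algebra.trace K F (z * (b : F)) ∈ (algebraMap K0[X] K).range
    obtain ⟨k, hk⟩ := exists_pow_smul_isIntegral pi hpi hcomp (b : F) b.2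
    obtain ⟨r, hr⟩ := hz _ hk
    have hpk : algebraMap A0[X] K ((C pi) ^ k) ≠ 0 := by
      simpa using (IsFractionRing.injective A0[X] K).ne (pow_ne_zero k hpiC)
    have h1 : Algebra.trace K F (z * (b : F)) =
        algebraMap A0[X] K r / algebraMap A0[X] K ((C pi) ^ k) := by
      rw [eq_div_iff hpk, ← hr, mul_comm, ← smul_eq_mul, ← map_smul, algebraMap_smul,
        mul_smul_comm]
    have hpk0 : algebraMap K0[X] K (algebraMap A0[X] K0[X] ((C pi) ^ k)) ≠ 0 := by
      rw [← IsScalarTower.algebraMap_apply]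
      exact hpk
    have hpkunit : IsUnit (algebraMap A0[X] K0[X] ((C pi) ^ k)) := by
      rw [Polynomial.algebraMap_def, coe_mapRingHom, Polynomial.map_pow, map_C, ← C_pow]
      exact Polynomial.isUnit_C.mpr (IsUnit.mk0 _ (pow_ne_zero k
        ((map_ne_zero_iff _ hinjK0).mpr hpi.ne_zero)))
    obtain ⟨v, hv⟩ := hpkunit.exists_right_inv
    refine ⟨algebraMap A0[X] K0[X] r * v, ?_⟩
    show algebraMap K0[X] K (algebraMap A0[X] K0[X] r * v) = _
    rw [h1, eq_div_iff hpk, map_mul, IsScalarTower.algebraMap_apply A0[X] K0[X] K ((C pi) ^ k),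
      mul_assoc, ← map_mul, mul_comm v, hv, map_one, mul_one,
      ← IsScalarTower.algebraMap_apply]
  have hq' : Pi.map (algebraMap A0 K0) ≠ 0 :=
    (Polynomial.map_ne_zero_iff hinjK0).mpr hPi0
  obtain ⟨y, hy, N, hN⟩ := H57.mul_mem_of_trace_mem (O := K0[X]) (K := K) (L := F)
    (S := integralClosure K0[X] F) (Polynomial.not_isField K0) (Pi.map (algebraMap A0 K0)) hq'
    hunr z hz'
  rw [Ideal.mem_span_singleton'] at hN
  obtain ⟨w, hw⟩ := hN
  have hyF : (y : F) = Pi • z := by
    have : (y : F) = algebraMap K0[X] F (Pi.map (algebraMap A0 K0)) * z := hy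
    rw [this, hcomp, Algebra.smul_def]
  have hwF : (Pi • z) ^ N = Pi • (w : F) := by
    have h1 := congrArg (algebraMap (integralClosure K0[X] F) F) hw
    rw [map_mul, map_pow] at h1
    have h2 : algebraMap (integralClosure K0[X] F) F
        (algebraMap K0[X] (integralClosure K0[X] F) (Pi.map (algebraMap A0 K0))) =
        algebraMap A0[X] F Pi := by
      rw [← IsScalarTower.algebraMap_apply K0[X] (integralClosure K0[X] F) F, hcomp]
    rw [h2] at h1
    have h3 : algebraMap (integralClosure K0[X] F) F y = (y : F) := rfl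
    have h4 : algebraMap (integralClosure K0[X] F) F w = (w : F) := rfl
    rw [h3, h4, hyF] at h1
    rw [← h1, Algebra.smul_def, mul_comm]
  obtain ⟨k1, hk1⟩ := exists_pow_smul_isIntegral pi hpi hcomp (y : F) y.2
  obtain ⟨k2, hk2⟩ := exists_pow_smul_isIntegral pi hpi hcomp (w : F) w.2
  refine ⟨N, k1 + k2, (w : F), ?_, ?_, hwF⟩
  · rw [← hyF, pow_add, mul_comm, mul_smul]
    exact hk1.smul _
  · rw [pow_add, mul_smul]
    exact hk2.smul _

/-- **(NC)** for `R = A₀[X]`, arbitrary reduction datum `ρB`, hypotheses `(ii)` in discriminant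
form and `(iii)` in the form of `H57.mul_mem_of_trace_mem`. -/
theorem isIntegrallyClosed_of_unramified
    (pi : A0) (hpi : Irreducible pi)
    {k0 : Type*} [Field k0] (res : A0 →+* k0) (hres : Function.Surjective res)
    (hker : ∀ a, res a = 0 ↔ pi ∣ a)
    {K : Type*} [Field K] [Algebra A0[X] K] [IsFractionRing A0[X] K]
    [Algebra K F] [IsScalarTower A0[X] K F] [FiniteDimensional K F] [CharZero F]
    (hcomp : ∀ p : A0[X], algebraMap K0[X] F (p.map (algebraMap A0 K0)) = algebraMap A0[X] F p)
    {Bb : Type*} [CommRing Bb] [IsDomain Bb] [Algebra k0[X] Bb]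
    (ρB : integralClosure A0[X] F →+* Bb) (hρB : Function.Surjective ρB)
    (hkerB : ∀ b, ρB b = 0 ↔ algebraMap A0[X] (integralClosure A0[X] F) (C pi) ∣ b)
    (hcompat : ∀ p : A0[X],
      ρB (algebraMap A0[X] (integralClosure A0[X] F) p) = algebraMap k0[X] Bb (p.map res))
    (Pi : A0[X]) (hPi : Squarefree (Pi.map res))
    (hdisc : ∀ (n : ℕ) (b : Module.Basis (Fin n) k0[X] Bb), Algebra.discr k0[X] b ≠ 0)
    (hunr : ∀ p : Ideal K0[X], p.IsMaximal → Pi.map (algebraMap A0 K0) ∉ p →
      (p.map (algebraMap K0[X] (integralClosure K0[X] F))).IsRadical) :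
    IsIntegrallyClosed Bb := by
  classical
  have hcharK : CharZero K := (algebraMap K F).charZero
  have hcharK0 : CharZero K0 := ((algebraMap K0[X] F).comp C).charZero
  have hpiC : (C pi : A0[X]) ≠ 0 := by simpa using hpi.ne_zero
  have hPi0 : Pi ≠ 0 := by
    rintro rfl
    exact hPi.ne_zero (Polynomial.map_zero _)
  refine isIntegrallyClosed_of_core (R := A0[X]) K (C pi) hpiC (mapRingHom res)
    (map_surjective res hres) ?_ ρB hρB hkerB hcompat Pi hPi.isRadical hPi.ne_zero hdisc
    (hC_model hcomp pi hpi Pi hPi0 hunr)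
  intro p
  rw [coe_mapRingHom, C_dvd_iff_dvd_coeff, Polynomial.ext_iff]
  simp only [coeff_map, coeff_zero, hker]

end Inst

end Fermat.Agent.S18.H81
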