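import Mathlib
import Fermat.Agent.S18.NCInst_helper51
import Fermat.Agent.S18.NCInst_helper81
import Fermat.Agent.S18.ChartsReg_helper97

/-!
# S18, (NC) fusion: from the Gauss reduction, separability and unramifiedness to (REG)

`A₀` a discrete valuation ring with uniformiser `π` and fraction field `K₀` of characteristic
zero, `F` a field over `K₀`, `x : F` transcendental over `K₀` with `F / K₀(x)` finite.  The
polynomial rings `A₀[X]`, `K₀[X]` act on `F` through `X ↦ x` (`hxA`, `hxK`; both are `rfl` for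
`(aeval x).toRingHom.toAlgebra`).  Given

* the Gauss reduction `ρ` on `B = integralClosure A₀[X] F` with kernel `(C π) B`
  (`H95.exists_rho_of_isIntegral`),
* separability of every `ρ b` over the subfield generated by `ρ (A₀[X])`
  (`H85.isSeparable_closure`),
* a branch polynomial `Pi` with squarefree reduction (`H51.squarefree_map_X_mul_X_sub_C`) outside
  of which `K₀[X] → integralClosure K₀[X] F` is unramified (`H10.isRadical_model_*`),

the special fibre `B ⧸ (C π)` is integrally closed and the chart `H97.chartU A₀ x` satisfies the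
regularity hypothesis (REG) of the Kummer core `H63.StmtKC` / `H97.kc_charts`, literally.
The statement for `H97.chartV A₀ x` is the same one for the coordinate `x⁻¹`.
-/

set_option autoImplicit false
set_option linter.style.haveILetI false

open Polynomial IntermediateField

namespace Fermat.Agent.S18.H68

section Fusion

variable {A₀ K₀ F : Type*} [CommRing A₀] [IsDomain A₀] [IsDiscreteValuationRing A₀]
  [Field K₀] [Algebra A₀ K₀] [IsFractionRing A₀ K₀] [CharZero K₀]
  [Field F] [Algebra K₀ F] [Algebra A₀ F] [IsScalarTower A₀ K₀ F]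
  [Algebra A₀[X] F] [Algebra K₀[X] F]

/-- **(NC) at a chart, `ρ`-form.**  The special fibre of the integral closure of `A₀[X]` in `F`
is integrally closed. -/
theorem isIntegrallyClosed_quotient_of_rho (π : A₀) (hπ : Irreducible π) (x : F)
    (hx : Transcendental K₀ x) [FiniteDimensional K₀⟮x⟯ F]
    (hxA : ∀ p : A₀[X], algebraMap A₀[X] F p = aeval x p)
    (hxK : ∀ p : K₀[X], algebraMap K₀[X] F p = aeval x p)
    {Ω : Type*} [Field Ω] (ρ : integralClosure A₀[X] F →+* Ω)
    (hker : RingHom.ker ρ = Ideal.span {algebraMap A₀[X] (integralClosure A₀[X] F) (C π)})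
    (hsep : ∀ b : integralClosure A₀[X] F,
      IsSeparable (Subfield.closure
        (Set.range (ρ.comp (algebraMap A₀[X] (integralClosure A₀[X] F))))) (ρ b))
    (Pi : A₀[X]) (hPi : Squarefree (Pi.map (Ideal.Quotient.mk (Ideal.span {π}))))
    (hunr : ∀ p : Ideal K₀[X], p.IsMaximal → Pi.map (algebraMap A₀ K₀) ∉ p →
      (p.map (algebraMap K₀[X] (integralClosure K₀[X] F))).IsRadical) :
    IsIntegrallyClosed (integralClosure A₀[X] F ⧸
      Ideal.span {algebraMap A₀[X] (integralClosure A₀[X] F) (C π)}) := by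
  haveI : FaithfulSMul A₀[X] F := H97.faithfulSMul_polynomial (K := K₀) hxA hx
  letI : Algebra (FractionRing A₀[X]) F := FractionRing.liftAlgebra A₀[X] F
  haveI : IsScalarTower A₀[X] (FractionRing A₀[X]) F :=
    FractionRing.isScalarTower_liftAlgebra A₀[X] F
  haveI : FiniteDimensional (FractionRing A₀[X]) F :=
    H97.finite_of_tower_polynomial (K := K₀) hxA (FractionRing A₀[X])
  haveI : CharZero F := charZero_of_injective_algebraMap (algebraMap K₀ F).injective
  haveI : CharZero (FractionRing A₀[X]) := (algebraMap (FractionRing A₀[X]) F).charZero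
  have hcomp : ∀ p : A₀[X],
      algebraMap K₀[X] F (p.map (algebraMap A₀ K₀)) = algebraMap A₀[X] F p := by
    intro p
    rw [hxK, hxA, aeval_map_algebraMap]
  have hprime : (Ideal.span
      {algebraMap A₀[X] (integralClosure A₀[X] F) (C π)}).IsPrime := by
    rw [← hker]
    exact RingHom.ker_isPrime ρ
  have hPi0 : Pi ≠ 0 := by
    haveI : Nontrivial (A₀ ⧸ Ideal.span {π}) := Ideal.Quotient.nontrivial_iff.mpr (by
      rw [Ne, Ideal.span_singleton_eq_top]
      exact hπ.not_isUnit)
    rintro rfl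
    exact hPi.ne_zero (Polynomial.map_zero _)
  exact H51.isIntegrallyClosed_quotient_of_nc π hπ (FractionRing A₀[X]) hprime ρ hker hsep Pi hPi
    (H81.hC_model hcomp π hπ Pi hPi0 hunr)

/-- **(REG) for the finite chart, `ρ`-form**: the hypothesis `hregU` of `H97.kc_charts`,
literally. -/
theorem reg_chartU_of_rho (π : A₀) (hπ : Irreducible π) (x : F)
    (hx : Transcendental K₀ x) [FiniteDimensional K₀⟮x⟯ F]
    (hxA : ∀ p : A₀[X], algebraMap A₀[X] F p = aeval x p)
    (hxK : ∀ p : K₀[X], algebraMap K₀[X] F p = aeval x p)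
    {Ω : Type*} [Field Ω] (ρ : integralClosure A₀[X] F →+* Ω)
    (hker : RingHom.ker ρ = Ideal.span {algebraMap A₀[X] (integralClosure A₀[X] F) (C π)})
    (hsep : ∀ b : integralClosure A₀[X] F,
      IsSeparable (Subfield.closure
        (Set.range (ρ.comp (algebraMap A₀[X] (integralClosure A₀[X] F))))) (ρ b))
    (Pi : A₀[X]) (hPi : Squarefree (Pi.map (Ideal.Quotient.mk (Ideal.span {π}))))
    (hunr : ∀ p : Ideal K₀[X], p.IsMaximal → Pi.map (algebraMap A₀ K₀) ∉ p →
      (p.map (algebraMap K₀[X] (integralClosure K₀[X] F))).IsRadical) :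
    ∀ n : Ideal (H97.chartU A₀ x), n.IsMaximal → algebraMap A₀ (H97.chartU A₀ x) π ∈ n →
      ∃ τ ∈ n, ∀ a : H97.chartU A₀ x, a ∉ Ideal.span {algebraMap A₀ (H97.chartU A₀ x) π} →
        ∃ (e : ℕ) (d u : H97.chartU A₀ x), d ∉ n ∧ u ∉ n ∧
          a * d - u * τ ^ e ∈ Ideal.span {algebraMap A₀ (H97.chartU A₀ x) π} := by
  haveI := isIntegrallyClosed_quotient_of_rho π hπ x hx hxA hxK ρ hker hsep Pi hPi hunr
  haveI : IsNoetherianRing (integralClosure A₀[X] F) :=
    H97.isNoetherianRing_integralClosure_polynomial (K := K₀) hxA hx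
  have hprime : (Ideal.span
      {algebraMap A₀[X] (integralClosure A₀[X] F) (C π)}).IsPrime := by
    rw [← hker]
    exact RingHom.ker_isPrime ρ
  exact H97.reg_chartU_of_nc' π hπ hxA hprime

/-- **(REG) for the chart at infinity, `ρ`-form**: the hypothesis `hregV` of `H97.kc_charts`,
literally.  Here `A₀[X]`, `K₀[X]` act on `F` through `X ↦ x⁻¹`. -/
theorem reg_chartV_of_rho (π : A₀) (hπ : Irreducible π) (x : F)
    (hx : Transcendental K₀ x) [FiniteDimensional K₀⟮x⟯ F]
    (hxA : ∀ p : A₀[X], algebraMap A₀[X] F p = aeval x⁻¹ p)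
    (hxK : ∀ p : K₀[X], algebraMap K₀[X] F p = aeval x⁻¹ p)
    {Ω : Type*} [Field Ω] (ρ : integralClosure A₀[X] F →+* Ω)
    (hker : RingHom.ker ρ = Ideal.span {algebraMap A₀[X] (integralClosure A₀[X] F) (C π)})
    (hsep : ∀ b : integralClosure A₀[X] F,
      IsSeparable (Subfield.closure
        (Set.range (ρ.comp (algebraMap A₀[X] (integralClosure A₀[X] F))))) (ρ b))
    (Pi : A₀[X]) (hPi : Squarefree (Pi.map (Ideal.Quotient.mk (Ideal.span {π}))))
    (hunr : ∀ p : Ideal K₀[X], p.IsMaximal → Pi.map (algebraMap A₀ K₀) ∉ p →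
      (p.map (algebraMap K₀[X] (integralClosure K₀[X] F))).IsRadical) :
    ∀ n : Ideal (H97.chartV A₀ x), n.IsMaximal → algebraMap A₀ (H97.chartV A₀ x) π ∈ n →
      ∃ τ ∈ n, ∀ a : H97.chartV A₀ x, a ∉ Ideal.span {algebraMap A₀ (H97.chartV A₀ x) π} →
        ∃ (e : ℕ) (d u : H97.chartV A₀ x), d ∉ n ∧ u ∉ n ∧
          a * d - u * τ ^ e ∈ Ideal.span {algebraMap A₀ (H97.chartV A₀ x) π} := by
  haveI : FiniteDimensional K₀⟮x⁻¹⟯ F := H97.finiteDimensional_adjoin_inv (K := K₀) x
  exact reg_chartU_of_rho π hπ x⁻¹ (H97.transcendental_inv hx) hxA hxK ρ hker hsep Pi hPi hunr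

end Fusion

end Fermat.Agent.S18.H68
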