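import Mathlib
import Fermat.Agent.S18.NCFusion_helper68

/-!
# S18, (NC) fusion, valuation-ring form

The same conclusion as `H68.reg_chartU_of_rho` / `H68.reg_chartV_of_rho` ((REG) of the Kummer
core for the charts `H97.chartU A₀ x`, `H97.chartV A₀ x`), from exactly the Gauss hypotheses of
`H97.kc_charts` (the valuation ring `V` with uniformiser `π`, containing `A₀` and `x`, with
`B ∩ πV = πB` for the chart `B`), a reduction map `red : V →+* Ω` with kernel the maximal ideal
(`H93.mem_nonunits_gaussWFull_iff`), the separability statement "algebraic over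
`E = Frac red(A₀[x])` implies separable over `E`" (`H85.isSeparable_closure`), a branch
polynomial `Pi` with squarefree reduction and `hunr` (`H10.isRadical_model_*`).

The reduction `ρ` of the chart, its kernel, the algebraicity of `ρ b` and the `A₀[X]`-algebra
structure on `F` are all built inside.
-/

set_option autoImplicit false
set_option linter.style.haveILetI false

open Polynomial IntermediateField

namespace Fermat.Agent.S18.H68

section FusionV

variable {A₀ K₀ F : Type*} [CommRing A₀] [IsDomain A₀] [IsDiscreteValuationRing A₀]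
  [Field K₀] [Algebra A₀ K₀] [IsFractionRing A₀ K₀] [CharZero K₀]
  [Field F] [Algebra K₀ F] [Algebra A₀ F] [IsScalarTower A₀ K₀ F]
  [Algebra K₀[X] F]

/-- **(REG) for the finite chart, valuation-ring form**: the hypothesis `hregU` of
`H97.kc_charts`, literally, from the Gauss hypotheses of `H97.kc_charts`. -/
theorem reg_chartU_of_gauss (π : A₀) (hπ : Irreducible π) (x : F)
    (hx : Transcendental K₀ x) [FiniteDimensional K₀⟮x⟯ F]
    (hxK : ∀ p : K₀[X], algebraMap K₀[X] F p = aeval x p)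
    (V : ValuationSubring F) (hAV : ∀ a : A₀, algebraMap A₀ F a ∈ V) (hxV : x ∈ V)
    (hπV : algebraMap A₀ F π ∈ V.nonunits)
    (hVπ : ∀ y ∈ V.nonunits, ∃ z ∈ V, y = algebraMap A₀ F π * z)
    (hsatU : ∀ b ∈ H97.chartU A₀ x, (∃ y ∈ V, b = algebraMap A₀ F π * y) →
      ∃ c ∈ H97.chartU A₀ x, b = algebraMap A₀ F π * c)
    {Ω : Type*} [Field Ω] (red : V →+* Ω) (hred : ∀ v : V, (v : F) ∈ V.nonunits ↔ red v = 0)
    (hsep : ∀ y : Ω,
      IsAlgebraic (Subfield.closure (red '' {v : V | ∃ p : A₀[X], (v : F) = aeval x p})) y →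
      IsSeparable (Subfield.closure (red '' {v : V | ∃ p : A₀[X], (v : F) = aeval x p})) y)
    (Pi : A₀[X]) (hPi : Squarefree (Pi.map (Ideal.Quotient.mk (Ideal.span {π}))))
    (hunr : ∀ p : Ideal K₀[X], p.IsMaximal → Pi.map (algebraMap A₀ K₀) ∉ p →
      (p.map (algebraMap K₀[X] (integralClosure K₀[X] F))).IsRadical) :
    ∀ n : Ideal (H97.chartU A₀ x), n.IsMaximal → algebraMap A₀ (H97.chartU A₀ x) π ∈ n →
      ∃ τ ∈ n, ∀ a : H97.chartU A₀ x, a ∉ Ideal.span {algebraMap A₀ (H97.chartU A₀ x) π} →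
        ∃ (e : ℕ) (d u : H97.chartU A₀ x), d ∉ n ∧ u ∉ n ∧
          a * d - u * τ ^ e ∈ Ideal.span {algebraMap A₀ (H97.chartU A₀ x) π} := by
  classical
  letI algA : Algebra A₀[X] F := (aeval x : A₀[X] →ₐ[A₀] F).toRingHom.toAlgebra
  have hxA : ∀ p : A₀[X], algebraMap A₀[X] F p = aeval x p := fun _ => rfl
  have hBV : ∀ b : integralClosure A₀[X] F, (b : F) ∈ V := fun b =>
    H97.chartU_le_valuationSubring V hAV hxV ((H97.mem_integralClosure_polynomial_iff hxA).mp b.2)
  let incl : integralClosure A₀[X] F →+* V :=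
    (algebraMap (integralClosure A₀[X] F) F).codRestrict V hBV
  let ρ : integralClosure A₀[X] F →+* Ω := red.comp incl
  have hρ : ∀ b : integralClosure A₀[X] F, ρ b = red ⟨(b : F), hBV b⟩ := fun _ => rfl
  have hπB : ((algebraMap A₀[X] (integralClosure A₀[X] F) (C π) : integralClosure A₀[X] F) : F)
      = algebraMap A₀ F π := by
    show algebraMap A₀[X] F (C π) = _
    rw [hxA, aeval_C]
  have hρπ : ρ (algebraMap A₀[X] (integralClosure A₀[X] F) (C π)) = 0 := by
    rw [hρ]
    refine (hred _).mp ?_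
    show ((algebraMap A₀[X] (integralClosure A₀[X] F) (C π) : integralClosure A₀[X] F) : F)
      ∈ V.nonunits
    rw [hπB]
    exact hπV
  have hker : RingHom.ker ρ
      = Ideal.span {algebraMap A₀[X] (integralClosure A₀[X] F) (C π)} := by
    ext b
    rw [RingHom.mem_ker, Ideal.mem_span_singleton']
    constructor
    · intro hb
      rw [hρ] at hb
      have hbn : (b : F) ∈ V.nonunits := (hred ⟨(b : F), hBV b⟩).mpr hb
      obtain ⟨z, hz, hbz⟩ := hVπ _ hbn
      obtain ⟨c, hc, hbc⟩ := hsatU (b : F)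
        ((H97.mem_integralClosure_polynomial_iff hxA).mp b.2) ⟨z, hz, hbz⟩
      refine ⟨⟨c, (H97.mem_integralClosure_polynomial_iff hxA).mpr hc⟩, ?_⟩
      apply Subtype.ext
      show c * ((algebraMap A₀[X] (integralClosure A₀[X] F) (C π) : integralClosure A₀[X] F) : F)
        = (b : F)
      rw [hπB, hbc, mul_comm]
    · rintro ⟨c, rfl⟩
      rw [map_mul, hρπ, mul_zero]
  -- the base field of the separability statement
  have hS : Set.range (ρ.comp (algebraMap A₀[X] (integralClosure A₀[X] F)))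
      = red '' {v : V | ∃ p : A₀[X], (v : F) = aeval x p} := by
    ext w
    constructor
    · rintro ⟨p, rfl⟩
      refine ⟨incl (algebraMap A₀[X] (integralClosure A₀[X] F) p), ⟨p, ?_⟩, rfl⟩
      show algebraMap A₀[X] F p = _
      exact hxA p
    · rintro ⟨v, ⟨p, hp⟩, rfl⟩
      refine ⟨p, ?_⟩
      show red (incl (algebraMap A₀[X] (integralClosure A₀[X] F) p)) = red v
      congr 1
      apply Subtype.ext
      show algebraMap A₀[X] F p = (v : F)
      rw [hp, hxA]
  have hsep' : ∀ b : integralClosure A₀[X] F,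
      IsSeparable (Subfield.closure
        (Set.range (ρ.comp (algebraMap A₀[X] (integralClosure A₀[X] F))))) (ρ b) := by
    rw [hS]
    intro b
    apply hsep
    -- `ρ b` is integral over the closure
    set E := Subfield.closure (red '' {v : V | ∃ p : A₀[X], (v : F) = aeval x p}) with hE
    have hmem : ∀ p : A₀[X], ρ (algebraMap A₀[X] (integralClosure A₀[X] F) p) ∈ E := by
      intro p
      apply Subfield.subset_closure
      rw [← hS]
      exact ⟨p, rfl⟩
    let g : A₀[X] →+* E :=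
      (ρ.comp (algebraMap A₀[X] (integralClosure A₀[X] F))).codRestrict E hmem
    have hg : (algebraMap E Ω).comp g = ρ.comp (algebraMap A₀[X] (integralClosure A₀[X] F)) :=
      RingHom.ext fun _ => rfl
    have hbint : IsIntegral A₀[X] b := Algebra.IsIntegral.isIntegral b
    obtain ⟨q, hq, hqb⟩ := hbint
    have hint : IsIntegral E (ρ b) := by
      refine ⟨q.map g, hq.map g, ?_⟩
      rw [eval₂_map, hg, ← Polynomial.hom_eval₂, hqb, map_zero]
    exact hint.isAlgebraic
  exact reg_chartU_of_rho π hπ x hx hxA hxK ρ hker hsep' Pi hPi hunr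

/-- **(REG) for the chart at infinity, valuation-ring form**: the hypothesis `hregV` of
`H97.kc_charts`, literally, from the Gauss hypotheses of `H97.kc_charts`.  Here `K₀[X]` acts on
`F` through `X ↦ x⁻¹`. -/
theorem reg_chartV_of_gauss (π : A₀) (hπ : Irreducible π) (x : F)
    (hx : Transcendental K₀ x) [FiniteDimensional K₀⟮x⟯ F]
    (hxK : ∀ p : K₀[X], algebraMap K₀[X] F p = aeval x⁻¹ p)
    (V : ValuationSubring F) (hAV : ∀ a : A₀, algebraMap A₀ F a ∈ V) (hxV' : x⁻¹ ∈ V)
    (hπV : algebraMap A₀ F π ∈ V.nonunits)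
    (hVπ : ∀ y ∈ V.nonunits, ∃ z ∈ V, y = algebraMap A₀ F π * z)
    (hsatV : ∀ b ∈ H97.chartV A₀ x, (∃ y ∈ V, b = algebraMap A₀ F π * y) →
      ∃ c ∈ H97.chartV A₀ x, b = algebraMap A₀ F π * c)
    {Ω : Type*} [Field Ω] (red : V →+* Ω) (hred : ∀ v : V, (v : F) ∈ V.nonunits ↔ red v = 0)
    (hsep : ∀ y : Ω,
      IsAlgebraic (Subfield.closure (red '' {v : V | ∃ p : A₀[X], (v : F) = aeval x⁻¹ p})) y →
      IsSeparable (Subfield.closure (red '' {v : V | ∃ p : A₀[X], (v : F) = aeval x⁻¹ p})) y)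
    (Pi : A₀[X]) (hPi : Squarefree (Pi.map (Ideal.Quotient.mk (Ideal.span {π}))))
    (hunr : ∀ p : Ideal K₀[X], p.IsMaximal → Pi.map (algebraMap A₀ K₀) ∉ p →
      (p.map (algebraMap K₀[X] (integralClosure K₀[X] F))).IsRadical) :
    ∀ n : Ideal (H97.chartV A₀ x), n.IsMaximal → algebraMap A₀ (H97.chartV A₀ x) π ∈ n →
      ∃ τ ∈ n, ∀ a : H97.chartV A₀ x, a ∉ Ideal.span {algebraMap A₀ (H97.chartV A₀ x) π} →
        ∃ (e : ℕ) (d u : H97.chartV A₀ x), d ∉ n ∧ u ∉ n ∧
          a * d - u * τ ^ e ∈ Ideal.span {algebraMap A₀ (H97.chartV A₀ x) π} := by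
  haveI : FiniteDimensional K₀⟮x⁻¹⟯ F := H97.finiteDimensional_adjoin_inv (K := K₀) x
  exact reg_chartU_of_gauss π hπ x⁻¹ (H97.transcendental_inv hx) hxK V hAV hxV' hπV hVπ hsatV
    red hred hsep Pi hPi hunr

end FusionV

end Fermat.Agent.S18.H68
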