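import Mathlib
import Fermat.Prelude.Def_ModularCurve_X0ModL

set_option autoImplicit false

/-!
# S18 node SEP (helper85): separability over `k(x)` inside `k((q))`

`theta = q d/dq` is a `k`-derivation of `k((q))`.  If `k` is a perfect field of characteristic
`p`, `x ∈ k((q))` has `theta x ≠ 0`, then every `y ∈ k((q))` algebraic over `k(x)` is separable
over `k(x)`.  For `x = J` (the `j`-expansion) `theta J ≠ 0`, so every subfield of `k((q))`
algebraic over `k(J)` is separable over `k(J)`; in particular `k(J(q^d) : d ∣ N)`.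
-/

namespace Fermat.Agent.S18.H85

open HahnSeries Polynomial IntermediateField

section Theta

variable {k : Type*} [Field k]

/-- the coefficientwise map `a_n ↦ n * a_n` -/
noncomputable def thetaFun (f : LaurentSeries k) : LaurentSeries k :=
  ⟨fun n => (n : k) * f.coeff n, f.isPWO_support.mono (fun n hn => by
    simp only [Function.mem_support, ne_eq] at hn
    simp only [mem_support, ne_eq]
    intro h; exact hn (by rw [h, mul_zero]))⟩

@[simp]
theorem thetaFun_coeff (f : LaurentSeries k) (n : ℤ) :
    (thetaFun f).coeff n = (n : k) * f.coeff n := rfl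

theorem support_thetaFun_subset (f : LaurentSeries k) : (thetaFun f).support ⊆ f.support := by
  intro n hn
  simp only [mem_support, ne_eq, thetaFun_coeff] at hn ⊢
  intro h; exact hn (by rw [h, mul_zero])

theorem thetaFun_mul (f g : LaurentSeries k) :
    thetaFun (f * g) = f * thetaFun g + g * thetaFun f := by
  ext n
  rw [thetaFun_coeff, HahnSeries.coeff_add, HahnSeries.coeff_mul,
    coeff_mul_right' g.isPWO_support (support_thetaFun_subset g), mul_comm g (thetaFun f),
    coeff_mul_left' f.isPWO_support (support_thetaFun_subset f), Finset.mul_sum,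
    ← Finset.sum_add_distrib]
  refine Finset.sum_congr rfl fun ij hij => ?_
  rw [Finset.mem_antidiagonal] at hij
  simp only [thetaFun_coeff]
  rw [← hij.2.2]
  push_cast
  ring

theorem thetaFun_algebraMap (c : k) : thetaFun (algebraMap k (LaurentSeries k) c) = 0 := by
  ext n
  rw [thetaFun_coeff, HahnSeries.coeff_zero]
  by_cases hn : n = 0
  · subst hn; simp
  · rw [ModularCurve.algebraMap_laurentSeries_eq_single, HahnSeries.coeff_single_of_ne hn,
      mul_zero]

/-- `theta = q d/dq` as a `k`-derivation of `k((q))`. -/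
noncomputable def theta : Derivation k (LaurentSeries k) (LaurentSeries k) where
  toFun := thetaFun
  map_add' f g := by
    ext n; simp only [thetaFun_coeff, HahnSeries.coeff_add]; ring
  map_smul' c f := by
    refine Eq.trans (congrArg thetaFun (Algebra.smul_def c f)) ?_
    rw [thetaFun_mul, thetaFun_algebraMap, mul_zero, add_zero]
    rw [ModularCurve.algebraMap_laurentSeries_eq_single, RingHom.id_apply]
    exact HahnSeries.single_zero_mul_eq_smul
  map_one_eq_zero' := by
    ext n
    show (thetaFun (1 : LaurentSeries k)).coeff n = 0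
    rw [thetaFun_coeff]
    by_cases hn : n = 0
    · subst hn; simp
    · rw [HahnSeries.coeff_one, if_neg hn, mul_zero]
  leibniz' f g := by
    show thetaFun (f * g) = f • thetaFun g + g • thetaFun f
    rw [thetaFun_mul]; rfl

@[simp]
theorem theta_coeff (f : LaurentSeries k) (n : ℤ) : (theta f).coeff n = (n : k) * f.coeff n := rfl

end Theta

section Sep

variable {k : Type*} [Field k]

theorem aeval_mem_adjoin_simple (x : LaurentSeries k) (r : k[X]) : aeval x r ∈ k⟮x⟯ :=
  (mem_adjoin_simple_iff k _).mpr ⟨r, 1, by simp⟩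

/-- On `k(x)` the derivation `theta` is `theta x` times a `k(x)`-valued map. -/
theorem exists_theta_eq_mul (x : LaurentSeries k) {c : LaurentSeries k} (hc : c ∈ k⟮x⟯) :
    ∃ c' ∈ k⟮x⟯, theta c = c' * theta x := by
  obtain ⟨r, s, rfl⟩ := (mem_adjoin_simple_iff k c).mp hc
  refine ⟨(aeval x s)⁻¹ ^ 2 * (aeval x s * aeval x (derivative r)
      - aeval x r * aeval x (derivative s)), ?_, ?_⟩
  · exact mul_mem (pow_mem (inv_mem (aeval_mem_adjoin_simple x s)) 2)
      (sub_mem (mul_mem (aeval_mem_adjoin_simple x s) (aeval_mem_adjoin_simple x _))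
        (mul_mem (aeval_mem_adjoin_simple x r) (aeval_mem_adjoin_simple x _)))
  · rw [Derivation.leibniz_div, Derivation.map_aeval, Derivation.map_aeval]
    simp only [smul_eq_mul]
    ring

/-- If `k` is perfect and `theta x ≠ 0` then `x` is transcendental over `k`. -/
theorem transcendental_of_theta_ne_zero [PerfectField k] (x : LaurentSeries k)
    (hx : theta x ≠ 0) : Transcendental k x := by
  intro halg
  have hsep : (minpoly k x).Separable :=
    PerfectField.separable_of_irreducible (minpoly.irreducible halg.isIntegral)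
  have h0 : theta (aeval x (minpoly k x)) = 0 := by rw [minpoly.aeval, map_zero]
  rw [Derivation.map_aeval, smul_eq_mul] at h0
  rcases mul_eq_zero.mp h0 with h | h
  · exact hsep.aeval_derivative_ne_zero (minpoly.aeval k x) h
  · exact hx h

theorem charP_laurentSeries (p : ℕ) [CharP k p] : CharP (LaurentSeries k) p :=
  charP_of_injective_algebraMap (algebraMap k (LaurentSeries k)).injective p

theorem theta_pow_char (p : ℕ) [CharP k p] (z : LaurentSeries k) : theta (z ^ p) = 0 := by
  have := charP_laurentSeries (k := k) p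
  rw [Derivation.leibniz_pow, nsmul_eq_mul, CharP.cast_eq_zero, zero_mul]

/-- The kernel of `theta` on `k(x)` consists of `p`-th powers (perfect `k`, `theta x ≠ 0`). -/
theorem exists_pow_eq_of_theta_eq_zero (p : ℕ) [hp : Fact p.Prime] [CharP k p] [PerfectField k]
    (x : LaurentSeries k)
    (hx : theta x ≠ 0) {c : LaurentSeries k} (hc : c ∈ k⟮x⟯) (hθ : theta c = 0) :
    ∃ d ∈ k⟮x⟯, c = d ^ p := by
  have hp0 : 0 < p := hp.out.pos
  have htr := transcendental_of_theta_ne_zero x hx
  obtain ⟨r, s, rfl⟩ := (mem_adjoin_simple_iff k c).mp hc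
  by_cases hb : aeval x s = 0
  · refine ⟨0, zero_mem _, ?_⟩
    rw [hb, div_zero, zero_pow hp0.ne']
  set u : k[X] := r * s ^ (p - 1) with hu
  have hdiv : aeval x r / aeval x s = aeval x u / (aeval x s) ^ p := by
    have hps : (aeval x s) ^ p = aeval x s * (aeval x s) ^ (p - 1) := by
      rw [← pow_succ', Nat.sub_add_cancel hp0]
    rw [hu, map_mul, map_pow, hps, mul_div_mul_right _ _ (pow_ne_zero _ hb)]
  have hθu : theta (aeval x u) = 0 := by
    have h1 : aeval x u = (aeval x r / aeval x s) * (aeval x s) ^ p := by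
      rw [hdiv, div_mul_cancel₀ _ (pow_ne_zero _ hb)]
    rw [h1, Derivation.leibniz, hθ, theta_pow_char, smul_zero, smul_zero, add_zero]
  rw [Derivation.map_aeval, smul_eq_mul] at hθu
  have hder : derivative u = 0 := by
    rcases mul_eq_zero.mp hθu with h | h
    · by_contra hne
      exact htr ⟨derivative u, hne, h⟩
    · exact absurd h hx
  have hexp : expand k p (contract p u) = u := expand_contract p hder hp0.ne'
  set w : k[X] := (contract p u).map ((frobeniusEquiv k p).symm : k →+* k) with hw
  have hwp : w ^ p = u := by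
    rw [← map_frobenius_expand, map_expand, hw, Polynomial.map_map]
    have : (frobenius k p).comp ((frobeniusEquiv k p).symm : k →+* k) = RingHom.id k := by
      ext a
      simp
    rw [this, Polynomial.map_id, hexp]
  refine ⟨aeval x w / aeval x s, div_mem (aeval_mem_adjoin_simple x w)
    (aeval_mem_adjoin_simple x s), ?_⟩
  rw [hdiv, div_pow, ← hwp, map_pow]

/-- **SEP1.** `k` perfect of characteristic `p`, `theta x ≠ 0`: every element of `k((q))`
algebraic over `k(x)` is separable over `k(x)`. -/
theorem isSeparable_of_isAlgebraic (p : ℕ) [hp : Fact p.Prime] [CharP k p] [PerfectField k]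
    (x y : LaurentSeries k) (hx : theta x ≠ 0)
    (hy : IsAlgebraic k⟮x⟯ y) : IsSeparable k⟮x⟯ y := by
  classical
  have hp0 : 0 < p := hp.out.pos
  have : CharP k⟮x⟯ p := charP_of_injective_algebraMap (algebraMap k k⟮x⟯).injective p
  have hint : IsIntegral k⟮x⟯ y := hy.isIntegral
  have hirr : Irreducible (minpoly k⟮x⟯ y) := minpoly.irreducible hint
  rcases separable_or p hirr with h | ⟨-, g, -, hgP⟩
  · exact h
  exfalso
  have hgmonic : g.Monic := by
    rw [← monic_expand_iff hp0, hgP]
    exact minpoly.monic hint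
  have hroot : aeval (y ^ p) g = 0 := by
    rw [← expand_aeval, hgP, minpoly.aeval]
  have hθz : theta (y ^ p) = 0 := theta_pow_char p y
  -- apply `theta` to the relation
  have key : ∑ i ∈ Finset.range (g.natDegree + 1),
      (y ^ p) ^ i * theta ((g.coeff i : k⟮x⟯) : LaurentSeries k) = 0 := by
    have h0 : theta (aeval (y ^ p) g) = 0 := by rw [hroot, map_zero]
    rw [aeval_eq_sum_range, map_sum] at h0
    rw [← h0]
    refine Finset.sum_congr rfl fun i _ => ?_
    rw [Algebra.smul_def, Derivation.leibniz, Derivation.leibniz_pow, hθz, smul_zero, smul_zero,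
      smul_zero, zero_add, smul_eq_mul]
    rfl
  choose D' hD'mem hD' using fun c : k⟮x⟯ => exists_theta_eq_mul x c.2
  set Q : (k⟮x⟯)[X] := ∑ i ∈ Finset.range g.natDegree,
    Polynomial.C (⟨D' (g.coeff i), hD'mem (g.coeff i)⟩ : k⟮x⟯) * X ^ i with hQ
  have hQroot : aeval (y ^ p) Q = 0 := by
    rw [Finset.sum_range_succ] at key
    have htop : theta ((g.coeff g.natDegree : k⟮x⟯) : LaurentSeries k) = 0 := by
      rw [hgmonic.coeff_natDegree, OneMemClass.coe_one]
      exact Derivation.map_one_eq_zero _
    rw [htop, mul_zero, add_zero] at key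
    have h2 : (aeval (y ^ p) Q) * theta x = 0 := by
      rw [hQ, map_sum, Finset.sum_mul, ← key]
      refine Finset.sum_congr rfl fun i _ => ?_
      rw [hD' (g.coeff i), map_mul, aeval_C, map_pow, aeval_X]
      rw [IntermediateField.algebraMap_apply]
      ring
    exact (mul_eq_zero.mp h2).resolve_right hx
  have hQdeg : Q.degree < g.natDegree := by
    rw [hQ]
    refine lt_of_le_of_lt (degree_sum_le _ _) ?_
    rw [Finset.sup_lt_iff (WithBot.bot_lt_coe _)]
    intro i hi
    exact lt_of_le_of_lt (degree_C_mul_X_pow_le _ _)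
      (by exact_mod_cast Finset.mem_range.mp hi)
  have hQ0 : Q = 0 := by
    by_contra hne
    have hne' : expand k⟮x⟯ p Q ≠ 0 := fun h => hne ((expand_eq_zero hp0).mp h)
    have hr' : aeval y (expand k⟮x⟯ p Q) = 0 := by rw [expand_aeval, hQroot]
    have h1 := minpoly.degree_le_of_ne_zero k⟮x⟯ y hne' hr'
    rw [← hgP, degree_eq_natDegree ((expand_eq_zero hp0).not.mpr hgmonic.ne_zero),
      degree_eq_natDegree hne', natDegree_expand, natDegree_expand] at h1
    have h2 : Q.natDegree < g.natDegree := by
      have := hQdeg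
      rw [degree_eq_natDegree hne] at this
      exact_mod_cast this
    have h3 : g.natDegree * p ≤ Q.natDegree * p := by exact_mod_cast h1
    have h4 := Nat.le_of_mul_le_mul_right h3 hp0
    omega
  have hcoeff : ∀ i, theta ((g.coeff i : k⟮x⟯) : LaurentSeries k) = 0 := by
    intro i
    rcases lt_trichotomy i g.natDegree with hi | hi | hi
    · have hc : Q.coeff i = (⟨D' (g.coeff i), hD'mem (g.coeff i)⟩ : k⟮x⟯) := by
        rw [hQ, finsetSum_coeff]
        simp only [coeff_C_mul, coeff_X_pow]
        rw [Finset.sum_eq_single i]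
        · simp
        · intro j _ hji
          rw [if_neg (Ne.symm hji), mul_zero]
        · intro hi'
          exact absurd (Finset.mem_range.mpr hi) hi'
      rw [hQ0, Polynomial.coeff_zero] at hc
      have hD0 : D' (g.coeff i) = 0 := by
        have := congrArg Subtype.val hc.symm
        simpa using this
      rw [hD' (g.coeff i), hD0, zero_mul]
    · rw [hi, hgmonic.coeff_natDegree, OneMemClass.coe_one]
      exact Derivation.map_one_eq_zero _
    · rw [coeff_eq_zero_of_natDegree_lt hi, ZeroMemClass.coe_zero]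
      exact map_zero _
  -- all coefficients of `g` are `p`-th powers
  have hrange : g ∈ (mapRingHom (frobenius k⟮x⟯ p)).range := by
    rw [mem_map_range]
    intro i
    obtain ⟨d, hd, hcd⟩ := exists_pow_eq_of_theta_eq_zero p x hx (g.coeff i).2 (hcoeff i)
    exact ⟨⟨d, hd⟩, Subtype.ext (by simpa [frobenius_def] using hcd.symm)⟩
  obtain ⟨g₀, hg₀⟩ := hrange
  have hpow : minpoly k⟮x⟯ y = g₀ ^ p := by
    rw [← hgP, ← hg₀, coe_mapRingHom, ← map_expand, map_frobenius_expand]
  rw [hpow] at hirr
  exact not_irreducible_pow hp.out.one_lt.ne' hirr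

/-- **SEP1, bundled.** An intermediate field `E ⊇ k(x)` of `k((q))` which is algebraic over
`k(x)` is separable over `k(x)`. -/
theorem isSeparable_extendScalars (p : ℕ) [Fact p.Prime] [CharP k p] [PerfectField k]
    (x : LaurentSeries k) (hx : theta x ≠ 0) (E : IntermediateField k (LaurentSeries k))
    (hE : k⟮x⟯ ≤ E) (halg : ∀ y ∈ E, IsAlgebraic k⟮x⟯ y) :
    Algebra.IsSeparable k⟮x⟯ (extendScalars hE) := by
  refine ⟨fun z => ?_⟩
  have h1 : IsSeparable k⟮x⟯ (z : LaurentSeries k) :=
    isSeparable_of_isAlgebraic p x _ hx (halg _ z.2)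
  have h2 : minpoly k⟮x⟯ (z : LaurentSeries k) = minpoly k⟮x⟯ z :=
    minpoly.algebraMap_eq (algebraMap (extendScalars hE) (LaurentSeries k)).injective z
  unfold IsSeparable at h1 ⊢
  rwa [← h2]

end Sep

section Modular

open ModularCurve

variable (k : Type*) [Field k]

/-- **SEP2.** `theta J ≠ 0` in every characteristic (coefficient of `q⁻¹`). -/
theorem theta_jqModC_ne_zero : theta (jqModC k) ≠ 0 := by
  intro h
  have h1 := congrArg (fun f : LaurentSeries k => f.coeff (-1)) h
  simp only [theta_coeff, coeff_jqModC_neg_one, HahnSeries.coeff_zero] at h1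
  norm_num at h1

/-- **SEP3, elementwise.** Over a perfect field of characteristic `p`, every element of
`k((q))` algebraic over `k(J)` is separable over `k(J)`. -/
theorem isSeparable_jqModC (p : ℕ) [Fact p.Prime] [CharP k p] [PerfectField k]
    (y : LaurentSeries k) (hy : IsAlgebraic k⟮jqModC k⟯ y) : IsSeparable k⟮jqModC k⟯ y :=
  isSeparable_of_isAlgebraic p _ y (theta_jqModC_ne_zero k) hy

theorem adjoin_jqModC_le_full (N : ℕ) : k⟮jqModC k⟯ ≤ modularFunctionFieldFullC k N := by
  rw [adjoin_simple_le_iff]
  exact jqModC_mem_full k N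

/-- finiteness of `k(J(q^d) : d ∣ N)` over `k(J)` from `relfinrank ≠ 0` -/
theorem finiteDimensional_full_of_relfinrank_ne_zero (N : ℕ)
    (hfin : (IntermediateField.adjoin k {jqModC k}).relfinrank (modularFunctionFieldFullC k N) ≠ 0) :
    FiniteDimensional k⟮jqModC k⟯ (extendScalars (adjoin_jqModC_le_full k N)) := by
  rw [relfinrank_eq_finrank_of_le (adjoin_jqModC_le_full k N)] at hfin
  exact FiniteDimensional.of_finrank_pos (Nat.pos_of_ne_zero hfin)

/-- algebraicity of `k(J(q^d) : d ∣ N)` over `k(J)` from `relfinrank ≠ 0` -/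
theorem isAlgebraic_of_mem_full (N : ℕ)
    (hfin : (IntermediateField.adjoin k {jqModC k}).relfinrank (modularFunctionFieldFullC k N) ≠ 0)
    {y : LaurentSeries k} (hy : y ∈ modularFunctionFieldFullC k N) :
    IsAlgebraic k⟮jqModC k⟯ y := by
  have hfd := finiteDimensional_full_of_relfinrank_ne_zero k N hfin
  have h1 : IsAlgebraic k⟮jqModC k⟯
      (⟨y, hy⟩ : extendScalars (adjoin_jqModC_le_full k N)) :=
    (IsIntegral.of_finite k⟮jqModC k⟯ _).isAlgebraic
  exact (isAlgebraic_algebraMap_iff
    (algebraMap (extendScalars (adjoin_jqModC_le_full k N)) (LaurentSeries k)).injective).mpr h1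

/-- **SEP3.** `k(J(q^d) : d ∣ N)` is separable over `k(J)` (perfect `k` of characteristic `p`),
given finiteness in the `relfinrank` form of the landed S28 tower theorem. -/
theorem isSeparable_of_mem_full (p : ℕ) [Fact p.Prime] [CharP k p] [PerfectField k] (N : ℕ)
    (hfin : (IntermediateField.adjoin k {jqModC k}).relfinrank (modularFunctionFieldFullC k N) ≠ 0)
    {y : LaurentSeries k} (hy : y ∈ modularFunctionFieldFullC k N) :
    IsSeparable k⟮jqModC k⟯ y :=
  isSeparable_jqModC k p y (isAlgebraic_of_mem_full k N hfin hy)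

/-- **SEP3, bundled.** -/
theorem isSeparable_full (p : ℕ) [Fact p.Prime] [CharP k p] [PerfectField k] (N : ℕ)
    (hfin : (IntermediateField.adjoin k {jqModC k}).relfinrank (modularFunctionFieldFullC k N) ≠ 0) :
    Algebra.IsSeparable k⟮jqModC k⟯ (extendScalars (adjoin_jqModC_le_full k N)) :=
  isSeparable_extendScalars p _ (theta_jqModC_ne_zero k) _ _
    (fun _ hy => isAlgebraic_of_mem_full k N hfin hy)

end Modular

end Fermat.Agent.S18.H85
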