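import Mathlib
import Fermat.Agent.S18.Sep_helper85

set_option autoImplicit false

/-!
# S18 node SEP, adapters (helper85)

* `theta x ≠ 0` from one coefficient; for reductions of integral series `Xi : ℤ((q))` with
  `q⁻¹`-coefficient `1` (the `j`-expansion, Hauptmoduln `t_M = q⁻¹ + ⋯`).
* `Subfield` forms of SEP1: separability over `Subfield.closure S` when this closure is `k(x)`.
-/

namespace Fermat.Agent.S18.H85

open HahnSeries Polynomial IntermediateField ModularCurve

variable {k : Type*} [Field k]

theorem theta_ne_zero_of_coeff (x : LaurentSeries k) (n : ℤ) (h : (n : k) * x.coeff n ≠ 0) :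
    theta x ≠ 0 := by
  intro h0
  apply h
  have h1 := congrArg (fun f : LaurentSeries k => f.coeff n) h0
  simpa using h1

theorem theta_ne_zero_of_coeff_neg_one (x : LaurentSeries k) (h : x.coeff (-1) = 1) :
    theta x ≠ 0 := by
  refine theta_ne_zero_of_coeff x (-1) ?_
  rw [h]
  norm_num

/-- reductions of integral series with `q⁻¹`-coefficient `1` (e.g. `J`, `t_2`, `t_3`) -/
theorem theta_coeffMap_ne_zero (Xi : LaurentSeries ℤ) (h : Xi.coeff (-1) = 1) :
    theta (coeffMap (Int.castRingHom k) Xi) ≠ 0 := by
  refine theta_ne_zero_of_coeff_neg_one _ ?_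
  rw [coeffMap_coeff, h]
  simp

/-- same with an intermediate coefficient ring `R → k` (e.g. `R = A0`, the residue map) -/
theorem theta_coeffMap_ne_zero' {R : Type*} [CommRing R] (f : R →+* k) (Y : LaurentSeries R)
    (h : Y.coeff (-1) = 1) : theta (coeffMap f Y) ≠ 0 := by
  refine theta_ne_zero_of_coeff_neg_one _ ?_
  rw [coeffMap_coeff, h, map_one]

section Subfield

/-- **SEP1, `Subfield` form.** -/
theorem isSeparable_subfield (p : ℕ) [Fact p.Prime] [CharP k p] [PerfectField k]
    (x : LaurentSeries k) (hx : theta x ≠ 0)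
    (K : Subfield (LaurentSeries k)) (hK : K = k⟮x⟯.toSubfield) (y : LaurentSeries k)
    (hy : IsAlgebraic K y) : IsSeparable K y := by
  subst hK
  exact isSeparable_of_isAlgebraic p x y hx hy

/-- **SEP1, `Subfield.closure` form.** If `S ⊆ k(x)` and the closure of `S` contains `k` and
`x`, then every element of `k((q))` algebraic over `Subfield.closure S` is separable over it. -/
theorem isSeparable_closure (p : ℕ) [Fact p.Prime] [CharP k p] [PerfectField k]
    (x : LaurentSeries k) (hx : theta x ≠ 0) (S : Set (LaurentSeries k))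
    (hS1 : S ⊆ (k⟮x⟯ : Set (LaurentSeries k)))
    (hS2 : ∀ c : k, algebraMap k (LaurentSeries k) c ∈ Subfield.closure S)
    (hS3 : x ∈ Subfield.closure S) (y : LaurentSeries k)
    (hy : IsAlgebraic (Subfield.closure S) y) : IsSeparable (Subfield.closure S) y := by
  refine isSeparable_subfield p x hx _ ?_ y hy
  apply le_antisymm
  · rw [Subfield.closure_le]
    exact hS1
  · rw [adjoin_toSubfield, Subfield.closure_le]
    rintro z (⟨c, rfl⟩ | hz)
    · exact hS2 c
    · rw [Set.mem_singleton_iff] at hz
      rw [hz]
      exact hS3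

end Subfield

end Fermat.Agent.S18.H85
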