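import Mathlib
import Fermat.Prelude.Def_AlgebraicCurve_DivisorClassGroup
import Fermat.Agent.S24.Basics_helper19
import Fermat.Agent.S18.PlaceRestrict_helper74

/-!
# S18, node CONSTEXT (helper39): constant field extensions are unramified

Setting: fields `K0 → K → F` with `K` algebraic over `K0`, `K0` of characteristic zero, and a
model `F0 / K0` of `F / K`, i.e. a field `F0` with `K0 → F0 → F` and `F = K · F0`
(`hgen : IntermediateField.adjoin K (Set.range (algebraMap F0 F)) = ⊤`).

* `exists_ord_algebraMap_eq_one` : every place `P` of `F / K` has a uniformiser in `F0`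
  (ramification index one over its restriction to `F0`);
* `ord_algebraMap_eq_ord_restrictPlace` : `P.ord y = (restriction of P).ord y` for `y ∈ F0`;
* `exists_place_ord_eq` : every place of `F0 / K0` is the restriction of a place of `F / K`,
  with the same orders;
* `dvd_ord_of_forall_place`, `dvd_zval_ord_of_forall_place`, `dvd_zval_ord_of_forall_place'` :
  `m ∣ ord_P u` for all places `P` of `F / K` implies `m ∣ ord_O u` for all places
  (resp. `ℤ`-valued valuations trivial on the constants) of the model.

The proof of the first statement: for `θ ∈ K` the ring `O[θ]` (`O = O_P ∩ F0`) is a quotient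
of `O ⊗[K0] K0(θ)`, hence formally unramified over `O`; its localisation at the centre of `P`
is then a noetherian local domain whose maximal ideal is generated by a uniformiser of `O`.
-/

set_option autoImplicit false

namespace Fermat.Agent.S18.H39

open AlgebraicCurve IntermediateField Fermat.Agent.S24.H19 Fermat.Agent.S24.H31
open scoped TensorProduct

variable {K0 K F : Type*} [Field K0] [Field K] [Field F] [Algebra K0 K] [Algebra K F]
  [Algebra K0 F] [IsScalarTower K0 K F]

section Span

variable [Algebra.IsAlgebraic K0 K] (F' : IntermediateField K0 F)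

/-- elements of `K` are integral over `F'` -/
theorem isIntegral_algebraMap_K (a : K) : IsIntegral F' (algebraMap K F a) := by
  have h1 : IsIntegral K0 a := Algebra.IsIntegral.isIntegral a
  have h2 : IsIntegral K0 (algebraMap K F a) := h1.map (IsScalarTower.toAlgHom K0 K F)
  exact h2.tower_top

/-- `F = K · F'` is the `F'`-span of the image of `K`. -/
theorem mem_span_range (hgen : IntermediateField.adjoin K (F' : Set F) = ⊤) (y : F) :
    y ∈ Submodule.span F' (Set.range (algebraMap K F)) := by
  classical
  -- the `F'`-intermediate field generated by `K`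
  set E : IntermediateField F' F := IntermediateField.adjoin F' (Set.range (algebraMap K F))
    with hE
  have hEalg : E.toSubalgebra = Algebra.adjoin F' (Set.range (algebraMap K F)) :=
    IntermediateField.adjoin_toSubalgebra_of_isAlgebraic
      (fun x hx => by
        obtain ⟨a, rfl⟩ := hx
        exact (isIntegral_algebraMap_K F' a).isAlgebraic)
  -- `E` as an intermediate field of `F / K`
  let Ek : IntermediateField K F :=
    { E.toSubfield with
      algebraMap_mem' := fun a =>
        IntermediateField.subset_adjoin F' _ (Set.mem_range_self a) }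
  have hle : IntermediateField.adjoin K (F' : Set F) ≤ Ek := by
    rw [IntermediateField.adjoin_le_iff]
    intro x hx
    exact E.algebraMap_mem ⟨x, hx⟩
  have hy : y ∈ Ek := hle (hgen ▸ IntermediateField.mem_top)
  have hy' : y ∈ E.toSubalgebra := hy
  rw [hEalg] at hy'
  have := Algebra.adjoin_eq_span F' (Set.range (algebraMap K F))
  have hy'' : y ∈ (Algebra.adjoin F' (Set.range (algebraMap K F))).toSubmodule := hy'
  rw [this] at hy''
  have hcl : (Submonoid.closure (Set.range (algebraMap K F)) : Set F)
      = Set.range (algebraMap K F) := by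
    have : Set.range (algebraMap K F) = ((algebraMap K F).rangeS.toSubmonoid : Set F) := by
      ext x
      exact Iff.rfl
    rw [this, Submonoid.closure_eq]
  rw [hcl] at hy''
  exact hy''

end Span

section Abstract

open IsLocalRing in
/-- a noetherian local domain, essentially of finite type and formally unramified over a discrete
valuation ring (local map), is itself a DVR with the same uniformiser -/
theorem exists_unit_mul_pow_of_formallyUnramified {O T : Type*} [CommRing O] [IsDomain O]
    [IsDiscreteValuationRing O] [CommRing T] [IsDomain T] [IsNoetherianRing T] [IsLocalRing T]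
    [Algebra O T] [IsLocalHom (algebraMap O T)] [Algebra.EssFiniteType O T]
    [Algebra.FormallyUnramified O T] (ϖ : O) (hϖ : Irreducible ϖ)
    (hτ0 : algebraMap O T ϖ ≠ 0) {x : T} (hx : x ≠ 0) :
    ∃ (n : ℕ) (u : Tˣ), x = u * (algebraMap O T ϖ) ^ n := by
  have hmax : (maximalIdeal O).map (algebraMap O T) = maximalIdeal T :=
    Algebra.FormallyUnramified.map_maximalIdeal
  set τ := algebraMap O T ϖ with hτ
  have hT : maximalIdeal T = Ideal.span {τ} := by
    rw [← hmax, hϖ.maximalIdeal_eq, Ideal.map_span, Set.image_singleton]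
  have hnf : ¬ IsField T := by
    rw [isField_iff_maximalIdeal_eq, hT, Ideal.span_singleton_eq_bot]
    exact hτ0
  have h4 : (maximalIdeal T).IsPrincipal := ⟨⟨τ, hT⟩⟩
  have : IsDiscreteValuationRing T :=
    ((IsDiscreteValuationRing.TFAE T hnf).out 0 4).mpr h4
  have hτirr : Irreducible τ :=
    IsDiscreteValuationRing.irreducible_of_span_eq_maximalIdeal τ hτ0 hT
  exact IsDiscreteValuationRing.eq_unit_mul_pow_irreducible hx hτirr

end Abstract

section Key

variable (F' : IntermediateField K0 F) (Q : Place K0 F')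

/-- the valuation ring of a place of `F'` acts on `F` -/
@[reducible] noncomputable def algOF : Algebra Q.toValuationSubring F :=
  ((algebraMap F' F).comp (algebraMap Q.toValuationSubring F')).toAlgebra

attribute [local instance] algOF

omit [Algebra K F] [IsScalarTower K0 K F] [Field K] [Algebra K0 K] in
theorem algebraMap_OF (a : Q.toValuationSubring) :
    algebraMap Q.toValuationSubring F a = ((a : F') : F) := rfl

theorem towerOF : IsScalarTower K0 Q.toValuationSubring F :=
  IsScalarTower.of_algebraMap_eq (fun _ => rfl)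

attribute [local instance] towerOF

/-- the multiplication map `O ⊗[K0] K2 → F` -/
noncomputable def mulMap (K2 : IntermediateField K0 K) :
    (Q.toValuationSubring ⊗[K0] K2) →ₐ[Q.toValuationSubring] F :=
  Algebra.TensorProduct.lift (Algebra.ofId Q.toValuationSubring F)
    ((IsScalarTower.toAlgHom K0 K F).comp K2.val) (fun _ _ => Commute.all _ _)

theorem mulMap_tmul (K2 : IntermediateField K0 K) (a : Q.toValuationSubring) (b : K2) :
    mulMap F' Q K2 (a ⊗ₜ[K0] b) = ((a : F') : F) * algebraMap K F (b : K) := by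
  rw [mulMap, Algebra.TensorProduct.lift_tmul]
  rfl

/-- the ring `O[K2] ⊆ F` -/
noncomputable def ringS (K2 : IntermediateField K0 K) : Subalgebra Q.toValuationSubring F :=
  (mulMap F' Q K2).range

theorem mem_ringS_iff (K2 : IntermediateField K0 K) {x : F} :
    x ∈ ringS F' Q K2 ↔ ∃ z, mulMap F' Q K2 z = x := Iff.rfl

theorem coe_mem_ringS (K2 : IntermediateField K0 K) (a : Q.toValuationSubring) :
    ((a : F') : F) ∈ ringS F' Q K2 :=
  (ringS F' Q K2).algebraMap_mem a

theorem algebraMap_mem_ringS (K2 : IntermediateField K0 K) {b : K} (hb : b ∈ K2) :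
    algebraMap K F b ∈ ringS F' Q K2 :=
  (mem_ringS_iff F' Q K2).mpr
    ⟨(1 : Q.toValuationSubring) ⊗ₜ[K0] (⟨b, hb⟩ : K2), by rw [mulMap_tmul]; simp⟩

theorem ringS_mono {K2 K3 : IntermediateField K0 K} (h : K2 ≤ K3) :
    ringS F' Q K2 ≤ ringS F' Q K3 := by
  intro x hx
  obtain ⟨z, rfl⟩ := (mem_ringS_iff F' Q _).mp hx
  clear hx
  induction z using TensorProduct.induction_on with
  | zero => rw [map_zero]; exact zero_mem _
  | tmul a b =>
    rw [mulMap_tmul]
    exact mul_mem (coe_mem_ringS F' Q K3 a) (algebraMap_mem_ringS F' Q K3 (h b.2))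
  | add x y ihx ihy => rw [map_add]; exact add_mem ihx ihy

theorem ringS_le (K2 : IntermediateField K0 K) (V : ValuationSubring F)
    (hKV : ∀ a : K, algebraMap K F a ∈ V)
    (hOV : ∀ x : F', x ∈ Q.toValuationSubring → (x : F) ∈ V) {x : F}
    (hx : x ∈ ringS F' Q K2) : x ∈ V := by
  obtain ⟨z, rfl⟩ := (mem_ringS_iff F' Q _).mp hx
  clear hx
  induction z using TensorProduct.induction_on with
  | zero => rw [map_zero]; exact zero_mem _
  | tmul a b =>
    rw [mulMap_tmul]
    exact mul_mem (hOV a a.2) (hKV b)
  | add x y ihx ihy => rw [map_add]; exact add_mem ihx ihy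

variable [CharZero K0]

open IsLocalRing in
set_option maxHeartbeats 400000 in
/-- **Key lemma.** Let `V` be a valuation ring of `F` containing `K` and dominating the DVR
`O = Q.toValuationSubring` of `F'`, and let `ϖ` be a uniformiser of `O`.  Then every nonzero
element of `O[K2]` (`K2 / K0` finite) is a unit of `V` times a power of `ϖ`. -/
theorem key_factor (K2 : IntermediateField K0 K) [FiniteDimensional K0 K2]
    (V : ValuationSubring F)
    (hKV : ∀ a : K, algebraMap K F a ∈ V)
    (hOV : ∀ x : F', x ∈ Q.toValuationSubring → (x : F) ∈ V)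
    (hloc : ∀ x : F', x ∈ Q.toValuationSubring → ((x : F))⁻¹ ∈ V → x⁻¹ ∈ Q.toValuationSubring)
    (ϖ : Q.toValuationSubring) (hϖ : Irreducible ϖ)
    {s : F} (hs : s ∈ ringS F' Q K2) (hs0 : s ≠ 0) :
    ∃ (n : ℕ) (u : F), u ∈ V ∧ u⁻¹ ∈ V ∧ s = u * (((ϖ : F') : F)) ^ n := by
  classical
  have : Algebra.IsAlgebraic K0 K2 := Algebra.IsAlgebraic.of_finite K0 K2
  have : Algebra.FormallyUnramified K0 K2 := Algebra.FormallyUnramified.of_isSeparable K0 K2
  have h1 : Algebra.FormallyUnramified Q.toValuationSubring (Q.toValuationSubring ⊗[K0] K2) :=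
    Algebra.FormallyUnramified.base_change _
  have h2 : Module.Finite Q.toValuationSubring (Q.toValuationSubring ⊗[K0] K2) :=
    Module.Finite.base_change _ _ _
  let f := (mulMap F' Q K2).rangeRestrict
  have hf : Function.Surjective f := AlgHom.rangeRestrict_surjective _
  have hSunr : Algebra.FormallyUnramified Q.toValuationSubring (mulMap F' Q K2).range :=
    @Algebra.FormallyUnramified.of_surjective _ _ _ _ _ _ _ _ h1 f hf
  have hSfin : Module.Finite Q.toValuationSubring (mulMap F' Q K2).range :=
    @Module.Finite.of_surjective _ _ _ _ _ _ _ _ _ _ _ h2 f.toLinearMap hf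
  have hSnoeth : IsNoetherianRing (mulMap F' Q K2).range :=
    IsNoetherianRing.of_finite Q.toValuationSubring _
  -- the inclusion `S → V`
  let ι : (mulMap F' Q K2).range →+* V :=
    ((mulMap F' Q K2).range.val.toRingHom).codRestrict V
      (fun x => ringS_le F' Q K2 V hKV hOV x.2)
  have hι : ∀ x : (mulMap F' Q K2).range, ((ι x : V) : F) = (x : F) := fun _ => rfl
  let 𝔫 : Ideal (mulMap F' Q K2).range := (maximalIdeal V).comap ι
  have : 𝔫.IsPrime := Ideal.comap_isPrime ι _
  have hunit : ∀ y : 𝔫.primeCompl, IsUnit (ι y) := fun y => by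
    have : ι y ∉ maximalIdeal V := y.2
    exact notMem_maximalIdeal.mp this
  let j : Localization.AtPrime 𝔫 →+* V := IsLocalization.lift (M := 𝔫.primeCompl) hunit
  have hj : ∀ x : (mulMap F' Q K2).range, j (algebraMap _ (Localization.AtPrime 𝔫) x) = ι x :=
    fun x => IsLocalization.lift_eq hunit x
  -- local hom
  have hloc' : IsLocalHom (algebraMap Q.toValuationSubring (Localization.AtPrime 𝔫)) := by
    refine ⟨fun a ha => ?_⟩
    have h3 : IsUnit (j (algebraMap Q.toValuationSubring (Localization.AtPrime 𝔫) a)) := ha.map j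
    rw [IsScalarTower.algebraMap_apply Q.toValuationSubring (mulMap F' Q K2).range
      (Localization.AtPrime 𝔫), hj] at h3
    obtain ⟨b, hb⟩ := h3.exists_right_inv
    have hb' : ((a : F') : F) * (b : F) = 1 := congrArg Subtype.val hb
    have ha0 : ((a : F') : F) ≠ 0 := left_ne_zero_of_mul_eq_one hb'
    have hinv : (((a : F') : F))⁻¹ ∈ V := by
      rw [← eq_inv_of_mul_eq_one_right hb']
      exact b.2
    have h4 := hloc a a.2 hinv
    have ha0' : (a : F') ≠ 0 := fun h => ha0 (by rw [h]; rfl)
    exact IsUnit.of_mul_eq_one (⟨(a : F')⁻¹, h4⟩ : Q.toValuationSubring)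
      (Subtype.ext (mul_inv_cancel₀ ha0'))
  have hTunr : Algebra.FormallyUnramified (mulMap F' Q K2).range (Localization.AtPrime 𝔫) :=
    Algebra.FormallyUnramified.of_isLocalization 𝔫.primeCompl
  have hOT : Algebra.FormallyUnramified Q.toValuationSubring (Localization.AtPrime 𝔫) :=
    Algebra.FormallyUnramified.comp Q.toValuationSubring (mulMap F' Q K2).range _
  have hess : Algebra.EssFiniteType Q.toValuationSubring (Localization.AtPrime 𝔫) :=
    inferInstance
  have hjτ : ((j (algebraMap Q.toValuationSubring (Localization.AtPrime 𝔫) ϖ) : V) : F)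
      = ((ϖ : F') : F) := by
    rw [IsScalarTower.algebraMap_apply Q.toValuationSubring (mulMap F' Q K2).range
      (Localization.AtPrime 𝔫), hj]
    rfl
  have hϖ0 : ((ϖ : F') : F) ≠ 0 := by
    have := hϖ.ne_zero
    intro h
    apply this
    ext
    exact_mod_cast h
  have hτ0 : algebraMap Q.toValuationSubring (Localization.AtPrime 𝔫) ϖ ≠ 0 :=
    fun h => hϖ0 (by rw [← hjτ, h, map_zero]; rfl)
  have : IsDomain (Localization.AtPrime 𝔫) :=
    IsLocalization.isDomain_of_le_nonZeroDivisors _ 𝔫.primeCompl_le_nonZeroDivisors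
  have : IsNoetherianRing (Localization.AtPrime 𝔫) :=
    IsLocalization.isNoetherianRing 𝔫.primeCompl _ hSnoeth
  set x : Localization.AtPrime 𝔫 :=
    algebraMap _ _ (⟨s, hs⟩ : (mulMap F' Q K2).range) with hx
  have hjx : ((j x : V) : F) = s := by rw [hx, hj]; rfl
  have hx0 : x ≠ 0 := fun h => hs0 (by rw [← hjx, h, map_zero]; rfl)
  obtain ⟨n, u, hu⟩ := exists_unit_mul_pow_of_formallyUnramified
    (O := Q.toValuationSubring) (T := Localization.AtPrime 𝔫) ϖ hϖ hτ0 hx0
  refine ⟨n, ((j u : V) : F), (j u).2, ?_, ?_⟩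
  · have h5 : j (u : Localization.AtPrime 𝔫) * j ((u⁻¹ : (Localization.AtPrime 𝔫)ˣ) :
        Localization.AtPrime 𝔫) = 1 := by
      rw [← map_mul, Units.mul_inv, map_one]
    have h6 : ((j (u : Localization.AtPrime 𝔫) : V) : F) *
        ((j ((u⁻¹ : (Localization.AtPrime 𝔫)ˣ) : Localization.AtPrime 𝔫) : V) : F) = 1 :=
      congrArg Subtype.val h5
    rw [← eq_inv_of_mul_eq_one_right h6]
    exact (j _).2
  · rw [← hjx, hu, map_mul, map_pow]
    push_cast
    rw [hjτ]

end Key

section Gen
variable (F' : IntermediateField K0 F) (Q : Place K0 F')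
attribute [local instance] algOF
variable [Algebra.IsAlgebraic K0 K]

/-- every element of `F = K · F'` has a nonzero `O`-multiple in `O[K2]` for some finite `K2` -/
theorem exists_mul_mem_ringS
    (hspan : ∀ y : F, y ∈ Submodule.span F' (Set.range (algebraMap K F))) (y : F) :
    ∃ (K2 : IntermediateField K0 K) (_ : FiniteDimensional K0 K2) (b : Q.toValuationSubring),
      b ≠ 0 ∧ ((b : F') : F) * y ∈ ringS F' Q K2 := by
  classical
  induction hspan y using Submodule.span_induction with
  | mem y hy =>
    obtain ⟨κ, rfl⟩ := hy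
    have hκ : IsIntegral K0 κ := Algebra.IsIntegral.isIntegral κ
    refine ⟨K0⟮κ⟯, IntermediateField.adjoin.finiteDimensional hκ, 1, one_ne_zero, ?_⟩
    have h1 : (((1 : Q.toValuationSubring) : F') : F) = 1 := rfl
    rw [h1, one_mul]
    exact algebraMap_mem_ringS F' Q _ (IntermediateField.mem_adjoin_simple_self K0 κ)
  | zero =>
    refine ⟨⊥, inferInstance, 1, one_ne_zero, ?_⟩
    rw [mul_zero]
    exact zero_mem _
  | add y z _ _ ihy ihz =>
    obtain ⟨K2, hK2, b, hb, hby⟩ := ihy
    obtain ⟨K3, hK3, c, hc, hcz⟩ := ihz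
    refine ⟨K2 ⊔ K3, IntermediateField.finiteDimensional_sup K2 K3, b * c, mul_ne_zero hb hc, ?_⟩
    have e : (((b * c : Q.toValuationSubring) : F') : F) * (y + z)
        = ((c : F') : F) * (((b : F') : F) * y) + ((b : F') : F) * (((c : F') : F) * z) := by
      push_cast
      ring
    rw [e]
    exact add_mem
      (mul_mem (coe_mem_ringS F' Q _ c) (ringS_mono F' Q le_sup_left hby))
      (mul_mem (coe_mem_ringS F' Q _ b) (ringS_mono F' Q le_sup_right hcz))
  | smul a y _ ihy =>
    obtain ⟨K2, hK2, b, hb, hby⟩ := ihy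
    -- a denominator for `a`
    obtain ⟨d, hd, hda⟩ : ∃ d : Q.toValuationSubring, d ≠ 0 ∧
        (d : F') * a ∈ Q.toValuationSubring := by
      by_cases ha : a ∈ Q.toValuationSubring
      · exact ⟨1, one_ne_zero, by simpa using ha⟩
      · have ha0 : a ≠ 0 := fun h => ha (h ▸ zero_mem _)
        have hai : a⁻¹ ∈ Q.toValuationSubring :=
          (Q.toValuationSubring.mem_or_inv_mem a).resolve_left ha
        refine ⟨⟨a⁻¹, hai⟩, ?_, ?_⟩
        · intro h
          exact inv_ne_zero ha0 (congrArg Subtype.val h)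
        · rw [inv_mul_cancel₀ ha0]
          exact one_mem _
    refine ⟨K2, hK2, d * b, mul_ne_zero hd hb, ?_⟩
    have e : (((d * b : Q.toValuationSubring) : F') : F) * (a • y)
        = (((⟨(d : F') * a, hda⟩ : Q.toValuationSubring) : F') : F) * (((b : F') : F) * y) := by
      rw [Algebra.smul_def]
      push_cast
      have : algebraMap F' F a = (a : F) := rfl
      rw [this]
      ring
    rw [e]
    exact mul_mem (coe_mem_ringS F' Q _ _) hby

variable [CharZero K0]

/-- **Constant field extensions are unramified.**  If `P` is a place of `F = K · F'` and `Q` is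
a place of `F'` with `O_Q = O_P ∩ F'`, then a uniformiser of `Q` is a uniformiser of `P`. -/
theorem ord_irreducible_eq_one
    (hspan : ∀ y : F, y ∈ Submodule.span F' (Set.range (algebraMap K F)))
    (P : Place K F)
    (hQ : ∀ x : F', x ∈ Q.toValuationSubring ↔ (x : F) ∈ P.toValuationSubring)
    (ϖ : Q.toValuationSubring) (hϖ : Irreducible ϖ) : P.ord ((ϖ : F') : F) = 1 := by
  classical
  have hKV : ∀ a : K, algebraMap K F a ∈ P.toValuationSubring := P.algebraMap_mem'
  have hOV : ∀ x : F', x ∈ Q.toValuationSubring → (x : F) ∈ P.toValuationSubring :=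
    fun x hx => (hQ x).mp hx
  have hloc : ∀ x : F', x ∈ Q.toValuationSubring → ((x : F))⁻¹ ∈ P.toValuationSubring →
      x⁻¹ ∈ Q.toValuationSubring := by
    intro x _ hx
    rw [hQ]
    have : ((x⁻¹ : F') : F) = ((x : F))⁻¹ := rfl
    rw [this]
    exact hx
  -- units of `V` have order zero
  have hunit : ∀ u : F, u ∈ P.toValuationSubring → u⁻¹ ∈ P.toValuationSubring → P.ord u = 0 := by
    intro u hu hu'
    have h1 := ord_nonneg_of_mem P hu
    have h2 := ord_nonneg_of_mem P hu'
    rw [P.ord_inv] at h2
    omega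
  have hϖ0' : (ϖ : F') ≠ 0 := fun h => hϖ.ne_zero (Subtype.ext h)
  have hϖ0 : ((ϖ : F') : F) ≠ 0 := fun h => hϖ0' (Subtype.ext h)
  have he0 : 0 ≤ P.ord ((ϖ : F') : F) := ord_nonneg_of_mem P (hOV _ ϖ.2)
  obtain ⟨π, hπ⟩ := exists_ord_eq_one P
  have hπ0 : π ≠ 0 := by
    rintro rfl
    simp at hπ
  obtain ⟨K2, hK2, b, hb, hbπ⟩ := exists_mul_mem_ringS F' Q hspan π
  have hb0' : (b : F') ≠ 0 := fun h => hb (Subtype.ext h)
  have hb0 : ((b : F') : F) ≠ 0 := fun h => hb0' (Subtype.ext h)
  have hs0 : ((b : F') : F) * π ≠ 0 := mul_ne_zero hb0 hπ0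
  obtain ⟨n, u, hu, hu', hsu⟩ := key_factor F' Q K2 P.toValuationSubring hKV hOV hloc ϖ hϖ hbπ hs0
  have hu0 : u ≠ 0 := by
    rintro rfl
    rw [zero_mul] at hsu
    exact hs0 hsu
  -- the order of `b`
  obtain ⟨k, ε, hε⟩ := IsDiscreteValuationRing.eq_unit_mul_pow_irreducible hb hϖ
  have hε1 : (((ε : Q.toValuationSubring) : F') : F) ∈ P.toValuationSubring := hOV _ (ε : Q.toValuationSubring).2
  have hε2 : ((((ε : Q.toValuationSubring) : F') : F))⁻¹ ∈ P.toValuationSubring := by
    have h1 : ((((ε⁻¹ : (Q.toValuationSubring)ˣ) : Q.toValuationSubring) : F') : F)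
        = ((((ε : Q.toValuationSubring) : F') : F))⁻¹ := by
      have h2 : (ε : Q.toValuationSubring) * ((ε⁻¹ : (Q.toValuationSubring)ˣ) : Q.toValuationSubring) = 1 :=
        Units.mul_inv ε
      have h3 : (((ε : Q.toValuationSubring) : F') : F) *
          ((((ε⁻¹ : (Q.toValuationSubring)ˣ) : Q.toValuationSubring) : F') : F) = 1 := by
        exact congrArg (fun z : Q.toValuationSubring => ((z : F') : F)) h2
      exact eq_inv_of_mul_eq_one_right h3
    rw [← h1]
    exact hOV _ ((ε⁻¹ : (Q.toValuationSubring)ˣ) : Q.toValuationSubring).2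
  have hε0 : (((ε : Q.toValuationSubring) : F') : F) ≠ 0 := by
    intro h
    rw [h, inv_zero] at hε2
    have := ε.ne_zero
    apply this
    ext
    exact_mod_cast h
  have hbF : ((b : F') : F) = (((ε : Q.toValuationSubring) : F') : F) * ((ϖ : F') : F) ^ k := by
    exact congrArg (fun z : Q.toValuationSubring => ((z : F') : F)) hε
  have hordb : P.ord ((b : F') : F) = k * P.ord ((ϖ : F') : F) := by
    rw [hbF, P.ord_mul hε0 (pow_ne_zero _ hϖ0), hunit _ hε1 hε2, ord_pow, zero_add]
  have hords : P.ord (((b : F') : F) * π) = n * P.ord ((ϖ : F') : F) := by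
    rw [hsu, P.ord_mul hu0 (pow_ne_zero _ hϖ0), hunit _ hu hu', ord_pow, zero_add]
  rw [P.ord_mul hb0 hπ0, hπ, hordb] at hords
  have hdvd : P.ord ((ϖ : F') : F) ∣ 1 := ⟨(n : ℤ) - k, by linarith⟩
  exact Int.eq_one_of_dvd_one he0 hdvd

end Gen

section Model

variable {K0 K F0 F : Type*} [Field K0] [Field K] [Field F0] [Field F]
  [Algebra K0 K] [Algebra K F] [Algebra K0 F0] [Algebra F0 F] [Algebra K0 F]
  [IsScalarTower K0 K F] [IsScalarTower K0 F0 F]

omit [IsScalarTower K0 K F] in
/-- the two ways of saying `F = K · F0` agree (this direction: generated over `F0` by `K`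
implies generated over `K` by `F0`) -/
theorem adjoin_range_eq_top_of_adjoin_eq_top
    (h : IntermediateField.adjoin F0 (Set.range (algebraMap K F)) = ⊤) :
    IntermediateField.adjoin K (Set.range (algebraMap F0 F)) = ⊤ := by
  set E : IntermediateField K F := IntermediateField.adjoin K (Set.range (algebraMap F0 F))
    with hE
  let E' : IntermediateField F0 F :=
    { E.toSubfield with
      algebraMap_mem' := fun a =>
        IntermediateField.subset_adjoin K _ (Set.mem_range_self a) }
  have hle : IntermediateField.adjoin F0 (Set.range (algebraMap K F)) ≤ E' := by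
    rw [IntermediateField.adjoin_le_iff]
    rintro x ⟨a, rfl⟩
    exact E.algebraMap_mem a
  refine eq_top_iff.mpr fun y _ => ?_
  have hy : y ∈ E' := hle (h ▸ IntermediateField.mem_top)
  exact hy

variable (K0 F0 F) in
/-- the image of the model `F0` in `F`, as an intermediate field of `F / K0` -/
noncomputable def modelRange : IntermediateField K0 F :=
  (IsScalarTower.toAlgHom K0 F0 F).fieldRange

omit [IsScalarTower K0 K F] in
theorem coe_modelRange :
    (modelRange K0 F0 F : Set F) = Set.range (algebraMap F0 F) := by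
  rw [modelRange, AlgHom.coe_fieldRange]
  rfl

variable [Algebra.IsAlgebraic K0 K]

/-- `F = K · F0` is spanned over (the image of) `F0` by the image of `K` -/
theorem mem_span_modelRange
    (hgen : IntermediateField.adjoin K (Set.range (algebraMap F0 F)) = ⊤) (y : F) :
    y ∈ Submodule.span (modelRange K0 F0 F) (Set.range (algebraMap K F)) :=
  mem_span_range (modelRange K0 F0 F) (by rw [coe_modelRange]; exact hgen) y

/-- `F = K · F0` is algebraic over the image of `F0` -/
theorem isAlgebraic_modelRange
    (hgen : IntermediateField.adjoin K (Set.range (algebraMap F0 F)) = ⊤) :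
    Algebra.IsAlgebraic (modelRange K0 F0 F) F := by
  refine ⟨fun y => IsIntegral.isAlgebraic ?_⟩
  induction mem_span_modelRange (K0 := K0) hgen y using Submodule.span_induction with
  | mem y hy =>
    obtain ⟨κ, rfl⟩ := hy
    exact isIntegral_algebraMap_K _ κ
  | zero => exact isIntegral_zero
  | add y z _ _ ihy ihz => exact ihy.add ihz
  | smul a y _ ihy => exact ihy.smul a

end Model

section Consumers

/-- a field generated over `K` by a set `S` is generated over `K` by the image of any model
whose image contains `S` (convenience form of the hypothesis `hgen` below) -/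
theorem adjoin_range_eq_top_of_forall_exists {K L F0 : Type*} [Field K] [Field L] [Algebra K L]
    [Field F0] (S : Set L) [Algebra F0 (IntermediateField.adjoin K S)]
    (hS : ∀ s ∈ S, ∃ t : F0,
      ((algebraMap F0 (IntermediateField.adjoin K S) t : IntermediateField.adjoin K S) : L) = s) :
    IntermediateField.adjoin K (Set.range (algebraMap F0 (IntermediateField.adjoin K S))) = ⊤ := by
  have h1 : S ⊆ ((IntermediateField.adjoin K
      (Set.range (algebraMap F0 (IntermediateField.adjoin K S)))).map
        (IntermediateField.adjoin K S).val : Set L) := by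
    intro s hs
    obtain ⟨t, ht⟩ := hS s hs
    exact ⟨algebraMap F0 _ t, IntermediateField.subset_adjoin K _ ⟨t, rfl⟩, ht⟩
  have h2 := IntermediateField.adjoin_le_iff.mpr h1
  refine eq_top_iff.mpr fun y _ => ?_
  obtain ⟨z, hz, hzy⟩ := h2 y.2
  have : z = y := Subtype.ext hzy
  exact this ▸ hz

/-- `F = K · F0` is algebraic over `F0` -/
theorem isAlgebraic_of_adjoin_eq_top (K0 : Type*) {K F0 F : Type*} [Field K0] [Field K] [Field F0]
    [Field F] [Algebra K0 K] [Algebra K F] [Algebra K0 F0] [Algebra F0 F] [Algebra K0 F]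
    [IsScalarTower K0 K F] [IsScalarTower K0 F0 F] [Algebra.IsAlgebraic K0 K]
    (hgen : IntermediateField.adjoin K (Set.range (algebraMap F0 F)) = ⊤) :
    Algebra.IsAlgebraic F0 F := by
  have h := isAlgebraic_modelRange (K0 := K0) hgen
  refine ⟨fun y => IsIntegral.isAlgebraic ?_⟩
  obtain ⟨p, hp, hpy⟩ := (h.isAlgebraic y).isIntegral
  let e : F0 ≃+* modelRange K0 F0 F :=
    (AlgEquiv.ofInjectiveField (IsScalarTower.toAlgHom K0 F0 F)).toRingEquiv
  have he : ∀ x, algebraMap F0 F (e.symm x) = (x : F) := by
    intro x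
    obtain ⟨t, rfl⟩ := e.surjective x
    rw [RingEquiv.symm_apply_apply]
    rfl
  refine ⟨p.map (e.symm : modelRange K0 F0 F →+* F0), hp.map _, ?_⟩
  rw [Polynomial.eval₂_map]
  have hcomp : (algebraMap F0 F).comp (e.symm : modelRange K0 F0 F →+* F0)
      = algebraMap (modelRange K0 F0 F) F := RingHom.ext he
  rw [hcomp]
  exact hpy

/-- **(E1) Constant field extensions are unramified**: every place of `F = K · F0` has a
uniformiser coming from the model `F0`. -/
theorem exists_ord_algebraMap_eq_one (K0 : Type*) {K F0 F : Type*} [Field K0] [Field K] [Field F0]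
    [Field F] [Algebra K0 K] [Algebra K F] [Algebra K0 F0] [Algebra F0 F] [Algebra K0 F]
    [IsScalarTower K0 K F] [IsScalarTower K0 F0 F] [Algebra.IsAlgebraic K0 K] [CharZero K0]
    (hgen : IntermediateField.adjoin K (Set.range (algebraMap F0 F)) = ⊤) (P : Place K F) :
    ∃ t : F0, P.ord (algebraMap F0 F t) = 1 := by
  have hspan := mem_span_modelRange (K0 := K0) hgen
  have := isAlgebraic_modelRange (K0 := K0) hgen
  have hne := H74.exists_not_mem_of_isAlgebraic (F0 := modelRange K0 F0 F) P
  set Q : Place K0 (modelRange K0 F0 F) := H74.restrictPlace (K0 := K0) P hne with hQdef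
  have hQ : ∀ x : modelRange K0 F0 F,
      x ∈ Q.toValuationSubring ↔ (x : F) ∈ P.toValuationSubring := fun x => Iff.rfl
  obtain ⟨ϖ, hϖ⟩ := IsDiscreteValuationRing.exists_irreducible Q.toValuationSubring
  have h1 := ord_irreducible_eq_one (modelRange K0 F0 F) Q hspan P hQ ϖ hϖ
  obtain ⟨t, ht⟩ : ∃ t : F0, algebraMap F0 F t = ((ϖ : modelRange K0 F0 F) : F) :=
    (ϖ : modelRange K0 F0 F).2
  exact ⟨t, by rw [ht]; exact h1⟩

/-- the restriction of a place of `F = K · F0` to `F0` is never trivial -/
theorem exists_not_mem (K0 : Type*) {K F0 F : Type*} [Field K0] [Field K] [Field F0]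
    [Field F] [Algebra K0 K] [Algebra K F] [Algebra K0 F0] [Algebra F0 F] [Algebra K0 F]
    [IsScalarTower K0 K F] [IsScalarTower K0 F0 F] [Algebra.IsAlgebraic K0 K] [CharZero K0]
    (hgen : IntermediateField.adjoin K (Set.range (algebraMap F0 F)) = ⊤) (P : Place K F) :
    ∃ y : F0, algebraMap F0 F y ∉ P.toValuationSubring := by
  obtain ⟨t, ht⟩ := exists_ord_algebraMap_eq_one K0 hgen P
  refine ⟨t⁻¹, fun h => ?_⟩
  have h1 := ord_nonneg_of_mem P h
  rw [map_inv₀, P.ord_inv, ht] at h1
  omega

variable {K0 K F0 F : Type*} [Field K0] [Field K] [Field F0] [Field F]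
  [Algebra K0 K] [Algebra K F] [Algebra K0 F0] [Algebra F0 F] [Algebra K0 F]
  [IsScalarTower K0 K F] [IsScalarTower K0 F0 F] [Algebra.IsAlgebraic K0 K] [CharZero K0]

/-- **(E2)** same order: restriction to the model does not change orders (`e = 1`). -/
theorem ord_algebraMap_eq_ord_restrictPlace
    (hgen : IntermediateField.adjoin K (Set.range (algebraMap F0 F)) = ⊤) (P : Place K F)
    (hne : ∃ y : F0, algebraMap F0 F y ∉ P.toValuationSubring) (y : F0) :
    P.ord (algebraMap F0 F y) = (H74.restrictPlace (K0 := K0) P hne).ord y :=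
  H74.ord_algebraMap_eq_of_exists (K0 := K0) P hne (exists_ord_algebraMap_eq_one K0 hgen P) y

/-- **(E4)** divisibility of all orders descends from `F = K · F0` to the model `F0 / K0`
(`hDVR`: the nontrivial valuation rings of `F / K` are discrete - true for function fields of
one variable, see `PlaceExist_helper60`). -/
theorem dvd_ord_of_forall_place
    (hgen : IntermediateField.adjoin K (Set.range (algebraMap F0 F)) = ⊤)
    (hDVR : ∀ V : ValuationSubring F, (∀ a : K, algebraMap K F a ∈ V) → V ≠ ⊤ →
      IsPrincipalIdealRing V)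
    (m : ℤ) (u : F0) (hP : ∀ P : Place K F, m ∣ P.ord (algebraMap F0 F u))
    (O : Place K0 F0) : m ∣ O.ord u :=
  H74.dvd_ord_of_forall_place (K0 := K0) (K := K) (F := F) hDVR m u hP
    (fun P _ => exists_ord_algebraMap_eq_one K0 hgen P) O

/-- every place of the model is the restriction of a place of `F = K · F0`, with the same
orders -/
theorem exists_place_ord_eq
    (hgen : IntermediateField.adjoin K (Set.range (algebraMap F0 F)) = ⊤)
    (hDVR : ∀ V : ValuationSubring F, (∀ a : K, algebraMap K F a ∈ V) → V ≠ ⊤ →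
      IsPrincipalIdealRing V)
    (O : Place K0 F0) :
    ∃ P : Place K F, (∀ y : F0, y ∈ O.toValuationSubring ↔
        algebraMap F0 F y ∈ P.toValuationSubring) ∧
      ∀ y : F0, P.ord (algebraMap F0 F y) = O.ord y := by
  obtain ⟨P, hne, rfl⟩ := H74.exists_place_restrict_eq (K0 := K0) (K := K) (F := F) hDVR O
  exact ⟨P, fun y => Iff.rfl, fun y => ord_algebraMap_eq_ord_restrictPlace hgen P hne y⟩

/-- **(DIV), `ZVal` form**: divisibility of all orders at the places of `F = K · F0` implies
divisibility for every `ℤ`-valued valuation of the model `F0` which is trivial on `K0`. -/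
theorem dvd_zval_ord_of_forall_place
    (hgen : IntermediateField.adjoin K (Set.range (algebraMap F0 F)) = ⊤)
    (hDVR : ∀ V : ValuationSubring F, (∀ a : K, algebraMap K F a ∈ V) → V ≠ ⊤ →
      IsPrincipalIdealRing V)
    (m : ℤ) (u : F0) (hu : u ≠ 0) (hP : ∀ P : Place K F, m ∣ P.ord (algebraMap F0 F u))
    (w : ZVal F0) (hw : ∀ c : K0, c ≠ 0 → w.ord (algebraMap K0 F0 c) = 0) :
    m ∣ w.ord u := by
  by_cases hnt : ∃ f : F0, f ≠ 0 ∧ w.ord f ≠ 0
  · obtain ⟨m', -, h⟩ := placeOfZVal_ord w hw hnt
    rw [h u hu]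
    exact Dvd.dvd.mul_left (dvd_ord_of_forall_place hgen hDVR m u hP _) m'
  · push Not at hnt
    rw [hnt u hu]
    exact dvd_zero m

/-- **(DIV), `ZVal` form over a base ring `A` with fraction field `K0`** (the literal shape of
the hypothesis `(DIV)` of the Kummer core). -/
theorem dvd_zval_ord_of_forall_place' {A : Type*} [CommRing A] [IsDomain A] [Algebra A K0]
    [IsFractionRing A K0] [Algebra A F0] [IsScalarTower A K0 F0]
    (hgen : IntermediateField.adjoin K (Set.range (algebraMap F0 F)) = ⊤)
    (hDVR : ∀ V : ValuationSubring F, (∀ a : K, algebraMap K F a ∈ V) → V ≠ ⊤ →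
      IsPrincipalIdealRing V)
    (m : ℤ) (u : F0) (hu : u ≠ 0) (hP : ∀ P : Place K F, m ∣ P.ord (algebraMap F0 F u))
    (w : ZVal F0) (hw : ∀ a : A, a ≠ 0 → w.ord (algebraMap A F0 a) = 0) :
    m ∣ w.ord u := by
  refine dvd_zval_ord_of_forall_place (K0 := K0) hgen hDVR m u hu hP w fun c hc => ?_
  obtain ⟨a, b, hb, rfl⟩ := IsFractionRing.div_surjective (A := A) c
  have hb0 : b ≠ 0 := nonZeroDivisors.ne_zero hb
  have ha0 : a ≠ 0 := by
    rintro rfl
    simp at hc
  have hinj : Function.Injective (algebraMap A F0) := by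
    rw [IsScalarTower.algebraMap_eq A K0 F0]
    exact (algebraMap K0 F0).injective.comp (IsFractionRing.injective A K0)
  have ha' : algebraMap A F0 a ≠ 0 := (map_ne_zero_iff _ hinj).mpr ha0
  have hb' : algebraMap A F0 b ≠ 0 := (map_ne_zero_iff _ hinj).mpr hb0
  rw [map_div₀, ← IsScalarTower.algebraMap_apply, ← IsScalarTower.algebraMap_apply,
    w.ord_div ha' hb', hw a ha0, hw b hb0, sub_zero]

end Consumers

end Fermat.Agent.S18.H39
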