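import Mathlib
import Fermat.Agent.S18.ConstExt_helper39
import Fermat.Agent.S18.PlaceModel_helper74

/-!
# S18, node CONSTEXT (helper39), model form

Instantiation of `ConstExt_helper39` for the `K0`-model `modularFunctionFieldFullC K0 L` of the
frozen field `modularFunctionFieldBar L` (comparison map `H74.toBar`, `K0` any subfield of
`Qbar`, e.g. a number field): the places of `Fbar_L` are unramified over the model, so the
hypothesis `ht` ("a uniformiser comes from the model") of `H74.dvd_ord_model` and
`H74.dvd_zval_ord_model` holds unconditionally.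
-/

set_option autoImplicit false

noncomputable section

namespace Fermat.Agent.S18.H39

open ModularCurve AlgebraicCurve Fermat.Agent.S24 Fermat.Agent.S24.H98 IntermediateField
  Fermat.Agent.S18.H74

/-- a field `E = K(S)` is generated over `K` by the image of any model whose image
contains `S` -/
theorem adjoin_range_eq_top_of_eq_adjoin {K L F0 : Type*} [Field K] [Field L] [Algebra K L]
    [Field F0] (E : IntermediateField K L) [Algebra F0 E] (S : Set L)
    (hE : E = IntermediateField.adjoin K S)
    (hS : ∀ s ∈ S, ∃ t : F0, ((algebraMap F0 E t : E) : L) = s) :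
    IntermediateField.adjoin K (Set.range (algebraMap F0 E)) = ⊤ := by
  have h1 : S ⊆ ((IntermediateField.adjoin K (Set.range (algebraMap F0 E))).map E.val :
      Set L) := by
    intro s hs
    obtain ⟨t, ht⟩ := hS s hs
    exact ⟨algebraMap F0 E t, IntermediateField.subset_adjoin K _ ⟨t, rfl⟩, ht⟩
  have h2 : E ≤ (IntermediateField.adjoin K (Set.range (algebraMap F0 E))).map E.val := by
    conv_lhs => rw [hE]
    exact IntermediateField.adjoin_le_iff.mpr h1
  refine eq_top_iff.mpr fun y _ => ?_
  obtain ⟨z, hz, hzy⟩ := h2 y.2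
  have : z = y := Subtype.ext hzy
  exact this ▸ hz

section Model

variable (K0 : Type*) [Field K0] [Algebra K0 Kbar] (L : ℕ) [NeZero L]

attribute [local instance] H74.algModel H74.algK0Bar H74.isScalarTower_K0_bar
  H74.isScalarTower_model

/-- `Fbar_L = Qbar · (K0-model)` -/
theorem adjoin_range_toBar_eq_top :
    IntermediateField.adjoin Kbar (Set.range (algebraMap ↥(modularFunctionFieldFullC K0 L)
      ↥(modularFunctionFieldBar L))) = ⊤ := by
  refine adjoin_range_eq_top_of_eq_adjoin (modularFunctionFieldBar L)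
    (Set.range (H20.Jd L Kbar)) (H20.modularFunctionFieldBar_eq_adjoin L) ?_
  rintro _ ⟨⟨d, hd⟩, rfl⟩
  have : NeZero d := H20.neZero_of_dvd hd
  refine ⟨⟨qExpand K0 d (jqModC K0), jqModCd_mem_full K0 L hd⟩, ?_⟩
  show ((toBar K0 L ⟨qExpand K0 d (jqModC K0), jqModCd_mem_full K0 L hd⟩ :
    ↥(modularFunctionFieldBar L)) : LaurentSeries Kbar) = _
  rw [toBar_gen K0 L hd, H20.Jd_eq, coeffEmb, coeffMap_qExpand, H20.coeffMap_jq]

omit [NeZero L] in
/-- a subfield of `Qbar` has characteristic zero -/
theorem charZero_K0 : CharZero K0 :=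
  (algebraMap K0 Kbar).charZero

variable [Algebra.IsAlgebraic K0 Kbar]

/-- **constant field extensions are unramified, model form**: every place of `Fbar_L` has a
uniformiser in the `K0`-model. -/
theorem exists_ord_toBar_eq_one (P : Place Kbar ↥(modularFunctionFieldBar L)) :
    ∃ t : ↥(modularFunctionFieldFullC K0 L), P.ord (toBar K0 L t) = 1 :=
  haveI := charZero_K0 K0
  exists_ord_algebraMap_eq_one K0 (adjoin_range_toBar_eq_top K0 L) P

/-- restriction to the `K0`-model does not change orders -/
theorem ord_toBar_eq_ord_restrictModel (P : Place Kbar ↥(modularFunctionFieldBar L))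
    (y : ↥(modularFunctionFieldFullC K0 L)) :
    P.ord (toBar K0 L y) = (restrictModel K0 L P).ord y :=
  ord_toBar_eq_of_exists K0 L P (exists_ord_toBar_eq_one K0 L P) y

/-- every place of the `K0`-model is the restriction of a place of `Fbar_L`, with the same
orders -/
theorem exists_place_ord_toBar_eq (O : Place K0 ↥(modularFunctionFieldFullC K0 L)) :
    ∃ P : Place Kbar ↥(modularFunctionFieldBar L),
      (∀ y : ↥(modularFunctionFieldFullC K0 L), y ∈ O.toValuationSubring ↔
        toBar K0 L y ∈ P.toValuationSubring) ∧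
      ∀ y : ↥(modularFunctionFieldFullC K0 L), P.ord (toBar K0 L y) = O.ord y := by
  obtain ⟨P, rfl⟩ := exists_restrictModel_eq K0 L O
  exact ⟨P, fun y => Iff.rfl, fun y => ord_toBar_eq_ord_restrictModel K0 L P y⟩

/-- **(DIV), Place form, unconditional.** -/
theorem dvd_ord_model_unram (m : ℤ) (u : ↥(modularFunctionFieldFullC K0 L))
    (hP : ∀ P : Place Kbar ↥(modularFunctionFieldBar L), m ∣ P.ord (toBar K0 L u))
    (O : Place K0 ↥(modularFunctionFieldFullC K0 L)) : m ∣ O.ord u :=
  H74.dvd_ord_model K0 L m u hP (fun P _ => exists_ord_toBar_eq_one K0 L P) O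

/-- **(DIV), `ZVal` form, unconditional.** -/
theorem dvd_zval_ord_model_unram (m : ℤ) (u : ↥(modularFunctionFieldFullC K0 L)) (hu : u ≠ 0)
    (hP : ∀ P : Place Kbar ↥(modularFunctionFieldBar L), m ∣ P.ord (toBar K0 L u))
    (w : H31.ZVal ↥(modularFunctionFieldFullC K0 L))
    (hw : ∀ c : K0, c ≠ 0 → w.ord (algebraMap K0 ↥(modularFunctionFieldFullC K0 L) c) = 0) :
    m ∣ w.ord u :=
  H74.dvd_zval_ord_model K0 L m u hu hP (fun P _ => exists_ord_toBar_eq_one K0 L P) w hw

/-- **(DIV), `ZVal` form over a base ring `A` with fraction field `K0`, unconditional** (the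
literal shape of the hypothesis `(DIV)` of the generic Kummer core, e.g. for
`A = A0 = A ∩ K0`). -/
theorem dvd_zval_ord_model_unram' {A : Type*} [CommRing A] [IsDomain A] [Algebra A K0]
    [IsFractionRing A K0] [Algebra A ↥(modularFunctionFieldFullC K0 L)]
    [IsScalarTower A K0 ↥(modularFunctionFieldFullC K0 L)]
    (m : ℤ) (u : ↥(modularFunctionFieldFullC K0 L)) (hu : u ≠ 0)
    (hP : ∀ P : Place Kbar ↥(modularFunctionFieldBar L), m ∣ P.ord (toBar K0 L u))
    (w : H31.ZVal ↥(modularFunctionFieldFullC K0 L))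
    (hw : ∀ a : A, a ≠ 0 →
      w.ord (algebraMap A ↥(modularFunctionFieldFullC K0 L) a) = 0) :
    m ∣ w.ord u :=
  haveI := charZero_K0 K0
  dvd_zval_ord_of_forall_place' (K0 := K0) (adjoin_range_toBar_eq_top K0 L) (hDVR_bar L) m u hu
    hP w hw

end Model

end Fermat.Agent.S18.H39
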