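import Mathlib
import Fermat.Prelude.Def_FLTPrelim_Ramification
import Fermat.Prelude.Def_GaloisRep_Flat

/-!
# S18 base-ring pack (helper86)

Facts about a valuation subring `A` of `AlgebraicClosure ℚ` lying over a prime `ℓ`
(the frozen base ring of S18), and two abstract lemmas on finite modules over valuation rings.

* `isAlgClosed_residueField` : the residue field of any valuation subring of an algebraically
  closed field is algebraically closed.
* `charP_residueField` : if `A.LiesOverPrime ℓ` then the residue field has characteristic `ℓ`.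
* `isUnit_natCast`, `ratCast_mem`, `ratLocalizedAt_le` : integers prime to `ℓ` are units of `A`;
  `ℤ_(ℓ) ⊆ A`.
* `exists_dvd_natCast_pow` : (rank one) every nonzero `b ∈ A` divides a power of `ℓ` in `A`.
* `free_of_torsion_eq_bot` : finite torsion-free modules over a valuation domain are free.
* `exists_pow_smul_eq_zero` : bounded torsion of a finite module over a valuation domain.
* `eq_zero_of_forall_pow_smul` : an element of a finite module which is `a^n`-divisible inside
  the `a^(n+1)`-torsion for all `n` is zero.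
-/

set_option autoImplicit false

namespace Fermat.Agent.S18.H86

open Polynomial

section ResidueField

variable {L : Type*} [Field L]

/-- The residue field of a valuation subring of an algebraically closed field is algebraically
closed. -/
theorem isAlgClosed_residueField [IsAlgClosed L] (A : ValuationSubring L) :
    IsAlgClosed (IsLocalRing.ResidueField A) := by
  refine IsAlgClosed.of_exists_root _ fun p hp hirr => ?_
  obtain ⟨P, hPmap, hPdeg, hPmonic⟩ :=
    Polynomial.lifts_and_natDegree_eq_and_monic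
      (Polynomial.mem_lifts_of_surjective (f := IsLocalRing.residue A)
        IsLocalRing.residue_surjective p) hp
  have hdeg : (P.map (algebraMap A L)).degree ≠ 0 := by
    rw [Polynomial.degree_map_eq_of_injective (IsFractionRing.injective A L)]
    have h1 : p.natDegree ≠ 0 := fun h => by
      have := Polynomial.natDegree_pos_iff_degree_pos.mpr (Polynomial.degree_pos_of_irreducible hirr)
      omega
    rw [Polynomial.degree_eq_natDegree hPmonic.ne_zero, hPdeg]
    exact_mod_cast h1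
  obtain ⟨x, hx⟩ := IsAlgClosed.exists_root (P.map (algebraMap A L)) hdeg
  have hint : IsIntegral A x := ⟨P, hPmonic, by
    rw [Polynomial.IsRoot.def, Polynomial.eval_map] at hx; exact hx⟩
  obtain ⟨y, rfl⟩ := IsIntegrallyClosed.isIntegral_iff.mp hint
  refine ⟨IsLocalRing.residue A y, ?_⟩
  have hy : P.eval y = 0 := by
    rw [Polynomial.IsRoot.def, Polynomial.eval_map, Polynomial.eval₂_at_apply] at hx
    exact (IsFractionRing.injective A L) (by rw [hx, map_zero])
  rw [← hPmap, Polynomial.eval_map, Polynomial.eval₂_at_apply, hy, map_zero]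

end ResidueField

section LiesOver

variable {L : Type*} [Field L] (A : ValuationSubring L) {ℓ : ℕ}

/-- If `A` lies over `ℓ`, then `ℓ` lies in the maximal ideal of `A`. -/
theorem natCast_mem_maximalIdeal (hA : A.LiesOverPrime ℓ) :
    ((ℓ : ℕ) : A) ∈ IsLocalRing.maximalIdeal A := by
  obtain ⟨ha, hmem⟩ := (ValuationSubring.mem_nonunits_iff_exists_mem_maximalIdeal).mp hA
  have : (⟨(ℓ : L), ha⟩ : A) = ((ℓ : ℕ) : A) := Subtype.ext (by simp)
  rwa [this] at hmem

/-- The residue field of a valuation subring lying over a prime `ℓ` has characteristic `ℓ`. -/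
theorem charP_residueField (hA : A.LiesOverPrime ℓ) (hℓ : ℓ.Prime) :
    CharP (IsLocalRing.ResidueField A) ℓ := by
  rw [CharP.charP_iff_prime_eq_zero hℓ]
  have h := (IsLocalRing.residue_eq_zero_iff (R := A) _).mpr (natCast_mem_maximalIdeal A hA)
  rwa [map_natCast] at h

/-- The image of `ℓ` in the residue field is zero. -/
theorem residue_natCast_eq_zero (hA : A.LiesOverPrime ℓ) :
    IsLocalRing.residue A ((ℓ : ℕ) : A) = 0 :=
  (IsLocalRing.residue_eq_zero_iff (R := A) _).mpr (natCast_mem_maximalIdeal A hA)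

/-- Natural numbers prime to `ℓ` are units of a valuation subring lying over `ℓ`. -/
theorem isUnit_natCast (hA : A.LiesOverPrime ℓ) (hℓ : ℓ.Prime) {n : ℕ} (hn : ¬ ℓ ∣ n) :
    IsUnit ((n : ℕ) : A) := by
  by_contra hnu
  have hmem : ((n : ℕ) : A) ∈ IsLocalRing.maximalIdeal A := (IsLocalRing.mem_maximalIdeal _).mpr hnu
  have hcop : IsCoprime (ℓ : ℤ) (n : ℤ) :=
    Nat.isCoprime_iff_coprime.mpr ((Nat.Prime.coprime_iff_not_dvd hℓ).mpr hn)
  obtain ⟨a, b, hab⟩ := hcop
  have h1 : ((a : ℤ) : A) * ((ℓ : ℕ) : A) + ((b : ℤ) : A) * ((n : ℕ) : A) = 1 := by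
    have := congrArg (fun z : ℤ => (z : A)) hab
    simpa using this
  have h2 : (1 : A) ∈ IsLocalRing.maximalIdeal A := by
    rw [← h1]
    exact Ideal.add_mem _ (Ideal.mul_mem_left _ _ (natCast_mem_maximalIdeal A hA))
      (Ideal.mul_mem_left _ _ hmem)
  exact (Ideal.ne_top_iff_one _).mp (IsLocalRing.maximalIdeal.isMaximal A).ne_top h2

/-- Integers prime to `ℓ` are units of a valuation subring lying over `ℓ`. -/
theorem isUnit_intCast (hA : A.LiesOverPrime ℓ) (hℓ : ℓ.Prime) {n : ℤ} (hn : ¬ (ℓ : ℤ) ∣ n) :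
    IsUnit ((n : ℤ) : A) := by
  have h1 : ¬ ℓ ∣ n.natAbs := fun h => hn (Int.natCast_dvd.mpr h)
  have h2 := isUnit_natCast A hA hℓ h1
  rcases Int.natAbs_eq n with h | h
  · rw [h]; simpa using h2
  · rw [h]; simpa using h2.neg

/-- Rational numbers with denominator prime to `ℓ` lie in `A`. -/
theorem ratCast_mem (hA : A.LiesOverPrime ℓ) (hℓ : ℓ.Prime) {q : ℚ} (hq : q.den.Coprime ℓ) :
    ((q : ℚ) : L) ∈ A := by
  have hn : ¬ ℓ ∣ q.den := fun h => by
    have := Nat.Coprime.eq_one_of_dvd hq.symm h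
    exact hℓ.one_lt.ne' this
  obtain ⟨u, hu⟩ := isUnit_natCast A hA hℓ hn
  have h1 : ((u⁻¹ : Aˣ) : L) = ((q.den : ℕ) : L)⁻¹ := by
    have h2 : ((u : A) : L) = ((q.den : ℕ) : L) := by rw [hu]; simp
    have h3 : ((u : A) : L) * (((u⁻¹ : Aˣ) : A) : L) = 1 := by
      rw [← MulMemClass.coe_mul, Units.mul_inv]; rfl
    rw [h2] at h3
    exact eq_inv_of_mul_eq_one_right h3
  have h4 : ((q : ℚ) : L) = ((q.num : ℤ) : L) * ((q.den : ℕ) : L)⁻¹ := by
    rw [Rat.cast_def, div_eq_mul_inv]
  rw [h4, ← h1]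
  exact A.mul_mem _ _ (intCast_mem A q.num) ((u⁻¹ : Aˣ) : A).2

variable [CharZero L]

/-- A rational number lies in `A` iff its denominator is prime to `ℓ`: `A ∩ ℚ = ℤ_(ℓ)`. -/
theorem ratCast_mem_iff (hA : A.LiesOverPrime ℓ) (hℓ : ℓ.Prime) (q : ℚ) :
    ((q : ℚ) : L) ∈ A ↔ q.den.Coprime ℓ := by
  refine ⟨fun hq => ?_, ratCast_mem A hA hℓ⟩
  by_contra hcop
  have hdvd : ℓ ∣ q.den := by
    by_contra h
    exact hcop ((Nat.Prime.coprime_iff_not_dvd hℓ).mpr h).symm
  have hnum : ¬ (ℓ : ℤ) ∣ q.num := by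
    intro h
    have h1 : ℓ ∣ q.num.natAbs := Int.natCast_dvd.mp h
    have h2 := Nat.dvd_gcd h1 hdvd
    rw [q.reduced] at h2
    exact hℓ.one_lt.ne' (Nat.dvd_one.mp h2)
  have hunit := isUnit_intCast A hA hℓ hnum
  obtain ⟨d, hd⟩ := hdvd
  -- `q.num = q * q.den` and `q.den ∈ 𝔪`
  have hden : ((q.den : ℕ) : A) ∈ IsLocalRing.maximalIdeal A := by
    rw [hd, Nat.cast_mul]
    exact Ideal.mul_mem_right _ _ (natCast_mem_maximalIdeal A hA)
  have hmul : ((q.num : ℤ) : A) = (⟨(q : L), hq⟩ : A) * ((q.den : ℕ) : A) := by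
    apply Subtype.ext
    have h0 : ((q.den : ℕ) : L) ≠ 0 := by exact_mod_cast q.den_nz
    simp only [SubringClass.coe_intCast, MulMemClass.coe_mul, SubringClass.coe_natCast]
    rw [Rat.cast_def, div_mul_cancel₀ _ h0]
  have : ((q.num : ℤ) : A) ∈ IsLocalRing.maximalIdeal A := by
    rw [hmul]; exact Ideal.mul_mem_left _ _ hden
  exact (IsLocalRing.mem_maximalIdeal _).mp this hunit

/-- `ℤ_(ℓ) ⊆ A` inside `L`. -/
theorem ratLocalizedAt_map_le (hA : A.LiesOverPrime ℓ) (hℓ : ℓ.Prime) :
    (GaloisRep.ratLocalizedAt ℓ).map (Rat.castHom L) ≤ A.toSubring := by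
  rintro x ⟨q, hq, rfl⟩
  exact ratCast_mem A hA hℓ hq

omit [CharZero L] in
/-- **Rank one.** If `L` is algebraic over `ℤ` (e.g. `L = AlgebraicClosure ℚ`) and `A` lies over `ℓ`, every nonzero element of
`A` divides a power of `ℓ` in `A`. -/
theorem exists_dvd_natCast_pow (halg : ∀ x : L, IsAlgebraic ℤ x)
    (hA : A.LiesOverPrime ℓ) (hℓ : ℓ.Prime) (b : A) (hb : b ≠ 0) :
    ∃ n : ℕ, b ∣ ((ℓ : ℕ) : A) ^ n := by
  -- an integer polynomial killing `b`
  obtain ⟨p, hp0, hp⟩ := halg (b : L)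
  -- remove the powers of `X`
  obtain ⟨q, hq, hqX⟩ := Polynomial.exists_eq_pow_rootMultiplicity_mul_and_not_dvd p hp0 (0 : ℤ)
  rw [map_zero, sub_zero] at hq hqX
  have hbL : (b : L) ≠ 0 := fun h => hb (Subtype.ext h)
  have hqb : Polynomial.aeval (b : L) q = 0 := by
    rw [hq, map_mul, map_pow, Polynomial.aeval_X] at hp
    exact (mul_eq_zero.mp hp).resolve_left (pow_ne_zero _ hbL)
  have hc0 : q.coeff 0 ≠ 0 := fun h => hqX (Polynomial.X_dvd_iff.mpr h)
  -- the same equation in `A`
  have hqA : Polynomial.aeval b q = 0 := by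
    apply Subtype.ext
    have := Polynomial.aeval_algebraMap_apply (A := A) (B := L) b q
    rw [show algebraMap A L b = (b : L) from rfl] at this
    rw [show ((Polynomial.aeval b q : A) : L) = algebraMap A L (Polynomial.aeval b q) from rfl,
      ← this, hqb]; rfl
  -- hence `b ∣ q(0)` in `A`
  have hdvd : b ∣ ((q.coeff 0 : ℤ) : A) := by
    have h1 : q = q.divX * Polynomial.X + Polynomial.C (q.coeff 0) := (Polynomial.divX_mul_X_add q).symm
    have h2 : Polynomial.aeval b q.divX * b + ((q.coeff 0 : ℤ) : A) = 0 := by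
      have := hqA
      rw [h1, map_add, map_mul, Polynomial.aeval_X, Polynomial.aeval_C] at this
      simpa using this
    refine ⟨-Polynomial.aeval b q.divX, ?_⟩
    linear_combination h2
  -- split `q(0) = ± ℓ^e * u` with `u` prime to `ℓ`
  have hnat : (q.coeff 0).natAbs ≠ 0 := Int.natAbs_ne_zero.mpr hc0
  obtain ⟨e, u, hu, hnu⟩ := Nat.exists_eq_pow_mul_and_not_dvd hnat ℓ hℓ.ne_one
  have hunit := isUnit_natCast A hA hℓ hu
  refine ⟨e, ?_⟩
  have hdvd' : b ∣ (((q.coeff 0).natAbs : ℕ) : A) := by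
    rcases Int.natAbs_eq (q.coeff 0) with h | h
    · rw [h] at hdvd; simpa using hdvd
    · rw [h] at hdvd
      have : b ∣ -(((q.coeff 0).natAbs : ℕ) : A) := by simpa using hdvd
      exact (dvd_neg.mp this)
  rw [hnu, Nat.cast_mul, Nat.cast_pow] at hdvd'
  exact (hunit.dvd_mul_right).mp hdvd'

/-- Every prime ideal of `A` containing `ℓ` is the maximal ideal (`L` algebraic over `ℚ`). -/
theorem eq_maximalIdeal_of_natCast_mem (halg : ∀ x : L, IsAlgebraic ℤ x)
    (hℓ : ℓ.Prime) (𝔭 : Ideal A) [h𝔭 : 𝔭.IsPrime] (hmem : ((ℓ : ℕ) : A) ∈ 𝔭) :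
    𝔭 = IsLocalRing.maximalIdeal A := by
  have : Fact ℓ.Prime := ⟨hℓ⟩
  have : CharP (A ⧸ 𝔭) ℓ := by
    rw [CharP.charP_iff_prime_eq_zero hℓ]
    have : (Ideal.Quotient.mk 𝔭) ((ℓ : ℕ) : A) = 0 := Ideal.Quotient.eq_zero_iff_mem.mpr hmem
    rwa [map_natCast] at this
  let _ : Algebra (ZMod ℓ) (A ⧸ 𝔭) := ZMod.algebra (A ⧸ 𝔭) ℓ
  have hint : Algebra.IsIntegral (ZMod ℓ) (A ⧸ 𝔭) := by
    refine ⟨fun y => ?_⟩
    obtain ⟨x, rfl⟩ := Ideal.Quotient.mk_surjective y
    obtain ⟨p, hp0, hp⟩ := halg (x : L)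
    -- pass to the primitive part
    have hcont : p.content ≠ 0 := Polynomial.content_eq_zero_iff.not.mpr hp0
    have hprim : Polynomial.aeval (x : L) p.primPart = 0 := by
      have h1 := p.eq_C_content_mul_primPart
      rw [h1, map_mul, Polynomial.aeval_C] at hp
      refine (mul_eq_zero.mp hp).resolve_left ?_
      simpa using hcont
    have hprimA : Polynomial.aeval x p.primPart = 0 := by
      apply Subtype.ext
      have := Polynomial.aeval_algebraMap_apply (A := A) (B := L) x p.primPart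
      rw [show algebraMap A L x = (x : L) from rfl] at this
      rw [show ((Polynomial.aeval x p.primPart : A) : L)
        = algebraMap A L (Polynomial.aeval x p.primPart) from rfl, ← this, hprim]; rfl
    have hq0 : p.primPart.map (Int.castRingHom (ZMod ℓ)) ≠ 0 := by
      intro h0
      have hdvd : Polynomial.C (ℓ : ℤ) ∣ p.primPart := by
        rw [Polynomial.C_dvd_iff_dvd_coeff]
        intro i
        have := congrArg (fun r => Polynomial.coeff r i) h0
        simp only [Polynomial.coeff_map, Polynomial.coeff_zero] at this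
        exact (ZMod.intCast_zmod_eq_zero_iff_dvd _ _).mp this
      have hu := (Polynomial.isPrimitive_primPart p) (ℓ : ℤ) hdvd
      have := Int.isUnit_iff.mp hu
      have h1 := hℓ.one_lt
      omega
    have hev : Polynomial.aeval (Ideal.Quotient.mk 𝔭 x)
        (p.primPart.map (Int.castRingHom (ZMod ℓ))) = 0 := by
      have h1 : Polynomial.aeval (Ideal.Quotient.mk 𝔭 x)
          (p.primPart.map (algebraMap ℤ (ZMod ℓ))) =
          Polynomial.aeval (Ideal.Quotient.mk 𝔭 x) p.primPart :=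
        Polynomial.aeval_map_algebraMap (R := ℤ) (ZMod ℓ) (Ideal.Quotient.mk 𝔭 x) p.primPart
      have h2 : Polynomial.aeval (Ideal.Quotient.mk 𝔭 x) p.primPart =
          Ideal.Quotient.mk 𝔭 (Polynomial.aeval x p.primPart) := by
        have := Polynomial.aeval_algebraMap_apply (A := A) (B := A ⧸ 𝔭) x p.primPart
        simpa using this
      rw [show Int.castRingHom (ZMod ℓ) = algebraMap ℤ (ZMod ℓ) from rfl, h1, h2, hprimA, map_zero]
    exact (IsAlgebraic.isIntegral ⟨_, hq0, hev⟩)
  have hfield : IsField (A ⧸ 𝔭) :=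
    isField_of_isIntegral_of_isField' (R := ZMod ℓ) (Field.toIsField (ZMod ℓ))
  have hmax : 𝔭.IsMaximal := Ideal.Quotient.maximal_of_isField 𝔭 hfield
  exact IsLocalRing.eq_maximalIdeal hmax

/-- `rad(ℓ A) = 𝔪_A` when `A` lies over `ℓ` and `L` is algebraic over `ℚ`. -/
theorem radical_span_natCast (halg : ∀ x : L, IsAlgebraic ℤ x)
    (hA : A.LiesOverPrime ℓ) (hℓ : ℓ.Prime) :
    (Ideal.span {((ℓ : ℕ) : A)}).radical = IsLocalRing.maximalIdeal A := by
  apply le_antisymm
  · rw [Ideal.IsPrime.radical_le_iff (IsLocalRing.maximalIdeal.isMaximal A).isPrime]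
    rw [Ideal.span_singleton_le_iff_mem]
    exact natCast_mem_maximalIdeal A hA
  · rw [Ideal.radical_eq_sInf]
    refine le_sInf ?_
    rintro 𝔭 ⟨hle, hprime⟩
    have := hprime
    rw [eq_maximalIdeal_of_natCast_mem A halg hℓ 𝔭 (hle (Ideal.subset_span rfl))]

/-- Every element of the maximal ideal of `A` has a power divisible by `ℓ`. -/
theorem exists_natCast_dvd_pow (halg : ∀ x : L, IsAlgebraic ℤ x)
    (hA : A.LiesOverPrime ℓ) (hℓ : ℓ.Prime) {x : A} (hx : x ∈ IsLocalRing.maximalIdeal A) :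
    ∃ n : ℕ, ((ℓ : ℕ) : A) ∣ x ^ n := by
  rw [← radical_span_natCast A halg hA hℓ] at hx
  obtain ⟨n, hn⟩ := hx
  exact ⟨n, Ideal.mem_span_singleton.mp hn⟩

/-- **Archimedean property.** For `a` in the maximal ideal of `A` (lying over `ℓ`, `L` algebraic
over `ℚ`), every nonzero `b ∈ A` divides a power of `a`. -/
theorem exists_dvd_pow (halg : ∀ x : L, IsAlgebraic ℤ x)
    (hA : A.LiesOverPrime ℓ) (hℓ : ℓ.Prime) {a : A} (ha : a ∈ IsLocalRing.maximalIdeal A)
    (b : A) (hb : b ≠ 0) : ∃ n : ℕ, b ∣ a ^ n := by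
  obtain ⟨e, he⟩ := exists_dvd_natCast_pow A halg hA hℓ b hb
  obtain ⟨n, hn⟩ := exists_natCast_dvd_pow A halg hA hℓ ha
  exact ⟨n * e, he.trans (by rw [pow_mul]; exact pow_dvd_pow_of_dvd hn e)⟩

end LiesOver

section Modules

variable {A : Type*} [CommRing A] [IsDomain A] [ValuationRing A]
variable {H : Type*} [AddCommGroup H] [Module A H]

/-- A finite torsion-free module over a valuation domain is free. -/
theorem free_of_torsion_eq_bot [Module.Finite A H] (h : Submodule.torsion A H = ⊥) :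
    Module.Free A H := by
  have : Module.Flat A H := Module.Flat.flat_iff_torsion_eq_bot_of_isBezout.mpr h
  exact Module.free_of_flat_of_isLocalRing

omit [ValuationRing A] in
/-- Finitely many torsion elements have a common nonzero annihilator. -/
theorem exists_ne_zero_smul_eq_zero (S : Finset H) (hS : ∀ x ∈ S, x ∈ Submodule.torsion A H) :
    ∃ b : A, b ≠ 0 ∧ ∀ x ∈ S, b • x = 0 := by
  classical
  induction S using Finset.induction_on with
  | empty => exact ⟨1, one_ne_zero, fun x hx => absurd hx (Finset.notMem_empty x)⟩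
  | insert y S hy ih =>
    obtain ⟨b, hb, hbS⟩ := ih fun x hx => hS x (Finset.mem_insert_of_mem hx)
    obtain ⟨c, hc⟩ := (Submodule.mem_torsion_iff y).mp (hS y (Finset.mem_insert_self y S))
    refine ⟨b * c, mul_ne_zero hb (nonZeroDivisors.coe_ne_zero c), fun x hx => ?_⟩
    rcases Finset.mem_insert.mp hx with rfl | hx
    · rw [mul_smul]
      have : (c : A) • x = 0 := hc
      rw [this, smul_zero]
    · rw [mul_comm, mul_smul, hbS x hx, smul_zero]

/-- The torsion submodule of a finite module over a valuation domain has a nonzero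
annihilator. -/
theorem exists_ne_zero_smul_torsion [Module.Finite A H] :
    ∃ b : A, b ≠ 0 ∧ ∀ x ∈ Submodule.torsion A H, b • x = 0 := by
  classical
  set T := Submodule.torsion A H with hT
  have : Module.Free A (H ⧸ T) :=
    free_of_torsion_eq_bot (Submodule.QuotientTorsion.torsion_eq_bot (R := A) (M := H))
  obtain ⟨s, hs⟩ := Module.projective_lifting_property T.mkQ (LinearMap.id : (H ⧸ T) →ₗ[A] H ⧸ T)
    (Submodule.mkQ_surjective T)
  set ρ : H →ₗ[A] H := LinearMap.id - s ∘ₗ T.mkQ with hρ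
  have hρT : ∀ h : H, ρ h ∈ T := by
    intro h
    rw [← Submodule.Quotient.mk_eq_zero T]
    have h1 : T.mkQ (s (T.mkQ h)) = T.mkQ h := by
      have := congrArg (fun f : (H ⧸ T) →ₗ[A] H ⧸ T => f (T.mkQ h)) hs
      simpa using this
    rw [hρ]
    simp only [LinearMap.sub_apply, LinearMap.id_coe, id_eq, LinearMap.coe_comp,
      Function.comp_apply, Submodule.Quotient.mk_sub]
    rw [← Submodule.mkQ_apply, ← Submodule.mkQ_apply, h1, sub_self]
  have hρid : ∀ t ∈ T, ρ t = t := by
    intro t ht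
    have h0 : T.mkQ t = 0 := (Submodule.Quotient.mk_eq_zero T).mpr ht
    rw [hρ]
    simp only [LinearMap.sub_apply, LinearMap.id_coe, id_eq, LinearMap.coe_comp,
      Function.comp_apply, h0, map_zero, sub_zero]
  obtain ⟨S, hS⟩ := (Module.Finite.fg_top : (⊤ : Submodule A H).FG)
  obtain ⟨b, hb, hbS⟩ := exists_ne_zero_smul_eq_zero (A := A) (S.image ρ) (by
    intro x hx
    obtain ⟨y, -, rfl⟩ := Finset.mem_image.mp hx
    exact hρT y)
  refine ⟨b, hb, fun t ht => ?_⟩
  have hzero : b • ρ = 0 := by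
    apply LinearMap.ext_on hS
    intro x hx
    simp only [LinearMap.smul_apply, LinearMap.zero_apply]
    exact hbS _ (Finset.mem_image_of_mem ρ hx)
  have := congrArg (fun f : H →ₗ[A] H => f t) hzero
  simpa [hρid t ht] using this

/-- **Bounded torsion.** Let `H` be a finite module over a valuation domain `A` and `a ∈ A` an
element a power of which is divisible by any given nonzero element (rank one). Then the
`a`-power torsion of `H` is killed by a fixed power of `a`. -/
theorem exists_pow_smul_eq_zero [Module.Finite A H] (a : A)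
    (harch : ∀ b : A, b ≠ 0 → ∃ n : ℕ, b ∣ a ^ n) :
    ∃ c : ℕ, ∀ h : H, (∃ n : ℕ, a ^ n • h = 0) → a ^ c • h = 0 := by
  by_cases ha : a = 0
  · exact ⟨1, fun h _ => by rw [ha, pow_one, zero_smul]⟩
  obtain ⟨b, hb, hbT⟩ := exists_ne_zero_smul_torsion (A := A) (H := H)
  obtain ⟨c, d, hd⟩ := harch b hb
  refine ⟨c, fun h ⟨n, hn⟩ => ?_⟩
  have hT : h ∈ Submodule.torsion A H :=
    (Submodule.mem_torsion_iff h).mpr
      ⟨⟨a ^ n, mem_nonZeroDivisors_of_ne_zero (pow_ne_zero n ha)⟩, hn⟩
  rw [hd, mul_comm, mul_smul, hbT h hT, smul_zero]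

/-- The lead's form of the lemma: an element of a finite module over a rank-one valuation
domain which, for every `n`, is `a^n` times an `a^(n+1)`-torsion element, is zero. -/
theorem eq_zero_of_forall_pow_smul [Module.Finite A H] (a : A)
    (harch : ∀ b : A, b ≠ 0 → ∃ n : ℕ, b ∣ a ^ n) (x : H)
    (hx : ∀ n : ℕ, ∃ y : H, a ^ (n + 1) • y = 0 ∧ x = a ^ n • y) : x = 0 := by
  obtain ⟨c, hc⟩ := exists_pow_smul_eq_zero (H := H) a harch
  obtain ⟨y, hy, rfl⟩ := hx c
  exact hc y ⟨c + 1, hy⟩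

/-- Submodule form of bounded torsion: if `M / (M ∩ N)` is a finite `A`-module then there is
`c` such that for `h ∈ M`, `a^n • h ∈ N` for some `n` implies `a^c • h ∈ N`. -/
theorem exists_pow_smul_mem {X : Type*} [AddCommGroup X] [Module A X] (M N : Submodule A X)
    [Module.Finite A (↥M ⧸ N.comap M.subtype)] (a : A)
    (harch : ∀ b : A, b ≠ 0 → ∃ n : ℕ, b ∣ a ^ n) :
    ∃ c : ℕ, ∀ h ∈ M, (∃ n : ℕ, a ^ n • h ∈ N) → a ^ c • h ∈ N := by
  obtain ⟨c, hc⟩ := exists_pow_smul_eq_zero (H := ↥M ⧸ N.comap M.subtype) a harch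
  refine ⟨c, fun h hM ⟨n, hn⟩ => ?_⟩
  have h1 : a ^ n • (Submodule.Quotient.mk (⟨h, hM⟩ : M) : ↥M ⧸ N.comap M.subtype) = 0 := by
    rw [← Submodule.Quotient.mk_smul, Submodule.Quotient.mk_eq_zero]
    exact hn
  have h2 := hc _ ⟨n, h1⟩
  rw [← Submodule.Quotient.mk_smul, Submodule.Quotient.mk_eq_zero] at h2
  exact h2

end Modules

section Frozen

/-! ### The frozen base ring of S18: a valuation subring of `AlgebraicClosure ℚ` over `ℓ` -/

/-- `AlgebraicClosure ℚ` is algebraic over `ℤ` (for the canonical `ℤ`-algebra structure of a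
ring, which is the one the lemmas of this file use). -/
theorem isAlgebraic_int_Qbar (x : AlgebraicClosure ℚ) :
    @IsAlgebraic ℤ (AlgebraicClosure ℚ) _ _ (Ring.toIntAlgebra (AlgebraicClosure ℚ)) x := by
  let _ : Algebra ℚ (AlgebraicClosure ℚ) := AlgebraicClosure.instAlgebra ℚ
  let _ : Algebra ℤ (AlgebraicClosure ℚ) := Ring.toIntAlgebra (AlgebraicClosure ℚ)
  exact (IsFractionRing.isAlgebraic_iff ℤ ℚ (AlgebraicClosure ℚ)).mpr
    (Algebra.IsAlgebraic.isAlgebraic x)

variable (A : ValuationSubring (AlgebraicClosure ℚ)) {ℓ : ℕ}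

/-- The residue field of the frozen base ring is algebraically closed. -/
instance isAlgClosed_residueField_Qbar : IsAlgClosed (IsLocalRing.ResidueField A) :=
  isAlgClosed_residueField A

/-- Rank one for the frozen base ring: for `a ∈ 𝔪_A`, every nonzero `b ∈ A` divides a power
of `a`. -/
theorem exists_dvd_pow_Qbar (hA : A.LiesOverPrime ℓ) (hℓ : ℓ.Prime) {a : A}
    (ha : a ∈ IsLocalRing.maximalIdeal A) (b : A) (hb : b ≠ 0) : ∃ n : ℕ, b ∣ a ^ n :=
  exists_dvd_pow A isAlgebraic_int_Qbar hA hℓ ha b hb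

/-- `rad(ℓ A) = 𝔪_A` for the frozen base ring. -/
theorem radical_span_natCast_Qbar (hA : A.LiesOverPrime ℓ) (hℓ : ℓ.Prime) :
    (Ideal.span {((ℓ : ℕ) : A)}).radical = IsLocalRing.maximalIdeal A :=
  radical_span_natCast A isAlgebraic_int_Qbar hA hℓ

/-- Bounded torsion over the frozen base ring: for `a ∈ 𝔪_A` and a finite `A`-module `H`, the
`a`-power torsion of `H` is killed by a fixed power of `a`. -/
theorem exists_pow_smul_eq_zero_of_liesOver (hA : A.LiesOverPrime ℓ) (hℓ : ℓ.Prime)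
    {H : Type*} [AddCommGroup H] [Module A H] [Module.Finite A H] {a : A}
    (ha : a ∈ IsLocalRing.maximalIdeal A) :
    ∃ c : ℕ, ∀ h : H, (∃ n : ℕ, a ^ n • h = 0) → a ^ c • h = 0 :=
  exists_pow_smul_eq_zero a (exists_dvd_pow A isAlgebraic_int_Qbar hA hℓ ha)

/-- The lead's lemma over the frozen base ring. -/
theorem eq_zero_of_forall_pow_smul_of_liesOver (hA : A.LiesOverPrime ℓ) (hℓ : ℓ.Prime)
    {H : Type*} [AddCommGroup H] [Module A H] [Module.Finite A H] {a : A}
    (ha : a ∈ IsLocalRing.maximalIdeal A) (x : H)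
    (hx : ∀ n : ℕ, ∃ y : H, a ^ (n + 1) • y = 0 ∧ x = a ^ n • y) : x = 0 :=
  eq_zero_of_forall_pow_smul a (exists_dvd_pow A isAlgebraic_int_Qbar hA hℓ ha) x hx

/-- Submodule form over the frozen base ring. -/
theorem exists_pow_smul_mem_of_liesOver (hA : A.LiesOverPrime ℓ) (hℓ : ℓ.Prime)
    {X : Type*} [AddCommGroup X] [Module A X] (M N : Submodule A X)
    [Module.Finite A (↥M ⧸ N.comap M.subtype)] {a : A}
    (ha : a ∈ IsLocalRing.maximalIdeal A) :
    ∃ c : ℕ, ∀ h ∈ M, (∃ n : ℕ, a ^ n • h ∈ N) → a ^ c • h ∈ N :=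
  exists_pow_smul_mem M N a (exists_dvd_pow A isAlgebraic_int_Qbar hA hℓ ha)

end Frozen

end Fermat.Agent.S18.H86
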