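import Mathlib
import Fermat.Prelude.Def_FLTPrelim_Ramification
import Fermat.Prelude.Def_ModularCurve_LaurentCoeff
import Fermat.Agent.S18.ValRing_helper86

/-!
# S18 node (A0) = (DVR-K0) (helper86)

For the frozen valuation subring `A` of `AlgebraicClosure ℚ` lying over a prime `ℓ` and a number
field `K0 ⊆ AlgebraicClosure ℚ` (an `IntermediateField ℚ (AlgebraicClosure ℚ)` which is finite
dimensional over `ℚ`), the ring `A0 A K0 = A ∩ K0` is a discrete valuation ring.

Generic engine (any number field `K`, `V : ValuationSubring K` with `V.LiesOverPrime ℓ`):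
* `isDiscreteValuationRing_of_liesOverPrime`, `finite_residueField_of_liesOverPrime`,
  `isLocalization_atPrime_centre` (`V` is the localisation of `𝓞 K` at its centre).

Frozen instance:
* `A0 A K0 : ValuationSubring K0`, `mem_A0_iff` (rfl), `mem_nonunits_A0_iff`, `A0_liesOverPrime`;
* `incl A K0 : A0 A K0 →+* A` (injective, local), `exists_incl_eq`;
* `resMap A K0 : k0 →+* k` on residue fields, `resMap_residue`, `resMap_injective`;
* series level: `coeffMap_subtype_incl`, `coeffMap_residue_incl`, `exists_coeffMap_incl_eq`,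
  `exists_coeffMap_subtype_eq`, `coeffMap_residue_incl_eq_zero_iff`;
* `isDiscreteValuationRing_A0`, `finite_residueField_A0`, `charP_residueField_A0`,
  `exists_uniformiser`, `maximalIdeal_A0_eq_span`, `residue_A0_eq_zero_iff`,
  `isUnit_A0_iff_not_dvd`, `eq_unit_mul_pow_A0`, `exists_dvd_pow_A0` (harch),
  `exists_not_pow_dvd_A0`, `exists_dvd_incl_pow`, `isUnit_natCast_A0`;
* `exists_finiteDimensional_ge`, `exists_finiteDimensional` (exhaustion of `ℚ̄` by number fields).
-/

set_option autoImplicit false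

namespace Fermat.Agent.S18.H86

open NumberField ModularCurve

section Generic

variable {K : Type*} [Field K] (V : ValuationSubring K)

/-- Algebraic integers lie in every valuation subring of a number field. -/
theorem ringOfIntegers_mem_valuationSubring (x : 𝓞 K) : (x : K) ∈ V := by
  have h1 : IsIntegral ℤ (x : K) := NumberField.RingOfIntegers.isIntegral_coe x
  have h2 : IsIntegral V (x : K) := h1.tower_top
  obtain ⟨y, hy⟩ := IsIntegrallyClosed.isIntegral_iff.mp h2
  rw [← hy]
  exact y.2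

/-- The inclusion of the ring of integers into a valuation subring. -/
def ofRingOfIntegers : 𝓞 K →+* V where
  toFun x := ⟨(x : K), ringOfIntegers_mem_valuationSubring V x⟩
  map_one' := Subtype.ext (by simp)
  map_mul' x y := Subtype.ext (by simp)
  map_zero' := Subtype.ext (by simp)
  map_add' x y := Subtype.ext (by simp)

@[simp] theorem coe_ofRingOfIntegers (x : 𝓞 K) : ((ofRingOfIntegers V x : V) : K) = (x : K) := rfl

theorem ofRingOfIntegers_injective : Function.Injective (ofRingOfIntegers V) := by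
  intro x y h
  have := congrArg (fun z : V => (z : K)) h
  exact NumberField.RingOfIntegers.ext this

/-- The centre of `V` on the ring of integers. -/
def centre : Ideal (𝓞 K) := (IsLocalRing.maximalIdeal V).comap (ofRingOfIntegers V)

instance centre_isPrime : (centre V).IsPrime := by
  unfold centre; infer_instance

theorem mem_centre_iff (x : 𝓞 K) : x ∈ centre V ↔ (x : K) ∈ V.nonunits :=
  Ideal.mem_comap.trans (ValuationSubring.coe_mem_nonunits_iff (A := V)).symm

theorem isUnit_ofRingOfIntegers {s : 𝓞 K} (hs : s ∉ centre V) : IsUnit (ofRingOfIntegers V s) := by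
  by_contra h
  exact hs (Ideal.mem_comap.mpr ((IsLocalRing.mem_maximalIdeal _).mpr h))

theorem natCast_mem_centre {ℓ : ℕ} (hV : V.LiesOverPrime ℓ) : ((ℓ : ℕ) : 𝓞 K) ∈ centre V := by
  rw [mem_centre_iff]
  have h : (((ℓ : ℕ) : 𝓞 K) : K) = (ℓ : K) := by simp
  rw [h]; exact hV

variable [NumberField K]

theorem centre_ne_bot {ℓ : ℕ} (hℓ : ℓ.Prime) (hV : V.LiesOverPrime ℓ) : centre V ≠ ⊥ := by
  intro h
  have h1 := natCast_mem_centre V hV
  rw [h, Ideal.mem_bot] at h1
  have : (ℓ : 𝓞 K) ≠ 0 := by exact_mod_cast hℓ.ne_zero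
  exact this h1

/-- Every element of `V` is a fraction `a / s` with `a, s` algebraic integers, `s ∉ centre V`. -/
theorem exists_mul_eq_of_mem {ℓ : ℕ} (hℓ : ℓ.Prime) (hV : V.LiesOverPrime ℓ) (z : V) :
    ∃ a s : 𝓞 K, s ∉ centre V ∧ z * ofRingOfIntegers V s = ofRingOfIntegers V a := by
  classical
  have hp := centre_ne_bot V hℓ hV
  set 𝔭 := centre V with h𝔭
  let W := Localization.subalgebra.ofField K 𝔭.primeCompl 𝔭.primeCompl_le_nonZeroDivisors
  have hloc : IsLocalization.AtPrime W 𝔭 :=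
    Localization.subalgebra.isLocalization_ofField K 𝔭.primeCompl 𝔭.primeCompl_le_nonZeroDivisors
  have hdvr : IsDiscreteValuationRing W :=
    IsLocalization.AtPrime.isDiscreteValuationRing_of_dedekind_domain (𝓞 K) hp W
  have hfrac : IsFractionRing W K :=
    Localization.subalgebra.isFractionRing_ofField K 𝔭.primeCompl 𝔭.primeCompl_le_nonZeroDivisors
  have key : ∀ w : W, ∃ a s : 𝓞 K, s ∉ 𝔭 ∧ (w : K) * (s : K) = (a : K) := by
    intro w
    obtain ⟨a, s, hs, hw⟩ := w.2
    refine ⟨a, s, hs, ?_⟩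
    have hs0 : algebraMap (𝓞 K) K s ≠ 0 := by
      intro h0
      have : s = 0 := by
        apply NumberField.RingOfIntegers.ext
        simpa using h0
      exact hs (this ▸ 𝔭.zero_mem)
    rw [hw]
    rw [mul_assoc]
    show algebraMap (𝓞 K) K a * ((algebraMap (𝓞 K) K s)⁻¹ * algebraMap (𝓞 K) K s) = algebraMap (𝓞 K) K a
    rw [inv_mul_cancel₀ hs0, mul_one]
  rcases eq_or_ne z 0 with rfl | hz
  · exact ⟨0, 1, fun h => (centre_isPrime V).ne_top ((Ideal.eq_top_iff_one _).mpr h), by simp⟩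
  have hzK : (z : K) ≠ 0 := fun h => hz (Subtype.ext h)
  rcases ValuationRing.isInteger_or_isInteger W (z : K) with ⟨w, hw⟩ | ⟨w, hw⟩
  · obtain ⟨a, s, hs, h⟩ := key w
    refine ⟨a, s, hs, Subtype.ext ?_⟩
    have hw' : (w : K) = (z : K) := hw
    simp only [MulMemClass.coe_mul, coe_ofRingOfIntegers]
    rw [← hw', h]
  · obtain ⟨a, s, hs, h⟩ := key w
    have hw' : (w : K) = (z : K)⁻¹ := hw
    rw [hw'] at h
    -- `s = z * a` in `K`
    have h2 : (s : K) = (z : K) * (a : K) := by
      rw [← h]; field_simp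
    refine ⟨s, a, ?_, Subtype.ext (by simpa using h2.symm)⟩
    intro ha
    -- then `s = z * a ∈ 𝔪_V`, contradiction
    apply hs
    rw [h𝔭, mem_centre_iff] at ha ⊢
    rw [h2]
    have h3 := (ValuationSubring.coe_mem_nonunits_iff (A := V)
      (a := z * ofRingOfIntegers V a)).mpr
      (Ideal.mul_mem_left _ z ((ValuationSubring.coe_mem_nonunits_iff (A := V)
      (a := ofRingOfIntegers V a)).mp ha))
    simpa using h3

/-- `V` is the localisation of `𝓞 K` at its centre. -/
theorem isLocalization_atPrime_centre {ℓ : ℕ} (hℓ : ℓ.Prime) (hV : V.LiesOverPrime ℓ) :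
    @IsLocalization.AtPrime (𝓞 K) _ V _ (ofRingOfIntegers V).toAlgebra (centre V) _ := by
  let : Algebra (𝓞 K) V := (ofRingOfIntegers V).toAlgebra
  refine (isLocalization_iff (M := (centre V).primeCompl) (S := V)).mpr ⟨?_, ?_, ?_⟩
  · rintro ⟨s, hs⟩
    exact isUnit_ofRingOfIntegers V hs
  · intro z
    obtain ⟨a, s, hs, h⟩ := exists_mul_eq_of_mem V hℓ hV z
    exact ⟨(a, ⟨s, hs⟩), h⟩
  · intro x y h
    exact ⟨1, by rw [ofRingOfIntegers_injective V h]⟩

/-- **(D1), generic form.** A valuation subring of a number field lying over a prime `ℓ` is a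
discrete valuation ring. -/
theorem isDiscreteValuationRing_of_liesOverPrime {ℓ : ℕ} (hℓ : ℓ.Prime)
    (hV : V.LiesOverPrime ℓ) : IsDiscreteValuationRing V := by
  let : Algebra (𝓞 K) V := (ofRingOfIntegers V).toAlgebra
  have := isLocalization_atPrime_centre V hℓ hV
  exact IsLocalization.AtPrime.isDiscreteValuationRing_of_dedekind_domain (𝓞 K)
    (centre_ne_bot V hℓ hV) V

/-- The residue field of a valuation subring of a number field lying over a prime is finite. -/
theorem finite_residueField_of_liesOverPrime {ℓ : ℕ} (hℓ : ℓ.Prime)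
    (hV : V.LiesOverPrime ℓ) : Finite (IsLocalRing.ResidueField V) := by
  let : Algebra (𝓞 K) V := (ofRingOfIntegers V).toAlgebra
  have := isLocalization_atPrime_centre V hℓ hV
  have hmax : (centre V).IsMaximal := (centre_isPrime V).isMaximal (centre_ne_bot V hℓ hV)
  have : Finite (𝓞 K ⧸ centre V) := Ideal.finiteQuotientOfFreeOfNeBot _ (centre_ne_bot V hℓ hV)
  exact Finite.of_equiv _ (IsLocalization.AtPrime.equivQuotMaximalIdeal (centre V) V).toEquiv

end Generic

section Frozen

variable (A : ValuationSubring (AlgebraicClosure ℚ))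
  (K0 : IntermediateField ℚ (AlgebraicClosure ℚ))

/-- `A ∩ K0`, as a valuation subring of `K0`. -/
noncomputable def A0 : ValuationSubring K0 := A.comap (algebraMap K0 (AlgebraicClosure ℚ))

theorem mem_A0_iff (x : K0) : x ∈ A0 A K0 ↔ (x : AlgebraicClosure ℚ) ∈ A := Iff.rfl

theorem mem_nonunits_A0_iff (x : K0) :
    x ∈ (A0 A K0).nonunits ↔ (x : AlgebraicClosure ℚ) ∈ A.nonunits := by
  rw [ValuationSubring.mem_nonunits_iff_or, ValuationSubring.mem_nonunits_iff_or, mem_A0_iff]
  simp

theorem A0_liesOverPrime {ℓ : ℕ} (hA : A.LiesOverPrime ℓ) : (A0 A K0).LiesOverPrime ℓ := by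
  unfold ValuationSubring.LiesOverPrime
  rw [mem_nonunits_A0_iff]
  have h : (((ℓ : ℕ) : K0) : AlgebraicClosure ℚ) = (ℓ : AlgebraicClosure ℚ) := by simp
  rw [h]; exact hA

/-- The inclusion `A ∩ K0 → A`. -/
noncomputable def incl : A0 A K0 →+* A where
  toFun x := ⟨((x : K0) : AlgebraicClosure ℚ), x.2⟩
  map_one' := Subtype.ext (by simp)
  map_mul' x y := Subtype.ext (by simp)
  map_zero' := Subtype.ext (by simp)
  map_add' x y := Subtype.ext (by simp)

@[simp] theorem coe_incl (x : A0 A K0) :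
    ((incl A K0 x : A) : AlgebraicClosure ℚ) = ((x : K0) : AlgebraicClosure ℚ) := rfl

theorem incl_injective : Function.Injective (incl A K0) := by
  intro x y h
  have h1 := congrArg (fun z : A => (z : AlgebraicClosure ℚ)) h
  exact Subtype.ext (Subtype.ext h1)

theorem incl_mem_maximalIdeal_iff (x : A0 A K0) :
    incl A K0 x ∈ IsLocalRing.maximalIdeal A ↔ x ∈ IsLocalRing.maximalIdeal (A0 A K0) := by
  rw [← ValuationSubring.coe_mem_nonunits_iff, ← ValuationSubring.coe_mem_nonunits_iff,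
    mem_nonunits_A0_iff]
  rfl

theorem isUnit_incl_iff (x : A0 A K0) : IsUnit (incl A K0 x) ↔ IsUnit x := by
  have h := (incl_mem_maximalIdeal_iff A K0 x).not
  rwa [IsLocalRing.mem_maximalIdeal, IsLocalRing.mem_maximalIdeal, mem_nonunits_iff,
    mem_nonunits_iff, not_not, not_not] at h

instance isLocalHom_incl : IsLocalHom (incl A K0) :=
  ⟨fun x hx => (isUnit_incl_iff A K0 x).mp hx⟩

/-- Elements of `A` lying in `K0` come from `A ∩ K0`. -/
theorem exists_incl_eq {x : A} (hx : (x : AlgebraicClosure ℚ) ∈ K0) :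
    ∃ y : A0 A K0, incl A K0 y = x :=
  ⟨⟨⟨(x : AlgebraicClosure ℚ), hx⟩, x.2⟩, Subtype.ext rfl⟩

/-- The map of residue fields `k0 → k`. -/
noncomputable def resMap : IsLocalRing.ResidueField (A0 A K0) →+* IsLocalRing.ResidueField A :=
  IsLocalRing.ResidueField.map (incl A K0)

@[simp] theorem resMap_residue (x : A0 A K0) :
    resMap A K0 (IsLocalRing.residue _ x) = IsLocalRing.residue A (incl A K0 x) :=
  IsLocalRing.ResidueField.map_residue _ _

theorem resMap_injective : Function.Injective (resMap A K0) := RingHom.injective _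

theorem resMap_comp_residue :
    (resMap A K0).comp (IsLocalRing.residue (A0 A K0)) = (IsLocalRing.residue A).comp (incl A K0) :=
  RingHom.ext fun x => resMap_residue A K0 x

theorem subtype_comp_incl :
    A.subtype.comp (incl A K0) =
      (algebraMap K0 (AlgebraicClosure ℚ)).comp (A0 A K0).subtype :=
  RingHom.ext fun _ => rfl

/-- Compatibility of the two embeddings of integral `q`-series. -/
theorem coeffMap_subtype_incl (Y : LaurentSeries (A0 A K0)) :
    coeffMap A.subtype (coeffMap (incl A K0) Y) =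
      coeffMap (algebraMap K0 (AlgebraicClosure ℚ)) (coeffMap (A0 A K0).subtype Y) := by
  rw [coeffMap_coeffMap, coeffMap_coeffMap, subtype_comp_incl]

/-- Compatibility of the two coefficientwise reductions. -/
theorem coeffMap_residue_incl (Y : LaurentSeries (A0 A K0)) :
    coeffMap (IsLocalRing.residue A) (coeffMap (incl A K0) Y) =
      coeffMap (resMap A K0) (coeffMap (IsLocalRing.residue (A0 A K0)) Y) := by
  rw [coeffMap_coeffMap, coeffMap_coeffMap, resMap_comp_residue]

theorem coeffMap_incl_injective : Function.Injective (coeffMap (incl A K0)) := by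
  intro x y h
  apply HahnSeries.ext
  funext n
  have := congrArg (fun z => z.coeff n) h
  exact incl_injective A K0 (by simpa using this)

/-- An integral series over `A` all of whose coefficients lie in `K0` comes from `A ∩ K0`. -/
theorem exists_coeffMap_incl_eq (Y : LaurentSeries A)
    (hY : ∀ n : ℤ, ((Y.coeff n : A) : AlgebraicClosure ℚ) ∈ K0) :
    ∃ Y0 : LaurentSeries (A0 A K0), coeffMap (incl A K0) Y0 = Y := by
  classical
  let g : ZeroHom A (A0 A K0) :=
    { toFun := fun x => if hx : (x : AlgebraicClosure ℚ) ∈ K0 then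
        ⟨⟨(x : AlgebraicClosure ℚ), hx⟩, x.2⟩ else 0
      map_zero' := by
        have h0 : ((0 : A) : AlgebraicClosure ℚ) ∈ K0 := by simp
        rw [dif_pos h0]
        exact Subtype.ext (Subtype.ext rfl) }
  refine ⟨Y.map g, ?_⟩
  apply HahnSeries.ext
  funext n
  rw [coeffMap_coeff, HahnSeries.map_coeff]
  show incl A K0 (g (Y.coeff n)) = Y.coeff n
  have : g (Y.coeff n) = ⟨⟨(Y.coeff n : AlgebraicClosure ℚ), hY n⟩, (Y.coeff n).2⟩ := dif_pos (hY n)
  rw [this]
  exact Subtype.ext rfl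

theorem coeffMap_resMap_injective : Function.Injective (coeffMap (resMap A K0)) := by
  intro x y h
  apply HahnSeries.ext
  funext n
  have := congrArg (fun z => z.coeff n) h
  exact resMap_injective A K0 (by simpa using this)

/-- The reduction of an `A0`-integral series vanishes over `k` iff it vanishes over `k0`. -/
theorem coeffMap_residue_incl_eq_zero_iff (Y : LaurentSeries (A0 A K0)) :
    coeffMap (IsLocalRing.residue A) (coeffMap (incl A K0) Y) = 0 ↔
      coeffMap (IsLocalRing.residue (A0 A K0)) Y = 0 := by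
  rw [coeffMap_residue_incl]
  constructor
  · intro h
    exact coeffMap_resMap_injective A K0 (by rw [h, map_zero])
  · intro h
    rw [h, map_zero]

/-- A series over `K0` which is `A`-integral (after extending coefficients to `ℚ̄`) is
`A ∩ K0`-integral. -/
theorem exists_coeffMap_subtype_eq (Y : LaurentSeries A) (y0 : LaurentSeries K0)
    (h : coeffMap (algebraMap K0 (AlgebraicClosure ℚ)) y0 = coeffMap A.subtype Y) :
    ∃ Y0 : LaurentSeries (A0 A K0),
      coeffMap (A0 A K0).subtype Y0 = y0 ∧ coeffMap (incl A K0) Y0 = Y := by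
  have hc : ∀ n : ℤ, ((y0.coeff n : K0) : AlgebraicClosure ℚ) = ((Y.coeff n : A) : AlgebraicClosure ℚ) := by
    intro n
    have := congrArg (fun z => z.coeff n) h
    simpa using this
  obtain ⟨Y0, hY0⟩ := exists_coeffMap_incl_eq A K0 Y (fun n => by rw [← hc n]; exact (y0.coeff n).2)
  refine ⟨Y0, ?_, hY0⟩
  apply HahnSeries.ext
  funext n
  apply Subtype.ext
  rw [hc n, ← hY0]
  rfl

end Frozen

section FrozenNF

variable (A : ValuationSubring (AlgebraicClosure ℚ))
  (K0 : IntermediateField ℚ (AlgebraicClosure ℚ)) {ℓ : ℕ}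

/-- The residue field of `A ∩ K0` has characteristic `ℓ`. -/
theorem charP_residueField_A0 (hℓ : ℓ.Prime) (hA : A.LiesOverPrime ℓ) :
    CharP (IsLocalRing.ResidueField (A0 A K0)) ℓ :=
  charP_residueField (A0 A K0) (A0_liesOverPrime A K0 hA) hℓ

/-- Integers prime to `ℓ` are units of `A ∩ K0`. -/
theorem isUnit_natCast_A0 (hℓ : ℓ.Prime) (hA : A.LiesOverPrime ℓ) {n : ℕ} (hn : ¬ ℓ ∣ n) :
    IsUnit ((n : ℕ) : A0 A K0) :=
  isUnit_natCast (A0 A K0) (A0_liesOverPrime A K0 hA) hℓ hn

theorem natCast_mem_maximalIdeal_A0 (hA : A.LiesOverPrime ℓ) :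
    ((ℓ : ℕ) : A0 A K0) ∈ IsLocalRing.maximalIdeal (A0 A K0) :=
  natCast_mem_maximalIdeal (A0 A K0) (A0_liesOverPrime A K0 hA)

theorem natCast_ne_zero_A0 (hℓ : ℓ.Prime) : ((ℓ : ℕ) : A0 A K0) ≠ 0 := by
  exact_mod_cast hℓ.ne_zero

/-- The image in `A` of a nonunit of `A ∩ K0` (e.g. of a uniformiser) lies in `𝔪_A`. -/
theorem incl_mem_maximalIdeal_of_irreducible {ϖ : A0 A K0} (hϖ : Irreducible ϖ) :
    incl A K0 ϖ ∈ IsLocalRing.maximalIdeal A :=
  (incl_mem_maximalIdeal_iff A K0 ϖ).mpr ((IsLocalRing.mem_maximalIdeal _).mpr hϖ.not_isUnit)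

/-- Rank one for `A` relative to a uniformiser of `A ∩ K0`: every nonzero element of `A`
divides a power of (the image of) `ϖ`. -/
theorem exists_dvd_incl_pow (hℓ : ℓ.Prime) (hA : A.LiesOverPrime ℓ) {ϖ : A0 A K0}
    (hϖ : Irreducible ϖ) (c : A) (hc : c ≠ 0) : ∃ n : ℕ, c ∣ incl A K0 ϖ ^ n :=
  exists_dvd_pow_Qbar A hA hℓ (incl_mem_maximalIdeal_of_irreducible A K0 hϖ) c hc

variable [FiniteDimensional ℚ K0]

/-- A finite-dimensional intermediate field of `ℚ̄/ℚ` is a number field. -/
theorem numberField_of_finiteDimensional : NumberField K0 where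
  to_charZero := inferInstance
  to_finiteDimensional := by
    convert (inferInstance : FiniteDimensional ℚ K0)

/-- **(D1)** `A ∩ K0` is a discrete valuation ring. -/
theorem isDiscreteValuationRing_A0 (hℓ : ℓ.Prime) (hA : A.LiesOverPrime ℓ) :
    IsDiscreteValuationRing (A0 A K0) := by
  have := numberField_of_finiteDimensional K0
  exact isDiscreteValuationRing_of_liesOverPrime (A0 A K0) hℓ (A0_liesOverPrime A K0 hA)

/-- **(D3)** the residue field of `A ∩ K0` is finite. -/
theorem finite_residueField_A0 (hℓ : ℓ.Prime) (hA : A.LiesOverPrime ℓ) :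
    Finite (IsLocalRing.ResidueField (A0 A K0)) := by
  have := numberField_of_finiteDimensional K0
  exact finite_residueField_of_liesOverPrime (A0 A K0) hℓ (A0_liesOverPrime A K0 hA)

/-- **(D2)** existence of a uniformiser `ϖ` of `A ∩ K0`; its image in `A` lies in `𝔪_A`, and
`ℓ = u * ϖ ^ e` with `e > 0`. -/
theorem exists_uniformiser (hℓ : ℓ.Prime) (hA : A.LiesOverPrime ℓ) :
    ∃ ϖ : A0 A K0, Irreducible ϖ ∧ incl A K0 ϖ ∈ IsLocalRing.maximalIdeal A ∧
      ∃ (e : ℕ) (u : (A0 A K0)ˣ), 0 < e ∧ ((ℓ : ℕ) : A0 A K0) = u * ϖ ^ e := by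
  have := isDiscreteValuationRing_A0 A K0 hℓ hA
  obtain ⟨ϖ, hϖ⟩ := IsDiscreteValuationRing.exists_irreducible (A0 A K0)
  refine ⟨ϖ, hϖ, incl_mem_maximalIdeal_of_irreducible A K0 hϖ, ?_⟩
  obtain ⟨e, u, he⟩ := IsDiscreteValuationRing.eq_unit_mul_pow_irreducible
    (natCast_ne_zero_A0 A K0 hℓ) hϖ
  refine ⟨e, u, ?_, he⟩
  rcases Nat.eq_zero_or_pos e with h0 | h0
  · exfalso
    rw [h0, pow_zero, mul_one] at he
    have h1 := natCast_mem_maximalIdeal_A0 A K0 hA
    rw [he] at h1
    exact (IsLocalRing.mem_maximalIdeal _).mp h1 u.isUnit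
  · exact h0

/-- The maximal ideal of `A ∩ K0` is generated by any irreducible element. -/
theorem maximalIdeal_A0_eq_span (hℓ : ℓ.Prime) (hA : A.LiesOverPrime ℓ) {ϖ : A0 A K0}
    (hϖ : Irreducible ϖ) : IsLocalRing.maximalIdeal (A0 A K0) = Ideal.span {ϖ} := by
  have := isDiscreteValuationRing_A0 A K0 hℓ hA
  exact hϖ.maximalIdeal_eq

/-- The residue map of `A ∩ K0` kills exactly the multiples of a uniformiser. -/
theorem residue_A0_eq_zero_iff (hℓ : ℓ.Prime) (hA : A.LiesOverPrime ℓ) {ϖ : A0 A K0}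
    (hϖ : Irreducible ϖ) (x : A0 A K0) :
    IsLocalRing.residue (A0 A K0) x = 0 ↔ ϖ ∣ x := by
  rw [IsLocalRing.residue_eq_zero_iff, maximalIdeal_A0_eq_span A K0 hℓ hA hϖ,
    Ideal.mem_span_singleton]

/-- Non-multiples of a uniformiser are units of `A ∩ K0`. -/
theorem isUnit_A0_iff_not_dvd (hℓ : ℓ.Prime) (hA : A.LiesOverPrime ℓ) {ϖ : A0 A K0}
    (hϖ : Irreducible ϖ) (x : A0 A K0) : IsUnit x ↔ ¬ ϖ ∣ x := by
  rw [← residue_A0_eq_zero_iff A K0 hℓ hA hϖ, IsLocalRing.residue_eq_zero_iff,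
    IsLocalRing.mem_maximalIdeal, mem_nonunits_iff, not_not]

/-- Every nonzero element of `A ∩ K0` is a unit times a power of a uniformiser. -/
theorem eq_unit_mul_pow_A0 (hℓ : ℓ.Prime) (hA : A.LiesOverPrime ℓ) {ϖ : A0 A K0}
    (hϖ : Irreducible ϖ) {x : A0 A K0} (hx : x ≠ 0) :
    ∃ (n : ℕ) (u : (A0 A K0)ˣ), x = u * ϖ ^ n := by
  have := isDiscreteValuationRing_A0 A K0 hℓ hA
  exact IsDiscreteValuationRing.eq_unit_mul_pow_irreducible hx hϖ

/-- **(D2), harch.** Every nonzero element of `A ∩ K0` divides a power of a uniformiser. -/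
theorem exists_dvd_pow_A0 (hℓ : ℓ.Prime) (hA : A.LiesOverPrime ℓ) {ϖ : A0 A K0}
    (hϖ : Irreducible ϖ) (c : A0 A K0) (hc : c ≠ 0) : ∃ n : ℕ, c ∣ ϖ ^ n := by
  obtain ⟨n, u, rfl⟩ := eq_unit_mul_pow_A0 A K0 hℓ hA hϖ hc
  exact ⟨n, (Units.mul_left_dvd).mpr dvd_rfl⟩

/-- Separatedness: a nonzero element of `A ∩ K0` is not divisible by all powers of a
uniformiser. -/
theorem exists_not_pow_dvd_A0 (hℓ : ℓ.Prime) (hA : A.LiesOverPrime ℓ) {ϖ : A0 A K0}
    (hϖ : Irreducible ϖ) (c : A0 A K0) (hc : c ≠ 0) : ∃ n : ℕ, ¬ ϖ ^ n ∣ c := by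
  obtain ⟨n, hn⟩ := exists_dvd_pow_A0 A K0 hℓ hA hϖ c hc
  refine ⟨n + 1, fun h => ?_⟩
  have h1 : ϖ ^ (n + 1) ∣ ϖ ^ n := h.trans hn
  have h2 : ϖ ^ n * ϖ ∣ ϖ ^ n * 1 := by simpa [pow_succ] using h1
  have h3 : ϖ ∣ 1 := (mul_dvd_mul_iff_left (pow_ne_zero n hϖ.ne_zero)).mp h2
  exact hϖ.not_isUnit (isUnit_of_dvd_one h3)

end FrozenNF

section Exhaustion

/-- **(D4)** every finite subset of `ℚ̄` lies in a number field `K0 ⊆ ℚ̄` containing a given
number field `K1`. -/
theorem exists_finiteDimensional_ge (S : Finset (AlgebraicClosure ℚ))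
    (K1 : IntermediateField ℚ (AlgebraicClosure ℚ)) [FiniteDimensional ℚ K1] :
    ∃ K0 : IntermediateField ℚ (AlgebraicClosure ℚ),
      FiniteDimensional ℚ K0 ∧ K1 ≤ K0 ∧ ∀ x ∈ S, x ∈ K0 := by
  have hint : ∀ x ∈ (S : Set (AlgebraicClosure ℚ)), IsIntegral ℚ x := by
    intro x _
    have h := isAlgebraic_int_Qbar x
    exact ((IsFractionRing.isAlgebraic_iff ℤ ℚ (AlgebraicClosure ℚ)).mp h).isIntegral
  have hfin : FiniteDimensional ℚ (IntermediateField.adjoin ℚ (S : Set (AlgebraicClosure ℚ))) :=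
    IntermediateField.finiteDimensional_adjoin hint
  refine ⟨IntermediateField.adjoin ℚ (S : Set (AlgebraicClosure ℚ)) ⊔ K1,
    IntermediateField.finiteDimensional_sup _ _, le_sup_right, fun x hx => ?_⟩
  exact (le_sup_left : IntermediateField.adjoin ℚ (S : Set (AlgebraicClosure ℚ)) ≤ _)
    (IntermediateField.subset_adjoin ℚ _ hx)

/-- every finite subset of `ℚ̄` lies in a number field `K0 ⊆ ℚ̄`. -/
theorem exists_finiteDimensional (S : Finset (AlgebraicClosure ℚ)) :
    ∃ K0 : IntermediateField ℚ (AlgebraicClosure ℚ),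
      FiniteDimensional ℚ K0 ∧ ∀ x ∈ S, x ∈ K0 := by
  obtain ⟨K0, h1, _, h3⟩ := exists_finiteDimensional_ge S ⊥
  exact ⟨K0, h1, h3⟩

end Exhaustion

end Fermat.Agent.S18.H86
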