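import Mathlib
import Fermat.Agent.S18.GaussA_helper93
import Fermat.Agent.S28.PsiFinal_helper50
import Fermat.Agent.S28.Monomials_helper72
import Fermat.Agent.S28.DegUpper_helper81

/-!
# S18: the Gauss valuation of the modular function field `L(j(q^d) : d ∣ N)` (helper93)

For ANY field `L` of characteristic zero, ANY valuation subring `A` of `L` whose residue field
`κ` has characteristic `ℓ ∤ N` (the frozen `A ⊆ ℚ̄`, or a discrete `A₀ = A ∩ K₀` in a number
field), the field `F = modularFunctionFieldFullC L N ⊆ L((q))` carries a `GaussData`: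
the `ψ(N)` integral monomials of S28 span `F` over `L(j)` and have `κ(J)`-independent
reductions.  Hence all results of `GaussA_helper93` apply (`gaussW`, `gaussRho`, ...).
-/

set_option autoImplicit false

noncomputable section

open HahnSeries ModularCurve
open Fermat.Agent.S28

namespace Fermat.Agent.S18.H93

section Monomials

/-- Integral monomials in the `j(q^d)` land in the function field over every field. -/
theorem coeffMap_int_mem_full (K : Type*) [Field K] (N : ℕ) [NeZero N] {x : LaurentSeries ℤ}
    (hx : x ∈ Submonoid.closure (H72.gensZ N)) :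
    coeffMap (Int.castRingHom K) x ∈ modularFunctionFieldFullC K N := by
  induction hx using Submonoid.closure_induction with
  | mem x hx =>
    obtain ⟨d, hd, hdN, rfl⟩ := hx
    rw [H72.coeffMap_qExpand_jqModC]
    exact jqModCd_mem_full K N hdN
  | one => rw [map_one]; exact one_mem _
  | mul x y _ _ hx hy => rw [map_mul]; exact mul_mem hx hy

/-- `ψ(N)` integral monomials whose reductions are `κ(J)`-independent, over ANY field `κ` of
characteristic `ℓ ∤ N` (descent from the algebraic closure). -/
theorem exists_monomials_char (κ : Type*) [Field κ] (ℓ : ℕ) [Fact ℓ.Prime] [CharP κ ℓ]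
    (N : ℕ) [NeZero N] (hℓN : ¬ ℓ ∣ N) :
    ∃ b : Fin (dedekindPsi N) → LaurentSeries ℤ,
      (∀ i, b i ∈ Submonoid.closure (H72.gensZ N)) ∧
      LinearIndependent ↥(IntermediateField.adjoin κ {jqModC κ})
        (fun i => coeffMap (Int.castRingHom κ) (b i)) := by
  have : CharP (AlgebraicClosure κ) ℓ :=
    charP_of_injective_algebraMap (algebraMap κ (AlgebraicClosure κ)).injective ℓ
  obtain ⟨b, hb, hli⟩ := H72.exists_monomials_field (AlgebraicClosure κ) N
    (H50.psi_le_char (AlgebraicClosure κ) ℓ N hℓN)
  refine ⟨b, hb, ?_⟩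
  refine H72.linearIndependent_of_coeffMap (algebraMap κ (AlgebraicClosure κ)) _ ?_
  have : (fun i => coeffMap (algebraMap κ (AlgebraicClosure κ))
      (coeffMap (Int.castRingHom κ) (b i))) =
      fun i => coeffMap (Int.castRingHom (AlgebraicClosure κ)) (b i) := by
    funext i
    rw [coeffMap_coeffMap]
    exact coeffMap_congr (RingHom.ext_int _ _) _
  rw [this]
  exact hli

/-- `J` is transcendental, in `evC` form. -/
theorem evC_jqModC_eq_zero (K : Type*) [Field K] (P : Polynomial K)
    (h : evC P (jqModC K) = 0) : P = 0 := by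
  by_contra hP
  exact H72.aeval_jqModC_ne_zero K hP (by rw [← evC_eq_aeval]; exact h)

/-- Linear independence over `K(J)` in polynomial form. -/
theorem indep_poly_of_linearIndependent (K : Type*) [Field K] {n : ℕ}
    (c : Fin n → LaurentSeries K)
    (h : LinearIndependent ↥(IntermediateField.adjoin K {jqModC K}) c)
    (Q : Fin n → Polynomial K) (hQ : ∑ i, evC (Q i) (jqModC K) * c i = 0) : Q = 0 := by
  have hmem : ∀ i, evC (Q i) (jqModC K) ∈ IntermediateField.adjoin K {jqModC K} := fun i =>
    evC_mem _ (IntermediateField.subset_adjoin K _ (Set.mem_singleton _)) _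
  have h0 := Fintype.linearIndependent_iff.mp h (fun i => ⟨evC (Q i) (jqModC K), hmem i⟩) (by
    rw [← hQ]
    refine Finset.sum_congr rfl fun i _ => ?_
    rw [IntermediateField.smul_def, smul_eq_mul])
  funext i
  exact evC_jqModC_eq_zero K _ (congrArg Subtype.val (h0 i))

end Monomials

section Span

variable (L : Type*) [Field L] [CharZero L] (N : ℕ) [NeZero N]

/-- Every integral monomial satisfies a relation over `L[j]` with the `b i` (from the S28
upper bound `[F_N : ℚ(j)] ≤ ψ(N)`). -/
theorem exists_rel_monomial (b : Fin (dedekindPsi N) → LaurentSeries ℤ)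
    (hb : ∀ i, b i ∈ Submonoid.closure (H72.gensZ N))
    (hind : ∀ Q : Fin (dedekindPsi N) → Polynomial L,
      ∑ i, evC (Q i) (jqModC L) * coeffMap (Int.castRingHom L) (b i) = 0 → Q = 0)
    (m : LaurentSeries ℤ) (hm : m ∈ Submonoid.closure (H72.gensZ N)) :
    ∃ (P : Polynomial L) (Q : Fin (dedekindPsi N) → Polynomial L), P ≠ 0 ∧
      evC P (jqModC L) * coeffMap (Int.castRingHom L) m =
        ∑ i, evC (Q i) (jqModC L) * coeffMap (Int.castRingHom L) (b i) := by
  classical
  set φ : ℚ →+* L := algebraMap ℚ L with hφ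
  let v : Option (Fin (dedekindPsi N)) → LaurentSeries ℚ := fun o =>
    o.elim (coeffMap (Int.castRingHom ℚ) m) (fun i => coeffMap (Int.castRingHom ℚ) (b i))
  have hv : ∀ o, v o ∈ modularFunctionFieldFull N := by
    intro o
    cases o with
    | none => exact coeffMap_int_mem_full ℚ N hm
    | some i => exact coeffMap_int_mem_full ℚ N (hb i)
  obtain ⟨p, hp, hrel⟩ := H81.exists_poly_relation N v hv (by
    rw [Fintype.card_option, Fintype.card_fin]; exact Nat.lt_succ_self _)
  have hcomp : ∀ x : LaurentSeries ℤ,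
      coeffMap φ (coeffMap (Int.castRingHom ℚ) x) = coeffMap (Int.castRingHom L) x := by
    intro x
    rw [coeffMap_coeffMap]
    exact coeffMap_congr (RingHom.ext_int _ _) _
  have hev : ∀ q : Polynomial ℚ, coeffMap φ (Polynomial.aeval jq q) =
      evC (q.map φ) (jqModC L) := by
    intro q
    rw [← jqModC_rat, ← evC_eq_aeval, coeffMap_evC, coeffMap_jqModC]
  have hrelL := congrArg (coeffMap φ) hrel
  rw [map_sum, map_zero, Fintype.sum_option] at hrelL
  simp only [map_mul, hev] at hrelL
  have hv0 : coeffMap φ (v none) = coeffMap (Int.castRingHom L) m := hcomp m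
  have hvi : ∀ i, coeffMap φ (v (some i)) = coeffMap (Int.castRingHom L) (b i) := fun i => hcomp _
  rw [hv0] at hrelL
  simp only [hvi] at hrelL
  have hinj : Function.Injective (Polynomial.map φ) := Polynomial.map_injective φ φ.injective
  have hP : (p none).map φ ≠ 0 := by
    intro h0
    rw [h0, evC_zero, zero_mul, zero_add] at hrelL
    have hall := hind (fun i => (p (some i)).map φ) hrelL
    apply hp
    funext o
    cases o with
    | none => exact hinj (h0.trans (Polynomial.map_zero φ).symm)
    | some i => exact hinj ((congrFun hall i).trans (Polynomial.map_zero φ).symm)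
  refine ⟨(p none).map φ, fun i => -((p (some i)).map φ), hP, ?_⟩
  have e : ∑ i, evC (-((p (some i)).map φ)) (jqModC L) * coeffMap (Int.castRingHom L) (b i) =
      -∑ i, evC ((p (some i)).map φ) (jqModC L) * coeffMap (Int.castRingHom L) (b i) := by
    rw [← Finset.sum_neg_distrib]
    refine Finset.sum_congr rfl fun i _ => ?_
    unfold evC
    rw [Polynomial.eval₂_neg, neg_mul]
  rw [e]
  exact eq_neg_of_add_eq_zero_left hrelL

end Span

section SpanField

variable (L : Type*) [Field L]

/-- The subfield `L(J)` of `L((q))`. -/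
abbrev EJ : IntermediateField L (LaurentSeries L) := IntermediateField.adjoin L {jqModC L}

theorem evC_mem_EJ (P : Polynomial L) : evC P (jqModC L) ∈ EJ L :=
  evC_mem _ (IntermediateField.subset_adjoin L _ (Set.mem_singleton _)) _

theorem evC_mul {R : Type*} [CommRing R] (P Q : Polynomial R) (x : LaurentSeries R) :
    evC (P * Q) x = evC P x * evC Q x := by
  unfold evC
  rw [Polynomial.eval₂_mul]

variable {L} {n : ℕ} (c : Fin n → LaurentSeries L)

/-- A polynomial relation gives membership in the `L(J)`-span. -/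
theorem mem_span_of_rel (x : LaurentSeries L) (P : Polynomial L) (Q : Fin n → Polynomial L)
    (hP : P ≠ 0) (h : evC P (jqModC L) * x = ∑ i, evC (Q i) (jqModC L) * c i) :
    x ∈ Submodule.span (EJ L) (Set.range c) := by
  have hP0 : evC P (jqModC L) ≠ 0 := fun h0 => hP (evC_jqModC_eq_zero L P h0)
  have hx : x = ∑ i, (⟨(evC P (jqModC L))⁻¹ * evC (Q i) (jqModC L),
      mul_mem (inv_mem (evC_mem_EJ L P)) (evC_mem_EJ L (Q i))⟩ : EJ L) • c i := by
    have h1 : x = (evC P (jqModC L))⁻¹ * ∑ i, evC (Q i) (jqModC L) * c i := by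
      rw [← h, ← mul_assoc, inv_mul_cancel₀ hP0, one_mul]
    rw [h1, Finset.mul_sum]
    refine Finset.sum_congr rfl fun i _ => ?_
    rw [IntermediateField.smul_def, smul_eq_mul, mul_assoc]
  rw [hx]
  exact Submodule.sum_mem _ fun i _ => Submodule.smul_mem _ _ (Submodule.subset_span ⟨i, rfl⟩)

/-- Membership in the `L(J)`-span gives a polynomial relation (clearing denominators). -/
theorem exists_rel_of_mem_span (x : LaurentSeries L)
    (hx : x ∈ Submodule.span (EJ L) (Set.range c)) :
    ∃ (P : Polynomial L) (Q : Fin n → Polynomial L), P ≠ 0 ∧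
      evC P (jqModC L) * x = ∑ i, evC (Q i) (jqModC L) * c i := by
  classical
  obtain ⟨g, rfl⟩ := (Submodule.mem_span_range_iff_exists_fun (EJ L)).mp hx
  have hrs : ∀ i, ∃ r s : Polynomial L, evC s (jqModC L) ≠ 0 ∧
      (g i : LaurentSeries L) * evC s (jqModC L) = evC r (jqModC L) := by
    intro i
    obtain ⟨r, s, hrs⟩ := (IntermediateField.mem_adjoin_simple_iff L _).mp (g i).2
    by_cases hs : Polynomial.aeval (jqModC L) s = 0
    · refine ⟨0, 1, ?_, ?_⟩
      · rw [evC_eq_aeval, map_one]; exact one_ne_zero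
      · rw [hrs, hs, div_zero, evC_zero, zero_mul]
    · exact ⟨r, s, by rwa [evC_eq_aeval], by
        rw [hrs, evC_eq_aeval, evC_eq_aeval, div_mul_cancel₀ _ hs]⟩
  choose r s hs hrs using hrs
  refine ⟨∏ i, s i, fun i => r i * ∏ k ∈ Finset.univ.erase i, s k, ?_, ?_⟩
  · refine Finset.prod_ne_zero_iff.mpr fun i _ => ?_
    intro h0
    exact hs i (by rw [h0, evC_zero])
  · rw [Finset.mul_sum]
    refine Finset.sum_congr rfl fun i _ => ?_
    rw [← Finset.mul_prod_erase Finset.univ s (Finset.mem_univ i), evC_mul, evC_mul, ← hrs i,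
      IntermediateField.smul_def, smul_eq_mul]
    ring

end SpanField

section Full

variable (L : Type*) [Field L] [CharZero L] (N : ℕ) [NeZero N]

/-- **Spanning.** `L(j(q^d) : d ∣ N)` is contained in the `L(J)`-span of `ψ(N)` integral
monomials that are `L(J)`-independent. -/
theorem full_le_span (b : Fin (dedekindPsi N) → LaurentSeries ℤ)
    (hb : ∀ i, b i ∈ Submonoid.closure (H72.gensZ N))
    (hind : ∀ Q : Fin (dedekindPsi N) → Polynomial L,
      ∑ i, evC (Q i) (jqModC L) * coeffMap (Int.castRingHom L) (b i) = 0 → Q = 0)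
    (x : LaurentSeries L) (hx : x ∈ modularFunctionFieldFullC L N) :
    x ∈ Submodule.span (EJ L) (Set.range fun i => coeffMap (Int.castRingHom L) (b i)) := by
  classical
  set c : Fin (dedekindPsi N) → LaurentSeries L := fun i => coeffMap (Int.castRingHom L) (b i)
    with hc
  set W : Submodule (EJ L) (LaurentSeries L) := Submodule.span (EJ L) (Set.range c) with hW
  have hmon : ∀ m ∈ Submonoid.closure (H72.gensZ N), coeffMap (Int.castRingHom L) m ∈ W := by
    intro m hm
    obtain ⟨P, Q, hP, h⟩ := exists_rel_monomial L N b hb hind m hm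
    exact mem_span_of_rel c _ P Q hP h
  have hone : (1 : LaurentSeries L) ∈ W := by
    have := hmon 1 (one_mem _)
    rwa [map_one] at this
  have hWW : W * W ≤ W := by
    rw [hW, Submodule.span_mul_span]
    refine Submodule.span_le.mpr ?_
    rintro _ ⟨_, ⟨i, rfl⟩, _, ⟨k, rfl⟩, rfl⟩
    have := hmon (b i * b k) (mul_mem (hb i) (hb k))
    rwa [map_mul] at this
  have hmul : ∀ x ∈ W, ∀ y ∈ W, x * y ∈ W := fun x hx y hy =>
    hWW (Submodule.mul_mem_mul hx hy)
  have hfin : FiniteDimensional (EJ L) W := FiniteDimensional.span_of_finite (EJ L)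
    (Set.finite_range c)
  have hinv : ∀ x ∈ W, x⁻¹ ∈ W := by
    intro x hx
    by_cases hx0 : x = 0
    · rw [hx0, inv_zero]; exact zero_mem _
    let f : W →ₗ[EJ L] W :=
      LinearMap.restrict (LinearMap.mulLeft (EJ L) x) (fun w hw => hmul x hx w hw)
    have hfinj : Function.Injective f := by
      intro w w' hww
      have h1 : x * (w : LaurentSeries L) = x * (w' : LaurentSeries L) :=
        congrArg Subtype.val hww
      exact Subtype.ext (mul_left_cancel₀ hx0 h1)
    obtain ⟨w, hw⟩ := LinearMap.surjective_of_injective hfinj ⟨1, hone⟩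
    have h1 : x * (w : LaurentSeries L) = 1 := congrArg Subtype.val hw
    rw [inv_eq_of_mul_eq_one_right h1]
    exact w.2
  rw [modularFunctionFieldFullC] at hx
  induction hx using IntermediateField.adjoin_induction with
  | mem x hx =>
    obtain ⟨d, hd, hdN, rfl⟩ := hx
    have := hmon _ (Submonoid.subset_closure (H72.mem_gensZ hdN))
    rwa [H72.coeffMap_qExpand_jqModC] at this
  | algebraMap a =>
    have h1 : algebraMap L (LaurentSeries L) a ∈ EJ L := (EJ L).algebraMap_mem a
    have h2 := Submodule.smul_mem W (⟨_, h1⟩ : EJ L) hone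
    rwa [IntermediateField.smul_def, smul_eq_mul, mul_one] at h2
  | add x y _ _ hx hy => exact Submodule.add_mem _ hx hy
  | inv x _ hx => exact hinv x hx
  | mul x y _ _ hx hy => exact hmul x hx y hy

/-- **The Gauss data of the modular function field**, for any valuation subring `A` of a
characteristic-zero field `L` with residue characteristic `ℓ ∤ N`. -/
theorem gaussData_full (A : ValuationSubring L) (ℓ : ℕ) [Fact ℓ.Prime]
    [CharP (IsLocalRing.ResidueField A) ℓ] (hℓN : ¬ ℓ ∣ N) :
    ∃ b : Fin (dedekindPsi N) → LaurentSeries ℤ,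
      (∀ i, b i ∈ Submonoid.closure (H72.gensZ N)) ∧
      GaussData A (modularFunctionFieldFullC L N)
        (modularFunctionFieldFullC (IsLocalRing.ResidueField A) N) (jqModC A)
        (fun i => coeffMap (Int.castRingHom A) (b i)) := by
  obtain ⟨b, hb, hli⟩ := exists_monomials_char (IsLocalRing.ResidueField A) ℓ N hℓN
  refine ⟨b, hb, ?_⟩
  have hιJ : iotaA A (jqModC A) = jqModC L := coeffMap_jqModC _
  have hrJ : redA A (jqModC A) = jqModC (IsLocalRing.ResidueField A) := coeffMap_jqModC _
  have hιb : ∀ i, iotaA A (coeffMap (Int.castRingHom A) (b i)) =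
      coeffMap (Int.castRingHom L) (b i) := by
    intro i
    rw [coeffMap_coeffMap]
    exact coeffMap_congr (RingHom.ext_int _ _) _
  have hrb : ∀ i, redA A (coeffMap (Int.castRingHom A) (b i)) =
      coeffMap (Int.castRingHom (IsLocalRing.ResidueField A)) (b i) := by
    intro i
    rw [coeffMap_coeffMap]
    exact coeffMap_congr (RingHom.ext_int _ _) _
  have hindκ : ∀ Q : Fin (dedekindPsi N) → Polynomial (IsLocalRing.ResidueField A),
      ∑ i, evC (Q i) (redA A (jqModC A)) * redA A (coeffMap (Int.castRingHom A) (b i)) = 0 →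
        Q = 0 := by
    intro Q h
    rw [hrJ] at h
    simp only [hrb] at h
    exact indep_poly_of_linearIndependent _ _ hli Q h
  have hindL : ∀ Q : Fin (dedekindPsi N) → Polynomial L,
      ∑ i, evC (Q i) (jqModC L) * coeffMap (Int.castRingHom L) (b i) = 0 → Q = 0 := by
    intro Q h
    refine indep_lift (A := A) (J := jqModC A)
      (b := fun i => coeffMap (Int.castRingHom A) (b i)) hindκ Q ?_
    rw [hιJ]
    simp only [hιb]
    exact h
  refine ⟨?_, ?_, ?_, ?_, ?_, hindκ, ?_⟩
  · rw [hιJ]; exact jqModC_mem_full L N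
  · intro i; rw [hιb]; exact coeffMap_int_mem_full L N (hb i)
  · rw [hrJ]; exact jqModC_mem_full _ N
  · intro i; rw [hrb]; exact coeffMap_int_mem_full _ N (hb i)
  · intro x hx
    obtain ⟨P, Q, hP, h⟩ := exists_rel_of_mem_span _ x (full_le_span L N b hb hindL x hx)
    refine ⟨P, Q, hP, ?_⟩
    rw [hιJ]
    simp only [hιb]
    exact h
  · intro P h
    rw [hrJ] at h
    exact evC_jqModC_eq_zero _ P h

end Full

end Fermat.Agent.S18.H93
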