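/-
S18 helper library (helper95): node GCHART - from an abstract Gauss valuation ring to the
hypotheses of the normality criterion (NC).

Setting: `F` a field, `V ⊆ F` a "Gauss valuation ring" (`S28.H95.IsGauss V ϖ red`, the landed
predicate: `ϖ ≠ 0`, `red ϖ = 0`, `ker red = ϖ V`, every nonzero `x ∈ F` is `ϖ ^ m * u` with
`red u ≠ 0`), `A0` a unique factorisation domain with a prime element `π₀` (e.g. a discrete
valuation ring with its uniformiser), `φ : A0[X] →+* F` a ring hom with `φ (C π₀) = ϖ` and image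
in `V` (the chart coordinate is `x = φ X`), such that
* `htr`  : `red (φ P) = 0 → C π₀ ∣ P`   (`x̄` is transcendental over the residue field);
* `hK1a`, `hK1b` : a field `K₁` with `[Algebra K₁ F]` whose image is the fraction field of `φ(A0[X])`;
* `hind` : `n = [F : K₁]` elements of `V` whose reductions are independent over `k₀[x̄]`.

Results (Mathlib + the landed `S28.RedCore_helper95` only):
* `gauss_chart_hom` : every `b ∈ F` integral over `φ(A0[X])` lies in `V`, and if `b = ϖ w`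
  with `w ∈ V` then `w` is integral over `φ(A0[X])`;
* `exists_rho` : for `[Algebra A0[X] F]`, `B := integralClosure A0[X] F`: a ring hom
  `ρ : B →+* κ` (the restriction of `red`) with `ker ρ = π₀ B`, and `π₀ B` is prime;
* `exists_rho_adjoin` : the same for `B := integralClosure (Algebra.adjoin A0 {x}) F`.
-/
import Mathlib
import Fermat.Agent.S28.RedCore_helper95

set_option autoImplicit false

namespace Fermat.Agent.S18.H95

open Polynomial Fermat.Agent.S28.H95

section Generic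

/-- Transport of integrality of an element along an inclusion of ranges. -/
theorem isIntegralElem_of_range_le {R S F : Type*} [CommRing R] [CommRing S] [CommRing F]
    (f : R →+* F) (g : S →+* F) (h : ∀ r, ∃ s, g s = f r) {b : F} (hb : f.IsIntegralElem b) :
    g.IsIntegralElem b := by
  obtain ⟨p, hp, hpb⟩ := hb
  have hl : p.map f ∈ Polynomial.lifts g := by
    rw [Polynomial.lifts_iff_coeff_lifts]
    intro i
    rw [Polynomial.coeff_map]
    exact h _
  obtain ⟨q, hq, -, hqm⟩ := Polynomial.lifts_and_natDegree_eq_and_monic hl (hp.map f)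
  refine ⟨q, hqm, ?_⟩
  rw [Polynomial.eval₂_eq_eval_map, hq, Polynomial.eval_map]
  exact hpb

/-- An integrally closed domain `A` with an injective ring hom `φ` to a field `F`: an element
`a = φ p / φ q` of `F` which is integral over `φ(A)` lies in `φ(A)`. -/
theorem mem_range_of_isIntegralElem {A F : Type*} [CommRing A] [IsDomain A]
    [IsIntegrallyClosed A] [Field F] (φ : A →+* F) (hφ : Function.Injective φ) (p q : A)
    (hq : q ≠ 0) (a : F) (ha : a * φ q = φ p) (hint : φ.IsIntegralElem a) :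
    ∃ y, φ y = a := by
  let K := FractionRing A
  let ψ : K →+* F := IsFractionRing.lift hφ
  have hψ : ∀ x, ψ (algebraMap A K x) = φ x := fun x => IsFractionRing.lift_algebraMap hφ x
  have hφq : φ q ≠ 0 := fun h0 => hq (hφ (by rw [h0, map_zero]))
  set b : K := algebraMap A K p / algebraMap A K q with hb
  have hψb : ψ b = a := by
    rw [hb, map_div₀, hψ, hψ, ← ha, mul_div_cancel_right₀ _ hφq]
  obtain ⟨f, hf, hfa⟩ := hint
  have hbint : IsIntegral A b := by
    refine ⟨f, hf, ?_⟩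
    apply ψ.injective
    rw [Polynomial.hom_eval₂, map_zero, hψb]
    have : ψ.comp (algebraMap A K) = φ := RingHom.ext hψ
    rw [this]
    exact hfa
  obtain ⟨y, hy⟩ := IsIntegrallyClosed.isIntegral_iff.mp hbint
  exact ⟨y, by rw [← hψ, hy, hψb]⟩

/-- Content normalisation in `A0[X]` with respect to a prime element of `A0`. -/
theorem exists_eq_C_pow_mul {A0 : Type*} [CommRing A0] [IsDomain A0]
    [UniqueFactorizationMonoid A0] (π₀ : A0) (hπ₀ : Irreducible π₀) (P : A0[X]) (hP : P ≠ 0) :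
    ∃ (m : ℕ) (P' : A0[X]), ¬ C π₀ ∣ P' ∧ P = C π₀ ^ m * P' := by
  have hirr : Irreducible (C π₀ : A0[X]) := (Polynomial.prime_C_iff.mpr hπ₀.prime).irreducible
  obtain ⟨m, P', h1, h2⟩ := WfDvdMonoid.max_power_factor hP hirr
  exact ⟨m, P', h1, h2⟩

end Generic

section Chart

variable {A0 F κ K₁ : Type*} [CommRing A0] [IsDomain A0] [UniqueFactorizationMonoid A0]
  [Field F] [CommRing κ] [IsDomain κ] [Field K₁] [Algebra K₁ F]
variable {V : Subring F} {ϖ : V} {red : V →+* κ}

/-- **Gauss chart, ring-hom form.** -/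
theorem gauss_chart_hom (hG : IsGauss V ϖ red) (π₀ : A0) (hπ₀ : Irreducible π₀)
    (φ : A0[X] →+* F) (hϖ : (ϖ : F) = φ (C π₀)) (hφV : ∀ P, φ P ∈ V)
    (htr : ∀ (P : A0[X]) (v : V), (v : F) = φ P → red v = 0 → C π₀ ∣ P)
    (hK1a : ∀ P, ∃ c : K₁, algebraMap K₁ F c = φ P)
    (hK1b : ∀ c : K₁, ∃ P Q : A0[X], φ Q ≠ 0 ∧ algebraMap K₁ F c * φ Q = φ P)
    {n : ℕ} (hn : 0 < n) (hfin : Module.finrank K₁ F = n) (y : Fin n → V)
    (hind : ∀ (P : Fin n → A0[X]) (c : Fin n → V), (∀ i, (c i : F) = φ (P i)) →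
      ∑ i, red (c i) * red (y i) = 0 → ∀ i, C π₀ ∣ P i)
    (b : F) (hb : φ.IsIntegralElem b) :
    b ∈ V ∧ ∀ w : V, b = (ϖ : F) * w → φ.IsIntegralElem (w : F) := by
  classical
  let φV : A0[X] →+* V := φ.codRestrict V hφV
  have hφVc : ∀ P, ((φV P : V) : F) = φ P := fun P => rfl
  have hredπ : ∀ P, C π₀ ∣ P → red (φV P) = 0 := by
    rintro _ ⟨Q, rfl⟩
    have : φV (C π₀ * Q) = ϖ * φV Q := by
      apply Subtype.ext
      push_cast
      rw [hφVc, hφVc, map_mul, hϖ]
    rw [this, map_mul, hG.2.1, zero_mul]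
  have hprim : ∀ P, ¬ C π₀ ∣ P → red (φV P) ≠ 0 := fun P hP h0 => hP (htr P (φV P) rfl h0)
  -- injectivity of `φ`
  have hφinj : Function.Injective φ := by
    rw [injective_iff_map_eq_zero]
    intro P hP
    by_contra hne
    obtain ⟨m, P', hP', rfl⟩ := exists_eq_C_pow_mul π₀ hπ₀ P hne
    rw [map_mul, map_pow, ← hϖ] at hP
    have h0 : φ P' = 0 := by
      rcases mul_eq_zero.mp hP with h | h
      · exact absurd h (pow_ne_zero _ hG.1)
      · exact h
    apply hprim P' hP'
    have : φV P' = 0 := Subtype.ext h0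
    rw [this, map_zero]
  -- elements of `V ∩ K₁` are fractions with primitive denominator
  have hfrac : ∀ c : V, (∃ c₁ : K₁, algebraMap K₁ F c₁ = (c : F)) →
      ∃ P Q : A0[X], ¬ C π₀ ∣ Q ∧ (c : F) * φ Q = φ P := by
    rintro c ⟨c₁, hc₁⟩
    obtain ⟨P, Q, hQ, hPQ⟩ := hK1b c₁
    rw [hc₁] at hPQ
    have hQ0 : Q ≠ 0 := fun h => hQ (by rw [h, map_zero])
    by_cases hP0 : P = 0
    · refine ⟨0, 1, ?_, ?_⟩
      · intro hd
        exact hπ₀.not_isUnit (Polynomial.isUnit_C.mp (isUnit_of_dvd_one hd))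
      · rw [hP0, map_zero] at hPQ
        rcases mul_eq_zero.mp hPQ with h | h
        · rw [h, zero_mul, map_zero]
        · exact absurd h hQ
    obtain ⟨m, Q', hQ', rfl⟩ := exists_eq_C_pow_mul π₀ hπ₀ Q hQ0
    obtain ⟨k, P', hP', rfl⟩ := exists_eq_C_pow_mul π₀ hπ₀ P hP0
    rw [map_mul, map_mul, map_pow, map_pow, ← hϖ] at hPQ
    rcases le_or_gt m k with hmk | hmk
    · refine ⟨C π₀ ^ (k - m) * P', Q', hQ', ?_⟩
      rw [map_mul, map_pow, ← hϖ]
      have hpm : (ϖ : F) ^ m ≠ 0 := pow_ne_zero _ hG.1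
      apply mul_left_cancel₀ hpm
      have e : (ϖ : F) ^ m * ((ϖ : F) ^ (k - m) * φ P') = (ϖ : F) ^ k * φ P' := by
        rw [← mul_assoc, ← pow_add, Nat.add_sub_cancel' hmk]
      rw [e, ← hPQ]
      ring
    · exfalso
      apply hprim P' hP'
      have hkey : φV P' = c * ϖ ^ (m - k) * φV Q' := by
        apply Subtype.ext
        push_cast
        rw [hφVc, hφVc]
        have hpk : (ϖ : F) ^ k ≠ 0 := pow_ne_zero _ hG.1
        apply mul_left_cancel₀ hpk
        rw [← hPQ]
        have e : (ϖ : F) ^ m = (ϖ : F) ^ k * (ϖ : F) ^ (m - k) := by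
          rw [← pow_add, Nat.add_sub_cancel' hmk.le]
        rw [e]
        ring
      rw [hkey, map_mul, map_mul, map_pow, hG.2.1, zero_pow (by omega), mul_zero, zero_mul]
  -- independence in the form of `RedCore`
  have hind' : ∀ c : Fin n → V, (∀ i, (c i : F) ∈ (algebraMap K₁ F).range) →
      ∑ i, red (c i) * red (y i) = 0 → ∀ i, red (c i) = 0 := by
    intro c hc hsum
    choose P Q hQ hPQ using fun i => hfrac (c i) (hc i)
    set D : A0[X] := ∏ j, Q j with hD
    have hDne : red (φV D) ≠ 0 := by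
      rw [hD, map_prod, map_prod]
      exact Finset.prod_ne_zero_iff.mpr fun j _ => hprim (Q j) (hQ j)
    let P' : Fin n → A0[X] := fun i => P i * ∏ j ∈ Finset.univ.erase i, Q j
    have hcP : ∀ i, ((c i * φV D : V) : F) = φ (P' i) := by
      intro i
      push_cast
      rw [hφVc, hD, ← Finset.mul_prod_erase Finset.univ Q (Finset.mem_univ i), map_mul,
        ← mul_assoc, hPQ i, ← map_mul]
    have h2 : ∑ i, red (c i * φV D) * red (y i) = 0 := by
      have : ∀ i, red (c i * φV D) * red (y i) = red (φV D) * (red (c i) * red (y i)) := by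
        intro i
        rw [map_mul]
        ring
      simp_rw [this]
      rw [← Finset.mul_sum, hsum, mul_zero]
    have h3 := hind P' (fun i => c i * φV D) hcP h2
    intro i
    have h4 : red (c i * φV D) = 0 := by
      have e : c i * φV D = φV (P' i) := Subtype.ext (hcP i)
      rw [e]
      exact hredπ _ (h3 i)
    rw [map_mul] at h4
    rcases mul_eq_zero.mp h4 with h | h
    · exact h
    · exact absurd h hDne
  -- the subring `R ⊆ K₁`
  obtain ⟨π₁, hπ₁⟩ := hK1a (C π₀)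
  have hπ₁' : algebraMap K₁ F π₁ = ϖ := by rw [hπ₁, hϖ]
  let R : Subring K₁ := (φ.range).comap (algebraMap K₁ F)
  have hRV : ∀ a ∈ R, algebraMap K₁ F a ∈ V := by
    rintro a ⟨P, hP⟩
    rw [← hP]
    exact hφV P
  have hRic : ∀ a : K₁, IsIntegral R a → a ∈ R := by
    intro a ha
    obtain ⟨P, Q, hQ, hPQ⟩ := hK1b a
    have hQ0 : Q ≠ 0 := fun h => hQ (by rw [h, map_zero])
    have h1 : ((algebraMap K₁ F).comp (algebraMap R K₁)).IsIntegralElem (algebraMap K₁ F a) := by
      obtain ⟨p, hp, hpa⟩ := ha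
      refine ⟨p, hp, ?_⟩
      rw [← Polynomial.hom_eval₂, hpa, map_zero]
    have hint : φ.IsIntegralElem (algebraMap K₁ F a) :=
      isIntegralElem_of_range_le _ φ (fun r => by
        obtain ⟨P, hP⟩ := r.2
        exact ⟨P, hP⟩) h1
    obtain ⟨z, hz⟩ := mem_range_of_isIntegralElem φ hφinj P Q hQ0 (algebraMap K₁ F a) hPQ hint
    exact ⟨z, hz⟩
  have hRπ : ∀ a b : K₁, a ∈ R → algebraMap K₁ F b ∈ V → a = π₁ * b → b ∈ R := by
    rintro a b ⟨P, hP⟩ hbV hab
    have h1 : φ P = (ϖ : F) * algebraMap K₁ F b := by rw [hP, hab, map_mul, hπ₁']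
    have h2 : red (φV P) = 0 := by
      have : φV P = ϖ * ⟨algebraMap K₁ F b, hbV⟩ := Subtype.ext h1
      rw [this, map_mul, hG.2.1, zero_mul]
    obtain ⟨P', rfl⟩ := htr P (φV P) rfl h2
    refine ⟨P', ?_⟩
    rw [map_mul, ← hϖ] at h1
    exact mul_left_cancel₀ hG.1 h1
  have hbR : IsIntegral R b :=
    isIntegralElem_of_range_le φ (algebraMap R F) (fun P => by
      obtain ⟨c, hc⟩ := hK1a P
      exact ⟨⟨c, ⟨P, hc.symm⟩⟩, hc⟩) hb
  obtain ⟨hbV, hw⟩ := hG.integral_of_mul π₁ hπ₁' y hind' hfin hn R hRV hRic hRπ b hbR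
  refine ⟨hbV, fun w hbw => ?_⟩
  exact isIntegralElem_of_range_le (algebraMap R F) φ (fun r => by
    obtain ⟨P, hP⟩ := r.2
    exact ⟨P, hP⟩) (hw w hbw)

end Chart

section Rho

variable {A0 F κ K₁ : Type*} [CommRing A0] [IsDomain A0] [UniqueFactorizationMonoid A0]
  [Field F] [CommRing κ] [IsDomain κ] [Field K₁] [Algebra K₁ F] [Algebra A0[X] F]
variable {V : Subring F} {ϖ : V} {red : V →+* κ}

/-- **Gauss chart, `(NC)` input shape.**  For `B := integralClosure A0[X] F`: `B ⊆ V`, the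
restriction `ρ` of `red` to `B` has kernel `π₀ B`, and `π₀ B` is a prime ideal. -/
theorem exists_rho (hG : IsGauss V ϖ red) (π₀ : A0) (hπ₀ : Irreducible π₀)
    (hϖ : (ϖ : F) = algebraMap A0[X] F (C π₀)) (hφV : ∀ P, algebraMap A0[X] F P ∈ V)
    (htr : ∀ (P : A0[X]) (v : V), (v : F) = algebraMap A0[X] F P → red v = 0 → C π₀ ∣ P)
    (hK1a : ∀ P, ∃ c : K₁, algebraMap K₁ F c = algebraMap A0[X] F P)
    (hK1b : ∀ c : K₁, ∃ P Q : A0[X], algebraMap A0[X] F Q ≠ 0 ∧
      algebraMap K₁ F c * algebraMap A0[X] F Q = algebraMap A0[X] F P)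
    {n : ℕ} (hn : 0 < n) (hfin : Module.finrank K₁ F = n) (y : Fin n → V)
    (hind : ∀ (P : Fin n → A0[X]) (c : Fin n → V), (∀ i, (c i : F) = algebraMap A0[X] F (P i)) →
      ∑ i, red (c i) * red (y i) = 0 → ∀ i, C π₀ ∣ P i) :
    ∃ (hBV : ∀ b : integralClosure A0[X] F, (b : F) ∈ V)
      (ρ : integralClosure A0[X] F →+* κ),
      (∀ b, ρ b = red ⟨b, hBV b⟩) ∧
      RingHom.ker ρ = Ideal.span {algebraMap A0[X] (integralClosure A0[X] F) (C π₀)} ∧
      (Ideal.span {algebraMap A0[X] (integralClosure A0[X] F) (C π₀)}).IsPrime := by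
  have key := fun (b : F) (hb : (algebraMap A0[X] F).IsIntegralElem b) =>
    gauss_chart_hom (K₁ := K₁) hG π₀ hπ₀ (algebraMap A0[X] F) hϖ hφV htr hK1a hK1b hn hfin y
      hind b hb
  have hBV : ∀ b : integralClosure A0[X] F, (b : F) ∈ V := fun b => (key b b.2).1
  let incl : integralClosure A0[X] F →+* V :=
    (integralClosure A0[X] F).val.toRingHom.codRestrict V hBV
  let ρ : integralClosure A0[X] F →+* κ := red.comp incl
  have hρ : ∀ b, ρ b = red ⟨b, hBV b⟩ := fun b => rfl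
  have hπB : incl (algebraMap A0[X] (integralClosure A0[X] F) (C π₀)) = ϖ :=
    Subtype.ext hϖ.symm
  have hker : RingHom.ker ρ =
      Ideal.span {algebraMap A0[X] (integralClosure A0[X] F) (C π₀)} := by
    ext b
    rw [RingHom.mem_ker, Ideal.mem_span_singleton']
    constructor
    · intro hb
      obtain ⟨w, hw⟩ := hG.2.2.1 (incl b) hb
      have hbw : (b : F) = (ϖ : F) * w := congrArg Subtype.val hw
      have hwint : IsIntegral A0[X] (w : F) := (key b b.2).2 w hbw
      refine ⟨⟨(w : F), hwint⟩, ?_⟩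
      apply Subtype.ext
      show (w : F) * algebraMap A0[X] F (C π₀) = (b : F)
      rw [hbw, ← hϖ, mul_comm]
    · rintro ⟨c, rfl⟩
      show red (incl (c * _)) = 0
      rw [map_mul, hπB, map_mul, hG.2.1, mul_zero]
  refine ⟨hBV, ρ, hρ, hker, ?_⟩
  rw [← hker]
  exact RingHom.ker_isPrime ρ

end Rho

section Adjoin

variable {A0 F κ K₁ : Type*} [CommRing A0] [IsDomain A0] [UniqueFactorizationMonoid A0]
  [Field F] [CommRing κ] [IsDomain κ] [Field K₁] [Algebra K₁ F] [Algebra A0 F]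
variable {V : Subring F} {ϖ : V} {red : V →+* κ}

/-- **Gauss chart, subalgebra form.**  For `B := integralClosure (Algebra.adjoin A0 {x}) F`:
`B ⊆ V`, the restriction `ρ` of `red` to `B` has kernel `π₀ B`, and `π₀ B` is a prime ideal. -/
theorem exists_rho_adjoin (hG : IsGauss V ϖ red) (π₀ : A0) (hπ₀ : Irreducible π₀) (x : F)
    (hϖ : (ϖ : F) = algebraMap A0 F π₀) (hφV : ∀ P : A0[X], aeval x P ∈ V)
    (htr : ∀ (P : A0[X]) (v : V), (v : F) = aeval x P → red v = 0 → C π₀ ∣ P)
    (hK1a : ∀ P : A0[X], ∃ c : K₁, algebraMap K₁ F c = aeval x P)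
    (hK1b : ∀ c : K₁, ∃ P Q : A0[X], aeval x Q ≠ 0 ∧ algebraMap K₁ F c * aeval x Q = aeval x P)
    {n : ℕ} (hn : 0 < n) (hfin : Module.finrank K₁ F = n) (y : Fin n → V)
    (hind : ∀ (P : Fin n → A0[X]) (c : Fin n → V), (∀ i, (c i : F) = aeval x (P i)) →
      ∑ i, red (c i) * red (y i) = 0 → ∀ i, C π₀ ∣ P i) :
    ∃ (hBV : ∀ b : integralClosure (Algebra.adjoin A0 {x}) F, (b : F) ∈ V)
      (ρ : integralClosure (Algebra.adjoin A0 {x}) F →+* κ),
      (∀ b, ρ b = red ⟨b, hBV b⟩) ∧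
      RingHom.ker ρ = Ideal.span
        {algebraMap A0 (integralClosure (Algebra.adjoin A0 {x}) F) π₀} ∧
      (Ideal.span {algebraMap A0 (integralClosure (Algebra.adjoin A0 {x}) F) π₀}).IsPrime := by
  set φ : A0[X] →+* F := (aeval x : A0[X] →ₐ[A0] F).toRingHom with hφ
  have hφa : ∀ P, φ P = aeval x P := fun P => rfl
  have hto : ∀ b : F, IsIntegral (Algebra.adjoin A0 {x}) b → φ.IsIntegralElem b := by
    intro b hb
    refine isIntegralElem_of_range_le (algebraMap (Algebra.adjoin A0 {x}) F) φ (fun r => ?_) hb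
    have h1 : (r : F) ∈ (aeval x : A0[X] →ₐ[A0] F).range := by
      rw [← Algebra.adjoin_singleton_eq_range_aeval]
      exact r.2
    obtain ⟨P, hP⟩ := h1
    exact ⟨P, hP⟩
  have hfrom : ∀ b : F, φ.IsIntegralElem b → IsIntegral (Algebra.adjoin A0 {x}) b := by
    intro b hb
    refine isIntegralElem_of_range_le φ (algebraMap (Algebra.adjoin A0 {x}) F) (fun P => ?_) hb
    have h1 : aeval x P ∈ Algebra.adjoin A0 {x} := by
      rw [Algebra.adjoin_singleton_eq_range_aeval]
      exact ⟨P, rfl⟩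
    exact ⟨⟨aeval x P, h1⟩, rfl⟩
  have hϖ' : (ϖ : F) = φ (C π₀) := by rw [hϖ, hφa, aeval_C]
  have key := fun (b : F) (hb : φ.IsIntegralElem b) =>
    gauss_chart_hom (K₁ := K₁) hG π₀ hπ₀ φ hϖ' hφV htr hK1a hK1b hn hfin y hind b hb
  have hBV : ∀ b : integralClosure (Algebra.adjoin A0 {x}) F, (b : F) ∈ V :=
    fun b => (key b (hto b b.2)).1
  let incl : integralClosure (Algebra.adjoin A0 {x}) F →+* V :=
    (integralClosure (Algebra.adjoin A0 {x}) F).val.toRingHom.codRestrict V hBV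
  let ρ : integralClosure (Algebra.adjoin A0 {x}) F →+* κ := red.comp incl
  have hρ : ∀ b, ρ b = red ⟨b, hBV b⟩ := fun b => rfl
  have hπF : ((algebraMap A0 (integralClosure (Algebra.adjoin A0 {x}) F) π₀ :
      integralClosure (Algebra.adjoin A0 {x}) F) : F) = algebraMap A0 F π₀ := rfl
  have hπB : incl (algebraMap A0 (integralClosure (Algebra.adjoin A0 {x}) F) π₀) = ϖ :=
    Subtype.ext (hπF.trans hϖ.symm)
  have hker : RingHom.ker ρ =
      Ideal.span {algebraMap A0 (integralClosure (Algebra.adjoin A0 {x}) F) π₀} := by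
    ext b
    rw [RingHom.mem_ker, Ideal.mem_span_singleton']
    constructor
    · intro hb
      obtain ⟨w, hw⟩ := hG.2.2.1 (incl b) hb
      have hbw : (b : F) = (ϖ : F) * w := congrArg Subtype.val hw
      have hwint : IsIntegral (Algebra.adjoin A0 {x}) (w : F) :=
        hfrom _ ((key b (hto b b.2)).2 w hbw)
      refine ⟨⟨(w : F), hwint⟩, ?_⟩
      apply Subtype.ext
      show (w : F) * algebraMap A0 F π₀ = (b : F)
      rw [hbw, ← hϖ, mul_comm]
    · rintro ⟨c, rfl⟩
      show red (incl (c * _)) = 0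
      rw [map_mul, hπB, map_mul, hG.2.1, mul_zero]
  refine ⟨hBV, ρ, hρ, hker, ?_⟩
  rw [← hker]
  exact RingHom.ker_isPrime ρ

end Adjoin

end Fermat.Agent.S18.H95
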