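/-
S18 helper library (helper95): node GCHART, part 2 - the saturation statement for an ARBITRARY
chart coordinate, with the degree/independence input replaced by integrality (lead's shortcut,
board #1390: no residue-degree count for the base `x = t_M`).

* `coeff_minpoly_mem_of_isIntegral`, `integral_of_mul_of_isIntegral` :
  the main statement of the landed `S28.RedCore_helper95` with the hypothesis
  "`n = [F : K₀]` elements of `V` with independent reductions" replaced by
  "every element of `V` is integral over `V ∩ K₀`";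
* `isIntegral_comap_of_tower` : that hypothesis passes from a subfield `K_j` to any larger
  field `K₁` (e.g. from `K0(j)`, where it is `IsGauss.isIntegral_comap` of `RedCore` for the
  S28 monomials, to `K0(t_M)`);
* `gauss_chart_hom_of_isIntegral`, `exists_rho_of_isIntegral`, `exists_rho_adjoin_of_isIntegral` :
  the chart statements of `GaussChart_helper95` in this form: for
  `B := integralClosure A0[X] F` (resp. of `Algebra.adjoin A0 {x}`): `B ⊆ V`, `B ∩ ϖ V = π₀ B`,
  `ρ := red|_B` has kernel `π₀ B`, `π₀ B` is prime;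
* `exists_eq_pow_mul_of_mem` : `B ∩ ϖ ^ k V = π₀ ^ k B` for all `k` (hsat of the Kummer core).
-/
import Mathlib
import Fermat.Agent.S18.GaussChart_helper95

set_option autoImplicit false

namespace Fermat.Agent.S18.H95

open Polynomial Fermat.Agent.S28.H95

section Core

variable {K₀ F κ : Type*} [Field K₀] [Field F] [Algebra K₀ F] [CommRing κ] [IsDomain κ]
variable {V : Subring F} {π : V} {red : V →+* κ}

/-- The minimal polynomial over `K₀` of an element of `V` which is integral over `V ∩ K₀`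
has coefficients in `V`. -/
theorem coeff_minpoly_mem_of_isIntegral (h : IsGauss V π red) (w : V)
    (hw : IsIntegral (V.comap (algebraMap K₀ F)) (w : F)) (i : ℕ) :
    algebraMap K₀ F ((minpoly K₀ (w : F)).coeff i) ∈ V := by
  set A0 : Subring K₀ := V.comap (algebraMap K₀ F) with hA0
  obtain ⟨p, hp, hpw⟩ := hw
  have hwK : IsIntegral K₀ (w : F) := by
    refine ⟨p.map (algebraMap A0 K₀), hp.map _, ?_⟩
    rw [Polynomial.eval₂_map]
    exact hpw
  have hdvd : minpoly K₀ (w : F) ∣ p.map (algebraMap A0 K₀) := by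
    apply minpoly.dvd
    rw [Polynomial.aeval_def, Polynomial.eval₂_map]
    exact hpw
  have hmon : (minpoly K₀ (w : F)).Monic := minpoly.monic hwK
  have hl := integralClosure.mem_lifts_of_monic_of_dvd_map K₀ hp hmon hdvd
  rw [Polynomial.lifts_iff_coeff_lifts] at hl
  obtain ⟨z, hz⟩ := hl i
  have hzint : IsIntegral A0 (z : K₀) := z.2
  have hzV : IsIntegral V (algebraMap K₀ F (z : K₀)) :=
    hzint.map_of_comp_eq ((algebraMap K₀ F).restrict A0 V fun a ha => ha) (algebraMap K₀ F)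
      (by ext; rfl)
  rw [← hz]
  exact h.mem_of_isIntegral hzV

/-- **Saturation from integrality.**  Let every element of `V` be integral over `V ∩ K₀`, and
let `R ⊆ V ∩ K₀` be integrally closed in `K₀` with `R ∩ π V = π R`.  If `y ∈ F` is integral
over `R` then `y ∈ V`, and if moreover `y = π w` with `w ∈ V` then `w` is integral over `R`. -/
theorem integral_of_mul_of_isIntegral (h : IsGauss V π red) (π₀ : K₀)
    (hπ₀ : algebraMap K₀ F π₀ = π)
    (hint : ∀ w : V, IsIntegral (V.comap (algebraMap K₀ F)) (w : F))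
    (R : Subring K₀) (hRV : ∀ a ∈ R, algebraMap K₀ F a ∈ V)
    (hRic : ∀ a : K₀, IsIntegral R a → a ∈ R)
    (hRπ : ∀ a b : K₀, a ∈ R → algebraMap K₀ F b ∈ V → a = π₀ * b → b ∈ R)
    (y : F) (hy : IsIntegral R y) :
    y ∈ V ∧ ∀ w : V, y = (π : F) * w → IsIntegral R (w : F) := by
  have hyV : IsIntegral V y :=
    hy.map_of_comp_eq ((algebraMap K₀ F).restrict R V hRV) (RingHom.id F) (by ext; rfl)
  refine ⟨h.mem_of_isIntegral hyV, ?_⟩
  intro w hw
  have hπ₀0 : π₀ ≠ 0 := by
    intro h0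
    apply h.1
    rw [← hπ₀, h0, map_zero]
  have hpow : ∀ (k : ℕ) (a b : K₀), a ∈ R → algebraMap K₀ F b ∈ V → a = π₀ ^ k * b → b ∈ R := by
    intro k
    induction k with
    | zero =>
      intro a b ha _ hab
      rw [pow_zero, one_mul] at hab
      rwa [← hab]
    | succ k ih =>
      intro a b ha hb hab
      have hb' : algebraMap K₀ F (π₀ ^ k * b) ∈ V := by
        rw [map_mul, map_pow, hπ₀]
        exact V.mul_mem (V.pow_mem π.2 k) hb
      exact ih _ b (hRπ a (π₀ ^ k * b) ha hb' (by rw [hab]; ring)) hb rfl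
  have hyK : IsIntegral K₀ y := by
    obtain ⟨p, hp, hpy⟩ := hy
    refine ⟨p.map (algebraMap R K₀), hp.map _, ?_⟩
    rw [Polynomial.eval₂_map]
    exact hpy
  have hwK : IsIntegral K₀ (w : F) := by
    obtain ⟨p, hp, hpw⟩ := hint w
    refine ⟨p.map (algebraMap (V.comap (algebraMap K₀ F)) K₀), hp.map _, ?_⟩
    rw [Polynomial.eval₂_map]
    exact hpw
  set μ := minpoly K₀ (w : F) with hμ
  set ν := minpoly K₀ y with hν
  have hμmon : μ.Monic := minpoly.monic hwK
  have hνmon : ν.Monic := minpoly.monic hyK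
  have hνR : ∀ i, ν.coeff i ∈ R := by
    obtain ⟨p, hp, hpy⟩ := hy
    have hdvd : ν ∣ p.map (algebraMap R K₀) := by
      apply minpoly.dvd
      rw [Polynomial.aeval_def, Polynomial.eval₂_map]
      exact hpy
    have hl := integralClosure.mem_lifts_of_monic_of_dvd_map K₀ hp hνmon hdvd
    rw [Polynomial.lifts_iff_coeff_lifts] at hl
    intro i
    obtain ⟨z, hz⟩ := hl i
    rw [← hz]
    exact hRic _ z.2
  have hs1 : (ν.scaleRoots π₀⁻¹).Monic := (Polynomial.monic_scaleRoots_iff _).mpr hνmon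
  have hs2 : (μ.scaleRoots π₀).Monic := (Polynomial.monic_scaleRoots_iff _).mpr hμmon
  have h1 : μ ∣ ν.scaleRoots π₀⁻¹ := by
    apply minpoly.dvd
    have hwy : (w : F) = algebraMap K₀ F π₀⁻¹ * y := by
      rw [hw, map_inv₀, hπ₀, inv_mul_cancel_left₀ h.1]
    rw [hwy, Polynomial.aeval_def, Polynomial.scaleRoots_eval₂_mul, ← Polynomial.aeval_def,
      minpoly.aeval, mul_zero]
  have h2 : ν ∣ μ.scaleRoots π₀ := by
    apply minpoly.dvd
    rw [hw, ← hπ₀, Polynomial.aeval_def, Polynomial.scaleRoots_eval₂_mul, ← Polynomial.aeval_def,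
      minpoly.aeval, mul_zero]
  have hdeg : μ.natDegree = ν.natDegree := by
    apply le_antisymm
    · have := Polynomial.natDegree_le_of_dvd h1 hs1.ne_zero
      rwa [Polynomial.natDegree_scaleRoots] at this
    · have := Polynomial.natDegree_le_of_dvd h2 hs2.ne_zero
      rwa [Polynomial.natDegree_scaleRoots] at this
  have hμeq : ν.scaleRoots π₀⁻¹ = μ :=
    Polynomial.eq_of_monic_of_dvd_of_natDegree_le hμmon hs1 h1
      (by rw [Polynomial.natDegree_scaleRoots, hdeg])
  have hμR : ∀ i, μ.coeff i ∈ R := by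
    intro i
    by_cases hi : i ≤ ν.natDegree
    · have hV : algebraMap K₀ F (μ.coeff i) ∈ V :=
        coeff_minpoly_mem_of_isIntegral h w (hint w) i
      have hc : ν.coeff i = π₀ ^ (ν.natDegree - i) * μ.coeff i := by
        rw [← hμeq, Polynomial.coeff_scaleRoots, inv_pow]
        field_simp
      exact hpow (ν.natDegree - i) _ _ (hνR i) hV hc
    · rw [Polynomial.coeff_eq_zero_of_natDegree_lt (by omega)]
      exact R.zero_mem
  have hl : μ ∈ Polynomial.lifts (algebraMap R K₀) :=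
    (Polynomial.lifts_iff_coeff_lifts μ).mpr fun i => ⟨⟨μ.coeff i, hμR i⟩, rfl⟩
  obtain ⟨q, hq, -, hqmon⟩ := Polynomial.lifts_and_natDegree_eq_and_monic hl hμmon
  refine ⟨q, hqmon, ?_⟩
  have hq2 : eval₂ (algebraMap R F) (w : F) q
      = Polynomial.aeval (w : F) (q.map (algebraMap R K₀)) := by
    rw [Polynomial.aeval_def, Polynomial.eval₂_map]
    rfl
  rw [hq2, hq, minpoly.aeval]

end Core

section Tower

/-- Integrality over `V ∩ K_j` implies integrality over `V ∩ K₁` for a tower `K_j → K₁ → F`. -/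
theorem isIntegral_comap_of_tower {Kj K₁ F : Type*} [Field Kj] [Field K₁] [Field F]
    [Algebra Kj F] [Algebra K₁ F] (V : Subring F) (ι : Kj →+* K₁)
    (hι : ∀ c, algebraMap K₁ F (ι c) = algebraMap Kj F c) (w : F)
    (hw : IsIntegral (V.comap (algebraMap Kj F)) w) :
    IsIntegral (V.comap (algebraMap K₁ F)) w :=
  isIntegralElem_of_range_le (algebraMap (V.comap (algebraMap Kj F)) F)
    (algebraMap (V.comap (algebraMap K₁ F)) F)
    (fun r => ⟨⟨ι r, by
      show algebraMap K₁ F (ι r) ∈ V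
      rw [hι]
      exact r.2⟩, hι r⟩) hw

end Tower

section Chart

variable {A0 F κ K₁ : Type*} [CommRing A0] [IsDomain A0] [UniqueFactorizationMonoid A0]
  [Field F] [CommRing κ] [IsDomain κ] [Field K₁] [Algebra K₁ F]
variable {V : Subring F} {ϖ : V} {red : V →+* κ}

/-- **Gauss chart, ring-hom form, from integrality.**  No degree or independence input: it is
enough that every element of `V` is integral over `V ∩ K₁`. -/
theorem gauss_chart_hom_of_isIntegral (hG : IsGauss V ϖ red) (π₀ : A0) (hπ₀ : Irreducible π₀)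
    (φ : A0[X] →+* F) (hϖ : (ϖ : F) = φ (C π₀)) (hφV : ∀ P, φ P ∈ V)
    (htr : ∀ (P : A0[X]) (v : V), (v : F) = φ P → red v = 0 → C π₀ ∣ P)
    (hK1a : ∀ P, ∃ c : K₁, algebraMap K₁ F c = φ P)
    (hK1b : ∀ c : K₁, ∃ P Q : A0[X], φ Q ≠ 0 ∧ algebraMap K₁ F c * φ Q = φ P)
    (hint : ∀ w : V, IsIntegral (V.comap (algebraMap K₁ F)) (w : F))
    (b : F) (hb : φ.IsIntegralElem b) :
    b ∈ V ∧ ∀ w : V, b = (ϖ : F) * w → φ.IsIntegralElem (w : F) := by
  classical
  let φV : A0[X] →+* V := φ.codRestrict V hφV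
  have hφVc : ∀ P, ((φV P : V) : F) = φ P := fun P => rfl
  have hprim : ∀ P, ¬ C π₀ ∣ P → red (φV P) ≠ 0 := fun P hP h0 => hP (htr P (φV P) rfl h0)
  -- injectivity of `φ`
  have hφinj : Function.Injective φ := by
    rw [injective_iff_map_eq_zero]
    intro P hP
    by_contra hne
    obtain ⟨m, P', hP', rfl⟩ := exists_eq_C_pow_mul π₀ hπ₀ P hne
    rw [map_mul, map_pow, ← hϖ] at hP
    have h0 : φ P' = 0 := by
      rcases mul_eq_zero.mp hP with h | h
      · exact absurd h (pow_ne_zero _ hG.1)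
      · exact h
    apply hprim P' hP'
    have : φV P' = 0 := Subtype.ext h0
    rw [this, map_zero]
  -- the subring `R ⊆ K₁`
  obtain ⟨π₁, hπ₁⟩ := hK1a (C π₀)
  have hπ₁' : algebraMap K₁ F π₁ = ϖ := by rw [hπ₁, hϖ]
  let R : Subring K₁ := (φ.range).comap (algebraMap K₁ F)
  have hRV : ∀ a ∈ R, algebraMap K₁ F a ∈ V := by
    rintro a ⟨P, hP⟩
    rw [← hP]
    exact hφV P
  have hRic : ∀ a : K₁, IsIntegral R a → a ∈ R := by
    intro a ha
    obtain ⟨P, Q, hQ, hPQ⟩ := hK1b a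
    have hQ0 : Q ≠ 0 := fun h => hQ (by rw [h, map_zero])
    have h1 : ((algebraMap K₁ F).comp (algebraMap R K₁)).IsIntegralElem (algebraMap K₁ F a) := by
      obtain ⟨p, hp, hpa⟩ := ha
      refine ⟨p, hp, ?_⟩
      rw [← Polynomial.hom_eval₂, hpa, map_zero]
    have hint' : φ.IsIntegralElem (algebraMap K₁ F a) :=
      isIntegralElem_of_range_le _ φ (fun r => by
        obtain ⟨P, hP⟩ := r.2
        exact ⟨P, hP⟩) h1
    obtain ⟨z, hz⟩ := mem_range_of_isIntegralElem φ hφinj P Q hQ0 (algebraMap K₁ F a) hPQ hint'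
    exact ⟨z, hz⟩
  have hRπ : ∀ a b : K₁, a ∈ R → algebraMap K₁ F b ∈ V → a = π₁ * b → b ∈ R := by
    rintro a b ⟨P, hP⟩ hbV hab
    have h1 : φ P = (ϖ : F) * algebraMap K₁ F b := by rw [hP, hab, map_mul, hπ₁']
    have h2 : red (φV P) = 0 := by
      have : φV P = ϖ * ⟨algebraMap K₁ F b, hbV⟩ := Subtype.ext h1
      rw [this, map_mul, hG.2.1, zero_mul]
    obtain ⟨P', rfl⟩ := htr P (φV P) rfl h2
    refine ⟨P', ?_⟩
    rw [map_mul, ← hϖ] at h1
    exact mul_left_cancel₀ hG.1 h1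
  have hbR : IsIntegral R b :=
    isIntegralElem_of_range_le φ (algebraMap R F) (fun P => by
      obtain ⟨c, hc⟩ := hK1a P
      exact ⟨⟨c, ⟨P, hc.symm⟩⟩, hc⟩) hb
  obtain ⟨hbV, hw⟩ := integral_of_mul_of_isIntegral hG π₁ hπ₁' hint R hRV hRic hRπ b hbR
  refine ⟨hbV, fun w hbw => ?_⟩
  exact isIntegralElem_of_range_le (algebraMap R F) φ (fun r => by
    obtain ⟨P, hP⟩ := r.2
    exact ⟨P, hP⟩) (hw w hbw)

end Chart

section Sat

variable {R₀ F κ : Type*} [CommRing R₀] [Field F] [Algebra R₀ F] [CommRing κ] [IsDomain κ]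
variable {V : Subring F} {ϖ : V} {red : V →+* κ}

/-- From the saturation statement `key` for the integral closure `B` of `R₀` in `F`: the
restriction `ρ` of `red` to `B` has kernel `p B` (where `p ∈ R₀` maps to `ϖ`), and `p B` is
prime. -/
theorem exists_rho_of_sat (hG : IsGauss V ϖ red) (p : R₀) (hp : (ϖ : F) = algebraMap R₀ F p)
    (key : ∀ b : F, IsIntegral R₀ b → b ∈ V ∧ ∀ w : V, b = (ϖ : F) * w → IsIntegral R₀ (w : F)) :
    ∃ (hBV : ∀ b : integralClosure R₀ F, (b : F) ∈ V) (ρ : integralClosure R₀ F →+* κ),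
      (∀ b, ρ b = red ⟨b, hBV b⟩) ∧
      RingHom.ker ρ = Ideal.span {algebraMap R₀ (integralClosure R₀ F) p} ∧
      (Ideal.span {algebraMap R₀ (integralClosure R₀ F) p}).IsPrime := by
  have hBV : ∀ b : integralClosure R₀ F, (b : F) ∈ V := fun b => (key b b.2).1
  let incl : integralClosure R₀ F →+* V :=
    (integralClosure R₀ F).val.toRingHom.codRestrict V hBV
  let ρ : integralClosure R₀ F →+* κ := red.comp incl
  have hρ : ∀ b, ρ b = red ⟨b, hBV b⟩ := fun b => rfl
  have hπB : incl (algebraMap R₀ (integralClosure R₀ F) p) = ϖ := Subtype.ext hp.symm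
  have hker : RingHom.ker ρ = Ideal.span {algebraMap R₀ (integralClosure R₀ F) p} := by
    ext b
    rw [RingHom.mem_ker, Ideal.mem_span_singleton']
    constructor
    · intro hb
      obtain ⟨w, hw⟩ := hG.2.2.1 (incl b) hb
      have hbw : (b : F) = (ϖ : F) * w := congrArg Subtype.val hw
      have hwint : IsIntegral R₀ (w : F) := (key b b.2).2 w hbw
      refine ⟨⟨(w : F), hwint⟩, ?_⟩
      apply Subtype.ext
      show (w : F) * algebraMap R₀ F p = (b : F)
      rw [hbw, ← hp, mul_comm]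
    · rintro ⟨c, rfl⟩
      show red (incl (c * _)) = 0
      rw [map_mul, hπB, map_mul, hG.2.1, mul_zero]
  refine ⟨hBV, ρ, hρ, hker, ?_⟩
  rw [← hker]
  exact RingHom.ker_isPrime ρ

/-- Saturation for all powers: `B ∩ ϖ ^ k V = p ^ k B`. -/
theorem isIntegral_of_eq_pow_mul
    (key : ∀ b : F, IsIntegral R₀ b → b ∈ V ∧ ∀ w : V, b = (ϖ : F) * w → IsIntegral R₀ (w : F))
    (k : ℕ) (b : F) (hb : IsIntegral R₀ b) (w : V) (hbw : b = (ϖ : F) ^ k * w) :
    IsIntegral R₀ (w : F) := by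
  induction k generalizing b with
  | zero =>
    rw [pow_zero, one_mul] at hbw
    rwa [← hbw]
  | succ k ih =>
    have h1 : b = (ϖ : F) * ((ϖ ^ k * w : V) : F) := by
      rw [hbw]
      push_cast
      ring
    have h2 := (key b hb).2 (ϖ ^ k * w) h1
    exact ih _ h2 (by push_cast; rfl)

end Sat

section Rho

variable {A0 F κ K₁ : Type*} [CommRing A0] [IsDomain A0] [UniqueFactorizationMonoid A0]
  [Field F] [CommRing κ] [IsDomain κ] [Field K₁] [Algebra K₁ F] [Algebra A0[X] F]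
variable {V : Subring F} {ϖ : V} {red : V →+* κ}

/-- **Gauss chart from integrality, `(NC)` input shape.**  For `B := integralClosure A0[X] F`:
`B ⊆ V`, `B ∩ ϖ V = π₀ B`, the restriction `ρ` of `red` to `B` has kernel `π₀ B`, and `π₀ B`
is a prime ideal. -/
theorem exists_rho_of_isIntegral (hG : IsGauss V ϖ red) (π₀ : A0) (hπ₀ : Irreducible π₀)
    (hϖ : (ϖ : F) = algebraMap A0[X] F (C π₀)) (hφV : ∀ P, algebraMap A0[X] F P ∈ V)
    (htr : ∀ (P : A0[X]) (v : V), (v : F) = algebraMap A0[X] F P → red v = 0 → C π₀ ∣ P)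
    (hK1a : ∀ P, ∃ c : K₁, algebraMap K₁ F c = algebraMap A0[X] F P)
    (hK1b : ∀ c : K₁, ∃ P Q : A0[X], algebraMap A0[X] F Q ≠ 0 ∧
      algebraMap K₁ F c * algebraMap A0[X] F Q = algebraMap A0[X] F P)
    (hint : ∀ w : V, IsIntegral (V.comap (algebraMap K₁ F)) (w : F)) :
    (∀ b : F, IsIntegral A0[X] b → b ∈ V ∧
        ∀ (k : ℕ) (w : V), b = (ϖ : F) ^ k * w → IsIntegral A0[X] (w : F)) ∧
    ∃ (hBV : ∀ b : integralClosure A0[X] F, (b : F) ∈ V)
      (ρ : integralClosure A0[X] F →+* κ),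
      (∀ b, ρ b = red ⟨b, hBV b⟩) ∧
      RingHom.ker ρ = Ideal.span {algebraMap A0[X] (integralClosure A0[X] F) (C π₀)} ∧
      (Ideal.span {algebraMap A0[X] (integralClosure A0[X] F) (C π₀)}).IsPrime := by
  have key : ∀ b : F, IsIntegral A0[X] b →
      b ∈ V ∧ ∀ w : V, b = (ϖ : F) * w → IsIntegral A0[X] (w : F) := fun b hb =>
    gauss_chart_hom_of_isIntegral (K₁ := K₁) hG π₀ hπ₀ (algebraMap A0[X] F) hϖ hφV htr hK1a
      hK1b hint b hb
  exact ⟨fun b hb => ⟨(key b hb).1, fun k w hbw => isIntegral_of_eq_pow_mul key k b hb w hbw⟩,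
    exists_rho_of_sat hG (C π₀) hϖ key⟩

end Rho

section Adjoin

variable {A0 F κ K₁ : Type*} [CommRing A0] [IsDomain A0] [UniqueFactorizationMonoid A0]
  [Field F] [CommRing κ] [IsDomain κ] [Field K₁] [Algebra K₁ F] [Algebra A0 F]
variable {V : Subring F} {ϖ : V} {red : V →+* κ}

/-- **Gauss chart from integrality, subalgebra form.**  For
`B := integralClosure (Algebra.adjoin A0 {x}) F`: `B ⊆ V`, `B ∩ ϖ ^ k V = π₀ ^ k B`, the
restriction `ρ` of `red` to `B` has kernel `π₀ B`, and `π₀ B` is a prime ideal. -/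
theorem exists_rho_adjoin_of_isIntegral (hG : IsGauss V ϖ red) (π₀ : A0) (hπ₀ : Irreducible π₀)
    (x : F) (hϖ : (ϖ : F) = algebraMap A0 F π₀) (hφV : ∀ P : A0[X], aeval x P ∈ V)
    (htr : ∀ (P : A0[X]) (v : V), (v : F) = aeval x P → red v = 0 → C π₀ ∣ P)
    (hK1a : ∀ P : A0[X], ∃ c : K₁, algebraMap K₁ F c = aeval x P)
    (hK1b : ∀ c : K₁, ∃ P Q : A0[X], aeval x Q ≠ 0 ∧ algebraMap K₁ F c * aeval x Q = aeval x P)
    (hint : ∀ w : V, IsIntegral (V.comap (algebraMap K₁ F)) (w : F)) :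
    (∀ b : F, IsIntegral (Algebra.adjoin A0 {x}) b → b ∈ V ∧
        ∀ (k : ℕ) (w : V), b = (ϖ : F) ^ k * w → IsIntegral (Algebra.adjoin A0 {x}) (w : F)) ∧
    ∃ (hBV : ∀ b : integralClosure (Algebra.adjoin A0 {x}) F, (b : F) ∈ V)
      (ρ : integralClosure (Algebra.adjoin A0 {x}) F →+* κ),
      (∀ b, ρ b = red ⟨b, hBV b⟩) ∧
      RingHom.ker ρ = Ideal.span
        {algebraMap A0 (integralClosure (Algebra.adjoin A0 {x}) F) π₀} ∧
      (Ideal.span {algebraMap A0 (integralClosure (Algebra.adjoin A0 {x}) F) π₀}).IsPrime := by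
  set φ : A0[X] →+* F := (aeval x : A0[X] →ₐ[A0] F).toRingHom with hφ
  have hφa : ∀ P, φ P = aeval x P := fun P => rfl
  have hto : ∀ b : F, IsIntegral (Algebra.adjoin A0 {x}) b → φ.IsIntegralElem b := by
    intro b hb
    refine isIntegralElem_of_range_le (algebraMap (Algebra.adjoin A0 {x}) F) φ (fun r => ?_) hb
    have h1 : (r : F) ∈ (aeval x : A0[X] →ₐ[A0] F).range := by
      rw [← Algebra.adjoin_singleton_eq_range_aeval]
      exact r.2
    obtain ⟨P, hP⟩ := h1
    exact ⟨P, hP⟩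
  have hfrom : ∀ b : F, φ.IsIntegralElem b → IsIntegral (Algebra.adjoin A0 {x}) b := by
    intro b hb
    refine isIntegralElem_of_range_le φ (algebraMap (Algebra.adjoin A0 {x}) F) (fun P => ?_) hb
    have h1 : aeval x P ∈ Algebra.adjoin A0 {x} := by
      rw [Algebra.adjoin_singleton_eq_range_aeval]
      exact ⟨P, rfl⟩
    exact ⟨⟨aeval x P, h1⟩, rfl⟩
  have hϖ' : (ϖ : F) = φ (C π₀) := by rw [hϖ, hφa, aeval_C]
  have key : ∀ b : F, IsIntegral (Algebra.adjoin A0 {x}) b →
      b ∈ V ∧ ∀ w : V, b = (ϖ : F) * w → IsIntegral (Algebra.adjoin A0 {x}) (w : F) := by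
    intro b hb
    obtain ⟨h1, h2⟩ := gauss_chart_hom_of_isIntegral (K₁ := K₁) hG π₀ hπ₀ φ hϖ' hφV htr hK1a
      hK1b hint b (hto b hb)
    exact ⟨h1, fun w hbw => hfrom _ (h2 w hbw)⟩
  refine ⟨fun b hb => ⟨(key b hb).1, fun k w hbw => isIntegral_of_eq_pow_mul key k b hb w hbw⟩,
    ?_⟩
  have hp : (ϖ : F) = algebraMap (Algebra.adjoin A0 {x}) F
      (algebraMap A0 (Algebra.adjoin A0 {x}) π₀) := hϖ
  exact exists_rho_of_sat hG (algebraMap A0 (Algebra.adjoin A0 {x}) π₀) hp key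

end Adjoin

end Fermat.Agent.S18.H95
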