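import Mathlib
import Fermat.Agent.S18.GaussMod_helper93
import Fermat.Agent.S18.GaussSat_helper95

/-!
# S18: the Gauss valuation ring over a discrete valuation ring and the charts (helper93)

Concrete half of the GAUSS node (task 254).  `A` is a valuation subring of `L` which is a DVR
with uniformiser `pi`; `hD : GaussData A F Fk J b` (e.g. `gaussData_full` for
`F = modularFunctionFieldFullC L N`).  Then

* `isGauss_gaussW` : `(gaussW hD, pi, gaussRho hD)` is a Gauss valuation ring in the sense of
  the landed `S28.H95.IsGauss` (so all of `GaussChart_helper95` / `GaussSat_helper95` applies);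
* `mem_nonunits_gaussW_iff`, `exists_eq_mul_of_mem_nonunits` : `pi` generates the maximal ideal
  of `gaussW hD` (the shapes of the Kummer core);
* `isIntegral_comap_adjoin_J` : every element of `gaussW hD` is integral over
  `gaussW hD ∩ L(J)`;
* `gauss_chart` : for ANY chart coordinate `x = iota xA` with `red xA` transcendental and
  `J ∈ L(x)`: the integral closure `B` of `A[x]` in `F` satisfies `B ⊆ gaussW`,
  `B ∩ pi • gaussW = pi • B` (ring-hom form `chartHom A F x : A[X] →+* F`).
-/

set_option autoImplicit false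

noncomputable section

open HahnSeries ModularCurve Polynomial
open Fermat.Agent.S28.H95 (IsGauss)

namespace Fermat.Agent.S18.H93

section DVR

variable {L : Type*} [Field L] {A : ValuationSubring L}
variable {F : IntermediateField L (LaurentSeries L)}
variable {Fk : IntermediateField (IsLocalRing.ResidueField A)
  (LaurentSeries (IsLocalRing.ResidueField A))}
variable {J : LaurentSeries A} {n : ℕ} {b : Fin n → LaurentSeries A}

variable (A F) in
/-- The structure map `A → F` (constants). -/
def constHom : A →+* F := (algebraMap L F).comp A.subtype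

theorem coe_constHom (a : A) :
    ((constHom A F a : F) : LaurentSeries L) = iotaA A (HahnSeries.C a) := by
  rw [coeffMap_C]
  show algebraMap L (LaurentSeries L) (a : L) = _
  rw [← C_eq_algebraMap]
  rfl

theorem constHom_mem_gaussW (hD : GaussData A F Fk J b) (a : A) :
    constHom A F a ∈ gaussW hD :=
  ⟨1, HahnSeries.C a, by rw [map_one]; exact one_mem _, by rw [map_one]; exact one_ne_zero,
    by rw [map_one, one_mul, coe_constHom]⟩

theorem coe_gaussRho_constHom (hD : GaussData A F Fk J b) (a : A) :
    ((gaussRho hD ⟨constHom A F a, constHom_mem_gaussW hD a⟩ : Fk) :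
      LaurentSeries (IsLocalRing.ResidueField A)) = HahnSeries.C (IsLocalRing.residue A a) := by
  rw [coe_gaussRho_eq hD _ 1 (HahnSeries.C a) (by rw [map_one]; exact one_ne_zero)
    (by rw [map_one, one_mul]; exact coe_constHom a), map_one, div_one, coeffMap_C]

/-- An element of the Gauss ring is a non-unit iff its reduction vanishes. -/
theorem mem_nonunits_gaussW_iff (hD : GaussData A F Fk J b) (x : gaussW hD) :
    (x : F) ∈ (gaussW hD).nonunits ↔ gaussRho hD x = 0 := by
  rw [ValuationSubring.mem_nonunits_iff_or]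
  constructor
  · rintro (h0 | hinv)
    · have : x = 0 := Subtype.ext h0
      rw [this, map_zero]
    · by_contra hne
      exact hinv (inv_mem_gaussW_of_rho_ne_zero hD x hne)
  · intro hx
    by_cases h0 : (x : F) = 0
    · exact Or.inl h0
    · right
      intro hinv
      have h1 : gaussRho hD x * gaussRho hD ⟨(x : F)⁻¹, hinv⟩ = 1 := by
        rw [← map_mul, ← map_one (gaussRho hD)]
        congr 1
        exact Subtype.ext (mul_inv_cancel₀ h0)
      rw [hx, zero_mul] at h1
      exact zero_ne_one h1

theorem residue_eq_zero_of_irreducible [IsDiscreteValuationRing A] {pi : A}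
    (hpi : Irreducible pi) : IsLocalRing.residue A pi = 0 := by
  rw [IsLocalRing.residue_eq_zero_iff, IsLocalRing.mem_maximalIdeal]
  exact hpi.not_isUnit

theorem dvd_of_residue_eq_zero [IsDiscreteValuationRing A] {pi : A} (hpi : Irreducible pi)
    {a : A} (ha : IsLocalRing.residue A a = 0) : pi ∣ a := by
  rw [IsLocalRing.residue_eq_zero_iff, hpi.maximalIdeal_eq, Ideal.mem_span_singleton] at ha
  exact ha

/-- Every nonzero element of `L` is a power of the uniformiser times a unit of `A`. -/
theorem exists_zpow_mul_unit [IsDiscreteValuationRing A] {pi : A} (hpi : Irreducible pi)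
    (c : L) (hc : c ≠ 0) :
    ∃ (m : ℤ) (u : A), IsLocalRing.residue A u ≠ 0 ∧ c = (pi : L) ^ m * (u : L) := by
  have hres : ∀ u : Aˣ, IsLocalRing.residue A (u : A) ≠ 0 := by
    intro u h0
    rw [IsLocalRing.residue_eq_zero_iff, IsLocalRing.mem_maximalIdeal] at h0
    exact h0 u.isUnit
  have hpi0 : (pi : L) ≠ 0 := fun h => hpi.ne_zero (Subtype.ext h)
  rcases A.mem_or_inv_mem c with hcA | hcA
  · have hc' : (⟨c, hcA⟩ : A) ≠ 0 := fun h => hc (congrArg Subtype.val h)
    obtain ⟨k, u, hu⟩ := IsDiscreteValuationRing.eq_unit_mul_pow_irreducible hc' hpi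
    refine ⟨k, u, hres u, ?_⟩
    have := congrArg (fun z : A => (z : L)) hu
    simp only [MulMemClass.coe_mul, SubmonoidClass.coe_pow] at this
    rw [zpow_natCast, mul_comm]
    exact this
  · have hc' : (⟨c⁻¹, hcA⟩ : A) ≠ 0 := fun h => inv_ne_zero hc (congrArg Subtype.val h)
    obtain ⟨k, u, hu⟩ := IsDiscreteValuationRing.eq_unit_mul_pow_irreducible hc' hpi
    refine ⟨-(k : ℤ), (u⁻¹ : Aˣ), hres _, ?_⟩
    have h1 := congrArg (fun z : A => (z : L)) hu
    simp only [MulMemClass.coe_mul, SubmonoidClass.coe_pow] at h1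
    have h2 : ((u : A) : L) * (((u⁻¹ : Aˣ) : A) : L) = 1 := by
      exact congrArg (fun z : A => (z : L)) (Units.mul_inv u)
    have hu0 : ((u : A) : L) ≠ 0 := left_ne_zero_of_mul_eq_one h2
    have h3 : (((u⁻¹ : Aˣ) : A) : L) = ((u : A) : L)⁻¹ := eq_inv_of_mul_eq_one_right h2
    rw [zpow_neg, zpow_natCast, h3, ← mul_inv, mul_comm, ← h1, inv_inv]

/-- **The Gauss ring over a DVR is a Gauss valuation ring** in the sense of `S28.H95.IsGauss`:
uniformiser `pi`, reduction `gaussRho`. -/
theorem isGauss_gaussW (hD : GaussData A F Fk J b) [IsDiscreteValuationRing A] {pi : A}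
    (hpi : Irreducible pi) :
    IsGauss (gaussW hD).toSubring ⟨constHom A F pi, constHom_mem_gaussW hD pi⟩ (gaussRho hD) := by
  have hpi0 : (pi : L) ≠ 0 := fun h => hpi.ne_zero (Subtype.ext h)
  refine ⟨?_, ?_, ?_, ?_⟩
  · intro h0
    exact hpi0 ((algebraMap L F).injective (h0.trans (map_zero _).symm))
  · apply Subtype.ext
    rw [coe_gaussRho_constHom, residue_eq_zero_of_irreducible hpi, map_zero]
    rfl
  · intro v hv
    obtain ⟨a, x', ha, hx'⟩ := (gaussRho_eq_zero_iff hD v).mp hv
    obtain ⟨a', rfl⟩ := dvd_of_residue_eq_zero hpi ha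
    refine ⟨⟨constHom A F a', constHom_mem_gaussW hD a'⟩ * x', ?_⟩
    apply Subtype.ext
    apply Subtype.ext
    show ((v : F) : LaurentSeries L) = ((constHom A F pi : F) : LaurentSeries L) *
      (((constHom A F a' : F) : LaurentSeries L) * ((x' : F) : LaurentSeries L))
    rw [hx', coe_constHom, coe_constHom, coeffMap_C, coeffMap_C, ← mul_assoc, ← map_mul]
    rfl
  · intro x hx
    obtain ⟨c, w, hc, hw, hxw⟩ := exists_const_mul_unit hD x hx
    obtain ⟨m, u, hu, hcu⟩ := exists_zpow_mul_unit hpi c hc
    refine ⟨m, ⟨constHom A F u, constHom_mem_gaussW hD u⟩ * w, ?_, ?_⟩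
    · rw [map_mul]
      refine mul_ne_zero ?_ hw
      intro h0
      have h1 := coe_gaussRho_constHom hD u
      rw [h0] at h1
      exact hu (HahnSeries.C_injective (by rw [← h1, map_zero]; rfl))
    · apply Subtype.ext
      have hpow : (((constHom A F pi : F) ^ m : F) : LaurentSeries L) =
          HahnSeries.C ((pi : L) ^ m) := by
        have h1 : (constHom A F pi : F) = algebraMap L F (pi : L) := rfl
        rw [h1, ← map_zpow₀]
        show algebraMap L (LaurentSeries L) ((pi : L) ^ m) = _
        rw [C_eq_algebraMap]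
      show (x : LaurentSeries L) = (((constHom A F pi : F) ^ m : F) : LaurentSeries L) *
        (((constHom A F u : F) : LaurentSeries L) * ((w : F) : LaurentSeries L))
      rw [hxw, hpow, coe_constHom, coeffMap_C, ← mul_assoc, ← map_mul, hcu]
      rfl

/-- `pi` is a non-unit of the Gauss ring. -/
theorem constHom_mem_nonunits (hD : GaussData A F Fk J b) [IsDiscreteValuationRing A] {pi : A}
    (hpi : Irreducible pi) : constHom A F pi ∈ (gaussW hD).nonunits :=
  (mem_nonunits_gaussW_iff hD ⟨constHom A F pi, constHom_mem_gaussW hD pi⟩).mpr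
    (isGauss_gaussW hD hpi).2.1

/-- `pi` generates the maximal ideal of the Gauss ring (Kummer-core shape). -/
theorem exists_eq_mul_of_mem_nonunits (hD : GaussData A F Fk J b) [IsDiscreteValuationRing A]
    {pi : A} (hpi : Irreducible pi) (x : F) (hx : x ∈ (gaussW hD).nonunits) :
    ∃ y ∈ gaussW hD, x = constHom A F pi * y := by
  have hxW : x ∈ gaussW hD := by
    rw [ValuationSubring.mem_nonunits_iff] at hx
    exact ((gaussW hD).valuation_le_one_iff x).mp hx.le
  have hρ := (mem_nonunits_gaussW_iff hD ⟨x, hxW⟩).mp hx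
  obtain ⟨w, hw⟩ := (isGauss_gaussW hD hpi).2.2.1 ⟨x, hxW⟩ hρ
  exact ⟨w, w.2, congrArg Subtype.val hw⟩

end DVR

section Integral

variable {L : Type*} [Field L] {A : ValuationSubring L}
variable {F : IntermediateField L (LaurentSeries L)}
variable {Fk : IntermediateField (IsLocalRing.ResidueField A)
  (LaurentSeries (IsLocalRing.ResidueField A))}
variable {J : LaurentSeries A} {n : ℕ} {b : Fin n → LaurentSeries A}

theorem evC_one {R : Type*} [CommRing R] (x : LaurentSeries R) : evC (1 : Polynomial R) x = 1 := by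
  unfold evC; simp

/-- `J` as an element of `F`. -/
def jElt (hD : GaussData A F Fk J b) : F := ⟨iotaA A J, hD.J_mem⟩

/-- The `i`-th basis series as an element of the Gauss ring. -/
def bElt (hD : GaussData A F Fk J b) (i : Fin n) : gaussW hD :=
  ⟨⟨iotaA A (b i), hD.b_mem i⟩, iota_mem_gaussW hD (b i) (hD.b_mem i)⟩

theorem coe_gaussRho_bElt (hD : GaussData A F Fk J b) (i : Fin n) :
    ((gaussRho hD (bElt hD i) : Fk) : LaurentSeries (IsLocalRing.ResidueField A)) =
      redA A (b i) := by
  have := gaussRho_iota hD (b i) (hD.b_mem i)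
  exact congrArg Subtype.val this

/-- Evaluation of polynomials at an element of `F`, read in `L((q))`. -/
theorem coe_aeval_F (x : F) (r : Polynomial L) :
    ((Polynomial.aeval x r : F) : LaurentSeries L) = evC r (x : LaurentSeries L) := by
  rw [evC_eq_aeval]
  exact (Polynomial.aeval_algHom_apply F.val x r).symm

/-- `iota J` is transcendental over `L`. -/
theorem GaussData.evC_iota_J_ne_zero (hD : GaussData A F Fk J b) {P : Polynomial L}
    (hP : P ≠ 0) : evC P (iotaA A J) ≠ 0 := by
  obtain ⟨c₁, P', hc₁, hP', hP'res⟩ := exists_scale_poly A (fun _ : Fin 1 => P)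
    (by intro h; exact hP (congrFun h 0))
  have hP'res0 : (P' 0).map (IsLocalRing.residue A) ≠ 0 := by
    obtain ⟨i, hi⟩ := hP'res
    rwa [Subsingleton.elim 0 i]
  have hPser : evC P (iotaA A J) = HahnSeries.C c₁ * iotaA A (evC (P' 0) J) := by
    rw [hP' 0, evC_C_mul, coeffMap_evC]
  have hPred : redA A (evC (P' 0) J) ≠ 0 := by
    rw [coeffMap_evC]
    exact fun h => hP'res0 (hD.trans _ h)
  rw [hPser]
  refine mul_ne_zero ?_ ?_
  · intro h
    exact hc₁ (HahnSeries.C_injective (by rw [h, map_zero]))
  · intro h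
    apply hPred
    rw [iotaA_injective A (h.trans (map_zero _).symm), map_zero]

/-- The reduction of an element of `gaussW ∩ L(J)` is a quotient of polynomials in `J̄`. -/
theorem exists_rho_mul_eq_of_mem_adjoin (hD : GaussData A F Fk J b) (c : gaussW hD)
    (hc : (c : F) ∈ IntermediateField.adjoin L {jElt hD}) :
    ∃ P S : Polynomial (IsLocalRing.ResidueField A), evC S (redA A J) ≠ 0 ∧
      ((gaussRho hD c : Fk) : LaurentSeries (IsLocalRing.ResidueField A)) * evC S (redA A J) =
        evC P (redA A J) := by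
  have hzero : (c : F) = 0 → ∃ P S : Polynomial (IsLocalRing.ResidueField A),
      evC S (redA A J) ≠ 0 ∧
      ((gaussRho hD c : Fk) : LaurentSeries (IsLocalRing.ResidueField A)) * evC S (redA A J) =
        evC P (redA A J) := by
    intro h0
    have hc0 : c = 0 := Subtype.ext h0
    refine ⟨0, 1, by rw [evC_one]; exact one_ne_zero, ?_⟩
    rw [hc0, map_zero, evC_zero]
    exact zero_mul _
  obtain ⟨r, s, hrs⟩ := (IntermediateField.mem_adjoin_simple_iff L _).mp hc
  by_cases hs : Polynomial.aeval (jElt hD) s = 0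
  · exact hzero (by rw [hrs, hs, div_zero])
  by_cases hr : r = 0
  · exact hzero (by rw [hrs, hr, map_zero, zero_div])
  have hs0 : s ≠ 0 := by
    rintro rfl
    exact hs (map_zero _)
  obtain ⟨c₁, r', hc₁, hr', hr'res⟩ := exists_scale_poly A (fun _ : Fin 1 => r)
    (by intro h; exact hr (congrFun h 0))
  obtain ⟨c₂, s', hc₂, hs', hs'res⟩ := exists_scale_poly A (fun _ : Fin 1 => s)
    (by intro h; exact hs0 (congrFun h 0))
  have hr'res0 : (r' 0).map (IsLocalRing.residue A) ≠ 0 := by
    obtain ⟨i, hi⟩ := hr'res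
    rwa [Subsingleton.elim 0 i]
  have hs'res0 : (s' 0).map (IsLocalRing.residue A) ≠ 0 := by
    obtain ⟨i, hi⟩ := hs'res
    rwa [Subsingleton.elim 0 i]
  set R' : LaurentSeries A := evC (r' 0) J with hR'
  set S' : LaurentSeries A := evC (s' 0) J with hS'
  have hR'red : redA A R' = evC ((r' 0).map (IsLocalRing.residue A)) (redA A J) := by
    rw [hR', coeffMap_evC]
  have hS'red : redA A S' = evC ((s' 0).map (IsLocalRing.residue A)) (redA A J) := by
    rw [hS', coeffMap_evC]
  have hR'ne : redA A R' ≠ 0 := by rw [hR'red]; exact fun h => hr'res0 (hD.trans _ h)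
  have hS'ne : redA A S' ≠ 0 := by rw [hS'red]; exact fun h => hs'res0 (hD.trans _ h)
  have hrL : evC r (iotaA A J) = HahnSeries.C c₁ * iotaA A R' := by
    rw [hr' 0, evC_C_mul, hR', coeffMap_evC]
  have hsL : evC s (iotaA A J) = HahnSeries.C c₂ * iotaA A S' := by
    rw [hs' 0, evC_C_mul, hS', coeffMap_evC]
  have hsne : evC s (iotaA A J) ≠ 0 := by
    intro h0
    apply hs
    apply Subtype.ext
    rw [coe_aeval_F]
    exact h0
  have hC₂ : (HahnSeries.C c₂ : LaurentSeries L) ≠ 0 := by
    intro h
    exact hc₂ (HahnSeries.C_injective (by rw [h, map_zero]))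
  -- the relation in `L((q))`
  have hrel : ((c : F) : LaurentSeries L) * (HahnSeries.C c₂ * iotaA A S') =
      HahnSeries.C c₁ * iotaA A R' := by
    have h1 : ((c : F) : LaurentSeries L) = evC r (iotaA A J) / evC s (iotaA A J) := by
      have h0 : ((c : F) : LaurentSeries L) =
          ((Polynomial.aeval (jElt hD) r / Polynomial.aeval (jElt hD) s : F) :
            LaurentSeries L) := congrArg Subtype.val hrs
      rw [h0]
      show ((Polynomial.aeval (jElt hD) r : F) : LaurentSeries L) /
        ((Polynomial.aeval (jElt hD) s : F) : LaurentSeries L) = _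
      rw [coe_aeval_F, coe_aeval_F]
      rfl
    rw [h1, ← hsL, ← hrL, div_mul_cancel₀ _ hsne]
  have hrel' : iotaA A S' * ((c : F) : LaurentSeries L) =
      HahnSeries.C (c₁ / c₂) * iotaA A R' := by
    apply mul_left_cancel₀ hC₂
    rw [← mul_assoc, ← mul_assoc, ← map_mul, mul_div_cancel₀ _ hc₂, ← hrel]
    ring
  by_cases heA : c₁ / c₂ ∈ A
  · refine ⟨Polynomial.C (IsLocalRing.residue A ⟨c₁ / c₂, heA⟩) *
      (r' 0).map (IsLocalRing.residue A), (s' 0).map (IsLocalRing.residue A), ?_, ?_⟩
    · rw [← hS'red]; exact hS'ne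
    · have h2 := coe_gaussRho_eq hD c S' (HahnSeries.C (⟨c₁ / c₂, heA⟩ : A) * R') hS'ne
        (by rw [hrel', map_mul, coeffMap_C]; rfl)
      rw [h2, ← hS'red, div_mul_cancel₀ _ hS'ne, map_mul, coeffMap_C, evC_C_mul, hR'red]
  · exfalso
    have hinv : (c₁ / c₂)⁻¹ ∈ A := (A.mem_or_inv_mem _).resolve_left heA
    have hd : IsLocalRing.residue A (⟨(c₁ / c₂)⁻¹, hinv⟩ : A) = 0 :=
      residue_eq_zero_of_inv_not_mem A _ heA rfl
    have he0 : c₁ / c₂ ≠ 0 := div_ne_zero hc₁ hc₂
    obtain ⟨u, g, -, hu, hug⟩ := c.2
    have h3 : u * R' = HahnSeries.C (⟨(c₁ / c₂)⁻¹, hinv⟩ : A) * (g * S') := by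
      apply iotaA_injective A
      rw [map_mul, map_mul, map_mul, coeffMap_C, ← hug]
      show iotaA A u * iotaA A R' = HahnSeries.C (c₁ / c₂)⁻¹ *
        (iotaA A u * ((c : F) : LaurentSeries L) * iotaA A S')
      have h4 : iotaA A R' = HahnSeries.C (c₁ / c₂)⁻¹ *
          (iotaA A S' * ((c : F) : LaurentSeries L)) := by
        rw [hrel', ← mul_assoc, ← map_mul, inv_mul_cancel₀ he0, map_one, one_mul]
      rw [h4]
      ring
    have h5 := congrArg (redA A) h3
    rw [map_mul, map_mul, coeffMap_C, hd, map_zero, zero_mul] at h5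
    rcases mul_eq_zero.mp h5 with h6 | h6
    · exact hu h6
    · exact hR'ne h6

/-- The independence hypothesis of `RedCore`: the reductions of the `b i` are independent over
the reductions of `gaussW ∩ L(J)`. -/
theorem hind_adjoin_J (hD : GaussData A F Fk J b) (c : Fin n → gaussW hD)
    (hc : ∀ i, (c i : F) ∈ IntermediateField.adjoin L {jElt hD})
    (h : ∑ i, gaussRho hD (c i) * gaussRho hD (bElt hD i) = 0) :
    ∀ i, gaussRho hD (c i) = 0 := by
  classical
  choose P S hS hPS using fun i => exists_rho_mul_eq_of_mem_adjoin hD (c i) (hc i)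
  have hS0 : ∀ i, S i ≠ 0 := by
    intro i h0
    exact hS i (by rw [h0, evC_zero])
  have h1 : ∑ i, ((gaussRho hD (c i) : Fk) : LaurentSeries (IsLocalRing.ResidueField A)) *
      redA A (b i) = 0 := by
    have h2 := congrArg (fun z : Fk => (z : LaurentSeries (IsLocalRing.ResidueField A))) h
    simp only [AddSubmonoidClass.coe_finsetSum, MulMemClass.coe_mul, ZeroMemClass.coe_zero,
      coe_gaussRho_bElt] at h2
    exact h2
  have h3 : ∑ i, evC (P i * ∏ k ∈ Finset.univ.erase i, S k) (redA A J) * redA A (b i) = 0 := by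
    have h4 : ∑ i, evC (P i * ∏ k ∈ Finset.univ.erase i, S k) (redA A J) * redA A (b i) =
        evC (∏ k, S k) (redA A J) *
          ∑ i, ((gaussRho hD (c i) : Fk) : LaurentSeries (IsLocalRing.ResidueField A)) *
            redA A (b i) := by
      rw [Finset.mul_sum]
      refine Finset.sum_congr rfl fun i _ => ?_
      rw [← Finset.mul_prod_erase Finset.univ S (Finset.mem_univ i), evC_mul, evC_mul, ← hPS i]
      ring
    rw [h4, h1, mul_zero]
  have h5 := hD.indep _ h3
  intro i
  have h6 : P i * ∏ k ∈ Finset.univ.erase i, S k = 0 := congrFun h5 i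
  have h7 : P i = 0 := by
    rcases mul_eq_zero.mp h6 with h8 | h8
    · exact h8
    · exact absurd h8 (Finset.prod_ne_zero_iff.mpr fun k _ => hS0 k)
  have h9 := hPS i
  rw [h7, evC_zero] at h9
  apply Subtype.ext
  rcases mul_eq_zero.mp h9 with h10 | h10
  · exact h10
  · exact absurd h10 (hS i)

/-- The `b i` span `F` over `L(J)`. -/
theorem top_le_span_bElt (hD : GaussData A F Fk J b) :
    ⊤ ≤ Submodule.span (IntermediateField.adjoin L {jElt hD})
      (Set.range fun i => ((bElt hD i : gaussW hD) : F)) := by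
  intro y _
  obtain ⟨P, Q, hP, hPQ⟩ := hD.span (y : LaurentSeries L) y.2
  have hP0 : evC P (iotaA A J) ≠ 0 := hD.evC_iota_J_ne_zero hP
  have hmem : ∀ r : Polynomial L, Polynomial.aeval (jElt hD) r ∈
      IntermediateField.adjoin L {jElt hD} := fun r =>
    (IntermediateField.mem_adjoin_simple_iff L _).mpr ⟨r, 1, by rw [map_one, div_one]⟩
  have hy : y = ∑ i, (⟨(Polynomial.aeval (jElt hD) P)⁻¹ * Polynomial.aeval (jElt hD) (Q i),
      mul_mem (inv_mem (hmem P)) (hmem (Q i))⟩ : IntermediateField.adjoin L {jElt hD}) •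
        ((bElt hD i : gaussW hD) : F) := by
    apply Subtype.ext
    have h1 : (y : LaurentSeries L) = (evC P (iotaA A J))⁻¹ *
        ∑ i, evC (Q i) (iotaA A J) * iotaA A (b i) := by
      rw [← hPQ, ← mul_assoc, inv_mul_cancel₀ hP0, one_mul]
    rw [h1, Finset.mul_sum, AddSubmonoidClass.coe_finsetSum]
    refine Finset.sum_congr rfl fun i _ => ?_
    rw [IntermediateField.smul_def, smul_eq_mul]
    show _ = ((Polynomial.aeval (jElt hD) P : F) : LaurentSeries L)⁻¹ *
      ((Polynomial.aeval (jElt hD) (Q i) : F) : LaurentSeries L) * iotaA A (b i)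
    rw [coe_aeval_F, coe_aeval_F]
    show _ = (evC P (iotaA A J))⁻¹ * evC (Q i) (iotaA A J) * iotaA A (b i)
    ring
  rw [hy]
  exact Submodule.sum_mem _ fun i _ => Submodule.smul_mem _ _ (Submodule.subset_span ⟨i, rfl⟩)

variable [IsDiscreteValuationRing A]

set_option synthInstance.maxHeartbeats 400000 in
set_option maxHeartbeats 1600000 in
/-- The degree of `F` over `L(J)` is the number of basis series. -/
theorem finrank_adjoin_J (hD : GaussData A F Fk J b) {pi : A} (hpi : Irreducible pi) :
    Module.finrank (IntermediateField.adjoin L {jElt hD}) F = n := by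
  have hli := (isGauss_gaussW hD hpi).linearIndependent
    (K₀ := IntermediateField.adjoin L {jElt hD})
    (algebraMap L (IntermediateField.adjoin L {jElt hD}) (pi : L)) rfl (bElt hD)
    (fun c hc h => hind_adjoin_J hD c (fun i => by
      obtain ⟨a, ha⟩ := hc i
      rw [← ha]
      exact a.2) h)
  have hb := Module.finrank_eq_card_basis (Module.Basis.mk hli (top_le_span_bElt hD))
  rw [hb, Fintype.card_fin]

set_option synthInstance.maxHeartbeats 400000 in
set_option maxHeartbeats 1600000 in
/-- **Integrality of the Gauss ring over its trace on `L(J)`** (the `hint` hypothesis of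
`GaussSat_helper95`, for the base field `L(J)`). -/
theorem isIntegral_comap_adjoin_J (hD : GaussData A F Fk J b) {pi : A} (hpi : Irreducible pi)
    (w : (gaussW hD).toSubring) :
    IsIntegral ((gaussW hD).toSubring.comap
      (algebraMap (IntermediateField.adjoin L {jElt hD}) F)) (w : F) := by
  have hfin := finrank_adjoin_J hD hpi
  have hn : 0 < n := by
    rw [← hfin]
    have hbas := Module.Basis.mk ((isGauss_gaussW hD hpi).linearIndependent
      (K₀ := IntermediateField.adjoin L {jElt hD})
      (algebraMap L (IntermediateField.adjoin L {jElt hD}) (pi : L)) rfl (bElt hD)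
      (fun c hc h => hind_adjoin_J hD c (fun i => by
        obtain ⟨a, ha⟩ := hc i
        rw [← ha]
        exact a.2) h)) (top_le_span_bElt hD)
    have : Module.Finite (IntermediateField.adjoin L {jElt hD}) F := Module.Finite.of_basis hbas
    exact Module.finrank_pos
  exact (isGauss_gaussW hD hpi).isIntegral_comap
    (K₀ := IntermediateField.adjoin L {jElt hD})
    (algebraMap L (IntermediateField.adjoin L {jElt hD}) (pi : L)) rfl (bElt hD)
    (fun c hc h => hind_adjoin_J hD c (fun i => by
      obtain ⟨a, ha⟩ := hc i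
      rw [← ha]
      exact a.2) h) hfin hn w

end Integral

section Chart

variable {L : Type*} [Field L] {A : ValuationSubring L}
variable {F : IntermediateField L (LaurentSeries L)}
variable {Fk : IntermediateField (IsLocalRing.ResidueField A)
  (LaurentSeries (IsLocalRing.ResidueField A))}
variable {J : LaurentSeries A} {n : ℕ} {b : Fin n → LaurentSeries A}

variable (A) in
/-- The chart homomorphism `A[X] → F`, `X ↦ x` (constants through `A → L → F`). -/
def chartHom (x : F) : A[X] →+* F := Polynomial.eval₂RingHom (constHom A F) x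

theorem chartHom_C (x : F) (a : A) : chartHom A x (C a) = constHom A F a := by
  unfold chartHom
  rw [Polynomial.coe_eval₂RingHom, Polynomial.eval₂_C]

theorem chartHom_X (x : F) : chartHom A x X = x := by
  unfold chartHom
  rw [Polynomial.coe_eval₂RingHom, Polynomial.eval₂_X]

/-- The chart homomorphism is evaluation of the coefficient-embedded polynomial. -/
theorem chartHom_eq_aeval (x : F) (P : A[X]) :
    chartHom A x P = Polynomial.aeval x (P.map A.subtype) := by
  unfold chartHom
  rw [Polynomial.coe_eval₂RingHom, Polynomial.aeval_def, Polynomial.eval₂_map]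
  rfl

/-- The chart homomorphism at an integral series, read in `L((q))`. -/
theorem coe_chartHom (xA : LaurentSeries A) (hx : iotaA A xA ∈ F) (P : A[X]) :
    ((chartHom A (⟨iotaA A xA, hx⟩ : F) P : F) : LaurentSeries L) = iotaA A (evC P xA) := by
  rw [chartHom_eq_aeval, coe_aeval_F, coeffMap_evC]

theorem chartHom_mem_gaussW (hD : GaussData A F Fk J b) (xA : LaurentSeries A)
    (hx : iotaA A xA ∈ F) (P : A[X]) : chartHom A (⟨iotaA A xA, hx⟩ : F) P ∈ gaussW hD := by
  rw [mem_gaussW_iff, coe_chartHom]
  exact isGaussInt_iota _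

theorem coe_gaussRho_chartHom (hD : GaussData A F Fk J b) (xA : LaurentSeries A)
    (hx : iotaA A xA ∈ F) (P : A[X]) :
    ((gaussRho hD ⟨chartHom A (⟨iotaA A xA, hx⟩ : F) P, chartHom_mem_gaussW hD xA hx P⟩ : Fk) :
      LaurentSeries (IsLocalRing.ResidueField A)) =
      evC (P.map (IsLocalRing.residue A)) (redA A xA) := by
  rw [coe_gaussRho_eq hD _ 1 (evC P xA) (by rw [map_one]; exact one_ne_zero)
    (by rw [map_one, one_mul]; exact coe_chartHom xA hx P), map_one, div_one, coeffMap_evC]

theorem mem_adjoin_inv_of_mem_adjoin {K E : Type*} [Field K] [Field E] [Algebra K E]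
    {x y : E} (h : y ∈ IntermediateField.adjoin K {x}) :
    y ∈ IntermediateField.adjoin K {x⁻¹} := by
  have hle : IntermediateField.adjoin K {x} ≤ IntermediateField.adjoin K {x⁻¹} := by
    rw [IntermediateField.adjoin_simple_le_iff]
    have := inv_mem (IntermediateField.mem_adjoin_simple_self K x⁻¹)
    rwa [inv_inv] at this
  exact hle h

variable [IsDiscreteValuationRing A]

set_option synthInstance.maxHeartbeats 400000 in
set_option maxHeartbeats 1600000 in
/-- **The Gauss chart** (task 254).  For a chart coordinate `x = iota xA ∈ F` whose reduction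
`red xA` is transcendental over the residue field and with `J ∈ L(x)`: every `y ∈ F` integral
over `A[x]` lies in the Gauss ring, and if `y = pi * w` with `w` in the Gauss ring then `w` is
integral over `A[x]`  (`B ⊆ gaussW`, `B ∩ pi • gaussW = pi • B`).  No degree input at `x`. -/
theorem gauss_chart (hD : GaussData A F Fk J b) {pi : A} (hpi : Irreducible pi)
    (xA : LaurentSeries A) (hx : iotaA A xA ∈ F)
    (hxtr : ∀ P : Polynomial (IsLocalRing.ResidueField A), evC P (redA A xA) = 0 → P = 0)
    (hJx : jElt hD ∈ IntermediateField.adjoin L {(⟨iotaA A xA, hx⟩ : F)})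
    (y : F) (hy : (chartHom A (⟨iotaA A xA, hx⟩ : F)).IsIntegralElem y) :
    y ∈ gaussW hD ∧ ∀ w ∈ gaussW hD, y = constHom A F pi * w →
      (chartHom A (⟨iotaA A xA, hx⟩ : F)).IsIntegralElem w := by
  set x : F := ⟨iotaA A xA, hx⟩ with hxdef
  have hG := isGauss_gaussW hD hpi
  have hle : IntermediateField.adjoin L {jElt hD} ≤ IntermediateField.adjoin L {x} := by
    rw [IntermediateField.adjoin_simple_le_iff]
    exact hJx
  have hmem : ∀ r : Polynomial L, Polynomial.aeval x r ∈ IntermediateField.adjoin L {x} :=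
    fun r => (IntermediateField.mem_adjoin_simple_iff L _).mpr ⟨r, 1, by rw [map_one, div_one]⟩
  have hconst : ∀ c : L, algebraMap L F c * chartHom A x 1 = algebraMap L F c := by
    intro c
    rw [map_one, mul_one]
  have key := Fermat.Agent.S18.H95.gauss_chart_hom_of_isIntegral
    (K₁ := IntermediateField.adjoin L {x}) hG pi hpi (chartHom A x)
    (by rw [chartHom_C])
    (fun P => chartHom_mem_gaussW hD xA hx P)
    (by
      intro P v hv hred
      rw [Polynomial.C_dvd_iff_dvd_coeff]
      intro i
      apply dvd_of_residue_eq_zero hpi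
      have h1 : (v : gaussW hD) = ⟨chartHom A x P, chartHom_mem_gaussW hD xA hx P⟩ :=
        Subtype.ext hv
      have h2 := coe_gaussRho_chartHom hD xA hx P
      rw [← h1, hred] at h2
      have h3 : P.map (IsLocalRing.residue A) = 0 := hxtr _ h2.symm
      have h4 := congrArg (fun q : Polynomial (IsLocalRing.ResidueField A) => q.coeff i) h3
      simpa using h4)
    (fun P => ⟨⟨chartHom A x P, by rw [chartHom_eq_aeval]; exact hmem _⟩, rfl⟩)
    (by
      intro c
      have hzero : (c : F) = 0 → ∃ P Q : A[X], chartHom A x Q ≠ 0 ∧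
          algebraMap (IntermediateField.adjoin L {x}) F c * chartHom A x Q = chartHom A x P := by
        intro h0
        refine ⟨0, 1, by rw [map_one]; exact one_ne_zero, ?_⟩
        rw [map_one, mul_one, map_zero]
        exact h0
      obtain ⟨r, s, hrs⟩ := (IntermediateField.mem_adjoin_simple_iff L _).mp c.2
      by_cases hs : Polynomial.aeval x s = 0
      · exact hzero (by rw [hrs, hs, div_zero])
      by_cases hr : r = 0
      · exact hzero (by rw [hrs, hr, map_zero, zero_div])
      have hs0 : s ≠ 0 := by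
        rintro rfl
        exact hs (map_zero _)
      obtain ⟨c₁, r', hc₁, hr', -⟩ := exists_scale_poly A (fun _ : Fin 1 => r)
        (by intro h; exact hr (congrFun h 0))
      obtain ⟨c₂, s', hc₂, hs', -⟩ := exists_scale_poly A (fun _ : Fin 1 => s)
        (by intro h; exact hs0 (congrFun h 0))
      have hr1 : Polynomial.aeval x r = algebraMap L F c₁ * chartHom A x (r' 0) := by
        rw [hr' 0, map_mul, Polynomial.aeval_C, chartHom_eq_aeval]
      have hs1 : Polynomial.aeval x s = algebraMap L F c₂ * chartHom A x (s' 0) := by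
        rw [hs' 0, map_mul, Polynomial.aeval_C, chartHom_eq_aeval]
      have hs'ne : chartHom A x (s' 0) ≠ 0 := by
        intro h0
        exact hs (by rw [hs1, h0, mul_zero])
      have hc₂F : algebraMap L F c₂ ≠ 0 := fun h0 =>
        hc₂ ((algebraMap L F).injective (h0.trans (map_zero _).symm))
      have hrel : (c : F) * chartHom A x (s' 0) =
          algebraMap L F (c₁ / c₂) * chartHom A x (r' 0) := by
        rw [hrs, hr1, hs1, map_div₀]
        field_simp
      by_cases heA : c₁ / c₂ ∈ A
      · refine ⟨C (⟨c₁ / c₂, heA⟩ : A) * r' 0, s' 0, hs'ne, ?_⟩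
        rw [map_mul, chartHom_C]
        exact hrel
      · have hinv : (c₁ / c₂)⁻¹ ∈ A := (A.mem_or_inv_mem _).resolve_left heA
        have he0 : c₁ / c₂ ≠ 0 := div_ne_zero hc₁ hc₂
        have heF : algebraMap L F (c₁ / c₂)⁻¹ ≠ 0 := fun h0 =>
          inv_ne_zero he0 ((algebraMap L F).injective (h0.trans (map_zero _).symm))
        refine ⟨r' 0, C (⟨(c₁ / c₂)⁻¹, hinv⟩ : A) * s' 0, ?_, ?_⟩
        · rw [map_mul, chartHom_C]
          exact mul_ne_zero heF hs'ne
        · rw [map_mul, chartHom_C]
          show (c : F) * (algebraMap L F (c₁ / c₂)⁻¹ * chartHom A x (s' 0)) = _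
          rw [mul_left_comm, hrel, ← mul_assoc, ← map_mul, inv_mul_cancel₀ he0, map_one,
            one_mul])
    (fun w => Fermat.Agent.S18.H95.isIntegral_comap_of_tower (gaussW hD).toSubring
      (IntermediateField.inclusion hle).toRingHom (fun _ => rfl) (w : F)
      (isIntegral_comap_adjoin_J hD hpi w))
    y hy
  exact ⟨key.1, fun w hw hyw => key.2 ⟨w, hw⟩ hyw⟩

/-- The chart at `J` itself. -/
theorem gauss_chart_J (hD : GaussData A F Fk J b) {pi : A} (hpi : Irreducible pi)
    (y : F) (hy : (chartHom A (jElt hD)).IsIntegralElem y) :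
    y ∈ gaussW hD ∧ ∀ w ∈ gaussW hD, y = constHom A F pi * w →
      (chartHom A (jElt hD)).IsIntegralElem w :=
  gauss_chart hD hpi J hD.J_mem hD.trans (IntermediateField.mem_adjoin_simple_self L _) y hy

end Chart

end Fermat.Agent.S18.H93
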