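/-
S18, TOP glue (helper40): the `hdiv` hypothesis of the generic Kummer core
(`H63.StmtKC` / `H63.StmtBase`) from divisibility of orders at the places of the big field.

`F0 / K0` is the function field over the number field, `F / K` the function field over the
algebraic closure (`K` algebraic over `K0`, `F` algebraic over `F0`).  If `m ∣ ord_P f` at every
place `P` of `F / K` and the places of `F / K` are unramified over `F0` where `f` has a zero or a
pole (`ht`), then at EVERY valuation subring `O` of `F0` containing `K0` the element `f` is a unit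
times an `m`-th power.
-/
import Mathlib
import Fermat.Prelude.Def_AlgebraicCurve_DivisorClassGroup
import Fermat.Agent.S24.Basics_helper19
import Fermat.Agent.S18.PlaceRestrict_helper74

set_option autoImplicit false

namespace Fermat.Agent.S18.H40

open AlgebraicCurve Fermat.Agent.S24

section Adapter

variable {K0 K F0 F : Type*} [Field K0] [Field K] [Field F0] [Field F]
  [Algebra K0 K] [Algebra K F] [Algebra K0 F0] [Algebra F0 F] [Algebra K0 F]
  [IsScalarTower K0 K F] [IsScalarTower K0 F0 F]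

omit [Field K] [Field F] [Algebra K0 K] [Algebra K F] [Algebra F0 F] [Algebra K0 F]
  [IsScalarTower K0 K F] [IsScalarTower K0 F0 F] in
/-- at a place, an element whose order is divisible by `m` is a unit times an `m`-th power -/
theorem exists_pow_of_dvd_ord (O : Place K0 F0) (m : ℕ) (f : F0) (hf : f ≠ 0)
    (h : (m : ℤ) ∣ O.ord f) :
    ∃ g : F0, g ≠ 0 ∧ f / g ^ m ∈ O.toValuationSubring ∧ g ^ m / f ∈ O.toValuationSubring := by
  obtain ⟨k, hk⟩ := h
  obtain ⟨t, ht⟩ := H19.exists_ord_eq_one O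
  have ht0 : t ≠ 0 := by
    rintro rfl
    rw [Place.ord_zero] at ht
    exact zero_ne_one ht
  have hg0 : t ^ k ≠ 0 := zpow_ne_zero _ ht0
  have hgm0 : (t ^ k) ^ m ≠ 0 := pow_ne_zero _ hg0
  have hord : O.ord ((t ^ k) ^ m) = O.ord f := by
    rw [H19.ord_pow, H19.ord_zpow', ht, hk]
    ring
  refine ⟨t ^ k, hg0, ?_, ?_⟩
  · apply H19.mem_of_ord_nonneg
    rw [H19.ord_div O hf hgm0, hord]
    omega
  · apply H19.mem_of_ord_nonneg
    rw [H19.ord_div O hgm0 hf, hord]
    omega

/-- **(DIV) adapter, field form.**  `hdiv` at every valuation subring of `F0` containing `K0`,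
from `m ∣ ord_P f` at every place of `F / K`. -/
theorem hdiv_of_forall_place_field [Algebra.IsAlgebraic K0 K]
    (hDVR : ∀ V : ValuationSubring F, (∀ a : K, algebraMap K F a ∈ V) → V ≠ ⊤ →
      IsPrincipalIdealRing V)
    (m : ℕ) (f : F0) (hf : f ≠ 0)
    (hP : ∀ P : Place K F, (m : ℤ) ∣ P.ord (algebraMap F0 F f))
    (ht : ∀ P : Place K F, P.ord (algebraMap F0 F f) ≠ 0 →
      ∃ t : F0, P.ord (algebraMap F0 F t) = 1)
    (O : ValuationSubring F0) (hO : ∀ c : K0, algebraMap K0 F0 c ∈ O) :
    ∃ g : F0, g ≠ 0 ∧ f / g ^ m ∈ O ∧ g ^ m / f ∈ O := by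
  by_cases hOtop : O = ⊤
  · subst hOtop
    exact ⟨1, one_ne_zero, ValuationSubring.mem_top _, ValuationSubring.mem_top _⟩
  -- `O` is the restriction of a valuation subring `V` of `F`
  obtain ⟨V, hV⟩ := H74.exists_valuationSubring_comap_eq (F := F) O
  have hK0 : ∀ c : K0, algebraMap K0 F c ∈ V := by
    intro c
    rw [IsScalarTower.algebraMap_apply K0 F0 F]
    have : algebraMap K0 F0 c ∈ V.comap (algebraMap F0 F) := by
      rw [hV]; exact hO c
    exact this
  have hK : ∀ a : K, algebraMap K F a ∈ V := by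
    intro a
    refine H74.mem_of_isIntegral_of_forall_mem (R := K0) V hK0 ?_
    have ha : IsIntegral K0 a := (Algebra.IsAlgebraic.isAlgebraic a).isIntegral
    exact ha.map (IsScalarTower.toAlgHom K0 K F)
  obtain ⟨y, hy⟩ : ∃ y : F0, y ∉ O := by
    by_contra hcon
    push Not at hcon
    exact hOtop (SetLike.ext fun x => ⟨fun _ => ValuationSubring.mem_top x, fun _ => hcon x⟩)
  have hVtop : V ≠ ⊤ := by
    rintro rfl
    apply hy
    rw [← hV]
    exact ValuationSubring.mem_top _
  have hVpir : IsPrincipalIdealRing V := hDVR V hK hVtop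
  have hOpir : IsPrincipalIdealRing O := by
    rw [← hV]
    exact H74.isPrincipalIdealRing_comap (algebraMap F0 F) V
  -- `O` as a place of `F0 / K0`
  let O' : Place K0 F0 := ⟨O, hO, hOtop, hOpir⟩
  have hdvd : (m : ℤ) ∣ O'.ord f :=
    H74.dvd_ord_of_forall_place (K0 := K0) (K := K) (F := F) hDVR (m : ℤ) f hP ht O'
  exact exists_pow_of_dvd_ord O' m f hf hdvd

variable (K0 K F) in
/-- **(DIV) adapter, the literal `hdiv` shape of `H63.StmtKC` / `H63.StmtBase`** (base ring `A`
with fraction field `K0`; the fields `K0`, `K`, `F` are explicit arguments). -/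
theorem hdiv_of_forall_place {A : Type*} [CommRing A] [Algebra A K0] [IsFractionRing A K0]
    [Algebra A F0] [IsScalarTower A K0 F0] [Algebra.IsAlgebraic K0 K]
    (hDVR : ∀ V : ValuationSubring F, (∀ a : K, algebraMap K F a ∈ V) → V ≠ ⊤ →
      IsPrincipalIdealRing V)
    (m : ℕ) (f : F0) (hf : f ≠ 0)
    (hP : ∀ P : Place K F, (m : ℤ) ∣ P.ord (algebraMap F0 F f))
    (ht : ∀ P : Place K F, P.ord (algebraMap F0 F f) ≠ 0 →
      ∃ t : F0, P.ord (algebraMap F0 F t) = 1) :
    ∀ O : ValuationSubring F0, (∀ a : A, algebraMap A F0 a ∈ O) →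
      (∀ a : A, a ≠ 0 → (algebraMap A F0 a)⁻¹ ∈ O) →
      ∃ g : F0, g ≠ 0 ∧ f / g ^ m ∈ O ∧ g ^ m / f ∈ O := by
  intro O hA hAinv
  refine hdiv_of_forall_place_field (K0 := K0) (K := K) (F := F) hDVR m f hf hP ht O ?_
  intro c
  obtain ⟨a, s, rfl⟩ := IsLocalization.exists_mk'_eq (nonZeroDivisors A) c
  have hs0 : (s : A) ≠ 0 := by
    intro h
    have hu := IsLocalization.map_units K0 s
    rw [h, map_zero] at hu
    exact not_isUnit_zero hu
  have h1 : algebraMap K0 F0 (IsLocalization.mk' K0 a s) =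
      algebraMap A F0 a * (algebraMap A F0 (s : A))⁻¹ := by
    rw [IsFractionRing.mk'_eq_div, map_div₀, ← IsScalarTower.algebraMap_apply,
      ← IsScalarTower.algebraMap_apply, div_eq_mul_inv]
  rw [h1]
  exact O.mul_mem _ _ (hA a) (hAinv _ hs0)

end Adapter

end Fermat.Agent.S18.H40
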