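/-
S18, KUMMER CORE (captain: helper63).  Node statements + assembly of the GENERIC core (KC).

Everything here is generic commutative algebra: a base domain `A` with an element `π`
(think: the DVR `A = A₀ ∩ K₀` of a number field with uniformiser `π`), a field `F`
(think: the function field `K₀(j(q^d) : d ∣ N')`), the Gauss valuation ring `V` of `F`
(a DVR with uniformiser `π`), a coordinate `j` and the two charts `BU, BV`
(integral closures of `A[j]`, `A[1/j]` in `F`).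

* `StmtBase` : the BASE STEP for one chart (node KC1).
* `StmtGlue` : refine + glue + bounded torsion (node KC-GLUE).
* `stmtFG`   : the module of `m`-th root sections is finitely generated over `A[j]` (proved here).
* `StmtKC`   : the generic Kummer core, and `stmtKC_of : StmtBase → StmtGlue → StmtKC`.

No place map, no divisor, no modular input.  Mathlib only.
-/
import Mathlib

set_option autoImplicit false

namespace Fermat.Agent.S18.H63

/-! ### Node statements -/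

/-- **KC1, BASE STEP (one chart).**  `B` a noetherian chart, integrally closed in `F`, with
fraction field `F`, inside the Gauss DVR `V` (uniformiser `π`), `B ∩ πV = πB`, the special fibre
`B/πB` regular at every closed point (`hreg`, elementary form of "`(B/π)_n` is a DVR"), `f ≡ 1`
mod `π` and `f` is, at every valuation ring `O` of `F` containing the fraction field of `A`,
a unit times an `m`-th power (`hdiv`).  Then there is a section `s` of the `m`-th root module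
(`s ^ m ∈ f B`) with `s ≡ 1` mod `π`. -/
def StmtBase : Prop :=
  ∀ (A F : Type) [CommRing A] [IsDomain A] [Field F] [Algebra A F]
    (π : A) (m : ℕ) (V : ValuationSubring F) (B : Subalgebra A F) (f : F),
    π ≠ 0 → Function.Injective (algebraMap A F) →
    (∀ c : A, c ≠ 0 → ∃ n : ℕ, c ∣ π ^ n) → 0 < m →
    algebraMap A F π ∈ V.nonunits →
    (∀ x ∈ V.nonunits, ∃ y ∈ V, x = algebraMap A F π * y) →
    (∀ x ∈ B, x ∈ V) →
    IsNoetherianRing B →
    (∀ x : F, IsIntegral B x → x ∈ B) →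
    (∀ x : F, ∃ a ∈ B, ∃ b ∈ B, b ≠ 0 ∧ x * b = a) →
    (∀ x ∈ B, (∃ y ∈ V, x = algebraMap A F π * y) → ∃ b ∈ B, x = algebraMap A F π * b) →
    (∀ n : Ideal B, n.IsMaximal → algebraMap A B π ∈ n →
      ∃ τ ∈ n, ∀ a : B, a ∉ Ideal.span {algebraMap A B π} →
        ∃ (e : ℕ) (d u : B), d ∉ n ∧ u ∉ n ∧
          a * d - u * τ ^ e ∈ Ideal.span {algebraMap A B π}) →
    (∃ y ∈ V, f - 1 = algebraMap A F π * y) →
    (∀ O : ValuationSubring F, (∀ a : A, algebraMap A F a ∈ O) →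
      (∀ a : A, a ≠ 0 → (algebraMap A F a)⁻¹ ∈ O) →
      ∃ g : F, g ≠ 0 ∧ f / g ^ m ∈ O ∧ g ^ m / f ∈ O) →
    ∃ s : F, (∃ b ∈ B, s ^ m = f * b) ∧ ∃ y ∈ V, s - 1 = algebraMap A F π * y

/-- **KC-GLUE (refine + glue + bounded torsion of the Čech `H¹`).**  This is literally the
statement of helper19's `H19.kummerCore`. -/
def StmtGlue : Prop :=
  ∀ (A F : Type) [CommRing A] [IsDomain A] [Field F] [Algebra A F]
    (π : A) (m : ℕ) (V : ValuationSubring F) (BU BV BUV : Subalgebra A F) (j f sU sV : F),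
    π ≠ 0 → Function.Injective (algebraMap A F) →
    (∀ c : A, c ≠ 0 → ∃ n : ℕ, c ∣ π ^ n) → IsUnit (m : A) →
    algebraMap A F π ∈ V.nonunits →
    BU ≤ BUV → BV ≤ BUV → (∀ x ∈ BUV, x ∈ V) →
    (∀ x : F, x ^ m ∈ BU → x ∈ BU) → (∀ x : F, x ^ m ∈ BV → x ∈ BV) →
    (∀ x : F, x ^ m ∈ BUV → x ∈ BUV) →
    (∀ x ∈ BU, (∃ y ∈ V, x = algebraMap A F π * y) → ∃ b ∈ BU, x = algebraMap A F π * b) →
    (∀ x ∈ BV, (∃ y ∈ V, x = algebraMap A F π * y) → ∃ b ∈ BV, x = algebraMap A F π * b) →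
    (∀ x ∈ BUV, ∀ n : ℕ, (∃ y ∈ V, x = algebraMap A F π ^ n * y) →
      ∃ b ∈ BUV, x = algebraMap A F π ^ n * b) →
    j ≠ 0 → j ∈ BU → j⁻¹ ∈ BV →
    (∀ x ∈ BUV, ∃ n : ℕ, j ^ n * x ∈ BU) → (∀ x ∈ BUV, ∃ n : ℕ, j⁻¹ ^ n * x ∈ BV) →
    (∃ y ∈ V, f - 1 = algebraMap A F π * y) →
    (∃ b ∈ BU, sU ^ m = f * b) → (∃ y ∈ V, sU - 1 = algebraMap A F π * y) →
    (∃ b ∈ BV, sV ^ m = f * b) → (∃ y ∈ V, sV - 1 = algebraMap A F π * y) →
    (∃ u : Finset F, (∀ x ∈ u, ∃ b ∈ BU, x ^ m = f * b) ∧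
      ∀ x : F, (∃ b ∈ BU, x ^ m = f * b) →
        x ∈ Submodule.span (Algebra.adjoin A {j}) (u : Set F)) →
    ∃ σ γ : F, σ ≠ 0 ∧ γ ≠ 0 ∧ γ ∈ BU ∧ γ ∈ BV ∧ σ ^ m = f * γ

/-- **(KC), the generic Kummer core.**  Two charts `BU ∋ j`, `BV ∋ j⁻¹` inside the Gauss
valuation ring `V`; both noetherian, integrally closed in `F`, with fraction field `F`,
saturated (`B ∩ πV = πB`) and with regular special fibre; `f ≡ 1` mod `π`, and `f` is a unit
times an `m`-th power at every valuation ring of `F` containing `Frac A`.  Then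
`σ ^ m = f * γ` with `σ, γ ≠ 0` and `γ ∈ BU ∩ BV` (so `γ` has no pole anywhere: a constant). -/
def StmtKC : Prop :=
  ∀ (A F : Type) [CommRing A] [IsDomain A] [Field F] [Algebra A F]
    (π : A) (m : ℕ) (V : ValuationSubring F) (BU BV : Subalgebra A F) (j f : F),
    π ≠ 0 → Function.Injective (algebraMap A F) →
    (∀ c : A, c ≠ 0 → ∃ n : ℕ, c ∣ π ^ n) → IsUnit (m : A) →
    -- the Gauss valuation ring: a DVR with uniformiser `π`
    algebraMap A F π ∈ V.nonunits →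
    (∀ x ∈ V.nonunits, ∃ y ∈ V, x = algebraMap A F π * y) →
    -- the charts
    (∀ x ∈ BU, x ∈ V) → (∀ x ∈ BV, x ∈ V) →
    (∀ x : F, IsIntegral BU x → x ∈ BU) → (∀ x : F, IsIntegral BV x → x ∈ BV) →
    (∀ x ∈ BU, (∃ y ∈ V, x = algebraMap A F π * y) → ∃ b ∈ BU, x = algebraMap A F π * b) →
    (∀ x ∈ BV, (∃ y ∈ V, x = algebraMap A F π * y) → ∃ b ∈ BV, x = algebraMap A F π * b) →
    j ≠ 0 → j ∈ BU → j⁻¹ ∈ BV →
    (∀ x ∈ BU, ∃ n : ℕ, j⁻¹ ^ n * x ∈ BV) → (∀ x ∈ BV, ∃ n : ℕ, j ^ n * x ∈ BU) →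
    -- finiteness
    IsNoetherianRing BU → IsNoetherianRing BV →
    (∀ M : Submodule (Algebra.adjoin A {j}) F, (∀ x ∈ M, x ∈ BU) → M.FG) →
    -- fraction fields
    (∀ x : F, ∃ a ∈ BU, ∃ b ∈ BU, b ≠ 0 ∧ x * b = a) →
    (∀ x : F, ∃ a ∈ BV, ∃ b ∈ BV, b ≠ 0 ∧ x * b = a) →
    -- regular special fibres
    (∀ n : Ideal BU, n.IsMaximal → algebraMap A BU π ∈ n →
      ∃ τ ∈ n, ∀ a : BU, a ∉ Ideal.span {algebraMap A BU π} →
        ∃ (e : ℕ) (d u : BU), d ∉ n ∧ u ∉ n ∧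
          a * d - u * τ ^ e ∈ Ideal.span {algebraMap A BU π}) →
    (∀ n : Ideal BV, n.IsMaximal → algebraMap A BV π ∈ n →
      ∃ τ ∈ n, ∀ a : BV, a ∉ Ideal.span {algebraMap A BV π} →
        ∃ (e : ℕ) (d u : BV), d ∉ n ∧ u ∉ n ∧
          a * d - u * τ ^ e ∈ Ideal.span {algebraMap A BV π}) →
    -- the function
    (∃ y ∈ V, f - 1 = algebraMap A F π * y) →
    (∀ O : ValuationSubring F, (∀ a : A, algebraMap A F a ∈ O) →
      (∀ a : A, a ≠ 0 → (algebraMap A F a)⁻¹ ∈ O) →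
      ∃ g : F, g ≠ 0 ∧ f / g ^ m ∈ O ∧ g ^ m / f ∈ O) →
    ∃ σ γ : F, σ ≠ 0 ∧ γ ≠ 0 ∧ γ ∈ BU ∧ γ ∈ BV ∧ σ ^ m = f * γ

/-! ### KC-FG: the root module is finitely generated -/

section FG

variable {A F : Type} [CommRing A] [Field F] [Algebra A F]

/-- root-closedness from integral closedness -/
theorem root_closed_of_integrally_closed (B : Subalgebra A F)
    (hic : ∀ x : F, IsIntegral B x → x ∈ B) {m : ℕ} (hm : 0 < m) (x : F) (hx : x ^ m ∈ B) :
    x ∈ B := by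
  apply hic
  refine ⟨Polynomial.X ^ m - Polynomial.C (⟨x ^ m, hx⟩ : B),
    Polynomial.monic_X_pow_sub_C _ hm.ne', ?_⟩
  simp [Polynomial.eval₂_sub, Polynomial.eval₂_pow]

/-- the sum of two root sections is a root section -/
theorem root_add (B : Subalgebra A F) (f : F) (hf : f ≠ 0) (m : ℕ)
    (hroot : ∀ x : F, x ^ m ∈ B → x ∈ B) {x y : F}
    (hx : ∃ b ∈ B, x ^ m = f * b) (hy : ∃ b ∈ B, y ^ m = f * b) :
    ∃ b ∈ B, (x + y) ^ m = f * b := by
  obtain ⟨b1, hb1, h1⟩ := hx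
  obtain ⟨b2, hb2, h2⟩ := hy
  have ht : ∀ k ∈ Finset.range (m + 1), x ^ k * y ^ (m - k) / f ∈ B := by
    intro k hk
    have hk' : k ≤ m := Nat.lt_succ_iff.mp (Finset.mem_range.mp hk)
    apply hroot
    have e : (x ^ k * y ^ (m - k) / f) ^ m = b1 ^ k * b2 ^ (m - k) := by
      rw [div_pow, mul_pow, ← pow_mul, ← pow_mul, mul_comm k m, mul_comm (m - k) m, pow_mul,
        pow_mul, h1, h2, mul_pow, mul_pow]
      have : f ^ k * f ^ (m - k) = f ^ m := by rw [← pow_add, Nat.add_sub_cancel' hk']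
      field_simp
      rw [← this]
      ring
    rw [e]
    exact B.mul_mem (B.pow_mem hb1 _) (B.pow_mem hb2 _)
  refine ⟨∑ k ∈ Finset.range (m + 1), x ^ k * y ^ (m - k) / f * (m.choose k : F), ?_, ?_⟩
  · refine B.sum_mem fun k hk => B.mul_mem (ht k hk) ?_
    exact natCast_mem B _
  · rw [add_pow, Finset.mul_sum]
    refine Finset.sum_congr rfl fun k _ => ?_
    field_simp

/-- **KC-FG.**  If every `A[j]`-submodule of `F` contained in `B` is finitely generated, then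
the module of `m`-th root sections `{x | x ^ m ∈ f B}` is finitely generated over `A[j]`. -/
theorem stmtFG (B : Subalgebra A F) (j f : F) (m : ℕ) (hm : 0 < m) (hf : f ≠ 0) (hj : j ∈ B)
    (hroot : ∀ x : F, x ^ m ∈ B → x ∈ B)
    (hnoeth : ∀ M : Submodule (Algebra.adjoin A {j}) F, (∀ x ∈ M, x ∈ B) → M.FG) :
    ∃ u : Finset F, (∀ x ∈ u, ∃ b ∈ B, x ^ m = f * b) ∧
      ∀ x : F, (∃ b ∈ B, x ^ m = f * b) →
        x ∈ Submodule.span (Algebra.adjoin A {j}) (u : Set F) := by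
  classical
  have hle : Algebra.adjoin A {j} ≤ B := Algebra.adjoin_le (by simpa using hj)
  -- the root module as an `A[j]`-submodule
  let I : Submodule (Algebra.adjoin A {j}) F :=
    { carrier := {x | ∃ b ∈ B, x ^ m = f * b}
      add_mem' := fun {x y} hx hy => root_add B f hf m hroot hx hy
      zero_mem' := ⟨0, B.zero_mem, by rw [zero_pow hm.ne', mul_zero]⟩
      smul_mem' := by
        rintro c x ⟨b, hb, hx⟩
        refine ⟨(c : F) ^ m * b, B.mul_mem (B.pow_mem (hle c.2) _) hb, ?_⟩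
        show ((c : F) * x) ^ m = f * ((c : F) ^ m * b)
        rw [mul_pow, hx]
        ring }
  have hI : ∀ x : F, x ∈ I ↔ ∃ b ∈ B, x ^ m = f * b := fun x => Iff.rfl
  suffices hfg : I.FG by
    obtain ⟨u, hu⟩ := hfg
    refine ⟨u, fun x hx => ?_, fun x hx => ?_⟩
    · have : x ∈ I := by
        rw [← hu]
        exact Submodule.subset_span hx
      exact (hI x).mp this
    · rw [hu]
      exact (hI x).mpr hx
  by_cases h0 : ∀ x ∈ I, x = 0
  · have : I = ⊥ := by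
      rw [eq_bot_iff]
      intro x hx
      rw [Submodule.mem_bot]
      exact h0 x hx
    rw [this]
    exact Submodule.fg_bot
  · push Not at h0
    obtain ⟨y0, hy0, hy0ne⟩ := h0
    obtain ⟨b0, hb0, hy0m⟩ := (hI y0).mp hy0
    set d : F := y0 ^ (m - 1) / f with hd
    have hd0 : d ≠ 0 := div_ne_zero (pow_ne_zero _ hy0ne) hf
    -- multiplication by `d` as an `A[j]`-linear map
    let φ : F →ₗ[Algebra.adjoin A {j}] F :=
      { toFun := fun x => d * x
        map_add' := fun x y => mul_add d x y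
        map_smul' := fun c x => by
          show d * ((c : F) * x) = (c : F) * (d * x)
          ring }
    have hφinj : Function.Injective φ := fun x y hxy => mul_left_cancel₀ hd0 hxy
    have hmap : ∀ x ∈ I.map φ, x ∈ B := by
      rintro _ ⟨x, hx, rfl⟩
      obtain ⟨b, hb, hxm⟩ := (hI x).mp hx
      apply hroot
      show (d * x) ^ m ∈ B
      have e : (d * x) ^ m = b0 ^ (m - 1) * b := by
        rw [mul_pow, hd, div_pow, ← pow_mul, mul_comm (m - 1) m, pow_mul, hy0m, hxm, mul_pow]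
        have : f ^ m = f ^ (m - 1) * f := by
          rw [← pow_succ, Nat.sub_add_cancel hm]
        rw [this]
        field_simp
      rw [e]
      exact B.mul_mem (B.pow_mem hb0 _) hb
    exact Submodule.fg_of_fg_map_injective φ hφinj (hnoeth _ hmap)

end FG

/-! ### The overlap chart `BU[1/j]` -/

section Overlap

variable {A F : Type} [CommRing A] [Field F] [Algebra A F]

/-- the overlap chart `BU[1/j] = {y | ∃ n, j ^ n * y ∈ BU}` -/
def overlap (BU : Subalgebra A F) (j : F) (hj : j ∈ BU) : Subalgebra A F where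
  carrier := {y | ∃ n : ℕ, j ^ n * y ∈ BU}
  mul_mem' := by
    rintro a b ⟨n1, h1⟩ ⟨n2, h2⟩
    refine ⟨n1 + n2, ?_⟩
    have : j ^ (n1 + n2) * (a * b) = (j ^ n1 * a) * (j ^ n2 * b) := by ring
    rw [this]
    exact BU.mul_mem h1 h2
  add_mem' := by
    rintro a b ⟨n1, h1⟩ ⟨n2, h2⟩
    refine ⟨n1 + n2, ?_⟩
    have : j ^ (n1 + n2) * (a + b) = j ^ n2 * (j ^ n1 * a) + j ^ n1 * (j ^ n2 * b) := by ring
    rw [this]
    exact BU.add_mem (BU.mul_mem (BU.pow_mem hj _) h1) (BU.mul_mem (BU.pow_mem hj _) h2)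
  algebraMap_mem' := fun r => ⟨0, by simp⟩

theorem mem_overlap {BU : Subalgebra A F} {j : F} {hj : j ∈ BU} {y : F} :
    y ∈ overlap BU j hj ↔ ∃ n : ℕ, j ^ n * y ∈ BU := Iff.rfl

theorem le_overlap (BU : Subalgebra A F) (j : F) (hj : j ∈ BU) : BU ≤ overlap BU j hj :=
  fun y hy => ⟨0, by simpa using hy⟩

/-- saturation for all powers of `π` from saturation for `π` -/
theorem sat_pow {π : A} {V : ValuationSubring F} {B : Subalgebra A F}
    (hπ : algebraMap A F π ≠ 0) (hπV : algebraMap A F π ∈ V)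
    (hsat : ∀ x ∈ B, (∃ y ∈ V, x = algebraMap A F π * y) → ∃ b ∈ B, x = algebraMap A F π * b) :
    ∀ n : ℕ, ∀ x ∈ B, (∃ y ∈ V, x = algebraMap A F π ^ n * y) →
      ∃ b ∈ B, x = algebraMap A F π ^ n * b := by
  intro n
  induction n with
  | zero =>
    intro x hx _
    exact ⟨x, hx, by rw [pow_zero, one_mul]⟩
  | succ n ih =>
    rintro x hx ⟨y, hy, e⟩
    obtain ⟨b, hb, e1⟩ := hsat x hx ⟨algebraMap A F π ^ n * y,
      V.mul_mem _ _ (V.pow_mem hπV _) hy, by rw [e, pow_succ]; ring⟩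
    have e2 : b = algebraMap A F π ^ n * y := by
      apply mul_left_cancel₀ hπ
      rw [← e1, e, pow_succ]
      ring
    obtain ⟨b', hb', e3⟩ := ih b hb ⟨y, hy, e2⟩
    exact ⟨b', hb', by rw [e1, e3, pow_succ]; ring⟩

end Overlap

/-! ### Assembly of the generic core -/

/-- **KC-ASM.**  The generic Kummer core from the base step (used on both charts) and the
glue node. -/
theorem stmtKC_of (hbase : StmtBase) (hglue : StmtGlue) : StmtKC := by
  intro A F _ _ _ _ π m V BU BV j f hπ hinj harch hm hπV hVπ hUV hVV hicU hicV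
    hsatU hsatV hj0 hjU hjV hUtoV hVtoU hnU hnV hnoeth hfracU hfracV hregU hregV hf hdiv
  have hm0 : 0 < m := by
    rcases Nat.eq_zero_or_pos m with h | h
    · exfalso
      rw [h, Nat.cast_zero] at hm
      exact not_isUnit_zero hm
    · exact h
  have hϖ0 : algebraMap A F π ≠ 0 := fun h => hπ (hinj (by rw [h, map_zero]))
  have hϖV : algebraMap A F π ∈ V := hUV _ (BU.algebraMap_mem π)
  have hrootU : ∀ x : F, x ^ m ∈ BU → x ∈ BU := root_closed_of_integrally_closed BU hicU hm0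
  have hrootV : ∀ x : F, x ^ m ∈ BV → x ∈ BV := root_closed_of_integrally_closed BV hicV hm0
  have hjVV : j ∈ V := hUV j hjU
  have hjiV : j⁻¹ ∈ V := hVV _ hjV
  -- the overlap chart
  set BUV : Subalgebra A F := overlap BU j hjU with hBUV
  have hU : BU ≤ BUV := le_overlap BU j hjU
  have hV : BV ≤ BUV := fun y hy => hVtoU y hy
  have hBUV_V : ∀ x ∈ BUV, x ∈ V := by
    rintro x ⟨n, hn⟩
    have e : x = j⁻¹ ^ n * (j ^ n * x) := by
      rw [← mul_assoc, ← mul_pow, inv_mul_cancel₀ hj0, one_pow, one_mul]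
    rw [e]
    exact V.mul_mem _ _ (V.pow_mem hjiV _) (hUV _ hn)
  have hrootUV : ∀ x : F, x ^ m ∈ BUV → x ∈ BUV := by
    rintro x ⟨n, hn⟩
    refine ⟨n, hrootU _ ?_⟩
    have e : (j ^ n * x) ^ m = (j ^ n) ^ (m - 1) * (j ^ n * x ^ m) := by
      have : (j ^ n) ^ m = (j ^ n) ^ (m - 1) * j ^ n := by
        rw [← pow_succ, Nat.sub_add_cancel hm0]
      rw [mul_pow, this]
      ring
    rw [e]
    exact BU.mul_mem (BU.pow_mem (BU.pow_mem hjU _) _) hn
  have hsatUV : ∀ x ∈ BUV, ∀ n : ℕ, (∃ y ∈ V, x = algebraMap A F π ^ n * y) →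
      ∃ b ∈ BUV, x = algebraMap A F π ^ n * b := by
    rintro x ⟨k, hk⟩ n ⟨y, hy, e⟩
    obtain ⟨b, hb, e1⟩ := sat_pow hϖ0 hϖV hsatU n (j ^ k * x) hk
      ⟨j ^ k * y, V.mul_mem _ _ (V.pow_mem hjVV _) hy, by rw [e]; ring⟩
    refine ⟨j⁻¹ ^ k * b, ⟨k, ?_⟩, ?_⟩
    · have : j ^ k * (j⁻¹ ^ k * b) = b := by
        rw [← mul_assoc, ← mul_pow, mul_inv_cancel₀ hj0, one_pow, one_mul]
      rw [this]
      exact hb
    · have : x = j⁻¹ ^ k * (j ^ k * x) := by
        rw [← mul_assoc, ← mul_pow, inv_mul_cancel₀ hj0, one_pow, one_mul]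
      rw [this, e1]
      ring
  have hlocU : ∀ x ∈ BUV, ∃ n : ℕ, j ^ n * x ∈ BU := fun x hx => hx
  have hlocV : ∀ x ∈ BUV, ∃ n : ℕ, j⁻¹ ^ n * x ∈ BV := by
    rintro x ⟨k, hk⟩
    obtain ⟨n, hn⟩ := hUtoV _ hk
    refine ⟨n, ?_⟩
    have : j⁻¹ ^ n * x = j⁻¹ ^ k * (j⁻¹ ^ n * (j ^ k * x)) := by
      have h1 : j⁻¹ ^ k * j ^ k = 1 := by
        rw [← mul_pow, inv_mul_cancel₀ hj0, one_pow]
      calc j⁻¹ ^ n * x = (j⁻¹ ^ k * j ^ k) * (j⁻¹ ^ n * x) := by rw [h1, one_mul]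
        _ = j⁻¹ ^ k * (j⁻¹ ^ n * (j ^ k * x)) := by ring
    rw [this]
    exact BV.mul_mem (BV.pow_mem hjV _) hn
  -- `f ≠ 0`
  have hf0 : f ≠ 0 := by
    rintro rfl
    obtain ⟨y, hy, e⟩ := hf
    have h1 : (1 : F) = algebraMap A F π * (-y) := by
      have : (0 : F) - 1 = algebraMap A F π * y := e
      linear_combination -this
    have hmem : (1 : F) ∈ V.nonunits := by
      rw [h1]
      have := hπV
      rw [ValuationSubring.mem_nonunits_iff_exists_mem_maximalIdeal] at this ⊢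
      obtain ⟨hπmem, hπmax⟩ := this
      refine ⟨V.mul_mem _ _ hπmem (V.neg_mem _ hy), ?_⟩
      have : (⟨algebraMap A F π * -y, V.mul_mem _ _ hπmem (V.neg_mem _ hy)⟩ : V) =
          ⟨algebraMap A F π, hπmem⟩ * ⟨-y, V.neg_mem _ hy⟩ := rfl
      rw [this]
      exact Ideal.mul_mem_right _ _ hπmax
    have : (1 : F) ∉ V.nonunits := by
      intro h
      rw [ValuationSubring.mem_nonunits_iff_exists_mem_maximalIdeal] at h
      obtain ⟨h1', h2'⟩ := h
      exact (IsLocalRing.maximalIdeal V).ne_top_iff_one.mp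
        (IsLocalRing.maximalIdeal.isMaximal V).ne_top h2'
    exact this hmem
  obtain ⟨sU, hsU, hsU1⟩ := hbase A F π m V BU f hπ hinj harch hm0 hπV hVπ hUV hnU hicU hfracU
    hsatU hregU hf hdiv
  obtain ⟨sV, hsV, hsV1⟩ := hbase A F π m V BV f hπ hinj harch hm0 hπV hVπ hVV hnV hicV hfracV
    hsatV hregV hf hdiv
  have hfg := stmtFG BU j f m hm0 hf0 hjU hrootU hnoeth
  exact hglue A F π m V BU BV BUV j f sU sV hπ hinj harch hm hπV hU hV hBUV_V hrootU hrootV
    hrootUV hsatU hsatV hsatUV hj0 hjU hjV hlocU hlocV hf hsU hsU1 hsV hsV1 hfg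

end Fermat.Agent.S18.H63
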