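import Mathlib
import Fermat.Agent.S18.Charts_helper97
import Fermat.Agent.S18.KCStmts_helper63

/-!
# S18: the generic Kummer core at the integral-closure charts

`kc_charts`: the statement `H63.StmtKC`, specialised to the two charts `chartU A x`,
`chartV A x` of a finite extension `F` of `K(x)` over a discrete valuation ring `A` with
fraction field `K` of characteristic zero.  All purely algebraic chart hypotheses are
discharged; what remains are the Gauss valuation ring `V` (uniformiser `π`, containing `A`,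
`x`, `x⁻¹`, with `B ∩ πV = πB` for both charts), the regularity of the two special fibres, and
the two hypotheses on the function `f`.
-/

set_option autoImplicit false

namespace Fermat.Agent.S18.H97

/-- **(KC) at the charts.** -/
theorem kc_charts (hKC : H63.StmtKC)
    {A K F : Type} [CommRing A] [IsDomain A] [IsDiscreteValuationRing A]
    [Field K] [Algebra A K] [IsFractionRing A K] [CharZero K]
    [Field F] [Algebra K F] [Algebra A F] [IsScalarTower A K F]
    (π : A) (hπ : Irreducible π) (m : ℕ) (hm : IsUnit (m : A))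
    (x : F) (hx : Transcendental K x) [FiniteDimensional (IntermediateField.adjoin K {x}) F]
    (V : ValuationSubring F)
    (hAV : ∀ a : A, algebraMap A F a ∈ V) (hxV : x ∈ V) (hxV' : x⁻¹ ∈ V)
    (hπV : algebraMap A F π ∈ V.nonunits)
    (hVπ : ∀ y ∈ V.nonunits, ∃ z ∈ V, y = algebraMap A F π * z)
    (hsatU : ∀ b ∈ chartU A x, (∃ y ∈ V, b = algebraMap A F π * y) →
      ∃ c ∈ chartU A x, b = algebraMap A F π * c)
    (hsatV : ∀ b ∈ chartV A x, (∃ y ∈ V, b = algebraMap A F π * y) →
      ∃ c ∈ chartV A x, b = algebraMap A F π * c)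
    (hregU : ∀ n : Ideal (chartU A x), n.IsMaximal → algebraMap A (chartU A x) π ∈ n →
      ∃ τ ∈ n, ∀ a : chartU A x, a ∉ Ideal.span {algebraMap A (chartU A x) π} →
        ∃ (e : ℕ) (d u : chartU A x), d ∉ n ∧ u ∉ n ∧
          a * d - u * τ ^ e ∈ Ideal.span {algebraMap A (chartU A x) π})
    (hregV : ∀ n : Ideal (chartV A x), n.IsMaximal → algebraMap A (chartV A x) π ∈ n →
      ∃ τ ∈ n, ∀ a : chartV A x, a ∉ Ideal.span {algebraMap A (chartV A x) π} →
        ∃ (e : ℕ) (d u : chartV A x), d ∉ n ∧ u ∉ n ∧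
          a * d - u * τ ^ e ∈ Ideal.span {algebraMap A (chartV A x) π})
    (f : F) (hf : ∃ y ∈ V, f - 1 = algebraMap A F π * y)
    (hdiv : ∀ O : ValuationSubring F, (∀ a : A, algebraMap A F a ∈ O) →
      (∀ a : A, a ≠ 0 → (algebraMap A F a)⁻¹ ∈ O) →
      ∃ g : F, g ≠ 0 ∧ f / g ^ m ∈ O ∧ g ^ m / f ∈ O) :
    ∃ σ γ : F, σ ≠ 0 ∧ γ ≠ 0 ∧ γ ∈ chartU A x ∧ γ ∈ chartV A x ∧ σ ^ m = f * γ := by
  have hx0 : x ≠ 0 := by
    rintro rfl
    exact hx (isAlgebraic_zero)
  have hinj : Function.Injective (algebraMap A F) := algebraMap_injective_of_isFractionRing A K F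
  have harch : ∀ c : A, c ≠ 0 → ∃ n : ℕ, c ∣ π ^ n := by
    intro c hc
    obtain ⟨n, hn⟩ := IsDiscreteValuationRing.associated_pow_irreducible hc hπ
    exact ⟨n, hn.dvd⟩
  exact hKC A F π m V (chartU A x) (chartV A x) x f hπ.ne_zero hinj harch hm hπV hVπ
    (fun y hy => chartU_le_valuationSubring V hAV hxV hy)
    (fun y hy => chartV_le_valuationSubring V hAV hxV' hy)
    (fun y hy => mem_chartU_of_isIntegral hy)
    (fun y hy => mem_chartV_of_isIntegral hy)
    hsatU hsatV hx0 (mem_chartU_self x) (inv_mem_chartV x)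
    (fun y hy => exists_inv_pow_mul_mem_chartV hx0 (chartU_le_chartUV x hy))
    (fun y hy => exists_pow_mul_mem_chartU hx0 (chartV_le_chartUV x hy))
    (isNoetherianRing_chartU (K := K) hx) (isNoetherianRing_chartV (K := K) hx)
    (fun M hM => fg_of_le_chartU (K := K) hx M hM)
    (exists_chartU_mul_eq_of_finiteDimensional (K := K) x)
    (exists_chartV_mul_eq_of_finiteDimensional (K := K) x)
    hregU hregV hf hdiv

end Fermat.Agent.S18.H97
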