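import Mathlib

set_option autoImplicit false

/-!
# S18: the abstract Kummer core (helper19)

Pure commutative algebra, Mathlib only: no places, no divisors.

* `exists_ne_zero_forall_torsion` : over a domain, the torsion of a finitely generated module is
  killed by a single nonzero element.
* `eq_zero_of_forall_pow_smul`, `mem_of_forall_pow_smul_mem` : the "Krull intersection" substitute.
* `rootMod B f m` : the elements `x` with `x ^ m ∈ f * B` ("sections of the m-th root of (f)").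
* `kummerCore` : refinement + glueing + two-chart finiteness.
-/

namespace Fermat.Agent.S18.H19

section Torsion

variable {A : Type*} [CommRing A] [IsDomain A]

/-- Over a domain, all torsion elements of the span of a finite set are killed by one nonzero
scalar. -/
theorem exists_ne_zero_forall_torsion_span {H : Type*} [AddCommGroup H] [Module A H]
    (s : Finset H) :
    ∃ c : A, c ≠ 0 ∧ ∀ t ∈ Submodule.span A (s : Set H),
      (∃ a : A, a ≠ 0 ∧ a • t = 0) → c • t = 0 := by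
  classical
  induction s using Finset.induction_on with
  | empty =>
    refine ⟨1, one_ne_zero, fun t ht _ => ?_⟩
    simp only [Finset.coe_empty, Submodule.span_empty, Submodule.mem_bot] at ht
    simp [ht]
  | insert e s _ ih =>
    obtain ⟨c', hc', hkill⟩ := ih
    by_cases hcase : ∃ a : A, a ≠ 0 ∧ a • e ∈ Submodule.span A (s : Set H)
    · obtain ⟨a, ha, hae⟩ := hcase
      refine ⟨c' * a, mul_ne_zero hc' ha, fun t ht htors => ?_⟩
      rw [Finset.coe_insert, Submodule.mem_span_insert] at ht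
      obtain ⟨b, n', hn', rfl⟩ := ht
      have hmem : a • (b • e + n') ∈ Submodule.span A (s : Set H) := by
        rw [smul_add, smul_comm]
        exact Submodule.add_mem _ (Submodule.smul_mem _ _ hae) (Submodule.smul_mem _ _ hn')
      have htors' : ∃ d : A, d ≠ 0 ∧ d • (a • (b • e + n')) = 0 := by
        obtain ⟨d, hd, hdt⟩ := htors
        exact ⟨d, hd, by rw [smul_comm, hdt, smul_zero]⟩
      rw [mul_smul]
      exact hkill _ hmem htors'
    · push Not at hcase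
      refine ⟨c', hc', fun t ht htors => ?_⟩
      rw [Finset.coe_insert, Submodule.mem_span_insert] at ht
      obtain ⟨b, n', hn', rfl⟩ := ht
      obtain ⟨d, hd, hdt⟩ := htors
      have hb : b = 0 := by
        by_contra hb
        have h1 : (d * b) • e ∈ Submodule.span A (s : Set H) := by
          have h2 : (d * b) • e = -(d • n') := by
            rw [smul_add, smul_smul] at hdt
            exact eq_neg_of_add_eq_zero_left hdt
          rw [h2]
          exact Submodule.neg_mem _ (Submodule.smul_mem _ _ hn')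
        exact hcase (d * b) (mul_ne_zero hd hb) h1
      subst hb
      rw [zero_smul, zero_add] at hdt ⊢
      exact hkill _ hn' ⟨d, hd, hdt⟩

/-- Over a domain, the torsion of a finitely generated module is killed by one nonzero scalar. -/
theorem exists_ne_zero_forall_torsion (H : Type*) [AddCommGroup H] [Module A H]
    [Module.Finite A H] :
    ∃ c : A, c ≠ 0 ∧ ∀ t : H, (∃ a : A, a ≠ 0 ∧ a • t = 0) → c • t = 0 := by
  obtain ⟨s, hs⟩ := (Module.finite_def.mp (inferInstance : Module.Finite A H))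
  obtain ⟨c, hc, hkill⟩ := exists_ne_zero_forall_torsion_span (A := A) s
  exact ⟨c, hc, fun t ht => hkill t (by rw [hs]; exact Submodule.mem_top) ht⟩

/-- Substitute for Krull's intersection theorem over a (possibly non-noetherian) domain in which
every nonzero element divides a power of `π`. -/
theorem eq_zero_of_forall_pow_smul {H : Type*} [AddCommGroup H] [Module A H] [Module.Finite A H]
    (π : A) (hπ0 : π ≠ 0) (harch : ∀ c : A, c ≠ 0 → ∃ n : ℕ, c ∣ π ^ n)
    (x : H) (hx : ∀ n : ℕ, ∃ y : H, π ^ (n + 1) • y = 0 ∧ x = π ^ n • y) : x = 0 := by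
  obtain ⟨c, hc, hkill⟩ := exists_ne_zero_forall_torsion (A := A) H
  obtain ⟨n, d, hd⟩ := harch c hc
  obtain ⟨y, hy0, hxy⟩ := hx n
  have hcy : c • y = 0 := hkill y ⟨π ^ (n + 1), pow_ne_zero _ hπ0, hy0⟩
  rw [hxy, hd, mul_comm, mul_smul, hcy, smul_zero]

/-- Submodule form of `eq_zero_of_forall_pow_smul`. -/
theorem mem_of_forall_pow_smul_mem {W : Type*} [AddCommGroup W] [Module A W]
    (N : Submodule A W) (S : Finset W) (π : A) (hπ0 : π ≠ 0)
    (harch : ∀ c : A, c ≠ 0 → ∃ n : ℕ, c ∣ π ^ n) (x : W)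
    (hx : ∀ k : ℕ, ∃ y : W, y ∈ N ⊔ Submodule.span A (S : Set W) ∧ π ^ (k + 1) • y ∈ N ∧
      x - π ^ k • y ∈ N) : x ∈ N := by
  classical
  set H' : Submodule A (W ⧸ N) := (Submodule.span A (S : Set W)).map N.mkQ with hH'
  have hfg : H'.FG := (Submodule.fg_span (Finset.finite_toSet S)).map _
  have hfin : Module.Finite A H' := Module.Finite.iff_fg.mpr hfg
  have hq : ∀ w : W, N.mkQ w = 0 ↔ w ∈ N := fun w => by
    rw [Submodule.mkQ_apply]; exact Submodule.Quotient.mk_eq_zero N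
  have hmk : ∀ y : W, y ∈ N ⊔ Submodule.span A (S : Set W) → N.mkQ y ∈ H' := by
    intro y hy
    obtain ⟨n, hn, s, hs, rfl⟩ := Submodule.mem_sup.mp hy
    rw [map_add, (hq n).mpr hn, zero_add]
    exact Submodule.mem_map_of_mem hs
  have hxH : N.mkQ x ∈ H' := by
    obtain ⟨y, hy, _, hxy⟩ := hx 0
    have h1 : N.mkQ x = N.mkQ y := by
      have h2 := (hq _).mpr hxy
      rw [map_sub, pow_zero, one_smul, sub_eq_zero] at h2
      exact h2
    rw [h1]
    exact hmk y hy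
  have hzero : (⟨N.mkQ x, hxH⟩ : H') = 0 := by
    refine eq_zero_of_forall_pow_smul π hπ0 harch _ fun n => ?_
    obtain ⟨y, hy, hy0, hxy⟩ := hx n
    refine ⟨⟨N.mkQ y, hmk y hy⟩, ?_, ?_⟩
    · apply Subtype.ext
      rw [Submodule.coe_smul, Submodule.coe_zero, ← map_smul]
      exact (hq _).mpr hy0
    · apply Subtype.ext
      rw [Submodule.coe_smul, ← map_smul]
      have h2 := (hq _).mpr hxy
      rw [map_sub, sub_eq_zero] at h2
      exact h2
  have h3 : N.mkQ x = 0 := congrArg Subtype.val hzero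
  exact (hq x).mp h3

end Torsion

section RootMod

variable {A F : Type*} [CommRing A] [Field F] [Algebra A F]

/-- `rootMod B f m`: the elements of `F` whose `m`-th power lies in `f * B`. For `B` the ring of
functions regular on a chart and `div f = m D` this is the module of sections of `O(D)`. -/
def rootMod (B : Subalgebra A F) (f : F) (m : ℕ) : Set F := {x | ∃ b ∈ B, x ^ m = f * b}

theorem mem_rootMod {B : Subalgebra A F} {f : F} {m : ℕ} {x : F} :
    x ∈ rootMod B f m ↔ ∃ b ∈ B, x ^ m = f * b := Iff.rfl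

theorem rootMod_mono {B B' : Subalgebra A F} (h : B ≤ B') (f : F) (m : ℕ) :
    rootMod B f m ⊆ rootMod B' f m := fun _ ⟨b, hb, hx⟩ => ⟨b, h hb, hx⟩

theorem rootMod_mul_mem {B : Subalgebra A F} {f : F} {m : ℕ} {c x : F} (hc : c ∈ B)
    (hx : x ∈ rootMod B f m) : c * x ∈ rootMod B f m := by
  obtain ⟨b, hb, hxb⟩ := hx
  exact ⟨c ^ m * b, B.mul_mem (B.pow_mem hc m) hb, by rw [mul_pow, hxb]; ring⟩

theorem rootMod_zero_mem (B : Subalgebra A F) (f : F) {m : ℕ} (hm : m ≠ 0) :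
    (0 : F) ∈ rootMod B f m := ⟨0, B.zero_mem, by rw [zero_pow hm, mul_zero]⟩

theorem rootMod_neg_mem {B : Subalgebra A F} {f : F} {m : ℕ} {x : F}
    (hx : x ∈ rootMod B f m) : -x ∈ rootMod B f m := by
  have h := rootMod_mul_mem (c := -1) (B.neg_mem B.one_mem) hx
  rwa [neg_one_mul] at h

theorem rootMod_add_mem {B : Subalgebra A F} {f : F} (hf : f ≠ 0) {m : ℕ}
    (hroot : ∀ x : F, x ^ m ∈ B → x ∈ B) {x y : F}
    (hx : x ∈ rootMod B f m) (hy : y ∈ rootMod B f m) : x + y ∈ rootMod B f m := by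
  obtain ⟨a, ha, hxa⟩ := hx
  obtain ⟨b, hb, hyb⟩ := hy
  have ht : ∀ k ∈ Finset.range (m + 1), x ^ k * y ^ (m - k) / f ∈ B := by
    intro k hk
    have hkm : k ≤ m := Nat.lt_succ_iff.mp (Finset.mem_range.mp hk)
    apply hroot
    have h1 : (x ^ k * y ^ (m - k) / f) ^ m = a ^ k * b ^ (m - k) := by
      rw [div_pow, mul_pow, ← pow_mul, ← pow_mul, mul_comm k m, mul_comm (m - k) m, pow_mul,
        pow_mul, hxa, hyb, mul_pow, mul_pow, div_eq_iff (pow_ne_zero _ hf)]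
      have h2 : f ^ k * f ^ (m - k) = f ^ m := by rw [← pow_add, Nat.add_sub_cancel' hkm]
      calc f ^ k * a ^ k * (f ^ (m - k) * b ^ (m - k))
          = (f ^ k * f ^ (m - k)) * (a ^ k * b ^ (m - k)) := by ring
        _ = a ^ k * b ^ (m - k) * f ^ m := by rw [h2]; ring
    rw [h1]
    exact B.mul_mem (B.pow_mem ha _) (B.pow_mem hb _)
  refine ⟨∑ k ∈ Finset.range (m + 1), x ^ k * y ^ (m - k) / f * (m.choose k : F), ?_, ?_⟩
  · exact B.sum_mem fun k hk => B.mul_mem (ht k hk) (natCast_mem B _)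
  · rw [add_pow, Finset.mul_sum]
    refine Finset.sum_congr rfl fun k _ => ?_
    field_simp

/-- `rootMod` as an `A`-submodule (when `B` is closed under `m`-th roots). -/
def rootSub (B : Subalgebra A F) (f : F) (hf : f ≠ 0) (m : ℕ) (hm : m ≠ 0)
    (hroot : ∀ x : F, x ^ m ∈ B → x ∈ B) : Submodule A F where
  carrier := rootMod B f m
  add_mem' := fun hx hy => rootMod_add_mem hf hroot hx hy
  zero_mem' := rootMod_zero_mem B f hm
  smul_mem' := fun c x hx => by
    rw [Algebra.smul_def]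
    exact rootMod_mul_mem (B.algebraMap_mem c) hx

theorem mem_rootSub {B : Subalgebra A F} {f : F} {hf : f ≠ 0} {m : ℕ} {hm : m ≠ 0}
    {hroot : ∀ x : F, x ^ m ∈ B → x ∈ B} {x : F} :
    x ∈ rootSub B f hf m hm hroot ↔ x ∈ rootMod B f m := Iff.rfl

end RootMod

section RingLemmas

variable {R : Type*} [CommRing R]

theorem one_add_pow_exists (y : R) (m : ℕ) : ∃ k : R, (1 + y) ^ m = 1 + m * y + y ^ 2 * k := by
  induction m with
  | zero => exact ⟨0, by simp⟩
  | succ m ih =>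
    obtain ⟨k, hk⟩ := ih
    refine ⟨m + k + k * y, ?_⟩
    rw [pow_succ, hk]
    push_cast
    ring

theorem exists_refine (m : ℕ) (i : R) (hi : (m : R) * i = 1) (x : R) :
    ∃ r : R, (1 + x) * (1 - x * i) ^ m = 1 + x ^ 2 * r := by
  obtain ⟨k, hk⟩ := one_add_pow_exists (-(x * i)) m
  refine ⟨-1 + i ^ 2 * k + x * i ^ 2 * k, ?_⟩
  rw [sub_eq_add_neg, hk]
  linear_combination (-(x) - x ^ 2) * hi

end RingLemmas

section Val

variable {F : Type*} [Field F] (V : ValuationSubring F)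

theorem val_eq_one_of_sub_one_lt {x : F} (h : V.valuation (x - 1) < 1) : V.valuation x = 1 := by
  have h2 := Valuation.map_one_add_of_lt (v := V.valuation) h
  rwa [add_sub_cancel] at h2

theorem val_mul_sub_one_lt {a b : F} (ha : V.valuation (a - 1) < 1)
    (hb : V.valuation (b - 1) < 1) : V.valuation (a * b - 1) < 1 := by
  have h1 : a * b - 1 = a * (b - 1) + (a - 1) := by ring
  rw [h1]
  refine lt_of_le_of_lt (Valuation.map_add _ _ _) (max_lt ?_ ha)
  rw [map_mul, val_eq_one_of_sub_one_lt V ha, one_mul]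
  exact hb

theorem val_pow_sub_one_lt {a : F} (ha : V.valuation (a - 1) < 1) (n : ℕ) :
    V.valuation (a ^ n - 1) < 1 := by
  induction n with
  | zero => simp
  | succ n ih =>
    rw [pow_succ]
    exact val_mul_sub_one_lt V ih ha

theorem mem_iff_val_le_pow {ϖ : F} (hϖ : ϖ ≠ 0) (x : F) (n : ℕ) :
    (∃ y ∈ V, x = ϖ ^ n * y) ↔ V.valuation x ≤ V.valuation ϖ ^ n := by
  constructor
  · rintro ⟨y, hy, rfl⟩
    rw [map_mul, map_pow]
    exact mul_le_of_le_one_right' ((V.valuation_le_one_iff y).mpr hy)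
  · intro h
    refine ⟨x / ϖ ^ n, ?_, by field_simp⟩
    rw [← V.valuation_le_one_iff, map_div₀, map_pow]
    exact div_le_one_of_le₀ h zero_le

end Val

section Core

variable {A F : Type*} [CommRing A] [Field F] [Algebra A F]
variable (V : ValuationSubring F)

/-- REFINE: in one chart, a section `s` with `s = 1 mod π` and `s ^ m ∈ f * B` can be corrected,
for every `n ≥ 1`, to `s'` with `s' ^ m = f * (1 + π ^ n * b)` and `s' - s ∈ π * rootMod`. -/
theorem refine_exists (B : Subalgebra A F)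
    (π : A) (hπ : V.valuation (algebraMap A F π) < 1)
    {m : ℕ} (i : A) (hi : (m : A) * i = 1)
    (hroot : ∀ x : F, x ^ m ∈ B → x ∈ B)
    (hsat : ∀ x ∈ B, V.valuation x ≤ V.valuation (algebraMap A F π) →
      ∃ b ∈ B, x = algebraMap A F π * b)
    {f : F} (hf : f ≠ 0) (hf1 : V.valuation (f - 1) ≤ V.valuation (algebraMap A F π))
    {s : F} (hs : s ∈ rootMod B f m)
    (hs1 : V.valuation (s - 1) ≤ V.valuation (algebraMap A F π)) :
    ∀ n : ℕ, 1 ≤ n → ∃ s' : F, ∃ b ∈ B, s' ^ m = f * (1 + algebraMap A F π ^ n * b) ∧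
      ∃ e ∈ rootMod B f m, s' - s = algebraMap A F π * e := by
  set ϖ : F := algebraMap A F π with hϖ
  have hm0 : m ≠ 0 := by
    rintro rfl
    have h1 : (1 : F) = 0 := by
      rw [← map_one (algebraMap A F), ← hi]
      simp
    exact one_ne_zero h1
  have hϖB : ϖ ∈ B := B.algebraMap_mem π
  have hvf : V.valuation f = 1 := val_eq_one_of_sub_one_lt V (lt_of_le_of_lt hf1 hπ)
  have hvs : V.valuation s = 1 := val_eq_one_of_sub_one_lt V (lt_of_le_of_lt hs1 hπ)
  intro n hn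
  induction n, hn using Nat.le_induction with
  | base =>
    obtain ⟨b₀, hb₀, hsb⟩ := hs
    have hsum : V.valuation (∑ k ∈ Finset.range m, s ^ k) ≤ 1 :=
      Valuation.map_sum_le _ fun k _ => by rw [map_pow, hvs, one_pow]
    have h1 : V.valuation (s ^ m - 1) ≤ V.valuation ϖ := by
      rw [← mul_geom_sum, map_mul]
      calc V.valuation (s - 1) * V.valuation (∑ k ∈ Finset.range m, s ^ k)
          ≤ V.valuation ϖ * 1 := mul_le_mul' hs1 hsum
        _ = V.valuation ϖ := mul_one _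
    have h2 : V.valuation (b₀ - 1) ≤ V.valuation ϖ := by
      have h3 : b₀ - 1 = ((s ^ m - 1) - (f - 1)) / f := by
        rw [hsb]; field_simp; ring
      rw [h3, map_div₀, hvf, div_one]
      exact le_trans (Valuation.map_sub _ _ _) (max_le h1 hf1)
    obtain ⟨b₁, hb₁, hb₁e⟩ := hsat (b₀ - 1) (B.sub_mem hb₀ B.one_mem) h2
    refine ⟨s, b₁, hb₁, ?_, 0, rootMod_zero_mem B f hm0, by rw [sub_self, mul_zero]⟩
    rw [pow_one, ← hb₁e, hsb]; ring_nf
  | succ n hn ih =>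
    obtain ⟨s', b, hb, hs'b, e, he, hs'e⟩ := ih
    have hxB : ϖ ^ n * b ∈ B := B.mul_mem (B.pow_mem hϖB n) hb
    have hiB : algebraMap A F i ∈ B := B.algebraMap_mem i
    have hmi : ((m : ℕ) : B) * (⟨algebraMap A F i, hiB⟩ : B) = 1 := by
      apply Subtype.ext
      push_cast
      rw [← map_natCast (algebraMap A F) m, ← map_mul, hi, map_one]
    obtain ⟨r, hr⟩ := exists_refine m (⟨algebraMap A F i, hiB⟩ : B) hmi ⟨ϖ ^ n * b, hxB⟩
    have hrF : (1 + ϖ ^ n * b) * (1 - ϖ ^ n * b * algebraMap A F i) ^ m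
        = 1 + (ϖ ^ n * b) ^ 2 * (r : F) := by
      have := congrArg Subtype.val hr
      push_cast at this
      exact this
    have hs'mem : s' ∈ rootMod B f m :=
      ⟨1 + ϖ ^ n * b, B.add_mem B.one_mem hxB, hs'b⟩
    obtain ⟨k, rfl⟩ : ∃ k, n = k + 1 := ⟨n - 1, by omega⟩
    refine ⟨s' * (1 - ϖ ^ (k + 1) * b * algebraMap A F i), ϖ ^ k * b ^ 2 * (r : F),
      B.mul_mem (B.mul_mem (B.pow_mem hϖB k) (B.pow_mem hb 2)) r.2, ?_,
      e + (-(ϖ ^ k * b * algebraMap A F i)) * s', ?_, ?_⟩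
    · rw [mul_pow, hs'b, mul_assoc, hrF]; ring
    · refine rootMod_add_mem hf hroot he (rootMod_mul_mem ?_ hs'mem)
      exact B.neg_mem (B.mul_mem (B.mul_mem (B.pow_mem hϖB k) hb) hiB)
    · have h4 : s' * (1 - ϖ ^ (k + 1) * b * algebraMap A F i) - s
          = (s' - s) - ϖ * (ϖ ^ k * b * algebraMap A F i * s') := by ring
      rw [h4, hs'e]; ring

/-- GLUE: two `n`-th order `m`-th roots of `f` on the two charts differ by `π ^ n` times a
section over the intersection. No roots of unity are needed. -/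
theorem glue_exists (BUV : Subalgebra A F) (hBV : ∀ x ∈ BUV, x ∈ V)
    (π : A) (hπ0 : algebraMap A F π ≠ 0)
    {m : ℕ} (hmV : V.valuation (m : F) = 1)
    (hroot : ∀ x : F, x ^ m ∈ BUV → x ∈ BUV)
    (hsat : ∀ x ∈ BUV, ∀ n : ℕ, V.valuation x ≤ V.valuation (algebraMap A F π) ^ n →
      ∃ b ∈ BUV, x = algebraMap A F π ^ n * b)
    {f : F} (hf : f ≠ 0) (hvf : V.valuation f = 1)
    {n : ℕ} {sU sV bU bV : F} (hbU : bU ∈ BUV) (hbV : bV ∈ BUV)
    (hsU : sU ^ m = f * (1 + algebraMap A F π ^ n * bU))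
    (hsV : sV ^ m = f * (1 + algebraMap A F π ^ n * bV))
    (hsU1 : V.valuation (sU - 1) < 1) (hsV1 : V.valuation (sV - 1) < 1) :
    ∃ c ∈ rootMod BUV f m, sU - sV = algebraMap A F π ^ n * c := by
  set ϖ : F := algebraMap A F π with hϖ
  have hϖB : ϖ ∈ BUV := BUV.algebraMap_mem π
  -- the cofactor Θ is a unit of V
  set Θ : F := ∑ k ∈ Finset.range m, sU ^ k * sV ^ (m - 1 - k) with hΘ
  have hΘmul : Θ * (sU - sV) = f * ϖ ^ n * (bU - bV) := by
    rw [hΘ, geom_sum₂_mul, hsU, hsV]; ring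
  have hΘval : V.valuation Θ = 1 := by
    have h1 : Θ = (m : F) + ∑ k ∈ Finset.range m, (sU ^ k * sV ^ (m - 1 - k) - 1) := by
      rw [Finset.sum_sub_distrib, Finset.sum_const, Finset.card_range, nsmul_eq_mul, mul_one]
      ring
    have h2 : V.valuation (∑ k ∈ Finset.range m, (sU ^ k * sV ^ (m - 1 - k) - 1)) < 1 :=
      Valuation.map_sum_lt _ one_ne_zero fun k _ =>
        val_mul_sub_one_lt V (val_pow_sub_one_lt V hsU1 _) (val_pow_sub_one_lt V hsV1 _)
    rw [h1, Valuation.map_add_eq_of_lt_left _ (by rw [hmV]; exact h2), hmV]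
  have hbval : V.valuation (bU - bV) ≤ 1 :=
    (V.valuation_le_one_iff _).mpr (hBV _ (BUV.sub_mem hbU hbV))
  have hδval : V.valuation (sU - sV) ≤ V.valuation ϖ ^ n := by
    have h1 := congrArg V.valuation hΘmul
    rw [map_mul, hΘval, one_mul, map_mul, map_mul, hvf, one_mul, map_pow] at h1
    rw [h1]
    exact mul_le_of_le_one_right' hbval
  -- membership of the difference
  have hsUmem : sU ∈ rootMod BUV f m :=
    ⟨1 + ϖ ^ n * bU, BUV.add_mem BUV.one_mem (BUV.mul_mem (BUV.pow_mem hϖB n) hbU), hsU⟩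
  have hsVmem : sV ∈ rootMod BUV f m :=
    ⟨1 + ϖ ^ n * bV, BUV.add_mem BUV.one_mem (BUV.mul_mem (BUV.pow_mem hϖB n) hbV), hsV⟩
  have hδmem : sU - sV ∈ rootMod BUV f m := by
    rw [sub_eq_add_neg]
    exact rootMod_add_mem hf hroot hsUmem (rootMod_neg_mem hsVmem)
  obtain ⟨β, hβ, hδβ⟩ := hδmem
  have hβval : V.valuation β ≤ V.valuation ϖ ^ (n * m) := by
    have h1 : β = (sU - sV) ^ m / f := by rw [hδβ]; field_simp
    rw [h1, map_div₀, hvf, div_one, map_pow, pow_mul]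
    exact pow_le_pow_left' hδval m
  obtain ⟨β', hβ', hββ'⟩ := hsat β hβ (n * m) hβval
  refine ⟨(sU - sV) / ϖ ^ n, ⟨β', hβ', ?_⟩, by field_simp⟩
  rw [div_pow, hδβ, hββ', ← pow_mul]
  field_simp

/-- localisation of `rootMod`: if `BUV = B[1/g]` in the sense that every element of `BUV` is moved
into `B` by a power of `g ∈ B`, the same holds for the root modules. -/
theorem rootMod_loc {B BUV : Subalgebra A F} {g : F} (hg : g ∈ B)
    (hloc : ∀ x ∈ BUV, ∃ n : ℕ, g ^ n * x ∈ B) {f : F} {m : ℕ} (hm0 : m ≠ 0) {x : F}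
    (hx : x ∈ rootMod BUV f m) : ∃ n : ℕ, g ^ n * x ∈ rootMod B f m := by
  obtain ⟨β, hβ, hxβ⟩ := hx
  obtain ⟨n, hn⟩ := hloc β hβ
  obtain ⟨k, rfl⟩ : ∃ k, m = k + 1 := ⟨m - 1, by omega⟩
  refine ⟨n, g ^ (n * k) * (g ^ n * β), B.mul_mem (B.pow_mem hg _) hn, ?_⟩
  rw [mul_pow, hxβ, ← pow_mul]; ring

/-- TWO-CHART FINITENESS: if the root module on `U` is finitely generated over `A[j]`, then
modulo the root modules on `U` and `V` the root module on `U ∩ V` is spanned over `A` by a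
finite set. -/
theorem cech_exists (BU BV BUV : Subalgebra A F) (hU : BU ≤ BUV)
    {m : ℕ} (hm0 : m ≠ 0) {f : F} (hf : f ≠ 0)
    (hrootU : ∀ x : F, x ^ m ∈ BU → x ∈ BU) (hrootV : ∀ x : F, x ^ m ∈ BV → x ∈ BV)
    (j : F) (hj : j ≠ 0) (hjU : j ∈ BU) (hjV : j⁻¹ ∈ BV)
    (hlocU : ∀ x ∈ BUV, ∃ n : ℕ, j ^ n * x ∈ BU) (hlocV : ∀ x ∈ BUV, ∃ n : ℕ, j⁻¹ ^ n * x ∈ BV)
    (u : Finset F) (hu : ∀ x ∈ u, x ∈ rootMod BU f m)
    (hspan : ∀ x ∈ rootMod BU f m, x ∈ Submodule.span (Algebra.adjoin A {j}) (u : Set F)) :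
    ∃ S : Finset F, ∀ x ∈ rootMod BUV f m,
      x ∈ rootSub BU f hf m hm0 hrootU ⊔ rootSub BV f hf m hm0 hrootV ⊔
        Submodule.span A (S : Set F) := by
  classical
  -- exponents moving the generators into the V-chart
  have hex : ∀ a ∈ u, ∃ n : ℕ, j⁻¹ ^ n * a ∈ rootMod BV f m := fun a ha =>
    rootMod_loc hjV hlocV hm0 (rootMod_mono hU f m (hu a ha))
  choose! nn hnn using hex
  set N : ℕ := u.sup nn with hN
  have hbig : ∀ a ∈ u, ∀ k : ℕ, N ≤ k → j⁻¹ ^ k * a ∈ rootMod BV f m := by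
    intro a ha k hk
    have h1 : nn a ≤ k := le_trans (Finset.le_sup ha) hk
    have h2 : j⁻¹ ^ k * a = j⁻¹ ^ (k - nn a) * (j⁻¹ ^ nn a * a) := by
      rw [← mul_assoc, ← pow_add, Nat.sub_add_cancel h1]
    rw [h2]
    exact rootMod_mul_mem (BV.pow_mem hjV _) (hnn a ha)
  set S : Finset F := (u ×ˢ Finset.range N).image (fun p => j⁻¹ ^ p.2 * p.1) with hS
  refine ⟨S, ?_⟩
  set P : Submodule A F := rootSub BU f hf m hm0 hrootU ⊔ rootSub BV f hf m hm0 hrootV ⊔
    Submodule.span A (S : Set F) with hP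
  have hPU : ∀ x ∈ rootMod BU f m, x ∈ P := fun x hx =>
    Submodule.mem_sup_left (Submodule.mem_sup_left hx)
  have hPV : ∀ x ∈ rootMod BV f m, x ∈ P := fun x hx =>
    Submodule.mem_sup_left (Submodule.mem_sup_right hx)
  have hPS : ∀ x ∈ S, x ∈ P := fun x hx =>
    Submodule.mem_sup_right (Submodule.subset_span hx)
  -- the `A[j]`-stable set of elements all of whose `j`-translates lie in `P`
  have hgen : ∀ a ∈ u, ∀ k : ℤ, j ^ k * a ∈ P := by
    intro a ha k
    cases k with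
    | ofNat n =>
      rw [Int.ofNat_eq_natCast, zpow_natCast]
      exact hPU _ (rootMod_mul_mem (BU.pow_mem hjU n) (hu a ha))
    | negSucc n =>
      rw [zpow_negSucc, ← inv_pow]
      by_cases hn : n + 1 < N
      · exact hPS _ (Finset.mem_image.mpr ⟨(a, n + 1),
          Finset.mem_product.mpr ⟨ha, Finset.mem_range.mpr hn⟩, rfl⟩)
      · exact hPV _ (hbig a ha (n + 1) (not_lt.mp hn))
  have hstab : ∀ p ∈ Algebra.adjoin A {j}, ∀ x : F, (∀ k : ℤ, j ^ k * x ∈ P) →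
      ∀ k : ℤ, j ^ k * (p * x) ∈ P := by
    intro p hp
    induction hp using Algebra.adjoin_induction with
    | mem y hy =>
      rw [Set.mem_singleton_iff] at hy
      subst hy
      intro x hx k
      have h1 : y ^ k * (y * x) = y ^ (k + 1) * x := by rw [zpow_add_one₀ hj]; ring
      rw [h1]
      exact hx (k + 1)
    | algebraMap r =>
      intro x hx k
      have h1 : j ^ k * (algebraMap A F r * x) = r • (j ^ k * x) := by
        rw [Algebra.smul_def]; ring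
      rw [h1]
      exact P.smul_mem r (hx k)
    | add p q _ _ hp hq =>
      intro x hx k
      have h1 : j ^ k * ((p + q) * x) = j ^ k * (p * x) + j ^ k * (q * x) := by ring
      rw [h1]
      exact P.add_mem (hp x hx k) (hq x hx k)
    | mul p q _ _ hp hq =>
      intro x hx k
      rw [mul_assoc]
      exact hp (q * x) (hq x hx) k
  have hall : ∀ x ∈ Submodule.span (Algebra.adjoin A {j}) (u : Set F), ∀ k : ℤ, j ^ k * x ∈ P := by
    intro x hx
    induction hx using Submodule.span_induction with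
    | mem a ha => exact hgen a ha
    | zero => intro k; rw [mul_zero]; exact P.zero_mem
    | add x y _ _ hx hy =>
      intro k
      rw [mul_add]
      exact P.add_mem (hx k) (hy k)
    | smul p x _ hx => exact hstab p.1 p.2 x hx
  intro x hx
  obtain ⟨n, hn⟩ := rootMod_loc hjU hlocU hm0 hx
  have h1 := hall _ (hspan _ hn) (-(n : ℤ))
  have h2 : j ^ (-(n : ℤ)) * (j ^ n * x) = x := by
    rw [zpow_neg, zpow_natCast, ← mul_assoc, inv_mul_cancel₀ (pow_ne_zero n hj), one_mul]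
  rwa [h2] at h1

/-- elements of a root module lie in the valuation ring as soon as `f` is a unit there. -/
theorem rootMod_subset_val {B : Subalgebra A F} (hBV : ∀ x ∈ B, x ∈ V) {f : F}
    (hvf : V.valuation f = 1) {m : ℕ} (hm0 : m ≠ 0) {x : F} (hx : x ∈ rootMod B f m) :
    V.valuation x ≤ 1 := by
  obtain ⟨b, hb, hxb⟩ := hx
  have h1 : V.valuation x ^ m ≤ 1 := by
    rw [← map_pow, hxb, map_mul, hvf, one_mul]
    exact (V.valuation_le_one_iff b).mpr (hBV b hb)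
  by_contra h2
  exact absurd h1 (not_le.mpr (one_lt_pow₀ (not_le.mp h2) hm0))

/-- **The abstract Kummer core.** `BU`, `BV`, `BUV` are the rings of functions regular on the two
charts and on their intersection, `V` the (Gauss) valuation ring, `π` a nonzero non-unit such
that every nonzero scalar divides a power of `π`, `m` invertible in `A`. If `f = 1 mod π` has
on both charts sections `sU`, `sV` of its `m`-th root module that are `1 mod π`, and the root
module on `U` is finitely generated over `A[j]`, then `f = σ ^ m / γ` with `γ` regular everywhere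
(on both charts). -/
theorem kummerCore_val [IsDomain A] (hinj : Function.Injective (algebraMap A F))
    (π : A) (hπ0 : π ≠ 0) (harch : ∀ c : A, c ≠ 0 → ∃ n : ℕ, c ∣ π ^ n)
    (m : ℕ) (hm : IsUnit (m : A))
    (hπV : algebraMap A F π ∈ V.nonunits)
    (BU BV BUV : Subalgebra A F) (hU : BU ≤ BUV) (hV : BV ≤ BUV) (hBV : ∀ x ∈ BUV, x ∈ V)
    (hrootU : ∀ x : F, x ^ m ∈ BU → x ∈ BU) (hrootV : ∀ x : F, x ^ m ∈ BV → x ∈ BV)
    (hrootUV : ∀ x : F, x ^ m ∈ BUV → x ∈ BUV)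
    (hsatU : ∀ x ∈ BU, (∃ y ∈ V, x = algebraMap A F π * y) → ∃ b ∈ BU, x = algebraMap A F π * b)
    (hsatV : ∀ x ∈ BV, (∃ y ∈ V, x = algebraMap A F π * y) → ∃ b ∈ BV, x = algebraMap A F π * b)
    (hsatUV : ∀ x ∈ BUV, ∀ n : ℕ, (∃ y ∈ V, x = algebraMap A F π ^ n * y) →
      ∃ b ∈ BUV, x = algebraMap A F π ^ n * b)
    (j : F) (hj : j ≠ 0) (hjU : j ∈ BU) (hjV : j⁻¹ ∈ BV)
    (hlocU : ∀ x ∈ BUV, ∃ n : ℕ, j ^ n * x ∈ BU) (hlocV : ∀ x ∈ BUV, ∃ n : ℕ, j⁻¹ ^ n * x ∈ BV)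
    (f : F) (hf1 : ∃ y ∈ V, f - 1 = algebraMap A F π * y)
    (sU sV : F) (hsU : sU ∈ rootMod BU f m) (hsU1 : ∃ y ∈ V, sU - 1 = algebraMap A F π * y)
    (hsV : sV ∈ rootMod BV f m) (hsV1 : ∃ y ∈ V, sV - 1 = algebraMap A F π * y)
    (u : Finset F) (hu : ∀ x ∈ u, x ∈ rootMod BU f m)
    (hspan : ∀ x ∈ rootMod BU f m, x ∈ Submodule.span (Algebra.adjoin A {j}) (u : Set F)) :
    ∃ σ γ : F, σ ≠ 0 ∧ γ ≠ 0 ∧ γ ∈ BU ∧ γ ∈ BV ∧ σ ^ m = f * γ ∧
      ∃ y ∈ V, σ - 1 = algebraMap A F π * y := by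
  classical
  set ϖ : F := algebraMap A F π with hϖ
  have hϖ0 : ϖ ≠ 0 := fun h => hπ0 (hinj (by rw [← hϖ, h, map_zero]))
  have hπ : V.valuation ϖ < 1 := hπV
  obtain ⟨i, hi⟩ := hm.exists_right_inv
  have hm0 : m ≠ 0 := by
    rintro rfl
    simp at hi
  have hAV : ∀ a : A, algebraMap A F a ∈ V := fun a => hBV _ (hU (BU.algebraMap_mem a))
  have hmV : V.valuation (m : F) = 1 := by
    have h1 : (m : F) * algebraMap A F i = 1 := by
      rw [← map_natCast (algebraMap A F) m, ← map_mul, hi, map_one]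
    have h2 := congrArg V.valuation h1
    rw [map_mul, map_one] at h2
    have h3 : V.valuation (algebraMap A F i) ≤ 1 := (V.valuation_le_one_iff _).mpr (hAV i)
    have h4 : V.valuation (m : F) ≤ 1 := by
      rw [← map_natCast (algebraMap A F) m]
      exact (V.valuation_le_one_iff _).mpr (hAV _)
    refine le_antisymm h4 ?_
    calc (1 : _) = V.valuation (m : F) * V.valuation (algebraMap A F i) := h2.symm
      _ ≤ V.valuation (m : F) * 1 := mul_le_mul' le_rfl h3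
      _ = V.valuation (m : F) := mul_one _
  -- valuation forms of the congruences
  have hconv : ∀ x : F, (∃ y ∈ V, x = ϖ * y) ↔ V.valuation x ≤ V.valuation ϖ := by
    intro x
    have h := mem_iff_val_le_pow V hϖ0 x 1
    simpa only [pow_one] using h
  have hf1' : V.valuation (f - 1) ≤ V.valuation ϖ := (hconv _).mp hf1
  have hsU1' : V.valuation (sU - 1) ≤ V.valuation ϖ := (hconv _).mp hsU1
  have hsV1' : V.valuation (sV - 1) ≤ V.valuation ϖ := (hconv _).mp hsV1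
  have hvf : V.valuation f = 1 := val_eq_one_of_sub_one_lt V (lt_of_le_of_lt hf1' hπ)
  have hf0 : f ≠ 0 := by
    rintro rfl
    simp at hvf
  have hBUV_U : ∀ x ∈ BU, x ∈ V := fun x hx => hBV x (hU hx)
  have hBUV_V : ∀ x ∈ BV, x ∈ V := fun x hx => hBV x (hV hx)
  -- the refined families on both charts
  have hRU := refine_exists V BU π hπ i hi hrootU
    (fun x hx hval => hsatU x hx ((hconv x).mpr hval)) hf0 hf1' hsU hsU1'
  have hRV := refine_exists V BV π hπ i hi hrootV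
    (fun x hx hval => hsatV x hx ((hconv x).mpr hval)) hf0 hf1' hsV hsV1'
  have hlt : ∀ {B : Subalgebra A F}, (∀ x ∈ B, x ∈ V) → ∀ {s s' e : F},
      V.valuation (s - 1) ≤ V.valuation ϖ → e ∈ rootMod B f m → s' - s = ϖ * e →
      V.valuation (s' - 1) < 1 := by
    intro B hB s s' e hs he hse
    have h1 : s' - 1 = ϖ * e + (s - 1) := by rw [← hse]; ring
    rw [h1]
    refine lt_of_le_of_lt (Valuation.map_add _ _ _) (max_lt ?_ (lt_of_le_of_lt hs hπ))
    rw [map_mul]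
    exact lt_of_le_of_lt (mul_le_of_le_one_right' (rootMod_subset_val V hB hvf hm0 he)) hπ
  have hfam : ∀ n : ℕ, 1 ≤ n → ∃ sU' sV' eU eV c : F, eU ∈ rootMod BU f m ∧
      eV ∈ rootMod BV f m ∧ c ∈ rootMod BUV f m ∧ sU' - sU = ϖ * eU ∧ sV' - sV = ϖ * eV ∧
      sU' - sV' = ϖ ^ n * c := by
    intro n hn
    obtain ⟨sU', bU, hbU, hsU'b, eU, heU, hsU'e⟩ := hRU n hn
    obtain ⟨sV', bV, hbV, hsV'b, eV, heV, hsV'e⟩ := hRV n hn
    obtain ⟨c, hc, hcs⟩ := glue_exists V BUV hBV π hϖ0 hmV hrootUV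
      (fun x hx k hval => hsatUV x hx k ((mem_iff_val_le_pow V hϖ0 x k).mpr hval)) hf0 hvf
      (hU hbU) (hV hbV) hsU'b hsV'b (hlt hBUV_U hsU1' heU hsU'e) (hlt hBUV_V hsV1' heV hsV'e)
    exact ⟨sU', sV', eU, eV, c, heU, heV, hc, hsU'e, hsV'e, hcs⟩
  -- the three root modules
  set MU : Submodule A F := rootSub BU f hf0 m hm0 hrootU with hMU
  set MV : Submodule A F := rootSub BV f hf0 m hm0 hrootV with hMV
  obtain ⟨S, hS⟩ := cech_exists BU BV BUV hU hm0 hf0 hrootU hrootV j hj hjU hjV hlocU hlocV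
    u hu hspan
  obtain ⟨sU1, sV1, eU1, eV1, c1, heU1, heV1, hc1, hsU1e, hsV1e, hc1s⟩ := hfam 1 le_rfl
  have hϖU : ∀ {x : F}, x ∈ rootMod BU f m → ϖ * x ∈ MU := fun hx =>
    rootMod_mul_mem (BU.algebraMap_mem π) hx
  have hϖV : ∀ {x : F}, x ∈ rootMod BV f m → ϖ * x ∈ MV := fun hx =>
    rootMod_mul_mem (BV.algebraMap_mem π) hx
  have hsUM : sU ∈ MU := hsU
  have hsVM : sV ∈ MV := hsV
  have hc1N : c1 ∈ MU ⊔ MV := by
    refine mem_of_forall_pow_smul_mem (MU ⊔ MV) S π hπ0 harch c1 fun k => ?_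
    obtain ⟨sU', sV', eU, eV, c, heU, heV, hc, hsU'e, hsV'e, hcs⟩ := hfam (k + 1) (Nat.succ_le_succ (Nat.zero_le k))
    refine ⟨c, hS c hc, ?_, ?_⟩
    · rw [Algebra.smul_def, map_pow, ← hcs]
      have h1 : sU' - sV' = (sU + ϖ * eU) - (sV + ϖ * eV) := by
        rw [← hsU'e, ← hsV'e]; ring
      rw [h1]
      exact Submodule.sub_mem _
        (Submodule.mem_sup_left (MU.add_mem hsUM (hϖU heU)))
        (Submodule.mem_sup_right (MV.add_mem hsVM (hϖV heV)))
    · have h1 : c1 - π ^ k • c = (eU1 - eU) - (eV1 - eV) := by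
        rw [Algebra.smul_def, map_pow]
        have h2 : ϖ * (c1 - ϖ ^ k * c) = ϖ * ((eU1 - eU) - (eV1 - eV)) := by
          have h3 : ϖ * c1 = sU1 - sV1 := by rw [hc1s, pow_one]
          have h4 : ϖ * (ϖ ^ k * c) = sU' - sV' := by rw [hcs, pow_succ]; ring
          rw [mul_sub, h3, h4]
          linear_combination hsU1e - hsV1e - hsU'e + hsV'e
        exact mul_left_cancel₀ hϖ0 h2
      rw [h1]
      exact Submodule.sub_mem _
        (Submodule.mem_sup_left (MU.sub_mem heU1 heU))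
        (Submodule.mem_sup_right (MV.sub_mem heV1 heV))
  obtain ⟨yU, hyU, yV, hyV, hyc⟩ := Submodule.mem_sup.mp hc1N
  -- the global section
  set σ : F := sU1 - ϖ * yU with hσ
  have hσU : σ ∈ MU := by
    have h1 : σ = sU + ϖ * eU1 - ϖ * yU := by rw [hσ, ← hsU1e]; ring
    rw [h1]
    exact MU.sub_mem (MU.add_mem hsUM (hϖU heU1)) (hϖU hyU)
  have hσV : σ ∈ MV := by
    have h1 : σ = sV + ϖ * eV1 + ϖ * yV := by
      have h2 : ϖ * (yU + yV) = sU1 - sV1 := by rw [hyc, hc1s, pow_one]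
      rw [hσ]
      linear_combination -h2 + hsV1e
    rw [h1]
    exact MV.add_mem (MV.add_mem hsVM (hϖV heV1)) (hϖV hyV)
  have hσ1 : V.valuation (σ - 1) < 1 := by
    have h1 : σ - 1 = ϖ * (eU1 - yU) + (sU - 1) := by rw [hσ]; linear_combination hsU1e
    rw [h1]
    refine lt_of_le_of_lt (Valuation.map_add _ _ _) (max_lt ?_ (lt_of_le_of_lt hsU1' hπ))
    rw [map_mul]
    have h2 : V.valuation (eU1 - yU) ≤ 1 :=
      rootMod_subset_val V hBUV_U hvf hm0 (MU.sub_mem heU1 hyU)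
    exact lt_of_le_of_lt (mul_le_of_le_one_right' h2) hπ
  have hσ0 : σ ≠ 0 := by
    intro h
    have h2 := val_eq_one_of_sub_one_lt V hσ1
    rw [h, map_zero] at h2
    exact zero_ne_one h2
  obtain ⟨γU, hγU, hσγU⟩ := hσU
  obtain ⟨γV, hγV, hσγV⟩ := hσV
  have hγ : γU = γV := mul_left_cancel₀ hf0 (hσγU.symm.trans hσγV)
  have hσ1' : ∃ y ∈ V, σ - 1 = ϖ * y := by
    obtain ⟨y, hy, hsy⟩ := hsU1
    refine ⟨(eU1 - yU) + y, V.add_mem _ _ ?_ hy, ?_⟩
    · exact (V.valuation_le_one_iff _).mp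
        (rootMod_subset_val V hBUV_U hvf hm0 (MU.sub_mem heU1 hyU))
    · rw [hσ]; linear_combination hsU1e + hsy
  refine ⟨σ, γU, hσ0, ?_, hγU, hγ ▸ hγV, hσγU, hσ1'⟩
  rintro rfl
  rw [mul_zero] at hσγU
  exact hσ0 (pow_eq_zero_iff hm0 |>.mp hσγU)

/-- **The abstract Kummer core** (`kummerCore_val` without the congruence `σ = 1 mod 𝔪_V`). -/
theorem kummerCore [IsDomain A] (hinj : Function.Injective (algebraMap A F))
    (π : A) (hπ0 : π ≠ 0) (harch : ∀ c : A, c ≠ 0 → ∃ n : ℕ, c ∣ π ^ n)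
    (m : ℕ) (hm : IsUnit (m : A))
    (hπV : algebraMap A F π ∈ V.nonunits)
    (BU BV BUV : Subalgebra A F) (hU : BU ≤ BUV) (hV : BV ≤ BUV) (hBV : ∀ x ∈ BUV, x ∈ V)
    (hrootU : ∀ x : F, x ^ m ∈ BU → x ∈ BU) (hrootV : ∀ x : F, x ^ m ∈ BV → x ∈ BV)
    (hrootUV : ∀ x : F, x ^ m ∈ BUV → x ∈ BUV)
    (hsatU : ∀ x ∈ BU, (∃ y ∈ V, x = algebraMap A F π * y) → ∃ b ∈ BU, x = algebraMap A F π * b)
    (hsatV : ∀ x ∈ BV, (∃ y ∈ V, x = algebraMap A F π * y) → ∃ b ∈ BV, x = algebraMap A F π * b)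
    (hsatUV : ∀ x ∈ BUV, ∀ n : ℕ, (∃ y ∈ V, x = algebraMap A F π ^ n * y) →
      ∃ b ∈ BUV, x = algebraMap A F π ^ n * b)
    (j : F) (hj : j ≠ 0) (hjU : j ∈ BU) (hjV : j⁻¹ ∈ BV)
    (hlocU : ∀ x ∈ BUV, ∃ n : ℕ, j ^ n * x ∈ BU) (hlocV : ∀ x ∈ BUV, ∃ n : ℕ, j⁻¹ ^ n * x ∈ BV)
    (f : F) (hf1 : ∃ y ∈ V, f - 1 = algebraMap A F π * y)
    (sU sV : F) (hsU : sU ∈ rootMod BU f m) (hsU1 : ∃ y ∈ V, sU - 1 = algebraMap A F π * y)
    (hsV : sV ∈ rootMod BV f m) (hsV1 : ∃ y ∈ V, sV - 1 = algebraMap A F π * y)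
    (u : Finset F) (hu : ∀ x ∈ u, x ∈ rootMod BU f m)
    (hspan : ∀ x ∈ rootMod BU f m, x ∈ Submodule.span (Algebra.adjoin A {j}) (u : Set F)) :
    ∃ σ γ : F, σ ≠ 0 ∧ γ ≠ 0 ∧ γ ∈ BU ∧ γ ∈ BV ∧ σ ^ m = f * γ := by
  obtain ⟨σ, γ, h1, h2, h3, h4, h5, -⟩ := kummerCore_val V hinj π hπ0 harch m hm hπV BU BV BUV
    hU hV hBV hrootU hrootV hrootUV hsatU hsatV hsatUV j hj hjU hjV hlocU hlocV f hf1 sU sV
    hsU hsU1 hsV hsV1 u hu hspan
  exact ⟨σ, γ, h1, h2, h3, h4, h5⟩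

/-- **The abstract Kummer core, glue shape** (the literal statement announced on the board):
saturation `B_X ∩ π ^ n V = π ^ n B_X` for all three rings and all `n`, finite generation of the
root module on `U` as an existential. The conclusion also records `σ = 1 mod π V`. -/
theorem kummerCore_glue [IsDomain A] (hinj : Function.Injective (algebraMap A F))
    (π : A) (hπ0 : π ≠ 0) (harch : ∀ c : A, c ≠ 0 → ∃ n : ℕ, c ∣ π ^ n)
    (m : ℕ) (hm : IsUnit (m : A))
    (V : ValuationSubring F) (hπV : algebraMap A F π ∈ V.nonunits)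
    (BU BV BUV : Subalgebra A F) (hU : BU ≤ BUV) (hV : BV ≤ BUV) (hBV : ∀ x ∈ BUV, x ∈ V)
    (hrootU : ∀ x : F, x ^ m ∈ BU → x ∈ BU) (hrootV : ∀ x : F, x ^ m ∈ BV → x ∈ BV)
    (hrootUV : ∀ x : F, x ^ m ∈ BUV → x ∈ BUV)
    (hsatU : ∀ x ∈ BU, ∀ n : ℕ, (∃ y ∈ V, x = algebraMap A F π ^ n * y) →
      ∃ b ∈ BU, x = algebraMap A F π ^ n * b)
    (hsatV : ∀ x ∈ BV, ∀ n : ℕ, (∃ y ∈ V, x = algebraMap A F π ^ n * y) →
      ∃ b ∈ BV, x = algebraMap A F π ^ n * b)
    (hsatUV : ∀ x ∈ BUV, ∀ n : ℕ, (∃ y ∈ V, x = algebraMap A F π ^ n * y) →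
      ∃ b ∈ BUV, x = algebraMap A F π ^ n * b)
    (j : F) (hj : j ≠ 0) (hjU : j ∈ BU) (hjV : j⁻¹ ∈ BV)
    (hlocU : ∀ x ∈ BUV, ∃ n : ℕ, j ^ n * x ∈ BU) (hlocV : ∀ x ∈ BUV, ∃ n : ℕ, j⁻¹ ^ n * x ∈ BV)
    (f : F) (hf1 : ∃ y ∈ V, f - 1 = algebraMap A F π * y)
    (sU sV : F) (hsU : sU ∈ rootMod BU f m) (hsU1 : ∃ y ∈ V, sU - 1 = algebraMap A F π * y)
    (hsV : sV ∈ rootMod BV f m) (hsV1 : ∃ y ∈ V, sV - 1 = algebraMap A F π * y)
    (hfg : ∃ u : Finset F, (∀ x ∈ u, x ∈ rootMod BU f m) ∧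
      ∀ x ∈ rootMod BU f m, x ∈ Submodule.span (Algebra.adjoin A {j}) (u : Set F)) :
    ∃ σ γ : F, σ ≠ 0 ∧ γ ≠ 0 ∧ γ ∈ BU ∧ γ ∈ BV ∧ σ ^ m = f * γ ∧
      ∃ y ∈ V, σ - 1 = algebraMap A F π * y := by
  obtain ⟨u, hu, hspan⟩ := hfg
  have h1 : ∀ B : Subalgebra A F, (∀ x ∈ B, ∀ n : ℕ, (∃ y ∈ V, x = algebraMap A F π ^ n * y) →
      ∃ b ∈ B, x = algebraMap A F π ^ n * b) →
      ∀ x ∈ B, (∃ y ∈ V, x = algebraMap A F π * y) → ∃ b ∈ B, x = algebraMap A F π * b := by
    intro B hB x hx ⟨y, hy, hxy⟩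
    obtain ⟨b, hb, hxb⟩ := hB x hx 1 ⟨y, hy, by rw [pow_one]; exact hxy⟩
    exact ⟨b, hb, by rw [hxb, pow_one]⟩
  exact kummerCore_val V hinj π hπ0 harch m hm hπV
    BU BV BUV hU hV hBV hrootU hrootV hrootUV (h1 BU hsatU) (h1 BV hsatV) hsatUV j hj hjU hjV
    hlocU hlocV f hf1 sU sV hsU hsU1 hsV hsV1 u hu hspan

end Core

end Fermat.Agent.S18.H19
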