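/-
S18 (helper19): the glue node of the generic Kummer core in the literal shape of
`KCStmts_helper63`: `stmtGlue : H63.StmtGlue` (from `H19.kummerCore`), hence
`stmtKC_of_base : H63.StmtBase → H63.StmtKC`.

No sorry.
-/
import Mathlib
import Fermat.Agent.S18.KummerCore_helper19
import Fermat.Agent.S18.KCStmts_helper63

set_option autoImplicit false

namespace Fermat.Agent.S18.H19

/-- **KC-GLUE** in the shape of `KCStmts_helper63`. -/
theorem stmtGlue : Fermat.Agent.S18.H63.StmtGlue := by
  intro A F _ _ _ _ π m V BU BV BUV j f sU sV hπ hinj harch hm hπV hU hV hBV hrootU hrootV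
    hrootUV hsatU hsatV hsatUV hj hjU hjV hlocU hlocV hf hsU hsU1 hsV hsV1 hfg
  obtain ⟨u, hu, hspan⟩ := hfg
  exact kummerCore V hinj π hπ harch m hm hπV BU BV BUV hU hV hBV hrootU hrootV hrootUV
    hsatU hsatV hsatUV j hj hjU hjV hlocU hlocV f hf sU sV hsU hsU1 hsV hsV1 u hu hspan

/-- The generic Kummer core `(KC)` from the base step `(KC1)` alone. -/
theorem stmtKC_of_base (hbase : Fermat.Agent.S18.H63.StmtBase) : Fermat.Agent.S18.H63.StmtKC :=
  Fermat.Agent.S18.H63.stmtKC_of hbase stmtGlue

end Fermat.Agent.S18.H19
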