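import Fermat.Agent.S18.StmtBase_helper8
import Fermat.Agent.S18.KCGlue_helper19

/-!
# S18: the generic Kummer core `H63.StmtKC`, unconditionally

`stmtKC : H63.StmtKC`, from the base step `H08.stmtBase : H63.StmtBase` and the glue node
`H19.stmtGlue : H63.StmtGlue` (via `H63.stmtKC_of`).
-/

set_option autoImplicit false

namespace Fermat.Agent.S18.H08

/-- **(KC), the generic Kummer core**: the statement `H63.StmtKC`, with no hypothesis left. -/
theorem stmtKC : H63.StmtKC := H63.stmtKC_of stmtBase H19.stmtGlue

end Fermat.Agent.S18.H08
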