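import Mathlib
import Fermat.Prelude.Def_ModularCurve_X0ModL
import Fermat.Prelude.Def_ModularCurve_ArithmeticGalois

/-!
# S18, node DESC (D2), second seat (helper61)

Field of definition: every element (finite family) of `modularFunctionFieldBar N` comes from
`modularFunctionFieldFullC K0 N` for a number field `K0 ⊆ Qbar`; integral series descend to
`A0 = A ∩ K0` together with their reductions.
-/

set_option autoImplicit false

open ModularCurve HahnSeries IntermediateField

namespace Fermat.Agent.S18.H61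

noncomputable section

/-! ### (F) functoriality of `modularFunctionFieldFullC` in the constant field -/

/-- Coefficientwise extension of constants maps the level-`N` field over `K` into the one over
`K'`. -/
theorem coeffMap_mem_fullC {K K' : Type*} [Field K] [Field K'] (f : K →+* K') (N : ℕ)
    {x : LaurentSeries K} (hx : x ∈ modularFunctionFieldFullC K N) :
    coeffMap f x ∈ modularFunctionFieldFullC K' N := by
  unfold modularFunctionFieldFullC at hx ⊢
  induction hx using IntermediateField.adjoin_induction with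
  | mem y hy =>
    obtain ⟨d, hd, hdN, rfl⟩ := hy
    have := hd
    rw [coeffMap_qExpand, coeffMap_jqModC]
    exact subset_adjoin _ _ ⟨d, hd, hdN, rfl⟩
  | algebraMap c =>
    rw [algebraMap_laurentSeries_eq_single, coeffMap_single, ← algebraMap_laurentSeries_eq_single]
    exact IntermediateField.algebraMap_mem _ _
  | add y z _ _ ihy ihz => rw [map_add]; exact add_mem ihy ihz
  | inv y _ ih => rw [map_inv₀]; exact inv_mem ih
  | mul y z _ _ ihy ihz => rw [map_mul]; exact mul_mem ihy ihz

/-- `coeffMap` along an injective ring hom is injective. -/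
theorem coeffMap_injective {R S : Type*} [CommRing R] [CommRing S] (f : R →+* S)
    (hf : Function.Injective f) : Function.Injective (coeffMap f) := by
  intro x y h
  ext k
  have := congrArg (fun z => z.coeff k) h
  simp only [coeffMap_coeff] at this
  exact hf this

/-! ### (E) `modularFunctionFieldBar N = modularFunctionFieldFullC Qbar N` -/

theorem coeffEmb_eq_coeffMap (L : Type*) [Field L] [Algebra ℚ L] (x : LaurentSeries ℚ) :
    coeffEmb L x = coeffMap (algebraMap ℚ L) x := rfl

theorem laurentBaseChange_full_eq_fullC (L : Type*) [Field L] [Algebra ℚ L] (N : ℕ) :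
    laurentBaseChange L (modularFunctionFieldFull N) = modularFunctionFieldFullC L N := by
  apply le_antisymm
  · rw [laurentBaseChange, IntermediateField.adjoin_le_iff]
    rintro _ ⟨x, hx, rfl⟩
    exact coeffMap_mem_fullC (algebraMap ℚ L) N hx
  · rw [modularFunctionFieldFullC, IntermediateField.adjoin_le_iff]
    rintro _ ⟨d, hd, hdN, rfl⟩
    have := hd
    have h1 : qExpand ℚ d jq ∈ modularFunctionFieldFull N := jqd_mem_full N hdN
    have h2 := coeffEmb_mem_laurentBaseChange L h1
    rw [coeffEmb_eq_coeffMap, coeffMap_qExpand] at h2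
    have h3 : coeffMap (algebraMap ℚ L) jq = jqModC L := by
      rw [← jqModC_rat, coeffMap_jqModC]
    rwa [h3] at h2

theorem modularFunctionFieldBar_eq_fullC (N : ℕ) :
    modularFunctionFieldBar N = modularFunctionFieldFullC (AlgebraicClosure ℚ) N :=
  laurentBaseChange_full_eq_fullC _ N

/-! ### (D2a) field of definition -/

/-- The algebraic closure of `ℚ`. -/
abbrev Qb : Type := AlgebraicClosure ℚ

theorem isIntegral_Qb (c : Qb) : IsIntegral ℚ c :=
  ((AlgebraicClosure.isAlgebraic ℚ).isAlgebraic c).isIntegral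

/-- `y` is defined over the subfield `K0 ⊆ Qbar` at level `N`. -/
def DefOver (K0 : IntermediateField ℚ Qb) (N : ℕ) (y : LaurentSeries Qb) : Prop :=
  ∃ y0 ∈ modularFunctionFieldFullC K0 N, coeffMap (algebraMap K0 Qb) y0 = y

theorem DefOver.mem_fullC {K0 : IntermediateField ℚ Qb} {N : ℕ} {y : LaurentSeries Qb}
    (h : DefOver K0 N y) : y ∈ modularFunctionFieldFullC Qb N := by
  obtain ⟨y0, hy0, rfl⟩ := h
  exact coeffMap_mem_fullC _ N hy0

theorem DefOver.mem_bar {K0 : IntermediateField ℚ Qb} {N : ℕ} {y : LaurentSeries Qb}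
    (h : DefOver K0 N y) : y ∈ modularFunctionFieldBar N := by
  rw [modularFunctionFieldBar_eq_fullC]; exact h.mem_fullC

/-- Enlarging the field of definition. -/
theorem DefOver.mono {K0 K1 : IntermediateField ℚ Qb} (h01 : K0 ≤ K1) {N : ℕ}
    {y : LaurentSeries Qb} (h : DefOver K0 N y) : DefOver K1 N y := by
  obtain ⟨y0, hy0, rfl⟩ := h
  refine ⟨coeffMap (IntermediateField.inclusion h01 : K0 →+* K1) y0,
    coeffMap_mem_fullC _ N hy0, ?_⟩
  rw [coeffMap_coeffMap]
  rfl

theorem DefOver.add {K0 : IntermediateField ℚ Qb} {N : ℕ} {y z : LaurentSeries Qb}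
    (hy : DefOver K0 N y) (hz : DefOver K0 N z) : DefOver K0 N (y + z) := by
  obtain ⟨y0, hy0, rfl⟩ := hy
  obtain ⟨z0, hz0, rfl⟩ := hz
  exact ⟨y0 + z0, add_mem hy0 hz0, map_add _ _ _⟩

theorem DefOver.mul {K0 : IntermediateField ℚ Qb} {N : ℕ} {y z : LaurentSeries Qb}
    (hy : DefOver K0 N y) (hz : DefOver K0 N z) : DefOver K0 N (y * z) := by
  obtain ⟨y0, hy0, rfl⟩ := hy
  obtain ⟨z0, hz0, rfl⟩ := hz
  exact ⟨y0 * z0, mul_mem hy0 hz0, map_mul _ _ _⟩

theorem DefOver.inv {K0 : IntermediateField ℚ Qb} {N : ℕ} {y : LaurentSeries Qb}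
    (hy : DefOver K0 N y) : DefOver K0 N y⁻¹ := by
  obtain ⟨y0, hy0, rfl⟩ := hy
  exact ⟨y0⁻¹, inv_mem hy0, map_inv₀ _ _⟩

theorem DefOver.div {K0 : IntermediateField ℚ Qb} {N : ℕ} {y z : LaurentSeries Qb}
    (hy : DefOver K0 N y) (hz : DefOver K0 N z) : DefOver K0 N (y / z) := by
  rw [div_eq_mul_inv]; exact hy.mul hz.inv

theorem DefOver.pow {K0 : IntermediateField ℚ Qb} {N : ℕ} {y : LaurentSeries Qb}
    (hy : DefOver K0 N y) (n : ℕ) : DefOver K0 N (y ^ n) := by
  obtain ⟨y0, hy0, rfl⟩ := hy
  exact ⟨y0 ^ n, pow_mem hy0 n, map_pow _ _ _⟩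

/-- Constants of `K0` are defined over `K0`. -/
theorem DefOver.const {K0 : IntermediateField ℚ Qb} (N : ℕ) {c : Qb} (hc : c ∈ K0) :
    DefOver K0 N (algebraMap Qb (LaurentSeries Qb) c) := by
  refine ⟨algebraMap K0 (LaurentSeries K0) ⟨c, hc⟩, IntermediateField.algebraMap_mem _ _, ?_⟩
  rw [algebraMap_laurentSeries_eq_single, coeffMap_single, algebraMap_laurentSeries_eq_single]
  rfl

/-- The generators `j(q^d)` are defined over every `K0`. -/
theorem DefOver.gen (K0 : IntermediateField ℚ Qb) {N d : ℕ} [NeZero d] (hd : d ∣ N) :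
    DefOver K0 N (qExpand Qb d (jqModC Qb)) :=
  ⟨qExpand K0 d (jqModC K0), jqModCd_mem_full K0 N hd, by
    rw [coeffMap_qExpand, coeffMap_jqModC]⟩

/-- **(D2a)** Every element of the level-`N` field over `Qbar` is defined over a number field. -/
theorem exists_defOver_of_mem_fullC (N : ℕ) {y : LaurentSeries Qb}
    (hy : y ∈ modularFunctionFieldFullC Qb N) :
    ∃ K0 : IntermediateField ℚ Qb, FiniteDimensional ℚ K0 ∧ DefOver K0 N y := by
  unfold modularFunctionFieldFullC at hy
  induction hy using IntermediateField.adjoin_induction with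
  | mem y hy =>
    obtain ⟨d, hd, hdN, rfl⟩ := hy
    have := hd
    exact ⟨⊥, inferInstance, DefOver.gen ⊥ hdN⟩
  | algebraMap c =>
    refine ⟨ℚ⟮c⟯, IntermediateField.adjoin.finiteDimensional (isIntegral_Qb c),
      DefOver.const N (IntermediateField.mem_adjoin_simple_self ℚ c)⟩
  | add y z _ _ ihy ihz =>
    obtain ⟨K1, h1, hy1⟩ := ihy
    obtain ⟨K2, h2, hz2⟩ := ihz
    exact ⟨K1 ⊔ K2, IntermediateField.finiteDimensional_sup K1 K2,
      (hy1.mono le_sup_left).add (hz2.mono le_sup_right)⟩
  | inv y _ ih =>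
    obtain ⟨K1, h1, hy1⟩ := ih
    exact ⟨K1, h1, hy1.inv⟩
  | mul y z _ _ ihy ihz =>
    obtain ⟨K1, h1, hy1⟩ := ihy
    obtain ⟨K2, h2, hz2⟩ := ihz
    exact ⟨K1 ⊔ K2, IntermediateField.finiteDimensional_sup K1 K2,
      (hy1.mono le_sup_left).mul (hz2.mono le_sup_right)⟩

/-- **(D2a)**, stated for `modularFunctionFieldBar`. -/
theorem exists_defOver_of_mem_bar (N : ℕ) {y : LaurentSeries Qb}
    (hy : y ∈ modularFunctionFieldBar N) :
    ∃ K0 : IntermediateField ℚ Qb, FiniteDimensional ℚ K0 ∧ DefOver K0 N y := by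
  rw [modularFunctionFieldBar_eq_fullC] at hy
  exact exists_defOver_of_mem_fullC N hy

/-- **(D2b)** Finite families, together with a prescribed finite set of constants. -/
theorem exists_defOver_finset (N : ℕ) (S : Finset (LaurentSeries Qb))
    (hS : ∀ y ∈ S, y ∈ modularFunctionFieldBar N) (C : Finset Qb) :
    ∃ K0 : IntermediateField ℚ Qb, FiniteDimensional ℚ K0 ∧ (∀ c ∈ C, c ∈ K0) ∧
      ∀ y ∈ S, DefOver K0 N y := by
  classical
  induction S using Finset.induction_on with
  | empty =>
    induction C using Finset.induction_on with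
    | empty => exact ⟨⊥, inferInstance, by simp, by simp⟩
    | insert c C _ ih =>
      obtain ⟨K0, h0, hC, -⟩ := ih
      refine ⟨K0 ⊔ ℚ⟮c⟯, ?_, ?_, by simp⟩
      · have : FiniteDimensional ℚ ℚ⟮c⟯ :=
          IntermediateField.adjoin.finiteDimensional (isIntegral_Qb c)
        exact IntermediateField.finiteDimensional_sup K0 ℚ⟮c⟯
      · intro c' hc'
        rcases Finset.mem_insert.mp hc' with rfl | hc'
        · exact (le_sup_right : ℚ⟮c'⟯ ≤ K0 ⊔ ℚ⟮c'⟯) (IntermediateField.mem_adjoin_simple_self ℚ c')
        · exact (le_sup_left : K0 ≤ K0 ⊔ ℚ⟮c⟯) (hC c' hc')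
  | insert y S _ ih =>
    obtain ⟨K0, h0, hC, hK0⟩ := ih (fun z hz => hS z (Finset.mem_insert_of_mem hz))
    obtain ⟨K1, h1, hy1⟩ := exists_defOver_of_mem_bar N (hS y (Finset.mem_insert_self y S))
    refine ⟨K0 ⊔ K1, IntermediateField.finiteDimensional_sup K0 K1, ?_, ?_⟩
    · intro c hc
      exact (le_sup_left : K0 ≤ K0 ⊔ K1) (hC c hc)
    · intro z hz
      rcases Finset.mem_insert.mp hz with rfl | hz
      · exact hy1.mono le_sup_right
      · exact (hK0 z hz).mono le_sup_left

/-! ### (D2c) integral descent to `A0 = A ∩ K0` -/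

section Integral

variable (A : ValuationSubring Qb) (K0 : IntermediateField ℚ Qb)

/-- `A0 = A ∩ K0`, as a valuation subring of `K0`. -/
abbrev A0 : ValuationSubring K0 := A.comap (algebraMap K0 Qb)

theorem mem_A0_iff (x : K0) : x ∈ A0 A K0 ↔ algebraMap K0 Qb x ∈ A := Iff.rfl

/-- The inclusion `A0 → A`. -/
def incl : A0 A K0 →+* A where
  toFun x := ⟨algebraMap K0 Qb x, x.2⟩
  map_one' := Subtype.ext (map_one _)
  map_mul' _ _ := Subtype.ext (map_mul _ _ _)
  map_zero' := Subtype.ext (map_zero _)
  map_add' _ _ := Subtype.ext (map_add _ _ _)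

@[simp] theorem coe_incl (x : A0 A K0) : ((incl A K0 x : A) : Qb) = algebraMap K0 Qb x := rfl

theorem incl_injective : Function.Injective (incl A K0) := by
  intro x y h
  have h' := congrArg (fun z : A => (z : Qb)) h
  simp only [coe_incl] at h'
  exact Subtype.ext ((algebraMap K0 Qb).injective h')

theorem subtype_comp_incl :
    (A.subtype : A →+* Qb).comp (incl A K0) = (algebraMap K0 Qb).comp (A0 A K0).subtype := rfl

instance isLocalHom_incl : IsLocalHom (incl A K0) := by
  constructor
  intro x hx
  obtain ⟨u, hu⟩ := hx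
  have hx0 : (x : K0) ≠ 0 := by
    intro h0
    have h1 : incl A K0 x = 0 := by
      apply Subtype.ext
      show algebraMap K0 Qb (x : K0) = 0
      rw [h0, map_zero]
    rw [← hu] at h1
    exact u.ne_zero h1
  have hinv : algebraMap K0 Qb ((x : K0)⁻¹) ∈ A := by
    have h2 : ((u⁻¹ : Aˣ) : A) * incl A K0 x = 1 := by rw [← hu]; simp
    have h3 : (((u⁻¹ : Aˣ) : A) : Qb) * algebraMap K0 Qb (x : K0) = 1 := by
      have := congrArg (A.subtype) h2
      simpa using this
    have h4 : algebraMap K0 Qb ((x : K0)⁻¹) = (((u⁻¹ : Aˣ) : A) : Qb) := by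
      rw [map_inv₀]
      exact (eq_inv_of_mul_eq_one_left h3).symm
    rw [h4]
    exact ((u⁻¹ : Aˣ) : A).2
  exact IsUnit.of_mul_eq_one (⟨(x : K0)⁻¹, hinv⟩ : A0 A K0) (by
    apply Subtype.ext
    simp [hx0])

/-- The induced map of residue fields `k0 → k`. -/
def resMap : IsLocalRing.ResidueField (A0 A K0) →+* IsLocalRing.ResidueField A :=
  IsLocalRing.ResidueField.map (incl A K0)

theorem resMap_injective : Function.Injective (resMap A K0) := (resMap A K0).injective

theorem resMap_comp_residue :
    (resMap A K0).comp (IsLocalRing.residue (A0 A K0)) =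
      (IsLocalRing.residue A).comp (incl A K0) := rfl

/-- Reduction commutes with the descent. -/
theorem red_incl (Z : LaurentSeries (A0 A K0)) :
    coeffMap (IsLocalRing.residue A) (coeffMap (incl A K0) Z) =
      coeffMap (resMap A K0) (coeffMap (IsLocalRing.residue (A0 A K0)) Z) := by
  rw [coeffMap_coeffMap, coeffMap_coeffMap, resMap_comp_residue]

/-- Generic fibre commutes with the descent. -/
theorem subtype_incl (Z : LaurentSeries (A0 A K0)) :
    coeffMap A.subtype (coeffMap (incl A K0) Z) =
      coeffMap (algebraMap K0 Qb) (coeffMap (A0 A K0).subtype Z) := by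
  rw [coeffMap_coeffMap, coeffMap_coeffMap, subtype_comp_incl]

variable {A K0}

/-- **(D2c)** An `A`-integral series whose generic fibre is defined over `K0` descends to an
`A0`-integral series. -/
theorem exists_integral_descent (Y : LaurentSeries A) (y0 : LaurentSeries K0)
    (h : coeffMap (algebraMap K0 Qb) y0 = coeffMap A.subtype Y) :
    ∃ Z : LaurentSeries (A0 A K0), coeffMap (A0 A K0).subtype Z = y0 ∧
      coeffMap (incl A K0) Z = Y := by
  have hk : ∀ k : ℤ, algebraMap K0 Qb (y0.coeff k) = ((Y.coeff k : A) : Qb) := by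
    intro k
    have := congrArg (fun z => z.coeff k) h
    simp only [coeffMap_coeff] at this
    exact this
  have hmem : ∀ k : ℤ, y0.coeff k ∈ A0 A K0 := by
    intro k
    rw [mem_A0_iff, hk k]
    exact (Y.coeff k).2
  refine ⟨⟨fun k => ⟨y0.coeff k, hmem k⟩, ?_⟩, ?_, ?_⟩
  · refine y0.isPWO_support.mono ?_
    intro k hk'
    simp only [Function.mem_support, ne_eq] at hk' ⊢
    intro h0
    exact hk' (Subtype.ext h0)
  · ext k
    rfl
  · ext k
    rw [coeffMap_coeff, coe_incl]
    exact hk k

/-- **(D2d)** The pair handed over by the BRIDGE descends: two `A`-integral series with generic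
fibres in `modularFunctionFieldBar N` come from `A0`-integral series with generic fibres in
`modularFunctionFieldFullC K0 N` for a number field `K0` (containing any prescribed finite set of
constants); equality and non-vanishing of the reductions descend. -/
theorem exists_descent_pair (A : ValuationSubring Qb) (N : ℕ) (Y1 Y2 : LaurentSeries A)
    (h1 : coeffMap A.subtype Y1 ∈ modularFunctionFieldBar N)
    (h2 : coeffMap A.subtype Y2 ∈ modularFunctionFieldBar N) (C : Finset Qb) :
    ∃ K0 : IntermediateField ℚ Qb, FiniteDimensional ℚ K0 ∧ (∀ c ∈ C, c ∈ K0) ∧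
      ∃ Z1 Z2 : LaurentSeries (A0 A K0),
        coeffMap (A0 A K0).subtype Z1 ∈ modularFunctionFieldFullC K0 N ∧
        coeffMap (A0 A K0).subtype Z2 ∈ modularFunctionFieldFullC K0 N ∧
        coeffMap (incl A K0) Z1 = Y1 ∧ coeffMap (incl A K0) Z2 = Y2 ∧
        (coeffMap (IsLocalRing.residue A) Y1 = coeffMap (IsLocalRing.residue A) Y2 →
          coeffMap (IsLocalRing.residue (A0 A K0)) Z1 =
            coeffMap (IsLocalRing.residue (A0 A K0)) Z2) ∧
        (coeffMap (IsLocalRing.residue A) Y1 ≠ 0 →
          coeffMap (IsLocalRing.residue (A0 A K0)) Z1 ≠ 0) := by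
  classical
  obtain ⟨K0, hfin, hC, hS⟩ := exists_defOver_finset N
    {coeffMap A.subtype Y1, coeffMap A.subtype Y2} (by
      intro y hy
      rcases Finset.mem_insert.mp hy with rfl | hy
      · exact h1
      · rw [Finset.mem_singleton] at hy; rw [hy]; exact h2) C
  obtain ⟨y1, hy1, e1⟩ := hS _ (Finset.mem_insert_self _ _)
  obtain ⟨y2, hy2, e2⟩ := hS _ (Finset.mem_insert_of_mem (Finset.mem_singleton_self _))
  obtain ⟨Z1, hZ1, hZ1'⟩ := exists_integral_descent Y1 y1 e1
  obtain ⟨Z2, hZ2, hZ2'⟩ := exists_integral_descent Y2 y2 e2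
  refine ⟨K0, hfin, hC, Z1, Z2, by rw [hZ1]; exact hy1, by rw [hZ2]; exact hy2, hZ1', hZ2', ?_, ?_⟩
  · intro hred
    rw [← hZ1', ← hZ2', red_incl, red_incl] at hred
    exact coeffMap_injective _ (resMap_injective A K0) hred
  · intro hne h0
    apply hne
    rw [← hZ1', red_incl, h0, map_zero]

end Integral

/-! ### (D2e) the way back: constants and ascent -/

section Ascent

open PowerSeries in
theorem algebraMap_comp_C (K : Type*) [Field K] :
    (algebraMap (PowerSeries K) (LaurentSeries K)).comp (PowerSeries.C : K →+* PowerSeries K)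
      = algebraMap K (LaurentSeries K) := by
  refine RingHom.ext fun c => ?_
  rw [RingHom.comp_apply, algebraMap_laurentSeries_eq_single, LaurentSeries.coe_algebraMap,
    HahnSeries.ofPowerSeries_C]
  rfl

/-- An element of `K((q))` algebraic over `K` is a constant: `K` is algebraically closed in
`K((q))`. -/
theorem exists_const_of_isAlgebraic {K : Type*} [Field K] (b : LaurentSeries K)
    (hb : IsAlgebraic K b) : ∃ c : K, b = algebraMap K (LaurentSeries K) c := by
  have hint : ∀ z : LaurentSeries K, IsAlgebraic K z →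
      ∃ p : PowerSeries K, algebraMap (PowerSeries K) (LaurentSeries K) p = z := by
    intro z hz
    apply IsIntegrallyClosed.isIntegral_iff.mp
    obtain ⟨p, hp, hpz⟩ := hz.isIntegral
    refine ⟨p.map (PowerSeries.C : K →+* PowerSeries K), hp.map _, ?_⟩
    rw [Polynomial.eval₂_map, algebraMap_comp_C]
    exact hpz
  obtain ⟨p, rfl⟩ := hint b hb
  refine ⟨PowerSeries.constantCoeff p, ?_⟩
  have hconst : ∀ a : K, algebraMap (PowerSeries K) (LaurentSeries K) (PowerSeries.C a)
        = algebraMap K (LaurentSeries K) a := by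
    intro a
    rw [← algebraMap_comp_C]
    rfl
  set c : PowerSeries K := p - PowerSeries.C (PowerSeries.constantCoeff p) with hc
  have hc0 : PowerSeries.constantCoeff c = 0 := by simp [hc]
  have hcalg : IsAlgebraic K (algebraMap (PowerSeries K) (LaurentSeries K) c) := by
    rw [hc, map_sub]
    refine hb.sub ?_
    rw [hconst]
    exact isAlgebraic_algebraMap _
  have hczero : c = 0 := by
    by_contra hne
    obtain ⟨d, hd⟩ := hint _ hcalg.inv
    have hinj : Function.Injective (algebraMap (PowerSeries K) (LaurentSeries K)) :=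
      IsFractionRing.injective _ _
    have hne' : algebraMap (PowerSeries K) (LaurentSeries K) c ≠ 0 := by
      intro h0
      exact hne (hinj (by rw [h0, map_zero]))
    have h1 : c * d = 1 := by
      apply hinj
      rw [map_mul, hd, map_one, mul_inv_cancel₀ hne']
    have h2 := congrArg (PowerSeries.constantCoeff (R := K)) h1
    rw [map_mul, hc0, zero_mul, map_one] at h2
    exact zero_ne_one h2
  have hp : p = PowerSeries.C (PowerSeries.constantCoeff p) := sub_eq_zero.mp (hc ▸ hczero)
  conv_lhs => rw [hp]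
  exact hconst _

/-- `coeffMap` of a constant. -/
theorem coeffMap_algebraMap' {K K' : Type*} [Field K] [Field K'] (f : K →+* K') (c : K) :
    coeffMap f (algebraMap K (LaurentSeries K) c) = algebraMap K' (LaurentSeries K') (f c) := by
  rw [algebraMap_laurentSeries_eq_single, coeffMap_single, algebraMap_laurentSeries_eq_single]

/-- **(D2e) ascent.**  If over the number field `K0` one has `u0 = b * s ^ m` with `s` in the
level-`N` field and `b` algebraic over `K0` (the conclusion of the Kummer core over `A0`), then over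
`Qbar` the element `u0` is an `m`-th power in `modularFunctionFieldBar N`. -/
theorem exists_pow_eq_bar {K0 : IntermediateField ℚ Qb} {N m : ℕ} (hm : 0 < m)
    {u0 b s : LaurentSeries K0} (hs : s ∈ modularFunctionFieldFullC K0 N)
    (hb : IsAlgebraic K0 b) (h : u0 = b * s ^ m) :
    ∃ w ∈ modularFunctionFieldBar N, coeffMap (algebraMap K0 Qb) u0 = w ^ m := by
  obtain ⟨c, rfl⟩ := exists_const_of_isAlgebraic b hb
  obtain ⟨β, hβ⟩ := IsAlgClosed.exists_pow_nat_eq (algebraMap K0 Qb c) hm
  refine ⟨algebraMap Qb (LaurentSeries Qb) β * coeffMap (algebraMap K0 Qb) s, ?_, ?_⟩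
  · rw [modularFunctionFieldBar_eq_fullC]
    exact mul_mem (IntermediateField.algebraMap_mem _ _) (coeffMap_mem_fullC _ N hs)
  · rw [h, map_mul, map_pow, mul_pow, coeffMap_algebraMap', ← hβ, map_pow]

/-- The generic fibre of a ratio of descended integral series. -/
theorem subtype_incl_div (A : ValuationSubring Qb) (K0 : IntermediateField ℚ Qb)
    (Z1 Z2 : LaurentSeries (A0 A K0)) :
    coeffMap A.subtype (coeffMap (incl A K0) Z1) / coeffMap A.subtype (coeffMap (incl A K0) Z2) =
      coeffMap (algebraMap K0 Qb)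
        (coeffMap (A0 A K0).subtype Z1 / coeffMap (A0 A K0).subtype Z2) := by
  rw [subtype_incl, subtype_incl, map_div₀]

end Ascent

end

end Fermat.Agent.S18.H61
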