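import Mathlib
import Fermat.Prelude.Def_ModularCurve_ReductionModL
import Fermat.Agent.S24.HurwitzFinal_helper14
import Fermat.Agent.S24.Cover_helper98
import Fermat.Agent.S24.JTrans_helper89
import Fermat.Agent.S24.PhiData_helper69
import Fermat.Agent.S24.Finite_helper89

/-!
# S18, node CONSTK (helper2): consequences of the frozen reduction hypothesis on `F_k`

Everything here is derived from the frozen hypothesis `ReductionInputsModL A N` alone
(through its `compat` and `deg` clauses) and the characteristic-zero function-field library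
of S24.  No chart, no genus, no function-field theory in characteristic `ℓ` is used.

Main results (`Qb = AlgebraicClosure ℚ`, `k = IsLocalRing.ResidueField A`,
`Fk = modularFunctionFieldFullC k N`, `r = placeReductionModL h`):

* `lift_ratio` : every `g ∈ Fk` is a ratio of reductions of integral Laurent series lying in
  the function field of characteristic zero.
* `exists_divisor_k` : for `g ≠ 0` in `Fk` there is a divisor `D` of degree zero on the
  characteristic-zero curve with `mapDomain r D Q = Q.ord g` for every place `Q` of `Fk`.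
* `const_of_ord_nonneg` : a function on `Fk` without poles is constant.
* `hconstk` : a nonzero function on `Fk` with trivial divisor is constant.
-/

set_option autoImplicit false

open AlgebraicCurve

namespace Fermat.Agent.S18.H2

/-- the base field of characteristic zero -/
abbrev Qb : Type := AlgebraicClosure ℚ

section General

variable {K F : Type*} [Field K] [Field F] [Algebra K F]

/-- the degree of a divisor as a sum -/
theorem degree_eq_sum (D : Divisor K F) :
    Divisor.degree D = D.sum (fun v n => n * (v.deg : ℤ)) := by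
  rw [Divisor.degree, Finsupp.liftAddHom_apply]
  rfl

/-- the degree of a divisor when all places have degree one -/
theorem degree_eq_sum_of_deg (D : Divisor K F) (h1 : ∀ v : Place K F, v.deg = 1) :
    Divisor.degree D = ∑ v ∈ D.support, D v := by
  rw [degree_eq_sum, Finsupp.sum]
  refine Finset.sum_congr rfl fun v _ => ?_
  rw [h1 v]; simp

/-- an effective divisor has degree at least its multiplicity at a place of degree one -/
theorem le_degree_of_nonneg (E : Divisor K F) (hE : ∀ v, 0 ≤ E v) (Q : Place K F)
    (hQ : Q.deg = 1) : E Q ≤ Divisor.degree E := by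
  classical
  rw [degree_eq_sum, Finsupp.sum]
  by_cases hmem : Q ∈ E.support
  · have h := Finset.single_le_sum (f := fun v => E v * (v.deg : ℤ))
      (fun v _ => mul_nonneg (hE v) (Int.natCast_nonneg _)) hmem
    simpa [hQ] using h
  · rw [Finsupp.notMem_support_iff] at hmem
    rw [hmem]
    exact Finset.sum_nonneg fun v _ => mul_nonneg (hE v) (Int.natCast_nonneg _)

/-- at a place of degree one every regular function has a value in the constant field -/
theorem exists_value_of_deg_one (v : Place K F) (hv : v.deg = 1) (g : F) (hg : 0 ≤ v.ord g) :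
    ∃ c : K, g = algebraMap K F c ∨ 0 < v.ord (g - algebraMap K F c) := by
  have hmem : g ∈ v.toValuationSubring := Fermat.Agent.S24.H19.mem_of_ord_nonneg v hg
  have hspan := (finrank_eq_one_iff_of_nonzero' (K := K)
    (1 : v.ResidueField) one_ne_zero).mp hv
  obtain ⟨c, hc⟩ := hspan (IsLocalRing.residue v.toValuationSubring ⟨g, hmem⟩)
  refine ⟨c, ?_⟩
  by_cases hne : g = algebraMap K F c
  · exact Or.inl hne
  right
  have humem : (⟨g, hmem⟩ - algebraMap K v.toValuationSubring c : v.toValuationSubring) ∈
      IsLocalRing.maximalIdeal v.toValuationSubring := by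
    rw [← IsLocalRing.residue_eq_zero_iff, map_sub, sub_eq_zero, ← hc, Algebra.smul_def, mul_one,
      IsScalarTower.algebraMap_apply K v.toValuationSubring v.ResidueField c,
      IsLocalRing.ResidueField.algebraMap_eq]
  have h2 : ((⟨g, hmem⟩ - algebraMap K v.toValuationSubring c : v.toValuationSubring) : F) ≠ 0 := by
    show g - algebraMap K F c ≠ 0
    exact sub_ne_zero.mpr hne
  have h3 := Fermat.Agent.S24.H19.ord_pos_of_mem_maximalIdeal v humem h2
  exact h3

/-- abstract form of "no poles ⇒ constant": it suffices to have one place of degree one at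
which no nonzero pole-free function vanishes -/
theorem const_of_ord_nonneg_aux (Q0 : Place K F) (hQ0 : Q0.deg = 1)
    (hkey : ∀ u : F, u ≠ 0 → (∀ Q : Place K F, 0 ≤ Q.ord u) → Q0.ord u ≤ 0)
    (g : F) (hg : ∀ Q : Place K F, 0 ≤ Q.ord g) : ∃ c : K, g = algebraMap K F c := by
  obtain ⟨c, hc | hc⟩ := exists_value_of_deg_one Q0 hQ0 g (hg Q0)
  · exact ⟨c, hc⟩
  · refine ⟨c, ?_⟩
    by_contra hne
    have hu0 : g - algebraMap K F c ≠ 0 := sub_ne_zero.mpr hne
    have hnn : ∀ Q : Place K F, 0 ≤ Q.ord (g - algebraMap K F c) := by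
      intro Q
      have h1 := Fermat.Agent.S24.H19.ord_sub_ge Q (f := g) (g := algebraMap K F c) hu0
      rw [Fermat.Agent.S24.H19.ord_algebraMap] at h1
      exact le_trans (le_min (hg Q) le_rfl) h1
    have := hkey _ hu0 hnn
    omega

end General

open IntermediateField HahnSeries ModularCurve

section CharZero

variable (N : ℕ) [NeZero N]

/-- the function-field inputs of S24 for `modularFunctionFieldBar N` -/
theorem rhInputs_bar :
    Fermat.Agent.S24.H14.RHInputs Qb ↥(modularFunctionFieldBar N) (Fermat.Agent.S24.H98.jBar N) := by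
  obtain ⟨P⟩ := Fermat.Agent.S24.H69.nonempty_phiData N
  exact Fermat.Agent.S24.H14.rhInputs (hfin := Fermat.Agent.S24.H89.finite_FN P)
    (Fermat.Agent.S24.H98.jBar N) (Fermat.Agent.S24.H89.transcendental_jBar N _)

/-- every place of the characteristic-zero function field has degree one -/
theorem deg_bar (P : Place Qb ↥(modularFunctionFieldBar N)) : P.deg = 1 :=
  (rhInputs_bar N).deg_eq_one P

set_option synthInstance.maxHeartbeats 400000 in
/-- the characteristic-zero function field has a place -/
theorem nonempty_place_bar : Nonempty (Place Qb ↥(modularFunctionFieldBar N)) := by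
  obtain ⟨P⟩ := Fermat.Agent.S24.H69.nonempty_phiData N
  have hfin := Fermat.Agent.S24.H89.finite_FN P
  have hx := Fermat.Agent.S24.H89.transcendental_jBar N
    (Fermat.Agent.S24.H98.jBar N).2
  have hsum := (rhInputs_bar N).sum_zeros (Fermat.Agent.S24.H98.jBar N) hx
  by_contra hne
  rw [not_nonempty_iff] at hne
  have h0 : ∑ᶠ v ∈ {v : Place Qb ↥(modularFunctionFieldBar N) |
      0 < v.ord (Fermat.Agent.S24.H98.jBar N)}, v.ord (Fermat.Agent.S24.H98.jBar N) = 0 := by
    apply finsum_eq_zero_of_forall_eq_zero
    intro v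
    exact (hne.false v).elim
  rw [h0] at hsum
  have hpos : 0 < Module.finrank Qb⟮Fermat.Agent.S24.H98.jBar N⟯ ↥(modularFunctionFieldBar N) := by
    have : Module.Finite Qb⟮Fermat.Agent.S24.H98.jBar N⟯ ↥(modularFunctionFieldBar N) := hfin
    exact Module.finrank_pos
  have h1 : (Module.finrank Qb⟮Fermat.Agent.S24.H98.jBar N⟯ ↥(modularFunctionFieldBar N) : ℤ) = 0 :=
    hsum.symm
  omega

/-- every nonzero function of characteristic zero has a divisor, of degree zero -/
theorem exists_divisor_bar (y : ↥(modularFunctionFieldBar N)) (_hy : y ≠ 0) :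
    ∃ D : Divisor Qb ↥(modularFunctionFieldBar N), (∀ P, D P = P.ord y) ∧
      Divisor.degree D = 0 := by
  classical
  have h := rhInputs_bar N
  have hfin : (Function.support fun v : Place Qb ↥(modularFunctionFieldBar N) => v.ord y).Finite := by
    refine ((Fermat.Agent.S24.H14.finite_pos h y).union
      (Fermat.Agent.S24.H14.finite_neg h y)).subset ?_
    intro v hv
    rw [Function.mem_support] at hv
    rcases lt_or_gt_of_ne hv with h1 | h1
    · exact Or.inr h1
    · exact Or.inl h1
  set D : Divisor Qb ↥(modularFunctionFieldBar N) :=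
    Finsupp.ofSupportFinite (fun v => v.ord y) hfin with hD
  have hDv : ∀ v, D v = v.ord y := fun v => rfl
  refine ⟨D, hDv, ?_⟩
  have hsupp : ∀ v : Place Qb ↥(modularFunctionFieldBar N), v.ord y ≠ 0 → v ∈ D.support := by
    intro v hv
    rw [Finsupp.mem_support_iff, hDv]
    exact hv
  have hsum := Fermat.Agent.S24.H14.sum_ord_eq_zero h y D.support
    (fun v hv => hsupp v (ne_of_gt hv)) (fun v hv => hsupp v (ne_of_lt hv))
  rw [degree_eq_sum_of_deg D (deg_bar N), ← hsum]
  exact Finset.sum_congr rfl fun v _ => hDv v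

end CharZero

section Frozen

set_option synthInstance.maxHeartbeats 400000

/-- `g` is a ratio of reductions of integral Laurent series lying in the function field of
characteristic zero (and reducing into the function field of characteristic `ℓ`). -/
def IsRatio (N : ℕ) [NeZero N] (A : ValuationSubring Qb)
    (g : LaurentSeries (IsLocalRing.ResidueField A)) : Prop :=
  ∃ Y1 Y2 : LaurentSeries A,
    coeffMap A.subtype Y1 ∈ modularFunctionFieldBar N ∧
    coeffMap A.subtype Y2 ∈ modularFunctionFieldBar N ∧
    coeffMap (IsLocalRing.residue A) Y1 ∈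
      modularFunctionFieldFullC (IsLocalRing.ResidueField A) N ∧
    coeffMap (IsLocalRing.residue A) Y2 ∈
      modularFunctionFieldFullC (IsLocalRing.ResidueField A) N ∧
    coeffMap (IsLocalRing.residue A) Y2 ≠ 0 ∧
    g * coeffMap (IsLocalRing.residue A) Y2 = coeffMap (IsLocalRing.residue A) Y1

variable {N : ℕ} [NeZero N] {A : ValuationSubring Qb}

theorem isRatio_algebraMap (c : IsLocalRing.ResidueField A) :
    IsRatio N A (algebraMap (IsLocalRing.ResidueField A)
      (LaurentSeries (IsLocalRing.ResidueField A)) c) := by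
  obtain ⟨a, rfl⟩ := IsLocalRing.residue_surjective c
  refine ⟨HahnSeries.single 0 a, 1, ?_, ?_, ?_, ?_, ?_, ?_⟩
  · rw [coeffMap_single, ← algebraMap_laurentSeries_eq_single]
    exact (modularFunctionFieldBar N).algebraMap_mem _
  · rw [map_one]; exact one_mem _
  · rw [coeffMap_single, ← algebraMap_laurentSeries_eq_single]
    exact (modularFunctionFieldFullC (IsLocalRing.ResidueField A) N).algebraMap_mem _
  · rw [map_one]; exact one_mem _
  · rw [map_one]; exact one_ne_zero
  · rw [map_one, mul_one, coeffMap_single, ← algebraMap_laurentSeries_eq_single]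

theorem isRatio_gen {d : ℕ} [NeZero d] (hd : d ∣ N) :
    IsRatio N A (qExpand (IsLocalRing.ResidueField A) d (jqModC (IsLocalRing.ResidueField A))) := by
  refine ⟨qExpand A d (jqModC A), 1, ?_, ?_, ?_, ?_, ?_, ?_⟩
  · rw [coeffMap_qExpand, coeffMap_jqModC]
    have h := coeffEmb_mem_laurentBaseChange Qb (jqd_mem_full N hd)
    have e : coeffEmb Qb (qExpand ℚ d jq) = qExpand Qb d (jqModC Qb) := by
      rw [coeffEmb, coeffMap_qExpand]
      exact congrArg _ (coeffMap_jqModC (R := ℚ) (algebraMap ℚ Qb))
    rw [e] at h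
    exact h
  · rw [map_one]; exact one_mem _
  · rw [coeffMap_qExpand, coeffMap_jqModC]
    exact jqModCd_mem_full _ N hd
  · rw [map_one]; exact one_mem _
  · rw [map_one]; exact one_ne_zero
  · rw [map_one, mul_one, coeffMap_qExpand, coeffMap_jqModC]

theorem IsRatio.add {g g' : LaurentSeries (IsLocalRing.ResidueField A)}
    (hg : IsRatio N A g) (hg' : IsRatio N A g') : IsRatio N A (g + g') := by
  obtain ⟨Y1, Y2, h1, h2, k1, k2, hne, he⟩ := hg
  obtain ⟨Z1, Z2, h1', h2', k1', k2', hne', he'⟩ := hg'
  refine ⟨Y1 * Z2 + Z1 * Y2, Y2 * Z2, ?_, ?_, ?_, ?_, ?_, ?_⟩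
  · rw [map_add, map_mul, map_mul]
    exact add_mem (mul_mem h1 h2') (mul_mem h1' h2)
  · rw [map_mul]; exact mul_mem h2 h2'
  · rw [map_add, map_mul, map_mul]
    exact add_mem (mul_mem k1 k2') (mul_mem k1' k2)
  · rw [map_mul]; exact mul_mem k2 k2'
  · rw [map_mul]; exact mul_ne_zero hne hne'
  · rw [map_mul, map_add, map_mul, map_mul, ← he, ← he']
    ring

theorem IsRatio.mul {g g' : LaurentSeries (IsLocalRing.ResidueField A)}
    (hg : IsRatio N A g) (hg' : IsRatio N A g') : IsRatio N A (g * g') := by
  obtain ⟨Y1, Y2, h1, h2, k1, k2, hne, he⟩ := hg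
  obtain ⟨Z1, Z2, h1', h2', k1', k2', hne', he'⟩ := hg'
  refine ⟨Y1 * Z1, Y2 * Z2, ?_, ?_, ?_, ?_, ?_, ?_⟩
  · rw [map_mul]; exact mul_mem h1 h1'
  · rw [map_mul]; exact mul_mem h2 h2'
  · rw [map_mul]; exact mul_mem k1 k1'
  · rw [map_mul]; exact mul_mem k2 k2'
  · rw [map_mul]; exact mul_ne_zero hne hne'
  · rw [map_mul, map_mul, ← he, ← he']
    ring

theorem IsRatio.inv {g : LaurentSeries (IsLocalRing.ResidueField A)}
    (hg : IsRatio N A g) : IsRatio N A g⁻¹ := by
  obtain ⟨Y1, Y2, h1, h2, k1, k2, hne, he⟩ := hg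
  by_cases h0 : coeffMap (IsLocalRing.residue A) Y1 = 0
  · have hg0 : g = 0 := by
      rw [h0] at he
      exact (mul_eq_zero.mp he).resolve_right hne
    rw [hg0, inv_zero]
    have := isRatio_algebraMap (N := N) (A := A) 0
    rwa [map_zero] at this
  · refine ⟨Y2, Y1, h2, h1, k2, k1, h0, ?_⟩
    have hg0 : g ≠ 0 := by
      rintro rfl
      rw [zero_mul] at he
      exact h0 he.symm
    rw [← he]
    field_simp

/-- **Lifting**: every element of the function field of characteristic `ℓ` is a ratio of
reductions of integral elements. -/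
theorem lift_ratio {g : LaurentSeries (IsLocalRing.ResidueField A)}
    (hg : g ∈ modularFunctionFieldFullC (IsLocalRing.ResidueField A) N) : IsRatio N A g := by
  rw [modularFunctionFieldFullC] at hg
  induction hg using IntermediateField.adjoin_induction with
  | mem x hx =>
    obtain ⟨d, hd0, hd, rfl⟩ := hx
    exact isRatio_gen hd
  | algebraMap c => exact isRatio_algebraMap c
  | add x y _ _ hx hy => exact hx.add hy
  | inv x _ hx => exact hx.inv
  | mul x y _ _ hx hy => exact hx.mul hy

theorem coeffMap_subtype_ne_zero {Y : LaurentSeries A}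
    (hY : coeffMap (IsLocalRing.residue A) Y ≠ 0) : coeffMap A.subtype Y ≠ 0 := by
  intro h
  apply hY
  have hY0 : Y = 0 := by
    ext n
    have hn := congrArg (fun z => z.coeff n) h
    simp only [coeffMap_coeff, HahnSeries.coeff_zero] at hn
    have : (Y.coeff n : Qb) = 0 := hn
    exact_mod_cast this
  rw [hY0, map_zero]

/-- **Divisors on `Fk`** (from the frozen `compat`): every nonzero `g` of the function field of
characteristic `ℓ` has its orders given by the push-forward of a divisor of degree zero. -/
theorem exists_divisor_k (h : ReductionInputsModL A N)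
    (g : ↥(modularFunctionFieldFullC (IsLocalRing.ResidueField A) N)) (hg : g ≠ 0) :
    ∃ D : Divisor Qb ↥(modularFunctionFieldBar N), Divisor.degree D = 0 ∧
      ∀ Q, Finsupp.mapDomain (placeReductionModL h) D Q = Q.ord g := by
  obtain ⟨Y1, Y2, h1, h2, k1, k2, hne, he⟩ := lift_ratio (N := N) (A := A) g.2
  have hne1 : coeffMap (IsLocalRing.residue A) Y1 ≠ 0 := by
    rw [← he]
    exact mul_ne_zero (fun h0 => hg (Subtype.ext h0)) hne
  have hy1 : (⟨coeffMap A.subtype Y1, h1⟩ : ↥(modularFunctionFieldBar N)) ≠ 0 := fun h0 =>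
    coeffMap_subtype_ne_zero hne1 (congrArg Subtype.val h0)
  have hy2 : (⟨coeffMap A.subtype Y2, h2⟩ : ↥(modularFunctionFieldBar N)) ≠ 0 := fun h0 =>
    coeffMap_subtype_ne_zero hne (congrArg Subtype.val h0)
  obtain ⟨D1, hD1, hd1⟩ := exists_divisor_bar N _ hy1
  obtain ⟨D2, hD2, hd2⟩ := exists_divisor_bar N _ hy2
  have hr := isPlaceReductionModL_placeReductionModL h
  refine ⟨D1 - D2, by rw [map_sub, hd1, hd2, sub_zero], fun Q => ?_⟩
  have c1 := hr.2 Y1 h1 k1 hne1 D1 hD1 Q
  have c2 := hr.2 Y2 h2 k2 hne D2 hD2 Q
  rw [Finsupp.mapDomain_sub, Finsupp.sub_apply, c1, c2]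
  have hk1 : (⟨coeffMap (IsLocalRing.residue A) Y1, k1⟩ :
      ↥(modularFunctionFieldFullC (IsLocalRing.ResidueField A) N)) ≠ 0 := fun h0 =>
    hne1 (congrArg Subtype.val h0)
  have hk2 : (⟨coeffMap (IsLocalRing.residue A) Y2, k2⟩ :
      ↥(modularFunctionFieldFullC (IsLocalRing.ResidueField A) N)) ≠ 0 := fun h0 =>
    hne (congrArg Subtype.val h0)
  have hgeq : g = (⟨coeffMap (IsLocalRing.residue A) Y1, k1⟩ :
      ↥(modularFunctionFieldFullC (IsLocalRing.ResidueField A) N)) /
      ⟨coeffMap (IsLocalRing.residue A) Y2, k2⟩ := by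
    rw [eq_div_iff hk2]
    exact Subtype.ext he
  rw [hgeq, Fermat.Agent.S24.H19.ord_div Q hk1 hk2]

/-- the reduction of a place has degree one -/
theorem deg_placeReduction (h : ReductionInputsModL A N)
    (P : Place Qb ↥(modularFunctionFieldBar N)) : (placeReductionModL h P).deg = 1 :=
  ((isPlaceReductionModL_placeReductionModL h).1 P).trans (deg_bar N P)

/-- **No poles ⇒ constant** on the function field of characteristic `ℓ`, from the frozen
hypothesis alone. -/
theorem const_of_ord_nonneg (h : ReductionInputsModL A N)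
    (g : ↥(modularFunctionFieldFullC (IsLocalRing.ResidueField A) N))
    (hg : ∀ Q : Place (IsLocalRing.ResidueField A)
      ↥(modularFunctionFieldFullC (IsLocalRing.ResidueField A) N), 0 ≤ Q.ord g) :
    ∃ c : IsLocalRing.ResidueField A,
      g = algebraMap (IsLocalRing.ResidueField A)
        ↥(modularFunctionFieldFullC (IsLocalRing.ResidueField A) N) c := by
  obtain ⟨P0⟩ := nonempty_place_bar N
  have hr := isPlaceReductionModL_placeReductionModL h
  have hQ0 : (placeReductionModL h P0).deg = 1 := deg_placeReduction h P0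
  refine const_of_ord_nonneg_aux (placeReductionModL h P0) hQ0 ?_ g hg
  intro u hu0 hnn
  obtain ⟨D, hD0, hDQ⟩ := exists_divisor_k h u hu0
  have hdeg := degree_mapDomain_of_deg_eq hr.1 D
  have hle := le_degree_of_nonneg (Finsupp.mapDomain (placeReductionModL h) D)
    (fun Q => by rw [hDQ]; exact hnn Q) (placeReductionModL h P0) hQ0
  rw [hdeg, hD0, hDQ] at hle
  exact hle

/-- **Divisor zero ⇒ constant** on the function field of characteristic `ℓ` (the hypothesis
`hconstk` of the bridge), from the frozen hypothesis alone. -/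
theorem hconstk (h : ReductionInputsModL A N) :
    ∀ g : ↥(modularFunctionFieldFullC (IsLocalRing.ResidueField A) N), g ≠ 0 →
      (∀ Q : Place (IsLocalRing.ResidueField A)
        ↥(modularFunctionFieldFullC (IsLocalRing.ResidueField A) N), Q.ord g = 0) →
      ∃ c : IsLocalRing.ResidueField A,
        g = algebraMap (IsLocalRing.ResidueField A)
          ↥(modularFunctionFieldFullC (IsLocalRing.ResidueField A) N) c :=
  fun g _ hg => const_of_ord_nonneg h g fun Q => (hg Q).ge

end Frozen

end Fermat.Agent.S18.H2
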