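import Fermat.Agent.S18.Bridge_helper18
import Fermat.Agent.S18.ConstK_helper2

/-!
# S18: the bridge with `hdivL` and `hconstk` discharged (helper2)

`H18.bridge` reduces the frozen S18 to three inputs `hdivL`, `hconstk`, `core`.  The first two
are proved in `ConstK_helper2` (from the S24 library, resp. from the frozen hypothesis).  Here
we record the resulting closed forms:

* `bridge_closed` : S18 from `core` alone;
* `s18_of_kum` : S18 from the Kummer statement `(KUM)` (no divisor, no place map):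
  for `Y1 Y2` Gauss-integral with equal nonzero reductions, if `m` divides every
  `P.ord (ι Y1) - P.ord (ι Y2)`, then there is `s ≠ 0` with `m * P.ord s` equal to it.
-/

set_option autoImplicit false

noncomputable section

open ModularCurve AlgebraicCurve HahnSeries IntermediateField

namespace Fermat.Agent.S18.H2

variable {A : ValuationSubring (AlgebraicClosure ℚ)} {N : ℕ} [NeZero N]

/-- `hdivL` of the bridge: every nonzero function of characteristic zero has a divisor. -/
theorem hdivL (N : ℕ) [NeZero N] :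
    ∀ f : modularFunctionFieldBar N, f ≠ 0 →
      ∃ E : Divisor (AlgebraicClosure ℚ) (modularFunctionFieldBar N), ∀ P, E P = P.ord f :=
  fun f hf => by
    obtain ⟨D, hD, _⟩ := exists_divisor_bar N f hf
    exact ⟨D, hD⟩

/-- **S18 from the core alone.** -/
theorem bridge_closed (h : ReductionInputsModL A N) (m : ℕ) (z : JZero N) (hmz : m • z = 0)
    (hz : reductionModL A N z = 0)
    (core : ∀ D : Divisor (AlgebraicClosure ℚ) (modularFunctionFieldBar N),
      Divisor.degree D = 0 → Finsupp.mapDomain (placeReductionModL h) D = 0 →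
      ∀ (Y1 Y2 : LaurentSeries A) (h1 : Y1 ∈ Fermat.Agent.S18.H18.gaussRing A N)
        (h2 : Y2 ∈ Fermat.Agent.S18.H18.gaussRing A N),
        coeffMap (IsLocalRing.residue A) Y1 ≠ 0 →
        coeffMap (IsLocalRing.residue A) Y1 = coeffMap (IsLocalRing.residue A) Y2 →
        (∀ P : Place (AlgebraicClosure ℚ) (modularFunctionFieldBar N),
          (m • D) P = P.ord (⟨coeffMap A.subtype Y1, h1.1⟩ : modularFunctionFieldBar N) -
            P.ord (⟨coeffMap A.subtype Y2, h2.1⟩ : modularFunctionFieldBar N)) →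
        D ∈ Divisor.principal (K := AlgebraicClosure ℚ) (F := modularFunctionFieldBar N)) :
    z = 0 :=
  Fermat.Agent.S18.H18.bridge h m z hmz hz (hdivL N) (hconstk h) core

/-- **S18 from the Kummer statement** `(KUM)`: no place map, no divisor. -/
theorem s18_of_kum (h : ReductionInputsModL A N) (m : ℕ) (hm0 : m ≠ 0) (z : JZero N)
    (hmz : m • z = 0) (hz : reductionModL A N z = 0)
    (kum : ∀ (Y1 Y2 : LaurentSeries A) (h1 : Y1 ∈ Fermat.Agent.S18.H18.gaussRing A N)
        (h2 : Y2 ∈ Fermat.Agent.S18.H18.gaussRing A N),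
        coeffMap (IsLocalRing.residue A) Y1 ≠ 0 →
        coeffMap (IsLocalRing.residue A) Y1 = coeffMap (IsLocalRing.residue A) Y2 →
        (∀ P : Place (AlgebraicClosure ℚ) (modularFunctionFieldBar N),
          (m : ℤ) ∣ P.ord (⟨coeffMap A.subtype Y1, h1.1⟩ : modularFunctionFieldBar N) -
            P.ord (⟨coeffMap A.subtype Y2, h2.1⟩ : modularFunctionFieldBar N)) →
        ∃ s : modularFunctionFieldBar N, s ≠ 0 ∧
          ∀ P : Place (AlgebraicClosure ℚ) (modularFunctionFieldBar N),
            (m : ℤ) * P.ord s =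
              P.ord (⟨coeffMap A.subtype Y1, h1.1⟩ : modularFunctionFieldBar N) -
              P.ord (⟨coeffMap A.subtype Y2, h2.1⟩ : modularFunctionFieldBar N)) :
    z = 0 := by
  refine bridge_closed h m z hmz hz ?_
  intro D _ _ Y1 Y2 h1 h2 hne heq hD
  have hDP : ∀ P : Place (AlgebraicClosure ℚ) (modularFunctionFieldBar N),
      (m • D) P = (m : ℤ) * D P := by
    intro P
    rw [Finsupp.smul_apply, nsmul_eq_mul]
  obtain ⟨s, hs0, hs⟩ := kum Y1 Y2 h1 h2 hne heq (fun P => by
    rw [← hD P, hDP P]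
    exact dvd_mul_right _ _)
  refine ⟨s, hs0, fun P => ?_⟩
  have h3 := hs P
  rw [← hD P, hDP P] at h3
  have hm : (m : ℤ) ≠ 0 := by exact_mod_cast hm0
  exact (mul_left_cancel₀ hm h3).symm

/-- the same with the quotient `f = ι Y1 / ι Y2` formed in the function field. -/
theorem s18_of_kum_div (h : ReductionInputsModL A N) (m : ℕ) (hm0 : m ≠ 0) (z : JZero N)
    (hmz : m • z = 0) (hz : reductionModL A N z = 0)
    (kum : ∀ (Y1 Y2 : LaurentSeries A) (h1 : Y1 ∈ Fermat.Agent.S18.H18.gaussRing A N)
        (h2 : Y2 ∈ Fermat.Agent.S18.H18.gaussRing A N),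
        coeffMap (IsLocalRing.residue A) Y1 ≠ 0 →
        coeffMap (IsLocalRing.residue A) Y1 = coeffMap (IsLocalRing.residue A) Y2 →
        (∀ P : Place (AlgebraicClosure ℚ) (modularFunctionFieldBar N),
          (m : ℤ) ∣ P.ord ((⟨coeffMap A.subtype Y1, h1.1⟩ : modularFunctionFieldBar N) /
            (⟨coeffMap A.subtype Y2, h2.1⟩ : modularFunctionFieldBar N))) →
        ∃ s : modularFunctionFieldBar N, s ≠ 0 ∧
          ∀ P : Place (AlgebraicClosure ℚ) (modularFunctionFieldBar N),
            (m : ℤ) * P.ord s =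
              P.ord ((⟨coeffMap A.subtype Y1, h1.1⟩ : modularFunctionFieldBar N) /
                (⟨coeffMap A.subtype Y2, h2.1⟩ : modularFunctionFieldBar N))) :
    z = 0 := by
  refine s18_of_kum h m hm0 z hmz hz ?_
  intro Y1 Y2 h1 h2 hne heq hdvd
  have hg1 : (⟨coeffMap A.subtype Y1, h1.1⟩ : modularFunctionFieldBar N) ≠ 0 :=
    fun h0 => coeffMap_subtype_ne_zero hne (congrArg Subtype.val h0)
  have hg2 : (⟨coeffMap A.subtype Y2, h2.1⟩ : modularFunctionFieldBar N) ≠ 0 :=
    fun h0 => coeffMap_subtype_ne_zero (heq ▸ hne) (congrArg Subtype.val h0)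
  obtain ⟨s, hs0, hs⟩ := kum Y1 Y2 h1 h2 hne heq (fun P => by
    rw [Fermat.Agent.S18.H18.ord_div P hg1 hg2]
    exact hdvd P)
  refine ⟨s, hs0, fun P => ?_⟩
  rw [hs P, Fermat.Agent.S18.H18.ord_div P hg1 hg2]

end Fermat.Agent.S18.H2
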