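import Mathlib
import Fermat.Agent.S28.DegreeQ_helper98
import Fermat.Agent.S24.Cosets_helper35

/-!
# S18, node (DEG): the degree `[Fbar_{N'} : Fbar_N]` for `N ∣ N'`

`Fbar_N := modularFunctionFieldBar N = Qbar(j(q^d) : d ∣ N)` inside `Qbar((q))`.

* `bar_mono`                  : `N ∣ N' → Fbar_N ≤ Fbar_{N'}`;
* `relfinrank_adjoin_j_bar`   : `[Fbar_N : Qbar(j)] = ψ(N)` as a `relfinrank` inside `Qbar((q))`
  (the S24 degree theorem, transported from the subtype form);
* `relfinrank_bar_mul_psi`    : `[Fbar_{N'} : Fbar_N] * ψ(N) = ψ(N')` for `N ∣ N'`;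
* `relfinrank_bar_prime_mul`  : `[Fbar_{pN} : Fbar_N] = p + 1` for a prime `p ∤ N`;
* `relfinrank_bar_lcm_prime`  : `[Fbar_{lcm N p} : Fbar_N] = if p ∣ N then 1 else p + 1`;
* `coprime_relfinrank_bar_lcm_two`, `coprime_relfinrank_bar_lcm_three`, `auxLevel`,
  `coprime_relfinrank_bar_aux` : the literal hypotheses of the norm descent
  (`H76.exists_mem_pow_eq_of_coprime_relfinrank`).
-/

set_option autoImplicit false

open IntermediateField ModularCurve

namespace Fermat.Agent.S18.H16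

/-- the base field -/
abbrev Kbar : Type := AlgebraicClosure ℚ

/-- the ambient field `Qbar((q))` -/
abbrev Ebar : Type := LaurentSeries Kbar

/-- `j` as a Laurent series over `Qbar` -/
noncomputable abbrev jE : Ebar := coeffEmb Kbar jq

/-- `laurentBaseChange` is monotone. -/
theorem laurentBaseChange_mono (L : Type*) [Field L] [Algebra ℚ L]
    {F₁ F₂ : IntermediateField ℚ (LaurentSeries ℚ)} (h : F₁ ≤ F₂) :
    laurentBaseChange L F₁ ≤ laurentBaseChange L F₂ := by
  unfold laurentBaseChange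
  exact IntermediateField.adjoin.mono L _ _ (Set.image_mono h)

/-- **(DEG1)** `N ∣ N' → Fbar_N ≤ Fbar_{N'}`. -/
theorem bar_mono {N N' : ℕ} [NeZero N] [NeZero N'] (h : N ∣ N') :
    modularFunctionFieldBar N ≤ modularFunctionFieldBar N' :=
  laurentBaseChange_mono Kbar (full_degeneracy_le h)

/-- `Qbar(j) ≤ Fbar_N`. -/
theorem adjoin_jE_le_bar (N : ℕ) [NeZero N] : Kbar⟮jE⟯ ≤ modularFunctionFieldBar N := by
  rw [IntermediateField.adjoin_le_iff]
  exact Set.singleton_subset_iff.mpr (S24.H98.jBar N).2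

/-- The S24 degree theorem as a relative degree inside `Qbar((q))`:
`[Fbar_N : Qbar(j)] = ψ(N)`. -/
theorem relfinrank_adjoin_j_bar (N : ℕ) [NeZero N] :
    relfinrank (Kbar⟮jE⟯) (modularFunctionFieldBar N) = dedekindPsi N := by
  obtain ⟨-, hrank⟩ := S28.H98.finrank_bar N
  rw [← hrank, ← relfinrank_top_right,
    ← relfinrank_map_map (A := Kbar⟮S24.H98.jBar N⟯) (B := ⊤) (modularFunctionFieldBar N).val]
  congr 1
  · rw [IntermediateField.adjoin_map, Set.image_singleton]
    rfl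
  · rw [← AlgHom.fieldRange_eq_map, IntermediateField.fieldRange_val]

/-- `0 < ψ(N)` for `N ≠ 0`. -/
theorem dedekindPsi_pos' (N : ℕ) [NeZero N] : 0 < dedekindPsi N := by
  unfold dedekindPsi
  apply Finset.sum_pos'
  · intro d _; exact Nat.zero_le _
  · refine ⟨1, ?_, ?_⟩
    · simp [NeZero.ne N]
    · simp [Nat.pos_of_ne_zero (NeZero.ne N)]

/-- **(DEG2, general)** `[Fbar_{N'} : Fbar_N] * ψ(N) = ψ(N')` for `N ∣ N'`. -/
theorem relfinrank_bar_mul_psi {N N' : ℕ} [NeZero N] [NeZero N'] (h : N ∣ N') :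
    relfinrank (modularFunctionFieldBar N) (modularFunctionFieldBar N') * dedekindPsi N
      = dedekindPsi N' := by
  rw [← relfinrank_adjoin_j_bar N, ← relfinrank_adjoin_j_bar N', mul_comm]
  exact relfinrank_mul_relfinrank (adjoin_jE_le_bar N) (bar_mono h)

/-- the relative degree is nonzero (finite extension). -/
theorem relfinrank_bar_ne_zero {N N' : ℕ} [NeZero N] [NeZero N'] (h : N ∣ N') :
    relfinrank (modularFunctionFieldBar N) (modularFunctionFieldBar N') ≠ 0 := by
  intro h0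
  have := relfinrank_bar_mul_psi h
  rw [h0, zero_mul] at this
  exact (dedekindPsi_pos' N').ne this

/-- **(DEG2)** `[Fbar_{pN} : Fbar_N] = p + 1` for a prime `p ∤ N`
(`N'` is any name for `p * N`). -/
theorem relfinrank_bar_prime_mul {N N' p : ℕ} [NeZero N] [NeZero N'] (hp : p.Prime)
    (hpN : ¬ p ∣ N) (hN' : N' = p * N) :
    relfinrank (modularFunctionFieldBar N) (modularFunctionFieldBar N') = p + 1 := by
  have h : N ∣ N' := hN' ▸ Dvd.intro_left p rfl
  have h1 := relfinrank_bar_mul_psi h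
  have h2 : dedekindPsi N' = (p + 1) * dedekindPsi N := by
    rw [hN']
    exact S24.H35.dedekindPsi_prime_mul_of_not_dvd hp (NeZero.ne N) hpN
  rw [h2] at h1
  exact Nat.eq_of_mul_eq_mul_right (dedekindPsi_pos' N) h1

/-- `lcm N p ≠ 0`. -/
instance neZero_lcm (N p : ℕ) [NeZero N] [NeZero p] : NeZero (Nat.lcm N p) :=
  ⟨Nat.lcm_ne_zero (NeZero.ne N) (NeZero.ne p)⟩

/-- **(DEG2, lcm form)** for a prime `p`:
`[Fbar_{lcm N p} : Fbar_N] = 1` if `p ∣ N`, and `= p + 1` otherwise. -/
theorem relfinrank_bar_lcm_prime (N p : ℕ) [NeZero N] [NeZero p] (hp : p.Prime) :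
    relfinrank (modularFunctionFieldBar N) (modularFunctionFieldBar (Nat.lcm N p))
      = if p ∣ N then 1 else p + 1 := by
  split_ifs with hpN
  · have hl : Nat.lcm N p = N := Nat.lcm_eq_left hpN
    have h2 := relfinrank_bar_mul_psi (N := N) (N' := Nat.lcm N p) (Nat.dvd_lcm_left N p)
    have h3 : dedekindPsi (Nat.lcm N p) = dedekindPsi N := by rw [hl]
    rw [h3] at h2
    exact Nat.eq_of_mul_eq_mul_right (dedekindPsi_pos' N) (by rw [h2, one_mul])
  · have hcop : Nat.Coprime N p := ((Nat.Prime.coprime_iff_not_dvd hp).mpr hpN).symm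
    exact relfinrank_bar_prime_mul hp hpN (by rw [hcop.lcm_eq_mul, mul_comm])

/-- `Fbar_N ≤ Fbar_{lcm N p}`. -/
theorem bar_le_lcm (N p : ℕ) [NeZero N] [NeZero p] :
    modularFunctionFieldBar N ≤ modularFunctionFieldBar (Nat.lcm N p) :=
  bar_mono (Nat.dvd_lcm_left N p)

/-- `[Fbar_{lcm N p} : Fbar_N] ≠ 0`. -/
theorem relfinrank_bar_lcm_ne_zero (N p : ℕ) [NeZero N] [NeZero p] :
    relfinrank (modularFunctionFieldBar N) (modularFunctionFieldBar (Nat.lcm N p)) ≠ 0 :=
  relfinrank_bar_ne_zero (Nat.dvd_lcm_left N p)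

/-- `l = 3`, auxiliary level `2`: the degree (`1` or `3`) is prime to every `m` with `3 ∤ m`. -/
theorem coprime_relfinrank_bar_lcm_two (N m : ℕ) [NeZero N] (hm : ¬ 3 ∣ m) :
    Nat.Coprime (relfinrank (modularFunctionFieldBar N) (modularFunctionFieldBar (Nat.lcm N 2)))
      m := by
  rw [relfinrank_bar_lcm_prime N 2 Nat.prime_two]
  split_ifs
  · exact Nat.coprime_one_left m
  · exact (Nat.Prime.coprime_iff_not_dvd Nat.prime_three).mpr hm

/-- `l = 2`, auxiliary level `3`: the degree (`1` or `4`) is prime to every odd `m`. -/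
theorem coprime_relfinrank_bar_lcm_three (N m : ℕ) [NeZero N] (hm : ¬ 2 ∣ m) :
    Nat.Coprime (relfinrank (modularFunctionFieldBar N) (modularFunctionFieldBar (Nat.lcm N 3)))
      m := by
  rw [relfinrank_bar_lcm_prime N 3 Nat.prime_three]
  split_ifs
  · exact Nat.coprime_one_left m
  · have h2 : Nat.Coprime 2 m := (Nat.Prime.coprime_iff_not_dvd Nat.prime_two).mpr hm
    have : (3 + 1 : ℕ) = 2 ^ 2 := by norm_num
    rw [this]
    exact Nat.Coprime.pow_left 2 h2

/-- The auxiliary prime `M` of the S18 chain: `3` for `l = 2`, `2` for `l = 3`, and `1`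
(no auxiliary level) for `l ≥ 5`. -/
def auxM (l : ℕ) : ℕ := if l = 2 then 3 else if l = 3 then 2 else 1

theorem auxM_two : auxM 2 = 3 := rfl
theorem auxM_three : auxM 3 = 2 := rfl
theorem auxM_of_ne {l : ℕ} (h2 : l ≠ 2) (h3 : l ≠ 3) : auxM l = 1 := by
  unfold auxM; rw [if_neg h2, if_neg h3]

theorem auxM_ne_zero (l : ℕ) : auxM l ≠ 0 := by
  unfold auxM; split_ifs <;> norm_num

instance neZero_auxM (l : ℕ) : NeZero (auxM l) := ⟨auxM_ne_zero l⟩

/-- `l ∤ auxM l` -/
theorem not_dvd_auxM {l : ℕ} (hl : l.Prime) : ¬ l ∣ auxM l := by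
  unfold auxM
  split_ifs with h2 h3
  · subst h2; norm_num
  · subst h3; norm_num
  · exact fun h => hl.one_lt.ne' (Nat.dvd_one.mp h)

/-- The auxiliary level `N' = lcm N (auxM l)`; `l ∤ N'` when `l ∤ N`. -/
theorem not_dvd_lcm_auxM {l N : ℕ} (hl : l.Prime) (hN : ¬ l ∣ N) :
    ¬ l ∣ Nat.lcm N (auxM l) := by
  intro h
  have h1 : l ∣ N * auxM l := h.trans (Nat.lcm_dvd_mul N (auxM l))
  rcases (Nat.Prime.dvd_mul hl).mp h1 with h2 | h2
  · exact hN h2
  · exact not_dvd_auxM hl h2

/-- **(DEG, packaged)** for a prime `l` and `m` prime to `l`: the degree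
`[Fbar_{N'} : Fbar_N]`, `N' = lcm N (auxM l)`, is nonzero and prime to `m`.
These are literally `h12`, `hfin`, `hcop` of `H76.exists_mem_pow_eq_of_coprime_relfinrank`. -/
theorem coprime_relfinrank_bar_aux (N l m : ℕ) [NeZero N] (hl : l.Prime) (hm : ¬ l ∣ m) :
    modularFunctionFieldBar N ≤ modularFunctionFieldBar (Nat.lcm N (auxM l)) ∧
    relfinrank (modularFunctionFieldBar N) (modularFunctionFieldBar (Nat.lcm N (auxM l))) ≠ 0 ∧
    Nat.Coprime
      (relfinrank (modularFunctionFieldBar N) (modularFunctionFieldBar (Nat.lcm N (auxM l)))) m := by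
  refine ⟨bar_le_lcm N (auxM l), relfinrank_bar_lcm_ne_zero N (auxM l), ?_⟩
  by_cases h2 : l = 2
  · subst h2
    exact coprime_relfinrank_bar_lcm_three N m hm
  · by_cases h3 : l = 3
    · subst h3
      exact coprime_relfinrank_bar_lcm_two N m hm
    · have h1 : Nat.lcm N (auxM l) = N := by rw [auxM_of_ne h2 h3, Nat.lcm_one_right]
      have h4 : relfinrank (modularFunctionFieldBar N)
          (modularFunctionFieldBar (Nat.lcm N (auxM l))) = 1 := by
        rw [relfinrank_eq_one_iff]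
        exact le_of_eq (by rw [h1])
      rw [h4]
      exact Nat.coprime_one_left m

end Fermat.Agent.S18.H16
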