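import Mathlib
import Fermat.Agent.S18.BridgeClosed_helper2
import Fermat.Agent.S18.Deg_helper16
import Fermat.Agent.S18.PlaceRestrict_helper74

/-!
# S18, arrow T2 (helper60): norm descent in the frozen vocabulary

`KumPow A L m` is the Kummer statement at level `L` in `m`-th POWER form: for Gauss-integral
`Y1, Y2` with equal nonzero reductions, if `m` divides the order of `ι Y1 / ι Y2` at every place
of `Fbar_L`, then `ι Y1 / ι Y2` is an `m`-th power in `Fbar_L`.

* `kumPow_of_dvd` : `KumPow A N' m → KumPow A N m` for `N ∣ N'` with `[Fbar_N' : Fbar_N]` prime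
  to `m` (places go up, norms come down);
* `s18_of_kumPow` : the frozen conclusion of S18 at level `N` from `KumPow A N m`;
* `s18_of_kumPow_aux` : the frozen conclusion of S18 from `KumPow` at the auxiliary level
  `lcm N (auxM ℓ)`.
-/

set_option autoImplicit false
set_option synthInstance.maxHeartbeats 400000

open ModularCurve AlgebraicCurve IntermediateField

namespace Fermat.Agent.S18.H60

noncomputable section

variable (A : ValuationSubring (AlgebraicClosure ℚ))

/-- **(KUMPOW)** at level `L`, `m`-th power form. -/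
def KumPow (L : ℕ) [NeZero L] (m : ℕ) : Prop :=
  ∀ (Y1 Y2 : LaurentSeries A) (h1 : Y1 ∈ H18.gaussRing A L) (h2 : Y2 ∈ H18.gaussRing A L),
    coeffMap (IsLocalRing.residue A) Y1 ≠ 0 →
    coeffMap (IsLocalRing.residue A) Y1 = coeffMap (IsLocalRing.residue A) Y2 →
    (∀ P : Place (AlgebraicClosure ℚ) (modularFunctionFieldBar L),
      (m : ℤ) ∣ P.ord ((⟨coeffMap A.subtype Y1, h1.1⟩ : modularFunctionFieldBar L) /
        (⟨coeffMap A.subtype Y2, h2.1⟩ : modularFunctionFieldBar L))) →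
    ∃ w : LaurentSeries (AlgebraicClosure ℚ), w ∈ modularFunctionFieldBar L ∧
      w ^ m * coeffMap A.subtype Y2 = coeffMap A.subtype Y1

/-- the Gauss ring grows with the level. -/
theorem gaussRing_mono {N N' : ℕ} [NeZero N] [NeZero N'] (h : N ∣ N') :
    H18.gaussRing A N ≤ H18.gaussRing A N' := by
  intro Y hY
  rw [H18.mem_gaussRing] at hY ⊢
  exact ⟨H16.bar_mono h hY.1, full_degeneracyC_le _ h hY.2⟩

/-- **Norm descent arrow.** `KumPow` descends along `Fbar_N ≤ Fbar_N'` when the degree is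
prime to `m`. -/
theorem kumPow_of_dvd {N N' : ℕ} [NeZero N] [NeZero N'] (hNN' : N ∣ N') {m : ℕ}
    (hcop : Nat.Coprime
      (relfinrank (modularFunctionFieldBar N) (modularFunctionFieldBar N')) m)
    (kum : KumPow A N' m) : KumPow A N m := by
  intro Y1 Y2 h1 h2 hne heq hdvd
  have hle : modularFunctionFieldBar N ≤ modularFunctionFieldBar N' := H16.bar_mono hNN'
  have hfin : relfinrank (modularFunctionFieldBar N) (modularFunctionFieldBar N') ≠ 0 :=
    H16.relfinrank_bar_ne_zero hNN'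
  let _ : Algebra (modularFunctionFieldBar N) (modularFunctionFieldBar N') :=
    (IntermediateField.inclusion hle).toRingHom.toAlgebra
  have : IsScalarTower (AlgebraicClosure ℚ) (modularFunctionFieldBar N)
      (modularFunctionFieldBar N') :=
    IsScalarTower.of_algebraMap_eq (fun _ => rfl)
  have hrank : Module.finrank (modularFunctionFieldBar N) (modularFunctionFieldBar N') =
      relfinrank (modularFunctionFieldBar N) (modularFunctionFieldBar N') := by
    rw [IntermediateField.relfinrank_eq_finrank_of_le hle]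
    rfl
  have : FiniteDimensional (modularFunctionFieldBar N) (modularFunctionFieldBar N') := by
    apply Module.finite_of_finrank_pos
    rw [hrank]
    exact Nat.pos_of_ne_zero hfin
  have hY2 : coeffMap A.subtype Y2 ≠ 0 := H18.coeffMap_subtype_ne_zero A (heq ▸ hne)
  -- the quotient at level `N`
  set u : modularFunctionFieldBar N :=
    (⟨coeffMap A.subtype Y1, h1.1⟩ : modularFunctionFieldBar N) /
      (⟨coeffMap A.subtype Y2, h2.1⟩ : modularFunctionFieldBar N) with hu
  have hu' : (algebraMap (modularFunctionFieldBar N) (modularFunctionFieldBar N') u) =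
      (⟨coeffMap A.subtype Y1, (gaussRing_mono A hNN' h1).1⟩ : modularFunctionFieldBar N') /
        (⟨coeffMap A.subtype Y2, (gaussRing_mono A hNN' h2).1⟩ : modularFunctionFieldBar N') := by
    rw [hu, map_div₀]
    rfl
  obtain ⟨w, hw, hwm⟩ := kum Y1 Y2 (gaussRing_mono A hNN' h1) (gaussRing_mono A hNN' h2) hne heq
    (fun P' => by
      rw [← hu']
      exact H74.dvd_ord_algebraMap_of_forall (m : ℤ) u hdvd P')
  -- norm descent
  have hpow : (⟨w, hw⟩ : modularFunctionFieldBar N') ^ m =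
      algebraMap (modularFunctionFieldBar N) (modularFunctionFieldBar N') u := by
    rw [hu', eq_div_iff (fun h0 => hY2 (congrArg Subtype.val h0))]
    exact Subtype.ext hwm
  obtain ⟨w0, hw0⟩ := H74.exists_pow_eq_of_coprime_finrank m (hrank ▸ hcop) u ⟨_, hpow⟩
  refine ⟨w0.1, w0.2, ?_⟩
  have h3 : w0 ^ m * (⟨coeffMap A.subtype Y2, h2.1⟩ : modularFunctionFieldBar N) =
      ⟨coeffMap A.subtype Y1, h1.1⟩ := by
    rw [hw0, hu, div_mul_cancel₀ _ (fun h0 => hY2 (congrArg Subtype.val h0))]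
  exact congrArg Subtype.val h3

variable {A}

/-- **S18 from `KumPow` at the same level.** -/
theorem s18_of_kumPow {N : ℕ} [NeZero N] (h : ReductionInputsModL A N) (m : ℕ) (hm0 : m ≠ 0)
    (z : JZero N) (hmz : m • z = 0) (hz : reductionModL A N z = 0) (kum : KumPow A N m) :
    z = 0 := by
  refine H2.s18_of_kum_div h m hm0 z hmz hz ?_
  intro Y1 Y2 h1 h2 hne heq hdvd
  obtain ⟨w, hw, hwm⟩ := kum Y1 Y2 h1 h2 hne heq hdvd
  have hY1 : coeffMap A.subtype Y1 ≠ 0 := H18.coeffMap_subtype_ne_zero A hne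
  have hY2 : coeffMap A.subtype Y2 ≠ 0 := H18.coeffMap_subtype_ne_zero A (heq ▸ hne)
  have hw0 : (⟨w, hw⟩ : modularFunctionFieldBar N) ≠ 0 := by
    intro h0
    have h1' : w = 0 := congrArg Subtype.val h0
    rw [h1', zero_pow hm0, zero_mul] at hwm
    exact hY1 hwm.symm
  have hq : (⟨coeffMap A.subtype Y1, h1.1⟩ : modularFunctionFieldBar N) /
      (⟨coeffMap A.subtype Y2, h2.1⟩ : modularFunctionFieldBar N) =
        (⟨w, hw⟩ : modularFunctionFieldBar N) ^ m := by
    rw [div_eq_iff (fun h0 => hY2 (congrArg Subtype.val h0))]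
    exact Subtype.ext hwm.symm
  refine ⟨⟨w, hw⟩, hw0, fun P => ?_⟩
  rw [hq, H18.ord_pow]

/-- **S18 from `KumPow` at the auxiliary level** `N' = lcm N (auxM ℓ)` (`auxM ℓ = 3, 2, 1` for
`ℓ = 2`, `ℓ = 3`, `ℓ ≥ 5`). -/
theorem s18_of_kumPow_aux {N : ℕ} [NeZero N] {ℓ : ℕ} [Fact ℓ.Prime]
    (h : ReductionInputsModL A N) (m : ℕ) (hm : ¬ ℓ ∣ m)
    (z : JZero N) (hmz : m • z = 0) (hz : reductionModL A N z = 0)
    (kum : KumPow A (Nat.lcm N (H16.auxM ℓ)) m) : z = 0 := by
  have hm0 : m ≠ 0 := by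
    rintro rfl
    exact hm (dvd_zero ℓ)
  obtain ⟨-, -, hcop⟩ := H16.coprime_relfinrank_bar_aux N ℓ m (Fact.out : ℓ.Prime) hm
  exact s18_of_kumPow h m hm0 z hmz hz
    (kumPow_of_dvd A (Nat.dvd_lcm_left N (H16.auxM ℓ)) hcop kum)

/-- **(KUMPOW), all data**: the level-`L` Kummer statement for every level `L` prime to `ℓ` and
divisible by the auxiliary level `auxM ℓ`. -/
def KumPowStmt : Prop :=
  ∀ (L : ℕ) [NeZero L] (ℓ : ℕ) [Fact ℓ.Prime], ¬ ℓ ∣ L → H16.auxM ℓ ∣ L →
    ∀ A : ValuationSubring (AlgebraicClosure ℚ), A.LiesOverPrime ℓ →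
      ∀ m : ℕ, ¬ ℓ ∣ m → KumPow A L m

/-- **The frozen statement S18 from `KumPowStmt`** (literal frozen signature). -/
theorem result_of_kumPowStmt (hK : KumPowStmt) (N : ℕ) [NeZero N] {ℓ : ℕ}
    [Fact ℓ.Prime] (hℓN : ¬ ℓ ∣ N) (A : ValuationSubring (AlgebraicClosure ℚ))
    (hA : A.LiesOverPrime ℓ)
    (h : ModularCurve.ReductionInputsModL A N) (m : ℕ) (hm : ¬ ℓ ∣ m) (z : ModularCurve.JZero N)
    (hmz : m • z = 0) (hz : ModularCurve.reductionModL A N z = 0) :
    z = 0 :=
  s18_of_kumPow_aux h m hm z hmz hz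
    (hK (Nat.lcm N (H16.auxM ℓ)) ℓ (H16.not_dvd_lcm_auxM (Fact.out : ℓ.Prime) hℓN)
      (Nat.dvd_lcm_right N (H16.auxM ℓ)) A hA m hm)

end

end Fermat.Agent.S18.H60
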