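import Mathlib
import Fermat.Agent.S18.NormArrow_helper60
import Fermat.Agent.S18.Desc_helper61
import Fermat.Agent.S18.PlaceModel_helper74

/-!
# S18, arrow T3 (helper60): from the number-field model to `KumPow`

`ModelKum A K0 L m` is the Kummer statement over the number field `K0` (with the DVR
`A0 = A ∩ K0`) at level `L`: for `A0`-integral `Z1, Z2` with generic fibres in the `K0`-model
`modularFunctionFieldFullC K0 L` and equal nonzero reductions, if `m` divides the order of
`Z1 / Z2` at every place of `Fbar_L`, then `Z1 = b * s ^ m * Z2` with `s` in the `K0`-model and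
`b` algebraic over `K0` (a constant).

* `kumPow_of_modelKum` : `ModelKum` for all large number fields `K0` gives `KumPow A L m`.
* `result_of_modelKum` : the frozen statement S18 (literal signature) from `ModelKum` at the
  auxiliary levels.
-/

set_option autoImplicit false
set_option synthInstance.maxHeartbeats 400000

open ModularCurve AlgebraicCurve IntermediateField

namespace Fermat.Agent.S18.H60

noncomputable section

/-- **(MODEL-KUM)** over the number field `K0` at level `L`. -/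
def ModelKum (A : ValuationSubring (AlgebraicClosure ℚ))
    (K0 : IntermediateField ℚ (AlgebraicClosure ℚ)) (L : ℕ) [NeZero L] (m : ℕ) : Prop :=
  ∀ (Z1 Z2 : LaurentSeries ↥(H61.A0 A K0))
    (h1 : coeffMap (H61.A0 A K0).subtype Z1 ∈ modularFunctionFieldFullC K0 L)
    (h2 : coeffMap (H61.A0 A K0).subtype Z2 ∈ modularFunctionFieldFullC K0 L),
    coeffMap (IsLocalRing.residue ↥(H61.A0 A K0)) Z1 ≠ 0 →
    coeffMap (IsLocalRing.residue ↥(H61.A0 A K0)) Z1 =
      coeffMap (IsLocalRing.residue ↥(H61.A0 A K0)) Z2 →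
    (∀ P : Place (AlgebraicClosure ℚ) (modularFunctionFieldBar L),
      (m : ℤ) ∣ P.ord (H74.toBar K0 L
        ((⟨_, h1⟩ : modularFunctionFieldFullC K0 L) / ⟨_, h2⟩))) →
    ∃ b s : LaurentSeries K0, s ∈ modularFunctionFieldFullC K0 L ∧ IsAlgebraic K0 b ∧
      coeffMap (H61.A0 A K0).subtype Z1 = b * s ^ m * coeffMap (H61.A0 A K0).subtype Z2

/-- **Arrow T3.** The model statement over all sufficiently large number fields gives `KumPow`. -/
theorem kumPow_of_modelKum (A : ValuationSubring (AlgebraicClosure ℚ)) (L : ℕ) [NeZero L]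
    (m : ℕ) (hm : 0 < m) (C : Finset (AlgebraicClosure ℚ))
    (h : ∀ K0 : IntermediateField ℚ (AlgebraicClosure ℚ), FiniteDimensional ℚ K0 →
      (∀ c ∈ C, c ∈ K0) → ModelKum A K0 L m) :
    KumPow A L m := by
  intro Y1 Y2 h1 h2 hne heq hdvd
  obtain ⟨K0, hfin, hC, Z1, Z2, hZ1, hZ2, e1, e2, hred, hne0⟩ :=
    H61.exists_descent_pair A L Y1 Y2 h1.1 h2.1 C
  have hY2 : coeffMap A.subtype Y2 ≠ 0 := H18.coeffMap_subtype_ne_zero A (heq ▸ hne)
  have hZ2ne : coeffMap (H61.A0 A K0).subtype Z2 ≠ 0 := by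
    intro h0
    apply hY2
    rw [← e2, H61.subtype_incl, h0, map_zero]
  have htb : H74.toBar K0 L ((⟨_, hZ1⟩ : modularFunctionFieldFullC K0 L) / ⟨_, hZ2⟩) =
      (⟨coeffMap A.subtype Y1, h1.1⟩ : modularFunctionFieldBar L) /
        (⟨coeffMap A.subtype Y2, h2.1⟩ : modularFunctionFieldBar L) := by
    rw [map_div₀]
    congr 1
    · apply Subtype.ext
      show coeffMap (algebraMap K0 (AlgebraicClosure ℚ)) (coeffMap (H61.A0 A K0).subtype Z1) =
        coeffMap A.subtype Y1
      rw [← H61.subtype_incl, e1]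
    · apply Subtype.ext
      show coeffMap (algebraMap K0 (AlgebraicClosure ℚ)) (coeffMap (H61.A0 A K0).subtype Z2) =
        coeffMap A.subtype Y2
      rw [← H61.subtype_incl, e2]
  obtain ⟨b, s, hs, hb, hrel⟩ := h K0 hfin hC Z1 Z2 hZ1 hZ2 (hne0 hne) (hred heq)
    (fun P => by rw [htb]; exact hdvd P)
  obtain ⟨w, hw, hwm⟩ := H61.exists_pow_eq_bar hm hs hb
    (u0 := coeffMap (H61.A0 A K0).subtype Z1 / coeffMap (H61.A0 A K0).subtype Z2)
    (by rw [hrel, mul_div_assoc, div_self hZ2ne, mul_one])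
  refine ⟨w, hw, ?_⟩
  rw [← hwm, ← H61.subtype_incl_div, e1, e2, div_mul_cancel₀ _ hY2]

/-- **(MODEL-KUM), all data**: for every level `L` prime to `ℓ` and divisible by `auxM ℓ`, every
`A` over `ℓ` and every `m` prime to `ℓ`, the model statement holds over all number fields
containing some finite set of constants. -/
def ModelKumStmt : Prop :=
  ∀ (L : ℕ) [NeZero L] (ℓ : ℕ) [Fact ℓ.Prime], ¬ ℓ ∣ L → H16.auxM ℓ ∣ L →
    ∀ A : ValuationSubring (AlgebraicClosure ℚ), A.LiesOverPrime ℓ →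
      ∀ m : ℕ, ¬ ℓ ∣ m → ∃ C : Finset (AlgebraicClosure ℚ),
        ∀ K0 : IntermediateField ℚ (AlgebraicClosure ℚ), FiniteDimensional ℚ K0 →
          (∀ c ∈ C, c ∈ K0) → ModelKum A K0 L m

theorem kumPowStmt_of_modelKumStmt (hM : ModelKumStmt) : KumPowStmt := by
  intro L _ ℓ _ hℓL haux A hA m hm
  have hm0 : 0 < m := Nat.pos_of_ne_zero (by rintro rfl; exact hm (dvd_zero ℓ))
  obtain ⟨C, hC⟩ := hM L ℓ hℓL haux A hA m hm
  exact kumPow_of_modelKum A L m hm0 C hC

/-- **The frozen statement S18 from `ModelKumStmt`** (literal frozen signature). -/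
theorem result_of_modelKumStmt (hM : ModelKumStmt) (N : ℕ) [NeZero N] {ℓ : ℕ}
    [Fact ℓ.Prime] (hℓN : ¬ ℓ ∣ N) (A : ValuationSubring (AlgebraicClosure ℚ))
    (hA : A.LiesOverPrime ℓ)
    (h : ModularCurve.ReductionInputsModL A N) (m : ℕ) (hm : ¬ ℓ ∣ m) (z : ModularCurve.JZero N)
    (hmz : m • z = 0) (hz : ModularCurve.reductionModL A N z = 0) :
    z = 0 :=
  result_of_kumPowStmt (kumPowStmt_of_modelKumStmt hM) N hℓN A hA h m hm z hmz hz

end

end Fermat.Agent.S18.H60
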