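import Mathlib

/-!
# S18 node (NOPOLE): an element regular on both charts is constant

* `isIntegral_of_adjoin_of_adjoin_inv` : for a commutative ring `A`, a field `F` that is an
  `A`-algebra and `x γ : F`: if `γ` is integral over `A[x]` and over `A[x⁻¹]` then `γ` is integral
  over `A`.  (Every valuation subring of `F` containing the image of `A` contains `x` or `x⁻¹`,
  hence `γ`; the intersection of those valuation subrings is the integral closure of `A`.)
  No transcendence, finiteness or characteristic hypothesis.
* `exists_eq_C_of_isIntegral` : a Laurent series over a field `K` that is integral (equivalently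
  algebraic) over `K` is a constant.
* `nopole` : the combination, for an intermediate field `F0` of `K((q))`.
-/

namespace Fermat.Agent.S18.H32

open Polynomial

section Generic

variable {A F : Type*} [CommRing A] [Field F] [Algebra A F]

/-- a valuation subring containing the image of `A` and `y` contains everything integral over
`A[y]`. -/
theorem mem_valSub_of_isIntegral_adjoin (V : ValuationSubring F)
    (hV : ∀ a : A, algebraMap A F a ∈ V) (y : F) (hy : y ∈ V) (g : F)
    (hg : IsIntegral ↥(Algebra.adjoin A {y}) g) : g ∈ V := by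
  have hle : ∀ a ∈ Algebra.adjoin A {y}, a ∈ V := by
    let S : Subalgebra A F := { V.toSubring with algebraMap_mem' := hV }
    have hle : Algebra.adjoin A {y} ≤ S := Algebra.adjoin_le (by
      intro z hz
      rw [Set.mem_singleton_iff] at hz
      rw [hz]
      exact hy)
    exact fun a ha => hle ha
  obtain ⟨P, hP, hPg⟩ := hg
  let incl : ↥(Algebra.adjoin A {y}) →+* V :=
    (algebraMap ↥(Algebra.adjoin A {y}) F).codRestrict V.toSubring (fun a => hle a a.2)
  have hint : IsIntegral V g := by
    refine ⟨P.map incl, hP.map _, ?_⟩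
    rw [Polynomial.eval₂_map]
    exact hPg
  obtain ⟨c, hc⟩ := (IsIntegrallyClosed.isIntegral_iff (R := V) (K := F)).mp hint
  rw [← hc]
  exact c.2

/-- **(N1)** integral over `A[x]` and over `A[x⁻¹]` implies integral over `A`. -/
theorem isIntegral_of_adjoin_of_adjoin_inv (x γ : F)
    (h1 : IsIntegral ↥(Algebra.adjoin A {x}) γ)
    (h2 : IsIntegral ↥(Algebra.adjoin A {x⁻¹}) γ) : IsIntegral A γ := by
  have key : ∀ V : ValuationSubring F, Set.range (algebraMap A F) ⊆ V.toSubring → γ ∈ V := by
    intro V hV
    have hV' : ∀ a : A, algebraMap A F a ∈ V := fun a => hV ⟨a, rfl⟩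
    rcases V.mem_or_inv_mem x with hx | hx
    · exact mem_valSub_of_isIntegral_adjoin V hV' x hx γ h1
    · exact mem_valSub_of_isIntegral_adjoin V hV' x⁻¹ hx γ h2
  have hmem : γ ∈ (⨅ V : {V : ValuationSubring F // Set.range (algebraMap A F) ⊆ V.toSubring},
      V.1.toSubring) := by
    rw [Subring.mem_iInf]
    rintro ⟨V, hV⟩
    exact key V hV
  rw [iInf_valuationSubring_superset] at hmem
  have hint : IsIntegral ↥(Subring.closure (Set.range (algebraMap A F))) γ := hmem
  obtain ⟨P, hP, hPγ⟩ := hint
  -- the closure of the range is the range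
  have hcl : Subring.closure (Set.range (algebraMap A F)) = (algebraMap A F).range := by
    rw [← RingHom.coe_range, Subring.closure_eq]
  -- lift the monic polynomial along the surjection `A → range`
  have hsurj : Function.Surjective
      ((algebraMap A F).codRestrict (Subring.closure (Set.range (algebraMap A F)))
        (fun a => Subring.subset_closure ⟨a, rfl⟩)) := by
    rintro ⟨b, hb⟩
    rw [hcl] at hb
    obtain ⟨a, rfl⟩ := hb
    exact ⟨a, rfl⟩
  obtain ⟨Q, hQ, -, hQm⟩ := Polynomial.lifts_and_degree_eq_and_monic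
    ((Polynomial.mem_lifts _).mpr (Polynomial.map_surjective _ hsurj P)) hP
  refine ⟨Q, hQm, ?_⟩
  have : eval₂ (algebraMap A F) γ Q
      = eval₂ (algebraMap ↥(Subring.closure (Set.range (algebraMap A F))) F) γ
          (Q.map ((algebraMap A F).codRestrict (Subring.closure (Set.range (algebraMap A F)))
        (fun a => Subring.subset_closure ⟨a, rfl⟩))) := by
    rw [Polynomial.eval₂_map]
    rfl
  rw [this, hQ]
  exact hPγ

end Generic

section Laurent

variable {K : Type*} [Field K]

/-- the structure map `K → K((q))` is the coercion of constant power series. -/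
theorem algebraMap_laurent_eq (a : K) :
    algebraMap K (LaurentSeries K) a = ((PowerSeries.C a : PowerSeries K) : LaurentSeries K) :=
  rfl

/-- a Laurent series integral over the constants is a power series. -/
theorem exists_powerSeries_of_isIntegral (f : LaurentSeries K) (hf : IsIntegral K f) :
    ∃ G : PowerSeries K, (G : LaurentSeries K) = f := by
  rw [← LaurentSeries.val_le_one_iff_eq_coe]
  let O : ValuationSubring (LaurentSeries K) :=
    (Valued.v : Valuation (LaurentSeries K) (WithZero (Multiplicative ℤ))).valuationSubring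
  have hO : ∀ a : K, algebraMap K (LaurentSeries K) a ∈ O := by
    intro a
    show Valued.v (algebraMap K (LaurentSeries K) a) ≤ 1
    rw [LaurentSeries.val_le_one_iff_eq_coe]
    exact ⟨PowerSeries.C a, (algebraMap_laurent_eq a).symm⟩
  obtain ⟨P, hP, hPf⟩ := hf
  let incl : K →+* O := (algebraMap K (LaurentSeries K)).codRestrict O.toSubring hO
  have hint : IsIntegral O f := by
    refine ⟨P.map incl, hP.map _, ?_⟩
    rw [Polynomial.eval₂_map]
    exact hPf
  obtain ⟨c, hc⟩ := (IsIntegrallyClosed.isIntegral_iff (R := O) (K := LaurentSeries K)).mp hint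
  have hc2 : f ∈ O := by
    rw [← hc]
    exact c.2
  exact hc2

/-- **(N2)** `K` is algebraically closed in `K((q))`: a Laurent series integral over `K` is a
constant. -/
theorem exists_eq_algebraMap_of_isIntegral (f : LaurentSeries K) (hf : IsIntegral K f) :
    ∃ c : K, f = algebraMap K (LaurentSeries K) c := by
  obtain ⟨G, hG⟩ := exists_powerSeries_of_isIntegral f hf
  refine ⟨PowerSeries.constantCoeff G, ?_⟩
  by_contra hne
  set g : LaurentSeries K := f - algebraMap K (LaurentSeries K) (PowerSeries.constantCoeff G)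
    with hg
  have hg0 : g ≠ 0 := fun h => hne (sub_eq_zero.mp h)
  have hgint : IsIntegral K g := hf.sub isIntegral_algebraMap
  have hginv : IsIntegral K g⁻¹ := hgint.inv
  obtain ⟨H, hH⟩ := exists_powerSeries_of_isIntegral g⁻¹ hginv
  have hgG : ((G - PowerSeries.C (PowerSeries.constantCoeff G) : PowerSeries K) :
      LaurentSeries K) = g := by
    rw [hg, ← hG, algebraMap_laurent_eq]
    push_cast
    rfl
  have h1 : (((G - PowerSeries.C (PowerSeries.constantCoeff G)) * H : PowerSeries K) :
      LaurentSeries K) = ((1 : PowerSeries K) : LaurentSeries K) := by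
    push_cast
    rw [hH]
    have := hgG
    push_cast at this
    rw [this, mul_inv_cancel₀ hg0]
  have h2 : (G - PowerSeries.C (PowerSeries.constantCoeff G)) * H = 1 :=
    HahnSeries.ofPowerSeries_injective h1
  have h3 := congrArg PowerSeries.constantCoeff h2
  simp at h3

/-- the `IsAlgebraic` form of (N2). -/
theorem exists_eq_algebraMap_of_isAlgebraic (f : LaurentSeries K) (hf : IsAlgebraic K f) :
    ∃ c : K, f = algebraMap K (LaurentSeries K) c :=
  exists_eq_algebraMap_of_isIntegral f hf.isIntegral

/-- **(N3) = (NOPOLE)**: in an intermediate field `F0` of `K((q))`, an element integral over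
`A[ξ]` and over `A[ξ⁻¹]` is a constant `c : K`, and `c` is integral over `A`.
(`IsScalarTower A K ↥F0` can be produced by `IsScalarTower.of_algebraMap_eq`.) -/
theorem nopole {A : Type*} [CommRing A] [Algebra A K]
    (F0 : IntermediateField K (LaurentSeries K)) [Algebra A ↥F0] [IsScalarTower A K ↥F0]
    (ξ γ : ↥F0) (h1 : IsIntegral ↥(Algebra.adjoin A {ξ}) γ)
    (h2 : IsIntegral ↥(Algebra.adjoin A {ξ⁻¹}) γ) :
    ∃ c : K, IsIntegral A c ∧ γ = algebraMap K ↥F0 c := by
  have h : IsIntegral A γ := isIntegral_of_adjoin_of_adjoin_inv ξ γ h1 h2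
  have hK : IsIntegral K γ := h.tower_top
  have hK' : IsIntegral K (γ : LaurentSeries K) :=
    (isIntegral_algebraMap_iff (algebraMap ↥F0 (LaurentSeries K)).injective).mpr hK
  obtain ⟨c, hc⟩ := exists_eq_algebraMap_of_isIntegral _ hK'
  have hγ : γ = algebraMap K ↥F0 c := Subtype.ext hc
  refine ⟨c, ?_, hγ⟩
  rw [hγ] at h
  exact (isIntegral_algebraMap_iff (algebraMap K ↥F0).injective).mp h

/-- (NOPOLE) over a field of constants only (`A = K`). -/
theorem nopole_field (F0 : IntermediateField K (LaurentSeries K))
    (ξ γ : ↥F0) (h1 : IsIntegral ↥(Algebra.adjoin K {ξ}) γ)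
    (h2 : IsIntegral ↥(Algebra.adjoin K {ξ⁻¹}) γ) :
    ∃ c : K, γ = algebraMap K ↥F0 c := by
  obtain ⟨c, -, hc⟩ := nopole (A := K) F0 ξ γ h1 h2
  exact ⟨c, hc⟩

/-- (NOPOLE) for a valuation subring `A0` of the constant field: the constant lies in `A0`. -/
theorem nopole_valuationSubring (A0 : ValuationSubring K)
    (F0 : IntermediateField K (LaurentSeries K)) (ξ γ : ↥F0)
    (h1 : IsIntegral ↥(Algebra.adjoin ↥A0 {ξ}) γ)
    (h2 : IsIntegral ↥(Algebra.adjoin ↥A0 {ξ⁻¹}) γ) :
    ∃ c : K, c ∈ A0 ∧ γ = algebraMap K ↥F0 c := by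
  obtain ⟨c, hc, h⟩ := nopole F0 ξ γ h1 h2
  obtain ⟨c', hc'⟩ := (IsIntegrallyClosed.isIntegral_iff (R := A0) (K := K)).mp hc
  exact ⟨c, by rw [← hc']; exact c'.2, h⟩

end Laurent

end Fermat.Agent.S18.H32
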