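import Mathlib
import Fermat.Agent.S18.ModelArrow_helper60
import Fermat.Agent.S18.KCCharts_helper97
import Fermat.Agent.S18.KC_helper8
import Fermat.Agent.S18.GaussDVR_helper93
import Fermat.Agent.S18.DvrK0_helper86
import Fermat.Agent.S18.HdivAdapt_helper40
import Fermat.Agent.S18.ConstExtModel_helper39
import Fermat.Agent.S18.NoPole_helper32

/-!
# S18, TOP (second seat, helper19): the chart-generic end-to-end arrow

`modelKum_core`: over a field `K0 ⊆ ℚ̄` with a discrete valuation subring `A0` of residue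
characteristic `ℓ ∤ L`, for a chart coordinate `ξ = ι xA` (an `A0`-integral series with
`A0`-integral inverse, `j ∈ K0(ξ)`, transcendental reduction), the Kummer statement at level `L`
follows from the generic Kummer core at the two integral-closure charts of `ξ`, with the Gauss
valuation ring of `H93` as `V`.  The only hypotheses left are the finiteness of the model over
`K0(ξ)` and the regularity `(REG)` of the two special fibres.

`modelKum_of_chart`: the same in the literal shape `H60.ModelKum A K0 L m`.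
-/

set_option autoImplicit false

open ModularCurve AlgebraicCurve IntermediateField Polynomial

namespace Fermat.Agent.S18.H19

noncomputable section

/-! ### integrality over `A[x]`: subalgebra form and ring-hom form -/

/-- Integrality over the subalgebra `A[x]` is integrality along `aeval x : A[X] → F`. -/
theorem isIntegral_adjoin_iff_isIntegralElem {A F : Type*} [CommRing A] [CommRing F]
    [Algebra A F] (x y : F) :
    IsIntegral (Algebra.adjoin A {x}) y ↔
      ((Polynomial.aeval (R := A) x : A[X] →ₐ[A] F) : A[X] →+* F).IsIntegralElem y := by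
  have hmem : ∀ p : A[X], Polynomial.aeval x p ∈ Algebra.adjoin A {x} := by
    intro p
    rw [Algebra.adjoin_singleton_eq_range_aeval]
    exact ⟨p, rfl⟩
  let g : A[X] →+* ↥(Algebra.adjoin A {x}) :=
    ((Polynomial.aeval (R := A) x : A[X] →ₐ[A] F) : A[X] →+* F).codRestrict
      (Algebra.adjoin A {x}).toSubring hmem
  have hsurj : Function.Surjective g := by
    rintro ⟨s, hs⟩
    rw [Algebra.adjoin_singleton_eq_range_aeval] at hs
    obtain ⟨p, rfl⟩ := hs
    exact ⟨p, rfl⟩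
  have hcomp : (algebraMap ↥(Algebra.adjoin A {x}) F).comp g =
      ((Polynomial.aeval (R := A) x : A[X] →ₐ[A] F) : A[X] →+* F) := rfl
  constructor
  · rintro ⟨p, hp, hpy⟩
    obtain ⟨q, hq, -, hqm⟩ := Polynomial.lifts_and_natDegree_eq_and_monic
      ((Polynomial.mem_lifts _).mpr (Polynomial.map_surjective g hsurj p)) hp
    refine ⟨q, hqm, ?_⟩
    rw [← hcomp, ← Polynomial.eval₂_map, hq]
    exact hpy
  · rintro ⟨q, hq, hqy⟩
    refine ⟨q.map g, hq.map _, ?_⟩
    rw [Polynomial.eval₂_map, hcomp]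
    exact hqy

section Chart

variable {K0 : Type} [Field K0] (A0 : ValuationSubring K0)
  (F0 : IntermediateField K0 (LaurentSeries K0))

/-- The chart homomorphism of `H93` is `aeval`. -/
theorem chartHom_eq_aeval' (x : F0) :
    H93.chartHom A0 x = ((Polynomial.aeval (R := ↥A0) x : (↥A0)[X] →ₐ[↥A0] ↥F0) :
      (↥A0)[X] →+* ↥F0) := by
  refine RingHom.ext fun p => ?_
  show Polynomial.eval₂ (H93.constHom A0 F0) x p = Polynomial.eval₂ (algebraMap ↥A0 ↥F0) x p
  rfl

/-- Membership in the integral-closure chart, ring-hom form. -/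
theorem mem_chartU_iff_isIntegralElem (x y : F0) :
    y ∈ H97.chartU (↥A0) x ↔ (H93.chartHom A0 x).IsIntegralElem y := by
  rw [H97.mem_chartU, isIntegral_adjoin_iff_isIntegralElem, chartHom_eq_aeval']

end Chart

/-! ### transcendence and finiteness over `K(ξ)` from `j ∈ K(ξ)` -/

section Adjoin

variable {K F : Type*} [Field K] [Field F] [Algebra K F]

/-- if `j ∈ K(t)` is transcendental then so is `t` -/
theorem transcendental_of_mem_adjoin_simple {j t : F} (hj : Transcendental K j)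
    (hmem : j ∈ K⟮t⟯) : Transcendental K t := by
  intro ht
  apply hj
  have : Algebra.IsAlgebraic K K⟮t⟯ := isAlgebraic_adjoin_simple ht.isIntegral
  have h1 : IsAlgebraic K (⟨j, hmem⟩ : K⟮t⟯) := Algebra.IsAlgebraic.isAlgebraic _
  exact (IntermediateField.isAlgebraic_iff (S := K⟮t⟯) (x := ⟨j, hmem⟩)).mp h1

/-- if `j ∈ K(t)` and `F` is finite over `K(j)` then `F` is finite over `K(t)` -/
theorem finite_of_mem_adjoin_simple {j t : F} (hmem : j ∈ K⟮t⟯)
    (hfin : FiniteDimensional K⟮j⟯ F) : FiniteDimensional K⟮t⟯ F := by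
  have hle : K⟮j⟯ ≤ K⟮t⟯ := adjoin_simple_le_iff.mpr hmem
  let _ : Algebra K⟮j⟯ K⟮t⟯ := (IntermediateField.inclusion hle).toRingHom.toAlgebra
  have : IsScalarTower K⟮j⟯ K⟮t⟯ F := IsScalarTower.of_algebraMap_eq (fun _ => rfl)
  exact FiniteDimensional.right K⟮j⟯ K⟮t⟯ F

/-- the inverse of an algebraically independent series is algebraically independent
(`evC` form of `H93`) -/
theorem evC_inj_of_mul_eq_one {k : Type*} [Field k] {x x' : LaurentSeries k} (hxx : x * x' = 1)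
    (h : ∀ P : Polynomial k, H93.evC P x = 0 → P = 0) :
    ∀ P : Polynomial k, H93.evC P x' = 0 → P = 0 := by
  have htr : Transcendental k x := by
    rw [transcendental_iff]
    intro P hP
    exact h P (by rw [H93.evC_eq_aeval]; exact hP)
  have hinv : x' = x⁻¹ := eq_inv_of_mul_eq_one_right hxx
  have htr' : Transcendental k x' := by
    intro halg
    apply htr
    have h2 := halg.inv
    rwa [hinv, inv_inv] at h2
  intro P hP
  rw [H93.evC_eq_aeval] at hP
  exact (transcendental_iff.mp htr') P hP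

end Adjoin

section GaussFin

variable {L : Type*} [Field L] {A : ValuationSubring L}
variable {F : IntermediateField L (LaurentSeries L)}
variable {Fk : IntermediateField (IsLocalRing.ResidueField A)
  (LaurentSeries (IsLocalRing.ResidueField A))}
variable {J : LaurentSeries A} {n : ℕ} {b : Fin n → LaurentSeries A}

/-- `J` is transcendental over the constants -/
theorem transcendental_jElt (hD : H93.GaussData A F Fk J b) :
    Transcendental L (H93.jElt hD) := by
  rw [transcendental_iff]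
  intro P hP
  by_contra hne
  apply hD.evC_iota_J_ne_zero hne
  have h := H93.coe_aeval_F (H93.jElt hD) P
  rw [hP] at h
  exact h.symm

/-- `F` is finite over `L(J)` -/
theorem finite_adjoin_jElt (hD : H93.GaussData A F Fk J b) :
    FiniteDimensional L⟮H93.jElt hD⟯ F := by
  refine Module.finite_def.mpr ?_
  rw [← top_le_iff.mp (H93.top_le_span_bElt hD)]
  exact Submodule.fg_span (Set.finite_range _)

end GaussFin

section Core

variable {K0 : Type} [Field K0] [Algebra K0 (AlgebraicClosure ℚ)]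
  [Algebra.IsAlgebraic K0 (AlgebraicClosure ℚ)]
  (A0 : ValuationSubring K0) [IsDiscreteValuationRing A0] (ℓ : ℕ) [Fact ℓ.Prime]
  [CharP (IsLocalRing.ResidueField A0) ℓ] (L : ℕ) [NeZero L]

attribute [local instance] H74.algModel H74.algK0Bar H74.isScalarTower_K0_bar
  H74.isScalarTower_model

omit [Algebra K0 (AlgebraicClosure ℚ)] [Algebra.IsAlgebraic K0 (AlgebraicClosure ℚ)]
  [IsDiscreteValuationRing A0] in
/-- the tower `A0 → K0 → F0` -/
theorem isScalarTower_A0 (F0 : IntermediateField K0 (LaurentSeries K0)) :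
    IsScalarTower ↥A0 K0 ↥F0 :=
  IsScalarTower.of_algebraMap_eq fun _ => rfl

set_option maxHeartbeats 1600000 in
set_option synthInstance.maxHeartbeats 400000 in
/-- **The chart-generic end-to-end arrow.** -/
theorem modelKum_core (hℓL : ¬ ℓ ∣ L) (π : A0) (hπ : Irreducible π) (m : ℕ)
    (hm : IsUnit ((m : ℕ) : A0))
    (xA xA' : LaurentSeries A0) (hxx : xA * xA' = 1)
    (hx : H93.iotaA A0 xA ∈ modularFunctionFieldFullC K0 L)
    (hxtr : ∀ P : Polynomial (IsLocalRing.ResidueField A0),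
      H93.evC P (H93.redA A0 xA) = 0 → P = 0)
    (hJx : (⟨jqModC K0, jqModC_mem_full K0 L⟩ : modularFunctionFieldFullC K0 L) ∈
      K0⟮(⟨H93.iotaA A0 xA, hx⟩ : modularFunctionFieldFullC K0 L)⟯)
    (hregU : ∀ n : Ideal (H97.chartU (↥A0)
        (⟨H93.iotaA A0 xA, hx⟩ : modularFunctionFieldFullC K0 L)), n.IsMaximal →
      algebraMap (↥A0) (H97.chartU (↥A0)
        (⟨H93.iotaA A0 xA, hx⟩ : modularFunctionFieldFullC K0 L)) π ∈ n →
      ∃ τ ∈ n, ∀ a : H97.chartU (↥A0)
          (⟨H93.iotaA A0 xA, hx⟩ : modularFunctionFieldFullC K0 L),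
        a ∉ Ideal.span {algebraMap (↥A0) (H97.chartU (↥A0)
          (⟨H93.iotaA A0 xA, hx⟩ : modularFunctionFieldFullC K0 L)) π} →
        ∃ (e : ℕ) (d u : H97.chartU (↥A0)
            (⟨H93.iotaA A0 xA, hx⟩ : modularFunctionFieldFullC K0 L)), d ∉ n ∧ u ∉ n ∧
          a * d - u * τ ^ e ∈ Ideal.span {algebraMap (↥A0) (H97.chartU (↥A0)
            (⟨H93.iotaA A0 xA, hx⟩ : modularFunctionFieldFullC K0 L)) π})
    (hregV : ∀ n : Ideal (H97.chartV (↥A0)
        (⟨H93.iotaA A0 xA, hx⟩ : modularFunctionFieldFullC K0 L)), n.IsMaximal →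
      algebraMap (↥A0) (H97.chartV (↥A0)
        (⟨H93.iotaA A0 xA, hx⟩ : modularFunctionFieldFullC K0 L)) π ∈ n →
      ∃ τ ∈ n, ∀ a : H97.chartV (↥A0)
          (⟨H93.iotaA A0 xA, hx⟩ : modularFunctionFieldFullC K0 L),
        a ∉ Ideal.span {algebraMap (↥A0) (H97.chartV (↥A0)
          (⟨H93.iotaA A0 xA, hx⟩ : modularFunctionFieldFullC K0 L)) π} →
        ∃ (e : ℕ) (d u : H97.chartV (↥A0)
            (⟨H93.iotaA A0 xA, hx⟩ : modularFunctionFieldFullC K0 L)), d ∉ n ∧ u ∉ n ∧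
          a * d - u * τ ^ e ∈ Ideal.span {algebraMap (↥A0) (H97.chartV (↥A0)
            (⟨H93.iotaA A0 xA, hx⟩ : modularFunctionFieldFullC K0 L)) π})
    (Z1 Z2 : LaurentSeries A0)
    (h1 : H93.iotaA A0 Z1 ∈ modularFunctionFieldFullC K0 L)
    (h2 : H93.iotaA A0 Z2 ∈ modularFunctionFieldFullC K0 L)
    (hne : H93.redA A0 Z1 ≠ 0) (heq : H93.redA A0 Z1 = H93.redA A0 Z2)
    (hdvd : ∀ P : Place (AlgebraicClosure ℚ) (modularFunctionFieldBar L),
      (m : ℤ) ∣ P.ord (H74.toBar K0 L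
        ((⟨_, h1⟩ : modularFunctionFieldFullC K0 L) / ⟨_, h2⟩))) :
    ∃ b s : LaurentSeries K0, s ∈ modularFunctionFieldFullC K0 L ∧ IsAlgebraic K0 b ∧
      H93.iotaA A0 Z1 = b * s ^ m * H93.iotaA A0 Z2 := by
  have : CharZero K0 := H39.charZero_K0 K0
  have : IsScalarTower ↥A0 K0 ↥(modularFunctionFieldFullC K0 L) := isScalarTower_A0 A0 _
  obtain ⟨b, -, hD⟩ := H93.gaussData_full K0 L A0 ℓ hℓL
  set F0 : IntermediateField K0 (LaurentSeries K0) := modularFunctionFieldFullC K0 L with hF0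
  set ξ : F0 := ⟨H93.iotaA A0 xA, hx⟩ with hξdef
  -- the inverse coordinate
  have hιxx : H93.iotaA A0 xA * H93.iotaA A0 xA' = 1 := by rw [← map_mul, hxx, map_one]
  have hιx0 : H93.iotaA A0 xA ≠ 0 := left_ne_zero_of_mul_eq_one hιxx
  have hιinv : H93.iotaA A0 xA' = (H93.iotaA A0 xA)⁻¹ := eq_inv_of_mul_eq_one_right hιxx
  have hx' : H93.iotaA A0 xA' ∈ F0 := by rw [hιinv]; exact inv_mem hx
  have hξinv : ξ⁻¹ = (⟨H93.iotaA A0 xA', hx'⟩ : F0) := by
    apply Subtype.ext
    show (H93.iotaA A0 xA)⁻¹ = H93.iotaA A0 xA'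
    exact hιinv.symm
  have hJ : H93.jElt hD = (⟨jqModC K0, jqModC_mem_full K0 L⟩ : F0) :=
    Subtype.ext (coeffMap_jqModC _)
  have hJx1 : H93.jElt hD ∈ K0⟮ξ⟯ := by rw [hJ]; exact hJx
  have hJx2 : H93.jElt hD ∈ K0⟮(⟨H93.iotaA A0 xA', hx'⟩ : F0)⟯ := by
    rw [← hξinv]
    exact H93.mem_adjoin_inv_of_mem_adjoin hJx1
  have hξ : Transcendental K0 ξ :=
    transcendental_of_mem_adjoin_simple (transcendental_jElt hD) hJx1
  have : FiniteDimensional K0⟮ξ⟯ F0 :=
    finite_of_mem_adjoin_simple hJx1 (finite_adjoin_jElt hD)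
  have hxtr' : ∀ P : Polynomial (IsLocalRing.ResidueField A0),
      H93.evC P (H93.redA A0 xA') = 0 → P = 0 :=
    evC_inj_of_mul_eq_one (by rw [← map_mul, hxx, map_one]) hxtr
  -- the function
  have hred2 : H93.redA A0 Z2 ≠ 0 := heq ▸ hne
  have hι2 : H93.iotaA A0 Z2 ≠ 0 := by
    intro h0
    apply hred2
    rw [H93.iotaA_injective A0 (h0.trans (map_zero _).symm), map_zero]
  have hι1 : H93.iotaA A0 Z1 ≠ 0 := by
    intro h0
    apply hne
    rw [H93.iotaA_injective A0 (h0.trans (map_zero _).symm), map_zero]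
  set z1 : F0 := ⟨H93.iotaA A0 Z1, h1⟩ with hz1
  set z2 : F0 := ⟨H93.iotaA A0 Z2, h2⟩ with hz2
  have hz1ne : z1 ≠ 0 := fun h => hι1 (congrArg Subtype.val h)
  have hz2ne : z2 ≠ 0 := fun h => hι2 (congrArg Subtype.val h)
  set f : F0 := z1 / z2 with hf
  have hf0 : f ≠ 0 := div_ne_zero hz1ne hz2ne
  have hπ0 : (algebraMap ↥A0 ↥F0 π) ≠ 0 := by
    intro h0
    apply hπ.ne_zero
    have hinj : Function.Injective (algebraMap ↥A0 ↥F0) :=
      H97.algebraMap_injective_of_isFractionRing ↥A0 K0 ↥F0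
    exact hinj (h0.trans (map_zero _).symm)
  -- `f ≡ 1` modulo `π`
  have hfV : ∃ y ∈ H93.gaussW hD, f - 1 = algebraMap ↥A0 ↥F0 π * y := by
    have hd : H93.iotaA A0 (Z1 - Z2) ∈ F0 := by rw [map_sub]; exact sub_mem h1 h2
    obtain ⟨a, W, ha, hW⟩ := hD.exists_dvd_of_red_eq_zero (Z1 - Z2) hd
      (by rw [map_sub, heq, sub_self])
    obtain ⟨a', rfl⟩ := H93.dvd_of_residue_eq_zero hπ ha
    refine ⟨(f - 1) / algebraMap ↥A0 ↥F0 π, ?_, ?_⟩
    · rw [H93.mem_gaussW_iff]
      refine ⟨Z2, HahnSeries.C a' * W, h2, hred2, ?_⟩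
      have e1 : (((f - 1) / algebraMap ↥A0 ↥F0 π : F0) : LaurentSeries K0) =
          (H93.iotaA A0 Z1 / H93.iotaA A0 Z2 - 1) / H93.iotaA A0 (HahnSeries.C π) := by
        rw [← H93.coe_constHom]
        rfl
      have e2 : H93.iotaA A0 Z1 - H93.iotaA A0 Z2 =
          H93.iotaA A0 (HahnSeries.C π) * H93.iotaA A0 (HahnSeries.C a' * W) := by
        rw [← map_sub, hW, ← map_mul, ← mul_assoc, ← map_mul]
      have hCπ : H93.iotaA A0 (HahnSeries.C π) ≠ 0 := by
        rw [← H93.coe_constHom]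
        exact fun h => hπ0 (Subtype.ext h)
      rw [e1]
      field_simp
      rw [e2]
    · field_simp
  -- (DIV)
  have hdiv : ∀ O : ValuationSubring F0, (∀ a : ↥A0, algebraMap ↥A0 ↥F0 a ∈ O) →
      (∀ a : ↥A0, a ≠ 0 → (algebraMap ↥A0 ↥F0 a)⁻¹ ∈ O) →
      ∃ g : F0, g ≠ 0 ∧ f / g ^ m ∈ O ∧ g ^ m / f ∈ O :=
    H40.hdiv_of_forall_place K0 (AlgebraicClosure ℚ) ↥(modularFunctionFieldBar L)
      (A := ↥A0) (H74.hDVR_bar L) m f hf0 hdvd
      (fun P _ => H39.exists_ord_toBar_eq_one K0 L P)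
  -- saturation of the two charts
  have hsatU : ∀ b ∈ H97.chartU (↥A0) ξ,
      (∃ y ∈ H93.gaussW hD, b = algebraMap ↥A0 ↥F0 π * y) →
      ∃ c ∈ H97.chartU (↥A0) ξ, b = algebraMap ↥A0 ↥F0 π * c := by
    rintro b hb ⟨y, hy, hby⟩
    have h := H93.gauss_chart hD hπ xA hx hxtr hJx1 b
      ((mem_chartU_iff_isIntegralElem A0 F0 ξ b).mp hb)
    exact ⟨y, (mem_chartU_iff_isIntegralElem A0 F0 ξ y).mpr (h.2 y hy hby), hby⟩
  have hsatV : ∀ b ∈ H97.chartV (↥A0) ξ,
      (∃ y ∈ H93.gaussW hD, b = algebraMap ↥A0 ↥F0 π * y) →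
      ∃ c ∈ H97.chartV (↥A0) ξ, b = algebraMap ↥A0 ↥F0 π * c := by
    rintro b hb ⟨y, hy, hby⟩
    have hb' : b ∈ H97.chartU (↥A0) (⟨H93.iotaA A0 xA', hx'⟩ : F0) := by
      rw [← hξinv]; exact hb
    have h := H93.gauss_chart hD hπ xA' hx' hxtr' hJx2 b
      ((mem_chartU_iff_isIntegralElem A0 F0 _ b).mp hb')
    refine ⟨y, ?_, hby⟩
    have hy' : y ∈ H97.chartU (↥A0) (⟨H93.iotaA A0 xA', hx'⟩ : F0) :=
      (mem_chartU_iff_isIntegralElem A0 F0 _ y).mpr (h.2 y hy hby)
    rw [← hξinv] at hy'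
    exact hy'
  -- the Kummer core
  obtain ⟨σ, γ, hσ0, hγ0, hγU, hγV, hσγ⟩ := H97.kc_charts H08.stmtKC (K := K0) π hπ m hm ξ hξ
    (H93.gaussW hD) (fun a => H93.constHom_mem_gaussW hD a) (H93.iota_mem_gaussW hD xA hx)
    (by rw [hξinv]; exact H93.iota_mem_gaussW hD xA' hx')
    (H93.constHom_mem_nonunits hD hπ) (H93.exists_eq_mul_of_mem_nonunits hD hπ)
    hsatU hsatV hregU hregV f hfV hdiv
  -- no pole: `γ` is a constant
  obtain ⟨c, -, hc⟩ := H32.nopole_valuationSubring A0 F0 ξ γ hγU hγV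
  have hc0 : c ≠ 0 := by
    rintro rfl
    exact hγ0 (by rw [hc, map_zero])
  refine ⟨algebraMap K0 (LaurentSeries K0) c⁻¹, (σ : LaurentSeries K0), σ.2,
    isAlgebraic_algebraMap _, ?_⟩
  have e1 : z1 = algebraMap K0 F0 c⁻¹ * σ ^ m * z2 := by
    have hcF : algebraMap K0 F0 c ≠ 0 := by rw [← hc]; exact hγ0
    rw [map_inv₀]
    rw [hc] at hσγ
    rw [hσγ, hf]
    field_simp
  exact congrArg Subtype.val e1

end Core

/-! ### the literal shape `H60.ModelKum` -/

section Frozen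

set_option maxHeartbeats 1600000 in
set_option synthInstance.maxHeartbeats 400000 in
/-- **`H60.ModelKum` from a chart.**  `K0` a number field inside `ℚ̄`, `A0 = A ∩ K0`, `ℓ ∤ L`,
`ℓ ∤ m`; `xA`, `xA'` mutually inverse `A0`-integral series with `ι xA` in the `K0`-model
(the chart coordinate `ξ`), `j ∈ K0(ξ)`, the reduction of `xA` transcendental over the residue
field; `(REG)` for the two integral-closure charts of `ξ` at every uniformiser. -/
theorem modelKum_of_chart (A : ValuationSubring (AlgebraicClosure ℚ))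
    (K0 : IntermediateField ℚ (AlgebraicClosure ℚ)) [FiniteDimensional ℚ K0]
    (L : ℕ) [NeZero L] (ℓ : ℕ) [Fact ℓ.Prime] (hℓL : ¬ ℓ ∣ L) (hA : A.LiesOverPrime ℓ)
    (m : ℕ) (hm : ¬ ℓ ∣ m)
    (xA xA' : LaurentSeries (H61.A0 A K0)) (hxx : xA * xA' = 1)
    (hx : H93.iotaA (H61.A0 A K0) xA ∈ modularFunctionFieldFullC K0 L)
    (hxtr : ∀ P : Polynomial (IsLocalRing.ResidueField (H61.A0 A K0)),
      H93.evC P (H93.redA (H61.A0 A K0) xA) = 0 → P = 0)
    (hJx : (⟨jqModC K0, jqModC_mem_full K0 L⟩ : modularFunctionFieldFullC K0 L) ∈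
      IntermediateField.adjoin K0
        {(⟨H93.iotaA (H61.A0 A K0) xA, hx⟩ : modularFunctionFieldFullC K0 L)})
    (hregU : ∀ π : H61.A0 A K0, Irreducible π →
      ∀ n : Ideal (H97.chartU (↥(H61.A0 A K0))
        (⟨H93.iotaA (H61.A0 A K0) xA, hx⟩ : modularFunctionFieldFullC K0 L)), n.IsMaximal →
      algebraMap (↥(H61.A0 A K0)) (H97.chartU (↥(H61.A0 A K0))
        (⟨H93.iotaA (H61.A0 A K0) xA, hx⟩ : modularFunctionFieldFullC K0 L)) π ∈ n →
      ∃ τ ∈ n, ∀ a : H97.chartU (↥(H61.A0 A K0))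
          (⟨H93.iotaA (H61.A0 A K0) xA, hx⟩ : modularFunctionFieldFullC K0 L),
        a ∉ Ideal.span {algebraMap (↥(H61.A0 A K0)) (H97.chartU (↥(H61.A0 A K0))
          (⟨H93.iotaA (H61.A0 A K0) xA, hx⟩ : modularFunctionFieldFullC K0 L)) π} →
        ∃ (e : ℕ) (d u : H97.chartU (↥(H61.A0 A K0))
            (⟨H93.iotaA (H61.A0 A K0) xA, hx⟩ : modularFunctionFieldFullC K0 L)),
          d ∉ n ∧ u ∉ n ∧
          a * d - u * τ ^ e ∈ Ideal.span {algebraMap (↥(H61.A0 A K0)) (H97.chartU (↥(H61.A0 A K0))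
            (⟨H93.iotaA (H61.A0 A K0) xA, hx⟩ : modularFunctionFieldFullC K0 L)) π})
    (hregV : ∀ π : H61.A0 A K0, Irreducible π →
      ∀ n : Ideal (H97.chartV (↥(H61.A0 A K0))
        (⟨H93.iotaA (H61.A0 A K0) xA, hx⟩ : modularFunctionFieldFullC K0 L)), n.IsMaximal →
      algebraMap (↥(H61.A0 A K0)) (H97.chartV (↥(H61.A0 A K0))
        (⟨H93.iotaA (H61.A0 A K0) xA, hx⟩ : modularFunctionFieldFullC K0 L)) π ∈ n →
      ∃ τ ∈ n, ∀ a : H97.chartV (↥(H61.A0 A K0))
          (⟨H93.iotaA (H61.A0 A K0) xA, hx⟩ : modularFunctionFieldFullC K0 L),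
        a ∉ Ideal.span {algebraMap (↥(H61.A0 A K0)) (H97.chartV (↥(H61.A0 A K0))
          (⟨H93.iotaA (H61.A0 A K0) xA, hx⟩ : modularFunctionFieldFullC K0 L)) π} →
        ∃ (e : ℕ) (d u : H97.chartV (↥(H61.A0 A K0))
            (⟨H93.iotaA (H61.A0 A K0) xA, hx⟩ : modularFunctionFieldFullC K0 L)),
          d ∉ n ∧ u ∉ n ∧
          a * d - u * τ ^ e ∈ Ideal.span {algebraMap (↥(H61.A0 A K0)) (H97.chartV (↥(H61.A0 A K0))
            (⟨H93.iotaA (H61.A0 A K0) xA, hx⟩ : modularFunctionFieldFullC K0 L)) π}) :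
    H60.ModelKum A K0 L m := by
  have hℓ : ℓ.Prime := Fact.out
  have hdvr : IsDiscreteValuationRing ↥(H61.A0 A K0) :=
    H86.isDiscreteValuationRing_A0 A K0 hℓ hA
  have hchar : CharP (IsLocalRing.ResidueField ↥(H61.A0 A K0)) ℓ :=
    H86.charP_residueField_A0 A K0 hℓ hA
  have halg : Algebra.IsAlgebraic K0 (AlgebraicClosure ℚ) := by
    have h := AlgebraicClosure.isAlgebraic ℚ
    exact ⟨fun x => (h.isAlgebraic x).tower_top K0⟩
  obtain ⟨π, hπ⟩ := IsDiscreteValuationRing.exists_irreducible ↥(H61.A0 A K0)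
  intro Z1 Z2 h1 h2 hne heq hdvd
  exact modelKum_core (H61.A0 A K0) ℓ L hℓL π hπ m (H86.isUnit_natCast_A0 A K0 hℓ hA hm)
    xA xA' hxx hx hxtr hJx (hregU π hπ) (hregV π hπ) Z1 Z2 h1 h2 hne heq hdvd

end Frozen

end

end Fermat.Agent.S18.H19
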