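import Mathlib
import Fermat.Agent.S18.TopGen_helper19
import Fermat.Agent.S18.NCFusionV_helper68
import Fermat.Agent.S18.SepAdapt_helper85

/-!
# S18, TOP (helper19): the regularity `(REG)` of a chart, folded into the chart-generic arrow

`regU_core`: over a field `K0` of characteristic zero with a discrete valuation subring `A0` of
perfect residue field of characteristic `ℓ ∤ L`, for an `A0`-integral coordinate `ξ = ι xA` of
the `K0`-model at level `L` (`j ∈ K0(ξ)`, transcendental reduction with `θ ≠ 0`), a branch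
polynomial `Pi` with squarefree reduction and the unramifiedness statement `hunr` give the
hypothesis `(REG)` of the Kummer core for the chart `H97.chartU A0 ξ`, literally.

`modelKum_core_nc`, `modelKum_of_chart_nc`: the chart-generic arrow with `(REG)` replaced by
these inputs for `ξ` and `ξ⁻¹`.
-/

set_option autoImplicit false

open ModularCurve AlgebraicCurve IntermediateField Polynomial

namespace Fermat.Agent.S18.H19

noncomputable section

/-- the `K0[X]`-algebra structure `X ↦ x` -/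
@[reducible] def polyAlg {K F : Type*} [Field K] [Field F] [Algebra K F] (x : F) :
    Algebra K[X] F :=
  (Polynomial.aeval x : K[X] →ₐ[K] F).toRingHom.toAlgebra

section RegCore

variable {K0 : Type} [Field K0] [CharZero K0]
  (A0 : ValuationSubring K0) [IsDiscreteValuationRing A0] (ℓ : ℕ) [Fact ℓ.Prime]
  [CharP (IsLocalRing.ResidueField A0) ℓ] [PerfectField (IsLocalRing.ResidueField A0)]
  (L : ℕ) [NeZero L]

set_option maxHeartbeats 1600000 in
set_option synthInstance.maxHeartbeats 400000 in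
/-- **`(REG)` for the chart of an integral coordinate.** -/
theorem regU_core (hℓL : ¬ ℓ ∣ L) (π : A0) (hπ : Irreducible π)
    (xA : LaurentSeries A0)
    (hx : H93.iotaA A0 xA ∈ modularFunctionFieldFullC K0 L)
    (hxtr : ∀ P : Polynomial (IsLocalRing.ResidueField A0),
      H93.evC P (H93.redA A0 xA) = 0 → P = 0)
    (hJx : (⟨jqModC K0, jqModC_mem_full K0 L⟩ : modularFunctionFieldFullC K0 L) ∈
      K0⟮(⟨H93.iotaA A0 xA, hx⟩ : modularFunctionFieldFullC K0 L)⟯)
    (hθ : H85.theta (H93.redA A0 xA) ≠ 0)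
    (Pi : (↥A0)[X]) (hPi : Squarefree (Pi.map (Ideal.Quotient.mk (Ideal.span {π}))))
    (hunr : letI : Algebra K0[X] ↥(modularFunctionFieldFullC K0 L) :=
        polyAlg (⟨H93.iotaA A0 xA, hx⟩ : modularFunctionFieldFullC K0 L)
      ∀ p : Ideal K0[X], p.IsMaximal → Pi.map (algebraMap (↥A0) K0) ∉ p →
        (p.map (algebraMap K0[X]
          (integralClosure K0[X] ↥(modularFunctionFieldFullC K0 L)))).IsRadical) :
    ∀ n : Ideal (H97.chartU (↥A0)
        (⟨H93.iotaA A0 xA, hx⟩ : modularFunctionFieldFullC K0 L)), n.IsMaximal →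
      algebraMap (↥A0) (H97.chartU (↥A0)
        (⟨H93.iotaA A0 xA, hx⟩ : modularFunctionFieldFullC K0 L)) π ∈ n →
      ∃ τ ∈ n, ∀ a : H97.chartU (↥A0)
          (⟨H93.iotaA A0 xA, hx⟩ : modularFunctionFieldFullC K0 L),
        a ∉ Ideal.span {algebraMap (↥A0) (H97.chartU (↥A0)
          (⟨H93.iotaA A0 xA, hx⟩ : modularFunctionFieldFullC K0 L)) π} →
        ∃ (e : ℕ) (d u : H97.chartU (↥A0)
            (⟨H93.iotaA A0 xA, hx⟩ : modularFunctionFieldFullC K0 L)), d ∉ n ∧ u ∉ n ∧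
          a * d - u * τ ^ e ∈ Ideal.span {algebraMap (↥A0) (H97.chartU (↥A0)
            (⟨H93.iotaA A0 xA, hx⟩ : modularFunctionFieldFullC K0 L)) π} := by
  have : IsScalarTower ↥A0 K0 ↥(modularFunctionFieldFullC K0 L) := isScalarTower_A0 A0 _
  obtain ⟨b, -, hD⟩ := H93.gaussData_full K0 L A0 ℓ hℓL
  set F0 : IntermediateField K0 (LaurentSeries K0) := modularFunctionFieldFullC K0 L with hF0
  set ξ : F0 := ⟨H93.iotaA A0 xA, hx⟩ with hξdef
  let algK : Algebra K0[X] ↥F0 := polyAlg ξ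
  have hJ : H93.jElt hD = (⟨jqModC K0, jqModC_mem_full K0 L⟩ : F0) :=
    Subtype.ext (coeffMap_jqModC _)
  have hJx1 : H93.jElt hD ∈ K0⟮ξ⟯ := by rw [hJ]; exact hJx
  have hξ : Transcendental K0 ξ :=
    transcendental_of_mem_adjoin_simple (transcendental_jElt hD) hJx1
  have : FiniteDimensional K0⟮ξ⟯ F0 :=
    finite_of_mem_adjoin_simple hJx1 (finite_adjoin_jElt hD)
  have hsatU : ∀ b ∈ H97.chartU (↥A0) ξ,
      (∃ y ∈ H93.gaussW hD, b = algebraMap ↥A0 ↥F0 π * y) →
      ∃ c ∈ H97.chartU (↥A0) ξ, b = algebraMap ↥A0 ↥F0 π * c := by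
    rintro b hb ⟨y, hy, hby⟩
    have h := H93.gauss_chart hD hπ xA hx hxtr hJx1 b
      ((mem_chartU_iff_isIntegralElem A0 F0 ξ b).mp hb)
    exact ⟨y, (mem_chartU_iff_isIntegralElem A0 F0 ξ y).mpr (h.2 y hy hby), hby⟩
  -- the reduction map
  let red : ↥(H93.gaussW hD) →+*
      LaurentSeries (IsLocalRing.ResidueField A0) :=
    (algebraMap ↥(modularFunctionFieldFullC (IsLocalRing.ResidueField A0) L)
      (LaurentSeries (IsLocalRing.ResidueField A0))).comp (H93.gaussRho hD)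
  have hredv : ∀ v : ↥(H93.gaussW hD), red v =
      ((H93.gaussRho hD v : modularFunctionFieldFullC (IsLocalRing.ResidueField A0) L) :
        LaurentSeries (IsLocalRing.ResidueField A0)) := fun _ => rfl
  have hred : ∀ v : ↥(H93.gaussW hD), (v : F0) ∈ (H93.gaussW hD).nonunits ↔ red v = 0 := by
    intro v
    rw [H93.mem_nonunits_gaussW_iff hD v, hredv]
    constructor
    · intro h; rw [h]; rfl
    · intro h; exact Subtype.ext h
  -- separability
  have hsep : ∀ y : LaurentSeries (IsLocalRing.ResidueField A0),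
      IsAlgebraic (Subfield.closure (red '' {v : ↥(H93.gaussW hD) |
        ∃ p : (↥A0)[X], (v : F0) = aeval ξ p})) y →
      IsSeparable (Subfield.closure (red '' {v : ↥(H93.gaussW hD) |
        ∃ p : (↥A0)[X], (v : F0) = aeval ξ p})) y := by
    intro y hy
    refine H85.isSeparable_closure ℓ (H93.redA A0 xA) hθ _ ?_ ?_ ?_ y hy
    · rintro _ ⟨v, ⟨p, hp⟩, rfl⟩
      have hv : v = ⟨H93.chartHom A0 ξ p, H93.chartHom_mem_gaussW hD xA hx p⟩ := by
        apply Subtype.ext
        exact hp.trans (RingHom.congr_fun (chartHom_eq_aeval' A0 F0 ξ) p).symm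
      rw [hredv, hv, H93.coe_gaussRho_chartHom, H93.evC_eq_aeval]
      exact H85.aeval_mem_adjoin_simple _ _
    · intro c
      obtain ⟨a, rfl⟩ := IsLocalRing.residue_surjective c
      apply Subfield.subset_closure
      refine ⟨⟨H93.constHom A0 F0 a, H93.constHom_mem_gaussW hD a⟩, ⟨C a, ?_⟩, ?_⟩
      · show H93.constHom A0 F0 a = aeval ξ (C a)
        rw [aeval_C]
        rfl
      · rw [hredv, H93.coe_gaussRho_constHom, H93.C_eq_algebraMap]
    · apply Subfield.subset_closure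
      refine ⟨⟨ξ, H93.iota_mem_gaussW hD xA hx⟩, ⟨X, ?_⟩, ?_⟩
      · show ξ = aeval ξ X
        rw [aeval_X]
      · rw [hredv]
        exact congrArg Subtype.val (H93.gaussRho_iota hD xA hx)
  exact H68.reg_chartU_of_gauss π hπ ξ hξ (fun _ => rfl) (H93.gaussW hD)
    (fun a => H93.constHom_mem_gaussW hD a) (H93.iota_mem_gaussW hD xA hx)
    (H93.constHom_mem_nonunits hD hπ) (H93.exists_eq_mul_of_mem_nonunits hD hπ)
    hsatU red hred hsep Pi hPi hunr

end RegCore

/-! ### the chart-generic arrow with `(REG)` discharged -/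

/-- `θ` of an inverse: if `x * x' = 1` and `θ x ≠ 0` then `θ x' ≠ 0` -/
theorem theta_ne_zero_of_mul_eq_one {k : Type*} [Field k] {x x' : LaurentSeries k}
    (hxx : x * x' = 1) (h : H85.theta x ≠ 0) : H85.theta x' ≠ 0 := by
  intro h0
  apply h
  have h1 : H85.theta (x * x') = 0 := by rw [hxx]; exact Derivation.map_one_eq_zero _
  rw [Derivation.leibniz, h0, smul_zero, zero_add, smul_eq_mul] at h1
  rcases mul_eq_zero.mp h1 with h2 | h2
  · exfalso
    rw [h2, mul_zero] at hxx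
    exact zero_ne_one hxx
  · exact h2

section CoreNC

variable {K0 : Type} [Field K0] [Algebra K0 (AlgebraicClosure ℚ)]
  [Algebra.IsAlgebraic K0 (AlgebraicClosure ℚ)]
  (A0 : ValuationSubring K0) [IsDiscreteValuationRing A0] (ℓ : ℕ) [Fact ℓ.Prime]
  [CharP (IsLocalRing.ResidueField A0) ℓ] [PerfectField (IsLocalRing.ResidueField A0)]
  (L : ℕ) [NeZero L]

omit [Algebra.IsAlgebraic K0 (AlgebraicClosure ℚ)] [IsDiscreteValuationRing A0] in
/-- The Kummer statement of `H60.ModelKum` over a field `K0` with a valuation subring `A0`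
(generic form of the conclusion). -/
def ModelKumGen (m : ℕ) : Prop :=
  ∀ (Z1 Z2 : LaurentSeries A0)
    (h1 : H93.iotaA A0 Z1 ∈ modularFunctionFieldFullC K0 L)
    (h2 : H93.iotaA A0 Z2 ∈ modularFunctionFieldFullC K0 L),
    H93.redA A0 Z1 ≠ 0 → H93.redA A0 Z1 = H93.redA A0 Z2 →
    (∀ P : Place (AlgebraicClosure ℚ) (modularFunctionFieldBar L),
      (m : ℤ) ∣ P.ord (H74.toBar K0 L
        ((⟨_, h1⟩ : modularFunctionFieldFullC K0 L) / ⟨_, h2⟩))) →
    ∃ b s : LaurentSeries K0, s ∈ modularFunctionFieldFullC K0 L ∧ IsAlgebraic K0 b ∧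
      H93.iotaA A0 Z1 = b * s ^ m * H93.iotaA A0 Z2

set_option maxHeartbeats 1600000 in
set_option synthInstance.maxHeartbeats 400000 in
/-- **The chart-generic arrow, `(REG)` discharged.**  Chart data (`xA`, `xA'` mutually inverse
integral series with `ι xA`, `ι xA'` in the model, `j ∈ K0(ξ)`, the reduction of `xA`
transcendental with `θ ≠ 0`) and, for each of the two charts, a branch polynomial with
squarefree reduction and the unramifiedness statement. -/
theorem modelKumGen_of_chart (hℓL : ¬ ℓ ∣ L) (m : ℕ) (hm : IsUnit ((m : ℕ) : A0))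
    (xA xA' : LaurentSeries A0) (hxx : xA * xA' = 1)
    (hx : H93.iotaA A0 xA ∈ modularFunctionFieldFullC K0 L)
    (hx' : H93.iotaA A0 xA' ∈ modularFunctionFieldFullC K0 L)
    (hxtr : ∀ P : Polynomial (IsLocalRing.ResidueField A0),
      H93.evC P (H93.redA A0 xA) = 0 → P = 0)
    (hJx : (⟨jqModC K0, jqModC_mem_full K0 L⟩ : modularFunctionFieldFullC K0 L) ∈
      K0⟮(⟨H93.iotaA A0 xA, hx⟩ : modularFunctionFieldFullC K0 L)⟯)
    (hθ : H85.theta (H93.redA A0 xA) ≠ 0)
    (Pi Pi' : (↥A0)[X])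
    (hPi : ∀ π : A0, Irreducible π →
      Squarefree (Pi.map (Ideal.Quotient.mk (Ideal.span {π}))))
    (hPi' : ∀ π : A0, Irreducible π →
      Squarefree (Pi'.map (Ideal.Quotient.mk (Ideal.span {π}))))
    (hunr : letI : Algebra K0[X] ↥(modularFunctionFieldFullC K0 L) :=
        polyAlg (⟨H93.iotaA A0 xA, hx⟩ : modularFunctionFieldFullC K0 L)
      ∀ p : Ideal K0[X], p.IsMaximal → Pi.map (algebraMap (↥A0) K0) ∉ p →
        (p.map (algebraMap K0[X]
          (integralClosure K0[X] ↥(modularFunctionFieldFullC K0 L)))).IsRadical)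
    (hunr' : letI : Algebra K0[X] ↥(modularFunctionFieldFullC K0 L) :=
        polyAlg (⟨H93.iotaA A0 xA', hx'⟩ : modularFunctionFieldFullC K0 L)
      ∀ p : Ideal K0[X], p.IsMaximal → Pi'.map (algebraMap (↥A0) K0) ∉ p →
        (p.map (algebraMap K0[X]
          (integralClosure K0[X] ↥(modularFunctionFieldFullC K0 L)))).IsRadical) :
    ModelKumGen A0 L m := by
  have : CharZero K0 := H39.charZero_K0 K0
  obtain ⟨π, hπ⟩ := IsDiscreteValuationRing.exists_irreducible ↥A0
  set F0 : IntermediateField K0 (LaurentSeries K0) := modularFunctionFieldFullC K0 L with hF0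
  set ξ : F0 := ⟨H93.iotaA A0 xA, hx⟩ with hξdef
  set ξ' : F0 := ⟨H93.iotaA A0 xA', hx'⟩ with hξ'def
  have hιxx : H93.iotaA A0 xA * H93.iotaA A0 xA' = 1 := by rw [← map_mul, hxx, map_one]
  have hξinv : ξ⁻¹ = ξ' := by
    apply Subtype.ext
    show (H93.iotaA A0 xA)⁻¹ = H93.iotaA A0 xA'
    exact (eq_inv_of_mul_eq_one_right hιxx).symm
  have hJx' : (⟨jqModC K0, jqModC_mem_full K0 L⟩ : F0) ∈ K0⟮ξ'⟯ := by
    rw [← hξinv]
    exact H93.mem_adjoin_inv_of_mem_adjoin hJx
  have hrr : H93.redA A0 xA * H93.redA A0 xA' = 1 := by rw [← map_mul, hxx, map_one]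
  have hxtr' : ∀ P : Polynomial (IsLocalRing.ResidueField A0),
      H93.evC P (H93.redA A0 xA') = 0 → P = 0 :=
    evC_inj_of_mul_eq_one hrr hxtr
  have hθ' : H85.theta (H93.redA A0 xA') ≠ 0 := theta_ne_zero_of_mul_eq_one hrr hθ
  have hregU := regU_core A0 ℓ L hℓL π hπ xA hx hxtr hJx hθ Pi (hPi π hπ) hunr
  have hregV' := regU_core A0 ℓ L hℓL π hπ xA' hx' hxtr' hJx' hθ' Pi' (hPi' π hπ) hunr'
  have hregV : ∀ n : Ideal (H97.chartV (↥A0) ξ), n.IsMaximal →
      algebraMap (↥A0) (H97.chartV (↥A0) ξ) π ∈ n →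
      ∃ τ ∈ n, ∀ a : H97.chartV (↥A0) ξ,
        a ∉ Ideal.span {algebraMap (↥A0) (H97.chartV (↥A0) ξ) π} →
        ∃ (e : ℕ) (d u : H97.chartV (↥A0) ξ), d ∉ n ∧ u ∉ n ∧
          a * d - u * τ ^ e ∈ Ideal.span {algebraMap (↥A0) (H97.chartV (↥A0) ξ) π} := by
    show ∀ n : Ideal (H97.chartU (↥A0) ξ⁻¹), n.IsMaximal →
      algebraMap (↥A0) (H97.chartU (↥A0) ξ⁻¹) π ∈ n →
      ∃ τ ∈ n, ∀ a : H97.chartU (↥A0) ξ⁻¹,
        a ∉ Ideal.span {algebraMap (↥A0) (H97.chartU (↥A0) ξ⁻¹) π} →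
        ∃ (e : ℕ) (d u : H97.chartU (↥A0) ξ⁻¹), d ∉ n ∧ u ∉ n ∧
          a * d - u * τ ^ e ∈ Ideal.span {algebraMap (↥A0) (H97.chartU (↥A0) ξ⁻¹) π}
    rw [hξinv]
    exact hregV'
  intro Z1 Z2 h1 h2 hne heq hdvd
  exact modelKum_core A0 ℓ L hℓL π hπ m hm xA xA' hxx hx hxtr hJx hregU hregV Z1 Z2 h1 h2
    hne heq hdvd

end CoreNC

end

end Fermat.Agent.S18.H19
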