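import Mathlib
import Fermat.Agent.S18.TopReg_helper19
import Fermat.Agent.S18.BranchModel_helper10
import Fermat.Agent.S18.SqfreeRed2_helper51
import Fermat.Agent.S18.Coord_helper36
import Fermat.Agent.S18.HauptShape_helper69

/-!
# S18, TOP (helper19): the three charts and `H60.ModelKumStmt`

The chart-generic arrow `H19.modelKumGen_of_chart` instantiated at the coordinates
`ξ = j` (`ℓ ∤ 6`), `ξ = t₂` (`ℓ ≠ 2`, `2 ∣ L`), `ξ = t₃` (`ℓ ≠ 3`, `3 ∣ L`), and the
statement `H60.ModelKumStmt` by the case split on `ℓ`.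
-/

set_option autoImplicit false

open ModularCurve AlgebraicCurve IntermediateField Polynomial

namespace Fermat.Agent.S18.H19

noncomputable section

/-! ### an integral inverse of `j` -/

/-- the inverse of `j` as a Laurent series over any commutative ring -/
def jqInv (R : Type*) [CommRing R] : LaurentSeries R :=
  HahnSeries.single (1 : ℤ) 1 *
    HahnSeries.ofPowerSeries ℤ R (PowerSeries.invOfUnit (jNum.map (Int.castRingHom R)) 1)

theorem jqModC_mul_jqInv (R : Type*) [CommRing R] : jqModC R * jqInv R = 1 := by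
  have hc : PowerSeries.constantCoeff (jNum.map (Int.castRingHom R)) = ((1 : Rˣ) : R) := by
    rw [← PowerSeries.coeff_zero_eq_constantCoeff, PowerSeries.coeff_map,
      PowerSeries.coeff_zero_eq_constantCoeff, constantCoeff_jNum]
    simp
  have h1 := PowerSeries.mul_invOfUnit (jNum.map (Int.castRingHom R)) 1 hc
  have h2 : HahnSeries.single (-1 : ℤ) (1 : R) * HahnSeries.single (1 : ℤ) (1 : R) = 1 := by
    rw [HahnSeries.single_mul_single]
    simp
  have h3 : HahnSeries.ofPowerSeries ℤ R (jNum.map (Int.castRingHom R))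
      * HahnSeries.ofPowerSeries ℤ R
        (PowerSeries.invOfUnit (jNum.map (Int.castRingHom R)) 1) = 1 := by
    rw [← map_mul (HahnSeries.ofPowerSeries ℤ R), h1, map_one]
  unfold jqModC jqInv
  calc HahnSeries.single (-1 : ℤ) (1 : R) *
        HahnSeries.ofPowerSeries ℤ R (jNum.map (Int.castRingHom R))
        * (HahnSeries.single (1 : ℤ) 1 * HahnSeries.ofPowerSeries ℤ R
            (PowerSeries.invOfUnit (jNum.map (Int.castRingHom R)) 1))
      = (HahnSeries.single (-1 : ℤ) (1 : R) * HahnSeries.single (1 : ℤ) 1)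
        * (HahnSeries.ofPowerSeries ℤ R (jNum.map (Int.castRingHom R))
          * HahnSeries.ofPowerSeries ℤ R
            (PowerSeries.invOfUnit (jNum.map (Int.castRingHom R)) 1)) := by
        ring
    _ = 1 := by rw [h3, h2, mul_one]

section Charts

variable {K0 : Type} [Field K0] [Algebra K0 (AlgebraicClosure ℚ)]
  [Algebra.IsAlgebraic K0 (AlgebraicClosure ℚ)]
  (A0 : ValuationSubring K0) [IsDiscreteValuationRing A0] (ℓ : ℕ) [Fact ℓ.Prime]
  [CharP (IsLocalRing.ResidueField A0) ℓ] [PerfectField (IsLocalRing.ResidueField A0)]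
  (L : ℕ) [NeZero L]

omit [Algebra K0 (AlgebraicClosure ℚ)] [Algebra.IsAlgebraic K0 (AlgebraicClosure ℚ)]
  [PerfectField (IsLocalRing.ResidueField A0)] [IsDiscreteValuationRing A0] in
/-- a unit is not divisible by an irreducible element -/
theorem not_dvd_of_isUnit {π c : A0} (hπ : Irreducible π) (hc : IsUnit c) : ¬ π ∣ c :=
  fun h => hπ.not_isUnit (isUnit_of_dvd_unit h hc)

set_option maxHeartbeats 1600000 in
set_option synthInstance.maxHeartbeats 400000 in
/-- **The chart `ξ = j`**, for `1728` a unit of `A0`. -/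
theorem modelKumGen_j (hℓL : ¬ ℓ ∣ L) (m : ℕ) (hm : IsUnit ((m : ℕ) : A0))
    (h1728 : IsUnit (1728 : A0)) : ModelKumGen A0 L m := by
  have hιj : H93.iotaA A0 (jqModC A0) = jqModC K0 := coeffMap_jqModC _
  have hrj : H93.redA A0 (jqModC A0) = jqModC (IsLocalRing.ResidueField A0) :=
    coeffMap_jqModC _
  have hx : H93.iotaA A0 (jqModC A0) ∈ modularFunctionFieldFullC K0 L := by
    rw [hιj]; exact jqModC_mem_full K0 L
  have hιmul : H93.iotaA A0 (jqModC A0) * H93.iotaA A0 (jqInv A0) = 1 := by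
    rw [← map_mul, jqModC_mul_jqInv, map_one]
  have hx' : H93.iotaA A0 (jqInv A0) ∈ modularFunctionFieldFullC K0 L := by
    rw [eq_inv_of_mul_eq_one_right hιmul]
    exact inv_mem hx
  refine modelKumGen_of_chart A0 ℓ L hℓL m hm (jqModC A0) (jqInv A0) (jqModC_mul_jqInv A0)
    hx hx' ?_ ?_ ?_ (X * (X - C 1728)) (X * (C 1728 * X - 1)) ?_ ?_ ?_ ?_
  · intro P h
    rw [hrj] at h
    exact H93.evC_jqModC_eq_zero _ P h
  · have e : (⟨jqModC K0, jqModC_mem_full K0 L⟩ : modularFunctionFieldFullC K0 L) =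
        ⟨H93.iotaA A0 (jqModC A0), hx⟩ := Subtype.ext hιj.symm
    rw [e]
    exact IntermediateField.mem_adjoin_simple_self K0 _
  · rw [hrj]
    exact H85.theta_jqModC_ne_zero _
  · intro π hπ
    exact H51.squarefree_map_X_mul_X_sub_C' π hπ (not_dvd_of_isUnit A0 hπ h1728)
  · intro π hπ
    exact H51.squarefree_map_X_mul_C_mul_X_sub_one π
      (PrincipalIdealRing.isMaximal_of_irreducible hπ)
      (H51.notMem_span_of_isUnit π (PrincipalIdealRing.isMaximal_of_irreducible hπ) h1728)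
  · let _ : Algebra K0[X] ↥(modularFunctionFieldFullC K0 L) :=
      polyAlg (⟨H93.iotaA A0 (jqModC A0), hx⟩ : modularFunctionFieldFullC K0 L)
    intro p hp hPip
    refine H10.isRadical_model_j_std K0 L _ hιj (fun _ => rfl) p hp ?_
    have e : (X * (X - C 1728) : (↥A0)[X]).map (algebraMap ↥A0 K0) = X * (X - C 1728) := by
      rw [Polynomial.map_mul, Polynomial.map_sub, Polynomial.map_X, Polynomial.map_C,
        map_ofNat]
    rwa [e] at hPip
  · let _ : Algebra K0[X] ↥(modularFunctionFieldFullC K0 L) :=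
      polyAlg (⟨H93.iotaA A0 (jqInv A0), hx'⟩ : modularFunctionFieldFullC K0 L)
    intro p hp hPip
    refine H10.isRadical_model_j_inv_std K0 L _ ?_ (fun _ => rfl) p hp ?_
    · show H93.iotaA A0 (jqInv A0) * jqModC K0 = 1
      rw [← hιj, mul_comm]
      exact hιmul
    · have e : (X * (C 1728 * X - 1) : (↥A0)[X]).map (algebraMap ↥A0 K0) =
          X * (C 1728 * X - 1) := by
        rw [Polynomial.map_mul, Polynomial.map_sub, Polynomial.map_mul, Polynomial.map_X,
          Polynomial.map_C, Polynomial.map_one, map_ofNat]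
      rwa [e] at hPip


set_option maxHeartbeats 1600000 in
set_option synthInstance.maxHeartbeats 400000 in
/-- **The chart `ξ = t_2`** (`2 ∣ L`), for `64` a unit of `A0`. -/
theorem modelKumGen_two (hℓL : ¬ ℓ ∣ L) (hML : 2 ∣ L) (m : ℕ) (hm : IsUnit ((m : ℕ) : A0))
    (hc : IsUnit (64 : A0)) : ModelKumGen A0 L m := by
  have hιt : H93.iotaA A0 (H69.haupt2 ↥A0) = H69.haupt2 K0 := H69.coeffMap_haupt2 _
  have hιt' : H93.iotaA A0 (H69.haupt2Inv ↥A0) = H69.haupt2Inv K0 :=
    H69.coeffMap_haupt2Inv _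
  have hrt : H93.redA A0 (H69.haupt2 ↥A0) = H69.haupt2 (IsLocalRing.ResidueField A0) :=
    H69.coeffMap_haupt2 _
  have hx : H93.iotaA A0 (H69.haupt2 ↥A0) ∈ modularFunctionFieldFullC K0 L := by
    rw [hιt]; exact H69.haupt2_mem_full K0 L hML
  have hx' : H93.iotaA A0 (H69.haupt2Inv ↥A0) ∈ modularFunctionFieldFullC K0 L := by
    rw [hιt']; exact H69.haupt2Inv_mem_full K0 L hML
  refine modelKumGen_of_chart A0 ℓ L hℓL m hm (H69.haupt2 ↥A0) (H69.haupt2Inv ↥A0)
    (H69.haupt2_mul_inv ↥A0) hx hx' ?_ ?_ ?_ (X * (X + C 64)) (X * (C 64 * X + 1))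
    ?_ ?_ ?_ ?_
  · intro P h
    rw [hrt] at h
    exact H36.Coord.evC_eq_zero_of_transcendental
      (H36.Coord.transcendental_haupt2 (IsLocalRing.ResidueField A0)) P h
  · exact H36.Coord.j_mem_adjoin_haupt2 (modularFunctionFieldFullC K0 L) _ _ rfl hιt
  · rw [hrt]
    exact H85.theta_ne_zero_of_coeff_neg_one _ (H69.coeff_haupt2_neg_one _)
  · intro π hπ
    exact H51.squarefree_map_X_mul_X_add_C' π hπ (not_dvd_of_isUnit A0 hπ hc)
  · intro π hπ
    exact H51.squarefree_map_X_mul_C_mul_X_add_one π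
      (PrincipalIdealRing.isMaximal_of_irreducible hπ)
      (H51.notMem_span_of_isUnit π (PrincipalIdealRing.isMaximal_of_irreducible hπ) hc)
  · let _ : Algebra K0[X] ↥(modularFunctionFieldFullC K0 L) :=
      polyAlg (⟨H93.iotaA A0 (H69.haupt2 ↥A0), hx⟩ : modularFunctionFieldFullC K0 L)
    intro p hp hPip
    refine H10.isRadical_model_two_std K0 L _ hιt (fun _ => rfl) p hp ?_
    have e : (X * (X + C 64) : (↥A0)[X]).map (algebraMap ↥A0 K0) = X * (X + C 64) := by
      rw [Polynomial.map_mul, Polynomial.map_add, Polynomial.map_X, Polynomial.map_C,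
        map_ofNat]
    rwa [e] at hPip
  · let _ : Algebra K0[X] ↥(modularFunctionFieldFullC K0 L) :=
      polyAlg (⟨H93.iotaA A0 (H69.haupt2Inv ↥A0), hx'⟩ : modularFunctionFieldFullC K0 L)
    intro p hp hPip
    refine H10.isRadical_model_two_inv_std K0 L _ hιt' (fun _ => rfl) p hp ?_
    have e : (X * (C 64 * X + 1) : (↥A0)[X]).map (algebraMap ↥A0 K0) =
        X * (C 64 * X + 1) := by
      rw [Polynomial.map_mul, Polynomial.map_add, Polynomial.map_mul, Polynomial.map_X,
        Polynomial.map_C, Polynomial.map_one, map_ofNat]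
    rwa [e] at hPip

set_option maxHeartbeats 1600000 in
set_option synthInstance.maxHeartbeats 400000 in
/-- **The chart `ξ = t_3`** (`3 ∣ L`), for `27` a unit of `A0`. -/
theorem modelKumGen_three (hℓL : ¬ ℓ ∣ L) (hML : 3 ∣ L) (m : ℕ) (hm : IsUnit ((m : ℕ) : A0))
    (hc : IsUnit (27 : A0)) : ModelKumGen A0 L m := by
  have hιt : H93.iotaA A0 (H69.haupt3 ↥A0) = H69.haupt3 K0 := H69.coeffMap_haupt3 _
  have hιt' : H93.iotaA A0 (H69.haupt3Inv ↥A0) = H69.haupt3Inv K0 :=
    H69.coeffMap_haupt3Inv _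
  have hrt : H93.redA A0 (H69.haupt3 ↥A0) = H69.haupt3 (IsLocalRing.ResidueField A0) :=
    H69.coeffMap_haupt3 _
  have hx : H93.iotaA A0 (H69.haupt3 ↥A0) ∈ modularFunctionFieldFullC K0 L := by
    rw [hιt]; exact H69.haupt3_mem_full K0 L hML
  have hx' : H93.iotaA A0 (H69.haupt3Inv ↥A0) ∈ modularFunctionFieldFullC K0 L := by
    rw [hιt']; exact H69.haupt3Inv_mem_full K0 L hML
  refine modelKumGen_of_chart A0 ℓ L hℓL m hm (H69.haupt3 ↥A0) (H69.haupt3Inv ↥A0)
    (H69.haupt3_mul_inv ↥A0) hx hx' ?_ ?_ ?_ (X * (X + C 27)) (X * (C 27 * X + 1))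
    ?_ ?_ ?_ ?_
  · intro P h
    rw [hrt] at h
    exact H36.Coord.evC_eq_zero_of_transcendental
      (H36.Coord.transcendental_haupt3 (IsLocalRing.ResidueField A0)) P h
  · exact H36.Coord.j_mem_adjoin_haupt3 (modularFunctionFieldFullC K0 L) _ _ rfl hιt
  · rw [hrt]
    exact H85.theta_ne_zero_of_coeff_neg_one _ (H69.coeff_haupt3_neg_one _)
  · intro π hπ
    exact H51.squarefree_map_X_mul_X_add_C' π hπ (not_dvd_of_isUnit A0 hπ hc)
  · intro π hπ
    exact H51.squarefree_map_X_mul_C_mul_X_add_one π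
      (PrincipalIdealRing.isMaximal_of_irreducible hπ)
      (H51.notMem_span_of_isUnit π (PrincipalIdealRing.isMaximal_of_irreducible hπ) hc)
  · let _ : Algebra K0[X] ↥(modularFunctionFieldFullC K0 L) :=
      polyAlg (⟨H93.iotaA A0 (H69.haupt3 ↥A0), hx⟩ : modularFunctionFieldFullC K0 L)
    intro p hp hPip
    refine H10.isRadical_model_three_std K0 L _ hιt (fun _ => rfl) p hp ?_
    have e : (X * (X + C 27) : (↥A0)[X]).map (algebraMap ↥A0 K0) = X * (X + C 27) := by
      rw [Polynomial.map_mul, Polynomial.map_add, Polynomial.map_X, Polynomial.map_C,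
        map_ofNat]
    rwa [e] at hPip
  · let _ : Algebra K0[X] ↥(modularFunctionFieldFullC K0 L) :=
      polyAlg (⟨H93.iotaA A0 (H69.haupt3Inv ↥A0), hx'⟩ : modularFunctionFieldFullC K0 L)
    intro p hp hPip
    refine H10.isRadical_model_three_inv_std K0 L _ hιt' (fun _ => rfl) p hp ?_
    have e : (X * (C 27 * X + 1) : (↥A0)[X]).map (algebraMap ↥A0 K0) =
        X * (C 27 * X + 1) := by
      rw [Polynomial.map_mul, Polynomial.map_add, Polynomial.map_mul, Polynomial.map_X,
        Polynomial.map_C, Polynomial.map_one, map_ofNat]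
    rwa [e] at hPip

end Charts

/-! ### the statement `H60.ModelKumStmt` -/

section Final

set_option maxHeartbeats 1600000 in
set_option synthInstance.maxHeartbeats 400000 in
/-- the generic form is the frozen-vocabulary form -/
theorem modelKum_of_gen (A : ValuationSubring (AlgebraicClosure ℚ))
    (K0 : IntermediateField ℚ (AlgebraicClosure ℚ)) (L : ℕ) [NeZero L] (m : ℕ)
    (h : ModelKumGen (H61.A0 A K0) L m) : H60.ModelKum A K0 L m := h

set_option maxHeartbeats 1600000 in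
set_option synthInstance.maxHeartbeats 400000 in
/-- **(MODEL-KUM) over every number field**, at a level `L` prime to `ℓ` and divisible by
`auxM ℓ`. -/
theorem modelKum (A : ValuationSubring (AlgebraicClosure ℚ))
    (K0 : IntermediateField ℚ (AlgebraicClosure ℚ)) [FiniteDimensional ℚ K0]
    (L : ℕ) [NeZero L] (ℓ : ℕ) [Fact ℓ.Prime] (hℓL : ¬ ℓ ∣ L) (haux : H16.auxM ℓ ∣ L)
    (hA : A.LiesOverPrime ℓ) (m : ℕ) (hm : ¬ ℓ ∣ m) : H60.ModelKum A K0 L m := by
  have hℓ : ℓ.Prime := Fact.out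
  have hdvr : IsDiscreteValuationRing ↥(H61.A0 A K0) :=
    H86.isDiscreteValuationRing_A0 A K0 hℓ hA
  have hchar : CharP (IsLocalRing.ResidueField ↥(H61.A0 A K0)) ℓ :=
    H86.charP_residueField_A0 A K0 hℓ hA
  have hfin : Finite (IsLocalRing.ResidueField ↥(H61.A0 A K0)) :=
    H86.finite_residueField_A0 A K0 hℓ hA
  have halg : Algebra.IsAlgebraic K0 (AlgebraicClosure ℚ) := by
    have h := AlgebraicClosure.isAlgebraic ℚ
    exact ⟨fun x => (h.isAlgebraic x).tower_top K0⟩
  have hm' : IsUnit ((m : ℕ) : ↥(H61.A0 A K0)) := H86.isUnit_natCast_A0 A K0 hℓ hA hm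
  apply modelKum_of_gen
  by_cases h2 : ℓ = 2
  · -- `ℓ = 2`: the chart `t₃`
    have h3L : 3 ∣ L := by
      rw [h2, H16.auxM_two] at haux
      exact haux
    have h27 : ¬ ℓ ∣ 27 := by
      rw [h2]; norm_num
    have hc : IsUnit ((27 : ℕ) : ↥(H61.A0 A K0)) := H86.isUnit_natCast_A0 A K0 hℓ hA h27
    exact modelKumGen_three (H61.A0 A K0) ℓ L hℓL h3L m hm' (by exact_mod_cast hc)
  by_cases h3 : ℓ = 3
  · -- `ℓ = 3`: the chart `t₂`
    have h2L : 2 ∣ L := by
      rw [h3, H16.auxM_three] at haux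
      exact haux
    have h64 : ¬ ℓ ∣ 64 := by
      rw [h3]; norm_num
    have hc : IsUnit ((64 : ℕ) : ↥(H61.A0 A K0)) := H86.isUnit_natCast_A0 A K0 hℓ hA h64
    exact modelKumGen_two (H61.A0 A K0) ℓ L hℓL h2L m hm' (by exact_mod_cast hc)
  · -- `ℓ ≥ 5`: the chart `j`
    have h1728 : ¬ ℓ ∣ 1728 := by
      intro hd
      have e : (1728 : ℕ) = 2 ^ 6 * 3 ^ 3 := by norm_num
      rw [e] at hd
      rcases (Nat.Prime.dvd_mul hℓ).mp hd with h | h
      · exact h2 ((Nat.prime_dvd_prime_iff_eq hℓ Nat.prime_two).mp (hℓ.dvd_of_dvd_pow h))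
      · exact h3 ((Nat.prime_dvd_prime_iff_eq hℓ Nat.prime_three).mp (hℓ.dvd_of_dvd_pow h))
    have hc : IsUnit ((1728 : ℕ) : ↥(H61.A0 A K0)) :=
      H86.isUnit_natCast_A0 A K0 hℓ hA h1728
    exact modelKumGen_j (H61.A0 A K0) ℓ L hℓL m hm' (by exact_mod_cast hc)

/-- **`H60.ModelKumStmt`.** -/
theorem modelKumStmt : H60.ModelKumStmt := by
  intro L _ ℓ _ hℓL haux A hA m hm
  exact ⟨∅, fun K0 hfin _ => modelKum A K0 L ℓ hℓL haux hA m hm⟩

/-- **The frozen statement S18** (literal frozen signature). -/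
theorem s18 (N : ℕ) [NeZero N] {ℓ : ℕ} [Fact ℓ.Prime] (hℓN : ¬ ℓ ∣ N)
    (A : ValuationSubring (AlgebraicClosure ℚ)) (hA : A.LiesOverPrime ℓ)
    (h : ModularCurve.ReductionInputsModL A N) (m : ℕ) (hm : ¬ ℓ ∣ m)
    (z : ModularCurve.JZero N) (hmz : m • z = 0)
    (hz : ModularCurve.reductionModL A N z = 0) : z = 0 :=
  H60.result_of_modelKumStmt modelKumStmt N hℓN A hA h m hm z hmz hz

end Final

end

end Fermat.Agent.S18.H19
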