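import Mathlib

set_option autoImplicit false

/-!
# S18, node KC1 (local-UFD form): base sections of the Kummer core (helper76)

Pure commutative algebra, Mathlib only.

Setting: `B` a noetherian integrally closed domain with fraction field `F` (a chart: the integral
closure of `A₀[x]` in the function field), `π ∈ B` such that `C = B / π` is a Dedekind domain
(the normal special-fibre chart).  `f ∈ Fˣ` with
* (a) `f ≡ 1 mod π` in `B_(π)` (Gauss unit with reduction `1`);
* (b) `f` is a unit times an `m`-th power in every discrete valuation ring `O ≠ ⊤` of `F`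
  containing `B[1/π]` (i.e. `m ∣ ord_O f` on the generic fibre).

Conclusion (`exists_base_section`): there is `s ∈ F`, `s ≡ 1 mod π` in `B_(π)`, with
`s ^ m = f * (1 + π b)`, `b ∈ B`.  No hypothesis that `m` is a unit.

`exists_base_section_of_reg` is the same statement with the Dedekind hypothesis replaced by the
two properties of `B / π` that the proof uses (`π` prime; every ideal is locally generated by one
of its elements at the maximal ideals containing `π`; `m`-th-root closedness); the literal
`H63.StmtBase` of `KCStmts_helper63` is derived from it in `KC1_helper76`.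

Ingredients, exported:
* `dedekind_local_principal` : ideals of a Dedekind domain are locally principal, elementwise form;
* `ufd_of_local_principal` (L1) : a noetherian local domain with a prime `π` modulo which every
  prime ideal not containing `π` is generated by one of its elements is a UFD (Kaplansky + Nakayama);
* `primeValuationSubring` : the DVR `R_(q)` of a prime element `q` of a UFD, as a `ValuationSubring`;
* `exists_unit_mul_pow_of_ufd` (L2) : in `Frac` of a UFD, `f` is a unit times an `m`-th power as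
  soon as it is so at every prime element;
* `rootMod_add` : `{y | y ^ m ∈ f • B}` is closed under addition for `B` integrally closed;
* `exists_local_root` : at every maximal ideal `n ∋ π` there are `y ∈ F`, `b ∈ B ∖ n` with
  `y ^ m = f * b`.
-/

namespace Fermat.Agent.S18.H76

open Ideal

/-- In a Dedekind domain every ideal is locally principal at a maximal ideal, with an explicit
generator taken from the ideal and an explicit denominator. -/
theorem dedekind_local_principal {C : Type*} [CommRing C] [IsDedekindDomain C] (n : Ideal C)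
    (J : Ideal C) (hn : n ≠ ⊤) :
    ∃ g ∈ J, ∃ e : C, e ∉ n ∧ ∀ x ∈ J, e * x ∈ Ideal.span {g} := by
  by_cases hJ : J = ⊥
  · refine ⟨0, by simp, 1, (Ideal.ne_top_iff_one n).mp hn, fun x hx => ?_⟩
    rw [hJ, Ideal.mem_bot] at hx
    simp [hx]
  obtain ⟨k, J', hndvd, hJJ'⟩ := WfDvdMonoid.max_power_factor' (α := Ideal C) (a₀ := J) (x := n) hJ
    (show ¬ IsUnit n by rwa [Ideal.isUnit_iff])
  have h1 : ¬ J ≤ n ^ (k + 1) := by
    intro hle
    obtain ⟨J'', hJ''⟩ := Ideal.dvd_iff_le.mpr hle
    apply hndvd
    refine ⟨J'', ?_⟩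
    have hnk : n ^ k ≠ 0 := by
      intro h0
      apply hJ
      rw [hJJ', h0, zero_mul]
      rfl
    apply mul_left_cancel₀ hnk
    rw [← hJJ', hJ'', pow_succ, mul_assoc]
  obtain ⟨g, hgJ, hgn⟩ := SetLike.not_le_iff_exists.mp h1
  have h2 : n ^ k ∣ Ideal.span {g} := by
    rw [Ideal.dvd_iff_le, Ideal.span_singleton_le_iff_mem]
    have : J ≤ n ^ k := by
      rw [hJJ']
      exact Ideal.mul_le_left
    exact this hgJ
  obtain ⟨G', hG'⟩ := h2
  have h3 : ¬ G' ≤ n := by
    intro hle
    obtain ⟨G'', rfl⟩ := Ideal.dvd_iff_le.mpr hle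
    apply hgn
    have h4 : Ideal.span {g} = n ^ (k + 1) * G'' := by rw [hG', pow_succ, mul_assoc]
    have h5 : Ideal.span {g} ≤ n ^ (k + 1) := h4 ▸ Ideal.mul_le_left
    exact h5 (Ideal.mem_span_singleton_self g)
  obtain ⟨e, heG', hen⟩ := SetLike.not_le_iff_exists.mp h3
  refine ⟨g, hgJ, e, hen, fun x hx => ?_⟩
  have h6 : e * x ∈ G' * J := Ideal.mul_mem_mul heG' hx
  rw [hJJ', ← mul_assoc, mul_comm G' (n ^ k), ← hG'] at h6
  exact Ideal.mul_le_left h6

/-- (L1) A noetherian local domain with a prime element `π` such that every prime ideal not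
containing `π` is generated by one element modulo `π`, is a UFD. -/
theorem ufd_of_local_principal {R : Type*} [CommRing R] [IsDomain R] [IsNoetherianRing R]
    [IsLocalRing R] (π : R) (hπ : Prime π)
    (H : ∀ q : Ideal R, q.IsPrime → π ∉ q → ∃ g ∈ q, q ≤ Ideal.span {g} ⊔ Ideal.span {π}) :
    UniqueFactorizationMonoid R := by
  rw [UniqueFactorizationMonoid.iff_exists_prime_mem_of_isPrime]
  intro q hq0 hq
  by_cases hπq : π ∈ q
  · exact ⟨π, hπq, hπ⟩
  obtain ⟨g, hgq, hle⟩ := H q hq hπq
  have h1 : q ≤ Ideal.span {g} ⊔ (Ideal.span {π}) • q := by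
    intro z hz
    obtain ⟨y, hy, w, hw, rfl⟩ := Submodule.mem_sup.mp (hle hz)
    obtain ⟨a, rfl⟩ := Ideal.mem_span_singleton'.mp hy
    obtain ⟨b, rfl⟩ := Ideal.mem_span_singleton'.mp hw
    have hbq : b ∈ q := by
      have h2 : b * π ∈ q := by
        have h3 := q.sub_mem hz (q.mul_mem_left a hgq)
        simpa using h3
      exact (hq.mem_or_mem h2).resolve_right hπq
    refine Submodule.mem_sup.mpr ⟨a * g, Ideal.mem_span_singleton'.mpr ⟨a, rfl⟩, b * π, ?_, rfl⟩
    rw [mul_comm, smul_eq_mul]
    exact Ideal.mul_mem_mul (Ideal.mem_span_singleton_self π) hbq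
  have hjac : Ideal.span {π} ≤ Ideal.jacobson ⊥ := by
    rw [IsLocalRing.jacobson_eq_maximalIdeal ⊥ bot_ne_top, Ideal.span_singleton_le_iff_mem]
    exact (IsLocalRing.mem_maximalIdeal π).mpr hπ.not_isUnit
  have h2 : q ≤ Ideal.span {g} :=
    Submodule.le_of_le_smul_of_le_jacobson_bot (IsNoetherian.noetherian q) hjac h1
  have hqg : q = Ideal.span {g} := le_antisymm h2 ((Ideal.span_singleton_le_iff_mem _).mpr hgq)
  have hg0 : g ≠ 0 := by
    rintro rfl
    exact hq0 (by simpa using hqg)
  refine ⟨g, hgq, ?_⟩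
  rw [← Ideal.span_singleton_prime hg0, ← hqg]
  exact hq

/-- (1) If `B` is integrally closed with fraction field `F`, the set of `y : F` with
`y ^ m ∈ f • B` is closed under addition. -/
theorem rootMod_add {B F : Type*} [CommRing B] [IsDomain B] [IsIntegrallyClosed B] [Field F]
    [Algebra B F] [IsFractionRing B F] (m : ℕ) (hm : 0 < m) (f : F) (hf : f ≠ 0) (y z : F)
    (b1 b2 : B) (hy : y ^ m = f * algebraMap B F b1) (hz : z ^ m = f * algebraMap B F b2) :
    ∃ b : B, (y + z) ^ m = f * algebraMap B F b := by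
  have hk : ∀ k ∈ Finset.range (m + 1), ∃ β : B, algebraMap B F β = y ^ k * z ^ (m - k) / f := by
    intro k hk
    have hkm : k ≤ m := Nat.lt_succ_iff.mp (Finset.mem_range.mp hk)
    apply IsIntegrallyClosed.exists_algebraMap_eq_of_isIntegral_pow hm
    have h1 : (y ^ k * z ^ (m - k) / f) ^ m = algebraMap B F (b1 ^ k * b2 ^ (m - k)) := by
      rw [div_pow, mul_pow, ← pow_mul, ← pow_mul, mul_comm k m, mul_comm (m - k) m, pow_mul,
        pow_mul, hy, hz, mul_pow, mul_pow, map_mul, map_pow, map_pow]
      have h2 : f ^ k * f ^ (m - k) = f ^ m := by rw [← pow_add, Nat.add_sub_cancel' hkm]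
      field_simp
      rw [← h2]
      ring
    rw [h1]
    exact isIntegral_algebraMap
  choose! β hβ using hk
  refine ⟨∑ k ∈ Finset.range (m + 1), β k * (m.choose k : B), ?_⟩
  rw [add_pow, map_sum, Finset.mul_sum]
  refine Finset.sum_congr rfl fun k hk => ?_
  rw [map_mul, hβ k hk, map_natCast]
  field_simp


section PrimeLoc

variable {R : Type*} (K : Type*) [CommRing R] [IsDomain R] [UniqueFactorizationMonoid R] [Field K]
  [Algebra R K] [IsFractionRing R K]

/-- The localisation of a UFD `R` at a prime element `q`, as a valuation subring of the fraction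
field `K`: the set of fractions `a / s` with `q ∤ s`. -/
noncomputable def primeValuationSubring (q : R) (hq : Prime q) : ValuationSubring K where
  carrier := {x | ∃ a s : R, ¬ q ∣ s ∧ x * algebraMap R K s = algebraMap R K a}
  mul_mem' := by
    rintro x y ⟨a, s, hs, hx⟩ ⟨b, t, ht, hy⟩
    refine ⟨a * b, s * t, fun h => (hq.dvd_or_dvd h).elim hs ht, ?_⟩
    rw [map_mul, map_mul, ← hx, ← hy]
    ring
  one_mem' := ⟨1, 1, fun h => hq.not_isUnit (isUnit_of_dvd_one h), by simp⟩
  add_mem' := by
    rintro x y ⟨a, s, hs, hx⟩ ⟨b, t, ht, hy⟩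
    refine ⟨a * t + b * s, s * t, fun h => (hq.dvd_or_dvd h).elim hs ht, ?_⟩
    simp only [map_mul, map_add]
    rw [← hx, ← hy]
    ring
  zero_mem' := ⟨0, 1, fun h => hq.not_isUnit (isUnit_of_dvd_one h), by simp⟩
  neg_mem' := by
    rintro x ⟨a, s, hs, hx⟩
    exact ⟨-a, s, hs, by rw [map_neg, ← hx]; ring⟩
  mem_or_inv_mem' := by
    intro x
    have hinj := IsFractionRing.injective R K
    have hqK : algebraMap R K q ≠ 0 := fun h => hq.ne_zero (hinj (by rw [h, map_zero]))
    by_cases hx0 : x = 0
    · left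
      exact ⟨0, 1, fun h => hq.not_isUnit (isUnit_of_dvd_one h), by simp [hx0]⟩
    obtain ⟨a, b, hb, rfl⟩ := IsFractionRing.div_surjective (A := R) x
    have hb0 : b ≠ 0 := nonZeroDivisors.ne_zero hb
    have ha0 : a ≠ 0 := by
      rintro rfl
      simp at hx0
    obtain ⟨i, a', ha', rfl⟩ := WfDvdMonoid.max_power_factor ha0 hq.irreducible
    obtain ⟨j, b', hb', rfl⟩ := WfDvdMonoid.max_power_factor hb0 hq.irreducible
    have ha'0 : algebraMap R K a' ≠ 0 := fun h => ha' (by
      have : a' = 0 := hinj (by rw [h, map_zero])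
      rw [this]; exact dvd_zero q)
    have hb'0 : algebraMap R K b' ≠ 0 := fun h => hb' (by
      have : b' = 0 := hinj (by rw [h, map_zero])
      rw [this]; exact dvd_zero q)
    rcases le_total j i with hji | hij
    · left
      obtain ⟨d, rfl⟩ := Nat.exists_eq_add_of_le hji
      refine ⟨q ^ d * a', b', hb', ?_⟩
      simp only [map_mul, map_pow, pow_add]
      field_simp
    · right
      obtain ⟨d, rfl⟩ := Nat.exists_eq_add_of_le hij
      refine ⟨q ^ d * b', a', ha', ?_⟩
      simp only [map_mul, map_pow, pow_add]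
      field_simp

theorem mem_primeValuationSubring (q : R) (hq : Prime q) (x : K) :
    x ∈ primeValuationSubring K q hq ↔
      ∃ a s : R, ¬ q ∣ s ∧ x * algebraMap R K s = algebraMap R K a := Iff.rfl

theorem algebraMap_mem_primeValuationSubring (q : R) (hq : Prime q) (r : R) :
    algebraMap R K r ∈ primeValuationSubring K q hq :=
  ⟨r, 1, fun h => hq.not_isUnit (isUnit_of_dvd_one h), by simp⟩

theorem inv_algebraMap_mem_primeValuationSubring (q : R) (hq : Prime q) (r : R) (hr : ¬ q ∣ r) :
    (algebraMap R K r)⁻¹ ∈ primeValuationSubring K q hq := by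
  have hinj := IsFractionRing.injective R K
  have hr0 : algebraMap R K r ≠ 0 := fun h => hr (by
    have : r = 0 := hinj (by rw [h, map_zero])
    rw [this]; exact dvd_zero q)
  exact ⟨1, r, hr, by rw [inv_mul_cancel₀ hr0, map_one]⟩

theorem inv_algebraMap_notMem_primeValuationSubring (q : R) (hq : Prime q) :
    (algebraMap R K q)⁻¹ ∉ primeValuationSubring K q hq := by
  have hinj := IsFractionRing.injective R K
  have hqK : algebraMap R K q ≠ 0 := fun h => hq.ne_zero (hinj (by rw [h, map_zero]))
  rintro ⟨a, s, hs, h⟩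
  apply hs
  refine ⟨a, hinj ?_⟩
  rw [map_mul, ← h]
  field_simp

theorem primeValuationSubring_ne_top (q : R) (hq : Prime q) :
    primeValuationSubring K q hq ≠ ⊤ := by
  intro h
  apply inv_algebraMap_notMem_primeValuationSubring K q hq
  rw [h]
  exact ValuationSubring.mem_top _

/-- a fraction `a / s` with `q ∤ a`, `q ∤ s` is a unit of the valuation subring. -/
theorem isUnit_primeValuationSubring (q : R) (hq : Prime q) (x : primeValuationSubring K q hq)
    (a s : R) (ha : ¬ q ∣ a) (hs : ¬ q ∣ s) (hx : (x : K) * algebraMap R K s = algebraMap R K a) :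
    IsUnit x := by
  have hinj := IsFractionRing.injective R K
  have ha0 : algebraMap R K a ≠ 0 := fun h => ha (by
    have : a = 0 := hinj (by rw [h, map_zero])
    rw [this]; exact dvd_zero q)
  have hs0 : algebraMap R K s ≠ 0 := fun h => hs (by
    have : s = 0 := hinj (by rw [h, map_zero])
    rw [this]; exact dvd_zero q)
  have hx0 : (x : K) ≠ 0 := by
    intro h
    rw [h, zero_mul] at hx
    exact ha0 hx.symm
  have hinv : (x : K)⁻¹ ∈ primeValuationSubring K q hq := by
    refine ⟨s, a, ha, ?_⟩
    rw [← hx]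
    field_simp
  refine isUnit_iff_exists_inv.mpr ⟨⟨(x : K)⁻¹, hinv⟩, ?_⟩
  apply Subtype.ext
  simp [hx0]

theorem hasUnitMulPow_primeValuationSubring (q : R) (hq : Prime q) :
    IsDiscreteValuationRing.HasUnitMulPowIrreducibleFactorization (primeValuationSubring K q hq) := by
  have hinj := IsFractionRing.injective R K
  have hqK : algebraMap R K q ≠ 0 := fun h => hq.ne_zero (hinj (by rw [h, map_zero]))
  set p : primeValuationSubring K q hq :=
    ⟨algebraMap R K q, algebraMap_mem_primeValuationSubring K q hq q⟩ with hp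
  have hp0 : p ≠ 0 := fun h => hqK (congrArg Subtype.val h)
  have hpu : ¬ IsUnit p := by
    intro hu
    obtain ⟨y, hy⟩ := isUnit_iff_exists_inv.mp hu
    apply inv_algebraMap_notMem_primeValuationSubring K q hq
    have h1 : (algebraMap R K q) * (y : K) = 1 := by
      have := congrArg Subtype.val hy
      simpa [hp] using this
    have h2 : (algebraMap R K q)⁻¹ = (y : K) := inv_eq_of_mul_eq_one_right h1
    rw [h2]
    exact y.2
  have hassoc : ∀ {x : primeValuationSubring K q hq}, x ≠ 0 → ∃ n : ℕ, Associated (p ^ n) x := by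
    intro x hx
    obtain ⟨a, s, hs, hxs⟩ := x.2
    have hs0 : algebraMap R K s ≠ 0 := fun h => hs (by
      have : s = 0 := hinj (by rw [h, map_zero])
      rw [this]; exact dvd_zero q)
    have ha0 : a ≠ 0 := by
      rintro rfl
      rw [map_zero] at hxs
      rcases mul_eq_zero.mp hxs with h | h
      · exact hx (Subtype.ext h)
      · exact hs0 h
    obtain ⟨n, a', ha', rfl⟩ := WfDvdMonoid.max_power_factor ha0 hq.irreducible
    refine ⟨n, ?_⟩
    -- the unit `a' / s`
    have hwmem : algebraMap R K a' / algebraMap R K s ∈ primeValuationSubring K q hq :=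
      ⟨a', s, hs, by field_simp⟩
    have hwu : IsUnit (⟨_, hwmem⟩ : primeValuationSubring K q hq) :=
      isUnit_primeValuationSubring K q hq _ a' s ha' hs (by field_simp)
    obtain ⟨u, hu⟩ := hwu
    refine ⟨u, ?_⟩
    apply Subtype.ext
    rw [hu]
    simp only [hp, MulMemClass.coe_mul, SubmonoidClass.coe_pow]
    rw [map_mul, map_pow] at hxs
    field_simp
    linear_combination -hxs
  refine ⟨p, ?_, hassoc⟩
  rw [irreducible_iff]
  refine ⟨hpu, fun y z hyz => ?_⟩
  have hy0 : y ≠ 0 := by
    rintro rfl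
    rw [zero_mul] at hyz
    exact hp0 hyz
  have hz0 : z ≠ 0 := by
    rintro rfl
    rw [mul_zero] at hyz
    exact hp0 hyz
  obtain ⟨i, ui, hi⟩ := hassoc hy0
  obtain ⟨j, uj, hj⟩ := hassoc hz0
  rcases Nat.eq_zero_or_pos i with rfl | hi0
  · left
    rw [← hi, pow_zero, one_mul]
    exact ui.isUnit
  rcases Nat.eq_zero_or_pos j with rfl | hj0
  · right
    rw [← hj, pow_zero, one_mul]
    exact uj.isUnit
  exfalso
  apply hpu
  -- p = p^i ui * (p^j uj), with i, j ≥ 1: cancel p
  obtain ⟨i', rfl⟩ : ∃ i', i = i' + 1 := ⟨i - 1, by omega⟩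
  obtain ⟨j', rfl⟩ : ∃ j', j = j' + 1 := ⟨j - 1, by omega⟩
  have h1 : p * 1 = p * (p * (p ^ i' * ui * (p ^ j' * uj))) := by
    rw [mul_one]
    conv_lhs => rw [hyz, ← hi, ← hj]
    ring
  have h2 := mul_left_cancel₀ hp0 h1
  exact isUnit_iff_exists_inv.mpr ⟨_, h2.symm⟩

instance isDiscreteValuationRing_primeValuationSubring (q : R) (hq : Prime q) :
    IsDiscreteValuationRing (primeValuationSubring K q hq) :=
  IsDiscreteValuationRing.ofHasUnitMulPowIrreducibleFactorization
    (hasUnitMulPow_primeValuationSubring K q hq)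

end PrimeLoc


open UniqueFactorizationMonoid

/-- (L2) In the fraction field of a UFD: if at every prime element `q` the element `f` is a
`q`-unit times an `m`-th power, then `f` is a unit of `R` times an `m`-th power. -/
theorem exists_unit_mul_pow_of_ufd {R K : Type*} [CommRing R] [IsDomain R]
    [UniqueFactorizationMonoid R] [Field K] [Algebra R K] [IsFractionRing R K] (m : ℕ)
    (hm : 0 < m) (f : K) (hf : f ≠ 0)
    (H : ∀ q : R, Prime q → ∃ (a b : R) (g : K), ¬ q ∣ a ∧ ¬ q ∣ b ∧
      f * algebraMap R K b = algebraMap R K a * g ^ m) :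
    ∃ (u : Rˣ) (g : K), f = algebraMap R K u * g ^ m := by
  classical
  let _ : StrongNormalizationMonoid R := UniqueFactorizationMonoid.strongNormalizationMonoid
  have hinj := IsFractionRing.injective R K
  have hne : ∀ x : R, x ≠ 0 → algebraMap R K x ≠ 0 := fun x hx h =>
    hx (hinj (by rw [h, map_zero]))
  obtain ⟨a0, b0, hb0', rfl⟩ := IsFractionRing.div_surjective (A := R) f
  have hb0 : b0 ≠ 0 := nonZeroDivisors.ne_zero hb0'
  have ha0 : a0 ≠ 0 := by
    rintro rfl
    simp at hf
  have hb0K := hne b0 hb0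
  have ha0K := hne a0 ha0
  -- key divisibility
  have key : ∀ p : R, Prime p → ∃ t : ℤ,
      ((normalizedFactors a0).count p : ℤ) - (normalizedFactors b0).count p = m * t := by
    intro p hp
    obtain ⟨a, b, g, hpa, hpb, hfab⟩ := H p hp
    obtain ⟨c, d, hd', rfl⟩ := IsFractionRing.div_surjective (A := R) g
    have hd : d ≠ 0 := nonZeroDivisors.ne_zero hd'
    have ha : a ≠ 0 := fun h => hpa (h ▸ dvd_zero p)
    have hb : b ≠ 0 := fun h => hpb (h ▸ dvd_zero p)
    have hdK := hne d hd
    have hc : c ≠ 0 := by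
      rintro rfl
      rw [map_zero, zero_div, zero_pow hm.ne', mul_zero] at hfab
      exact mul_ne_zero hf (hne b hb) hfab
    have hR : a0 * b * d ^ m = a * c ^ m * b0 := by
      apply hinj
      simp only [map_mul, map_pow]
      rw [div_pow] at hfab
      field_simp at hfab
      linear_combination hfab
    have hcount := congrArg (fun x => (normalizedFactors x).count p) hR
    beta_reduce at hcount
    rw [normalizedFactors_mul (mul_ne_zero ha0 hb) (pow_ne_zero m hd),
      normalizedFactors_mul ha0 hb, normalizedFactors_pow,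
      normalizedFactors_mul (mul_ne_zero ha (pow_ne_zero m hc)) hb0,
      normalizedFactors_mul ha (pow_ne_zero _ hc), normalizedFactors_pow] at hcount
    simp only [Multiset.count_add, Multiset.count_nsmul] at hcount
    have h0a : (normalizedFactors a).count p = 0 :=
      Multiset.count_eq_zero.mpr (fun h => hpa (dvd_of_mem_normalizedFactors h))
    have h0b : (normalizedFactors b).count p = 0 :=
      Multiset.count_eq_zero.mpr (fun h => hpb (dvd_of_mem_normalizedFactors h))
    refine ⟨((normalizedFactors c).count p : ℤ) - (normalizedFactors d).count p, ?_⟩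
    rw [h0a, h0b] at hcount
    have hcount' : ((normalizedFactors a0).count p : ℤ) + 0 + m * (normalizedFactors d).count p
        = 0 + m * (normalizedFactors c).count p + (normalizedFactors b0).count p := by
      exact_mod_cast hcount
    linarith
  choose! t ht using key
  set na := normalizedFactors a0 with hna
  set nb := normalizedFactors b0 with hnb
  set S := na.toFinset ∪ nb.toFinset with hS
  have hSprime : ∀ p ∈ S, Prime p := by
    intro p hp
    rcases Finset.mem_union.mp hp with h | h
    · exact prime_of_normalized_factor p (Multiset.mem_toFinset.mp h)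
    · exact prime_of_normalized_factor p (Multiset.mem_toFinset.mp h)
  have hpK : ∀ p ∈ S, algebraMap R K p ≠ 0 := fun p hp => hne p (hSprime p hp).ne_zero
  obtain ⟨ua, hua⟩ := prod_normalizedFactors ha0
  obtain ⟨ub, hub⟩ := prod_normalizedFactors hb0
  have hpa : na.prod = ∏ p ∈ S, p ^ na.count p :=
    Finset.prod_multiset_count_of_subset na S Finset.subset_union_left
  have hpb : nb.prod = ∏ p ∈ S, p ^ nb.count p :=
    Finset.prod_multiset_count_of_subset nb S Finset.subset_union_right
  refine ⟨ua * ub⁻¹, ∏ p ∈ S, (algebraMap R K p) ^ (t p), ?_⟩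
  have hstep : ∀ p ∈ S, (algebraMap R K p ^ t p) ^ m
      = algebraMap R K p ^ na.count p / algebraMap R K p ^ nb.count p := by
    intro p hp
    rw [← zpow_natCast, ← zpow_mul, mul_comm, ← ht p (hSprime p hp), zpow_sub₀ (hpK p hp),
      zpow_natCast, zpow_natCast]
  have hubinv : algebraMap R K ((ub⁻¹ : Rˣ) : R) = (algebraMap R K (ub : R))⁻¹ := by
    apply eq_inv_of_mul_eq_one_left
    rw [← map_mul, Units.inv_mul, map_one]
  have hubK : algebraMap R K (ub : R) ≠ 0 := hne _ ub.ne_zero
  have hprodb : (∏ p ∈ S, algebraMap R K p ^ nb.count p) ≠ 0 :=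
    Finset.prod_ne_zero_iff.mpr fun p hp => pow_ne_zero _ (hpK p hp)
  rw [← Finset.prod_pow, Finset.prod_congr rfl hstep, Finset.prod_div_distrib]
  conv_lhs => rw [← hua, ← hub, hpa, hpb]
  simp only [map_mul, map_prod, map_pow, Units.val_mul, hubinv]
  field_simp


/-- The local step: at a maximal ideal `n ∋ π` of the chart `B` (at which every ideal of `B/π`
is locally principal, `hLP`) the function `f` is an `m`-th power up to a unit of `B_n`; in
elementary form: `y ^ m = f * b` with `b ∈ B \ n`. -/
theorem exists_local_root {B F : Type*} [CommRing B] [IsDomain B] [IsNoetherianRing B]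
    [Field F] [Algebra B F] [IsFractionRing B F] (π : B) (hπ : Prime π)
    (m : ℕ) (hm : 0 < m) (f : F) (hf : f ≠ 0)
    (hf1 : ∃ a s : B, ¬ π ∣ a ∧ ¬ π ∣ s ∧ f * algebraMap B F s = algebraMap B F a)
    (hval : ∀ O : ValuationSubring F, O ≠ ⊤ → IsPrincipalIdealRing O →
      (∀ x : B, algebraMap B F x ∈ O) → (algebraMap B F π)⁻¹ ∈ O →
        ∃ w g : F, w ∈ O ∧ w⁻¹ ∈ O ∧ f = w * g ^ m)
    (n : Ideal B) (hn : n.IsMaximal) (hπn : π ∈ n)
    (hLP : ∀ J : Ideal B, ∃ g ∈ J, ∀ x ∈ J, ∃ e : B, e ∉ n ∧
      e * x ∈ Ideal.span {g} ⊔ Ideal.span {π}) :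
    ∃ (y : F) (b : B), y ^ m = f * algebraMap B F b ∧ b ∉ n := by
  classical
  have hnprime : n.IsPrime := hn.isPrime
  have hSle : n.primeCompl ≤ nonZeroDivisors B := n.primeCompl_le_nonZeroDivisors
  let R := Localization.subalgebra.ofField F n.primeCompl hSle
  have hloc : IsLocalization.AtPrime R n :=
    Localization.subalgebra.isLocalization_ofField F n.primeCompl hSle
  have hlocal : IsLocalRing R := IsLocalization.AtPrime.isLocalRing R n
  have hnoeth : IsNoetherianRing R := IsLocalization.isNoetherianRing n.primeCompl R inferInstance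
  have hfrac : IsFractionRing R F :=
    Localization.subalgebra.isFractionRing_ofField F n.primeCompl hSle
  have hinjBR : Function.Injective (algebraMap B R) := IsLocalization.injective R hSle
  set π' : R := algebraMap B R π with hπ'
  have hπ'0 : π' ≠ 0 := fun h => hπ.ne_zero (hinjBR (by rw [← hπ', h, map_zero]))
  -- divisibility by `π'` in `R` descends to `B`
  have hdvd : ∀ x : B, π' ∣ algebraMap B R x → π ∣ x := by
    rintro x ⟨z, hz⟩
    obtain ⟨⟨c, s⟩, hcs⟩ := IsLocalization.surj n.primeCompl z
    have h1 : x * s = π * c := by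
      apply hinjBR
      rw [map_mul, hz, map_mul, mul_assoc, hcs]
    rcases hπ.dvd_or_dvd (Dvd.intro c h1.symm) with h | h
    · exact h
    · exact absurd (n.mem_of_dvd h hπn) s.2
  have hπ'prime : Prime π' := by
    have h1 : (Ideal.span {π}).IsPrime := (Ideal.span_singleton_prime hπ.ne_zero).mpr hπ
    have h2 : Disjoint (n.primeCompl : Set B) (Ideal.span {π} : Set B) := by
      rw [Set.disjoint_left]
      intro x hxS hx
      exact hxS ((Ideal.span_singleton_le_iff_mem n).mpr hπn hx)
    have h3 := IsLocalization.isPrime_of_isPrime_disjoint n.primeCompl R _ h1 h2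
    rw [Ideal.map_span, Set.image_singleton] at h3
    exact (Ideal.span_singleton_prime hπ'0).mp h3
  -- (L1) hypothesis
  have H1 : ∀ q : Ideal R, q.IsPrime → π' ∉ q →
      ∃ g ∈ q, q ≤ Ideal.span {g} ⊔ Ideal.span {π'} := by
    intro q hq hπq
    obtain ⟨g0, hg0q, hJ⟩ := hLP (q.comap (algebraMap B R))
    refine ⟨algebraMap B R g0, hg0q, fun z hz => ?_⟩
    obtain ⟨⟨x, s⟩, hxs⟩ := IsLocalization.surj n.primeCompl z
    have hxq0 : x ∈ q.comap (algebraMap B R) := by
      show algebraMap B R x ∈ q
      rw [← hxs]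
      exact q.mul_mem_right _ hz
    obtain ⟨e0, he0, h1⟩ := hJ x hxq0
    obtain ⟨y1, hy1, y2, hy2, h12⟩ := Submodule.mem_sup.mp h1
    obtain ⟨h, rfl⟩ := Ideal.mem_span_singleton'.mp hy1
    obtain ⟨t, rfl⟩ := Ideal.mem_span_singleton'.mp hy2
    have hu : IsUnit (algebraMap B R (e0 * s)) :=
      IsLocalization.map_units R (⟨e0 * s, n.primeCompl.mul_mem he0 s.2⟩ : n.primeCompl)
    obtain ⟨u, hu⟩ := hu
    have hz' : z * (u : R) = algebraMap B R h * algebraMap B R g0 + algebraMap B R t * π' := by
      rw [hu, map_mul, mul_comm (algebraMap B R e0), ← mul_assoc, hxs, hπ', ← map_mul, ← map_mul,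
        ← map_mul, ← map_add]
      congr 1
      linear_combination -h12
    have hz'' : z = ((u⁻¹ : Rˣ) : R) * algebraMap B R h * algebraMap B R g0 +
        ((u⁻¹ : Rˣ) : R) * algebraMap B R t * π' := by
      have h3 : z = z * (u : R) * ((u⁻¹ : Rˣ) : R) := by
        rw [mul_assoc, Units.mul_inv, mul_one]
      rw [h3, hz']
      ring
    rw [hz'']
    exact Submodule.add_mem_sup (Ideal.mem_span_singleton'.mpr ⟨_, rfl⟩)
      (Ideal.mem_span_singleton'.mpr ⟨_, rfl⟩)
  have hufd : UniqueFactorizationMonoid R := ufd_of_local_principal π' hπ'prime H1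
  -- (L2) hypothesis
  have H2 : ∀ q : R, Prime q → ∃ (a b : R) (g : F), ¬ q ∣ a ∧ ¬ q ∣ b ∧
      f * algebraMap R F b = algebraMap R F a * g ^ m := by
    intro q hq
    by_cases hqπ : q ∣ π'
    · obtain ⟨af, sf, haf, hsf, hfs⟩ := hf1
      have hassoc : Associated q π' := hq.associated_of_dvd hπ'prime hqπ
      refine ⟨algebraMap B R af, algebraMap B R sf, 1,
        fun h => haf (hdvd af (hassoc.symm.dvd.trans h)),
        fun h => hsf (hdvd sf (hassoc.symm.dvd.trans h)), ?_⟩
      rw [one_pow, mul_one, ← IsScalarTower.algebraMap_apply, ← IsScalarTower.algebraMap_apply]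
      exact hfs
    · obtain ⟨w, g, hw, hwinv, hfw⟩ := hval (primeValuationSubring F q hq)
        (primeValuationSubring_ne_top F q hq) inferInstance
        (fun x => by
          rw [IsScalarTower.algebraMap_apply B R F]
          exact algebraMap_mem_primeValuationSubring F q hq _)
        (by
          rw [IsScalarTower.algebraMap_apply B R F]
          exact inv_algebraMap_mem_primeValuationSubring F q hq π' hqπ)
      obtain ⟨a, s, hs, hws⟩ := hw
      obtain ⟨a', s', hs', hws'⟩ := hwinv
      have hw0 : w ≠ 0 := by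
        rintro rfl
        rw [zero_mul] at hfw
        exact hf hfw
      have ha : ¬ q ∣ a := by
        intro hqa
        have h1 : a * a' = s * s' := by
          apply IsFractionRing.injective R F
          rw [map_mul, map_mul, ← hws, ← hws']
          field_simp
        have h2 : q ∣ s * s' := h1 ▸ Dvd.dvd.mul_right hqa a'
        exact (hq.dvd_or_dvd h2).elim hs hs'
      exact ⟨a, s, g, ha, hs, by rw [hfw, mul_right_comm, hws]⟩
  obtain ⟨u, g, hfug⟩ := exists_unit_mul_pow_of_ufd m hm f hf H2
  obtain ⟨⟨c, e⟩, hce⟩ := IsLocalization.surj n.primeCompl ((u⁻¹ : Rˣ) : R)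
  have hc : c ∉ n := by
    intro hcn
    have h1 : IsUnit (algebraMap B R c) := by
      rw [← hce]
      exact (u⁻¹).isUnit.mul (IsLocalization.map_units R e)
    exact (IsLocalization.AtPrime.isUnit_to_map_iff R n c).mp h1 hcn
  refine ⟨g * algebraMap B F e, c * (e : B) ^ (m - 1), ?_, ?_⟩
  · have h1 : algebraMap R F ((u⁻¹ : Rˣ) : R) * algebraMap B F e = algebraMap B F c := by
      rw [IsScalarTower.algebraMap_apply B R F, IsScalarTower.algebraMap_apply B R F c, ← map_mul,
        hce]
    have h2 : algebraMap R F (u : R) * algebraMap R F ((u⁻¹ : Rˣ) : R) = 1 := by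
      rw [← map_mul, Units.mul_inv, map_one]
    obtain ⟨k, rfl⟩ : ∃ k, m = k + 1 := ⟨m - 1, by omega⟩
    simp only [Nat.add_sub_cancel, map_mul, map_pow]
    rw [mul_pow, hfug, ← h1]
    linear_combination (-(g ^ (k + 1) * algebraMap B F e ^ (k + 1))) * h2
  · intro hmem
    rcases hnprime.mem_or_mem hmem with h | h
    · exact hc h
    · exact e.2 (hnprime.mem_of_pow_mem _ h)

/-- **Base section of the Kummer core (KC1), general form.**
`B` a noetherian integrally closed domain with fraction field `F`, `π` a prime element such that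
* (`hLP`) at every maximal ideal `n ∋ π`, every ideal of `B` is generated modulo `π` by one of
  its elements, up to denominators outside `n` (the special fibre `B/π` is regular at `n`);
* (`hIC`) `B/π` is `m`-th-root closed in its fraction field.
Let `f ∈ F` be `≡ 1 mod π` in `B_(π)` and a unit times an `m`-th power in every discrete
valuation ring of `F` containing `B[1/π]`.  Then there is `s ∈ F`, `s ≡ 1 mod π` in `B_(π)`,
with `s ^ m = f * (1 + π b)`, `b ∈ B`. -/
theorem exists_base_section_of_reg {B F : Type*} [CommRing B] [IsDomain B] [IsNoetherianRing B]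
    [IsIntegrallyClosed B] [Field F] [Algebra B F] [IsFractionRing B F] (π : B) (hπ : Prime π)
    (m : ℕ) (hm : 0 < m) (f : F) (hf : f ≠ 0)
    (hf1 : ∃ a s : B, ¬ π ∣ s ∧ f * algebraMap B F s = algebraMap B F a ∧ π ∣ a - s)
    (hval : ∀ O : ValuationSubring F, O ≠ ⊤ → IsPrincipalIdealRing O →
      (∀ x : B, algebraMap B F x ∈ O) → (algebraMap B F π)⁻¹ ∈ O →
        ∃ w g : F, w ∈ O ∧ w⁻¹ ∈ O ∧ f = w * g ^ m)
    (hLP : ∀ n : Ideal B, n.IsMaximal → π ∈ n → ∀ J : Ideal B, ∃ g ∈ J, ∀ x ∈ J,
      ∃ e : B, e ∉ n ∧ e * x ∈ Ideal.span {g} ⊔ Ideal.span {π})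
    (hIC : ∀ a s b : B, ¬ π ∣ s → π ∣ a ^ m - b * s ^ m → ∃ r : B, π ∣ r * s - a) :
    ∃ (s : F) (b : B), s ^ m = f * (1 + algebraMap B F π * algebraMap B F b) ∧
      ∃ c d : B, ¬ π ∣ d ∧ s * algebraMap B F d = algebraMap B F c ∧ π ∣ c - d := by
  classical
  have hinj := IsFractionRing.injective B F
  have hprime : (Ideal.span {π}).IsPrime := (Ideal.span_singleton_prime hπ.ne_zero).mpr hπ
  set red : B →+* B ⧸ Ideal.span {π} := Ideal.Quotient.mk (Ideal.span {π}) with hreddef
  have hred : Function.Surjective red := Ideal.Quotient.mk_surjective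
  have hdom : IsDomain (B ⧸ Ideal.span {π}) := Ideal.Quotient.isDomain _
  have hred0 : ∀ x : B, red x = 0 ↔ π ∣ x := fun x => by
    rw [hreddef, Ideal.Quotient.eq_zero_iff_mem, Ideal.mem_span_singleton]
  obtain ⟨af, sf, hsf, hfs, hdvd⟩ := hf1
  have haf : ¬ π ∣ af := fun h => hsf (by
    have := dvd_sub h hdvd
    simpa using this)
  have hredsf : red sf ≠ 0 := fun h => hsf ((hred0 _).mp h)
  have hredaf : red af = red sf := by
    have := (hred0 _).mpr hdvd
    rwa [map_sub, sub_eq_zero] at this
  have hsf0 : algebraMap B F sf ≠ 0 := fun h => hsf (by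
    have : sf = 0 := hinj (by rw [h, map_zero])
    rw [this]; exact dvd_zero π)
  have hfeq : f = algebraMap B F af / algebraMap B F sf := by
    rw [← hfs]
    field_simp
  -- normality of `B`: numerators over the common denominator `sf`
  have hnum : ∀ (y : F) (b : B), y ^ m = f * algebraMap B F b →
      ∃ a : B, algebraMap B F a = y * algebraMap B F sf := by
    intro y b hy
    apply IsIntegrallyClosed.exists_algebraMap_eq_of_isIntegral_pow hm
    have h1 : (y * algebraMap B F sf) ^ m = algebraMap B F (af * b * sf ^ (m - 1)) := by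
      obtain ⟨k, rfl⟩ : ∃ k, m = k + 1 := ⟨m - 1, by omega⟩
      simp only [Nat.add_sub_cancel, map_mul, map_pow]
      rw [mul_pow, hy, ← hfs]
      ring
    rw [h1]
    exact isIntegral_algebraMap
  -- root closedness of `B/π`: the reduction class of a root
  have hclass : ∀ a b : B, (algebraMap B F a / algebraMap B F sf) ^ m = f * algebraMap B F b →
      ∃ r : B ⧸ Ideal.span {π}, r * red sf = red a ∧ r ^ m = red b := by
    intro a b hab
    have h1 : a ^ m * sf = af * b * sf ^ m := by
      apply hinj
      simp only [map_mul, map_pow]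
      rw [div_pow, hfeq] at hab
      field_simp at hab
      linear_combination hab
    have h2 : red a ^ m = red b * red sf ^ m := by
      have h3 := congrArg red h1
      simp only [map_mul, map_pow, hredaf] at h3
      exact mul_right_cancel₀ hredsf (by linear_combination h3)
    obtain ⟨r0, hr0⟩ := hIC a sf b hsf ((hred0 _).mp (by
      rw [map_sub, map_mul, map_pow, map_pow, h2, sub_self]))
    have hr1 : red r0 * red sf = red a := by
      have := (hred0 _).mpr hr0
      rwa [map_sub, map_mul, sub_eq_zero] at this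
    refine ⟨red r0, hr1, ?_⟩
    have h5 : (red r0 * red sf) ^ m = red b * red sf ^ m := by rw [hr1, h2]
    rw [mul_pow] at h5
    exact mul_right_cancel₀ (pow_ne_zero m hredsf) h5
  -- the ideal of reduction classes
  let J : Ideal (B ⧸ Ideal.span {π}) :=
    { carrier := {r | ∃ a b : B,
        (algebraMap B F a / algebraMap B F sf) ^ m = f * algebraMap B F b ∧ r * red sf = red a}
      add_mem' := by
        rintro r1 r2 ⟨a1, b1, h1, hr1⟩ ⟨a2, b2, h2, hr2⟩
        obtain ⟨b, hb⟩ := rootMod_add m hm f hf _ _ b1 b2 h1 h2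
        refine ⟨a1 + a2, b, ?_, ?_⟩
        · rw [map_add, add_div]
          exact hb
        · rw [add_mul, hr1, hr2, map_add]
      zero_mem' := ⟨0, 0, by simp [zero_pow hm.ne'], by simp⟩
      smul_mem' := by
        rintro c r ⟨a, b, h, hr⟩
        obtain ⟨c0, rfl⟩ := hred c
        refine ⟨c0 * a, c0 ^ m * b, ?_, ?_⟩
        · rw [map_mul, mul_div_assoc, mul_pow, h, map_mul, map_pow]
          ring
        · rw [smul_eq_mul, mul_assoc, hr, map_mul] }
  have hJ : J = ⊤ := by
    by_contra hne
    obtain ⟨nbar, hmax, hJle⟩ := Ideal.exists_le_maximal J hne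
    have hnmax : (nbar.comap red).IsMaximal := Ideal.comap_isMaximal_of_surjective red hred
    have hπn : π ∈ nbar.comap red := by
      rw [Ideal.mem_comap, (hred0 π).mpr dvd_rfl]
      exact nbar.zero_mem
    obtain ⟨y, b, hyb, hbn⟩ := exists_local_root π hπ m hm f hf
      ⟨af, sf, haf, hsf, hfs⟩ hval (nbar.comap red) hnmax hπn (hLP _ hnmax hπn)
    obtain ⟨a, ha⟩ := hnum y b hyb
    have hab : (algebraMap B F a / algebraMap B F sf) ^ m = f * algebraMap B F b := by
      rw [ha, mul_div_assoc, div_self hsf0, mul_one, hyb]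
    obtain ⟨r, hr1, hr2⟩ := hclass a b hab
    have hrJ : r ∈ J := ⟨a, b, hab, hr1⟩
    have hrn : r ∈ nbar := hJle hrJ
    apply hbn
    rw [Ideal.mem_comap, ← hr2]
    exact Ideal.pow_mem_of_mem nbar hrn m hm
  obtain ⟨a, b, hab, hr1⟩ : (1 : B ⧸ Ideal.span {π}) ∈ J := hJ ▸ Submodule.mem_top
  rw [one_mul] at hr1
  obtain ⟨r, hr, hrm⟩ := hclass a b hab
  have hr1' : r = 1 := mul_right_cancel₀ hredsf (by rw [hr, one_mul, hr1])
  rw [hr1', one_pow] at hrm
  obtain ⟨b', hb'⟩ : π ∣ b - 1 := (hred0 _).mp (by rw [map_sub, map_one, ← hrm, sub_self])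
  refine ⟨algebraMap B F a / algebraMap B F sf, b', ?_, a, sf, hsf, by field_simp,
    (hred0 _).mp (by rw [map_sub, ← hr1, sub_self])⟩
  rw [hab, ← map_mul, ← hb']
  simp

/-- **Base section of the Kummer core (KC1), Dedekind form.**
`B` a noetherian normal domain with fraction field `F`, `π` a nonzero element whose quotient
`C = B / π` is a Dedekind domain (the normal special-fibre chart).  Let `f ∈ F` be `≡ 1 mod π`
in `B_(π)` and a unit times an `m`-th power in every discrete valuation ring of `F` containing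
`B[1/π]`.  Then there is `s ∈ F`, `s ≡ 1 mod π` in `B_(π)`, with `s ^ m = f * (1 + π b)`,
`b ∈ B`. -/
theorem exists_base_section {B C F : Type*} [CommRing B] [IsDomain B] [IsNoetherianRing B]
    [IsIntegrallyClosed B] [Field F] [Algebra B F] [IsFractionRing B F] [CommRing C]
    [IsDedekindDomain C] (red : B →+* C) (hred : Function.Surjective red) (π : B) (hπ0 : π ≠ 0)
    (hker : RingHom.ker red = Ideal.span {π}) (m : ℕ) (hm : 0 < m) (f : F) (hf : f ≠ 0)
    (hf1 : ∃ a s : B, ¬ π ∣ s ∧ f * algebraMap B F s = algebraMap B F a ∧ π ∣ a - s)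
    (hval : ∀ O : ValuationSubring F, O ≠ ⊤ → IsPrincipalIdealRing O →
      (∀ x : B, algebraMap B F x ∈ O) → (algebraMap B F π)⁻¹ ∈ O →
        ∃ w g : F, w ∈ O ∧ w⁻¹ ∈ O ∧ f = w * g ^ m) :
    ∃ (s : F) (b : B), s ^ m = f * (1 + algebraMap B F π * algebraMap B F b) ∧
      ∃ c d : B, ¬ π ∣ d ∧ s * algebraMap B F d = algebraMap B F c ∧ π ∣ c - d := by
  have hπ : Prime π := by
    rw [← Ideal.span_singleton_prime hπ0, ← hker]
    exact RingHom.ker_isPrime red
  have hred0 : ∀ x : B, red x = 0 ↔ π ∣ x := fun x => by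
    rw [← RingHom.mem_ker, hker, Ideal.mem_span_singleton]
  refine exists_base_section_of_reg π hπ m hm f hf hf1 hval ?_ ?_
  · -- local principality from the Dedekind property
    intro n hn hπn J
    have hnbar : n.map red ≠ ⊤ := by
      intro htop
      have h1 : (1 : C) ∈ n.map red := htop ▸ Submodule.mem_top
      obtain ⟨x, hxn, hx1⟩ := (Ideal.mem_map_iff_of_surjective red hred).mp h1
      have h2 : x - 1 ∈ RingHom.ker red := by rw [RingHom.mem_ker, map_sub, hx1, map_one, sub_self]
      rw [hker] at h2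
      have h3 : x - 1 ∈ n := (Ideal.span_singleton_le_iff_mem n).mpr hπn h2
      have h4 : (1 : B) ∈ n := by
        have := n.sub_mem hxn h3
        simpa using this
      exact hn.ne_top ((Ideal.eq_top_iff_one n).mpr h4)
    obtain ⟨gbar, hgbar, ebar, hebar, hJ⟩ :=
      dedekind_local_principal (n.map red) (J.map red) hnbar
    obtain ⟨g0, hg0J, rfl⟩ := (Ideal.mem_map_iff_of_surjective red hred).mp hgbar
    obtain ⟨e0, rfl⟩ := hred ebar
    have he0 : e0 ∉ n := fun h => hebar (Ideal.mem_map_of_mem red h)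
    refine ⟨g0, hg0J, fun x hx => ⟨e0, he0, ?_⟩⟩
    have h1 := hJ (red x) (Ideal.mem_map_of_mem red hx)
    obtain ⟨hbar, hh⟩ := Ideal.mem_span_singleton'.mp h1
    obtain ⟨h, rfl⟩ := hred hbar
    have h2 : e0 * x - h * g0 ∈ RingHom.ker red := by
      rw [RingHom.mem_ker, map_sub, map_mul, map_mul, hh, sub_self]
    rw [hker] at h2
    have h3 : e0 * x = h * g0 + (e0 * x - h * g0) := by ring
    rw [h3]
    exact Submodule.add_mem_sup (Ideal.mem_span_singleton'.mpr ⟨h, rfl⟩) h2
  · -- root closedness from integral closedness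
    intro a s b hs hdvd
    have hreds : red s ≠ 0 := fun h => hs ((hred0 _).mp h)
    have h2 : red a ^ m = red b * red s ^ m := by
      have := (hred0 _).mpr hdvd
      rwa [map_sub, map_mul, map_pow, map_pow, sub_eq_zero] at this
    have hsK : algebraMap C (FractionRing C) (red s) ≠ 0 := fun h =>
      hreds (IsFractionRing.injective C (FractionRing C) (by rw [h, map_zero]))
    obtain ⟨r, hr⟩ := IsIntegrallyClosed.exists_algebraMap_eq_of_isIntegral_pow (R := C)
      (K := FractionRing C)
      (x := algebraMap C (FractionRing C) (red a) / algebraMap C (FractionRing C) (red s)) hm (by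
        have h4 : (algebraMap C (FractionRing C) (red a) /
            algebraMap C (FractionRing C) (red s)) ^ m = algebraMap C (FractionRing C) (red b) := by
          rw [div_pow, ← map_pow (algebraMap C (FractionRing C)) (red a), h2, map_mul, map_pow]
          field_simp
        rw [h4]
        exact isIntegral_algebraMap)
    obtain ⟨r0, rfl⟩ := hred r
    refine ⟨r0, (hred0 _).mp ?_⟩
    rw [map_sub, map_mul, sub_eq_zero]
    apply IsFractionRing.injective C (FractionRing C)
    rw [map_mul, hr]
    field_simp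

/-- The same statement with the Gauss ring given as a valuation subring `V = B_(π)` of `F`:
`f ∈ 1 + π V` ⟹ there is `s ∈ 1 + π V` with `s ^ m ∈ f * (1 + π B)`. -/
theorem exists_base_section_valuationSubring {B C F : Type*} [CommRing B] [IsDomain B]
    [IsNoetherianRing B] [IsIntegrallyClosed B] [Field F] [Algebra B F] [IsFractionRing B F]
    [CommRing C] [IsDedekindDomain C] (red : B →+* C) (hred : Function.Surjective red) (π : B)
    (hπ0 : π ≠ 0) (hker : RingHom.ker red = Ideal.span {π}) (m : ℕ) (hm : 0 < m) (f : F)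
    (hf : f ≠ 0) (V : ValuationSubring F)
    (hV : ∀ y : F, y ∈ V ↔ ∃ a s : B, ¬ π ∣ s ∧ y * algebraMap B F s = algebraMap B F a)
    (hf1 : ∃ y ∈ V, f - 1 = algebraMap B F π * y)
    (hval : ∀ O : ValuationSubring F, O ≠ ⊤ → IsPrincipalIdealRing O →
      (∀ x : B, algebraMap B F x ∈ O) → (algebraMap B F π)⁻¹ ∈ O →
        ∃ w g : F, w ∈ O ∧ w⁻¹ ∈ O ∧ f = w * g ^ m) :
    ∃ (s : F) (b : B), s ^ m = f * (1 + algebraMap B F π * algebraMap B F b) ∧
      ∃ y ∈ V, s - 1 = algebraMap B F π * y := by
  have hinj := IsFractionRing.injective B F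
  obtain ⟨y, hyV, hy⟩ := hf1
  obtain ⟨a, s, hs, hys⟩ := (hV y).mp hyV
  have hf1' : ∃ a' s' : B, ¬ π ∣ s' ∧ f * algebraMap B F s' = algebraMap B F a' ∧ π ∣ a' - s' := by
    refine ⟨s + π * a, s, hs, ?_, ⟨a, by ring⟩⟩
    rw [map_add, map_mul, ← hys]
    linear_combination (algebraMap B F s) * hy
  obtain ⟨s', b, hsb, c, d, hd, hsd, t, ht⟩ :=
    exists_base_section red hred π hπ0 hker m hm f hf hf1' hval
  have hd0 : algebraMap B F d ≠ 0 := fun h => hd (by
    have : d = 0 := hinj (by rw [h, map_zero])
    rw [this]; exact dvd_zero π)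
  refine ⟨s', b, hsb, algebraMap B F t / algebraMap B F d,
    (hV _).mpr ⟨t, d, hd, by field_simp⟩, ?_⟩
  have h1 : algebraMap B F c - algebraMap B F d = algebraMap B F π * algebraMap B F t := by
    rw [← map_sub, ht, map_mul]
  field_simp
  linear_combination hsd + h1

end Fermat.Agent.S18.H76
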