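/-
S18 (helper19): the BASE STEP `H63.StmtBase` (node KC1) from helper76's local-UFD base section
`H76.exists_base_section_valuationSubring`, and hence the generic Kummer core
`stmtKC : H63.StmtKC` without hypotheses.

Contents:
* `isDedekindDomain_of_reg` : a noetherian domain that is elementarily regular at every maximal
  ideal is a Dedekind domain (`dimensionLEOne_of_reg`, `isIntegrallyClosed_of_reg`);
* `prime_algebraMap_chart` : `π` is prime in the chart (`B ∩ πV = πB`, `𝔪_V = πV`);
* `mem_valuationSubring_iff_frac` : `V = B_(π)`;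
* `stmtBase : H63.StmtBase`, `stmtKC : H63.StmtKC`.

All proofs complete.
-/
import Mathlib
import Fermat.Agent.S18.KCStmts_helper63
import Fermat.Agent.S18.BaseSection_helper76
import Fermat.Agent.S18.KCGlue_helper19

set_option autoImplicit false

namespace Fermat.Agent.S18.H19

section RegDedekind

variable {C : Type*} [CommRing C]

/-- Elementary regularity at every maximal ideal forces dimension `≤ 1`. -/
theorem dimensionLEOne_of_reg
    (hreg : ∀ P : Ideal C, P.IsMaximal → ∃ t ∈ P, ∀ c : C, c ≠ 0 →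
      ∃ (e : ℕ) (d u : C), d ∉ P ∧ u ∉ P ∧ c * d = u * t ^ e) :
    Ring.DimensionLEOne C where
  maximalOfPrime := by
    intro p hp0 hpp
    obtain ⟨P, hPmax, hpP⟩ := Ideal.exists_le_maximal p hpp.ne_top
    obtain ⟨t, htP, ht⟩ := hreg P hPmax
    obtain ⟨c, hcp, hc0⟩ := Submodule.exists_mem_ne_zero_of_ne_bot hp0
    obtain ⟨e, d, u, hd, hu, hcd⟩ := ht c hc0
    have htp : t ∈ p := by
      have h1 : u * t ^ e ∈ p := hcd ▸ p.mul_mem_right d hcp
      rcases hpp.mem_or_mem h1 with h | h
      · exact absurd (hpP h) hu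
      · exact hpp.mem_of_pow_mem e h
    have hPp : P ≤ p := by
      intro x hx
      by_cases hx0 : x = 0
      · rw [hx0]; exact p.zero_mem
      obtain ⟨e', d', u', hd', hu', hxd⟩ := ht x hx0
      have he' : e' ≠ 0 := by
        rintro rfl
        rw [pow_zero, mul_one] at hxd
        exact hu' (hxd ▸ P.mul_mem_right d' hx)
      have h1 : x * d' ∈ p := by
        rw [hxd]
        exact p.mul_mem_left u' (Ideal.pow_mem_of_mem p htp e' (Nat.pos_of_ne_zero he'))
      rcases hpp.mem_or_mem h1 with h | h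
      · exact h
      · exact absurd (hpP h) hd'
    have : p = P := le_antisymm hpP hPp
    rw [this]; exact hPmax

/-- Elementary regularity at every maximal ideal forces integral closedness. -/
theorem isIntegrallyClosed_of_reg [IsDomain C]
    (hreg : ∀ P : Ideal C, P.IsMaximal → ∃ t ∈ P, ∀ c : C, c ≠ 0 →
      ∃ (e : ℕ) (d u : C), d ∉ P ∧ u ∉ P ∧ c * d = u * t ^ e) :
    IsIntegrallyClosed C := by
  classical
  rw [isIntegrallyClosed_iff (FractionRing C)]
  intro x hx
  let φ : C →+* FractionRing C := algebraMap C (FractionRing C)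
  have hinj : Function.Injective φ := IsFractionRing.injective C (FractionRing C)
  -- the denominator ideal of `x`
  let D : Ideal C :=
    { carrier := {c | ∃ y : C, φ y = φ c * x}
      add_mem' := by
        rintro c₁ c₂ ⟨y₁, h₁⟩ ⟨y₂, h₂⟩
        exact ⟨y₁ + y₂, by rw [map_add, map_add, h₁, h₂, add_mul]⟩
      zero_mem' := ⟨0, by simp⟩
      smul_mem' := by
        rintro r c ⟨y, h⟩
        exact ⟨r * y, by rw [smul_eq_mul, map_mul, map_mul, h, mul_assoc]⟩ }
  by_cases hD : D = ⊤
  · have h1 : (1 : C) ∈ D := hD ▸ Submodule.mem_top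
    obtain ⟨y, hy⟩ := h1
    exact ⟨y, by rw [show algebraMap C (FractionRing C) y = φ y from rfl, hy, map_one, one_mul]⟩
  exfalso
  obtain ⟨P, hPmax, hDP⟩ := Ideal.exists_le_maximal D hD
  have hPp : P.IsPrime := hPmax.isPrime
  obtain ⟨t, htP, ht⟩ := hreg P hPmax
  obtain ⟨a, b, hb, hab⟩ := IsFractionRing.div_surjective (A := C) x
  have hab' : φ a / φ b = x := hab
  have hb0 : b ≠ 0 := nonZeroDivisors.ne_zero hb
  have hbK : φ b ≠ 0 := fun h => hb0 (hinj (by rw [h, map_zero]))
  have ha0 : a ≠ 0 := by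
    rintro rfl
    rw [map_zero, zero_div] at hab'
    exact hD ((Ideal.eq_top_iff_one D).mpr ⟨0, by rw [← hab']; simp⟩)
  obtain ⟨ea, da, ua, hda, hua, haa⟩ := ht a ha0
  obtain ⟨eb, db, ub, hdb, hub, hbb⟩ := ht b hb0
  have hda0 : da ≠ 0 := fun h => hda (h ▸ P.zero_mem)
  have hdb0 : db ≠ 0 := fun h => hdb (h ▸ P.zero_mem)
  have htea : φ t ^ ea ≠ 0 := by
    intro h
    have h' : t ^ ea = 0 := hinj (by rw [map_pow, h, map_zero])
    rw [h', mul_zero] at haa
    exact (mul_ne_zero ha0 hda0) haa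
  have hteb : φ t ^ eb ≠ 0 := by
    intro h
    have h' : t ^ eb = 0 := hinj (by rw [map_pow, h, map_zero])
    rw [h', mul_zero] at hbb
    exact (mul_ne_zero hb0 hdb0) hbb
  have h1 : φ a * φ da = φ ua * φ t ^ ea := by
    rw [← map_mul, haa, map_mul, map_pow]
  have h2 : φ b * φ db = φ ub * φ t ^ eb := by
    rw [← map_mul, hbb, map_mul, map_pow]
  -- the basic relation `x * (ub * da * t ^ eb) = ua * db * t ^ ea`
  have hrel : x * (φ ub * φ da * φ t ^ eb) = φ ua * φ db * φ t ^ ea := by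
    rw [← hab', div_mul_eq_mul_div, div_eq_iff hbK]
    linear_combination (φ ub * φ t ^ eb) * h1 - (φ ua * φ t ^ ea) * h2
  rcases le_or_gt eb ea with hle | hlt
  · -- `ub * da` is a denominator outside `P`
    have h3 : ub * da ∈ D := by
      refine ⟨ua * db * t ^ (ea - eb), ?_⟩
      apply mul_right_cancel₀ hteb
      have h4 : φ t ^ ea = φ t ^ (ea - eb) * φ t ^ eb := by
        rw [← pow_add, Nat.sub_add_cancel hle]
      simp only [map_mul, map_pow]
      linear_combination -hrel - φ ua * φ db * h4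
    rcases hPp.mem_or_mem (hDP h3) with h | h
    · exact hub h
    · exact hda h
  · -- `x * (v * t ^ k) = w` with `v, w ∉ P`, `k ≥ 1`
    obtain ⟨k, hk⟩ : ∃ k, eb = ea + (k + 1) := ⟨eb - ea - 1, by omega⟩
    have hrel' : φ (ub * da * t ^ (k + 1)) * x = φ (ua * db) := by
      apply mul_right_cancel₀ htea
      have h4 : φ t ^ eb = φ t ^ ea * φ t ^ (k + 1) := by rw [hk, pow_add]
      simp only [map_mul, map_pow]
      linear_combination hrel + x * φ ub * φ da * (- h4)
    obtain ⟨p, hp, hpx⟩ := hx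
    have h3 := Polynomial.dvd_pow_natDegree_of_eval₂_eq_zero hinj hp (ub * da * t ^ (k + 1))
      (ua * db) x hpx hrel'
    have h4 : (ua * db) ^ p.natDegree ∈ P := by
      obtain ⟨c, hc⟩ := h3
      rw [hc]
      exact P.mul_mem_right c
        (P.mul_mem_left _ (Ideal.pow_mem_of_mem P htP (k + 1) (Nat.succ_pos k)))
    rcases hPp.mem_or_mem (hPp.mem_of_pow_mem _ h4) with h | h
    · exact hua h
    · exact hdb h

/-- **(REG) ⇒ Dedekind.** A noetherian domain which is elementarily regular at every maximal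
ideal (every nonzero element is, up to factors outside `P`, a power of one element `t ∈ P`)
is a Dedekind domain. -/
theorem isDedekindDomain_of_reg [IsDomain C] [IsNoetherianRing C]
    (hreg : ∀ P : Ideal C, P.IsMaximal → ∃ t ∈ P, ∀ c : C, c ≠ 0 →
      ∃ (e : ℕ) (d u : C), d ∉ P ∧ u ∉ P ∧ c * d = u * t ^ e) :
    IsDedekindDomain C := by
  have h1 := dimensionLEOne_of_reg hreg
  have h2 := isIntegrallyClosed_of_reg hreg
  exact {}

end RegDedekind

section Adapt

variable {A F : Type} [CommRing A] [Field F] [Algebra A F]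

/-- divisibility by `π` in the chart, read in `F` -/
theorem algebraMap_dvd_iff (π : A) (B : Subalgebra A F) (x : B) :
    algebraMap A B π ∣ x ↔ ∃ b ∈ B, (x : F) = algebraMap A F π * b := by
  constructor
  · rintro ⟨c, rfl⟩
    exact ⟨c, c.2, rfl⟩
  · rintro ⟨b, hb, hxb⟩
    exact ⟨⟨b, hb⟩, Subtype.ext hxb⟩

/-- an element of the chart which is a non-unit of `V` is divisible by `π` in the chart -/
theorem algebraMap_dvd_of_mem_nonunits (π : A) (V : ValuationSubring F) (B : Subalgebra A F)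
    (hVπ : ∀ x ∈ V.nonunits, ∃ y ∈ V, x = algebraMap A F π * y)
    (hsat : ∀ x ∈ B, (∃ y ∈ V, x = algebraMap A F π * y) → ∃ b ∈ B, x = algebraMap A F π * b)
    (x : B) (hx : (x : F) ∈ V.nonunits) : algebraMap A B π ∣ x :=
  (algebraMap_dvd_iff π B x).mpr (hsat x x.2 (hVπ x hx))

/-- an element of `V` outside the non-units has its inverse in `V` -/
theorem inv_mem_of_not_mem_nonunits (V : ValuationSubring F) {x : F} (hx : x ∈ V)
    (hx' : x ∉ V.nonunits) : x⁻¹ ∈ V := by
  have h1 : V.valuation x ≤ 1 := (V.valuation_le_one_iff x).mpr hx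
  have h2 : ¬ V.valuation x < 1 := hx'
  have h3 : V.valuation x = 1 := le_antisymm h1 (not_lt.mp h2)
  rw [← V.valuation_le_one_iff, map_inv₀, h3, inv_one]

/-- `π` is a prime element of the chart. -/
theorem prime_algebraMap_chart (π : A) (V : ValuationSubring F) (B : Subalgebra A F)
    (hϖ0 : algebraMap A F π ≠ 0)
    (hπV : algebraMap A F π ∈ V.nonunits)
    (hVπ : ∀ x ∈ V.nonunits, ∃ y ∈ V, x = algebraMap A F π * y)
    (hBV : ∀ x ∈ B, x ∈ V)
    (hsat : ∀ x ∈ B, (∃ y ∈ V, x = algebraMap A F π * y) → ∃ b ∈ B, x = algebraMap A F π * b) :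
    Prime (algebraMap A B π) := by
  have hπlt : V.valuation (algebraMap A F π) < 1 := hπV
  refine ⟨?_, ?_, ?_⟩
  · intro h
    exact hϖ0 (congrArg (Subtype.val) h)
  · rintro ⟨u, hu⟩
    have h1 : algebraMap A F π * ((u⁻¹ : Bˣ) : B) = 1 := by
      have h2 : algebraMap A B π * ((u⁻¹ : Bˣ) : B) = 1 := by rw [← hu]; exact u.mul_inv
      exact congrArg (Subtype.val) h2
    have h3 := congrArg V.valuation h1
    rw [map_mul, map_one] at h3
    have h4 : V.valuation (((u⁻¹ : Bˣ) : B) : F) ≤ 1 :=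
      (V.valuation_le_one_iff _).mpr (hBV _ (Subtype.mem _))
    have h5 : V.valuation (algebraMap A F π) * V.valuation (((u⁻¹ : Bˣ) : B) : F) < 1 :=
      lt_of_le_of_lt (mul_le_of_le_one_right' h4) hπlt
    rw [h3] at h5
    exact lt_irrefl _ h5
  · intro a b hab
    obtain ⟨c, hc, habc⟩ := (algebraMap_dvd_iff π B (a * b)).mp hab
    have h1 : V.valuation ((a : F) * (b : F)) < 1 := by
      have h2 : ((a * b : B) : F) = (a : F) * (b : F) := rfl
      rw [← h2, habc, map_mul]
      exact lt_of_le_of_lt (mul_le_of_le_one_right' ((V.valuation_le_one_iff c).mpr (hBV c hc)))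
        hπlt
    have ha1 : V.valuation (a : F) ≤ 1 := (V.valuation_le_one_iff _).mpr (hBV _ a.2)
    have hb1 : V.valuation (b : F) ≤ 1 := (V.valuation_le_one_iff _).mpr (hBV _ b.2)
    by_cases ha : V.valuation (a : F) < 1
    · exact Or.inl (algebraMap_dvd_of_mem_nonunits π V B hVπ hsat a ha)
    · by_cases hb : V.valuation (b : F) < 1
      · exact Or.inr (algebraMap_dvd_of_mem_nonunits π V B hVπ hsat b hb)
      · exfalso
        have ha' : V.valuation (a : F) = 1 := le_antisymm ha1 (not_lt.mp ha)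
        have hb' : V.valuation (b : F) = 1 := le_antisymm hb1 (not_lt.mp hb)
        rw [map_mul, ha', hb', one_mul] at h1
        exact lt_irrefl _ h1

/-- `V = B_(π)`: the elements of `V` are the fractions `a / s` with `a, s ∈ B`, `π ∤ s`. -/
theorem mem_valuationSubring_iff_frac (π : A) (V : ValuationSubring F) (B : Subalgebra A F)
    (hϖ0 : algebraMap A F π ≠ 0)
    (hπV : algebraMap A F π ∈ V.nonunits)
    (hVπ : ∀ x ∈ V.nonunits, ∃ y ∈ V, x = algebraMap A F π * y)
    (hBV : ∀ x ∈ B, x ∈ V) (hnoeth : IsNoetherianRing B)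
    (hfrac : ∀ x : F, ∃ a ∈ B, ∃ b ∈ B, b ≠ 0 ∧ x * b = a)
    (hsat : ∀ x ∈ B, (∃ y ∈ V, x = algebraMap A F π * y) → ∃ b ∈ B, x = algebraMap A F π * b)
    (y : F) :
    y ∈ V ↔ ∃ a s : B, ¬ algebraMap A B π ∣ s ∧ y * algebraMap B F s = algebraMap B F a := by
  have hprime := prime_algebraMap_chart π V B hϖ0 hπV hVπ hBV hsat
  have hϖV : algebraMap A F π ∈ V := hBV _ (B.algebraMap_mem π)
  constructor
  · intro hy
    obtain ⟨a, ha, b, hb, hb0, hyb⟩ := hfrac y
    have hb0' : (⟨b, hb⟩ : B) ≠ 0 := fun h => hb0 (congrArg Subtype.val h)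
    obtain ⟨n, s, hs, hbs⟩ := WfDvdMonoid.max_power_factor' hb0' hprime.not_isUnit
    have hbs' : b = algebraMap A F π ^ n * (s : F) := by
      have := congrArg Subtype.val hbs
      simpa using this
    obtain ⟨a', ha', haa'⟩ := Fermat.Agent.S18.H63.sat_pow hϖ0 hϖV hsat n a ha
      ⟨y * (s : F), V.mul_mem _ _ hy (hBV _ s.2), by rw [← hyb, hbs']; ring⟩
    refine ⟨⟨a', ha'⟩, s, hs, ?_⟩
    show y * (s : F) = a'
    apply mul_left_cancel₀ (pow_ne_zero n hϖ0)
    rw [← haa', ← hyb, hbs']; ring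
  · rintro ⟨a, s, hs, hys⟩
    have hys' : y * (s : F) = (a : F) := hys
    have hs0 : (s : F) ≠ 0 := by
      intro h
      apply hs
      have : s = 0 := Subtype.ext h
      rw [this]; exact dvd_zero _
    have hsu : (s : F)⁻¹ ∈ V := by
      apply inv_mem_of_not_mem_nonunits V (hBV _ s.2)
      intro h
      exact hs (algebraMap_dvd_of_mem_nonunits π V B hVπ hsat s h)
    have : y = (a : F) * (s : F)⁻¹ := by
      rw [← hys', mul_assoc, mul_inv_cancel₀ hs0, mul_one]
    rw [this]
    exact V.mul_mem _ _ (hBV _ a.2) hsu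

/-- **KC1 (BASE STEP), the statement of `KCStmts_helper63`**, from the local-UFD base section
`H76.exists_base_section_valuationSubring`. -/
theorem stmtBase : Fermat.Agent.S18.H63.StmtBase := by
  intro A F _ _ _ _ π m V B f hπ hinj harch hm hπV hVπ hBV hnoeth hic hfrac hsat hreg hf1 hdiv
  classical
  have hϖ0 : algebraMap A F π ≠ 0 := fun h => hπ (hinj (by rw [h, map_zero]))
  have hprime := prime_algebraMap_chart π V B hϖ0 hπV hVπ hBV hsat
  -- `F` is the fraction field of the chart, and the chart is integrally closed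
  have hfaith : FaithfulSMul B F :=
    (faithfulSMul_iff_algebraMap_injective B F).mpr Subtype.val_injective
  have hFrac : IsFractionRing B F := by
    refine IsFractionRing.of_field B F fun z => ?_
    obtain ⟨a, ha, b, hb, hb0, hzb⟩ := hfrac z
    refine ⟨⟨a, ha⟩, ⟨b, hb⟩, ?_⟩
    show z = a / b
    rw [eq_div_iff hb0, hzb]
  have hIC : IsIntegrallyClosed B :=
    (isIntegrallyClosed_iff F).mpr fun {x} hx => ⟨⟨x, hic x hx⟩, rfl⟩
  -- the special fibre is a Dedekind domain
  set I : Ideal B := Ideal.span {algebraMap A B π} with hI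
  have hIprime : I.IsPrime := (Ideal.span_singleton_prime hprime.ne_zero).mpr hprime
  have hregC : ∀ P : Ideal (B ⧸ I), P.IsMaximal → ∃ t ∈ P, ∀ c : B ⧸ I, c ≠ 0 →
      ∃ (e : ℕ) (d u : B ⧸ I), d ∉ P ∧ u ∉ P ∧ c * d = u * t ^ e := by
    intro P hP
    have hn : (P.comap (Ideal.Quotient.mk I)).IsMaximal :=
      Ideal.comap_isMaximal_of_surjective (Ideal.Quotient.mk I) Ideal.Quotient.mk_surjective
    have hπn : algebraMap A B π ∈ P.comap (Ideal.Quotient.mk I) := by
      rw [Ideal.mem_comap]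
      have : Ideal.Quotient.mk I (algebraMap A B π) = 0 :=
        Ideal.Quotient.eq_zero_iff_mem.mpr (Ideal.subset_span rfl)
      rw [this]; exact P.zero_mem
    obtain ⟨τ, hτn, hτ⟩ := hreg _ hn hπn
    refine ⟨Ideal.Quotient.mk I τ, hτn, ?_⟩
    intro c hc
    obtain ⟨a, rfl⟩ := Ideal.Quotient.mk_surjective c
    have ha : a ∉ I := fun h => hc (Ideal.Quotient.eq_zero_iff_mem.mpr h)
    obtain ⟨e, d, u, hd, hu, h⟩ := hτ a ha
    refine ⟨e, Ideal.Quotient.mk I d, Ideal.Quotient.mk I u, hd, hu, ?_⟩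
    rw [← map_mul, ← map_pow, ← map_mul, Ideal.Quotient.eq]
    exact h
  have hDed : IsDedekindDomain (B ⧸ I) := isDedekindDomain_of_reg hregC
  -- `V = B_(π)`
  have hV := mem_valuationSubring_iff_frac π V B hϖ0 hπV hVπ hBV hnoeth hfrac hsat
  -- `f ≠ 0`
  have hf0 : f ≠ 0 := by
    rintro rfl
    obtain ⟨y, hy, hfy⟩ := hf1
    have h1 : V.valuation (algebraMap A F π) < 1 := hπV
    have h2 : V.valuation (algebraMap A F π * y) < 1 := by
      rw [map_mul]
      exact lt_of_le_of_lt (mul_le_of_le_one_right' ((V.valuation_le_one_iff y).mpr hy)) h1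
    rw [← hfy, zero_sub, Valuation.map_neg, map_one] at h2
    exact lt_irrefl _ h2
  -- the divisibility hypothesis
  have hval : ∀ O : ValuationSubring F, O ≠ ⊤ → IsPrincipalIdealRing O →
      (∀ x : B, algebraMap B F x ∈ O) → (algebraMap B F (algebraMap A B π))⁻¹ ∈ O →
        ∃ w g : F, w ∈ O ∧ w⁻¹ ∈ O ∧ f = w * g ^ m := by
    intro O _ _ hBO hπO
    have hπO' : (algebraMap A F π)⁻¹ ∈ O := hπO
    have hAO : ∀ a : A, algebraMap A F a ∈ O := fun a => hBO (algebraMap A B a)
    have hAO' : ∀ a : A, a ≠ 0 → (algebraMap A F a)⁻¹ ∈ O := by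
      intro a ha
      obtain ⟨n, c, hc⟩ := harch a ha
      have ha0 : algebraMap A F a ≠ 0 := fun h => ha (hinj (by rw [h, map_zero]))
      have h1 : (algebraMap A F a)⁻¹ = algebraMap A F c * (algebraMap A F π)⁻¹ ^ n := by
        have h2 : algebraMap A F π ^ n = algebraMap A F a * algebraMap A F c := by
          rw [← map_pow, hc, map_mul]
        have hc0 : algebraMap A F c ≠ 0 := by
          intro h
          rw [h, mul_zero] at h2
          exact pow_ne_zero n hϖ0 h2
        rw [inv_pow, h2]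
        field_simp
      rw [h1]
      exact O.mul_mem _ _ (hAO c) (O.pow_mem hπO' n)
    obtain ⟨g, hg0, h1, h2⟩ := hdiv O hAO hAO'
    refine ⟨f / g ^ m, g, h1, ?_, ?_⟩
    · rw [inv_div]; exact h2
    · field_simp
  obtain ⟨s, b, hsb, y, hy, hsy⟩ :=
    Fermat.Agent.S18.H76.exists_base_section_valuationSubring (Ideal.Quotient.mk I)
      Ideal.Quotient.mk_surjective (algebraMap A B π) hprime.ne_zero Ideal.mk_ker m hm f hf0 V hV
      hf1 hval
  refine ⟨s, ⟨1 + algebraMap A F π * (b : F), ?_, hsb⟩, y, hy, hsy⟩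
  exact B.add_mem B.one_mem (B.mul_mem (B.algebraMap_mem π) b.2)

/-- **(KC), the generic Kummer core of `KCStmts_helper63`, without hypotheses.** -/
theorem stmtKC : Fermat.Agent.S18.H63.StmtKC := stmtKC_of_base stmtBase

end Adapt

end Fermat.Agent.S18.H19
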