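/-
S18, KUMMER CORE, node KC1 = the BASE STEP for one chart (seat 2: helper13).

`stmtBase : H63.StmtBase` - the literal node statement of `KCStmts_helper63`.

Route (no UFD, no induction over primes, ONE Krull principal-ideal step):
* `EOrd` : the relational `τ`-order modulo `π` at a closed point `n` of the special fibre,
  from the elementary regularity hypothesis (REG); multiplicative and unique off `πB`.
* `exists_prime_le_not_mem` : a point `b₀ ∈ n \ πB` lies on a prime `q ≤ n` with `π ∉ q`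
  (minimal prime over `b₀`; Krull's principal ideal theorem excludes `π ∈ q`).
* `exists_map_eq_span` : such a `q` is generated at `n` by one element (Nakayama in `B_n`).
* `exists_valuationSubring_of_prime` : the valuation ring of a prime element of a noetherian
  domain, inside the fraction field.
* `pow_dvd_of_mul_eq_pow` : a unit multiple of an `m`-th power that is divisible by the
  prime element is divisible by its `m`-th power.
* `base_core` : the base step for an abstract noetherian domain `B` with fraction field `F`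
  and a valuation `v` with `{v < 1} ∩ B = πB`; `stmtBase` is its subalgebra form.

Mathlib + `KCStmts_helper63` only.
-/
import Mathlib
import Fermat.Agent.S18.KCStmts_helper63

set_option autoImplicit false

namespace Fermat.Agent.S18.H13

/-! ### The `τ`-order modulo `π` at a closed point -/

section EOrder

variable {B : Type*} [CommRing B]

/-- `a` has `τ`-order `e` modulo `π` at `n`: `a * d ≡ u * τ ^ e` mod `π` with `d, u ∉ n`. -/
def EOrd (n : Ideal B) (π τ a : B) (e : ℕ) : Prop :=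
  ∃ d u : B, d ∉ n ∧ u ∉ n ∧ a * d - u * τ ^ e ∈ Ideal.span {π}

variable {n : Ideal B} {π τ : B}

theorem EOrd.of_not_mem {d : B} (hd : d ∉ n) : EOrd n π τ d 0 :=
  ⟨1, d, fun h => hd (by simpa using n.mul_mem_left d h), hd, by simp⟩

theorem EOrd.mul [n.IsPrime] {a a' : B} {e e' : ℕ} (h : EOrd n π τ a e)
    (h' : EOrd n π τ a' e') : EOrd n π τ (a * a') (e + e') := by
  obtain ⟨d, u, hd, hu, hP⟩ := h
  obtain ⟨d', u', hd', hu', hP'⟩ := h'
  refine ⟨d * d', u * u', fun h => ?_, fun h => ?_, ?_⟩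
  · exact (Ideal.IsPrime.mem_or_mem inferInstance h).elim hd hd'
  · exact (Ideal.IsPrime.mem_or_mem inferInstance h).elim hu hu'
  · have e1 : a * a' * (d * d') - u * u' * τ ^ (e + e') =
        (a * d - u * τ ^ e) * (a' * d') + u * τ ^ e * (a' * d' - u' * τ ^ e') := by ring
    rw [e1]
    exact Ideal.add_mem _ (Ideal.mul_mem_right _ _ hP) (Ideal.mul_mem_left _ _ hP')

theorem EOrd.pow [n.IsPrime] {a : B} {e : ℕ} (h : EOrd n π τ a e) (k : ℕ) :
    EOrd n π τ (a ^ k) (k * e) := by
  induction k with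
  | zero =>
    rw [pow_zero, Nat.zero_mul]
    exact EOrd.of_not_mem (fun h1 => (Ideal.IsPrime.ne_top inferInstance)
      ((Ideal.eq_top_iff_one n).mpr h1))
  | succ k ih =>
    rw [pow_succ, Nat.succ_mul]
    exact ih.mul h

theorem EOrd.congr {a a' : B} {e : ℕ} (haa : a - a' ∈ Ideal.span {π})
    (h : EOrd n π τ a e) : EOrd n π τ a' e := by
  obtain ⟨d, u, hd, hu, hP⟩ := h
  refine ⟨d, u, hd, hu, ?_⟩
  have e1 : a' * d - u * τ ^ e = (a * d - u * τ ^ e) - (a - a') * d := by ring
  rw [e1]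
  exact Ideal.sub_mem _ hP (Ideal.mul_mem_right _ _ haa)

theorem EOrd.pos_of_mem {a : B} {e : ℕ} (hπn : π ∈ n) (ha : a ∈ n)
    (h : EOrd n π τ a e) : 0 < e := by
  rcases Nat.eq_zero_or_pos e with he | he
  · exfalso
    obtain ⟨d, u, hd, hu, hP⟩ := h
    rw [he, pow_zero, mul_one] at hP
    have hPn : a * d - u ∈ n := (Ideal.span_singleton_le_iff_mem n).mpr hπn hP
    have : u = a * d - (a * d - u) := by ring
    exact hu (this ▸ n.sub_mem (n.mul_mem_right _ ha) hPn)
  · exact he

theorem EOrd.mem_of_pos [n.IsPrime] {a : B} {e : ℕ} (hπn : π ∈ n) (hτ : τ ∈ n) (he : 0 < e)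
    (h : EOrd n π τ a e) : a ∈ n := by
  obtain ⟨d, u, hd, hu, hP⟩ := h
  have hPn : a * d - u * τ ^ e ∈ n := (Ideal.span_singleton_le_iff_mem n).mpr hπn hP
  have h1 : a * d = (a * d - u * τ ^ e) + u * τ ^ e := by ring
  have h2 : a * d ∈ n := by
    rw [h1]
    exact n.add_mem hPn (n.mul_mem_left _ (n.pow_mem_of_mem hτ e he))
  exact (Ideal.IsPrime.mem_or_mem inferInstance h2).resolve_right hd

theorem EOrd.unique_aux [n.IsPrime] (hP : (Ideal.span {π}).IsPrime) (hπn : π ∈ n)
    (hτ : τ ∈ n) {a : B} (ha : a ∉ Ideal.span {π}) {e e' : ℕ} (h : EOrd n π τ a e)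
    (h' : EOrd n π τ a e') : ¬ e < e' := by
  intro hlt
  obtain ⟨d, u, hd, hu, hE⟩ := h
  obtain ⟨d', u', hd', hu', hE'⟩ := h'
  have hPn : Ideal.span {π} ≤ n := (Ideal.span_singleton_le_iff_mem n).mpr hπn
  have hk : e' = e + (e' - e) := by omega
  have h1 : τ ^ e * (u' * d * τ ^ (e' - e) - u * d') ∈ Ideal.span {π} := by
    have e1 : τ ^ e * (u' * d * τ ^ (e' - e) - u * d') =
        d' * (a * d - u * τ ^ e) - d * (a * d' - u' * (τ ^ e * τ ^ (e' - e))) := by ring
    rw [e1, ← pow_add, ← hk]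
    exact Ideal.sub_mem _ (Ideal.mul_mem_left _ _ hE) (Ideal.mul_mem_left _ _ hE')
  rcases hP.mem_or_mem h1 with h2 | h2
  · have hτP : τ ∈ Ideal.span {π} := hP.mem_of_pow_mem _ h2
    have h3 : a * d' ∈ Ideal.span {π} := by
      have e1 : a * d' = (a * d' - u' * τ ^ e') + u' * τ ^ e' := by ring
      rw [e1]
      exact Ideal.add_mem _ hE' (Ideal.mul_mem_left _ _
        (Ideal.pow_mem_of_mem _ hτP e' (by omega)))
    rcases hP.mem_or_mem h3 with h4 | h4
    · exact ha h4
    · exact hd' (hPn h4)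
  · have h3 : u * d' ∈ n := by
      have e1 : u * d' = u' * d * τ ^ (e' - e) - (u' * d * τ ^ (e' - e) - u * d') := by ring
      rw [e1]
      exact n.sub_mem (n.mul_mem_left _ (n.pow_mem_of_mem hτ _ (by omega))) (hPn h2)
    exact (Ideal.IsPrime.mem_or_mem inferInstance h3).elim hu hd'

theorem EOrd.unique [n.IsPrime] (hP : (Ideal.span {π}).IsPrime) (hπn : π ∈ n)
    (hτ : τ ∈ n) {a : B} (ha : a ∉ Ideal.span {π}) {e e' : ℕ} (h : EOrd n π τ a e)
    (h' : EOrd n π τ a e') : e = e' := by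
  have h1 := EOrd.unique_aux hP hπn hτ ha h h'
  have h2 := EOrd.unique_aux hP hπn hτ ha h' h
  omega

end EOrder

/-! ### The horizontal prime through a point, and its local generator -/

section Horizontal

variable {B : Type*} [CommRing B] [IsDomain B] [IsNoetherianRing B]

/-- A point `b₀ ∈ n \ πB` of a regular special fibre lies on a prime `q ≤ n` with `π ∉ q`
(a minimal prime over `b₀`; `π ∈ q` would force `q = n`, against Krull's principal ideal
theorem and the chain `0 < πB < n`). -/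
theorem exists_prime_le_not_mem {n : Ideal B} [n.IsPrime] {π τ : B} (hπ0 : π ≠ 0)
    (hP : (Ideal.span {π}).IsPrime) (hπn : π ∈ n)
    (hreg : ∀ a : B, a ∉ Ideal.span {π} → ∃ e : ℕ, EOrd n π τ a e)
    {b₀ : B} (hb₀n : b₀ ∈ n) (hb₀P : b₀ ∉ Ideal.span {π}) :
    ∃ q : Ideal B, q.IsPrime ∧ q ≤ n ∧ b₀ ∈ q ∧ π ∉ q := by
  have hle : Ideal.span {b₀} ≤ n := (Ideal.span_singleton_le_iff_mem n).mpr hb₀n
  obtain ⟨q, hqmin, hqn⟩ := Ideal.exists_minimalPrimes_le hle
  have hqp : q.IsPrime := hqmin.1.1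
  have hb₀q : b₀ ∈ q := hqmin.1.2 (Ideal.mem_span_singleton_self b₀)
  refine ⟨q, hqp, hqn, hb₀q, fun hπq => ?_⟩
  have hPq : Ideal.span {π} ≤ q := (Ideal.span_singleton_le_iff_mem q).mpr hπq
  have hτq : τ ∈ q := by
    obtain ⟨e, d, u, hd, hu, hE⟩ := hreg b₀ hb₀P
    have h1 : u * τ ^ e ∈ q := by
      have e1 : u * τ ^ e = b₀ * d - (b₀ * d - u * τ ^ e) := by ring
      rw [e1]
      exact q.sub_mem (q.mul_mem_right _ hb₀q) (hPq hE)
    rcases hqp.mem_or_mem h1 with h2 | h2
    · exact absurd (hqn h2) hu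
    · exact hqp.mem_of_pow_mem _ h2
  have hnq : n ≤ q := by
    intro x hx
    by_cases hxP : x ∈ Ideal.span {π}
    · exact hPq hxP
    · obtain ⟨e, hE⟩ := hreg x hxP
      have he : 0 < e := hE.pos_of_mem hπn hx
      obtain ⟨d, u, hd, hu, hE'⟩ := hE
      have h1 : x * d ∈ q := by
        have e1 : x * d = (x * d - u * τ ^ e) + u * τ ^ e := by ring
        rw [e1]
        exact q.add_mem (hPq hE') (q.mul_mem_left _ (q.pow_mem_of_mem hτq e he))
      rcases hqp.mem_or_mem h1 with h2 | h2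
      · exact h2
      · exact absurd (hqn h2) hd
  have hh1 : q.height ≤ 1 :=
    Ideal.height_le_one_of_isPrincipal_of_mem_minimalPrimes _ q hqmin
  have hbot : (⊥ : Ideal B) < Ideal.span {π} := by
    rw [bot_lt_iff_ne_bot]
    intro h
    exact hπ0 (Ideal.span_singleton_eq_bot.mp h)
  have hlt : Ideal.span {π} < q := by
    refine lt_of_le_of_ne hPq fun h => hb₀P ?_
    rw [h]
    exact hb₀q
  have := hP
  have h2 := Ideal.height_add_one_le_of_lt_of_isPrime hbot
  have h3 := Ideal.height_add_one_le_of_lt_of_isPrime hlt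
  have h4 : (1 : ℕ∞) + 1 ≤ 1 :=
    calc (1 : ℕ∞) + 1 ≤ ((⊥ : Ideal B).height + 1) + 1 := by gcongr; exact le_add_self
      _ ≤ (Ideal.span {π}).height + 1 := by gcongr
      _ ≤ q.height := h3
      _ ≤ 1 := hh1
  exact absurd h4 (by decide)

/-- A nonzero prime `q ≤ n` with `π ∉ q` through a closed point `n` of a regular special
fibre is generated in the local ring `B_n` by one element `g ∈ q \ πB` (an element of minimal
`τ`-order; Nakayama). -/
theorem exists_map_eq_span {n : Ideal B} [n.IsPrime] {π τ : B} (hπu : ¬ IsUnit π)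
    (hπn : π ∈ n) (hreg : ∀ a : B, a ∉ Ideal.span {π} → ∃ e : ℕ, EOrd n π τ a e)
    (R : Type*) [CommRing R] [Algebra B R] [IsLocalization.AtPrime R n]
    {q : Ideal B} [q.IsPrime] (hπq : π ∉ q) (hq0 : q ≠ ⊥) :
    ∃ g ∈ q, g ∉ Ideal.span {π} ∧
      q.map (algebraMap B R) = Ideal.span {algebraMap B R g} := by
  classical
  have : IsLocalRing R := IsLocalization.AtPrime.isLocalRing R n
  have : IsNoetherianRing R := IsLocalization.isNoetherianRing n.primeCompl R inferInstance
  -- an element of `q` outside `πB`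
  obtain ⟨x, hxq, hx0⟩ : ∃ x ∈ q, x ≠ 0 := Submodule.exists_mem_ne_zero_of_ne_bot hq0
  obtain ⟨k, x', hx', rfl⟩ := WfDvdMonoid.max_power_factor' hx0 hπu
  have hx'q : x' ∈ q := by
    rcases Ideal.IsPrime.mem_or_mem inferInstance hxq with h | h
    · exact absurd (Ideal.IsPrime.mem_of_pow_mem inferInstance _ h) hπq
    · exact h
  have hx'P : x' ∉ Ideal.span {π} := fun h => hx' (Ideal.mem_span_singleton.mp h)
  -- minimal order
  have hne : ∃ e : ℕ, ∃ g ∈ q, g ∉ Ideal.span {π} ∧ EOrd n π τ g e := by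
    obtain ⟨e, he⟩ := hreg x' hx'P
    exact ⟨e, x', hx'q, hx'P, he⟩
  obtain ⟨g, hgq, hgP, hgE⟩ := Nat.find_spec hne
  have hmin : ∀ e : ℕ, (∃ g ∈ q, g ∉ Ideal.span {π} ∧ EOrd n π τ g e) → Nat.find hne ≤ e :=
    fun e he => Nat.find_min' hne he
  -- the key congruence
  have key : ∀ a ∈ q, ∃ s c t : B, s ∉ n ∧ t ∈ q ∧ a * s = g * c + π * t := by
    intro a haq
    by_cases haP : a ∈ Ideal.span {π}
    · obtain ⟨a₁, rfl⟩ := Ideal.mem_span_singleton'.mp haP
      refine ⟨1, 0, a₁, ?_, ?_, by ring⟩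
      · exact fun h => (Ideal.IsPrime.ne_top inferInstance) ((Ideal.eq_top_iff_one n).mpr h)
      · rcases Ideal.IsPrime.mem_or_mem inferInstance haq with h | h
        · exact h
        · exact absurd h hπq
    · obtain ⟨ea, hEa⟩ := hreg a haP
      have hle : Nat.find hne ≤ ea := hmin ea ⟨a, haq, haP, hEa⟩
      obtain ⟨da, ua, hda, hua, hPa⟩ := hEa
      obtain ⟨dg, ug, hdg, hug, hPg⟩ := hgE
      have h1 : a * (da * ug) - g * (ua * τ ^ (ea - Nat.find hne) * dg) ∈ Ideal.span {π} := by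
        have e1 : a * (da * ug) - g * (ua * τ ^ (ea - Nat.find hne) * dg) =
            ug * (a * da - ua * (τ ^ (ea - Nat.find hne) * τ ^ Nat.find hne)) -
              ua * τ ^ (ea - Nat.find hne) * (g * dg - ug * τ ^ Nat.find hne) := by ring
        rw [e1, ← pow_add, Nat.sub_add_cancel hle]
        exact Ideal.sub_mem _ (Ideal.mul_mem_left _ _ hPa) (Ideal.mul_mem_left _ _ hPg)
      obtain ⟨t, ht⟩ := Ideal.mem_span_singleton'.mp h1
      refine ⟨da * ug, ua * τ ^ (ea - Nat.find hne) * dg, t, ?_, ?_, ?_⟩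
      · exact fun h => (Ideal.IsPrime.mem_or_mem inferInstance h).elim hda hug
      · have h2 : t * π ∈ q := by
          rw [ht]
          exact q.sub_mem (q.mul_mem_right _ haq) (q.mul_mem_right _ hgq)
        rcases Ideal.IsPrime.mem_or_mem inferInstance h2 with h | h
        · exact h
        · exact absurd h hπq
      · linear_combination -ht
  refine ⟨g, hgq, hgP, le_antisymm ?_ ?_⟩
  · -- Nakayama
    apply Submodule.le_of_le_smul_of_le_jacobson_bot (I := Ideal.span {algebraMap B R π})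
      (IsNoetherian.noetherian _)
    · rw [IsLocalRing.jacobson_eq_maximalIdeal ⊥ bot_ne_top, Ideal.span_singleton_le_iff_mem]
      exact (IsLocalization.AtPrime.to_map_mem_maximal_iff R n π).mpr hπn
    · intro x hx
      obtain ⟨⟨⟨a, haq⟩, ⟨s₀, hs₀⟩⟩, hxa⟩ :=
        (IsLocalization.mem_map_algebraMap_iff n.primeCompl R).mp hx
      obtain ⟨s, c, t, hs, htq, hast⟩ := key a haq
      have hs₀s : s₀ * s ∈ n.primeCompl := fun h =>
        (Ideal.IsPrime.mem_or_mem inferInstance h).elim hs₀ hs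
      obtain ⟨w, hw⟩ := IsLocalization.map_units R (⟨s₀ * s, hs₀s⟩ : n.primeCompl)
      have hxa' : x * algebraMap B R s₀ = algebraMap B R a := hxa
      have hw' : (w : R) = algebraMap B R s₀ * algebraMap B R s := by
        rw [hw, map_mul]
      have e1 : x * (w : R) = algebraMap B R g * algebraMap B R c +
          algebraMap B R π * algebraMap B R t := by
        rw [hw', ← mul_assoc, hxa', ← map_mul, hast, map_add, map_mul, map_mul]
      have e2 : x = algebraMap B R g * (algebraMap B R c * ((w⁻¹ : Rˣ) : R)) +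
          algebraMap B R π * (algebraMap B R t * ((w⁻¹ : Rˣ) : R)) := by
        have : x = x * (w : R) * ((w⁻¹ : Rˣ) : R) := by
          rw [mul_assoc, Units.mul_inv, mul_one]
        rw [this, e1]
        ring
      rw [e2]
      refine Submodule.add_mem_sup ?_ ?_
      · exact Ideal.mem_span_singleton'.mpr ⟨_, mul_comm _ _⟩
      · exact Submodule.smul_mem_smul (Ideal.mem_span_singleton_self _)
          (Ideal.mul_mem_right _ _ (Ideal.mem_map_of_mem _ htq))
  · rw [Ideal.span_singleton_le_iff_mem]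
    exact Ideal.mem_map_of_mem _ hgq

end Horizontal

/-! ### The valuation ring of a prime element -/

section PrimeVal

variable {R F : Type*} [CommRing R] [IsDomain R] [WfDvdMonoid R] [Field F] [Algebra R F]
  [IsFractionRing R F]

/-- The valuation ring of a prime element `p` of a domain with well-founded divisibility,
inside the fraction field: the fractions `r / s` with `p ∤ s`. -/
theorem exists_valuationSubring_of_prime {p : R} (hp : Prime p) :
    ∃ O : ValuationSubring F, ∀ x : F, x ∈ O ↔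
      ∃ r s : R, ¬ p ∣ s ∧ x * algebraMap R F s = algebraMap R F r := by
  classical
  have hinj : Function.Injective (algebraMap R F) := IsFractionRing.injective R F
  refine ⟨{ carrier := {x | ∃ r s : R, ¬ p ∣ s ∧ x * algebraMap R F s = algebraMap R F r}
            mul_mem' := ?_
            one_mem' := ⟨1, 1, hp.not_dvd_one, by simp⟩
            add_mem' := ?_
            zero_mem' := ⟨0, 1, hp.not_dvd_one, by simp⟩
            neg_mem' := ?_
            mem_or_inv_mem' := ?_ }, fun x => Iff.rfl⟩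
  · rintro x y ⟨r, s, hs, h⟩ ⟨r', s', hs', h'⟩
    refine ⟨r * r', s * s', fun hd => (hp.dvd_or_dvd hd).elim hs hs', ?_⟩
    rw [map_mul, map_mul, ← h, ← h']
    ring
  · rintro x y ⟨r, s, hs, h⟩ ⟨r', s', hs', h'⟩
    refine ⟨r * s' + r' * s, s * s', fun hd => (hp.dvd_or_dvd hd).elim hs hs', ?_⟩
    rw [map_add, map_mul, map_mul, map_mul, ← h, ← h']
    ring
  · rintro x ⟨r, s, hs, h⟩
    exact ⟨-r, s, hs, by rw [map_neg, ← h]; ring⟩
  · intro x
    by_cases hx : x = 0
    · left
      exact ⟨0, 1, hp.not_dvd_one, by simp [hx]⟩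
    · obtain ⟨a, b, hb, rfl⟩ := IsFractionRing.div_surjective (A := R) x
      have hb0 : b ≠ 0 := nonZeroDivisors.ne_zero hb
      have ha0 : a ≠ 0 := by
        rintro rfl
        simp at hx
      obtain ⟨i, a', ha', rfl⟩ := WfDvdMonoid.max_power_factor' ha0 hp.not_isUnit
      obtain ⟨j, b', hb', rfl⟩ := WfDvdMonoid.max_power_factor' hb0 hp.not_isUnit
      have hpF : algebraMap R F p ≠ 0 := (map_ne_zero_iff _ hinj).mpr hp.ne_zero
      have hb'F : algebraMap R F b' ≠ 0 :=
        (map_ne_zero_iff _ hinj).mpr (right_ne_zero_of_mul hb0)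
      have ha'F : algebraMap R F a' ≠ 0 :=
        (map_ne_zero_iff _ hinj).mpr (right_ne_zero_of_mul ha0)
      rcases le_total j i with hji | hij
      · left
        obtain ⟨k, rfl⟩ := Nat.exists_eq_add_of_le hji
        refine ⟨p ^ k * a', b', hb', ?_⟩
        simp only [map_mul, map_pow]
        field_simp
        ring
      · right
        obtain ⟨k, rfl⟩ := Nat.exists_eq_add_of_le hij
        refine ⟨p ^ k * b', a', ha', ?_⟩
        simp only [map_mul, map_pow]
        field_simp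
        ring

/-- If `r * x = z ^ m` with `x` a unit at the prime element `p` and `p ∣ r`, then
`p ^ m ∣ r`. -/
theorem pow_dvd_of_mul_eq_pow {p : R} (hp : Prime p) {m : ℕ} (hm : 0 < m) {r : R} {x z : F}
    (hx : ∃ r₁ s₁ : R, ¬ p ∣ s₁ ∧ x * algebraMap R F s₁ = algebraMap R F r₁)
    (hx' : ∃ r₂ s₂ : R, ¬ p ∣ s₂ ∧ x⁻¹ * algebraMap R F s₂ = algebraMap R F r₂)
    (hx0 : x ≠ 0) (h : algebraMap R F r * x = z ^ m) (hpr : p ∣ r) : p ^ m ∣ r := by
  classical
  by_cases hr0 : r = 0
  · rw [hr0]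
    exact dvd_zero _
  obtain ⟨r₁, s₁, hs₁, h₁⟩ := hx
  obtain ⟨r₂, s₂, hs₂, h₂⟩ := hx'
  have hinj : Function.Injective (algebraMap R F) := IsFractionRing.injective R F
  have hr₁ : ¬ p ∣ r₁ := by
    intro hd
    have e1 : r₁ * r₂ = s₁ * s₂ := by
      apply hinj
      rw [map_mul, map_mul, ← h₁, ← h₂]
      field_simp
    have e2 : p ∣ s₁ * s₂ := e1 ▸ hd.mul_right _
    exact (hp.dvd_or_dvd e2).elim hs₁ hs₂
  obtain ⟨z₁, z₂, hz₂, rfl⟩ := IsFractionRing.div_surjective (A := R) z
  have hz₂0 : z₂ ≠ 0 := nonZeroDivisors.ne_zero hz₂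
  have hz₂F : algebraMap R F z₂ ≠ 0 := (map_ne_zero_iff _ hinj).mpr hz₂0
  have key : r * r₁ * z₂ ^ m = z₁ ^ m * s₁ := by
    apply hinj
    simp only [map_mul, map_pow]
    rw [← h₁]
    have e1 : algebraMap R F z₁ ^ m = algebraMap R F r * x * algebraMap R F z₂ ^ m := by
      rw [h, div_pow]
      field_simp
    rw [e1]
    ring
  have hr₁0 : r₁ ≠ 0 := fun h0 => hr₁ (h0 ▸ dvd_zero p)
  have hz₁0 : z₁ ≠ 0 := by
    rintro rfl
    rw [zero_pow hm.ne', zero_mul] at key
    exact mul_ne_zero (mul_ne_zero hr0 hr₁0) (pow_ne_zero _ hz₂0) key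
  have e := congrArg (emultiplicity p) key
  rw [emultiplicity_mul hp, emultiplicity_mul hp, emultiplicity_mul hp, emultiplicity_pow hp,
    emultiplicity_pow hp, emultiplicity_eq_zero.mpr hr₁, emultiplicity_eq_zero.mpr hs₁,
    (FiniteMultiplicity.of_not_isUnit hp.not_isUnit hr0).emultiplicity_eq_multiplicity,
    (FiniteMultiplicity.of_not_isUnit hp.not_isUnit hz₁0).emultiplicity_eq_multiplicity,
    (FiniteMultiplicity.of_not_isUnit hp.not_isUnit hz₂0).emultiplicity_eq_multiplicity,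
    add_zero, add_zero] at e
  have e' : multiplicity p r + m * multiplicity p z₂ = m * multiplicity p z₁ := by
    exact_mod_cast e
  have hpos : 0 < multiplicity p r := multiplicity_pos_of_dvd hpr
  have hdvd : m ∣ multiplicity p r :=
    (Nat.dvd_add_left (dvd_mul_right m _)).mp (e' ▸ dvd_mul_right m _)
  exact (pow_dvd_pow p (Nat.le_of_dvd hpos hdvd)).trans (pow_multiplicity_dvd p r)

end PrimeVal

/-! ### The base step for an abstract chart -/

section Core

variable {B F : Type} [CommRing B] [IsDomain B] [IsNoetherianRing B] [Field F] [Algebra B F]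
  [IsFractionRing B F] {Γ : Type*} [LinearOrderedCommGroupWithZero Γ]

/-- **Base step, abstract form.**  `B` a noetherian domain with fraction field `F`, `v` a
valuation of `F` with `v ≤ 1` on `B` and `{v < 1} ∩ B = πB`, regular special fibre (REG),
`m`-th roots of elements of `B` lie in `B`, `f ≡ 1` and `f` is locally a unit times an
`m`-th power at every valuation ring of `F` containing `B[1/π]`.  Then some `s` with
`s ^ m ∈ f B` has `s ≡ 1`. -/
theorem base_core (v : Valuation F Γ) (π : B) (hπ0 : π ≠ 0)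
    (hB : ∀ b : B, v (algebraMap B F b) ≤ 1)
    (hπ : ∀ b : B, v (algebraMap B F b) < 1 ↔ π ∣ b)
    (hREG : ∀ n : Ideal B, n.IsMaximal → π ∈ n → ∃ τ ∈ n, ∀ a : B, a ∉ Ideal.span {π} →
      ∃ (e : ℕ) (d u : B), d ∉ n ∧ u ∉ n ∧ a * d - u * τ ^ e ∈ Ideal.span {π})
    (m : ℕ) (hm : 0 < m)
    (hroot : ∀ x : F, (∃ b : B, x ^ m = algebraMap B F b) → ∃ b : B, x = algebraMap B F b)
    (f : F) (hf1 : v (f - 1) < 1)
    (hdiv : ∀ O : ValuationSubring F, (∀ b : B, algebraMap B F b ∈ O) →
      (algebraMap B F π)⁻¹ ∈ O → ∃ g : F, g ≠ 0 ∧ f / g ^ m ∈ O ∧ g ^ m / f ∈ O) :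
    ∃ (s : F) (b : B), s ^ m = f * algebraMap B F b ∧ v (s - 1) < 1 := by
  classical
  have hι : Function.Injective (algebraMap B F) := IsFractionRing.injective B F
  have hπu : ¬ IsUnit π := by
    intro hu
    have h1 := (hπ 1).mpr hu.dvd
    rw [map_one, map_one] at h1
    exact lt_irrefl _ h1
  have hPmem : ∀ b : B, b ∈ Ideal.span {π} ↔ v (algebraMap B F b) < 1 := fun b => by
    rw [Ideal.mem_span_singleton]
    exact (hπ b).symm
  have hvone : ∀ b : B, b ∉ Ideal.span {π} → v (algebraMap B F b) = 1 := fun b hb =>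
    le_antisymm (hB b) (not_lt.mp fun h => hb ((hPmem b).mpr h))
  have hPprime : (Ideal.span {π}).IsPrime := by
    refine ⟨fun h => ?_, fun {a b} hab => ?_⟩
    · have h1 : (1 : B) ∈ Ideal.span {π} := by
        rw [h]
        trivial
      have h2 := (hPmem 1).mp h1
      rw [map_one, map_one] at h2
      exact lt_irrefl _ h2
    · by_contra hcon
      rw [not_or] at hcon
      have h2 := (hPmem _).mp hab
      rw [map_mul, map_mul, hvone a hcon.1, hvone b hcon.2, one_mul] at h2
      exact lt_irrefl _ h2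
  have hvf : v f = 1 := by
    have e1 : f = 1 + (f - 1) := by ring
    rw [e1]
    exact v.map_one_add_of_lt hf1
  have hf0 : f ≠ 0 := by
    rintro rfl
    rw [map_zero] at hvf
    exact zero_ne_one hvf
  have hπF : algebraMap B F π ≠ 0 := (map_ne_zero_iff _ hι).mpr hπ0
  have hvπ : v (algebraMap B F π) < 1 := (hπ π).mpr dvd_rfl
  -- fractions with denominator prime to `π`
  have hfrac : ∀ y : F, v y ≤ 1 →
      ∃ a₁ a₂ : B, a₂ ∉ Ideal.span {π} ∧ y * algebraMap B F a₂ = algebraMap B F a₁ := by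
    intro y hy
    obtain ⟨a, b, hb, rfl⟩ := IsFractionRing.div_surjective (A := B) y
    have hb0 : b ≠ 0 := nonZeroDivisors.ne_zero hb
    obtain ⟨j, b', hb', rfl⟩ := WfDvdMonoid.max_power_factor' hb0 hπu
    have aux : ∀ (j : ℕ) (a : B) (y : F), v y ≤ 1 →
        y * algebraMap B F (π ^ j * b') = algebraMap B F a →
        ∃ a₁ : B, y * algebraMap B F b' = algebraMap B F a₁ := by
      intro j
      induction j with
      | zero =>
        intro a y _ hya
        exact ⟨a, by rw [← hya, pow_zero, one_mul]⟩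
      | succ j ih =>
        intro a y hy hya
        have e1 : algebraMap B F a =
            y * algebraMap B F (π ^ j * b') * algebraMap B F π := by
          rw [← hya, pow_succ, mul_assoc, mul_comm π b', ← mul_assoc, map_mul _ _ π, mul_assoc]
        have h1 : v (algebraMap B F a) < 1 := by
          rw [e1, map_mul, map_mul]
          have h2 : v y * v (algebraMap B F (π ^ j * b')) ≤ 1 * 1 := mul_le_mul' hy (hB _)
          rw [one_mul] at h2
          calc v y * v (algebraMap B F (π ^ j * b')) * v (algebraMap B F π)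
              ≤ 1 * v (algebraMap B F π) := mul_le_mul' h2 le_rfl
            _ < 1 := by rwa [one_mul]
        obtain ⟨a₀, rfl⟩ := (hπ a).mp h1
        refine ih a₀ y hy ?_
        apply mul_right_cancel₀ hπF
        rw [← e1, map_mul, mul_comm]
    obtain ⟨a₁, ha₁⟩ := aux j a _ hy
      (div_mul_cancel₀ _ ((map_ne_zero_iff _ hι).mpr hb0))
    exact ⟨a₁, b', fun h => hb' (Ideal.mem_span_singleton.mp h), ha₁⟩
  -- the root module is closed under addition
  have hroot' : ∀ x : F, x ^ m ∈ (⊥ : Subalgebra B F) → x ∈ (⊥ : Subalgebra B F) := by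
    intro x hx
    obtain ⟨b, hb⟩ := Algebra.mem_bot.mp hx
    obtain ⟨b', hb'⟩ := hroot x ⟨b, hb.symm⟩
    exact Algebra.mem_bot.mpr ⟨b', hb'.symm⟩
  have hadd : ∀ y₁ y₂ : F, (∃ b : B, y₁ ^ m = f * algebraMap B F b) →
      (∃ b : B, y₂ ^ m = f * algebraMap B F b) →
      ∃ b : B, (y₁ + y₂) ^ m = f * algebraMap B F b := by
    rintro y₁ y₂ ⟨b₁, h₁⟩ ⟨b₂, h₂⟩
    obtain ⟨b, hb, h⟩ := H63.root_add (⊥ : Subalgebra B F) f hf0 m hroot'
      ⟨algebraMap B F b₁, Algebra.mem_bot.mpr ⟨b₁, rfl⟩, h₁⟩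
      ⟨algebraMap B F b₂, Algebra.mem_bot.mpr ⟨b₂, rfl⟩, h₂⟩
    obtain ⟨b', rfl⟩ := Algebra.mem_bot.mp hb
    exact ⟨b', h⟩
  have hzero : ∃ b : B, (0 : F) ^ m = f * algebraMap B F b :=
    ⟨0, by rw [zero_pow hm.ne', map_zero, mul_zero]⟩
  -- the ideal of values
  let J : Ideal B :=
    { carrier := {c | ∃ y : F, (∃ b : B, y ^ m = f * algebraMap B F b) ∧
        v (y - algebraMap B F c) < 1}
      add_mem' := by
        rintro c₁ c₂ ⟨y₁, hy₁, hv₁⟩ ⟨y₂, hy₂, hv₂⟩
        refine ⟨y₁ + y₂, hadd y₁ y₂ hy₁ hy₂, ?_⟩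
        have e1 : y₁ + y₂ - algebraMap B F (c₁ + c₂) =
            (y₁ - algebraMap B F c₁) + (y₂ - algebraMap B F c₂) := by
          rw [map_add]
          ring
        rw [e1]
        exact Valuation.map_add_lt v hv₁ hv₂
      zero_mem' := ⟨0, hzero, by
        rw [map_zero, sub_zero, map_zero]
        exact zero_lt_one⟩
      smul_mem' := by
        rintro c x ⟨y, ⟨b, hb⟩, hv⟩
        refine ⟨algebraMap B F c * y, ⟨c ^ m * b, by
          rw [mul_pow, hb, map_mul, map_pow]
          ring⟩, ?_⟩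
        have e1 : algebraMap B F c * y - algebraMap B F (c • x) =
            algebraMap B F c * (y - algebraMap B F x) := by
          rw [smul_eq_mul, map_mul]
          ring
        rw [e1, map_mul]
        calc v (algebraMap B F c) * v (y - algebraMap B F x)
            ≤ 1 * v (y - algebraMap B F x) := mul_le_mul' (hB c) le_rfl
          _ < 1 := by rwa [one_mul] }
  have hJmem : ∀ c : B, c ∈ J ↔ ∃ y : F, (∃ b : B, y ^ m = f * algebraMap B F b) ∧
      v (y - algebraMap B F c) < 1 := fun c => Iff.rfl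
  by_cases h1 : (1 : B) ∈ J
  · obtain ⟨y, ⟨b, hb⟩, hv⟩ := (hJmem 1).mp h1
    rw [map_one] at hv
    exact ⟨y, b, hb, hv⟩
  exfalso
  have hJtop : J ≠ ⊤ := fun h => h1 (by rw [h]; trivial)
  obtain ⟨n, hnmax, hJn⟩ := Ideal.exists_le_maximal J hJtop
  have hnprime : n.IsPrime := hnmax.isPrime
  have hπJ : π ∈ J := (hJmem π).mpr ⟨0, hzero, by
    rw [zero_sub, Valuation.map_neg]
    exact hvπ⟩
  have hπn : π ∈ n := hJn hπJ
  obtain ⟨τ, hτ, hτE⟩ := hREG n hnmax hπn
  have hreg : ∀ a : B, a ∉ Ideal.span {π} → ∃ e : ℕ, EOrd n π τ a e := fun a ha => by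
    obtain ⟨e, d, u, h⟩ := hτE a ha
    exact ⟨e, d, u, h⟩
  have hPn : Ideal.span {π} ≤ n := (Ideal.span_singleton_le_iff_mem n).mpr hπn
  -- the set of orders of root sections that are units of `v`
  have hne : ∃ e : ℕ, ∃ (y : F) (b : B), y ^ m = f * algebraMap B F b ∧
      b ∉ Ideal.span {π} ∧ EOrd n π τ b e := by
    obtain ⟨a₁, a₂, ha₂, hfa⟩ := hfrac f (le_of_eq hvf)
    have ha₁ : a₁ ∉ Ideal.span {π} := by
      intro h
      have h2 := (hPmem a₁).mp h
      rw [← hfa, map_mul, hvf, hvone a₂ ha₂, one_mul] at h2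
      exact lt_irrefl _ h2
    have hb : a₂ * a₁ ^ (m - 1) ∉ Ideal.span {π} := fun h =>
      (hPprime.mem_or_mem h).elim ha₂ fun h' => ha₁ (hPprime.mem_of_pow_mem _ h')
    obtain ⟨e, he⟩ := hreg _ hb
    refine ⟨e, algebraMap B F a₁, a₂ * a₁ ^ (m - 1), ?_, hb, he⟩
    rw [map_mul, map_pow, ← mul_assoc, hfa, ← pow_succ', Nat.sub_add_cancel hm]
  obtain ⟨y₀, b₀, hy₀, hb₀P, hE₀⟩ := Nat.find_spec hne
  have hmin : ∀ e : ℕ, (∃ (y : F) (b : B), y ^ m = f * algebraMap B F b ∧
      b ∉ Ideal.span {π} ∧ EOrd n π τ b e) → Nat.find hne ≤ e :=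
    fun e he => Nat.find_min' hne he
  rcases Nat.eq_zero_or_pos (Nat.find hne) with he₀ | he₀
  · -- order zero: a value outside `n`
    rw [he₀] at hE₀
    have hvy₀ : v y₀ = 1 := by
      have e1 : v y₀ ^ m = 1 := by
        rw [← map_pow, hy₀, map_mul, hvf, hvone b₀ hb₀P, one_mul]
      exact (pow_eq_one_iff_of_nonneg zero_le hm.ne').mp e1
    obtain ⟨a₁, a₂, ha₂, hya⟩ := hfrac y₀ (le_of_eq hvy₀)
    have ha₁ : a₁ ∉ Ideal.span {π} := by
      intro h
      have h2 := (hPmem a₁).mp h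
      rw [← hya, map_mul, hvy₀, hvone a₂ ha₂, one_mul] at h2
      exact lt_irrefl _ h2
    obtain ⟨e₁, hE₁⟩ := hreg a₁ ha₁
    obtain ⟨e₂, hE₂⟩ := hreg a₂ ha₂
    have hcong : b₀ * a₂ ^ m - a₁ ^ m ∈ Ideal.span {π} := by
      rw [hPmem]
      have e1 : algebraMap B F (b₀ * a₂ ^ m - a₁ ^ m) =
          (1 - f) * algebraMap B F (b₀ * a₂ ^ m) := by
        rw [map_sub, map_pow _ a₁, ← hya, mul_pow, hy₀, map_mul, map_pow]
        ring
      rw [e1, map_mul]
      calc v (1 - f) * v (algebraMap B F (b₀ * a₂ ^ m)) ≤ v (1 - f) * 1 :=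
            mul_le_mul' le_rfl (hB _)
        _ < 1 := by
            rw [mul_one, Valuation.map_sub_swap]
            exact hf1
    have hee : e₁ = e₂ := by
      have h2 : EOrd n π τ (a₁ ^ m) (m * e₁) := hE₁.pow m
      have h3 : EOrd n π τ (b₀ * a₂ ^ m) (0 + m * e₂) := hE₀.mul (hE₂.pow m)
      have h4 : EOrd n π τ (a₁ ^ m) (0 + m * e₂) := h3.congr hcong
      have ha₁m : a₁ ^ m ∉ Ideal.span {π} := fun h => ha₁ (hPprime.mem_of_pow_mem _ h)
      have h5 := EOrd.unique hPprime hπn hτ ha₁m h2 h4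
      rw [zero_add] at h5
      exact Nat.eq_of_mul_eq_mul_left hm h5
    subst hee
    obtain ⟨d₁, u₁, hd₁, hu₁, hP₁⟩ := hE₁
    obtain ⟨d₂, u₂, hd₂, hu₂, hP₂⟩ := hE₂
    have hc : u₁ * d₂ ∉ n := fun h => (hnprime.mem_or_mem h).elim hu₁ hd₂
    apply hc
    apply hJn
    rw [hJmem]
    refine ⟨algebraMap B F (d₁ * u₂) * y₀, ⟨(d₁ * u₂) ^ m * b₀, by
      rw [mul_pow, hy₀, map_mul _ _ b₀, map_pow]
      ring⟩, ?_⟩
    have h5 : a₁ * (d₁ * u₂) - a₂ * (u₁ * d₂) ∈ Ideal.span {π} := by
      have e1 : a₁ * (d₁ * u₂) - a₂ * (u₁ * d₂) =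
          u₂ * (a₁ * d₁ - u₁ * τ ^ e₁) - u₁ * (a₂ * d₂ - u₂ * τ ^ e₁) := by ring
      rw [e1]
      exact Ideal.sub_mem _ (Ideal.mul_mem_left _ _ hP₁) (Ideal.mul_mem_left _ _ hP₂)
    have h6 := (hPmem _).mp h5
    have h7 : algebraMap B F (a₁ * (d₁ * u₂) - a₂ * (u₁ * d₂)) =
        (algebraMap B F (d₁ * u₂) * y₀ - algebraMap B F (u₁ * d₂)) * algebraMap B F a₂ := by
      rw [map_sub, map_mul, map_mul _ a₂, ← hya]
      ring
    rw [h7, map_mul, hvone a₂ ha₂, mul_one] at h6
    exact h6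
  · -- positive order: divide by the local equation of a horizontal prime
    have hb₀n : b₀ ∈ n := hE₀.mem_of_pos hπn hτ he₀
    obtain ⟨q, hqp, hqn, hb₀q, hπq⟩ :=
      exists_prime_le_not_mem hπ0 hPprime hπn hreg hb₀n hb₀P
    have hb₀0 : b₀ ≠ 0 := fun h => hb₀P (h ▸ Ideal.zero_mem _)
    have hq0 : q ≠ ⊥ := fun h => hb₀0 (by rw [h] at hb₀q; exact hb₀q)
    -- the local ring at `n` inside `F`
    have hS : n.primeCompl ≤ nonZeroDivisors B := fun s hs =>
      mem_nonZeroDivisors_of_ne_zero fun h => hs (h ▸ n.zero_mem)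
    let R := Localization.subalgebra.ofField F n.primeCompl hS
    have hloc : IsLocalization.AtPrime R n :=
      Localization.subalgebra.isLocalization_ofField F n.primeCompl hS
    have hRnoeth : IsNoetherianRing R :=
      IsLocalization.isNoetherianRing n.primeCompl R inferInstance
    obtain ⟨g, hgq, hgP, hqg⟩ := exists_map_eq_span hπu hπn hreg R hπq hq0
    have hg0 : g ≠ 0 := fun h => hgP (h ▸ Ideal.zero_mem _)
    have hBR : Function.Injective (algebraMap B R) := IsLocalization.injective R hS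
    have hg'0 : algebraMap B R g ≠ 0 := (map_ne_zero_iff _ hBR).mpr hg0
    have hdisj : Disjoint (n.primeCompl : Set B) (q : Set B) :=
      Set.disjoint_left.mpr fun x hx hxq => hx (hqn hxq)
    have hq'prime : (q.map (algebraMap B R)).IsPrime :=
      IsLocalization.isPrime_of_isPrime_disjoint n.primeCompl R q hqp hdisj
    have hg'prime : Prime (algebraMap B R g) :=
      (Ideal.span_singleton_prime hg'0).mp (hqg ▸ hq'prime)
    have hcomap : (q.map (algebraMap B R)).comap (algebraMap B R) = q :=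
      IsLocalization.under_map_of_isPrime_disjoint n.primeCompl R hqp hdisj
    have hπ' : ¬ algebraMap B R g ∣ algebraMap B R π := by
      intro hd
      have h2 : algebraMap B R π ∈ q.map (algebraMap B R) := by
        rw [hqg]
        exact Ideal.mem_span_singleton.mpr hd
      have h3 : π ∈ (q.map (algebraMap B R)).comap (algebraMap B R) := h2
      rw [hcomap] at h3
      exact hπq h3
    obtain ⟨O, hO⟩ := exists_valuationSubring_of_prime (F := F) hg'prime
    have hRF : ∀ b : B, algebraMap R F (algebraMap B R b) = algebraMap B F b := fun b =>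
      (IsScalarTower.algebraMap_apply B R F b).symm
    obtain ⟨g₁, hg₁0, hO1, hO2⟩ := hdiv O
      (fun b => (hO _).mpr ⟨algebraMap B R b, 1, hg'prime.not_dvd_one, by
        rw [map_one, mul_one, hRF]⟩)
      ((hO _).mpr ⟨1, algebraMap B R π, hπ', by
        rw [hRF, map_one, inv_mul_cancel₀ hπF]⟩)
    have hdvd : algebraMap B R g ^ m ∣ algebraMap B R b₀ := by
      refine pow_dvd_of_mul_eq_pow (F := F) hg'prime hm (x := f / g₁ ^ m) (z := y₀ / g₁)
        ((hO _).mp hO1) ?_ (div_ne_zero hf0 (pow_ne_zero _ hg₁0)) ?_ ?_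
      · rw [inv_div]
        exact (hO _).mp hO2
      · rw [hRF, div_pow, hy₀]
        field_simp
      · have h2 : algebraMap B R b₀ ∈ q.map (algebraMap B R) := Ideal.mem_map_of_mem _ hb₀q
        rw [hqg] at h2
        exact Ideal.mem_span_singleton.mp h2
    obtain ⟨r, hr⟩ := hdvd
    obtain ⟨⟨b₁, ⟨s, hs⟩⟩, hrs⟩ := IsLocalization.surj n.primeCompl r
    have hrs' : r * algebraMap B R s = algebraMap B R b₁ := hrs
    have hbs : b₀ * s = g ^ m * b₁ := by
      apply hBR
      rw [map_mul, hr, map_mul, map_pow, mul_assoc, hrs']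
    have hιg : algebraMap B F g ≠ 0 := (map_ne_zero_iff _ hι).mpr hg0
    have hy₁ : (algebraMap B F s * y₀ / algebraMap B F g) ^ m =
        f * algebraMap B F (s ^ (m - 1) * b₁) := by
      have h8 : algebraMap B F b₀ * algebraMap B F s =
          algebraMap B F g ^ m * algebraMap B F b₁ := by
        rw [← map_mul, hbs, map_mul, map_pow]
      have h9 : algebraMap B F s ^ m = algebraMap B F s ^ (m - 1) * algebraMap B F s := by
        rw [← pow_succ, Nat.sub_add_cancel hm]
      rw [div_pow, mul_pow, hy₀, map_mul, map_pow, div_eq_iff (pow_ne_zero _ hιg), h9]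
      linear_combination (f * algebraMap B F s ^ (m - 1)) * h8
    have hs_n : s ∉ n := hs
    have hsP : s ∉ Ideal.span {π} := fun h => hs_n (hPn h)
    have hbsP : b₀ * s ∉ Ideal.span {π} := fun h => (hPprime.mem_or_mem h).elim hb₀P hsP
    have hb₁P : b₁ ∉ Ideal.span {π} := fun h => hbsP (by
      rw [hbs]
      exact Ideal.mul_mem_left _ _ h)
    have hnewP : s ^ (m - 1) * b₁ ∉ Ideal.span {π} := fun h =>
      (hPprime.mem_or_mem h).elim (fun h' => hsP (hPprime.mem_of_pow_mem _ h')) hb₁P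
    obtain ⟨eg, hEg⟩ := hreg g hgP
    have heg : 0 < eg := hEg.pos_of_mem hπn (hqn hgq)
    obtain ⟨e₁, hE₁⟩ := hreg b₁ hb₁P
    have hEs : EOrd n π τ s 0 := EOrd.of_not_mem hs_n
    have h10 : EOrd n π τ (b₀ * s) (Nat.find hne + 0) := hE₀.mul hEs
    have h11 : EOrd n π τ (g ^ m * b₁) (m * eg + e₁) := (hEg.pow m).mul hE₁
    rw [← hbs] at h11
    have h12 : Nat.find hne + 0 = m * eg + e₁ := EOrd.unique hPprime hπn hτ hbsP h10 h11
    have h13 : EOrd n π τ (s ^ (m - 1) * b₁) ((m - 1) * 0 + e₁) := (hEs.pow (m - 1)).mul hE₁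
    have h14 := hmin _ ⟨_, _, hy₁, hnewP, h13⟩
    have h15 : 0 < m * eg := Nat.mul_pos hm heg
    generalize m * eg = k at h12 h15
    omega

end Core

/-! ### The node statement -/

/-- **KC1, the base step for one chart**: the literal node statement of `KCStmts_helper63`. -/
theorem stmtBase : H63.StmtBase := by
  intro A F _ _ _ _ π m V B f hπ hinj harch hm hπV hVπ hBV hnoeth hic hfrac hsat hreg hf hdiv
  have hϖ0 : algebraMap A F π ≠ 0 := fun h => hπ (hinj (by rw [h, map_zero]))
  have hvϖ : V.valuation (algebraMap A F π) < 1 := V.mem_nonunits_iff.mp hπV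
  have hfr : IsFractionRing B F := by
    have : FaithfulSMul B F :=
      (faithfulSMul_iff_algebraMap_injective B F).mpr Subtype.val_injective
    refine IsFractionRing.of_field B F fun z => ?_
    obtain ⟨a, ha, b, hb, hb0, e⟩ := hfrac z
    refine ⟨⟨a, ha⟩, ⟨b, hb⟩, ?_⟩
    show z = a / b
    rw [eq_div_iff hb0]
    exact e
  have key := base_core (B := B) (F := F) V.valuation (algebraMap A B π)
    (fun h => hπ (hinj (by
      have h2 : algebraMap A F π = ((algebraMap A B π : B) : F) := rfl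
      rw [h2, h, map_zero]
      rfl)))
    (fun b => (V.valuation_le_one_iff _).mpr (hBV _ b.2))
    (fun b => by
      constructor
      · intro hb
        obtain ⟨y, hy, e⟩ := hVπ (b : F) (V.mem_nonunits_iff.mpr hb)
        obtain ⟨b', hb', e'⟩ := hsat (b : F) b.2 ⟨y, hy, e⟩
        exact ⟨⟨b', hb'⟩, Subtype.ext e'⟩
      · rintro ⟨c, rfl⟩
        show V.valuation (algebraMap A F π * (c : F)) < 1
        rw [map_mul]
        calc V.valuation (algebraMap A F π) * V.valuation (c : F)
            ≤ V.valuation (algebraMap A F π) * 1 :=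
              mul_le_mul' le_rfl ((V.valuation_le_one_iff _).mpr (hBV _ c.2))
          _ < 1 := by rwa [mul_one])
    hreg m hm
    (fun x ⟨b, hb⟩ => ⟨⟨x, H63.root_closed_of_integrally_closed B hic hm x (by
      rw [hb]
      exact b.2)⟩, rfl⟩)
    f (by
      obtain ⟨y, hy, e⟩ := hf
      rw [e, map_mul]
      calc V.valuation (algebraMap A F π) * V.valuation y
          ≤ V.valuation (algebraMap A F π) * 1 :=
            mul_le_mul' le_rfl ((V.valuation_le_one_iff _).mpr hy)
        _ < 1 := by rwa [mul_one])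
    (fun O hO hOπ => hdiv O (fun a => hO ⟨algebraMap A F a, B.algebraMap_mem a⟩) (fun a ha => by
      obtain ⟨k, c, hc⟩ := harch a ha
      have e1 : (algebraMap A F a)⁻¹ = algebraMap A F c * ((algebraMap A F π)⁻¹) ^ k := by
        have ha0 : algebraMap A F a ≠ 0 := fun h => ha (hinj (by rw [h, map_zero]))
        have e2 : algebraMap A F π ^ k = algebraMap A F a * algebraMap A F c := by
          rw [← map_pow, hc, map_mul]
        have hc0 : algebraMap A F c ≠ 0 := by
          intro h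
          rw [h, mul_zero] at e2
          exact pow_ne_zero k hϖ0 e2
        rw [inv_pow, e2]
        field_simp
      rw [e1]
      exact O.mul_mem _ _ (hO ⟨algebraMap A F c, B.algebraMap_mem c⟩) (O.pow_mem hOπ k)))
  obtain ⟨s, b, hs, hv⟩ := key
  refine ⟨s, ⟨b, b.2, hs⟩, ?_⟩
  exact hVπ _ (V.mem_nonunits_iff.mpr hv)

end Fermat.Agent.S18.H13
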