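/-
S18 / KC1 (helper67), part 3: the BASE STEP in the literal shape of `H63.StmtBase`.

`stmtBase : H63.StmtBase`.  Proof: the root module `I = {y | y ^ m ∈ f B}` is a `B`-module; the set
`J` of `c ∈ B` congruent mod `π V` to an element of `I` is an ideal containing `π`; for every maximal
ideal `n ∋ π` the local factorisation `f = (unit at n) * z ^ m` (part 2) and (REG) produce an element
of `J` outside `n`; hence `1 ∈ J`.
-/
import Mathlib
import Fermat.Agent.S18.KC1Val_helper67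
import Fermat.Agent.S18.KCStmts_helper63

set_option autoImplicit false

namespace Fermat.Agent.S18.H67

set_option maxHeartbeats 1600000 in
/-- **KC1, the base step** (statement of helper63). -/
theorem stmtBase : H63.StmtBase := by
  intro A F _ _ _ _ π m V B f hπ hinj harch hm hπV hVπ hBV hnoeth hic hfrac hsat hreg hf hdiv
  classical
  have := hnoeth
  set ϖ : F := algebraMap A F π with hϖ
  let ι : ↥B →+* F := B.val.toRingHom
  have hιv : ∀ b : ↥B, ι b = (b : F) := fun _ => rfl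
  have hι : Function.Injective ι := Subtype.val_injective
  let πB : ↥B := algebraMap A B π
  have hϖ0 : ϖ ≠ 0 := fun h => hπ (hinj (by rw [← hϖ, h, map_zero]))
  -- valuation facts
  have hone : (1 : F) ∉ V.nonunits := by
    intro h
    rw [V.mem_nonunits_iff, map_one] at h
    exact lt_irrefl _ h
  have hnuV : ∀ x ∈ V.nonunits, x ∈ V := fun x hx => V.nonunits_subset hx
  have hnu_mul : ∀ x ∈ V.nonunits, ∀ y ∈ V, x * y ∈ V.nonunits := by
    intro x hx y hy
    rw [V.mem_nonunits_iff] at hx ⊢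
    rw [map_mul]
    exact lt_of_le_of_lt (mul_le_of_le_one_right' ((V.valuation_le_one_iff y).mpr hy)) hx
  have hunitV : ∀ x ∈ V, x ∉ V.nonunits → x⁻¹ ∈ V := by
    intro x hx hxn
    rw [V.mem_nonunits_iff, not_lt] at hxn
    have h1 : V.valuation x = 1 := le_antisymm ((V.valuation_le_one_iff x).mpr hx) hxn
    rw [← V.valuation_le_one_iff, map_inv₀, h1, inv_one]
  have hprod : ∀ x ∈ V, ∀ y ∈ V, x * y ∈ V.nonunits → x ∈ V.nonunits ∨ y ∈ V.nonunits := by
    intro x hx y hy hxy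
    by_contra hcon
    push Not at hcon
    have h1 := hunitV x hx hcon.1
    have h2 := hunitV y hy hcon.2
    have hx0 : x ≠ 0 := fun h => hcon.1 (h ▸ V.nonunits.zero_mem)
    have hy0 : y ≠ 0 := fun h => hcon.2 (h ▸ V.nonunits.zero_mem)
    apply hone
    have h3 := hnu_mul _ hxy _ (V.mul_mem _ _ h1 h2)
    have e : x * y * (x⁻¹ * y⁻¹) = 1 := by field_simp
    rwa [e] at h3
  -- divisibility by `π` in `B` versus nonunits of `V`
  have hdvd_of : ∀ b : ↥B, (b : F) ∈ V.nonunits → πB ∣ b := by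
    intro b hb
    obtain ⟨y, hy, e⟩ := hVπ _ hb
    obtain ⟨b', hb', e'⟩ := hsat _ b.2 ⟨y, hy, e⟩
    exact ⟨⟨b', hb'⟩, Subtype.ext e'⟩
  have hnu_of : ∀ b : ↥B, πB ∣ b → (b : F) ∈ V.nonunits := by
    rintro b ⟨c, rfl⟩
    exact hnu_mul _ hπV _ (hBV _ c.2)
  have hπB : Prime πB := by
    refine ⟨fun h => hϖ0 (congrArg Subtype.val h), ?_, ?_⟩
    · intro hu
      obtain ⟨c, hc⟩ := hu.exists_right_inv
      apply hone
      have h1 := hnu_mul _ hπV _ (hBV _ c.2)
      have e : ϖ * (c : F) = 1 := congrArg Subtype.val hc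
      rwa [e] at h1
    · intro a b hab
      have h1 := hnu_of _ hab
      rcases hprod _ (hBV _ a.2) _ (hBV _ b.2) h1 with h | h
      · exact Or.inl (hdvd_of a h)
      · exact Or.inr (hdvd_of b h)
  -- `f` is a unit of `V`
  obtain ⟨y₁, hy₁, hfy⟩ := hf
  have hf1 : f - 1 ∈ V.nonunits := by
    rw [hfy]; exact hnu_mul _ hπV _ hy₁
  have hfV : f ∈ V := by
    have e : f = (f - 1) + 1 := by ring
    rw [e]; exact V.add_mem _ _ (hnuV _ hf1) V.one_mem
  have hfnu : f ∉ V.nonunits := by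
    intro h
    apply hone
    have e : (1 : F) = f - (f - 1) := by ring
    rw [e]; exact V.nonunits.sub_mem h hf1
  have hf0 : f ≠ 0 := fun h => hfnu (h ▸ V.nonunits.zero_mem)
  have hroot : ∀ x : F, x ^ m ∈ B → x ∈ B := H63.root_closed_of_integrally_closed B hic hm
  have hfrac' : ∀ x : F, ∃ a b : ↥B, b ≠ 0 ∧ x * ι b = ι a := by
    intro x
    obtain ⟨a, ha, b, hb, hb0, e⟩ := hfrac x
    exact ⟨⟨a, ha⟩, ⟨b, hb⟩, fun h => hb0 (congrArg Subtype.val h), e⟩
  -- normalised fractions for units of `V`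
  have hstrip : ∀ x : F, x ∈ V → x ∉ V.nonunits →
      ∃ a b : ↥B, ¬ πB ∣ a ∧ ¬ πB ∣ b ∧ x * ι b = ι a := by
    intro x hxV hxn
    obtain ⟨a, b, hb0, e⟩ := hfrac' x
    obtain ⟨k, b₀, hb₀, rfl⟩ := WfDvdMonoid.max_power_factor' hb0 hπB.not_isUnit
    have e' : (a : F) = ϖ ^ k * (x * (b₀ : F)) := by
      have hπBv : (πB : F) = ϖ := rfl
      rw [← hιv a, ← e, hιv]
      push_cast
      rw [hπBv]
      ring
    obtain ⟨a₀, ha₀, ea₀⟩ := H63.sat_pow (π := π) (V := V) (B := B) hϖ0 (hnuV _ hπV) hsat k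
      (a : F) a.2 ⟨x * (b₀ : F), V.mul_mem _ _ hxV (hBV _ b₀.2), e'⟩
    have hxb : x * (b₀ : F) = a₀ := by
      apply mul_left_cancel₀ (pow_ne_zero k hϖ0)
      rw [← e', ea₀]
    refine ⟨⟨a₀, ha₀⟩, b₀, ?_, hb₀, hxb⟩
    intro hd
    have h1 : x * (b₀ : F) ∈ V.nonunits := by
      rw [hxb]; exact hnu_of _ hd
    rcases hprod _ hxV _ (hBV _ b₀.2) h1 with h | h
    · exact hxn h
    · exact hb₀ (hdvd_of b₀ h)
  -- the ideal `J`
  let J : Ideal ↥B :=
    { carrier := {c | ∃ y : F, (∃ b ∈ B, y ^ m = f * b) ∧ y - (c : F) ∈ V.nonunits}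
      add_mem' := by
        rintro c₁ c₂ ⟨z₁, hz₁, h₁⟩ ⟨z₂, hz₂, h₂⟩
        refine ⟨z₁ + z₂, H63.root_add B f hf0 m hroot hz₁ hz₂, ?_⟩
        have e : z₁ + z₂ - ((c₁ + c₂ : ↥B) : F) = (z₁ - c₁) + (z₂ - c₂) := by
          push_cast; ring
        rw [e]; exact V.nonunits.add_mem h₁ h₂
      zero_mem' := ⟨0, ⟨0, B.zero_mem, by rw [zero_pow hm.ne', mul_zero]⟩, by
        simp⟩
      smul_mem' := by
        rintro c' c ⟨z, ⟨b, hb, hz⟩, h⟩
        refine ⟨(c' : F) * z, ⟨(c' : F) ^ m * b, B.mul_mem (B.pow_mem c'.2 m) hb, by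
          rw [mul_pow, hz]; ring⟩, ?_⟩
        have e : (c' : F) * z - ((c' • c : ↥B) : F) = (z - c) * c' := by
          rw [smul_eq_mul]; push_cast; ring
        rw [e]; exact hnu_mul _ h _ (hBV _ c'.2) }
  have hJtop : J = ⊤ := by
    by_contra hJ
    obtain ⟨n, hnmax, hJn⟩ := Ideal.exists_le_maximal J hJ
    have := hnmax.isPrime
    have hπJ : πB ∈ J := ⟨0, ⟨0, B.zero_mem, by rw [zero_pow hm.ne', mul_zero]⟩, by
      rw [zero_sub]; exact V.nonunits.neg_mem hπV⟩
    have hπn : πB ∈ n := hJn hπJ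
    obtain ⟨τ, hτn, hτ⟩ := hreg n hnmax hπn
    have hreg' : ∀ a : ↥B, ¬ πB ∣ a → ∃ e, EExp n πB τ a e := by
      intro a ha
      obtain ⟨e, d, u, hd, hu, hmem⟩ := hτ a (fun h => ha (Ideal.mem_span_singleton.mp h))
      exact ⟨e, d, u, hd, hu, Ideal.mem_span_singleton.mp hmem⟩
    -- (DIV) at the local generators
    have hdiv' : ∀ (g : ↥B) (q : Ideal ↥B) [q.IsPrime], LocGen n πB τ g q →
        (m : ℤ) ∣ fOrd ι hfrac' n g f := by
      intro g q _ h
      apply dvd_fOrd_of_div hfrac' hι h hf0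
      apply hdiv (gValSubring hfrac' hι h)
      · intro a
        exact map_mem_gValSubring hfrac' hι h (algebraMap A B a)
      · intro a ha
        obtain ⟨k, hk⟩ := harch a ha
        have ha' : algebraMap A B a ≠ 0 := by
          intro h0
          apply ha
          apply hinj
          rw [map_zero]
          exact congrArg Subtype.val h0
        have hdvd : algebraMap A B a ∣ πB ^ k := by
          have h1 := map_dvd (algebraMap A B) hk
          rwa [map_pow] at h1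
        exact inv_map_mem_gValSubring hfrac' hι h ha' hdvd
    obtain ⟨a, b, hpa, hpb, hab⟩ := hstrip f hfV hfnu
    obtain ⟨t, t', z', ht, ht', hz', hrel⟩ :=
      exists_unit_mul_pow hι hfrac' hπB hπn hτn hreg' hf0 hdiv' hpa hpb hab
    -- the root section `y`
    set y : F := ι t * z' with hy
    set b' : ↥B := t ^ (m - 1) * t' with hb'
    have hb'n : b' ∉ n := notMem_mul_of_prime (notMem_pow_of_prime ht _) ht'
    have hym : y ^ m = f * ι b' := by
      have e1 : (ι t) ^ m = (ι t) ^ (m - 1) * ι t := by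
        rw [← pow_succ, Nat.sub_add_cancel hm]
      rw [hy, mul_pow, e1, hb', map_mul, map_pow]
      linear_combination (-(ι t ^ (m - 1))) * hrel
    have hb'nu : (b' : F) ∉ V.nonunits := by
      intro h
      apply hb'n
      obtain ⟨c, hc⟩ := hdvd_of b' h
      rw [hc]; exact n.mul_mem_right c hπn
    have hyV : y ∈ V := by
      have h1 : y ^ m ∈ V := by
        rw [hym]; exact V.mul_mem _ _ hfV (hBV _ b'.2)
      rw [← V.valuation_le_one_iff] at h1 ⊢
      rw [map_pow] at h1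
      exact (pow_le_one_iff hm.ne').mp h1
    have hynu : y ∉ V.nonunits := by
      intro h
      have h1 : y ^ m ∈ V.nonunits := by
        have e : y ^ m = y * y ^ (m - 1) := by
          rw [← pow_succ', Nat.sub_add_cancel hm]
        rw [e]; exact hnu_mul _ h _ (V.pow_mem hyV _)
      rw [hym] at h1
      rcases hprod _ hfV _ (hBV _ b'.2) h1 with h2 | h2
      · exact hfnu h2
      · exact hb'nu h2
    obtain ⟨a₀, b₀, hpa₀, hpb₀, hyab⟩ := hstrip y hyV hynu
    obtain ⟨e₁, he₁⟩ := hreg' a₀ hpa₀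
    obtain ⟨e₂, he₂⟩ := hreg' b₀ hpb₀
    have hcong : πB ∣ b' * b₀ ^ m - a₀ ^ m := by
      apply hdvd_of
      have e : ((b' * b₀ ^ m - a₀ ^ m : ↥B) : F) = -((f - 1) * ((b' : F) * (b₀ : F) ^ m)) := by
        have h1 : (a₀ : F) ^ m = y ^ m * (b₀ : F) ^ m := by
          rw [← mul_pow]
          congr 1
          exact hyab.symm
        push_cast
        rw [h1, hym, hιv]
        ring
      rw [e]
      exact V.nonunits.neg_mem
        (hnu_mul _ hf1 _ (V.mul_mem _ _ (hBV _ b'.2) (V.pow_mem (hBV _ b₀.2) m)))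
    have hpam : ¬ πB ∣ a₀ ^ m := fun hd => hpa₀ (hπB.dvd_of_dvd_pow hd)
    have E1 : EExp n πB τ (a₀ ^ m) (m * e₁) := he₁.pow m
    have E2 : EExp n πB τ (a₀ ^ m) (0 + m * e₂) :=
      ((EExp.zero_of_notMem hb'n).mul (he₂.pow m)).congr hcong
    have hee : e₁ = e₂ := by
      have h1 := EExp.unique hπB hπn hτn hpam E1 E2
      rw [zero_add] at h1
      exact Nat.eq_of_mul_eq_mul_left hm h1
    subst hee
    obtain ⟨d₁, u₁, hd₁, hu₁, x₁, hx₁⟩ := he₁
    obtain ⟨d₂, u₂, hd₂, hu₂, x₂, hx₂⟩ := he₂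
    have hc : d₂ * u₁ ∈ J := by
      refine ⟨ι (d₁ * u₂) * y, ⟨((d₁ * u₂ : ↥B) : F) ^ m * (b' : F),
        B.mul_mem (B.pow_mem (d₁ * u₂).2 m) b'.2, by
          rw [mul_pow, hym, hιv, hιv]; ring⟩, ?_⟩
      have hb₀nu : (b₀ : F) ∉ V.nonunits := fun h => hpb₀ (hdvd_of b₀ h)
      have hb₀inv := hunitV _ (hBV _ b₀.2) hb₀nu
      have hb₀0 : (b₀ : F) ≠ 0 := fun h => hb₀nu (h ▸ V.nonunits.zero_mem)
      have key : a₀ * d₁ * u₂ - b₀ * d₂ * u₁ = πB * (x₁ * u₂ - x₂ * u₁) := by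
        linear_combination u₂ * hx₁ - u₁ * hx₂
      have e : ι (d₁ * u₂) * y - ((d₂ * u₁ : ↥B) : F)
          = ((πB * (x₁ * u₂ - x₂ * u₁) : ↥B) : F) * (b₀ : F)⁻¹ := by
        rw [← key, eq_mul_inv_iff_mul_eq₀ hb₀0]
        rw [hιv] at hyab ⊢
        rw [hιv] at hyab
        push_cast
        linear_combination ((d₁ : F) * u₂) * hyab
      rw [e]
      exact hnu_mul _ (hnu_of _ (dvd_mul_right πB _)) _ hb₀inv
    exact notMem_mul_of_prime hd₂ hu₁ (hJn hc)
  -- conclusion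
  have h1 : (1 : ↥B) ∈ J := by
    rw [hJtop]; trivial
  obtain ⟨s, hs, hs1⟩ := h1
  refine ⟨s, hs, ?_⟩
  have h2 : s - 1 ∈ V.nonunits := by simpa using hs1
  exact hVπ _ h2

end Fermat.Agent.S18.H67
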