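import Mathlib

/-!
# S18, node KC1-UFD (part 1): local factoriality at a regular closed point

Interface-free commutative algebra (Mathlib only).

* `ufm_of_maximalIdeal_eq_span_pair`: a noetherian local domain whose maximal ideal is generated
  by a prime element `π` and one more element is a UFD (Kaplansky criterion + Nakayama).
* `exists_associated_pow`: in a UFD, a nonzero element all of whose prime multiplicities are
  divisible by `m` is associated to an `m`-th power.
* `pOrd p x`: the order at `p` of an element of the fraction field (`pOrd_eq`, `pOrd_mul`,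
  `pOrd_add`, `pOrd_algebraMap`), and `exists_unit_mul_pow`: an element of the fraction field of
  a UFD whose order at every prime is divisible by `m` is a unit times an `m`-th power.
* `RegAt π`, `DivAt π m f` and `local_unit_mul_pow`: for a noetherian domain `B` with a prime
  element `π` which is regular along `π = 0`, an `f` in the fraction field which is a unit
  along `π` and whose divisor on the generic fibre is divisible by `m` is, at every maximal
  ideal `n ∋ π`, an `n`-unit times an `m`-th power.
-/

set_option autoImplicit false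

open IsLocalRing

namespace Fermat.Agent.S18.H08

section LocalUFD

variable {R : Type*} [CommRing R] [IsDomain R] [IsNoetherianRing R] [IsLocalRing R]

/-- If the maximal ideal of a noetherian local domain is `(π, τ)` with `π` prime, then `R/π` is a
principal ideal ring. -/
theorem isPrincipalIdealRing_quotient {π τ : R} (hπ : Prime π)
    (hmax : maximalIdeal R = Ideal.span {π, τ}) :
    IsPrincipalIdealRing (R ⧸ Ideal.span {π}) := by
  have hprime : (Ideal.span {π}).IsPrime := (Ideal.span_singleton_prime hπ.ne_zero).mpr hπ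
  have hI : Ideal.span {π} ≠ ⊤ := hprime.ne_top
  have : IsDomain (R ⧸ Ideal.span {π}) := Ideal.Quotient.isDomain _
  have : IsLocalRing (R ⧸ Ideal.span {π}) :=
    IsLocalRing.of_surjective' (Ideal.Quotient.mk _) Ideal.Quotient.mk_surjective
  have := IsLocalHom.of_surjective (Ideal.Quotient.mk (Ideal.span {π}))
    Ideal.Quotient.mk_surjective
  have hmap : (maximalIdeal R).map (Ideal.Quotient.mk (Ideal.span {π})) =
      maximalIdeal (R ⧸ Ideal.span {π}) := by
    ext x
    obtain ⟨x, rfl⟩ := Ideal.Quotient.mk_surjective x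
    simp [sup_eq_left.mpr (le_maximalIdeal hI)]
  have hm : maximalIdeal (R ⧸ Ideal.span {π}) =
      Ideal.span {Ideal.Quotient.mk (Ideal.span {π}) τ} := by
    rw [← hmap, hmax, Ideal.map_span, Set.image_pair]
    have h0 : Ideal.Quotient.mk (Ideal.span {π}) π = 0 :=
      Ideal.Quotient.eq_zero_iff_mem.mpr (Ideal.mem_span_singleton_self π)
    rw [h0]
    apply le_antisymm
    · rw [Ideal.span_le]
      rintro x (rfl | rfl)
      · exact Ideal.zero_mem _
      · exact Ideal.mem_span_singleton_self _
    · exact Ideal.span_mono (by simp)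
  have hprin : (maximalIdeal (R ⧸ Ideal.span {π})).IsPrincipal := ⟨⟨_, hm⟩⟩
  exact ((tfae_of_isNoetherianRing_of_isLocalRing_of_isDomain (R := R ⧸ Ideal.span {π})).out 4 0).mp
    hprin

/-- In a noetherian local domain with maximal ideal `(π, τ)`, `π` prime, every prime ideal not
containing `π` is principal. -/
theorem isPrincipal_of_notMem {π τ : R} (hπ : Prime π)
    (hmax : maximalIdeal R = Ideal.span {π, τ}) (q : Ideal R) [hq : q.IsPrime] (hπq : π ∉ q) :
    q.IsPrincipal := by
  have := isPrincipalIdealRing_quotient hπ hmax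
  set mk := Ideal.Quotient.mk (Ideal.span {π}) with hmk
  obtain ⟨gbar, hg⟩ := (inferInstance : (q.map mk).IsPrincipal)
  have hgmem : gbar ∈ q.map mk := by rw [hg]; exact Submodule.mem_span_singleton_self gbar
  obtain ⟨f, hfq, hf⟩ := (Ideal.mem_map_iff_of_surjective mk Ideal.Quotient.mk_surjective).mp hgmem
  refine ⟨f, le_antisymm ?_ ?_⟩
  · -- Nakayama
    have hπmem : π ∈ maximalIdeal R := by rw [hmax]; exact Ideal.subset_span (by simp)
    have hjac : Ideal.span {π} ≤ Ideal.jacobson (⊥ : Ideal R) := by
      rw [IsLocalRing.jacobson_eq_maximalIdeal ⊥ bot_ne_top, Ideal.span_le]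
      rintro x rfl; exact hπmem
    have key : q ≤ Ideal.span {f} ⊔ Ideal.span {π} • q := by
      intro g hgq
      have h1 : mk g ∈ q.map mk := Ideal.mem_map_of_mem mk hgq
      rw [hg, ← hf] at h1
      obtain ⟨hbar, hh⟩ := Ideal.mem_span_singleton'.mp h1
      obtain ⟨h, rfl⟩ := Ideal.Quotient.mk_surjective hbar
      have h2 : g - h * f ∈ Ideal.span {π} := by
        rw [← Ideal.Quotient.eq_zero_iff_mem, map_sub, map_mul, ← hmk, hh, sub_self]
      obtain ⟨g1, hg1⟩ := Ideal.mem_span_singleton'.mp h2
      have h3 : g1 * π ∈ q := by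
        rw [hg1]; exact q.sub_mem hgq (q.mul_mem_left h hfq)
      have h4 : g1 ∈ q := (hq.mem_or_mem h3).resolve_right hπq
      have h5 : g = h * f + π * g1 := by rw [mul_comm π g1, hg1]; ring
      rw [h5]
      refine Submodule.add_mem_sup (Ideal.mem_span_singleton'.mpr ⟨h, rfl⟩) ?_
      exact Submodule.smul_mem_smul (Ideal.mem_span_singleton_self π) h4
    exact Submodule.le_of_le_smul_of_le_jacobson_bot (IsNoetherian.noetherian q) hjac key
  · rw [Ideal.submodule_span_eq, Ideal.span_le]
    rintro x rfl; exact hfq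

/-- A noetherian local domain whose maximal ideal is generated by a prime element and one more
element is a unique factorisation domain. -/
theorem ufm_of_maximalIdeal_eq_span_pair {π τ : R} (hπ : Prime π)
    (hmax : maximalIdeal R = Ideal.span {π, τ}) : UniqueFactorizationMonoid R := by
  rw [UniqueFactorizationMonoid.iff_exists_prime_mem_of_isPrime]
  intro I hI hIp
  by_cases hπI : π ∈ I
  · exact ⟨π, hπI, hπ⟩
  · have := hIp
    obtain ⟨g, hg⟩ := isPrincipal_of_notMem hπ hmax I hπI
    have hg0 : g ≠ 0 := by
      rintro rfl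
      apply hI
      rw [hg]; simp
    refine ⟨g, by rw [hg]; exact Submodule.mem_span_singleton_self g, ?_⟩
    rw [← Ideal.span_singleton_prime hg0]
    rw [Ideal.submodule_span_eq] at hg
    rwa [← hg]

end LocalUFD

section UFD

variable {R : Type*} [CommRing R] [IsDomain R] [UniqueFactorizationMonoid R]

/-- In a UFD, a nonzero element all of whose prime multiplicities are divisible by `m` is
associated to an `m`-th power (of a nonzero element). -/
theorem exists_associated_pow (m : ℕ) (a : R) (ha : a ≠ 0)
    (h : ∀ p : R, Prime p → m ∣ multiplicity p a) : ∃ y : R, y ≠ 0 ∧ Associated a (y ^ m) := by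
  revert ha h
  induction a using UniqueFactorizationMonoid.induction_on_coprime with
  | h0 => intro ha; exact absurd rfl ha
  | h1 hx =>
    intro _ _
    exact ⟨1, one_ne_zero, by rw [one_pow]; exact associated_one_iff_isUnit.mpr hx⟩
  | hpr i hp =>
    intro _ h
    obtain ⟨k, hk⟩ := h _ hp
    rw [multiplicity_pow_self_of_prime hp] at hk
    exact ⟨_ ^ k, pow_ne_zero _ hp.ne_zero, by rw [← pow_mul, mul_comm, ← hk]⟩
  | hcp hxy ihx ihy =>
    rename_i x y
    intro hne h
    have hx0 : x ≠ 0 := left_ne_zero_of_mul hne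
    have hy0 : y ≠ 0 := right_ne_zero_of_mul hne
    have key : ∀ p : R, Prime p → m ∣ multiplicity p x ∧ m ∣ multiplicity p y := by
      intro p hp
      have h1 := h p hp
      rw [multiplicity_mul hp (FiniteMultiplicity.of_prime_left hp hne)] at h1
      by_cases hpx : p ∣ x
      · have hpy : ¬ p ∣ y := fun hpy => hp.not_isUnit (hxy hpx hpy)
        have h0 : multiplicity p y = 0 := multiplicity_eq_zero.mpr hpy
        rw [h0, add_zero] at h1
        exact ⟨h1, by rw [h0]; exact dvd_zero m⟩
      · have h0 : multiplicity p x = 0 := multiplicity_eq_zero.mpr hpx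
        rw [h0, zero_add] at h1
        exact ⟨by rw [h0]; exact dvd_zero m, h1⟩
    obtain ⟨y1, hy1, h1⟩ := ihx hx0 fun p hp => (key p hp).1
    obtain ⟨y2, hy2, h2⟩ := ihy hy0 fun p hp => (key p hp).2
    exact ⟨y1 * y2, mul_ne_zero hy1 hy2, by rw [mul_pow]; exact h1.mul_mul h2⟩

end UFD

section POrd

variable {R K : Type*} [CommRing R] [Field K] [Algebra R K] [IsFractionRing R K]

/-- The order of an element of the fraction field at an element `p` of the base (difference of
the multiplicities of numerator and denominator of some fraction; meaningful for `p` prime). -/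
noncomputable def pOrd (p : R) (x : K) : ℤ :=
  (multiplicity p (IsLocalization.sec (nonZeroDivisors R) x).1 : ℤ) -
    (multiplicity p ((IsLocalization.sec (nonZeroDivisors R) x).2 : R) : ℤ)

variable [IsDomain R] [UniqueFactorizationMonoid R]

theorem pOrd_eq {p : R} (hp : Prime p) {x : K} {a b : R} (ha : a ≠ 0) (hb : b ≠ 0)
    (h : x * algebraMap R K b = algebraMap R K a) :
    pOrd p x = (multiplicity p a : ℤ) - (multiplicity p b : ℤ) := by
  have hinj := IsFractionRing.injective R K
  set s := IsLocalization.sec (nonZeroDivisors R) x with hs_def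
  have hs : x * algebraMap R K s.2 = algebraMap R K s.1 := IsLocalization.sec_spec _ x
  have hs2 : (s.2 : R) ≠ 0 := nonZeroDivisors.coe_ne_zero s.2
  have hx : x ≠ 0 := by
    rintro rfl
    rw [zero_mul] at h
    exact ha (hinj (by rw [← h, map_zero]))
  have hs1 : s.1 ≠ 0 := by
    intro h0
    rw [h0, map_zero] at hs
    rcases mul_eq_zero.mp hs with h1 | h1
    · exact hx h1
    · exact hs2 (hinj (by rw [h1, map_zero]))
  have e : a * s.2 = s.1 * b := by
    apply hinj
    rw [map_mul, map_mul, ← h, ← hs]
    ring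
  have e1 := multiplicity_mul hp (FiniteMultiplicity.of_prime_left hp (mul_ne_zero ha hs2))
  have e2 := multiplicity_mul hp (FiniteMultiplicity.of_prime_left hp (mul_ne_zero hs1 hb))
  rw [e] at e1
  unfold pOrd
  rw [← hs_def]
  omega

theorem exists_frac (x : K) (hx : x ≠ 0) :
    ∃ a b : R, a ≠ 0 ∧ b ≠ 0 ∧ x * algebraMap R K b = algebraMap R K a := by
  have hinj := IsFractionRing.injective R K
  set s := IsLocalization.sec (nonZeroDivisors R) x
  have hs : x * algebraMap R K s.2 = algebraMap R K s.1 := IsLocalization.sec_spec _ x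
  have hs2 : (s.2 : R) ≠ 0 := nonZeroDivisors.coe_ne_zero s.2
  refine ⟨s.1, s.2, ?_, hs2, hs⟩
  intro h0
  rw [h0, map_zero] at hs
  rcases mul_eq_zero.mp hs with h1 | h1
  · exact hx h1
  · exact hs2 (hinj (by rw [h1, map_zero]))

theorem pOrd_mul {p : R} (hp : Prime p) {x y : K} (hx : x ≠ 0) (hy : y ≠ 0) :
    pOrd p (x * y) = pOrd p x + pOrd p y := by
  obtain ⟨a, b, ha, hb, hab⟩ := exists_frac (R := R) x hx
  obtain ⟨c, d, hc, hd, hcd⟩ := exists_frac (R := R) y hy
  have h : x * y * algebraMap R K (b * d) = algebraMap R K (a * c) := by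
    rw [map_mul, map_mul, ← hab, ← hcd]; ring
  rw [pOrd_eq hp (mul_ne_zero ha hc) (mul_ne_zero hb hd) h, pOrd_eq hp ha hb hab,
    pOrd_eq hp hc hd hcd,
    multiplicity_mul hp (FiniteMultiplicity.of_prime_left hp (mul_ne_zero ha hc)),
    multiplicity_mul hp (FiniteMultiplicity.of_prime_left hp (mul_ne_zero hb hd))]
  push_cast
  ring

theorem pOrd_add {p : R} (hp : Prime p) {x y : K} (hx : x ≠ 0) (hy : y ≠ 0) (hxy : x + y ≠ 0) :
    min (pOrd p x) (pOrd p y) ≤ pOrd p (x + y) := by
  have hinj := IsFractionRing.injective R K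
  obtain ⟨a, b, ha, hb, hab⟩ := exists_frac (R := R) x hx
  obtain ⟨c, d, hc, hd, hcd⟩ := exists_frac (R := R) y hy
  have h : (x + y) * algebraMap R K (b * d) = algebraMap R K (a * d + c * b) := by
    rw [map_add, map_mul, map_mul, map_mul, ← hab, ← hcd]; ring
  have hne : a * d + c * b ≠ 0 := by
    intro h0
    rw [h0, map_zero] at h
    rcases mul_eq_zero.mp h with h1 | h1
    · exact hxy h1
    · exact mul_ne_zero hb hd (hinj (by rw [h1, map_zero]))
  have hfin := FiniteMultiplicity.of_prime_left hp hne
  have h1 : min (multiplicity p (a * d)) (multiplicity p (c * b)) ≤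
      multiplicity p (a * d + c * b) := by
    apply hfin.le_multiplicity_of_pow_dvd
    exact dvd_add
      ((pow_dvd_pow p (min_le_left _ _)).trans (pow_multiplicity_dvd p (a * d)))
      ((pow_dvd_pow p (min_le_right _ _)).trans (pow_multiplicity_dvd p (c * b)))
  rw [multiplicity_mul hp (FiniteMultiplicity.of_prime_left hp (mul_ne_zero ha hd)),
    multiplicity_mul hp (FiniteMultiplicity.of_prime_left hp (mul_ne_zero hc hb))] at h1
  rw [pOrd_eq hp hne (mul_ne_zero hb hd) h, pOrd_eq hp ha hb hab, pOrd_eq hp hc hd hcd,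
    multiplicity_mul hp (FiniteMultiplicity.of_prime_left hp (mul_ne_zero hb hd))]
  push_cast
  omega

theorem pOrd_algebraMap {p : R} (hp : Prime p) {a : R} (ha : a ≠ 0) :
    pOrd p (algebraMap R K a) = (multiplicity p a : ℤ) := by
  have h1 : multiplicity p (1 : R) = 0 :=
    multiplicity_eq_zero.mpr fun h => hp.not_isUnit (isUnit_of_dvd_one h)
  rw [pOrd_eq hp ha one_ne_zero (by rw [map_one, mul_one]), h1]
  simp

theorem pOrd_algebraMap_nonneg {p : R} (hp : Prime p) {a : R} (ha : a ≠ 0) :
    0 ≤ pOrd p (algebraMap R K a) := by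
  rw [pOrd_algebraMap hp ha]
  exact Int.natCast_nonneg _

/-- In the fraction field of a UFD, an element whose order at every prime is divisible by `m` is a
unit times an `m`-th power. -/
theorem exists_unit_mul_pow (m : ℕ) (f : K) (hf : f ≠ 0)
    (h : ∀ p : R, Prime p → (m : ℤ) ∣ pOrd p f) :
    ∃ (w : Rˣ) (g : K), g ≠ 0 ∧ f = algebraMap R K w * g ^ m := by
  have hinj := IsFractionRing.injective R K
  obtain ⟨a, b, hab, hx⟩ := IsFractionRing.exists_reduced_fraction (A := R) f
  have hb0 : (b : R) ≠ 0 := nonZeroDivisors.coe_ne_zero b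
  have hfb : f * algebraMap R K b = algebraMap R K a := by
    rw [← hx]; exact IsLocalization.mk'_spec K a b
  have ha0 : a ≠ 0 := by
    rintro rfl
    rw [map_zero] at hfb
    rcases mul_eq_zero.mp hfb with h1 | h1
    · exact hf h1
    · exact hb0 (hinj (by rw [h1, map_zero]))
  have key : ∀ p : R, Prime p → m ∣ multiplicity p a ∧ m ∣ multiplicity p (b : R) := by
    intro p hp
    have h1 := h p hp
    rw [pOrd_eq hp ha0 hb0 hfb] at h1
    by_cases hpa : p ∣ a
    · have hpb : ¬ p ∣ (b : R) := fun hpb => hp.not_isUnit (hab hpa hpb)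
      have h0 : multiplicity p (b : R) = 0 := multiplicity_eq_zero.mpr hpb
      rw [h0] at h1
      simp only [Nat.cast_zero, sub_zero] at h1
      exact ⟨Int.natCast_dvd_natCast.mp h1, by rw [h0]; exact dvd_zero m⟩
    · have h0 : multiplicity p a = 0 := multiplicity_eq_zero.mpr hpa
      rw [h0] at h1
      simp only [Nat.cast_zero, zero_sub, dvd_neg] at h1
      exact ⟨by rw [h0]; exact dvd_zero m, Int.natCast_dvd_natCast.mp h1⟩
  obtain ⟨y, hy0, u, hu⟩ := exists_associated_pow m a ha0 fun p hp => (key p hp).1
  obtain ⟨z, hz0, v, hv⟩ := exists_associated_pow m (b : R) hb0 fun p hp => (key p hp).2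
  have hy' : algebraMap R K y ≠ 0 := fun h0 => hy0 (hinj (by rw [h0, map_zero]))
  have hz' : algebraMap R K z ≠ 0 := fun h0 => hz0 (hinj (by rw [h0, map_zero]))
  have hb' : algebraMap R K (b : R) ≠ 0 := fun h0 => hb0 (hinj (by rw [h0, map_zero]))
  refine ⟨u⁻¹ * v, algebraMap R K y / algebraMap R K z, div_ne_zero hy' hz', ?_⟩
  have hu' : algebraMap R K a * algebraMap R K (u : R) = algebraMap R K y ^ m := by
    rw [← map_mul, hu, map_pow]
  have hv' : algebraMap R K (b : R) * algebraMap R K (v : R) = algebraMap R K z ^ m := by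
    rw [← map_mul, hv, map_pow]
  have huu : algebraMap R K ((u⁻¹ : Rˣ) : R) * algebraMap R K (u : R) = 1 := by
    rw [← map_mul, Units.inv_mul, map_one]
  rw [div_pow, ← hu', ← hv', Units.val_mul, map_mul, ← hfb]
  have hv0 : algebraMap R K (v : R) ≠ 0 := fun h0 => v.ne_zero (hinj (by rw [h0, map_zero]))
  have e : algebraMap R K ((u⁻¹ : Rˣ) : R) * algebraMap R K (v : R) *
      (f * algebraMap R K (b : R) * algebraMap R K (u : R) /
        (algebraMap R K (b : R) * algebraMap R K (v : R))) =
      f * (algebraMap R K ((u⁻¹ : Rˣ) : R) * algebraMap R K (u : R)) *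
        (algebraMap R K (b : R) * algebraMap R K (v : R) /
          (algebraMap R K (b : R) * algebraMap R K (v : R))) := by ring
  rw [e, huu, div_self (mul_ne_zero hb' hv0), mul_one, mul_one]

end POrd

section Chart

variable {B F : Type*} [CommRing B] [Field F] [Algebra B F]

/-- Regularity of the chart along `π = 0`: at every maximal ideal `n ∋ π` the maximal ideal of
the localisation is generated by `π` and one more element. -/
def RegAt (π : B) : Prop :=
  ∀ n : Ideal B, n.IsMaximal → π ∈ n →
    ∃ τ ∈ n, ∀ x ∈ n, ∃ s : B, s ∉ n ∧ s * x ∈ Ideal.span {π, τ}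

/-- "The divisor of `f` on the generic fibre (`π` inverted) is divisible by `m`", in unbundled
additive-valuation form: every `ℤ`-valued valuation of `F` which is nonnegative on `B` and vanishes
at `π` has value divisible by `m` at `f`. -/
def DivAt (π : B) (m : ℕ) (f : F) : Prop :=
  ∀ v : F → ℤ, (∀ x y : F, x ≠ 0 → y ≠ 0 → v (x * y) = v x + v y) →
    (∀ x y : F, x ≠ 0 → y ≠ 0 → x + y ≠ 0 → min (v x) (v y) ≤ v (x + y)) →
    (∀ b : B, b ≠ 0 → 0 ≤ v (algebraMap B F b)) → v (algebraMap B F π) = 0 → (m : ℤ) ∣ v f

variable [IsDomain B] [IsNoetherianRing B] [IsFractionRing B F]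

/-- **Local form of the Kummer base step.** At a regular closed point `n` of the special fibre,
an `f` which is a unit along `π` and has divisor divisible by `m` on the generic fibre is a local
unit times an `m`-th power. -/
theorem local_unit_mul_pow {π : B} (hπ : Prime π) (hreg : RegAt π) (m : ℕ) {f : F} (hf : f ≠ 0)
    (hfπ : ∃ c d : B, ¬ π ∣ c ∧ ¬ π ∣ d ∧ f * algebraMap B F d = algebraMap B F c)
    (hdiv : DivAt π m f) (n : Ideal B) (hn : n.IsMaximal) (hπn : π ∈ n) :
    ∃ (g : F) (c e : B), g ≠ 0 ∧ c ∉ n ∧ e ∉ n ∧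
      f * algebraMap B F e = g ^ m * algebraMap B F c := by
  classical
  haveI := hn
  obtain ⟨τ, hτn, hτ⟩ := hreg n hn hπn
  have hS : n.primeCompl ≤ nonZeroDivisors B := by
    intro x hx
    exact mem_nonZeroDivisors_of_ne_zero (fun h => hx (h ▸ n.zero_mem))
  let R := Localization.subalgebra.ofField F n.primeCompl hS
  haveI hloc : IsLocalization.AtPrime R n :=
    Localization.subalgebra.isLocalization_ofField F n.primeCompl hS
  haveI : IsLocalRing R := IsLocalization.AtPrime.isLocalRing R n
  haveI : IsNoetherianRing R := IsLocalization.isNoetherianRing n.primeCompl R inferInstance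
  have hinjBR : Function.Injective (algebraMap B R) := IsLocalization.injective R hS
  have hmax : maximalIdeal R = Ideal.span {algebraMap B R π, algebraMap B R τ} := by
    rw [← IsLocalization.AtPrime.map_eq_maximalIdeal n R]
    apply le_antisymm
    · rw [Ideal.map_le_iff_le_comap]
      intro x hx
      obtain ⟨s, hs, hsx⟩ := hτ x hx
      have h1 : algebraMap B R (s * x) ∈ Ideal.span {algebraMap B R π, algebraMap B R τ} := by
        have := Ideal.mem_map_of_mem (algebraMap B R) hsx
        rwa [Ideal.map_span, Set.image_pair] at this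
      rw [map_mul] at h1
      have hu : IsUnit (algebraMap B R s) := IsLocalization.map_units R (⟨s, hs⟩ : n.primeCompl)
      exact (Ideal.unit_mul_mem_iff_mem _ hu).mp h1
    · rw [Ideal.span_le]
      rintro y (rfl | rfl)
      · exact Ideal.mem_map_of_mem _ hπn
      · exact Ideal.mem_map_of_mem _ hτn
  have hdisj : Disjoint (n.primeCompl : Set B) (Ideal.span {π} : Ideal B) := by
    rw [Set.disjoint_left]
    intro x hx hx'
    exact hx ((Ideal.span_singleton_le_iff_mem _).mpr hπn hx')
  have hπprime : (Ideal.span {π}).IsPrime := (Ideal.span_singleton_prime hπ.ne_zero).mpr hπ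
  have hπ'0 : algebraMap B R π ≠ 0 := fun h => hπ.ne_zero (hinjBR (by rw [h, map_zero]))
  have hπ' : Prime (algebraMap B R π) := by
    have := IsLocalization.isPrime_of_isPrime_disjoint n.primeCompl R (Ideal.span {π}) hπprime hdisj
    rw [Ideal.map_span, Set.image_singleton] at this
    exact (Ideal.span_singleton_prime hπ'0).mp this
  haveI : UniqueFactorizationMonoid R := ufm_of_maximalIdeal_eq_span_pair hπ' hmax
  have hndvd : ∀ c : B, ¬ π ∣ c → ¬ algebraMap B R π ∣ algebraMap B R c := by
    intro c hc hdvd
    apply hc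
    have h1 : algebraMap B R c ∈ Ideal.map (algebraMap B R) (Ideal.span {π}) := by
      rw [Ideal.map_span, Set.image_singleton]
      exact Ideal.mem_span_singleton.mpr hdvd
    have h2 : c ∈ (Ideal.map (algebraMap B R) (Ideal.span {π})).under B := h1
    rw [IsLocalization.under_map_of_isPrime_disjoint n.primeCompl R hπprime hdisj] at h2
    exact Ideal.mem_span_singleton.mp h2
  have key : ∀ p : R, Prime p → (m : ℤ) ∣ pOrd p f := by
    intro p hp
    by_cases hpπ : p ∣ algebraMap B R π
    · obtain ⟨c, d, hc, hd, hcd⟩ := hfπ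
      have hass : algebraMap B R π ∣ p := ((hp.dvd_prime_iff_associated hπ').mp hpπ).symm.dvd
      have hc' : ¬ p ∣ algebraMap B R c := fun h => hndvd c hc (hass.trans h)
      have hd' : ¬ p ∣ algebraMap B R d := fun h => hndvd d hd (hass.trans h)
      have hc0 : algebraMap B R c ≠ 0 := fun h => hc' (h ▸ dvd_zero p)
      have hd0 : algebraMap B R d ≠ 0 := fun h => hd' (h ▸ dvd_zero p)
      have h0 : pOrd p f = 0 := by
        rw [pOrd_eq hp hc0 hd0 (by
          rw [← IsScalarTower.algebraMap_apply, ← IsScalarTower.algebraMap_apply]; exact hcd),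
          multiplicity_eq_zero.mpr hc', multiplicity_eq_zero.mpr hd']
        simp
      rw [h0]
      exact dvd_zero _
    · apply hdiv (pOrd p) (fun x y hx hy => pOrd_mul hp hx hy)
        (fun x y hx hy hxy => pOrd_add hp hx hy hxy)
      · intro b hb
        rw [IsScalarTower.algebraMap_apply B R F]
        exact pOrd_algebraMap_nonneg hp (fun h => hb (hinjBR (by rw [h, map_zero])))
      · rw [IsScalarTower.algebraMap_apply B R F, pOrd_algebraMap hp hπ'0,
          multiplicity_eq_zero.mpr hpπ]
        rfl
  obtain ⟨w, g, hg, hfw⟩ := exists_unit_mul_pow (R := R) m f hf key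
  obtain ⟨a, s, has⟩ := IsLocalization.exists_mk'_eq n.primeCompl (w : R)
  have ha : a ∈ n.primeCompl :=
    (IsLocalization.AtPrime.isUnit_mk'_iff R n a s).mp (has ▸ w.isUnit)
  have hws : (w : R) * algebraMap B R s = algebraMap B R a := by
    rw [← has]; exact IsLocalization.mk'_spec R a s
  refine ⟨g, a, s, hg, ha, s.2, ?_⟩
  rw [IsScalarTower.algebraMap_apply B R F, IsScalarTower.algebraMap_apply B R F a, ← hws,
    map_mul, hfw]
  ring

end Chart

end Fermat.Agent.S18.H08
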