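import Mathlib
import Fermat.Prelude.Def_FLTPrelim_Ramification

/-!
# Bounded torsion of finitely generated modules over a (rank one) valuation ring

Interface-free algebra for the Kummer core of S18 (helper45).

* `torsion_fg` : over a valuation ring the torsion submodule of a f.g. module is f.g.
* `exists_ne_zero_forall_torsion_smul_eq_zero` : it is killed by one nonzero element.
* `exists_bound_pow_torsion` : if every nonzero `b` divides a power of `a`, the
  `a`-power torsion of a f.g. module is killed by a fixed power of `a`.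
* `eq_zero_of_forall_exists_pow_smul` : the form used in the refinement/glue step.
* `exists_bound_pow_smul_mem` : submodule form (no quotient needed by the consumer).
* `exists_dvd_prime_pow_of_liesOverPrime` : the divisibility hypothesis for valuation
  subrings of `AlgebraicClosure ℚ` lying over a prime.
-/

set_option autoImplicit false

namespace Fermat.Agent.S18.H45

open Submodule

section General

variable {A : Type*} [CommRing A] [IsDomain A] [ValuationRing A]
variable {H : Type*} [AddCommGroup H] [Module A H]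

/-- Over a valuation ring, the torsion submodule of a finitely generated module is finitely
generated (it is a direct summand, the torsion-free quotient being free). -/
theorem torsion_fg [Module.Finite A H] : (torsion A H).FG := by
  have hflat : Module.Flat A (H ⧸ torsion A H) :=
    Module.Flat.flat_iff_torsion_eq_bot_of_isBezout.mpr Submodule.QuotientTorsion.torsion_eq_bot
  have : Module.Free A (H ⧸ torsion A H) := Module.free_of_flat_of_isLocalRing
  obtain ⟨s, hs⟩ := Module.projective_lifting_property (torsion A H).mkQ LinearMap.id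
    (Submodule.mkQ_surjective _)
  have hs' : ∀ q, (torsion A H).mkQ (s q) = q := fun q => by
    have := LinearMap.congr_fun hs q
    simpa using this
  set p : H →ₗ[A] H := LinearMap.id - s ∘ₗ (torsion A H).mkQ with hp
  have hrange : (⊤ : Submodule A H).map p = torsion A H := by
    apply le_antisymm
    · rintro _ ⟨x, -, rfl⟩
      rw [← Submodule.ker_mkQ (torsion A H), LinearMap.mem_ker]
      change (torsion A H).mkQ (x - s ((torsion A H).mkQ x)) = 0
      rw [map_sub, hs', sub_self]
    · intro t ht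
      refine ⟨t, trivial, ?_⟩
      have h0 : (torsion A H).mkQ t = 0 := by
        rw [← LinearMap.mem_ker, Submodule.ker_mkQ]; exact ht
      change t - s ((torsion A H).mkQ t) = t
      rw [h0, map_zero, sub_zero]
  rw [← hrange]
  exact Submodule.FG.map p Module.Finite.fg_top

/-- Over a valuation ring, the torsion of a finitely generated module is killed by a single
nonzero element. -/
theorem exists_ne_zero_forall_torsion_smul_eq_zero [Module.Finite A H] :
    ∃ b : A, b ≠ 0 ∧ ∀ h : H, (∃ r : A, r ≠ 0 ∧ r • h = 0) → b • h = 0 := by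
  classical
  obtain ⟨S, hS⟩ := torsion_fg (A := A) (H := H)
  have hex : ∀ s : H, ∃ r : A, r ≠ 0 ∧ (s ∈ torsion A H → r • s = 0) := by
    intro s
    by_cases hs : s ∈ torsion A H
    · obtain ⟨r, hr⟩ := (Submodule.mem_torsion_iff s).mp hs
      exact ⟨r, nonZeroDivisors.coe_ne_zero r, fun _ => hr⟩
    · exact ⟨1, one_ne_zero, fun h => absurd h hs⟩
  choose r hr0 hr using hex
  refine ⟨∏ s ∈ S, r s, Finset.prod_ne_zero_iff.mpr fun s _ => hr0 s, ?_⟩
  rintro h ⟨c, hc0, hc⟩
  have hmem : h ∈ torsion A H :=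
    (Submodule.mem_torsion_iff h).mpr ⟨⟨c, mem_nonZeroDivisors_of_ne_zero hc0⟩, hc⟩
  rw [← hS] at hmem
  refine Submodule.span_induction (p := fun x _ => (∏ s ∈ S, r s) • x = 0) ?_ ?_ ?_ ?_ hmem
  · intro x hx
    have hxS : x ∈ S := hx
    have hxt : x ∈ torsion A H := by
      rw [← hS]; exact Submodule.subset_span hx
    obtain ⟨k, hk⟩ := Finset.dvd_prod_of_mem r hxS
    rw [hk, mul_comm, mul_smul, hr x hxt, smul_zero]
  · exact smul_zero _
  · intro x y _ _ hx hy
    rw [smul_add, hx, hy, add_zero]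
  · intro c x _ hx
    rw [smul_comm, hx, smul_zero]

/-- **Bounded `a`-power torsion.** Let `A` be a valuation ring and `a : A` such that every
nonzero element divides a power of `a` (rank one, `a` in the maximal ideal). Then in a finitely
generated `A`-module the `a`-power torsion is killed by one fixed power of `a`. -/
theorem exists_bound_pow_torsion [Module.Finite A H] (a : A)
    (harch : ∀ b : A, b ≠ 0 → ∃ n : ℕ, b ∣ a ^ n) :
    ∃ c : ℕ, ∀ h : H, (∃ n : ℕ, a ^ n • h = 0) → a ^ c • h = 0 := by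
  by_cases ha : a = 0
  · refine ⟨1, fun h _ => ?_⟩
    rw [ha, pow_one, zero_smul]
  obtain ⟨b, hb0, hb⟩ := exists_ne_zero_forall_torsion_smul_eq_zero (A := A) (H := H)
  obtain ⟨c, k, hk⟩ := harch b hb0
  refine ⟨c, ?_⟩
  rintro h ⟨n, hn⟩
  rw [hk, mul_comm, mul_smul, hb h ⟨a ^ n, pow_ne_zero n ha, hn⟩, smul_zero]

/-- The form used in the refine/glue step of the Kummer core: an element which for every `n`
is `a ^ n` times an element killed by `a ^ (n + 1)` vanishes. -/
theorem eq_zero_of_forall_exists_pow_smul [Module.Finite A H] (a : A)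
    (harch : ∀ b : A, b ≠ 0 → ∃ n : ℕ, b ∣ a ^ n) (x : H)
    (hx : ∀ n : ℕ, ∃ y : H, a ^ n • y = x ∧ ∃ k : ℕ, a ^ k • y = 0) : x = 0 := by
  obtain ⟨c, hc⟩ := exists_bound_pow_torsion (H := H) a harch
  obtain ⟨y, hy, hk⟩ := hx c
  rw [← hy]
  exact hc y hk

/-- A variant with a chain: `x = h 0`, `h n - a • h (n+1) = 0` and each `h n` is `a`-power
torsion. -/
theorem eq_zero_of_chain [Module.Finite A H] (a : A)
    (harch : ∀ b : A, b ≠ 0 → ∃ n : ℕ, b ∣ a ^ n) (h : ℕ → H)
    (hstep : ∀ n : ℕ, h n = a • h (n + 1)) (htors : ∀ n : ℕ, ∃ k : ℕ, a ^ k • h n = 0) :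
    h 0 = 0 := by
  refine eq_zero_of_forall_exists_pow_smul a harch (h 0) fun n => ⟨h n, ?_, htors n⟩
  induction n with
  | zero => simp
  | succ n ih => rw [pow_succ, mul_smul, ← hstep n, ih]

variable {M : Type*} [AddCommGroup M] [Module A M]

/-- Quotient-free form with `Module.Finite A (M ⧸ N)`. -/
theorem exists_bound_pow_smul_mem_of_finite_quotient (N : Submodule A M) [Module.Finite A (M ⧸ N)]
    (a : A) (harch : ∀ b : A, b ≠ 0 → ∃ n : ℕ, b ∣ a ^ n) :
    ∃ c : ℕ, ∀ h : M, (∃ n : ℕ, a ^ n • h ∈ N) → a ^ c • h ∈ N := by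
  obtain ⟨c, hc⟩ := exists_bound_pow_torsion (H := M ⧸ N) a harch
  refine ⟨c, ?_⟩
  rintro h ⟨n, hn⟩
  have h1 : a ^ n • N.mkQ h = 0 := by
    rw [← map_smul, ← LinearMap.mem_ker, Submodule.ker_mkQ]; exact hn
  have h2 := hc (N.mkQ h) ⟨n, h1⟩
  rw [← map_smul, ← LinearMap.mem_ker, Submodule.ker_mkQ] at h2
  exact h2

/-- **Submodule form of bounded torsion** (no quotient has to be built by the consumer).
If `P ≤ N ⊔ Q` with `Q` finitely generated (i.e. `P` is finitely generated modulo `N`), then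
there is `c` such that for `h ∈ P`, `a ^ n • h ∈ N` for some `n` implies `a ^ c • h ∈ N`. -/
theorem exists_bound_pow_smul_mem (N P Q : Submodule A M) (hQ : Q.FG) (hP : P ≤ N ⊔ Q)
    (a : A) (harch : ∀ b : A, b ≠ 0 → ∃ n : ℕ, b ∣ a ^ n) :
    ∃ c : ℕ, ∀ h ∈ P, (∃ n : ℕ, a ^ n • h ∈ N) → a ^ c • h ∈ N := by
  -- the image of `Q` in `M ⧸ N` is a finitely generated module
  set Q' : Submodule A (M ⧸ N) := Q.map N.mkQ with hQ'
  have : Module.Finite A Q' := Module.Finite.iff_fg.mpr (hQ.map _)
  obtain ⟨c, hc⟩ := exists_bound_pow_torsion (H := Q') a harch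
  refine ⟨c, ?_⟩
  rintro h hhP ⟨n, hn⟩
  have hmem : N.mkQ h ∈ Q' := by
    obtain ⟨x, hx, y, hy, rfl⟩ := Submodule.mem_sup.mp (hP hhP)
    have hx0 : N.mkQ x = 0 := by
      rw [← LinearMap.mem_ker, Submodule.ker_mkQ]; exact hx
    rw [map_add, hx0, zero_add]
    exact Submodule.mem_map_of_mem hy
  have h1 : a ^ n • (⟨N.mkQ h, hmem⟩ : Q') = 0 := by
    apply Subtype.ext
    change a ^ n • N.mkQ h = 0
    rw [← map_smul, ← LinearMap.mem_ker, Submodule.ker_mkQ]; exact hn
  have h2 := congrArg Subtype.val (hc ⟨N.mkQ h, hmem⟩ ⟨n, h1⟩)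
  change a ^ c • N.mkQ h = 0 at h2
  rw [← map_smul, ← LinearMap.mem_ker, Submodule.ker_mkQ] at h2
  exact h2

end General

section QBar

/-- In a valuation subring of `AlgebraicClosure ℚ` lying over the prime `ℓ`, every nonzero
element divides a power of `ℓ` (the valuation has rank one). -/
theorem exists_dvd_prime_pow_of_liesOverPrime {ℓ : ℕ} (hℓ : ℓ.Prime)
    (A : ValuationSubring (AlgebraicClosure ℚ)) (hA : A.LiesOverPrime ℓ)
    (b : A) (hb : b ≠ 0) : ∃ n : ℕ, b ∣ (ℓ : A) ^ n := by
  -- `b` is algebraic over `ℤ`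
  have halgQ : IsAlgebraic ℤ (b : AlgebraicClosure ℚ) :=
    (IsFractionRing.isAlgebraic_iff ℤ ℚ _).mpr ((AlgebraicClosure.isAlgebraic ℚ).isAlgebraic _)
  have halg : IsAlgebraic ℤ b := by
    refine (isAlgebraic_ringHom_iff_of_comp_eq (RingEquiv.refl ℤ) A.subtype
      Subtype.val_injective ?_).mp halgQ
    exact RingHom.ext_int _ _
  obtain ⟨r, hr0, hdvd⟩ := halg.exists_nonzero_dvd (mem_nonZeroDivisors_of_ne_zero hb)
  -- pass to the absolute value and split off the power of `ℓ`
  have hdvd' : b ∣ ((r.natAbs : ℕ) : A) := by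
    rcases Int.natAbs_eq r with h | h
    · have : algebraMap ℤ A r = ((r.natAbs : ℕ) : A) := by
        conv_lhs => rw [h]
        simp
      rwa [this] at hdvd
    · have : algebraMap ℤ A r = -((r.natAbs : ℕ) : A) := by
        conv_lhs => rw [h]
        simp
      rw [this] at hdvd
      exact (dvd_neg.mp hdvd)
  obtain ⟨e, u, hu, hru⟩ := Nat.exists_eq_pow_mul_and_not_dvd (Int.natAbs_ne_zero.mpr hr0) ℓ
    hℓ.ne_one
  refine ⟨e, ?_⟩
  -- `ℓ` lies in the maximal ideal
  have hℓmem : ((ℓ : ℕ) : A) ∈ IsLocalRing.maximalIdeal A := by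
    obtain ⟨ha, hmem⟩ := (ValuationSubring.mem_nonunits_iff_exists_mem_maximalIdeal).mp hA
    have : (⟨(ℓ : AlgebraicClosure ℚ), ha⟩ : A) = ((ℓ : ℕ) : A) := by
      apply Subtype.ext; simp
    rwa [this] at hmem
  -- `u` is a unit of `A`
  have hunit : IsUnit ((u : ℕ) : A) := by
    by_contra hnu
    have humem : ((u : ℕ) : A) ∈ IsLocalRing.maximalIdeal A := by
      rw [IsLocalRing.mem_maximalIdeal]; exact hnu
    have hcop : Nat.Coprime ℓ u := (Nat.Prime.coprime_iff_not_dvd hℓ).mpr hu
    have hbez : (ℓ : ℤ) * Nat.gcdA ℓ u + (u : ℤ) * Nat.gcdB ℓ u = 1 := by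
      have := Nat.gcd_eq_gcd_ab ℓ u
      rw [hcop] at this
      exact_mod_cast this.symm
    have hone : (1 : A) ∈ IsLocalRing.maximalIdeal A := by
      have h1 : (1 : A) = ((ℓ : ℕ) : A) * ((Nat.gcdA ℓ u : ℤ) : A)
          + ((u : ℕ) : A) * ((Nat.gcdB ℓ u : ℤ) : A) := by
        have := congrArg (Int.cast : ℤ → A) hbez
        push_cast at this
        exact this.symm
      rw [h1]
      exact Ideal.add_mem _ (Ideal.mul_mem_right _ _ hℓmem) (Ideal.mul_mem_right _ _ humem)
    exact (Ideal.ne_top_iff_one _).mp (IsLocalRing.maximalIdeal.isMaximal A).ne_top hone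
  have hcast : ((r.natAbs : ℕ) : A) = ((ℓ : ℕ) : A) ^ e * ((u : ℕ) : A) := by
    rw [hru]; push_cast; ring
  rw [hcast] at hdvd'
  exact (IsUnit.dvd_mul_right hunit).mp hdvd'

end QBar

end Fermat.Agent.S18.H45
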