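import Mathlib
import Fermat.Agent.S18.BranchModel_helper10

/-!
# S18, node (BR): hypothesis (iii) of (NC) for the `K0`-model, valuation-subring form

The literal hypothesis `hbr` of `H49.nc_main` (= `hiii` of `H57.hC_of_branch`) for
`F0 = modularFunctionFieldFullC K0 L`, the six charts (`j`, `1/j`, `t₂`, `1/t₂`, `t₃`, `1/t₃`),
with no hypothesis left.  `A0` is any domain with fraction field `K0` (e.g. the discrete
valuation ring `A ∩ K0`), the algebra structure `A0[X] → F0` is any one with `X ↦ xi` (`halg`),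
the chart coordinate `xi : F0` is identified by its `q`-expansion.
-/

set_option autoImplicit false

open AlgebraicCurve IntermediateField Polynomial ModularCurve
open Fermat.Agent.S24 Fermat.Agent.S24.H98

namespace Fermat.Agent.S18.H10

/-- the statement: hypothesis (iii) of (NC) in valuation-subring form (`hbr` of `H49.nc_main`). -/
def BranchVS (A0 F : Type*) [CommRing A0] [Field F] [Algebra (Polynomial A0) F]
    (Pi : Polynomial A0) : Prop :=
  ∀ W : ValuationSubring F, (∀ p : Polynomial A0, algebraMap (Polynomial A0) F p ∈ W) →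
    (∀ a : A0, a ≠ 0 → (algebraMap (Polynomial A0) F (C a))⁻¹ ∈ W) →
    (algebraMap (Polynomial A0) F Pi)⁻¹ ∈ W → ∀ y ∈ W, y⁻¹ ∉ W →
    ∃ g : Polynomial A0, (algebraMap (Polynomial A0) F g)⁻¹ ∉ W ∧
      y / algebraMap (Polynomial A0) F g ∈ W

section Kbar

variable (N : ℕ) [NeZero N]

/-- chart `j`, any polynomial vanishing at `0` and `1728` -/
theorem unramOutside_one' (Pi : Polynomial Kbar)
    (hPi : ∀ a : Kbar, Pi.eval a ≠ 0 → a ≠ 0 ∧ a ≠ 1728) :
    UnramOutside Kbar (FN N) (jBar N) Pi :=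
  (unramOutside_one N).of_eval Pi (fun a ha => by
    obtain ⟨h0, h1⟩ := hPi a ha
    simp only [eval_mul, eval_X, eval_sub, eval_C]
    exact mul_ne_zero h0 (sub_ne_zero.mpr h1))

/-- chart `1/j`, any polynomial vanishing at `0` and `1/1728` -/
theorem unramOutside_one_inv' (Pi : Polynomial Kbar)
    (hPi : ∀ a : Kbar, Pi.eval a ≠ 0 → a ≠ 0 ∧ 1728 * a - 1 ≠ 0) :
    UnramOutside Kbar (FN N) (jBar N)⁻¹ Pi :=
  (unramOutside_one_inv N (1728⁻¹ : Kbar) (by norm_num)).of_eval Pi (fun a ha => by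
    obtain ⟨h0, h1⟩ := hPi a ha
    simp only [eval_mul, eval_X, eval_sub, eval_C]
    refine mul_ne_zero h0 (fun h2 => h1 ?_)
    have h3 : a = 1728⁻¹ := sub_eq_zero.mp h2
    rw [h3]; norm_num)

/-- chart `t₂`, any polynomial vanishing at `0` and `-64` -/
theorem unramOutside_two' (t : FN N) (hrel : jBar N * t ^ 2 = (t + 256) ^ 3)
    (Pi : Polynomial Kbar) (hPi : ∀ a : Kbar, Pi.eval a ≠ 0 → a ≠ 0 ∧ a ≠ -64) :
    UnramOutside Kbar (FN N) t Pi :=
  (unramOutside_two N t hrel).of_eval Pi (fun a ha => by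
    obtain ⟨h0, h1⟩ := hPi a ha
    simp only [eval_mul, eval_X, eval_add, eval_C]
    exact mul_ne_zero h0 (fun h2 => h1 (eq_neg_of_add_eq_zero_left h2)))

/-- chart `1/t₂`, any polynomial vanishing at `0` and `-1/64` -/
theorem unramOutside_two_inv' (t : FN N) (hrel : jBar N * t ^ 2 = (t + 256) ^ 3)
    (Pi : Polynomial Kbar) (hPi : ∀ a : Kbar, Pi.eval a ≠ 0 → a ≠ 0 ∧ 64 * a + 1 ≠ 0) :
    UnramOutside Kbar (FN N) t⁻¹ Pi :=
  (unramOutside_two_inv N t hrel (64⁻¹ : Kbar) (by norm_num)).of_eval Pi (fun a ha => by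
    obtain ⟨h0, h1⟩ := hPi a ha
    simp only [eval_mul, eval_X, eval_add, eval_C]
    refine mul_ne_zero h0 (fun h2 => h1 ?_)
    have h3 : a = -64⁻¹ := eq_neg_of_add_eq_zero_left h2
    rw [h3]; norm_num)

/-- chart `t₃`, any polynomial vanishing at `0` and `-27` -/
theorem unramOutside_three' (t : FN N) (hrel : jBar N * t ^ 3 = (t + 27) * (t + 243) ^ 3)
    (Pi : Polynomial Kbar) (hPi : ∀ a : Kbar, Pi.eval a ≠ 0 → a ≠ 0 ∧ a ≠ -27) :
    UnramOutside Kbar (FN N) t Pi :=
  (unramOutside_three N t hrel).of_eval Pi (fun a ha => by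
    obtain ⟨h0, h1⟩ := hPi a ha
    simp only [eval_mul, eval_X, eval_add, eval_C]
    exact mul_ne_zero h0 (fun h2 => h1 (eq_neg_of_add_eq_zero_left h2)))

/-- chart `1/t₃`, any polynomial vanishing at `0` and `-1/27` -/
theorem unramOutside_three_inv' (t : FN N)
    (hrel : jBar N * t ^ 3 = (t + 27) * (t + 243) ^ 3)
    (Pi : Polynomial Kbar) (hPi : ∀ a : Kbar, Pi.eval a ≠ 0 → a ≠ 0 ∧ 27 * a + 1 ≠ 0) :
    UnramOutside Kbar (FN N) t⁻¹ Pi :=
  (unramOutside_three_inv N t hrel (27⁻¹ : Kbar) (by norm_num)).of_eval Pi (fun a ha => by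
    obtain ⟨h0, h1⟩ := hPi a ha
    simp only [eval_mul, eval_X, eval_add, eval_C]
    refine mul_ne_zero h0 (fun h2 => h1 ?_)
    have h3 : a = -27⁻¹ := eq_neg_of_add_eq_zero_left h2
    rw [h3]; norm_num)

end Kbar

section Model

variable (K0 : Type*) [Field K0] [Algebra K0 Kbar] [Algebra.IsAlgebraic K0 Kbar]
  (L : ℕ) [NeZero L]
  {A0 : Type*} [CommRing A0] [IsDomain A0] [Algebra A0 K0] [IsFractionRing A0 K0]
  [Algebra (Polynomial A0) ↥(modularFunctionFieldFullC K0 L)]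

/-- the general reduction: `BranchVS` in the model from `UnramOutside` at the image of the
chart coordinate. -/
theorem branchVS_model (xi : ↥(modularFunctionFieldFullC K0 L))
    (halg : ∀ p : Polynomial A0, algebraMap (Polynomial A0) ↥(modularFunctionFieldFullC K0 L) p
      = aeval xi (p.map (algebraMap A0 K0)))
    (Pi : Polynomial A0) (hPi0 : Pi ≠ 0)
    (hU : UnramOutside Kbar (FN L) (H74.toBar K0 L xi)
      ((Pi.map (algebraMap A0 K0)).map (algebraMap K0 Kbar))) :
    BranchVS A0 ↥(modularFunctionFieldFullC K0 L) Pi := by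
  have : CharZero K0 := (algebraMap K0 Kbar).charZero
  intro W hW hunit hPiW y hy hy'
  exact exists_dvd_of_unram (H74.toBar K0 L) (H74.toBar_algebraMap K0 L) xi halg Pi hPi0 hU
    W hW hunit hPiW y hy hy'

/-- **(NC) HYP (iii) for the model, chart `j`.** -/
theorem branchVS_model_j (xi : ↥(modularFunctionFieldFullC K0 L))
    (hxi : (xi : LaurentSeries K0) = jqModC K0)
    (halg : ∀ p : Polynomial A0, algebraMap (Polynomial A0) ↥(modularFunctionFieldFullC K0 L) p
      = aeval xi (p.map (algebraMap A0 K0)))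
    (Pi : Polynomial A0) (hPi0 : Pi ≠ 0)
    (hPi : ∀ a : Kbar, ((Pi.map (algebraMap A0 K0)).map (algebraMap K0 Kbar)).eval a ≠ 0 →
      a ≠ 0 ∧ a ≠ 1728) :
    BranchVS A0 ↥(modularFunctionFieldFullC K0 L) Pi := by
  refine branchVS_model K0 L xi halg Pi hPi0 ?_
  rw [toBar_eq_jBar K0 L xi hxi]
  exact unramOutside_one' L _ hPi

/-- **(NC) HYP (iii) for the model, chart `1/j`.** -/
theorem branchVS_model_j_inv (xi : ↥(modularFunctionFieldFullC K0 L))
    (hxi : (xi : LaurentSeries K0) * jqModC K0 = 1)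
    (halg : ∀ p : Polynomial A0, algebraMap (Polynomial A0) ↥(modularFunctionFieldFullC K0 L) p
      = aeval xi (p.map (algebraMap A0 K0)))
    (Pi : Polynomial A0) (hPi0 : Pi ≠ 0)
    (hPi : ∀ a : Kbar, ((Pi.map (algebraMap A0 K0)).map (algebraMap K0 Kbar)).eval a ≠ 0 →
      a ≠ 0 ∧ 1728 * a - 1 ≠ 0) :
    BranchVS A0 ↥(modularFunctionFieldFullC K0 L) Pi := by
  refine branchVS_model K0 L xi halg Pi hPi0 ?_
  rw [toBar_eq_jBar_inv K0 L xi hxi]
  exact unramOutside_one_inv' L _ hPi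

/-- **(NC) HYP (iii) for the model, chart `t₂`.** -/
theorem branchVS_model_two (xi : ↥(modularFunctionFieldFullC K0 L))
    (hxi : (xi : LaurentSeries K0) = H69.haupt2 K0)
    (halg : ∀ p : Polynomial A0, algebraMap (Polynomial A0) ↥(modularFunctionFieldFullC K0 L) p
      = aeval xi (p.map (algebraMap A0 K0)))
    (Pi : Polynomial A0) (hPi0 : Pi ≠ 0)
    (hPi : ∀ a : Kbar, ((Pi.map (algebraMap A0 K0)).map (algebraMap K0 Kbar)).eval a ≠ 0 →
      a ≠ 0 ∧ a ≠ -64) :
    BranchVS A0 ↥(modularFunctionFieldFullC K0 L) Pi :=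
  branchVS_model K0 L xi halg Pi hPi0
    (unramOutside_two' L _ (toBar_rel_two K0 L xi hxi) _ hPi)

/-- **(NC) HYP (iii) for the model, chart `1/t₂`** (`xi` an inverse of `t`, `t` with
`q`-expansion `haupt2 K0`). -/
theorem branchVS_model_two_inv (xi t : ↥(modularFunctionFieldFullC K0 L))
    (ht : (t : LaurentSeries K0) = H69.haupt2 K0)
    (hxi : (xi : LaurentSeries K0) * (t : LaurentSeries K0) = 1)
    (halg : ∀ p : Polynomial A0, algebraMap (Polynomial A0) ↥(modularFunctionFieldFullC K0 L) p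
      = aeval xi (p.map (algebraMap A0 K0)))
    (Pi : Polynomial A0) (hPi0 : Pi ≠ 0)
    (hPi : ∀ a : Kbar, ((Pi.map (algebraMap A0 K0)).map (algebraMap K0 Kbar)).eval a ≠ 0 →
      a ≠ 0 ∧ 64 * a + 1 ≠ 0) :
    BranchVS A0 ↥(modularFunctionFieldFullC K0 L) Pi := by
  refine branchVS_model K0 L xi halg Pi hPi0 ?_
  rw [toBar_eq_inv K0 L xi t hxi]
  exact unramOutside_two_inv' L _ (toBar_rel_two K0 L t ht) _ hPi

/-- **(NC) HYP (iii) for the model, chart `t₃`.** -/
theorem branchVS_model_three (xi : ↥(modularFunctionFieldFullC K0 L))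
    (hxi : (xi : LaurentSeries K0) = H69.haupt3 K0)
    (halg : ∀ p : Polynomial A0, algebraMap (Polynomial A0) ↥(modularFunctionFieldFullC K0 L) p
      = aeval xi (p.map (algebraMap A0 K0)))
    (Pi : Polynomial A0) (hPi0 : Pi ≠ 0)
    (hPi : ∀ a : Kbar, ((Pi.map (algebraMap A0 K0)).map (algebraMap K0 Kbar)).eval a ≠ 0 →
      a ≠ 0 ∧ a ≠ -27) :
    BranchVS A0 ↥(modularFunctionFieldFullC K0 L) Pi :=
  branchVS_model K0 L xi halg Pi hPi0
    (unramOutside_three' L _ (toBar_rel_three K0 L xi hxi) _ hPi)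

/-- **(NC) HYP (iii) for the model, chart `1/t₃`.** -/
theorem branchVS_model_three_inv (xi t : ↥(modularFunctionFieldFullC K0 L))
    (ht : (t : LaurentSeries K0) = H69.haupt3 K0)
    (hxi : (xi : LaurentSeries K0) * (t : LaurentSeries K0) = 1)
    (halg : ∀ p : Polynomial A0, algebraMap (Polynomial A0) ↥(modularFunctionFieldFullC K0 L) p
      = aeval xi (p.map (algebraMap A0 K0)))
    (Pi : Polynomial A0) (hPi0 : Pi ≠ 0)
    (hPi : ∀ a : Kbar, ((Pi.map (algebraMap A0 K0)).map (algebraMap K0 Kbar)).eval a ≠ 0 →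
      a ≠ 0 ∧ 27 * a + 1 ≠ 0) :
    BranchVS A0 ↥(modularFunctionFieldFullC K0 L) Pi := by
  refine branchVS_model K0 L xi halg Pi hPi0 ?_
  rw [toBar_eq_inv K0 L xi t hxi]
  exact unramOutside_three_inv' L _ (toBar_rel_three K0 L t ht) _ hPi

end Model

end Fermat.Agent.S18.H10
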