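import Fermat.Statements.S18

/-!
# S18, node BRIDGE (helper18)

Reduction of the frozen statement S18 to a statement about ONE normalised pair `(D, Y1/Y2)`:
`deg D = 0`, `r_* D = 0`, `m D = div (Y1 / Y2)` with `Y1, Y2` Gauss-integral with EQUAL nonzero
reductions.  Depends only on the frozen definitions.
-/

set_option autoImplicit false
set_option synthInstance.maxHeartbeats 400000

open ModularCurve AlgebraicCurve HahnSeries IntermediateField

namespace Fermat.Agent.S18.H18

noncomputable section

section General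

variable {K F : Type*} [Field K] [Field F] [Algebra K F]

/-- Nonzero constants have order zero at every place. -/
theorem ord_algebraMap_eq_zero (P : Place K F) {c : K} (hc : c ≠ 0) :
    P.ord (algebraMap K F c) = 0 := by
  have h1 : algebraMap K F c ∈ P.toValuationSubring := P.algebraMap_mem' c
  have h2 : algebraMap K F c⁻¹ ∈ P.toValuationSubring := P.algebraMap_mem' c⁻¹
  have e1 : (⟨_, h1⟩ : P.toValuationSubring) * ⟨_, h2⟩ = 1 := by
    apply Subtype.ext
    show algebraMap K F c * algebraMap K F c⁻¹ = 1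
    rw [← map_mul, mul_inv_cancel₀ hc, map_one]
  have e2 : (⟨_, h2⟩ : P.toValuationSubring) * ⟨_, h1⟩ = 1 := by
    rw [mul_comm]; exact e1
  exact P.ord_coe_unit ⟨⟨_, h1⟩, ⟨_, h2⟩, e1, e2⟩

theorem ord_div (P : Place K F) {f g : F} (hf : f ≠ 0) (hg : g ≠ 0) :
    P.ord (f / g) = P.ord f - P.ord g := by
  rw [div_eq_mul_inv, P.ord_mul hf (inv_ne_zero hg), P.ord_inv, sub_eq_add_neg]

theorem ord_pow (P : Place K F) (f : F) (n : ℕ) : P.ord (f ^ n) = n * P.ord f := by
  have := P.ord_zpow f (n : ℤ)
  simpa using this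

end General

section Gauss

variable (A : ValuationSubring (AlgebraicClosure ℚ)) (N : ℕ)

/-- The Gauss-integral elements: Laurent series over `A` whose generic fibre lies in the
function field over `ℚ̄` and whose reduction lies in the function field over the residue field. -/
def gaussRing : Subring (LaurentSeries A) :=
  (modularFunctionFieldBar N).toSubfield.toSubring.comap (coeffMap A.subtype) ⊓
    (modularFunctionFieldFullC (IsLocalRing.ResidueField A) N).toSubfield.toSubring.comap
      (coeffMap (IsLocalRing.residue A))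

theorem mem_gaussRing {Y : LaurentSeries A} :
    Y ∈ gaussRing A N ↔ coeffMap A.subtype Y ∈ modularFunctionFieldBar N ∧
      coeffMap (IsLocalRing.residue A) Y ∈
        modularFunctionFieldFullC (IsLocalRing.ResidueField A) N :=
  Iff.rfl

theorem single_zero_mem_gaussRing (a : A) : HahnSeries.single (0 : ℤ) a ∈ gaussRing A N := by
  rw [mem_gaussRing, coeffMap_single, coeffMap_single]
  constructor
  · rw [← algebraMap_laurentSeries_eq_single]
    exact (modularFunctionFieldBar N).algebraMap_mem _
  · rw [← algebraMap_laurentSeries_eq_single]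
    exact (modularFunctionFieldFullC (IsLocalRing.ResidueField A) N).algebraMap_mem _

theorem qExpand_jq_mem_gaussRing {d : ℕ} [NeZero d] (hd : d ∣ N) :
    qExpand A d (jqModC A) ∈ gaussRing A N := by
  rw [mem_gaussRing, coeffMap_qExpand, coeffMap_qExpand, coeffMap_jqModC, coeffMap_jqModC]
  constructor
  · have h0 : qExpand ℚ d (jqModC ℚ) ∈ modularFunctionFieldFull N := by
      rw [← modularFunctionFieldFullC_rat]
      exact jqModCd_mem_full ℚ N hd
    have h1 := coeffEmb_mem_laurentBaseChange (AlgebraicClosure ℚ) h0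
    rw [coeffEmb, coeffMap_qExpand, coeffMap_jqModC] at h1
    exact h1
  · exact jqModCd_mem_full _ N hd

/-- LIFTING LEMMA: every element of the residue function field is a quotient of reductions of
Gauss-integral elements. -/
theorem lift_ratio {x : LaurentSeries (IsLocalRing.ResidueField A)}
    (hx : x ∈ modularFunctionFieldFullC (IsLocalRing.ResidueField A) N) :
    ∃ Y1 ∈ gaussRing A N, ∃ Y2 ∈ gaussRing A N,
      coeffMap (IsLocalRing.residue A) Y2 ≠ 0 ∧
      x * coeffMap (IsLocalRing.residue A) Y2 = coeffMap (IsLocalRing.residue A) Y1 := by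
  have hx' : x ∈ Subfield.closure
      (Set.range (algebraMap (IsLocalRing.ResidueField A)
        (LaurentSeries (IsLocalRing.ResidueField A))) ∪
        divisorExpansionsC (IsLocalRing.ResidueField A) N) := hx
  clear hx
  induction hx' using Subfield.closure_induction with
  | mem y hy =>
    rcases hy with ⟨c, rfl⟩ | ⟨d, hd0, hd, rfl⟩
    · obtain ⟨a, rfl⟩ := IsLocalRing.residue_surjective c
      refine ⟨HahnSeries.single 0 a, single_zero_mem_gaussRing A N a, 1, one_mem _, ?_, ?_⟩
      · rw [map_one]; exact one_ne_zero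
      · rw [map_one, mul_one, coeffMap_single, algebraMap_laurentSeries_eq_single]
    · have := hd0
      refine ⟨qExpand A d (jqModC A), qExpand_jq_mem_gaussRing A N hd, 1, one_mem _, ?_, ?_⟩
      · rw [map_one]; exact one_ne_zero
      · rw [map_one, mul_one, coeffMap_qExpand, coeffMap_jqModC]
  | one =>
    refine ⟨1, one_mem _, 1, one_mem _, ?_, ?_⟩
    · rw [map_one]; exact one_ne_zero
    · rw [map_one, mul_one]
  | add x y _ _ hx hy =>
    obtain ⟨a1, ha1, b1, hb1, hb1n, e1⟩ := hx
    obtain ⟨a2, ha2, b2, hb2, hb2n, e2⟩ := hy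
    refine ⟨a1 * b2 + a2 * b1, add_mem (mul_mem ha1 hb2) (mul_mem ha2 hb1), b1 * b2,
      mul_mem hb1 hb2, ?_, ?_⟩
    · rw [map_mul]; exact mul_ne_zero hb1n hb2n
    · rw [map_mul, map_add, map_mul, map_mul, ← e1, ← e2]; ring
  | neg x _ hx =>
    obtain ⟨a1, ha1, b1, hb1, hb1n, e1⟩ := hx
    refine ⟨-a1, neg_mem ha1, b1, hb1, hb1n, ?_⟩
    rw [map_neg, ← e1]; ring
  | inv x _ hx =>
    obtain ⟨a1, ha1, b1, hb1, hb1n, e1⟩ := hx
    by_cases ha : coeffMap (IsLocalRing.residue A) a1 = 0
    · have hx0 : x = 0 := by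
        rw [ha] at e1
        rcases mul_eq_zero.mp e1 with h | h
        · exact h
        · exact absurd h hb1n
      refine ⟨0, zero_mem _, 1, one_mem _, ?_, ?_⟩
      · rw [map_one]; exact one_ne_zero
      · rw [hx0, inv_zero, map_zero, zero_mul]
    · refine ⟨b1, hb1, a1, ha1, ha, ?_⟩
      have hx0 : x ≠ 0 := by
        rintro rfl
        rw [zero_mul] at e1
        exact ha e1.symm
      rw [← e1]
      field_simp
  | mul x y _ _ hx hy =>
    obtain ⟨a1, ha1, b1, hb1, hb1n, e1⟩ := hx
    obtain ⟨a2, ha2, b2, hb2, hb2n, e2⟩ := hy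
    refine ⟨a1 * a2, mul_mem ha1 ha2, b1 * b2, mul_mem hb1 hb2, ?_, ?_⟩
    · rw [map_mul]; exact mul_ne_zero hb1n hb2n
    · rw [map_mul, map_mul, ← e1, ← e2]; ring

theorem coeffMap_subtype_injective :
    Function.Injective (coeffMap (A.subtype) : LaurentSeries A → LaurentSeries (AlgebraicClosure ℚ)) := by
  intro x y hxy
  ext k
  have := congrArg (fun s => s.coeff k) hxy
  simpa using this

theorem coeffMap_subtype_ne_zero {Y : LaurentSeries A}
    (hY : coeffMap (IsLocalRing.residue A) Y ≠ 0) : coeffMap A.subtype Y ≠ 0 := by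
  intro h0
  apply hY
  have : Y = 0 := coeffMap_subtype_injective A (by rw [h0, map_zero])
  rw [this, map_zero]

end Gauss

section Bridge

variable {A : ValuationSubring (AlgebraicClosure ℚ)} {N : ℕ}

/-- The frozen compatibility, for Gauss-integral elements with nonzero reduction. -/
theorem compat_gauss (h : ReductionInputsModL A N) {Y : LaurentSeries A}
    (hY : Y ∈ gaussRing A N) (hne : coeffMap (IsLocalRing.residue A) Y ≠ 0)
    (E : Divisor (AlgebraicClosure ℚ) (modularFunctionFieldBar N))
    (hE : ∀ P, E P = P.ord (⟨coeffMap A.subtype Y, hY.1⟩ : modularFunctionFieldBar N))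
    (Q : Place (IsLocalRing.ResidueField A)
      (modularFunctionFieldFullC (IsLocalRing.ResidueField A) N)) :
    Finsupp.mapDomain (placeReductionModL h) E Q =
      Q.ord (⟨coeffMap (IsLocalRing.residue A) Y, hY.2⟩ :
        modularFunctionFieldFullC (IsLocalRing.ResidueField A) N) :=
  (isPlaceReductionModL_placeReductionModL h).2 Y hY.1 hY.2 hne E hE Q

/-- Closure induction on `(gen)`: a divisor in the closure of the integral principal divisors
is `div W1 - div W2` for Gauss-integral `W1, W2` with nonzero reductions. -/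
theorem exists_gauss_pair_of_mem_closure
    {E : Divisor (AlgebraicClosure ℚ) (modularFunctionFieldBar N)}
    (hE : E ∈ AddSubgroup.closure (integralPrincipalDivisors A (IsLocalRing.residue A) N)) :
    ∃ (W1 W2 : LaurentSeries A) (h1 : W1 ∈ gaussRing A N) (h2 : W2 ∈ gaussRing A N)
      (E1 E2 : Divisor (AlgebraicClosure ℚ) (modularFunctionFieldBar N)),
      coeffMap (IsLocalRing.residue A) W1 ≠ 0 ∧ coeffMap (IsLocalRing.residue A) W2 ≠ 0 ∧
      (∀ P, E1 P = P.ord (⟨coeffMap A.subtype W1, h1.1⟩ : modularFunctionFieldBar N)) ∧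
      (∀ P, E2 P = P.ord (⟨coeffMap A.subtype W2, h2.1⟩ : modularFunctionFieldBar N)) ∧
      E = E1 - E2 := by
  induction hE using AddSubgroup.closure_induction with
  | mem E hE =>
    obtain ⟨y, hy, hyk, hne, hDy⟩ := hE
    refine ⟨y, 1, ⟨hy, hyk⟩, one_mem _, E, 0, hne, ?_, hDy, ?_, (sub_zero E).symm⟩
    · rw [map_one]; exact one_ne_zero
    · intro P
      have : (⟨coeffMap A.subtype (1 : LaurentSeries A), (one_mem (gaussRing A N)).1⟩ :
          modularFunctionFieldBar N) = 1 := Subtype.ext (map_one _)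
      rw [this, Place.ord_one]; rfl
  | zero =>
    refine ⟨1, 1, one_mem _, one_mem _, 0, 0, ?_, ?_, ?_, ?_, (sub_zero _).symm⟩
    · rw [map_one]; exact one_ne_zero
    · rw [map_one]; exact one_ne_zero
    · intro P
      have : (⟨coeffMap A.subtype (1 : LaurentSeries A), (one_mem (gaussRing A N)).1⟩ :
          modularFunctionFieldBar N) = 1 := Subtype.ext (map_one _)
      rw [this, Place.ord_one]; rfl
    · intro P
      have : (⟨coeffMap A.subtype (1 : LaurentSeries A), (one_mem (gaussRing A N)).1⟩ :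
          modularFunctionFieldBar N) = 1 := Subtype.ext (map_one _)
      rw [this, Place.ord_one]; rfl
  | add E E' _ _ hE hE' =>
    obtain ⟨W1, W2, h1, h2, E1, E2, n1, n2, d1, d2, rfl⟩ := hE
    obtain ⟨W1', W2', h1', h2', E1', E2', n1', n2', d1', d2', rfl⟩ := hE'
    refine ⟨W1 * W1', W2 * W2', mul_mem h1 h1', mul_mem h2 h2', E1 + E1', E2 + E2', ?_, ?_, ?_, ?_,
      by abel⟩
    · rw [map_mul]; exact mul_ne_zero n1 n1'
    · rw [map_mul]; exact mul_ne_zero n2 n2'
    · intro P
      have : (⟨coeffMap A.subtype (W1 * W1'), (mul_mem h1 h1').1⟩ : modularFunctionFieldBar N) =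
          ⟨coeffMap A.subtype W1, h1.1⟩ * ⟨coeffMap A.subtype W1', h1'.1⟩ :=
        Subtype.ext (map_mul _ _ _)
      rw [this, Place.ord_mul, Finsupp.add_apply, d1 P, d1' P]
      · exact fun h0 => coeffMap_subtype_ne_zero A n1 (congrArg Subtype.val h0)
      · exact fun h0 => coeffMap_subtype_ne_zero A n1' (congrArg Subtype.val h0)
    · intro P
      have : (⟨coeffMap A.subtype (W2 * W2'), (mul_mem h2 h2').1⟩ : modularFunctionFieldBar N) =
          ⟨coeffMap A.subtype W2, h2.1⟩ * ⟨coeffMap A.subtype W2', h2'.1⟩ :=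
        Subtype.ext (map_mul _ _ _)
      rw [this, Place.ord_mul, Finsupp.add_apply, d2 P, d2' P]
      · exact fun h0 => coeffMap_subtype_ne_zero A n2 (congrArg Subtype.val h0)
      · exact fun h0 => coeffMap_subtype_ne_zero A n2' (congrArg Subtype.val h0)
  | neg E _ hE =>
    obtain ⟨W1, W2, h1, h2, E1, E2, n1, n2, d1, d2, rfl⟩ := hE
    exact ⟨W2, W1, h2, h1, E2, E1, n2, n1, d2, d1, by abel⟩

/-- **BRIDGE.** The frozen statement S18 follows from
* `hdivL`: every nonzero function on the generic fibre has a divisor (finitely many zeros/poles);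
* `hconstk`: a function on the special fibre without zeros and poles is constant;
* `core`: the normalised Kummer statement: `deg D = 0`, `r_* D = 0`, `m D = div (Y1 / Y2)` with
  `Y1, Y2` Gauss-integral with equal nonzero reductions implies `D` principal. -/
theorem bridge (h : ReductionInputsModL A N) (m : ℕ) (z : JZero N) (hmz : m • z = 0)
    (hz : reductionModL A N z = 0)
    (hdivL : ∀ f : modularFunctionFieldBar N, f ≠ 0 →
      ∃ E : Divisor (AlgebraicClosure ℚ) (modularFunctionFieldBar N), ∀ P, E P = P.ord f)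
    (hconstk : ∀ g : modularFunctionFieldFullC (IsLocalRing.ResidueField A) N, g ≠ 0 →
      (∀ Q : Place (IsLocalRing.ResidueField A)
        (modularFunctionFieldFullC (IsLocalRing.ResidueField A) N), Q.ord g = 0) →
      ∃ c : IsLocalRing.ResidueField A,
        g = algebraMap (IsLocalRing.ResidueField A)
          (modularFunctionFieldFullC (IsLocalRing.ResidueField A) N) c)
    (core : ∀ D : Divisor (AlgebraicClosure ℚ) (modularFunctionFieldBar N),
      Divisor.degree D = 0 → Finsupp.mapDomain (placeReductionModL h) D = 0 →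
      ∀ (Y1 Y2 : LaurentSeries A) (h1 : Y1 ∈ gaussRing A N) (h2 : Y2 ∈ gaussRing A N),
        coeffMap (IsLocalRing.residue A) Y1 ≠ 0 →
        coeffMap (IsLocalRing.residue A) Y1 = coeffMap (IsLocalRing.residue A) Y2 →
        (∀ P : Place (AlgebraicClosure ℚ) (modularFunctionFieldBar N),
          (m • D) P = P.ord (⟨coeffMap A.subtype Y1, h1.1⟩ : modularFunctionFieldBar N) -
            P.ord (⟨coeffMap A.subtype Y2, h2.1⟩ : modularFunctionFieldBar N)) →
        D ∈ Divisor.principal (K := AlgebraicClosure ℚ) (F := modularFunctionFieldBar N)) :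
    z = 0 := by
  obtain ⟨D, rfl⟩ := Pic0.mk_surjective z
  -- (B1) unfold the two hypotheses
  have hmD : (m • (D : Divisor (AlgebraicClosure ℚ) (modularFunctionFieldBar N))) ∈
      Divisor.principal (K := AlgebraicClosure ℚ) (F := modularFunctionFieldBar N) := by
    have h1 : (m • D : Divisor.degZero (K := AlgebraicClosure ℚ) (F := modularFunctionFieldBar N)) ∈
        (Divisor.principal (K := AlgebraicClosure ℚ) (F := modularFunctionFieldBar N)).addSubgroupOf
          (Divisor.degZero (K := AlgebraicClosure ℚ) (F := modularFunctionFieldBar N)) := by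
      rw [← QuotientAddGroup.eq_zero_iff]
      exact hmz
    rw [AddSubgroup.mem_addSubgroupOf, AddSubgroupClass.coe_nsmul] at h1
    exact h1
  have hrD : Finsupp.mapDomain (placeReductionModL h)
      (D : Divisor (AlgebraicClosure ℚ) (modularFunctionFieldBar N)) ∈
      Divisor.principal (K := IsLocalRing.ResidueField A)
        (F := modularFunctionFieldFullC (IsLocalRing.ResidueField A) N) := by
    rw [reductionModL_mk h D] at hz
    have h1 := (QuotientAddGroup.eq_zero_iff _).mp hz
    rw [AddSubgroup.mem_addSubgroupOf, coe_reductionDegZeroAlong] at h1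
    exact h1
  have hDdeg : Divisor.degree (D : Divisor (AlgebraicClosure ℚ) (modularFunctionFieldBar N)) = 0 :=
    D.2
  have hr := isPlaceReductionModL_placeReductionModL h
  -- (B2)-(B4): lift `ψ` and subtract its divisor
  obtain ⟨ψ, hψ0, hψ⟩ := hrD
  obtain ⟨Y1, hY1, Y2, hY2, hY2n, e⟩ := lift_ratio A N ψ.2
  have hY1n : coeffMap (IsLocalRing.residue A) Y1 ≠ 0 := by
    rw [← e]
    exact mul_ne_zero (fun h0 => hψ0 (Subtype.ext h0)) hY2n
  have hg1 : (⟨coeffMap A.subtype Y1, hY1.1⟩ : modularFunctionFieldBar N) ≠ 0 :=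
    fun h0 => coeffMap_subtype_ne_zero A hY1n (congrArg Subtype.val h0)
  have hg2 : (⟨coeffMap A.subtype Y2, hY2.1⟩ : modularFunctionFieldBar N) ≠ 0 :=
    fun h0 => coeffMap_subtype_ne_zero A hY2n (congrArg Subtype.val h0)
  obtain ⟨E1, hE1⟩ := hdivL _ hg1
  obtain ⟨E2, hE2⟩ := hdivL _ hg2
  have c1 := compat_gauss h hY1 hY1n E1 hE1
  have c2 := compat_gauss h hY2 hY2n E2 hE2
  have hk1 : (⟨coeffMap (IsLocalRing.residue A) Y1, hY1.2⟩ :
      modularFunctionFieldFullC (IsLocalRing.ResidueField A) N) ≠ 0 :=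
    fun h0 => hY1n (congrArg Subtype.val h0)
  have hk2 : (⟨coeffMap (IsLocalRing.residue A) Y2, hY2.2⟩ :
      modularFunctionFieldFullC (IsLocalRing.ResidueField A) N) ≠ 0 :=
    fun h0 => hY2n (congrArg Subtype.val h0)
  have hψeq : ψ = (⟨coeffMap (IsLocalRing.residue A) Y1, hY1.2⟩ :
      modularFunctionFieldFullC (IsLocalRing.ResidueField A) N) /
      ⟨coeffMap (IsLocalRing.residue A) Y2, hY2.2⟩ := by
    rw [eq_div_iff hk2]
    exact Subtype.ext e
  have hrE : Finsupp.mapDomain (placeReductionModL h) (E1 - E2) =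
      Finsupp.mapDomain (placeReductionModL h)
        (D : Divisor (AlgebraicClosure ℚ) (modularFunctionFieldBar N)) := by
    ext Q
    rw [Finsupp.mapDomain_sub, Finsupp.sub_apply, c1 Q, c2 Q, hψ Q, hψeq, ord_div _ hk1 hk2]
  have hdegE : Divisor.degree (E1 - E2) = 0 := by
    rw [← degree_mapDomain_of_deg_eq hr.1 (E1 - E2), hrE, degree_mapDomain_of_deg_eq hr.1, hDdeg]
  have hEprin : E1 - E2 ∈
      Divisor.principal (K := AlgebraicClosure ℚ) (F := modularFunctionFieldBar N) :=
    ⟨_ / _, div_ne_zero hg1 hg2, fun P => by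
      rw [Finsupp.sub_apply, hE1 P, hE2 P, ord_div P hg1 hg2]⟩
  have hD'r : Finsupp.mapDomain (placeReductionModL h)
      ((D : Divisor (AlgebraicClosure ℚ) (modularFunctionFieldBar N)) - (E1 - E2)) = 0 := by
    rw [Finsupp.mapDomain_sub, hrE, sub_self]
  have hD'deg : Divisor.degree
      ((D : Divisor (AlgebraicClosure ℚ) (modularFunctionFieldBar N)) - (E1 - E2)) = 0 := by
    rw [map_sub, hdegE, hDdeg, sub_zero]
  have hmD' : m • ((D : Divisor (AlgebraicClosure ℚ) (modularFunctionFieldBar N)) - (E1 - E2)) ∈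
      Divisor.principal (K := AlgebraicClosure ℚ) (F := modularFunctionFieldBar N) := by
    rw [smul_sub]
    exact AddSubgroup.sub_mem _ hmD (AddSubgroup.nsmul_mem _ hEprin m)
  -- (gen): `m D'` is `div W1 - div W2`
  have hgen := h.choose_spec.2 hmD'
  obtain ⟨W1, W2, hW1, hW2, F1, F2, n1, n2, d1, d2, hF⟩ := exists_gauss_pair_of_mem_closure hgen
  have cW1 := compat_gauss h hW1 n1 F1 d1
  have cW2 := compat_gauss h hW2 n2 F2 d2
  have hw1 : (⟨coeffMap (IsLocalRing.residue A) W1, hW1.2⟩ :
      modularFunctionFieldFullC (IsLocalRing.ResidueField A) N) ≠ 0 :=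
    fun h0 => n1 (congrArg Subtype.val h0)
  have hw2 : (⟨coeffMap (IsLocalRing.residue A) W2, hW2.2⟩ :
      modularFunctionFieldFullC (IsLocalRing.ResidueField A) N) ≠ 0 :=
    fun h0 => n2 (congrArg Subtype.val h0)
  have hu : ∀ Q : Place (IsLocalRing.ResidueField A)
      (modularFunctionFieldFullC (IsLocalRing.ResidueField A) N),
      Q.ord ((⟨coeffMap (IsLocalRing.residue A) W1, hW1.2⟩ :
        modularFunctionFieldFullC (IsLocalRing.ResidueField A) N) /
        ⟨coeffMap (IsLocalRing.residue A) W2, hW2.2⟩) = 0 := by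
    intro Q
    rw [ord_div Q hw1 hw2, ← cW1 Q, ← cW2 Q, ← Finsupp.sub_apply, ← Finsupp.mapDomain_sub, ← hF,
      Finsupp.mapDomain_smul, hD'r, smul_zero]
    rfl
  obtain ⟨c, hc⟩ := hconstk _ (div_ne_zero hw1 hw2) hu
  obtain ⟨a, rfl⟩ := IsLocalRing.residue_surjective c
  have ha0 : IsLocalRing.residue A a ≠ 0 := by
    intro h0
    rw [h0, map_zero] at hc
    exact div_ne_zero hw1 hw2 hc
  have ha : (a : AlgebraicClosure ℚ) ≠ 0 := by
    intro h0
    have : a = 0 := Subtype.ext h0
    rw [this, map_zero] at ha0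
    exact ha0 rfl
  have hW2' : HahnSeries.single (0 : ℤ) a * W2 ∈ gaussRing A N :=
    mul_mem (single_zero_mem_gaussRing A N a) hW2
  have hredeq : coeffMap (IsLocalRing.residue A) W1 =
      coeffMap (IsLocalRing.residue A) (HahnSeries.single (0 : ℤ) a * W2) := by
    rw [div_eq_iff hw2] at hc
    have hc' := congrArg Subtype.val hc
    rw [map_mul, coeffMap_single, ← algebraMap_laurentSeries_eq_single]
    exact hc'
  have hprin' := core _ hD'deg hD'r W1 (HahnSeries.single (0 : ℤ) a * W2) hW1 hW2' n1 hredeq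
    (fun P => by
      have e2 : (⟨coeffMap A.subtype (HahnSeries.single (0 : ℤ) a * W2), hW2'.1⟩ :
          modularFunctionFieldBar N) =
          algebraMap (AlgebraicClosure ℚ) (modularFunctionFieldBar N) (a : AlgebraicClosure ℚ) *
            ⟨coeffMap A.subtype W2, hW2.1⟩ := by
        apply Subtype.ext
        show coeffMap A.subtype (HahnSeries.single (0 : ℤ) a * W2) =
          algebraMap (AlgebraicClosure ℚ) (LaurentSeries (AlgebraicClosure ℚ)) a *
            coeffMap A.subtype W2
        rw [map_mul, coeffMap_single, algebraMap_laurentSeries_eq_single]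
        rfl
      have hW2L : (⟨coeffMap A.subtype W2, hW2.1⟩ : modularFunctionFieldBar N) ≠ 0 :=
        fun h0 => coeffMap_subtype_ne_zero A n2 (congrArg Subtype.val h0)
      rw [e2, Place.ord_mul P ((map_ne_zero _).mpr ha) hW2L, ord_algebraMap_eq_zero P ha, zero_add,
        hF, Finsupp.sub_apply, d1 P, d2 P])
  -- conclude
  have hD : (D : Divisor (AlgebraicClosure ℚ) (modularFunctionFieldBar N)) ∈
      Divisor.principal (K := AlgebraicClosure ℚ) (F := modularFunctionFieldBar N) := by
    have := AddSubgroup.add_mem _ hprin' hEprin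
    rwa [sub_add_cancel] at this
  exact (QuotientAddGroup.eq_zero_iff _).mpr hD

end Bridge

end

end Fermat.Agent.S18.H18
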