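/-
S18 helper (helper67): the "usual two-chart argument".

`F` an `A`-algebra, `x` a unit of `F` with inverse `y` (think `x = j`), `I₁` an `A[x]`-module generated
over `A[x]` by a finite set `G`, `I₂` an `A[1/x]`-module, `I₁₂ = I₁[1/x]`, and every `g ∈ G` lies in
`x^n I₂` for some `n`.  Then `I₁₂ = I₁ + I₂ + (finitely generated A-module)`; the finitely many extra
generators are of the form `y^k g`.

Mathlib only; no sorry.
-/
import Mathlib

set_option autoImplicit false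

namespace Fermat.Agent.S18.H67

/-- Two-chart finiteness: `I₁₂ ≤ I₁ ⊔ I₂ ⊔ span_A S` with `S` finite, consisting of elements
`y ^ k * g`, `g ∈ G`. -/
theorem cech_fg {A F : Type*} [CommRing A] [CommRing F] [Algebra A F]
    (x y : F) (hxy : x * y = 1)
    (I₁ I₂ I₁₂ : Submodule A F)
    (hxI₁ : ∀ z ∈ I₁, x * z ∈ I₁) (hyI₂ : ∀ z ∈ I₂, y * z ∈ I₂)
    (G : Finset F) (hGI₁ : ∀ g ∈ G, g ∈ I₁)
    (hG : ∀ z ∈ I₁, z ∈ Submodule.span A {w : F | ∃ k : ℕ, ∃ g ∈ G, w = x ^ k * g})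
    (h12 : ∀ z ∈ I₁₂, ∃ n : ℕ, x ^ n * z ∈ I₁)
    (hG2 : ∀ g ∈ G, ∃ n : ℕ, y ^ n * g ∈ I₂) :
    ∃ S : Finset F, (∀ s ∈ S, ∃ k : ℕ, ∃ g ∈ G, s = y ^ k * g) ∧
      ∀ z ∈ I₁₂, z ∈ I₁ ⊔ I₂ ⊔ Submodule.span A (S : Set F) := by
  classical
  -- powers
  have hxpow : ∀ (k : ℕ) (z : F), z ∈ I₁ → x ^ k * z ∈ I₁ := by
    intro k
    induction k with
    | zero => intro z hz; simpa using hz
    | succ k ih => intro z hz; rw [pow_succ, mul_assoc]; exact ih _ (hxI₁ z hz)
  have hypow : ∀ (k : ℕ) (z : F), z ∈ I₂ → y ^ k * z ∈ I₂ := by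
    intro k
    induction k with
    | zero => intro z hz; simpa using hz
    | succ k ih => intro z hz; rw [pow_succ, mul_assoc]; exact ih _ (hyI₂ z hz)
  have hxyk : ∀ k : ℕ, y ^ k * x ^ k = 1 := by
    intro k; rw [← mul_pow, mul_comm y x, hxy, one_pow]
  -- a uniform exponent
  obtain ⟨n1, hn1⟩ : ∃ n1 : ℕ, ∀ g ∈ G, y ^ n1 * g ∈ I₂ := by
    choose! e he using hG2
    refine ⟨G.sup e, fun g hg => ?_⟩
    have hle : e g ≤ G.sup e := Finset.le_sup hg
    obtain ⟨d, hd⟩ := Nat.exists_eq_add_of_le hle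
    rw [hd, add_comm, pow_add, mul_assoc]
    exact hypow d _ (he g hg)
  let S : Finset F := (Finset.range n1 ×ˢ G).image (fun p => y ^ p.1 * p.2)
  refine ⟨S, ?_, ?_⟩
  · intro s hs
    obtain ⟨p, hp, rfl⟩ := Finset.mem_image.mp hs
    exact ⟨p.1, p.2, (Finset.mem_product.mp hp).2, rfl⟩
  · intro z hz
    obtain ⟨n, hn⟩ := h12 z hz
    set T : Submodule A F := I₁ ⊔ I₂ ⊔ Submodule.span A (S : Set F) with hT
    have hI₁T : I₁ ≤ T := le_sup_of_le_left le_sup_left
    have hI₂T : I₂ ≤ T := le_sup_of_le_left le_sup_right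
    have hST : Submodule.span A (S : Set F) ≤ T := le_sup_right
    -- z = y^n * (x^n * z)
    have hz' : z = y ^ n * (x ^ n * z) := by rw [← mul_assoc, hxyk, one_mul]
    rw [hz']
    have hspan : Submodule.span A {w : F | ∃ k : ℕ, ∃ g ∈ G, w = x ^ k * g} ≤
        T.comap (LinearMap.mulLeft A (y ^ n)) := by
      rw [Submodule.span_le]
      rintro w ⟨k, g, hg, rfl⟩
      show y ^ n * (x ^ k * g) ∈ T
      rcases le_or_gt n k with hnk | hnk
      · -- k ≥ n : in I₁
        obtain ⟨d, rfl⟩ := Nat.exists_eq_add_of_le hnk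
        have : y ^ n * (x ^ (n + d) * g) = x ^ d * g := by
          rw [pow_add, ← mul_assoc, ← mul_assoc, hxyk, one_mul]
        rw [this]
        exact hI₁T (hxpow d g (hGI₁ g hg))
      · -- k < n
        obtain ⟨d, rfl⟩ := Nat.exists_eq_add_of_lt hnk
        have : y ^ (k + d + 1) * (x ^ k * g) = y ^ (d + 1) * g := by
          rw [show k + d + 1 = (d + 1) + k by ring, pow_add, mul_assoc, ← mul_assoc (y ^ k),
            hxyk, one_mul]
        rw [this]
        rcases le_or_gt n1 (d + 1) with h1 | h1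
        · obtain ⟨e, he⟩ := Nat.exists_eq_add_of_le h1
          rw [he, add_comm, pow_add, mul_assoc]
          exact hI₂T (hypow e _ (hn1 g hg))
        · apply hST
          apply Submodule.subset_span
          exact Finset.mem_coe.mpr (Finset.mem_image.mpr
            ⟨(d + 1, g), Finset.mem_product.mpr ⟨Finset.mem_range.mpr h1, hg⟩, rfl⟩)
    exact hspan (hG _ hn)

end Fermat.Agent.S18.H67
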