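/-
S18 helper (helper67): finite generation of the chart module `M_U` over `A[x]`.

`A` a domain with an element `a` such that every nonzero element divides a power of `a` (rank one),
`B` an `A`-algebra finite over `A[x]`.  If `u = 1 + a g` (`g ∈ B`) then `B / (u)` is a noetherian ring
(it is a finite module over `Frac(A)[X]`).  Consequently every `B`-submodule `M` of a field `F ⊇ B`
with a "base section" `s ∈ M` such that `u M ⊆ s B` is finitely generated over `B`, hence over `A[x]`.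

Mathlib only; no sorry.
-/
import Mathlib

set_option autoImplicit false

namespace Fermat.Agent.S18.H67

/-- If `a` becomes a unit modulo `I`, every nonzero element of `A` divides a power of `a`, and `B` is
generated as an `A`-module by the `x ^ k * g`, `g ∈ β`, then `B ⧸ I` is a noetherian ring. -/
theorem isNoetherianRing_quotient_of_finite {A B : Type*} [CommRing A] [IsDomain A] [CommRing B]
    [Algebra A B] (a : A) (harch : ∀ b : A, b ≠ 0 → ∃ n : ℕ, b ∣ a ^ n)
    (x : B) (β : Finset B)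
    (hβ : ∀ b : B, b ∈ Submodule.span A {w : B | ∃ k : ℕ, ∃ g ∈ β, w = x ^ k * g})
    (I : Ideal B) (hI : ∃ g : B, algebraMap A B a * g - 1 ∈ I) : IsNoetherianRing (B ⧸ I) := by
  classical
  let φ₀ : A →+* B ⧸ I := (Ideal.Quotient.mk I).comp (algebraMap A B)
  have ha_unit : IsUnit (φ₀ a) := by
    obtain ⟨g, hg⟩ := hI
    refine IsUnit.of_mul_eq_one (Ideal.Quotient.mk I g) ?_
    have h0 : Ideal.Quotient.mk I (algebraMap A B a * g - 1) = 0 :=
      Ideal.Quotient.eq_zero_iff_mem.mpr hg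
    rw [map_sub, map_mul, map_one, sub_eq_zero] at h0
    exact h0
  have hunits : ∀ y : nonZeroDivisors A, IsUnit (φ₀ y) := by
    intro y
    obtain ⟨n, c, hc⟩ := harch y (nonZeroDivisors.coe_ne_zero y)
    have h1 : IsUnit (φ₀ ((y : A) * c)) := by rw [← hc, map_pow]; exact ha_unit.pow n
    rw [map_mul] at h1
    exact isUnit_of_mul_isUnit_left h1
  let φ₁ : FractionRing A →+* B ⧸ I := IsLocalization.lift hunits
  let φ₂ : Polynomial (FractionRing A) →+* B ⧸ I :=
    Polynomial.eval₂RingHom φ₁ (Ideal.Quotient.mk I x)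
  let _ : Algebra (Polynomial (FractionRing A)) (B ⧸ I) := φ₂.toAlgebra
  have hfin : Module.Finite (Polynomial (FractionRing A)) (B ⧸ I) := by
    refine ⟨⟨β.image (Ideal.Quotient.mk I), ?_⟩⟩
    rw [eq_top_iff]
    rintro r -
    obtain ⟨b, rfl⟩ := Ideal.Quotient.mk_surjective r
    refine Submodule.span_induction
      (p := fun w _ => Ideal.Quotient.mk I w ∈ Submodule.span (Polynomial (FractionRing A))
        ((β.image (Ideal.Quotient.mk I) : Finset (B ⧸ I)) : Set (B ⧸ I))) ?_ ?_ ?_ ?_ (hβ b)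
    · rintro w ⟨k, g, hg, rfl⟩
      have h1 : Ideal.Quotient.mk I (x ^ k * g)
          = (Polynomial.X ^ k : Polynomial (FractionRing A)) • Ideal.Quotient.mk I g := by
        rw [Algebra.smul_def, RingHom.algebraMap_toAlgebra]
        simp [φ₂]
      rw [h1]
      refine Submodule.smul_mem _ _ (Submodule.subset_span ?_)
      exact Finset.mem_coe.mpr (Finset.mem_image_of_mem _ hg)
    · simp
    · intro w₁ w₂ _ _ h₁ h₂
      rw [map_add]; exact Submodule.add_mem _ h₁ h₂
    · intro c w _ hw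
      have h1 : Ideal.Quotient.mk I (c • w)
          = (Polynomial.C (algebraMap A (FractionRing A) c)) • Ideal.Quotient.mk I w := by
        rw [Algebra.smul_def, Algebra.smul_def, RingHom.algebraMap_toAlgebra]
        simp [φ₂, φ₁, φ₀]
      rw [h1]; exact Submodule.smul_mem _ _ hw
  exact IsNoetherianRing.of_finite (Polynomial (FractionRing A)) (B ⧸ I)

/-- An ideal containing a finitely generated ideal with noetherian quotient is finitely generated. -/
theorem ideal_fg_of_le_of_noeth {B : Type*} [CommRing B] (I J : Ideal B)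
    [IsNoetherianRing (B ⧸ I)] (hI : I.FG) (hIJ : I ≤ J) : J.FG := by
  refine Ideal.fg_of_fg_map_of_fg_inf_ker_of_surjective (f := Ideal.Quotient.mk I) ?_ ?_
    Ideal.Quotient.mk_surjective
  · exact IsNoetherian.noetherian _
  · rw [Ideal.mk_ker, inf_eq_right.mpr hIJ]; exact hI

/-- **Chart finiteness.** `B` finite over `A[x]`, `M ⊆ F` a `B`-module, `s ∈ M` and `u = 1 + a g ≠ 0`
with `u M ⊆ s B`.  Then `M` is generated over `A[x]` by finitely many elements. -/
theorem fg_of_base_section {A F : Type*} [CommRing A] [IsDomain A] [Field F] [Algebra A F]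
    (a : A) (harch : ∀ b : A, b ≠ 0 → ∃ n : ℕ, b ∣ a ^ n)
    (x : F) (B : Subalgebra A F) (hxB : x ∈ B)
    (β : Finset F) (hβB : ∀ g ∈ β, g ∈ B)
    (hβ : ∀ b ∈ B, b ∈ Submodule.span A {w : F | ∃ k : ℕ, ∃ g ∈ β, w = x ^ k * g})
    (M : Submodule A F) (hBM : ∀ b ∈ B, ∀ z ∈ M, b * z ∈ M)
    (s u g : F) (hg : g ∈ B) (hu : u = 1 + algebraMap A F a * g) (hu0 : u ≠ 0)
    (huM : ∀ z ∈ M, ∃ b ∈ B, u * z = s * b) (hs : s ∈ M) :
    ∃ G : Finset F, (∀ g ∈ G, g ∈ M) ∧
      ∀ z ∈ M, z ∈ Submodule.span A {w : F | ∃ k : ℕ, ∃ g ∈ G, w = x ^ k * g} := by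
  classical
  have huB : u ∈ B := by
    rw [hu]; exact B.add_mem B.one_mem (B.mul_mem (B.algebraMap_mem a) hg)
  let uB : B := ⟨u, huB⟩
  let xB : B := ⟨x, hxB⟩
  let βB : Finset B := β.attach.image (fun g => (⟨g.1, hβB g.1 g.2⟩ : B))
  -- `B` finite over `A[x]`, stated inside `B`
  have hβ' : ∀ b : B, b ∈ Submodule.span A {w : B | ∃ k : ℕ, ∃ g ∈ βB, w = xB ^ k * g} := by
    intro b
    have h1 : (b : F) ∈ Submodule.span A {w : F | ∃ k : ℕ, ∃ g ∈ β, w = x ^ k * g} := hβ b b.2
    have h2 : {w : F | ∃ k : ℕ, ∃ g ∈ β, w = x ^ k * g}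
        = B.val.toLinearMap '' {w : B | ∃ k : ℕ, ∃ g ∈ βB, w = xB ^ k * g} := by
      ext w; constructor
      · rintro ⟨k, g0, hg0, rfl⟩
        refine ⟨xB ^ k * ⟨g0, hβB g0 hg0⟩, ⟨k, ⟨g0, hβB g0 hg0⟩, ?_, rfl⟩, by simp [xB]⟩
        exact Finset.mem_image.mpr ⟨⟨g0, hg0⟩, Finset.mem_attach _ _, rfl⟩
      · rintro ⟨w', ⟨k, g', hg', rfl⟩, rfl⟩
        obtain ⟨g0, -, rfl⟩ := Finset.mem_image.mp hg'
        exact ⟨k, g0.1, g0.2, by simp [xB]⟩
    rw [h2, ← Submodule.map_span] at h1
    obtain ⟨b', hb', hbb'⟩ := h1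
    have hb : b' = b := Subtype.ext hbb'
    exact hb ▸ hb'
  have hnoeth : IsNoetherianRing (B ⧸ Ideal.span {uB}) := by
    refine isNoetherianRing_quotient_of_finite a harch xB βB hβ' _ ⟨-⟨g, hg⟩, ?_⟩
    have h1 : algebraMap A B a * -(⟨g, hg⟩ : B) - 1 = -uB := by
      apply Subtype.ext
      simp only [uB, hu]
      push_cast
      ring
    rw [h1]; exact (Ideal.span {uB}).neg_mem (Ideal.subset_span rfl)
  -- the ideal `J = (u / s) M` of `B`
  let J : Ideal B :=
    { carrier := {b | ∃ z ∈ M, u * z = s * (b : F)}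
      add_mem' := by
        rintro b₁ b₂ ⟨z₁, hz₁, h₁⟩ ⟨z₂, hz₂, h₂⟩
        refine ⟨z₁ + z₂, M.add_mem hz₁ hz₂, ?_⟩
        push_cast; rw [mul_add, mul_add, h₁, h₂]
      zero_mem' := ⟨0, M.zero_mem, by simp⟩
      smul_mem' := by
        rintro c b ⟨z, hz, h⟩
        refine ⟨c * z, hBM c c.2 z hz, ?_⟩
        show u * ((c : F) * z) = s * ((c * b : B) : F)
        push_cast; rw [mul_left_comm, h]; ring }
  have huJ : Ideal.span {uB} ≤ J := by
    rw [Ideal.span_singleton_le_iff_mem]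
    exact ⟨s, hs, mul_comm _ _⟩
  obtain ⟨T, hT⟩ := ideal_fg_of_le_of_noeth (Ideal.span {uB}) J ⟨{uB}, by simp⟩ huJ
  have hTz : ∀ t : B, t ∈ T → ∃ z ∈ M, u * z = s * (t : F) := by
    intro t ht
    have h1 : t ∈ J := hT ▸ Ideal.subset_span (Finset.mem_coe.mpr ht)
    exact h1
  choose! zt hztM hzt using hTz
  let Z : Finset F := T.image zt
  let G : Finset F := (β ×ˢ Z).image (fun p => p.1 * p.2)
  refine ⟨G, ?_, ?_⟩
  · intro g' hg'
    obtain ⟨p, hp, rfl⟩ := Finset.mem_image.mp hg'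
    obtain ⟨hp1, hp2⟩ := Finset.mem_product.mp hp
    obtain ⟨t, ht, htz⟩ := Finset.mem_image.mp hp2
    rw [← htz]
    exact hBM _ (hβB _ hp1) _ (hztM t ht)
  · set SG : Submodule A F := Submodule.span A {w : F | ∃ k : ℕ, ∃ g ∈ G, w = x ^ k * g} with hSG
    set S' : Submodule A F := Submodule.span A {w : F | ∃ b ∈ B, ∃ z ∈ Z, w = b * z} with hS'
    -- `S' ≤ SG`
    have hS'SG : S' ≤ SG := by
      rw [hS', Submodule.span_le]
      rintro w ⟨b, hb, z, hz, rfl⟩
      have h1 := hβ b hb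
      have hle : Submodule.span A {w : F | ∃ k : ℕ, ∃ g ∈ β, w = x ^ k * g}
          ≤ SG.comap (LinearMap.mulRight A z) := by
        rw [Submodule.span_le]
        rintro w ⟨k, g0, hg0, rfl⟩
        show x ^ k * g0 * z ∈ SG
        apply Submodule.subset_span
        exact ⟨k, g0 * z,
          Finset.mem_image.mpr ⟨(g0, z), Finset.mem_product.mpr ⟨hg0, hz⟩, rfl⟩, by ring⟩
      exact hle h1
    -- `S'` is stable under `B`
    have hBS' : ∀ c ∈ B, ∀ w ∈ S', c * w ∈ S' := by
      intro c hc w hw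
      have hle : S' ≤ S'.comap (LinearMap.mulLeft A c) := by
        rw [hS', Submodule.span_le]
        rintro w ⟨b, hb, z, hz, rfl⟩
        show c * (b * z) ∈ Submodule.span A {w : F | ∃ b ∈ B, ∃ z ∈ Z, w = b * z}
        apply Submodule.subset_span
        exact ⟨c * b, B.mul_mem hc hb, z, hz, by ring⟩
      exact hle hw
    have key : ∀ b : B, b ∈ Ideal.span (T : Set B) → s * (b : F) / u ∈ S' := by
      intro b hb
      refine Submodule.span_induction (p := fun (b : B) _ => s * (b : F) / u ∈ S') ?_ ?_ ?_ ?_ hb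
      · intro t ht
        have h1 : s * (t : F) / u = 1 * zt t := by
          rw [one_mul, div_eq_iff hu0, mul_comm (zt t) u]
          exact (hzt t (Finset.mem_coe.mp ht)).symm
        rw [h1]
        apply Submodule.subset_span
        exact ⟨1, B.one_mem, zt t, Finset.mem_image_of_mem _ (Finset.mem_coe.mp ht), rfl⟩
      · simp
      · intro b₁ b₂ _ _ h₁ h₂
        have h1 : s * ((b₁ + b₂ : B) : F) / u = s * (b₁ : F) / u + s * (b₂ : F) / u := by
          push_cast; ring
        rw [h1]; exact S'.add_mem h₁ h₂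
      · intro c b _ h
        have h1 : s * ((c • b : B) : F) / u = (c : F) * (s * (b : F) / u) := by
          rw [smul_eq_mul]; push_cast; ring
        rw [h1]; exact hBS' c c.2 _ h
    intro z hz
    obtain ⟨b, hb, hbz⟩ := huM z hz
    have hbJ : (⟨b, hb⟩ : B) ∈ Ideal.span (T : Set B) := by
      rw [hT]; exact ⟨z, hz, hbz⟩
    have h1 := key ⟨b, hb⟩ hbJ
    have h2 : z = s * b / u := by
      rw [eq_div_iff hu0, mul_comm z u]; exact hbz
    rw [h2]; exact hS'SG h1

end Fermat.Agent.S18.H67
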