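import Mathlib
import Fermat.Prelude.Def_AlgebraicCurve_DivisorPushPull
import Fermat.Agent.S24.FundId_b_helper92

/-!
# S18, node CFE (helper89): constant field extensions are unramified

Setting: fields `K0 ≤ K` (`K` separable algebraic over `K0`), function fields `F0 / K0` and
`F / K` with `F = K · F0`.  For every place `v` of `F / K` the restriction of `v` to `F0` has
ramification index one: a uniformiser of `v ∩ F0` is a uniformiser of `v`.  Consequently
`ord` is preserved by restriction, every place of `F0 / K0` is the restriction of a place of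
`F / K` (given that nontrivial valuation subrings of `F` over `K` are places), and divisibility
statements on the orders at all places of `F / K` descend to the places of `F0 / K0`.

The proof is elementary (no different, no discriminant): for `θ ∈ K` with separable minimal
polynomial `g` over `K0` and `r = ρ(θ)`, `ρ ∈ O[X]`, of positive order, write
`gcd(ρ̄, ḡ) = δ`, `ḡ = δ ν`; a lift `N` of `ν` has `N(θ)` a unit and `r · N(θ) ∈ τ · O[θ]`.
-/

set_option autoImplicit false
set_option linter.unusedSectionVars false
set_option linter.unusedVariables false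
set_option linter.style.longLine false

namespace Fermat.Agent.S18.H89

open AlgebraicCurve Polynomial
open scoped IntermediateField

noncomputable section

/-! ### The abstract reduction step -/

section Abstract

variable {O V kO kV : Type*} [CommRing O] [CommRing V] [Field kO] [Field kV]

/-- A polynomial over `O` whose reduction vanishes is divisible by `τ`, if `τ` generates the
kernel of the reduction map. -/
theorem exists_eq_C_mul_of_map_eq_zero (resO : O →+* kO) (τ : O)
    (hτ : ∀ a : O, resO a = 0 → ∃ b, a = τ * b) (P : O[X]) (hP : P.map resO = 0) :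
    ∃ T : O[X], P = C τ * T := by
  have h1 : P ∈ RingHom.ker (Polynomial.mapRingHom resO) := by
    rw [RingHom.mem_ker, coe_mapRingHom]; exact hP
  rw [Polynomial.ker_mapRingHom] at h1
  have h2 : (RingHom.ker resO).map (C : O →+* O[X]) ≤ Ideal.span {C τ} := by
    rw [Ideal.map_le_iff_le_comap]
    intro a ha
    obtain ⟨b, rfl⟩ := hτ a ha
    rw [Ideal.mem_comap, map_mul]
    exact Ideal.mul_mem_right _ _ (Ideal.subset_span rfl)
  obtain ⟨T, hT⟩ := Ideal.mem_span_singleton'.mp (h2 h1)
  exact ⟨T, by rw [← hT, mul_comm]⟩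

/-- **Key step.**  `φ : O → V` compatible with reductions `resO`, `resV` through `ι`;
`θ ∈ V` a root of `gO ∈ O[X]` whose reduction is separable.  If `ρ(θ)` reduces to zero then
`ρ(θ) · N(θ) = φ τ · T(θ)` with `N(θ)` of nonzero reduction. -/
theorem key_step (φ : O →+* V) (resO : O →+* kO) (resV : V →+* kV) (ι : kO →+* kV)
    (hcomm : ∀ a, resV (φ a) = ι (resO a)) (hsurj : Function.Surjective resO)
    (τ : O) (hτ : ∀ a : O, resO a = 0 → ∃ b, a = τ * b)
    (θ : V) (gO : O[X]) (hg : eval₂ φ θ gO = 0) (hsep : (gO.map resO).Separable)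
    (ρ : O[X]) (hρ : resV (eval₂ φ θ ρ) = 0) :
    ∃ N T : O[X], resV (eval₂ φ θ N) ≠ 0 ∧
      eval₂ φ θ ρ * eval₂ φ θ N = φ τ * eval₂ φ θ T := by
  classical
  -- evaluation of reduced polynomials at the reduction of `θ`
  have hE : ∀ P : O[X], resV (eval₂ φ θ P) = eval₂ ι (resV θ) (P.map resO) := by
    intro P
    rw [Polynomial.hom_eval₂, Polynomial.eval₂_map]
    congr 1
    ext a
    exact hcomm a
  set ρb := ρ.map resO with hρb
  set gb := gO.map resO with hgb
  set δ := EuclideanDomain.gcd ρb gb with hδ
  obtain ⟨σ, hσ⟩ : δ ∣ ρb := EuclideanDomain.gcd_dvd_left ρb gb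
  obtain ⟨ν, hν⟩ : δ ∣ gb := EuclideanDomain.gcd_dvd_right ρb gb
  have hcop : IsCoprime δ ν := by
    have : (δ * ν).Separable := hν ▸ hsep
    exact this.isCoprime
  obtain ⟨N, hN⟩ := Polynomial.map_surjective resO hsurj ν
  obtain ⟨S, hS⟩ := Polynomial.map_surjective resO hsurj σ
  have hzero : (ρ * N - S * gO).map resO = 0 := by
    rw [Polynomial.map_sub, Polynomial.map_mul, Polynomial.map_mul, hN, hS, ← hρb, ← hgb, hσ, hν]
    ring
  obtain ⟨T, hT⟩ := exists_eq_C_mul_of_map_eq_zero resO τ hτ _ hzero
  refine ⟨N, T, ?_, ?_⟩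
  · intro hN0
    have e1 : eval₂ ι (resV θ) ρb = 0 := by rw [hρb, ← hE]; exact hρ
    have e2 : eval₂ ι (resV θ) gb = 0 := by rw [hgb, ← hE, hg, map_zero]
    have e3 : eval₂ ι (resV θ) ν = 0 := by rw [← hN, ← hE]; exact hN0
    have e4 : eval₂ ι (resV θ) δ = 0 := by
      rw [hδ, EuclideanDomain.gcd_eq_gcd_ab, eval₂_add, eval₂_mul, eval₂_mul, e1, e2]
      ring
    obtain ⟨a, b, hab⟩ := hcop
    have := congrArg (eval₂ ι (resV θ)) hab
    rw [eval₂_add, eval₂_mul, eval₂_mul, e3, e4, eval₂_one] at this
    simp at this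
  · have := congrArg (eval₂ φ θ) hT
    rw [eval₂_sub, eval₂_mul, eval₂_mul, hg, mul_zero, sub_zero, eval₂_mul, eval₂_C] at this
    exact this

end Abstract

/-! ### Places over a smaller constant field -/

section Base

variable (K0 : Type*) {K F : Type*} [Field K0] [Field K] [Field F]
  [Algebra K0 K] [Algebra K F] [Algebra K0 F] [IsScalarTower K0 K F]

/-- A place of `F / K` viewed as a place of `F / K0` for a smaller constant field `K0`. -/
def toBase (v : Place K F) : Place K0 F where
  toValuationSubring := v.toValuationSubring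
  algebraMap_mem' a := by
    rw [IsScalarTower.algebraMap_apply K0 K F]
    exact v.algebraMap_mem' _
  ne_top' := v.ne_top'
  isPrincipalIdealRing' := v.isPrincipalIdealRing'

@[simp]
theorem toBase_toValuationSubring (v : Place K F) :
    (toBase K0 v).toValuationSubring = v.toValuationSubring := rfl

theorem toBase_ord (v : Place K F) (f : F) : (toBase K0 v).ord f = v.ord f := rfl

end Base

/-! ### The ramification index of a constant field extension is one -/

section Main

variable {K0 K F0 F : Type*} [Field K0] [Field K] [Field F0] [Field F]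
  [Algebra K0 K] [Algebra K0 F0] [Algebra K F] [Algebra F0 F] [Algebra K0 F]
  [IsScalarTower K0 K F] [IsScalarTower K0 F0 F] [Algebra.IsIntegral F0 F]

open Fermat.Agent.S24

/-- A polynomial with coefficients in a valuation subring comes from a polynomial over it. -/
theorem exists_map_subtype_eq (A : ValuationSubring F0) (Q : F0[X]) (h : ∀ i, Q.coeff i ∈ A) :
    ∃ ρ : (↥A)[X], ρ.map A.subtype = Q := by
  classical
  refine ⟨∑ i ∈ Q.support, monomial i (⟨Q.coeff i, h i⟩ : ↥A), ?_⟩
  ext n
  rw [coeff_map, finsetSum_coeff]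
  simp only [coeff_monomial]
  rw [Finset.sum_ite_eq']
  split_ifs with hn
  · rfl
  · rw [map_zero]
    exact (notMem_support_iff.mp hn).symm

variable (w : Place K0 F)

/-- Uniformiser data for the restricted place `w ∩ F0`. -/
theorem exists_uniformiser_restrict :
    ∃ g0 : F0, g0 ≠ 0 ∧
      w.ord (algebraMap F0 F g0) = Place.ramificationIndex (F := F0) w ∧
      (w.restrict F0).ord g0 = 1 := by
  obtain ⟨g0, hg0, hge⟩ := Place.exists_ord_eq_ramificationIndex (F := F0) w
  have hepos : 0 < Place.ramificationIndex (F := F0) w := Place.ramificationIndex_pos (F := F0) w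
  refine ⟨g0, hg0, hge, ?_⟩
  have h := w.ord_restrict (F := F0) g0
  rw [hge] at h
  have he : (Place.ramificationIndex (F := F0) w : ℤ) ≠ 0 := by exact_mod_cast hepos.ne'
  have h' : (Place.ramificationIndex (F := F0) w : ℤ) * 1 =
      (Place.ramificationIndex (F := F0) w : ℤ) * (w.restrict F0).ord g0 := by
    rw [mul_one]; exact h
  exact (mul_left_cancel₀ he h').symm

/-- The maximal ideal of the restricted place is generated by any element of order one. -/
theorem exists_eq_mul_of_residue_eq_zero {g0 : F0} (hg0 : g0 ≠ 0)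
    (hord : (w.restrict F0).ord g0 = 1)
    (hmem : g0 ∈ (w.restrict F0).toValuationSubring)
    (a : (w.restrict F0).toValuationSubring)
    (ha : IsLocalRing.residue (w.restrict F0).toValuationSubring a = 0) :
    ∃ b : (w.restrict F0).toValuationSubring, a = ⟨g0, hmem⟩ * b := by
  rcases eq_or_ne a 0 with rfl | ha0
  · exact ⟨0, by rw [mul_zero]⟩
  have hnu : ¬ IsUnit a := by
    rw [IsLocalRing.residue_eq_zero_iff] at ha
    exact (IsLocalRing.mem_maximalIdeal a).mp ha
  have h0 : 0 ≤ (w.restrict F0).ord (a : F0) := H92.ord_nonneg_of_mem _ a.2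
  have h1 : (w.restrict F0).ord (a : F0) ≠ 0 := fun h =>
    hnu ((H92.ord_eq_zero_iff_isUnit _ a ha0).mp h)
  have ha0' : (a : F0) ≠ 0 := fun h => ha0 (Subtype.ext h)
  have hdiv : (a : F0) * g0⁻¹ ∈ (w.restrict F0).toValuationSubring := by
    apply H92.mem_of_ord_nonneg
    rw [Place.ord_mul _ ha0' (inv_ne_zero hg0), Place.ord_inv, hord]
    omega
  refine ⟨⟨(a : F0) * g0⁻¹, hdiv⟩, Subtype.ext ?_⟩
  show (a : F0) = g0 * ((a : F0) * g0⁻¹)
  field_simp

/-- **Induction.**  Every nonzero value `ρ(θ)`, `ρ ∈ O[X]`, has order divisible by the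
ramification index `e` of `w` over `F0`. -/
theorem dvd_ord_eval₂ (θF : w.toValuationSubring)
    (gO : Polynomial (w.restrict F0).toValuationSubring)
    (hg : eval₂ (Place.restrictInclusion F0 w) θF gO = 0)
    (hsep : (gO.map (IsLocalRing.residue (w.restrict F0).toValuationSubring)).Separable) :
    ∀ (n : ℕ) (ρ : Polynomial (w.restrict F0).toValuationSubring),
      eval₂ (Place.restrictInclusion F0 w) θF ρ ≠ 0 →
      w.ord ((eval₂ (Place.restrictInclusion F0 w) θF ρ : w.toValuationSubring) : F) = n →
      (Place.ramificationIndex (F := F0) w : ℤ) ∣ n := by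
  obtain ⟨g0, hg0, hge, hord1⟩ := exists_uniformiser_restrict (F0 := F0) w
  have hepos : 0 < Place.ramificationIndex (F := F0) w := Place.ramificationIndex_pos (F := F0) w
  have hmem : g0 ∈ (w.restrict F0).toValuationSubring := by
    apply H92.mem_of_ord_nonneg; rw [hord1]; exact zero_le_one
  intro n
  induction n using Nat.strong_induction_on with
  | _ n ih =>
    intro ρ hne hn
    set r := eval₂ (Place.restrictInclusion F0 w) θF ρ with hr
    by_cases hu : IsUnit r
    · have h0 : w.ord (r : F) = 0 := (H92.ord_eq_zero_iff_isUnit w r hne).mpr hu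
      rw [h0] at hn
      have : n = 0 := by exact_mod_cast hn.symm
      rw [this]
      exact dvd_zero _
    · have hres : IsLocalRing.residue w.toValuationSubring r = 0 := by
        rw [IsLocalRing.residue_eq_zero_iff]
        exact (IsLocalRing.mem_maximalIdeal r).mpr hu
      obtain ⟨N, T, hN, hEq⟩ := key_step (Place.restrictInclusion F0 w)
        (IsLocalRing.residue (w.restrict F0).toValuationSubring)
        (IsLocalRing.residue w.toValuationSubring) (Place.restrictResidueMap F0 w)
        (fun a => (Place.restrictResidueMap_residue w a).symm)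
        IsLocalRing.residue_surjective ⟨g0, hmem⟩
        (fun a ha => exists_eq_mul_of_residue_eq_zero w hg0 hord1 hmem a ha)
        θF gO hg hsep ρ hres
      set rN := eval₂ (Place.restrictInclusion F0 w) θF N with hrN
      set rT := eval₂ (Place.restrictInclusion F0 w) θF T with hrT
      have hNu : IsUnit rN := by
        by_contra hnu
        apply hN
        rw [IsLocalRing.residue_eq_zero_iff]
        exact (IsLocalRing.mem_maximalIdeal rN).mpr hnu
      have hN0 : rN ≠ 0 := hNu.ne_zero
      have hNord : w.ord (rN : F) = 0 := (H92.ord_eq_zero_iff_isUnit w rN hN0).mpr hNu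
      have hT0 : rT ≠ 0 := by
        intro hT0
        rw [hT0, mul_zero] at hEq
        exact (mul_ne_zero hne hN0) hEq
      have hEqF : (r : F) * (rN : F) = algebraMap F0 F g0 * (rT : F) := by
        have := congrArg (Subtype.val) hEq
        exact this
      have hr0 : (r : F) ≠ 0 := fun h => hne (Subtype.ext h)
      have hrN0 : (rN : F) ≠ 0 := fun h => hN0 (Subtype.ext h)
      have hrT0 : (rT : F) ≠ 0 := fun h => hT0 (Subtype.ext h)
      have hg0F : algebraMap F0 F g0 ≠ 0 := by simpa using hg0
      have hords := congrArg w.ord hEqF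
      rw [Place.ord_mul _ hr0 hrN0, Place.ord_mul _ hg0F hrT0, hNord, hge, hn, add_zero] at hords
      have hTnn : 0 ≤ w.ord (rT : F) := H92.ord_nonneg_of_mem w rT.2
      obtain ⟨n', hn'⟩ := Int.eq_ofNat_of_zero_le hTnn
      have hlt : n' < n := by omega
      have hdvd := ih n' hlt T hT0 hn'
      rw [hords, hn']
      exact dvd_add (dvd_refl _) hdvd

end Main

section Final

variable {K0 K F0 F : Type*} [Field K0] [Field K] [Field F0] [Field F]
  [Algebra K0 K] [Algebra K0 F0] [Algebra K F] [Algebra F0 F] [Algebra K0 F]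
  [IsScalarTower K0 K F] [IsScalarTower K0 F0 F] [Algebra.IsIntegral F0 F]

open Fermat.Agent.S24

/-- For `θ ∈ K` separable over `K0`, every nonzero element of `F0(θ)` has order divisible by
the ramification index of `v` over `F0`. -/
theorem dvd_ord_of_mem_adjoin_simple (v : Place K F) (θ : K) (hθ : (minpoly K0 θ).Separable)
    {z : F} (hz : z ∈ F0⟮algebraMap K F θ⟯) (hz0 : z ≠ 0) :
    (Place.ramificationIndex (F := F0) (toBase K0 v) : ℤ) ∣ v.ord z := by
  classical
  set w := toBase K0 v with hw
  obtain ⟨g0, hg0, hge, hord1⟩ := exists_uniformiser_restrict (F0 := F0) w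
  -- `θ` as an element of the valuation ring
  let θF : w.toValuationSubring := ⟨algebraMap K F θ, v.algebraMap_mem' θ⟩
  -- the minimal polynomial over `O`
  let gO : Polynomial (w.restrict F0).toValuationSubring :=
    (minpoly K0 θ).map (algebraMap K0 (w.restrict F0).toValuationSubring)
  have hgO : eval₂ (Place.restrictInclusion F0 w) θF gO = 0 := by
    apply Subtype.ext
    have h1 : ((eval₂ (Place.restrictInclusion F0 w) θF gO : w.toValuationSubring) : F)
        = eval₂ (algebraMap K0 F) (algebraMap K F θ) (minpoly K0 θ) := by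
      rw [show ((eval₂ (Place.restrictInclusion F0 w) θF gO : w.toValuationSubring) : F)
          = w.toValuationSubring.subtype (eval₂ (Place.restrictInclusion F0 w) θF gO) from rfl,
        Polynomial.hom_eval₂, Polynomial.eval₂_map]
      congr 1
      ext c
      show algebraMap F0 F (algebraMap K0 F0 c) = algebraMap K0 F c
      exact (IsScalarTower.algebraMap_apply K0 F0 F c).symm
    rw [h1, IsScalarTower.algebraMap_eq K0 K F, ← Polynomial.hom_eval₂, ← Polynomial.aeval_def,
      minpoly.aeval, map_zero]
    rfl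
  have hsep : (gO.map (IsLocalRing.residue (w.restrict F0).toValuationSubring)).Separable := by
    rw [Polynomial.map_map]
    exact hθ.map
  -- `z = P(θ)`
  have halg : IsAlgebraic F0 (algebraMap K F θ) :=
    (Algebra.IsIntegral.isIntegral (R := F0) (algebraMap K F θ)).isAlgebraic
  have hz' : z ∈ Algebra.adjoin F0 {algebraMap K F θ} := by
    rw [← IntermediateField.adjoin_simple_toSubalgebra_of_isAlgebraic halg]
    exact hz
  rw [Algebra.adjoin_singleton_eq_range_aeval] at hz'
  obtain ⟨P, hP⟩ := hz'
  have hP' : aeval (algebraMap K F θ) P = z := hP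
  -- clear denominators
  set k := P.support.sup (fun i => (-((w.restrict F0).ord (P.coeff i))).toNat) with hk
  have hcoef : ∀ i, (C (g0 ^ k) * P).coeff i ∈ (w.restrict F0).toValuationSubring := by
    intro i
    rw [coeff_C_mul]
    by_cases hi : P.coeff i = 0
    · rw [hi, mul_zero]; exact zero_mem _
    · apply H92.mem_of_ord_nonneg
      rw [Place.ord_mul _ (pow_ne_zero _ hg0) hi, ← zpow_natCast, Place.ord_zpow, hord1, mul_one]
      have hle : (-((w.restrict F0).ord (P.coeff i))).toNat ≤ k :=
        Finset.le_sup (f := fun i => (-((w.restrict F0).ord (P.coeff i))).toNat)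
          (mem_support_iff.mpr hi)
      omega
  obtain ⟨ρ, hρ⟩ := exists_map_subtype_eq _ _ hcoef
  have hval : ((eval₂ (Place.restrictInclusion F0 w) θF ρ : w.toValuationSubring) : F)
      = (algebraMap F0 F g0) ^ k * z := by
    rw [← hP', show ((eval₂ (Place.restrictInclusion F0 w) θF ρ : w.toValuationSubring) : F)
        = w.toValuationSubring.subtype (eval₂ (Place.restrictInclusion F0 w) θF ρ) from rfl,
      Polynomial.hom_eval₂]
    have hcomp : (w.toValuationSubring.subtype).comp (Place.restrictInclusion F0 w)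
        = (algebraMap F0 F).comp ((w.restrict F0).toValuationSubring.subtype) := by
      ext a; rfl
    rw [hcomp, ← Polynomial.eval₂_map, hρ, eval₂_mul, eval₂_C, map_pow, ← Polynomial.aeval_def]
    rfl
  have hg0F : algebraMap F0 F g0 ≠ 0 := by simpa using hg0
  have hne : eval₂ (Place.restrictInclusion F0 w) θF ρ ≠ 0 := by
    intro h0
    have := congrArg (Subtype.val) h0
    rw [hval] at this
    exact (mul_ne_zero (pow_ne_zero _ hg0F) hz0) this
  have hnn : 0 ≤ w.ord ((eval₂ (Place.restrictInclusion F0 w) θF ρ : w.toValuationSubring) : F) :=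
    H92.ord_nonneg_of_mem w (Subtype.property _)
  obtain ⟨n, hn⟩ := Int.eq_ofNat_of_zero_le hnn
  have hdvd := dvd_ord_eval₂ w θF gO hgO hsep n ρ hne hn
  rw [← hn, hval, Place.ord_mul _ (pow_ne_zero _ hg0F) hz0, ← zpow_natCast, Place.ord_zpow,
    hge] at hdvd
  have h2 : (Place.ramificationIndex (F := F0) w : ℤ) ∣
      (k : ℤ) * (Place.ramificationIndex (F := F0) w : ℤ) := dvd_mul_left _ _
  exact (Int.dvd_add_right h2).mp hdvd

/-- **Constant field extensions are unramified** (elementwise-generation form). -/
theorem ramificationIndex_eq_one_of_forall_mem [Algebra.IsSeparable K0 K]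
    (hgen : ∀ z : F, ∃ θ : K, z ∈ F0⟮algebraMap K F θ⟯) (v : Place K F) :
    Place.ramificationIndex (F := F0) (toBase K0 v) = 1 := by
  obtain ⟨t, ht⟩ := H92.exists_ord_eq_one v
  have ht0 : t ≠ 0 := H92.ord_ne_zero_of_one v ht
  obtain ⟨θ, hθ⟩ := hgen t
  have h := dvd_ord_of_mem_adjoin_simple (K0 := K0) (F0 := F0) v θ
    (Algebra.IsSeparable.isSeparable K0 θ) hθ ht0
  rw [ht] at h
  have hepos : 0 < Place.ramificationIndex (F := F0) (toBase K0 v) :=
    Place.ramificationIndex_pos (F := F0) _
  have := Int.le_of_dvd one_pos h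
  omega

/-- `F` is integral over `F0` if it is generated over `F0` by constants algebraic over `K0`. -/
theorem isIntegral_of_adjoin_eq_top {K0 K F0 F : Type*} [Field K0] [Field K] [Field F0] [Field F]
    [Algebra K0 K] [Algebra K0 F0] [Algebra K F] [Algebra F0 F] [Algebra K0 F]
    [IsScalarTower K0 K F] [IsScalarTower K0 F0 F] [Algebra.IsAlgebraic K0 K]
    (hgen : IntermediateField.adjoin F0 (Set.range (algebraMap K F)) = ⊤) :
    Algebra.IsIntegral F0 F := by
  have hS : ∀ x ∈ Set.range (algebraMap K F), IsIntegral F0 x := by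
    rintro _ ⟨c, rfl⟩
    have h1 : IsIntegral K0 c := Algebra.IsIntegral.isIntegral c
    have h2 : IsIntegral K0 (algebraMap K F c) := h1.map (IsScalarTower.toAlgHom K0 K F)
    exact h2.tower_top
  have halg := IntermediateField.isAlgebraic_adjoin hS
  refine ⟨fun z => ?_⟩
  have hz : z ∈ IntermediateField.adjoin F0 (Set.range (algebraMap K F)) := by
    rw [hgen]; trivial
  have h3 : IsAlgebraic F0
      (⟨z, hz⟩ : IntermediateField.adjoin F0 (Set.range (algebraMap K F))) :=
    Algebra.IsAlgebraic.isAlgebraic _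
  have h4 : IsAlgebraic F0 (algebraMap
      (IntermediateField.adjoin F0 (Set.range (algebraMap K F))) F ⟨z, hz⟩) :=
    h3.algebraMap
  exact h4.isIntegral

omit [Algebra.IsIntegral F0 F] in
/-- If `F = F0 · K` with `K / K0` separable algebraic, every element of `F` lies in `F0(θ)`
for a single constant `θ ∈ K` (primitive element theorem). -/
theorem exists_mem_adjoin_simple [Algebra.IsSeparable K0 K]
    (hgen : IntermediateField.adjoin F0 (Set.range (algebraMap K F)) = ⊤) (z : F) :
    ∃ θ : K, z ∈ F0⟮algebraMap K F θ⟯ := by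
  classical
  have hz : z ∈ IntermediateField.adjoin F0 (Set.range (algebraMap K F)) := by
    rw [hgen]; trivial
  obtain ⟨T, hTS, hzT⟩ := IntermediateField.exists_finset_of_mem_adjoin hz
  rw [← Set.image_univ] at hTS
  obtain ⟨T', -, hT'⟩ := Finset.subset_set_image_iff.mp hTS
  let K1 : IntermediateField K0 K := IntermediateField.adjoin K0 (T' : Set K)
  have : FiniteDimensional K0 K1 :=
    IntermediateField.finiteDimensional_adjoin (fun x _ => Algebra.IsIntegral.isIntegral x)
  obtain ⟨α, hα⟩ := Field.exists_primitive_element K0 K1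
  refine ⟨(α : K), ?_⟩
  have hK1 : K0⟮(α : K)⟯ = K1 := by
    have := congrArg IntermediateField.lift hα
    rwa [IntermediateField.lift_adjoin_simple, IntermediateField.lift_top] at this
  -- the constants mapping into `F0(θ)` form an intermediate field containing `θ`
  let L : IntermediateField K0 K :=
    ((F0⟮algebraMap K F (α : K)⟯).restrictScalars K0).comap (IsScalarTower.toAlgHom K0 K F)
  have hαL : (α : K) ∈ L := by
    show algebraMap K F (α : K) ∈ F0⟮algebraMap K F (α : K)⟯
    exact IntermediateField.mem_adjoin_simple_self F0 _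
  have hle : K1 ≤ L := by
    rw [← hK1, IntermediateField.adjoin_simple_le_iff]
    exact hαL
  have hT : (T : Set F) ⊆ F0⟮algebraMap K F (α : K)⟯ := by
    intro t ht
    rw [← hT'] at ht
    obtain ⟨t', ht', rfl⟩ := Finset.mem_image.mp (Finset.mem_coe.mp ht)
    have : t' ∈ L := hle (IntermediateField.subset_adjoin K0 _ (Finset.mem_coe.mpr ht'))
    exact this
  exact (IntermediateField.adjoin_le_iff.mpr hT) hzT

/-- **Constant field extensions are unramified.** -/
theorem ramificationIndex_eq_one [Algebra.IsSeparable K0 K]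
    (hgen : IntermediateField.adjoin F0 (Set.range (algebraMap K F)) = ⊤) (v : Place K F) :
    Place.ramificationIndex (F := F0) (toBase K0 v) = 1 :=
  ramificationIndex_eq_one_of_forall_mem (exists_mem_adjoin_simple (K0 := K0) hgen) v

variable (K0 F0) in
/-- The restriction of a place of `F / K` to `F0 / K0`. -/
def restrictConst (v : Place K F) : Place K0 F0 := (toBase K0 v).restrict F0

omit [Algebra.IsIntegral F0 F] in
theorem mem_restrictConst_iff [Algebra.IsIntegral F0 F] (v : Place K F) (f : F0) :
    f ∈ (restrictConst K0 F0 v).toValuationSubring ↔ algebraMap F0 F f ∈ v.toValuationSubring :=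
  Iff.rfl

/-- Restriction along a constant field extension preserves `ord` (no ramification factor). -/
theorem ord_restrictConst [Algebra.IsSeparable K0 K]
    (hgen : IntermediateField.adjoin F0 (Set.range (algebraMap K F)) = ⊤) (v : Place K F)
    (f : F0) : (restrictConst K0 F0 v).ord f = v.ord (algebraMap F0 F f) := by
  have h := (toBase K0 v).ord_restrict (F := F0) f
  rw [ramificationIndex_eq_one (K0 := K0) hgen v, Nat.cast_one, one_mul] at h
  exact h.symm

variable (K0) in
/-- There is `τ ∈ F0` which is a uniformiser of `v`. -/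
theorem exists_ord_eq_one [Algebra.IsSeparable K0 K]
    (hgen : IntermediateField.adjoin F0 (Set.range (algebraMap K F)) = ⊤) (v : Place K F) :
    ∃ τ : F0, v.ord (algebraMap F0 F τ) = 1 := by
  obtain ⟨τ, hτ⟩ := H92.exists_ord_eq_one (restrictConst K0 F0 v)
  exact ⟨τ, by rw [← ord_restrictConst (K0 := K0) hgen v, hτ]⟩

variable (K0) in
/-- **Every place of `F0 / K0` is the restriction of a place of `F / K`** (Chevalley), given
that the nontrivial valuation subrings of `F` containing `K` are places. -/
theorem exists_restrictConst_eq [Algebra.IsAlgebraic K0 K]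
    (hDVR : ∀ V : ValuationSubring F, (∀ c : K, algebraMap K F c ∈ V) → V ≠ ⊤ →
      ∃ v : Place K F, v.toValuationSubring = V)
    (u : Place K0 F0) : ∃ v : Place K F, restrictConst K0 F0 v = u := by
  classical
  obtain ⟨t0, ht0⟩ := H92.exists_ord_eq_one u
  have ht00 : t0 ≠ 0 := H92.ord_ne_zero_of_one u ht0
  have ht0mem : t0 ∈ u.toValuationSubring := by
    apply H92.mem_of_ord_nonneg; rw [ht0]; exact zero_le_one
  -- the image of the valuation ring of `u` in `F`
  let A : Subring F := u.toValuationSubring.toSubring.map (algebraMap F0 F)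
  have hA : ∀ f : F0, f ∈ u.toValuationSubring → algebraMap F0 F f ∈ A :=
    fun f hf => ⟨f, hf, rfl⟩
  let tA : A := ⟨algebraMap F0 F t0, hA t0 ht0mem⟩
  have hI : Ideal.span {tA} ≠ ⊤ := by
    intro htop
    rw [Ideal.span_singleton_eq_top] at htop
    obtain ⟨⟨b, hb⟩, hb1⟩ := isUnit_iff_exists_inv.mp htop
    obtain ⟨b0, hb0, rfl⟩ := hb
    have h1 : algebraMap F0 F t0 * algebraMap F0 F b0 = 1 := congrArg Subtype.val hb1
    rw [← map_mul] at h1
    have h2 : t0 * b0 = 1 := (algebraMap F0 F).injective (by rw [h1, map_one])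
    have hb00 : b0 ≠ 0 := by
      rintro rfl
      rw [mul_zero] at h2
      exact zero_ne_one h2
    have h3 := congrArg u.ord h2
    rw [Place.ord_mul _ ht00 hb00, ht0, Place.ord_one] at h3
    have h4 : 0 ≤ u.ord b0 := H92.ord_nonneg_of_mem u hb0
    omega
  obtain ⟨B, hAB, hIB⟩ := Ideal.image_subset_nonunits_valuationSubring (Ideal.span {tA}) hI
  have htB : algebraMap F0 F t0 ∈ B.nonunits :=
    hIB ⟨tA, Ideal.subset_span rfl, rfl⟩
  -- `B` contains `K0`, hence `K`
  have hK0 : ∀ c : K0, algebraMap K0 F c ∈ B.toSubring := by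
    intro c
    rw [IsScalarTower.algebraMap_apply K0 F0 F]
    exact hAB (hA _ (u.algebraMap_mem' c))
  have hK : ∀ c : K, algebraMap K F c ∈ B := by
    intro c
    let _ : Algebra K0 B := ((algebraMap K0 F).codRestrict B.toSubring hK0).toAlgebra
    have _ : IsScalarTower K0 B F := IsScalarTower.of_algebraMap_eq fun _ => rfl
    have h1 : IsIntegral K0 (algebraMap K F c) :=
      (Algebra.IsIntegral.isIntegral c).map (IsScalarTower.toAlgHom K0 K F)
    have h2 : IsIntegral B (algebraMap K F c) := h1.tower_top
    obtain ⟨y, hy⟩ := IsIntegrallyClosed.isIntegral_iff.mp h2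
    exact hy ▸ y.2
  have hne : B ≠ ⊤ := by
    intro htop
    have h1 : (algebraMap F0 F t0)⁻¹ ∈ B := by rw [htop]; trivial
    rcases B.mem_nonunits_iff_or.mp htB with h | h
    · exact (by simpa using ht00 : algebraMap F0 F t0 ≠ 0) h
    · exact h h1
  obtain ⟨v, hv⟩ := hDVR B hK hne
  refine ⟨v, ?_⟩
  refine (H92.eq_of_le (v := restrictConst K0 F0 v) (v' := u) ?_).symm
  intro f hf
  show algebraMap F0 F f ∈ v.toValuationSubring
  rw [hv]
  exact hAB (hA f hf)

variable (K0) in
/-- **Divisibility of orders descends** from the places of `F / K` to the places of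
`F0 / K0`. -/
theorem dvd_ord_of_forall_place [Algebra.IsSeparable K0 K]
    (hgen : IntermediateField.adjoin F0 (Set.range (algebraMap K F)) = ⊤)
    (hDVR : ∀ V : ValuationSubring F, (∀ c : K, algebraMap K F c ∈ V) → V ≠ ⊤ →
      ∃ v : Place K F, v.toValuationSubring = V)
    (m : ℤ) (x : F0) (h : ∀ v : Place K F, m ∣ v.ord (algebraMap F0 F x)) (u : Place K0 F0) :
    m ∣ u.ord x := by
  obtain ⟨v, rfl⟩ := exists_restrictConst_eq K0 hDVR u
  rw [ord_restrictConst (K0 := K0) hgen v]
  exact h v

end Final

/-! ### Unramifiedness descends -/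

section Unramified

open Fermat.Agent.S24

variable {K F : Type*} [Field K] [Field F] [Algebra K F]

/-- Nonzero constants have order zero. -/
theorem ord_algebraMap (v : Place K F) (c : K) : v.ord (algebraMap K F c) = 0 := by
  rcases eq_or_ne c 0 with rfl | hc
  · simp
  have h1 : 0 ≤ v.ord (algebraMap K F c) := H92.ord_nonneg_of_mem v (v.algebraMap_mem' c)
  have h2 : 0 ≤ v.ord (algebraMap K F c⁻¹) := H92.ord_nonneg_of_mem v (v.algebraMap_mem' c⁻¹)
  rw [map_inv₀, Place.ord_inv] at h2
  omega

/-- `ord` of a product of nonzero elements. -/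
theorem ord_multiset_prod (v : Place K F) (s : Multiset F) (hs : ∀ f ∈ s, f ≠ 0) :
    v.ord s.prod = (s.map v.ord).sum := by
  induction s using Multiset.induction with
  | empty => simp
  | cons a s ih =>
    have ha : a ≠ 0 := hs a (Multiset.mem_cons_self a s)
    have hs' : ∀ f ∈ s, f ≠ 0 := fun f hf => hs f (Multiset.mem_cons_of_mem hf)
    have hp : s.prod ≠ 0 := Multiset.prod_ne_zero (fun h => hs' 0 h rfl)
    rw [Multiset.prod_cons, Place.ord_mul _ ha hp, ih hs', Multiset.map_cons, Multiset.sum_cons]

/-- If `f` has positive order and `c` is a nonzero constant, `f + c` has order zero. -/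
theorem ord_add_algebraMap_eq_zero (v : Place K F) {f : F} (hf : 0 < v.ord f) {c : K}
    (hc : c ≠ 0) : v.ord (f + algebraMap K F c) = 0 := by
  have hf0 : f ≠ 0 := by rintro rfl; simp at hf
  have hfm : f ∈ v.toValuationSubring := H92.mem_of_ord_nonneg v hf.le
  have hcm : algebraMap K F c ∈ v.toValuationSubring := v.algebraMap_mem' c
  have hc0 : algebraMap K F c ≠ 0 := by simpa using hc
  have hfn : ¬ IsUnit (⟨f, hfm⟩ : v.toValuationSubring) := by
    intro hu
    have := (H92.ord_eq_zero_iff_isUnit v ⟨f, hfm⟩ (fun h => hf0 (congrArg Subtype.val h))).mpr hu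
    change v.ord f = 0 at this
    omega
  have hcu : IsUnit (⟨algebraMap K F c, hcm⟩ : v.toValuationSubring) :=
    (H92.ord_eq_zero_iff_isUnit v ⟨_, hcm⟩ (fun h => hc0 (congrArg Subtype.val h))).mp
      (ord_algebraMap v c)
  have hsum : IsUnit ((⟨f, hfm⟩ : v.toValuationSubring) + ⟨algebraMap K F c, hcm⟩) := by
    by_contra hn
    have h1 : (⟨f, hfm⟩ : v.toValuationSubring) + ⟨algebraMap K F c, hcm⟩ ∈
        IsLocalRing.maximalIdeal v.toValuationSubring := (IsLocalRing.mem_maximalIdeal _).mpr hn
    have h2 : (⟨f, hfm⟩ : v.toValuationSubring) ∈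
        IsLocalRing.maximalIdeal v.toValuationSubring := (IsLocalRing.mem_maximalIdeal _).mpr hfn
    have h3 := (IsLocalRing.maximalIdeal v.toValuationSubring).sub_mem h1 h2
    rw [add_sub_cancel_left] at h3
    exact (IsLocalRing.mem_maximalIdeal _).mp h3 hcu
  have hne : (⟨f, hfm⟩ : v.toValuationSubring) + ⟨algebraMap K F c, hcm⟩ ≠ 0 := hsum.ne_zero
  exact (H92.ord_eq_zero_iff_isUnit v _ hne).mpr hsum

/-- **Orders of `τ(x)` over an algebraically closed constant field.**  If `τ ∈ K[X]` is
separable, `x ∈ F` and `τ(x)` has positive order at `v`, then there is a unique root `a` of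
`τ` with `ord_v (x - a) > 0`, and `ord_v τ(x) = ord_v (x - a)`. -/
theorem exists_root_ord_eq [IsAlgClosed K] (v : Place K F) (τ : K[X]) (hτ : τ.Separable)
    (x : F) (hpos : 0 < v.ord (aeval x τ)) :
    ∃ a : K, τ.eval a = 0 ∧ v.ord (aeval x τ) = v.ord (x - algebraMap K F a) := by
  classical
  have hτ0 : τ ≠ 0 := hτ.ne_zero
  have hlc : τ.leadingCoeff ≠ 0 := leadingCoeff_ne_zero.mpr hτ0
  have hfac := (IsAlgClosed.splits τ).eq_prod_roots
  have hval : aeval x τ = algebraMap K F τ.leadingCoeff *
      (τ.roots.map (fun a => x - algebraMap K F a)).prod := by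
    conv_lhs => rw [hfac]
    rw [map_mul, aeval_C, map_multiset_prod, Multiset.map_map]
    congr 2
    refine Multiset.map_congr rfl (fun a _ => ?_)
    simp
  have hne : aeval x τ ≠ 0 := by
    intro h; rw [h] at hpos; simp at hpos
  have hprod : (τ.roots.map (fun a => x - algebraMap K F a)).prod ≠ 0 := by
    intro h; rw [hval, h, mul_zero] at hne; exact hne rfl
  have hfact : ∀ f ∈ τ.roots.map (fun a => x - algebraMap K F a), f ≠ 0 := by
    intro f hf h0
    exact hprod (Multiset.prod_eq_zero (h0 ▸ hf))
  have hord : v.ord (aeval x τ) =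
      ((τ.roots.map (fun a => x - algebraMap K F a)).map v.ord).sum := by
    rw [hval, Place.ord_mul _ (by simpa using hlc) hprod, ord_algebraMap, zero_add,
      ord_multiset_prod v _ hfact]
  rw [Multiset.map_map] at hord
  -- some root has positive order
  have hex : ∃ a ∈ τ.roots, 0 < v.ord (x - algebraMap K F a) := by
    by_contra hcon
    push Not at hcon
    have hnp : ∀ s : Multiset ℤ, (∀ y ∈ s, y ≤ 0) → s.sum ≤ 0 := by
      intro s
      induction s using Multiset.induction with
      | empty => simp
      | cons b s ih =>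
        intro h
        rw [Multiset.sum_cons]
        have h1 := h b (Multiset.mem_cons_self b s)
        have h2 := ih (fun y hy => h y (Multiset.mem_cons_of_mem hy))
        omega
    have : ((τ.roots.map (v.ord ∘ fun a => x - algebraMap K F a))).sum ≤ 0 := by
      apply hnp
      intro y hy
      obtain ⟨a, ha, rfl⟩ := Multiset.mem_map.mp hy
      exact hcon a ha
    omega
  obtain ⟨a0, ha0, hpos0⟩ := hex
  refine ⟨a0, (mem_roots hτ0).mp ha0, ?_⟩
  have hnodup : τ.roots.Nodup := nodup_roots hτ
  rw [hord, ← Multiset.cons_erase ha0, Multiset.map_cons, Multiset.sum_cons]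
  have hrest : ((τ.roots.erase a0).map (v.ord ∘ fun a => x - algebraMap K F a)).sum = 0 := by
    apply Multiset.sum_eq_zero
    intro y hy
    obtain ⟨a, ha, rfl⟩ := Multiset.mem_map.mp hy
    have hane : a ≠ a0 := (hnodup.mem_erase_iff.mp ha).1
    have hc : a0 - a ≠ 0 := sub_ne_zero.mpr (Ne.symm hane)
    have := ord_add_algebraMap_eq_zero v hpos0 hc
    rw [map_sub] at this
    show v.ord (x - algebraMap K F a) = 0
    rw [← this]
    congr 1
    ring
  rw [hrest, add_zero]
  rfl

end Unramified

section UnramifiedDescent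

variable {K0 K F0 F : Type*} [Field K0] [Field K] [Field F0] [Field F]
  [Algebra K0 K] [Algebra K0 F0] [Algebra K F] [Algebra F0 F] [Algebra K0 F]
  [IsScalarTower K0 K F] [IsScalarTower K0 F0 F] [Algebra.IsIntegral F0 F]

/-- **Unramifiedness descends** from `F / K` (`K` algebraically closed) to `F0 / K0`:
if every place of `F / K` over a point `x = a` with `Π(a) ≠ 0` is unramified over the
`x`-line, then for every separable `τ ∈ K0[X]` coprime to `Π` and every place `u` of
`F0 / K0` with `ord_u τ(x) > 0` one has `ord_u τ(x) = 1`. -/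
theorem ord_aeval_eq_one_of_unramified [IsAlgClosed K] [Algebra.IsSeparable K0 K]
    (hgen : IntermediateField.adjoin F0 (Set.range (algebraMap K F)) = ⊤)
    (hDVR : ∀ V : ValuationSubring F, (∀ c : K, algebraMap K F c ∈ V) → V ≠ ⊤ →
      ∃ v : Place K F, v.toValuationSubring = V)
    (x : F0) (τ Pi : K0[X]) (hτ : τ.Separable) (hcop : IsCoprime τ Pi)
    (hunr : ∀ (v : Place K F) (a : K), (Pi.map (algebraMap K0 K)).eval a ≠ 0 →
      0 < v.ord (algebraMap F0 F x - algebraMap K F a) →
      v.ord (algebraMap F0 F x - algebraMap K F a) = 1)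
    (u : Place K0 F0) (hpos : 0 < u.ord (aeval x τ)) : u.ord (aeval x τ) = 1 := by
  obtain ⟨v, rfl⟩ := exists_restrictConst_eq K0 hDVR u
  rw [ord_restrictConst (K0 := K0) hgen v] at hpos ⊢
  have hmap : algebraMap F0 F (aeval x τ)
      = aeval (algebraMap F0 F x) (τ.map (algebraMap K0 K)) := by
    rw [aeval_map_algebraMap, aeval_algebraMap_apply]
  rw [hmap] at hpos ⊢
  obtain ⟨a, ha, hord⟩ := exists_root_ord_eq v (τ.map (algebraMap K0 K)) hτ.map _ hpos
  rw [hord] at hpos ⊢
  refine hunr v a ?_ hpos
  intro hPi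
  obtain ⟨p, q, hpq⟩ := hcop
  have := congrArg (fun r => (r.map (algebraMap K0 K)).eval a) hpq
  simp only [Polynomial.map_add, Polynomial.map_mul, eval_add, eval_mul, ha, hPi, mul_zero,
    add_zero, Polynomial.map_one, eval_one] at this
  exact zero_ne_one this

end UnramifiedDescent

end

end Fermat.Agent.S18.H89
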