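import Mathlib
import Fermat.Agent.S18.GaussDVR_helper93

/-!
# S18: canonical Gauss valuation ring of `L(j(q^d) : d ∣ N)` (helper93)

Named objects for the consumers of the GAUSS node (no `∃ b` / `GaussData` at the call site):

* `gaussWFull L N A ℓ hℓN : ValuationSubring ↥(modularFunctionFieldFullC L N)`,
  `gaussRhoFull L N A ℓ hℓN : gaussWFull … →+* ↥(modularFunctionFieldFullC κ N)` (surjective);
* the RATIO description (convention (c3) of the S18 board):
  `y ∈ gaussWFull ↔ ∃ Y1 Y2 : LaurentSeries A, red Y2 ≠ 0 ∧ y * iota Y2 = iota Y1`, and then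
  `rho y * red Y2 = red Y1`;
* over a DVR: `pi` generates the maximal ideal, and the chart statement `gauss_chart_full`.
-/

set_option autoImplicit false

noncomputable section

open HahnSeries ModularCurve Polynomial
open Fermat.Agent.S28

namespace Fermat.Agent.S18.H93

section Ratio

variable {L : Type*} [Field L] {A : ValuationSubring L}
variable {F : IntermediateField L (LaurentSeries L)}
variable {Fk : IntermediateField (IsLocalRing.ResidueField A)
  (LaurentSeries (IsLocalRing.ResidueField A))}
variable {J : LaurentSeries A} {n : ℕ} {b : Fin n → LaurentSeries A}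

/-- **Ratio form of the Gauss ring** (no membership condition on the denominator). -/
theorem mem_gaussW_iff_ratio (hD : GaussData A F Fk J b) (y : F) :
    y ∈ gaussW hD ↔ ∃ Y1 Y2 : LaurentSeries A, redA A Y2 ≠ 0 ∧
      (y : LaurentSeries L) * iotaA A Y2 = iotaA A Y1 := by
  constructor
  · rintro ⟨u, g, -, hu, h⟩
    exact ⟨g, u, hu, by rw [mul_comm]; exact h⟩
  · rintro ⟨Y1, Y2, h2, h⟩
    by_cases hy0 : y = 0
    · rw [hy0]
      exact (gaussW hD).zero_mem
    rcases (gaussW hD).mem_or_inv_mem y with hy | hy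
    · exact hy
    by_cases hρ : gaussRho hD ⟨y⁻¹, hy⟩ = 0
    · exfalso
      obtain ⟨a, x', ha, hx'⟩ := (gaussRho_eq_zero_iff hD ⟨y⁻¹, hy⟩).mp hρ
      obtain ⟨u, g, -, hu, hug⟩ := x'.2
      have hyL : (y : LaurentSeries L) ≠ 0 := fun h0 => hy0 (Subtype.ext h0)
      have hinv : (y : LaurentSeries L) * (HahnSeries.C (a : L) * ((x' : F) : LaurentSeries L))
          = 1 := by
        rw [← hx']
        show (y : LaurentSeries L) * (y : LaurentSeries L)⁻¹ = 1
        exact mul_inv_cancel₀ hyL
      have h3 : Y2 * u = Y1 * (HahnSeries.C a * g) := by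
        apply iotaA_injective A
        rw [map_mul, map_mul, map_mul, coeffMap_C, ← h, ← hug]
        show iotaA A Y2 * iotaA A u = (y : LaurentSeries L) * iotaA A Y2 *
          (HahnSeries.C (a : L) * (iotaA A u * ((x' : F) : LaurentSeries L)))
        have h4 : (y : LaurentSeries L) * iotaA A Y2 *
            (HahnSeries.C (a : L) * (iotaA A u * ((x' : F) : LaurentSeries L))) =
            iotaA A Y2 * iotaA A u *
              ((y : LaurentSeries L) * (HahnSeries.C (a : L) * ((x' : F) : LaurentSeries L))) := by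
          ring
        rw [h4, hinv, mul_one]
      have h5 := congrArg (redA A) h3
      rw [map_mul, map_mul, map_mul, coeffMap_C, ha, map_zero, zero_mul, mul_zero] at h5
      rcases mul_eq_zero.mp h5 with h6 | h6
      · exact h2 h6
      · exact hu h6
    · have := inv_mem_gaussW_of_rho_ne_zero hD ⟨y⁻¹, hy⟩ hρ
      rwa [inv_inv] at this

/-- The reduction in ratio form. -/
theorem coe_gaussRho_mul (hD : GaussData A F Fk J b) (y : gaussW hD) (Y1 Y2 : LaurentSeries A)
    (h2 : redA A Y2 ≠ 0) (h : ((y : F) : LaurentSeries L) * iotaA A Y2 = iotaA A Y1) :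
    ((gaussRho hD y : Fk) : LaurentSeries (IsLocalRing.ResidueField A)) * redA A Y2 =
      redA A Y1 := by
  rw [coe_gaussRho, rhoL_eq _ Y2 Y1 h2 (by rw [mul_comm]; exact h), div_mul_cancel₀ _ h2]

variable [IsDiscreteValuationRing A]

/-- `gauss_chart` for a coordinate given as an element of `F` with an integral expansion. -/
theorem gauss_chart' (hD : GaussData A F Fk J b) {pi : A} (hpi : Irreducible pi) (x : F)
    (xA : LaurentSeries A) (hxA : (x : LaurentSeries L) = iotaA A xA)
    (hxtr : ∀ P : Polynomial (IsLocalRing.ResidueField A), evC P (redA A xA) = 0 → P = 0)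
    (hJx : jElt hD ∈ IntermediateField.adjoin L {x})
    (y : F) (hy : (chartHom A x).IsIntegralElem y) :
    y ∈ gaussW hD ∧ ∀ w ∈ gaussW hD, y = constHom A F pi * w →
      (chartHom A x).IsIntegralElem w := by
  have hx : iotaA A xA ∈ F := hxA ▸ x.2
  obtain rfl : x = ⟨iotaA A xA, hx⟩ := Subtype.ext hxA
  exact gauss_chart hD hpi xA hx hxtr hJx y hy

end Ratio

section Full

variable (L : Type*) [Field L] [CharZero L] (N : ℕ) [NeZero N] (A : ValuationSubring L)
  (ℓ : ℕ) [Fact ℓ.Prime] [CharP (IsLocalRing.ResidueField A) ℓ] (hℓN : ¬ ℓ ∣ N)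

/-- A chosen family of `ψ(N)` integral monomials with independent reductions. -/
def fullB : Fin (dedekindPsi N) → LaurentSeries ℤ := (gaussData_full L N A ℓ hℓN).choose

theorem fullB_mem (i : Fin (dedekindPsi N)) :
    fullB L N A ℓ hℓN i ∈ Submonoid.closure (H72.gensZ N) :=
  (gaussData_full L N A ℓ hℓN).choose_spec.1 i

/-- The Gauss data of `modularFunctionFieldFullC L N`. -/
theorem fullData : GaussData A (modularFunctionFieldFullC L N)
    (modularFunctionFieldFullC (IsLocalRing.ResidueField A) N) (jqModC A)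
    (fun i => coeffMap (Int.castRingHom A) (fullB L N A ℓ hℓN i)) :=
  (gaussData_full L N A ℓ hℓN).choose_spec.2

/-- **The Gauss valuation ring** of `L(j(q^d) : d ∣ N)` with respect to `A`. -/
def gaussWFull : ValuationSubring ↥(modularFunctionFieldFullC L N) :=
  gaussW (fullData L N A ℓ hℓN)

/-- **The Gauss reduction** onto `κ(j(q^d) : d ∣ N)`. -/
def gaussRhoFull : gaussWFull L N A ℓ hℓN →+*
    ↥(modularFunctionFieldFullC (IsLocalRing.ResidueField A) N) :=
  gaussRho (fullData L N A ℓ hℓN)

/-- (c3): the Gauss ring is the ring of ratios of integral series with nonzero reduction of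
the denominator. -/
theorem mem_gaussWFull_iff (y : ↥(modularFunctionFieldFullC L N)) :
    y ∈ gaussWFull L N A ℓ hℓN ↔ ∃ Y1 Y2 : LaurentSeries A, redA A Y2 ≠ 0 ∧
      (y : LaurentSeries L) * iotaA A Y2 = iotaA A Y1 :=
  mem_gaussW_iff_ratio (fullData L N A ℓ hℓN) y

/-- The Gauss reduction of a ratio is the ratio of the reductions. -/
theorem coe_gaussRhoFull_mul (y : gaussWFull L N A ℓ hℓN) (Y1 Y2 : LaurentSeries A)
    (h2 : redA A Y2 ≠ 0)
    (h : ((y : ↥(modularFunctionFieldFullC L N)) : LaurentSeries L) * iotaA A Y2 = iotaA A Y1) :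
    ((gaussRhoFull L N A ℓ hℓN y : ↥(modularFunctionFieldFullC (IsLocalRing.ResidueField A) N)) :
      LaurentSeries (IsLocalRing.ResidueField A)) * redA A Y2 = redA A Y1 :=
  coe_gaussRho_mul (fullData L N A ℓ hℓN) y Y1 Y2 h2 h

include hℓN in
/-- (G3) The reduction of an integral series of the function field lies in the function field
over the residue field. -/
theorem red_mem_fullC (Y : LaurentSeries A) (hY : iotaA A Y ∈ modularFunctionFieldFullC L N) :
    redA A Y ∈ modularFunctionFieldFullC (IsLocalRing.ResidueField A) N :=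
  (fullData L N A ℓ hℓN).red_mem Y hY

/-- Integral series of the function field lie in the Gauss ring ... -/
theorem iota_mem_gaussWFull (Y : LaurentSeries A)
    (hY : iotaA A Y ∈ modularFunctionFieldFullC L N) :
    (⟨iotaA A Y, hY⟩ : ↥(modularFunctionFieldFullC L N)) ∈ gaussWFull L N A ℓ hℓN :=
  iota_mem_gaussW (fullData L N A ℓ hℓN) Y hY

/-- ... and their Gauss reduction is the coefficientwise reduction. -/
theorem gaussRhoFull_iota (Y : LaurentSeries A)
    (hY : iotaA A Y ∈ modularFunctionFieldFullC L N) :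
    gaussRhoFull L N A ℓ hℓN ⟨⟨iotaA A Y, hY⟩, iota_mem_gaussWFull L N A ℓ hℓN Y hY⟩ =
      ⟨redA A Y, red_mem_fullC L N A ℓ hℓN Y hY⟩ :=
  gaussRho_iota (fullData L N A ℓ hℓN) Y hY

include hℓN in
/-- (G4) An integral series of the function field with zero reduction is divisible by a
non-unit constant. -/
theorem exists_dvd_of_red_eq_zero_full (Y : LaurentSeries A)
    (hY : iotaA A Y ∈ modularFunctionFieldFullC L N) (hred : redA A Y = 0) :
    ∃ (a : A) (Y' : LaurentSeries A), IsLocalRing.residue A a = 0 ∧ Y = HahnSeries.C a * Y' :=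
  (fullData L N A ℓ hℓN).exists_dvd_of_red_eq_zero Y hY hred

/-- The Gauss reduction is onto the function field over the residue field. -/
theorem gaussRhoFull_surjective : Function.Surjective (gaussRhoFull L N A ℓ hℓN) := by
  refine gaussRho_surjective (fullData L N A ℓ hℓN)
    (divisorExpansionsC (IsLocalRing.ResidueField A) N) ?_ le_rfl
  rintro z ⟨d, hd, hdN, rfl⟩
  refine ⟨coeffMap (Int.castRingHom A) (qExpand ℤ d (jqModC ℤ)), ?_, ?_⟩
  · have h1 : iotaA A (coeffMap (Int.castRingHom A) (qExpand ℤ d (jqModC ℤ))) =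
        coeffMap (Int.castRingHom L) (qExpand ℤ d (jqModC ℤ)) := by
      rw [coeffMap_coeffMap]
      exact coeffMap_congr (RingHom.ext_int _ _) _
    rw [h1]
    exact coeffMap_int_mem_full L N (Submonoid.subset_closure (H72.mem_gensZ hdN))
  · have h1 : redA A (coeffMap (Int.castRingHom A) (qExpand ℤ d (jqModC ℤ))) =
        coeffMap (Int.castRingHom (IsLocalRing.ResidueField A)) (qExpand ℤ d (jqModC ℤ)) := by
      rw [coeffMap_coeffMap]
      exact coeffMap_congr (RingHom.ext_int _ _) _
    rw [h1, H72.coeffMap_qExpand_jqModC]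

/-- An element of the Gauss ring is a non-unit iff its reduction vanishes. -/
theorem mem_nonunits_gaussWFull_iff (x : gaussWFull L N A ℓ hℓN) :
    (x : ↥(modularFunctionFieldFullC L N)) ∈ (gaussWFull L N A ℓ hℓN).nonunits ↔
      gaussRhoFull L N A ℓ hℓN x = 0 :=
  mem_nonunits_gaussW_iff (fullData L N A ℓ hℓN) x

/-- `j` as an element of the function field. -/
def jFullC : ↥(modularFunctionFieldFullC L N) := ⟨jqModC L, jqModC_mem_full L N⟩

theorem jElt_fullData : jElt (fullData L N A ℓ hℓN) = jFullC L N :=
  Subtype.ext (coeffMap_jqModC _)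

variable [IsDiscreteValuationRing A] {pi : A} (hpi : Irreducible pi)

include hpi in
/-- `pi` is a non-unit of the Gauss ring. -/
theorem constHom_mem_nonunits_full :
    constHom A (modularFunctionFieldFullC L N) pi ∈ (gaussWFull L N A ℓ hℓN).nonunits :=
  constHom_mem_nonunits (fullData L N A ℓ hℓN) hpi

include hpi in
/-- `pi` generates the maximal ideal of the Gauss ring. -/
theorem exists_eq_mul_of_mem_nonunits_full (x : ↥(modularFunctionFieldFullC L N))
    (hx : x ∈ (gaussWFull L N A ℓ hℓN).nonunits) :
    ∃ y ∈ gaussWFull L N A ℓ hℓN, x = constHom A (modularFunctionFieldFullC L N) pi * y :=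
  exists_eq_mul_of_mem_nonunits (fullData L N A ℓ hℓN) hpi x hx

include hpi in
/-- **The Gauss chart for the modular function field.**  `x` a chart coordinate with integral
expansion `xA`, `red xA` transcendental over the residue field, `j ∈ L(x)`: every `y` integral
over `A[x]` lies in the Gauss ring, and `y = pi * w` with `w` in the Gauss ring forces `w`
integral over `A[x]`. -/
theorem gauss_chart_full (x : ↥(modularFunctionFieldFullC L N)) (xA : LaurentSeries A)
    (hxA : (x : LaurentSeries L) = iotaA A xA)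
    (hxtr : Transcendental (IsLocalRing.ResidueField A) (redA A xA))
    (hJx : jFullC L N ∈ IntermediateField.adjoin L {x})
    (y : ↥(modularFunctionFieldFullC L N)) (hy : (chartHom A x).IsIntegralElem y) :
    y ∈ gaussWFull L N A ℓ hℓN ∧ ∀ w ∈ gaussWFull L N A ℓ hℓN,
      y = constHom A (modularFunctionFieldFullC L N) pi * w →
        (chartHom A x).IsIntegralElem w := by
  refine gauss_chart' (fullData L N A ℓ hℓN) hpi x xA hxA ?_ ?_ y hy
  · intro P hP
    by_contra hP0
    exact (transcendental_iff.mp hxtr) P (by rw [← evC_eq_aeval]; exact hP) |> hP0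
  · rw [jElt_fullData]
    exact hJx

include hpi in
/-- The chart at `j`. -/
theorem gauss_chart_full_J (y : ↥(modularFunctionFieldFullC L N))
    (hy : (chartHom A (jFullC L N)).IsIntegralElem y) :
    y ∈ gaussWFull L N A ℓ hℓN ∧ ∀ w ∈ gaussWFull L N A ℓ hℓN,
      y = constHom A (modularFunctionFieldFullC L N) pi * w →
        (chartHom A (jFullC L N)).IsIntegralElem w := by
  have h := gauss_chart_J (fullData L N A ℓ hℓN) hpi
  rw [jElt_fullData] at h
  exact h y hy

end Full

end Fermat.Agent.S18.H93
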