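import Fermat.Agent.S18.HauptMem_helper9
import Fermat.Agent.S18.HauptId_helper69

/-!
# S18, node (H3)/(HM), instantiated: `haupt2 K`, `haupt3 K` lie in the function field (helper9)

`H69.haupt2 K ∈ modularFunctionFieldFullC K L` for every field `K` with `2 ≠ 0` and every level
`L` divisible by `2` (same for `3`), and `K(haupt_M K) = K(J, J(q^M))`.  Also for the inverse
chart parameters `haupt2Inv K`, `haupt3Inv K`.
-/

set_option autoImplicit false

noncomputable section

open ModularCurve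

namespace Fermat.Agent.S18.H09

variable (K : Type*) [Field K]

/-- **(H3)** for `X₀(2)`: the Hauptmodul lies in `K(J, J(q²))`. -/
theorem haupt2_mem_fullC_two (h2 : (2 : K) ≠ 0) :
    H69.haupt2 K ∈ modularFunctionFieldFullC K 2 :=
  mem_full_two K h2 _ (H69.haupt2_rel K) (H69.haupt2_rel' K)

/-- **(H3)** for `X₀(3)`: the Hauptmodul lies in `K(J, J(q³))`. -/
theorem haupt3_mem_fullC_three (h3 : (3 : K) ≠ 0) :
    H69.haupt3 K ∈ modularFunctionFieldFullC K 3 :=
  mem_full_three K h3 _ (H69.haupt3_rel K) (H69.haupt3_rel' K)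

/-- **(H3)** at every level divisible by `2`. -/
theorem haupt2_mem_fullC (h2 : (2 : K) ≠ 0) {L : ℕ} [NeZero L] (hL : 2 ∣ L) :
    H69.haupt2 K ∈ modularFunctionFieldFullC K L :=
  mem_full_of_two_dvd K h2 hL _ (H69.haupt2_rel K) (H69.haupt2_rel' K)

/-- **(H3)** at every level divisible by `3`. -/
theorem haupt3_mem_fullC (h3 : (3 : K) ≠ 0) {L : ℕ} [NeZero L] (hL : 3 ∣ L) :
    H69.haupt3 K ∈ modularFunctionFieldFullC K L :=
  mem_full_of_three_dvd K h3 hL _ (H69.haupt3_rel K) (H69.haupt3_rel' K)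

/-- The inverse chart parameter of `X₀(2)` lies in the function field. -/
theorem haupt2Inv_mem_fullC (h2 : (2 : K) ≠ 0) {L : ℕ} [NeZero L] (hL : 2 ∣ L) :
    H69.haupt2Inv K ∈ modularFunctionFieldFullC K L := by
  have h : H69.haupt2Inv K = (H69.haupt2 K)⁻¹ :=
    eq_inv_of_mul_eq_one_right (H69.haupt2_mul_inv K)
  rw [h]
  exact inv_mem (haupt2_mem_fullC K h2 hL)

/-- The inverse chart parameter of `X₀(3)` lies in the function field. -/
theorem haupt3Inv_mem_fullC (h3 : (3 : K) ≠ 0) {L : ℕ} [NeZero L] (hL : 3 ∣ L) :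
    H69.haupt3Inv K ∈ modularFunctionFieldFullC K L := by
  have h : H69.haupt3Inv K = (H69.haupt3 K)⁻¹ :=
    eq_inv_of_mul_eq_one_right (H69.haupt3_mul_inv K)
  rw [h]
  exact inv_mem (haupt3_mem_fullC K h3 hL)

/-- `K(t₂) = K(J, J(q²))`. -/
theorem adjoin_haupt2 (h2 : (2 : K) ≠ 0) :
    IntermediateField.adjoin K {H69.haupt2 K} = modularFunctionFieldFullC K 2 :=
  adjoin_eq_full_two K h2 _ (H69.haupt2_rel K) (H69.haupt2_rel' K)

/-- `K(t₃) = K(J, J(q³))`. -/
theorem adjoin_haupt3 (h3 : (3 : K) ≠ 0) :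
    IntermediateField.adjoin K {H69.haupt3 K} = modularFunctionFieldFullC K 3 :=
  adjoin_eq_full_three K h3 _ (H69.haupt3_rel K) (H69.haupt3_rel' K)

end Fermat.Agent.S18.H09
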