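import Mathlib
import Fermat.Agent.S18.GaussFull_helper93
import Fermat.Agent.S18.HauptMemInst_helper9
import Fermat.Agent.S18.NoPole_helper32
import Fermat.Agent.S28.Gauss_helper36
import Fermat.Prelude.Thm_ModularCurve_coeff_jqModC_neg_one

/-!
# S18 (helper35): the six chart coordinates of the model, in the shape of `gauss_chart_full`

For a field `L` of characteristic zero, a valuation subring `A` of `L` and a level `N`, the chart
coordinates used by the top assembly are

* `j`, `1/j` (residue characteristic `≥ 5`),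
* `t₂`, `1/t₂` (residue characteristic `3`, `2 ∣ N`),
* `t₃`, `1/t₃` (residue characteristic `2`, `3 ∣ N`).

For each coordinate `x : ↥(modularFunctionFieldFullC L N)` this file provides the three inputs of
`H93.gauss_chart_full`: an `A`-integral series `xA` with `x = iotaA A xA`, transcendence of the
reduction `redA A xA` over the residue field, and `j ∈ L(x)`; together with transcendence of `x`
itself over `L`.
-/

set_option autoImplicit false
set_option linter.unusedSectionVars false

noncomputable section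

open HahnSeries ModularCurve Polynomial IntermediateField

namespace Fermat.Agent.S18.H35

section Field

variable (K : Type*) [Field K]

/-- A Laurent series with `q⁻¹`-coefficient `1` is transcendental over the constants. -/
theorem transcendental_of_coeff_neg_one {t : LaurentSeries K} (h : t.coeff (-1) = 1) :
    Transcendental K t := by
  intro halg
  obtain ⟨c, hc⟩ := H32.exists_eq_algebraMap_of_isAlgebraic t halg
  rw [hc, H32.algebraMap_laurent_eq, PowerSeries.coeff_coe] at h
  simp at h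

variable {K}

/-- The inverse of a transcendental element is transcendental. -/
theorem transcendental_inv_of {F : Type*} [Field F] [Algebra K F] {t : F}
    (ht : Transcendental K t) : Transcendental K t⁻¹ := fun h => ht (by simpa using h.inv)

/-- A transcendental element stays transcendental in an intermediate field. -/
theorem transcendental_subtype {E : Type*} [Field E] [Algebra K E] (F : IntermediateField K E)
    {t : F} (ht : Transcendental K (t : E)) : Transcendental K t := by
  intro h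
  apply ht
  have := h.algHom F.val
  simpa using this

end Field

section Coord

variable (L : Type*) [Field L] [CharZero L] (N : ℕ) [NeZero N] (A : ValuationSubring L)

local notation "F" => modularFunctionFieldFullC L N
local notation "κ" => IsLocalRing.ResidueField A

/-! ### `j` and `1/j` -/

theorem coe_jFullC_eq_iota :
    ((H93.jFullC L N : ↥F) : LaurentSeries L) = H93.iotaA A (jqModC A) :=
  (coeffMap_jqModC A.subtype).symm

theorem transcendental_red_j : Transcendental κ (H93.redA A (jqModC A)) := by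
  rw [show H93.redA A (jqModC A) = jqModC κ from coeffMap_jqModC _]
  exact transcendental_of_coeff_neg_one κ (coeff_jqModC_neg_one κ)

theorem jFullC_mem_adjoin_self : H93.jFullC L N ∈ L⟮H93.jFullC L N⟯ :=
  mem_adjoin_simple_self L _

theorem transcendental_jFullC : Transcendental L (H93.jFullC L N) :=
  transcendental_subtype F (transcendental_of_coeff_neg_one L (coeff_jqModC_neg_one L))

theorem coe_jFullC_inv_eq_iota :
    (((H93.jFullC L N)⁻¹ : ↥F) : LaurentSeries L) = H93.iotaA A (S28.H36.jInv A) := by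
  rw [show H93.iotaA A (S28.H36.jInv A) = S28.H36.jInv L from S28.H36.coeffMap_jInv _,
    S28.H36.jInv_eq_inv]
  rfl

theorem transcendental_red_jInv : Transcendental κ (H93.redA A (S28.H36.jInv A)) := by
  rw [show H93.redA A (S28.H36.jInv A) = S28.H36.jInv κ from S28.H36.coeffMap_jInv _,
    S28.H36.jInv_eq_inv]
  exact transcendental_inv_of (transcendental_of_coeff_neg_one κ (coeff_jqModC_neg_one κ))

theorem jFullC_mem_adjoin_inv : H93.jFullC L N ∈ L⟮(H93.jFullC L N)⁻¹⟯ := by
  have h := (L⟮(H93.jFullC L N)⁻¹⟯).inv_mem (mem_adjoin_simple_self L (H93.jFullC L N)⁻¹)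
  rwa [inv_inv] at h

/-! ### generic: a coordinate `t` with `j * t ^ a = P(t)` -/

variable {L N}

/-- if `j * t ^ a = c` with `c ∈ L(t)` and `t ≠ 0`, then `j ∈ L(t)`. -/
theorem mem_adjoin_of_mul_pow_eq {j t c : ↥F} (a : ℕ) (ht : t ≠ 0)
    (hrel : j * t ^ a = c) (hc : c ∈ L⟮t⟯) : j ∈ L⟮t⟯ := by
  have hj : j = c / t ^ a := by
    rw [eq_div_iff (pow_ne_zero a ht)]
    exact hrel
  rw [hj]
  exact (L⟮t⟯).div_mem hc ((L⟮t⟯).pow_mem (mem_adjoin_simple_self L t) a)

/-- `j ∈ L(t)` implies `j ∈ L(t⁻¹)`. -/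
theorem mem_adjoin_inv_of_mem {j t : ↥F} (h : j ∈ L⟮t⟯) : j ∈ L⟮t⁻¹⟯ := by
  have hle : L⟮t⟯ ≤ L⟮t⁻¹⟯ := by
    rw [adjoin_simple_le_iff]
    have h1 := (L⟮t⁻¹⟯).inv_mem (mem_adjoin_simple_self L t⁻¹)
    rwa [inv_inv] at h1
  exact hle h

variable (L N)

/-! ### `t₂` and `1/t₂` -/

section Two

variable (hN : 2 ∣ N)

/-- the Hauptmodul `t₂` as an element of the model. -/
def t2 : ↥F := ⟨H69.haupt2 L, H09.haupt2_mem_fullC L two_ne_zero hN⟩

/-- `1/t₂` as an element of the model. -/
def t2inv : ↥F := ⟨H69.haupt2Inv L, H09.haupt2Inv_mem_fullC L two_ne_zero hN⟩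

theorem t2_mul_t2inv : t2 L N hN * t2inv L N hN = 1 :=
  Subtype.ext (H69.haupt2_mul_inv L)

theorem t2_ne_zero : t2 L N hN ≠ 0 := left_ne_zero_of_mul_eq_one (t2_mul_t2inv L N hN)

theorem t2inv_eq_inv : t2inv L N hN = (t2 L N hN)⁻¹ :=
  eq_inv_of_mul_eq_one_right (t2_mul_t2inv L N hN)

theorem coe_t2_eq_iota :
    ((t2 L N hN : ↥F) : LaurentSeries L) = H93.iotaA A (H69.haupt2 A) :=
  (H69.coeffMap_haupt2 A.subtype).symm

theorem coe_t2inv_eq_iota :
    ((t2inv L N hN : ↥F) : LaurentSeries L) = H93.iotaA A (H69.haupt2Inv A) :=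
  (H69.coeffMap_haupt2Inv A.subtype).symm

theorem transcendental_red_t2 : Transcendental κ (H93.redA A (H69.haupt2 A)) := by
  rw [show H93.redA A (H69.haupt2 A) = H69.haupt2 κ from H69.coeffMap_haupt2 _]
  exact transcendental_of_coeff_neg_one κ (H69.coeff_haupt2_neg_one κ)

theorem transcendental_red_t2inv : Transcendental κ (H93.redA A (H69.haupt2Inv A)) := by
  rw [show H93.redA A (H69.haupt2Inv A) = H69.haupt2Inv κ from H69.coeffMap_haupt2Inv _,
    show H69.haupt2Inv κ = (H69.haupt2 κ)⁻¹ from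
      eq_inv_of_mul_eq_one_right (H69.haupt2_mul_inv κ)]
  exact transcendental_inv_of (transcendental_of_coeff_neg_one κ (H69.coeff_haupt2_neg_one κ))

theorem transcendental_t2 : Transcendental L (t2 L N hN) :=
  transcendental_subtype F (transcendental_of_coeff_neg_one L (H69.coeff_haupt2_neg_one L))

theorem transcendental_t2inv : Transcendental L (t2inv L N hN) := by
  rw [t2inv_eq_inv]
  exact transcendental_inv_of (transcendental_t2 L N hN)

/-- the Hauptmodul relation in the model. -/
theorem t2_rel : H93.jFullC L N * t2 L N hN ^ 2 = (t2 L N hN + 256) ^ 3 :=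
  Subtype.ext (H69.haupt2_rel L)

theorem jFullC_mem_adjoin_t2 : H93.jFullC L N ∈ L⟮t2 L N hN⟯ := by
  refine mem_adjoin_of_mul_pow_eq 2 (t2_ne_zero L N hN) (t2_rel L N hN) ?_
  have h256 : (256 : ↥F) ∈ L⟮t2 L N hN⟯ := by
    have h := (L⟮t2 L N hN⟯).algebraMap_mem (256 : L)
    rwa [map_ofNat] at h
  exact (L⟮t2 L N hN⟯).pow_mem ((L⟮t2 L N hN⟯).add_mem (mem_adjoin_simple_self L _) h256) 3

theorem jFullC_mem_adjoin_t2inv : H93.jFullC L N ∈ L⟮t2inv L N hN⟯ := by
  rw [t2inv_eq_inv]
  exact mem_adjoin_inv_of_mem (jFullC_mem_adjoin_t2 L N hN)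

end Two

/-! ### `t₃` and `1/t₃` -/

section Three

variable (hN : 3 ∣ N)

/-- the Hauptmodul `t₃` as an element of the model. -/
def t3 : ↥F := ⟨H69.haupt3 L, H09.haupt3_mem_fullC L three_ne_zero hN⟩

/-- `1/t₃` as an element of the model. -/
def t3inv : ↥F := ⟨H69.haupt3Inv L, H09.haupt3Inv_mem_fullC L three_ne_zero hN⟩

theorem t3_mul_t3inv : t3 L N hN * t3inv L N hN = 1 :=
  Subtype.ext (H69.haupt3_mul_inv L)

theorem t3_ne_zero : t3 L N hN ≠ 0 := left_ne_zero_of_mul_eq_one (t3_mul_t3inv L N hN)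

theorem t3inv_eq_inv : t3inv L N hN = (t3 L N hN)⁻¹ :=
  eq_inv_of_mul_eq_one_right (t3_mul_t3inv L N hN)

theorem coe_t3_eq_iota :
    ((t3 L N hN : ↥F) : LaurentSeries L) = H93.iotaA A (H69.haupt3 A) :=
  (H69.coeffMap_haupt3 A.subtype).symm

theorem coe_t3inv_eq_iota :
    ((t3inv L N hN : ↥F) : LaurentSeries L) = H93.iotaA A (H69.haupt3Inv A) :=
  (H69.coeffMap_haupt3Inv A.subtype).symm

theorem transcendental_red_t3 : Transcendental κ (H93.redA A (H69.haupt3 A)) := by
  rw [show H93.redA A (H69.haupt3 A) = H69.haupt3 κ from H69.coeffMap_haupt3 _]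
  exact transcendental_of_coeff_neg_one κ (H69.coeff_haupt3_neg_one κ)

theorem transcendental_red_t3inv : Transcendental κ (H93.redA A (H69.haupt3Inv A)) := by
  rw [show H93.redA A (H69.haupt3Inv A) = H69.haupt3Inv κ from H69.coeffMap_haupt3Inv _,
    show H69.haupt3Inv κ = (H69.haupt3 κ)⁻¹ from
      eq_inv_of_mul_eq_one_right (H69.haupt3_mul_inv κ)]
  exact transcendental_inv_of (transcendental_of_coeff_neg_one κ (H69.coeff_haupt3_neg_one κ))

theorem transcendental_t3 : Transcendental L (t3 L N hN) :=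
  transcendental_subtype F (transcendental_of_coeff_neg_one L (H69.coeff_haupt3_neg_one L))

theorem transcendental_t3inv : Transcendental L (t3inv L N hN) := by
  rw [t3inv_eq_inv]
  exact transcendental_inv_of (transcendental_t3 L N hN)

/-- the Hauptmodul relation in the model. -/
theorem t3_rel :
    H93.jFullC L N * t3 L N hN ^ 3 = (t3 L N hN + 27) * (t3 L N hN + 243) ^ 3 :=
  Subtype.ext (H69.haupt3_rel L)

theorem jFullC_mem_adjoin_t3 : H93.jFullC L N ∈ L⟮t3 L N hN⟯ := by
  refine mem_adjoin_of_mul_pow_eq 3 (t3_ne_zero L N hN) (t3_rel L N hN) ?_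
  have h27 : (27 : ↥F) ∈ L⟮t3 L N hN⟯ := by
    have h := (L⟮t3 L N hN⟯).algebraMap_mem (27 : L)
    rwa [map_ofNat] at h
  have h243 : (243 : ↥F) ∈ L⟮t3 L N hN⟯ := by
    have h := (L⟮t3 L N hN⟯).algebraMap_mem (243 : L)
    rwa [map_ofNat] at h
  have hself := mem_adjoin_simple_self L (t3 L N hN)
  exact (L⟮t3 L N hN⟯).mul_mem ((L⟮t3 L N hN⟯).add_mem hself h27)
    ((L⟮t3 L N hN⟯).pow_mem ((L⟮t3 L N hN⟯).add_mem hself h243) 3)

theorem jFullC_mem_adjoin_t3inv : H93.jFullC L N ∈ L⟮t3inv L N hN⟯ := by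
  rw [t3inv_eq_inv]
  exact mem_adjoin_inv_of_mem (jFullC_mem_adjoin_t3 L N hN)

end Three

end Coord

end Fermat.Agent.S18.H35
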