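import Mathlib
import Fermat.Agent.S28.Monomials_helper72
import Fermat.Agent.S28.PsiFinal_helper50
import Fermat.Agent.S28.DegreeQ_helper98

/-!
# S18, node DEGIN (helper20): the degree input of the Gauss chain over a `K₀`-model

For a field `K₀` of characteristic zero, a field `k₀` of characteristic `l ∤ L`, the level-`L`
field `F₀ = modularFunctionFieldFullC K₀ L = K₀(j(q^d) : d ∣ L)` and a base `x ∈ {j, t}`:

* `degin_j`: `ψ(L)` integral monomials in the `j(q^d)` whose reductions are independent over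
  `k₀(j̄)`, and `[F₀ : K₀(j)] ≤ ψ(L)` (finite);
* `degin_t`: for an integral series `t` with `j * Q(t) = P(t)` (`P`, `Q` monic, `deg Q < deg P`,
  coprime over `K₀`), `t ∈ F₀`: `ψ(L) / deg P` integral monomials whose reductions are independent
  over `k₀(t̄)`, and `[F₀ : K₀(t)] ≤ ψ(L) / deg P` (finite).

Generic field lemmas (Mathlib only) come first.
-/

set_option autoImplicit false

open IntermediateField Polynomial

namespace Fermat.Agent.S18.H20

/-! ### Generic lemmas -/


/-- If every element of `B` is an `A`-combination of `n` fixed vectors, then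
`[B : A] ≤ n` (and the degree is finite). -/
theorem relfinrank_le_of_span {K E : Type*} [Field K] [Field E] [Algebra K E]
    (A B : IntermediateField K E) (hAB : A ≤ B) {n : ℕ} (v : Fin n → E)
    (hspan : ∀ y ∈ B, ∃ c : Fin n → E, (∀ i, c i ∈ A) ∧ y = ∑ i, c i * v i) :
    A.relfinrank B ≠ 0 ∧ A.relfinrank B ≤ n := by
  classical
  rw [relfinrank_eq_finrank_of_le hAB]
  set S : IntermediateField ↥A E := extendScalars hAB with hS
  let W : Submodule ↥A E := Submodule.span ↥A (Set.range v)
  have hle : Subalgebra.toSubmodule S.toSubalgebra ≤ W := by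
    intro y hy
    have hyB : y ∈ B := hy
    obtain ⟨c, hc, rfl⟩ := hspan y hyB
    refine Submodule.sum_mem _ fun i _ => ?_
    have : c i * v i = (⟨c i, hc i⟩ : ↥A) • v i := rfl
    rw [this]
    exact Submodule.smul_mem _ _ (Submodule.subset_span ⟨i, rfl⟩)
  have hWfin : Module.Finite ↥A ↥W := Module.Finite.span_of_finite ↥A (Set.finite_range v)
  have hSfin : Module.Finite ↥A ↥(Subalgebra.toSubmodule S.toSubalgebra) :=
    Submodule.finiteDimensional_of_le hle
  have h1 : Module.finrank ↥A ↥(Subalgebra.toSubmodule S.toSubalgebra) ≤ n :=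
    (Submodule.finrank_mono hle).trans ((finrank_range_le_card v).trans (by simp))
  have h2 : Module.finrank ↥A ↥(Subalgebra.toSubmodule S.toSubalgebra) = Module.finrank ↥A ↥S := rfl
  have hSfin' : Module.Finite ↥A ↥S := hSfin
  refine ⟨?_, h2 ▸ h1⟩
  exact (Module.finrank_pos (R := ↥A) (M := ↥S)).ne'

/-- A finitely generated `A`-subspace of a field, containing `1` and closed under products of its
generators, is (the carrier of) an intermediate field containing `A`. -/
theorem exists_intermediateField_of_span {K E : Type*} [Field K] [Field E] [Algebra K E]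
    (A : IntermediateField K E) {n : ℕ} (v : Fin n → E)
    (h1 : (1 : E) ∈ Submodule.span ↥A (Set.range v))
    (hmul : ∀ i k, v i * v k ∈ Submodule.span ↥A (Set.range v)) :
    ∃ T : IntermediateField K E, A ≤ T ∧
      ∀ y : E, y ∈ T ↔ y ∈ Submodule.span ↥A (Set.range v) := by
  classical
  set W : Submodule ↥A E := Submodule.span ↥A (Set.range v) with hW
  have hWmul : ∀ x y : E, x ∈ W → y ∈ W → x * y ∈ W := by
    intro x y hx hy
    have hle : W * W ≤ W := by
      rw [hW, Submodule.span_mul_span, Submodule.span_le]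
      rintro z ⟨a, ⟨i, rfl⟩, b, ⟨k, rfl⟩, rfl⟩
      exact hmul i k
    exact hle (Submodule.mul_mem_mul hx hy)
  let S : Subalgebra ↥A E := W.toSubalgebra h1 hWmul
  have hSW : ∀ y : E, y ∈ S ↔ y ∈ W := fun y => Iff.rfl
  have hfg : (Subalgebra.toSubmodule S).FG := by
    have : Subalgebra.toSubmodule S = W := Submodule.toSubalgebra_toSubmodule _ _ _
    rw [this]
    exact Submodule.fg_span (Set.finite_range v)
  have hinv : ∀ x ∈ S, x⁻¹ ∈ S := by
    intro x hx
    have hint : IsIntegral ↥A x := IsIntegral.of_mem_of_fg S hfg x hx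
    exact Subalgebra.inv_mem_of_algebraic (A := S) (x := ⟨x, hx⟩) hint.isAlgebraic
  let T' : IntermediateField ↥A E := S.toIntermediateField hinv
  refine ⟨T'.restrictScalars K, ?_, fun y => ?_⟩
  · intro a ha
    show a ∈ S
    have : a = algebraMap ↥A E ⟨a, ha⟩ := rfl
    rw [this]
    exact S.algebraMap_mem _
  · exact Iff.rfl



/-- Linear independence over an intermediate field only depends on its carrier. -/
theorem linearIndependent_of_carrier {K K' E : Type*} [Field K] [Field K'] [Field E]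
    [Algebra K E] [Algebra K' E] (T : IntermediateField K E) (T' : IntermediateField K' E)
    (h : ∀ x : E, x ∈ T → x ∈ T') {ι : Type*} (v : ι → E) (hv : LinearIndependent ↥T' v) :
    LinearIndependent ↥T v := by
  classical
  rw [linearIndependent_iff'] at hv ⊢
  intro s g hg i hi
  have h1 : ∑ j ∈ s, (⟨(g j : E), h _ (g j).2⟩ : ↥T') • v j = 0 := by
    rw [← hg]
    exact Finset.sum_congr rfl fun j _ => rfl
  have h2 := hv s _ h1 i hi
  have h3 : ((g i : ↥T) : E) = 0 := congrArg Subtype.val h2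
  exact Subtype.ext h3

/-- If `A ≤ T` with `[T : A] ≤ d` finite, an `A`-independent family of size `n` contains a
`T`-independent subfamily of size `n / d`. -/
theorem exists_subfamily_linearIndependent {K E : Type*} [Field K] [Field E] [Algebra K E]
    (A T : IntermediateField K E) (hAT : A ≤ T) {d : ℕ} (hd0 : A.relfinrank T ≠ 0)
    (hd : A.relfinrank T ≤ d) {n : ℕ} (b : Fin n → E) (hb : LinearIndependent ↥A b) :
    ∃ f : Fin (n / d) → Fin n, Function.Injective f ∧ LinearIndependent ↥T (b ∘ f) := by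
  classical
  rw [relfinrank_eq_finrank_of_le hAT] at hd0 hd
  set T' : IntermediateField ↥A E := extendScalars hAT with hT'
  have hfinT : Module.Finite ↥A ↥T' := Module.finite_of_finrank_pos (Nat.pos_of_ne_zero hd0)
  obtain ⟨κ, a, ha, hspan, hli⟩ := exists_linearIndependent' ↥T' b
  have hκfin : Finite κ := Finite.of_injective a ha
  have hκ : Fintype κ := Fintype.ofFinite κ
  set W : Submodule ↥T' E := Submodule.span ↥T' (Set.range b) with hW
  have hWfin : Module.Finite ↥T' ↥W := Module.Finite.span_of_finite ↥T' (Set.finite_range b)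
  have hr : Module.finrank ↥T' ↥W = Fintype.card κ := by
    rw [← hspan]
    exact finrank_span_eq_card hli
  have hWfinA : Module.Finite ↥A ↥W := Module.Finite.trans ↥T' ↥W
  -- the family `b` inside `W`, independent over `A`
  let b' : Fin n → ↥W := fun i => ⟨b i, Submodule.subset_span ⟨i, rfl⟩⟩
  have hb' : LinearIndependent ↥A b' := by
    have hcomp : LinearIndependent ↥A ((W.restrictScalars ↥A).subtype ∘ b') := hb
    exact LinearIndependent.of_comp (W.restrictScalars ↥A).subtype hcomp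
  have hn : n ≤ Module.finrank ↥A ↥W := by
    have := hb'.fintype_card_le_finrank
    simpa using this
  have : Module.Free ↥A ↥T' := Module.Free.of_divisionRing ↥A ↥T'
  have : Module.Free ↥T' ↥W := Module.Free.of_divisionRing ↥T' ↥W
  have hmul : Module.finrank ↥A ↥T' * Module.finrank ↥T' ↥W = Module.finrank ↥A ↥W :=
    Module.finrank_mul_finrank ↥A ↥T' ↥W
  have hle : n / d ≤ Fintype.card κ := by
    apply Nat.div_le_of_le_mul
    calc n ≤ Module.finrank ↥A ↥T' * Module.finrank ↥T' ↥W := by rw [hmul]; exact hn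
      _ ≤ d * Fintype.card κ := by rw [hr]; exact Nat.mul_le_mul_right _ hd
  let e := Fintype.equivFin κ
  let f : Fin (n / d) → Fin n := fun i => a (e.symm (Fin.castLE hle i))
  have hfinj : Function.Injective (fun i : Fin (n / d) => e.symm (Fin.castLE hle i)) :=
    e.symm.injective.comp (Fin.castLE_injective hle)
  refine ⟨f, ha.comp hfinj, ?_⟩
  have h1 : LinearIndependent ↥T' (b ∘ f) := hli.comp _ hfinj
  exact linearIndependent_of_carrier T T' (fun x hx => hx) _ h1

/-- Degree bound from a relation `j * Q(t) = P(t)` with `P` monic, `deg Q < deg P`. -/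
theorem relfinrank_adjoin_le_of_rel {K E : Type*} [Field K] [Field E] [Algebra K E] (j t : E)
    (P Q : K[X]) (hP : P.Monic) (hdeg : Q.natDegree < P.natDegree)
    (hrel : j * aeval t Q = aeval t P) (hQt : aeval t Q ≠ 0) :
    K⟮j⟯ ≤ K⟮t⟯ ∧ K⟮j⟯.relfinrank K⟮t⟯ ≠ 0 ∧ K⟮j⟯.relfinrank K⟮t⟯ ≤ P.natDegree := by
  classical
  have hmemt : ∀ p : K[X], aeval t p ∈ K⟮t⟯ := fun p =>
    algebra_adjoin_le_adjoin K {t} (aeval_mem_adjoin_singleton K t)
  have hle : K⟮j⟯ ≤ K⟮t⟯ := by
    rw [adjoin_simple_le_iff]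
    have hj : j = aeval t P / aeval t Q := by rw [← hrel, mul_div_cancel_right₀ _ hQt]
    rw [hj]
    exact div_mem (hmemt P) (hmemt Q)
  refine ⟨hle, ?_⟩
  rw [relfinrank_eq_finrank_of_le hle, extendScalars_adjoin hle]
  let jj : ↥K⟮j⟯ := ⟨j, mem_adjoin_simple_self K j⟩
  let G : (↥K⟮j⟯)[X] := P.map (algebraMap K ↥K⟮j⟯) - C jj * Q.map (algebraMap K ↥K⟮j⟯)
  have hQ0 : Q ≠ 0 := by rintro rfl; simp at hQt
  have hdegG : (C jj * Q.map (algebraMap K ↥K⟮j⟯)).degree < (P.map (algebraMap K ↥K⟮j⟯)).degree := by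
    rw [degree_map]
    by_cases hj0 : jj = 0
    · rw [hj0, C_0, zero_mul, degree_zero]
      exact bot_lt_iff_ne_bot.mpr (degree_ne_bot.mpr hP.ne_zero)
    · rw [degree_C_mul hj0, degree_map]
      exact degree_lt_degree hdeg
  have hGm : G.Monic := (hP.map _).sub_of_left hdegG
  have hGdeg : G.natDegree = P.natDegree := by
    have h1 : G.degree = (P.map (algebraMap K ↥K⟮j⟯)).degree := degree_sub_eq_left_of_degree_lt hdegG
    rw [degree_map] at h1
    exact natDegree_eq_natDegree h1
  have hGt : aeval t G = 0 := by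
    simp only [G, map_sub, map_mul, aeval_C, aeval_map_algebraMap]
    rw [show algebraMap (↥K⟮j⟯) E jj = j from rfl, hrel, sub_self]
  have hint : IsIntegral ↥K⟮j⟯ t := ⟨G, hGm, hGt⟩
  rw [adjoin.finrank hint]
  refine ⟨(minpoly.natDegree_pos hint).ne', ?_⟩
  rw [← hGdeg]
  exact natDegree_le_natDegree (minpoly.degree_le_of_ne_zero _ _ hGm.ne_zero hGt)

/-- Exact degree: for `t` transcendental and `P`, `Q` coprime, `[K(t) : K(P(t)/Q(t))] = deg P`. -/
theorem relfinrank_adjoin_eq_of_rel {K E : Type*} [Field K] [Field E] [Algebra K E] (j t : E)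
    (P Q : K[X]) (hP0 : P ≠ 0) (hQ0 : Q ≠ 0) (hdeg : Q.natDegree ≤ P.natDegree)
    (hcop : IsCoprime P Q)
    (ht : Transcendental K t) (hrel : j * aeval t Q = aeval t P) :
    K⟮j⟯.relfinrank K⟮t⟯ = P.natDegree := by
  classical
  have hQt : aeval t Q ≠ 0 := fun h => hQ0 ((transcendental_iff.mp ht) Q h)
  let e := RatFunc.algEquivOfTranscendental t ht
  let g : RatFunc K →ₐ[K] E := (K⟮t⟯.val).comp e.toAlgHom
  have hgval : ∀ y : RatFunc K, g y = ((e y : ↥K⟮t⟯) : E) := fun y => rfl
  have hg : ∀ p : K[X], g (algebraMap K[X] (RatFunc K) p) = aeval t p := by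
    intro p
    rw [hgval, RatFunc.algEquivOfTranscendental_algebraMap]
    exact (aeval_algHom_apply (K⟮t⟯.val) (AdjoinSimple.gen K t) p).symm
  have hginj : Function.Injective g := g.toRingHom.injective
  set f : RatFunc K := algebraMap K[X] (RatFunc K) P / algebraMap K[X] (RatFunc K) Q with hf
  have hgf : g f = j := by
    rw [hf, map_div₀, hg, hg, ← hrel, mul_div_cancel_right₀ _ hQt]
  have hrange : g.fieldRange = K⟮t⟯ := by
    ext x
    constructor
    · rintro ⟨y, rfl⟩
      exact (e y).2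
    · intro hx
      refine ⟨e.symm ⟨x, hx⟩, ?_⟩
      show ((e (e.symm ⟨x, hx⟩) : ↥K⟮t⟯) : E) = x
      rw [AlgEquiv.apply_symm_apply]
  have hcomap : (K⟮j⟯).comap g = K⟮f⟯ := by
    apply le_antisymm
    · intro x hx
      have hx' : g x ∈ K⟮j⟯ := hx
      have hmap : (K⟮f⟯).map g = K⟮j⟯ := by
        rw [adjoin_map, Set.image_singleton, hgf]
      rw [← hmap] at hx'
      obtain ⟨y, hy, hyx⟩ := hx'
      have : y = x := hginj hyx
      rw [← this]
      exact hy
    · rw [adjoin_simple_le_iff]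
      show g f ∈ K⟮j⟯
      rw [hgf]
      exact mem_adjoin_simple_self K j
  have h1 := IntermediateField.finrank_comap (A := K⟮j⟯) g
  rw [hrange, hcomap] at h1
  rw [← h1, RatFunc.finrank_eq_max_natDegree]
  have hrel' : f.num * Q = P * f.denom := (RatFunc.num_mul_eq_mul_denom_iff hQ0).mpr hf
  have hc := RatFunc.isCoprime_num_denom f
  have e1 : f.num ∣ P := hc.dvd_of_dvd_mul_right (Dvd.intro _ hrel')
  have e2 : P ∣ f.num := hcop.dvd_of_dvd_mul_right (Dvd.intro _ hrel'.symm)
  have e3 : f.denom ∣ Q := hc.symm.dvd_of_dvd_mul_left (Dvd.intro_left _ hrel'.symm)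
  have e4 : Q ∣ f.denom := hcop.symm.dvd_of_dvd_mul_left (Dvd.intro_left _ hrel')
  have hf0 : f ≠ 0 := by
    rw [hf]
    exact div_ne_zero
      ((map_ne_zero_iff _ (IsFractionRing.injective K[X] (RatFunc K))).mpr hP0)
      ((map_ne_zero_iff _ (IsFractionRing.injective K[X] (RatFunc K))).mpr hQ0)
  have d1 : f.num.natDegree = P.natDegree :=
    le_antisymm (natDegree_le_of_dvd e1 hP0) (natDegree_le_of_dvd e2 (RatFunc.num_ne_zero hf0))
  have d2 : f.denom.natDegree = Q.natDegree :=
    le_antisymm (natDegree_le_of_dvd e3 hQ0) (natDegree_le_of_dvd e4 (RatFunc.denom_ne_zero f))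
  rw [d1, d2]
  exact max_eq_left hdeg


/-- `K(x⁻¹) = K(x)`. -/
theorem adjoin_simple_inv {K E : Type*} [Field K] [Field E] [Algebra K E] (x : E) :
    K⟮x⁻¹⟯ = K⟮x⟯ := by
  apply le_antisymm
  · rw [adjoin_simple_le_iff]
    exact inv_mem (mem_adjoin_simple_self K x)
  · rw [adjoin_simple_le_iff]
    have := inv_mem (mem_adjoin_simple_self K x⁻¹)
    rwa [inv_inv] at this

/-- Transcendence of `t` from a relation `j * Q(t) = P(t)` with `j` transcendental. -/
theorem transcendental_of_rel {K E : Type*} [Field K] [Field E] [Algebra K E] (j t : E)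
    (P Q : K[X]) (hj : Transcendental K j) (hrel : j * aeval t Q = aeval t P)
    (hQt : aeval t Q ≠ 0) : Transcendental K t := by
  intro halg
  apply hj
  have hmemt : ∀ p : K[X], aeval t p ∈ K⟮t⟯ := fun p =>
    algebra_adjoin_le_adjoin K {t} (aeval_mem_adjoin_singleton K t)
  have hjmem : j ∈ K⟮t⟯ := by
    have hj' : j = aeval t P / aeval t Q := by rw [← hrel, mul_div_cancel_right₀ _ hQt]
    rw [hj']
    exact div_mem (hmemt P) (hmemt Q)
  have halg' : Algebra.IsAlgebraic K ↥K⟮t⟯ := isAlgebraic_adjoin_simple halg.isIntegral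
  have h1 : IsAlgebraic K (⟨j, hjmem⟩ : ↥K⟮t⟯) := Algebra.IsAlgebraic.isAlgebraic _
  exact (h1.algebraMap : IsAlgebraic K (algebraMap ↥K⟮t⟯ E ⟨j, hjmem⟩))

/-! ### Base `j` -/

open ModularCurve

/-- Coefficient maps commute with polynomial evaluation of integral polynomials. -/
theorem coeffMap_aeval_int {R : Type*} [CommRing R] (t : LaurentSeries ℤ) (p : ℤ[X]) :
    coeffMap (Int.castRingHom R) (aeval t p) =
      aeval (coeffMap (Int.castRingHom R) t) (p.map (Int.castRingHom R)) :=
  Polynomial.map_aeval_eq_aeval_map (RingHom.ext_int _ _) p t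

/-- **(asc)** the upper bound `[K₀(j(q^d) : d ∣ L) : K₀(j)] ≤ ψ(L)` over any field of
characteristic zero (ascent from `ℚ`). -/
theorem relfinrank_j_le (K0 : Type*) [Field K0] [CharZero K0] (L : ℕ) [NeZero L] :
    (IntermediateField.adjoin K0 {jqModC K0}).relfinrank (modularFunctionFieldFullC K0 L) ≠ 0 ∧
    (IntermediateField.adjoin K0 {jqModC K0}).relfinrank (modularFunctionFieldFullC K0 L)
      ≤ dedekindPsi L := by
  classical
  obtain ⟨hfd, hle⟩ := S28.H98.finrank_full_le L
  set φ : ℚ →+* K0 := algebraMap ℚ K0 with hφ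
  set n := Module.finrank ℚ⟮IgusaScheme.jFull L⟯ ↥(modularFunctionFieldFull L) with hn
  let B := Module.finBasis ℚ⟮IgusaScheme.jFull L⟯ ↥(modularFunctionFieldFull L)
  let v : Fin n → LaurentSeries K0 :=
    fun i => coeffMap φ ((B i : ↥(modularFunctionFieldFull L)) : LaurentSeries ℚ)
  set A : IntermediateField K0 (LaurentSeries K0) := IntermediateField.adjoin K0 {jqModC K0}
    with hA
  -- scalars of `ℚ(j)` go to `K₀(j)`
  have hcoe : ∀ c : ℚ⟮IgusaScheme.jFull L⟯,
      coeffMap φ (((c : ↥(modularFunctionFieldFull L)) : LaurentSeries ℚ)) ∈ A := by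
    intro c
    apply S28.H72.coeffMap_mem_adjoin φ
    obtain ⟨r, s, hrs⟩ := (IntermediateField.mem_adjoin_simple_iff ℚ _).mp c.2
    rw [hrs]
    have h1 : ∀ p : ℚ[X], ((aeval (IgusaScheme.jFull L) p : ↥(modularFunctionFieldFull L)) :
        LaurentSeries ℚ) ∈ IntermediateField.adjoin ℚ {jqModC ℚ} := by
      intro p
      have h2 := S28.H98.map_aeval_rat (SubringClass.subtype (modularFunctionFieldFull L))
        (IgusaScheme.jFull L) p
      have h3 : ((aeval (IgusaScheme.jFull L) p : ↥(modularFunctionFieldFull L)) :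
          LaurentSeries ℚ) = aeval (jqModC ℚ) p := h2
      rw [h3]
      exact algebra_adjoin_le_adjoin ℚ {jqModC ℚ} (aeval_mem_adjoin_singleton ℚ (jqModC ℚ))
    exact div_mem (h1 r) (h1 s)
  -- every element of the rational field lands in the span
  have hkey : ∀ y : LaurentSeries ℚ, y ∈ modularFunctionFieldFull L →
      coeffMap φ y ∈ Submodule.span ↥A (Set.range v) := by
    intro y hy
    obtain ⟨c, hc⟩ : ∃ c : Fin n → ℚ⟮IgusaScheme.jFull L⟯,
        ∑ i, c i • B i = (⟨y, hy⟩ : ↥(modularFunctionFieldFull L)) :=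
      ⟨fun i => B.repr ⟨y, hy⟩ i, B.sum_repr _⟩
    have h2 : ((∑ i, c i • B i : ↥(modularFunctionFieldFull L)) : LaurentSeries ℚ) = y :=
      congrArg Subtype.val hc
    rw [← h2, AddSubmonoidClass.coe_finsetSum, map_sum]
    refine Submodule.sum_mem _ fun i _ => ?_
    have h3 : ((c i • B i : ↥(modularFunctionFieldFull L)) : LaurentSeries ℚ)
        = ((c i : ↥(modularFunctionFieldFull L)) : LaurentSeries ℚ)
          * ((B i : ↥(modularFunctionFieldFull L)) : LaurentSeries ℚ) := rfl
    rw [h3, map_mul]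
    have : coeffMap φ ((c i : ↥(modularFunctionFieldFull L)) : LaurentSeries ℚ)
        * coeffMap φ ((B i : ↥(modularFunctionFieldFull L)) : LaurentSeries ℚ)
        = (⟨_, hcoe (c i)⟩ : ↥A) • v i := rfl
    rw [this]
    exact Submodule.smul_mem _ _ (Submodule.subset_span ⟨i, rfl⟩)
  have h1 : (1 : LaurentSeries K0) ∈ Submodule.span ↥A (Set.range v) := by
    have := hkey 1 (one_mem _)
    rwa [map_one] at this
  have hmul : ∀ i k, v i * v k ∈ Submodule.span ↥A (Set.range v) := by
    intro i k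
    have := hkey _ (mul_mem (B i).2 (B k).2)
    rwa [map_mul] at this
  obtain ⟨T, hAT, hT⟩ := exists_intermediateField_of_span A v h1 hmul
  have hFT : modularFunctionFieldFullC K0 L ≤ T := by
    rw [modularFunctionFieldFullC, adjoin_le_iff]
    rintro x ⟨d, hd, hdL, rfl⟩
    rw [SetLike.mem_coe, hT]
    have := hkey (qExpand ℚ d (jqModC ℚ)) (jqModCd_mem_full ℚ L hdL)
    rwa [coeffMap_qExpand, coeffMap_jqModC] at this
  have hAF : A ≤ modularFunctionFieldFullC K0 L := by
    rw [hA, adjoin_simple_le_iff]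
    exact jqModC_mem_full K0 L
  have hres := relfinrank_le_of_span A (modularFunctionFieldFullC K0 L) hAF v (fun y hy => by
    obtain ⟨c, hc⟩ := (Submodule.mem_span_range_iff_exists_fun ↥A).mp ((hT y).mp (hFT hy))
    exact ⟨fun i => (c i : LaurentSeries K0), fun i => (c i).2, hc.symm⟩)
  exact ⟨hres.1, hres.2.trans hle⟩

/-- **(desc)** `ψ(L)` integral monomials in the `j(q^d)` whose reductions are independent over
`k₀(j̄)`, for ANY field `k₀` of characteristic `l ∤ L`. -/
theorem exists_monomials_j (k0 : Type*) [Field k0] (l : ℕ) [Fact l.Prime] [CharP k0 l]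
    (L : ℕ) [NeZero L] (hlL : ¬ l ∣ L) :
    ∃ b : Fin (dedekindPsi L) → LaurentSeries ℤ,
      (∀ i, b i ∈ Submonoid.closure (S28.H72.gensZ L)) ∧
      LinearIndependent ↥(IntermediateField.adjoin k0 {jqModC k0})
        (fun i => coeffMap (Int.castRingHom k0) (b i)) := by
  have hpsi := (S28.H50.relfinrank_ne_zero_and_psi_le_char (AlgebraicClosure k0) l L hlL).2
  obtain ⟨b, hb, hli⟩ := S28.H72.exists_monomials_field (AlgebraicClosure k0) L hpsi
  refine ⟨b, hb, ?_⟩
  refine S28.H72.linearIndependent_of_coeffMap (algebraMap k0 (AlgebraicClosure k0)) _ ?_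
  have : (fun i => coeffMap (algebraMap k0 (AlgebraicClosure k0))
      (coeffMap (Int.castRingHom k0) (b i))) =
      fun i => coeffMap (Int.castRingHom (AlgebraicClosure k0)) (b i) := by
    funext i
    rw [coeffMap_coeffMap]
    exact coeffMap_congr (RingHom.ext_int _ _) _
  rw [this]
  exact hli

/-- **(DI-j)** the degree input of the Gauss chain for the base `j`. -/
theorem degin_j (K0 : Type*) [Field K0] [CharZero K0] (k0 : Type*) [Field k0] (l : ℕ)
    [Fact l.Prime] [CharP k0 l] (L : ℕ) [NeZero L] (hlL : ¬ l ∣ L) :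
    ∃ b : Fin (dedekindPsi L) → LaurentSeries ℤ,
      (∀ i, b i ∈ Submonoid.closure (S28.H72.gensZ L)) ∧
      LinearIndependent ↥(IntermediateField.adjoin k0 {jqModC k0})
        (fun i => coeffMap (Int.castRingHom k0) (b i)) ∧
      (IntermediateField.adjoin K0 {jqModC K0}).relfinrank (modularFunctionFieldFullC K0 L) ≠ 0 ∧
      (IntermediateField.adjoin K0 {jqModC K0}).relfinrank (modularFunctionFieldFullC K0 L)
        ≤ dedekindPsi L := by
  obtain ⟨b, hb, hli⟩ := exists_monomials_j k0 l L hlL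
  exact ⟨b, hb, hli, relfinrank_j_le K0 L⟩

/-! ### Base `t` (a Hauptmodul: `j * Q(t) = P(t)`) -/

/-- The relation `j * Q(t) = P(t)` over `ℤ` mapped to any commutative ring. -/
theorem rel_coeffMap {R : Type*} [CommRing R] (t : LaurentSeries ℤ) (P Q : ℤ[X])
    (hrel : jqModC ℤ * aeval t Q = aeval t P) :
    jqModC R * aeval (coeffMap (Int.castRingHom R) t) (Q.map (Int.castRingHom R))
      = aeval (coeffMap (Int.castRingHom R) t) (P.map (Int.castRingHom R)) := by
  have h := congrArg (coeffMap (Int.castRingHom R)) hrel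
  rwa [map_mul, coeffMap_jqModC, coeffMap_aeval_int, coeffMap_aeval_int] at h

/-- **(DI-t, char 0)** `[F₀ : K₀(t)] ≤ ψ(L) / deg P` (finite), `t` transcendental,
`K₀(j) ≤ K₀(t)` and `[K₀(t) : K₀(j)] = deg P`. -/
theorem relfinrank_t_le (K0 : Type*) [Field K0] [CharZero K0] (L : ℕ) [NeZero L]
    (t : LaurentSeries ℤ) (P Q : ℤ[X]) (hP : P.Monic) (hQ : Q.Monic)
    (hdeg : Q.natDegree < P.natDegree)
    (hrel : jqModC ℤ * aeval t Q = aeval t P)
    (hcop : IsCoprime (P.map (Int.castRingHom K0)) (Q.map (Int.castRingHom K0)))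
    (hmem : coeffMap (Int.castRingHom K0) t ∈ modularFunctionFieldFullC K0 L) :
    Transcendental K0 (coeffMap (Int.castRingHom K0) t) ∧
    IntermediateField.adjoin K0 {jqModC K0}
      ≤ IntermediateField.adjoin K0 {coeffMap (Int.castRingHom K0) t} ∧
    (IntermediateField.adjoin K0 {jqModC K0}).relfinrank
      (IntermediateField.adjoin K0 {coeffMap (Int.castRingHom K0) t}) = P.natDegree ∧
    (IntermediateField.adjoin K0 {coeffMap (Int.castRingHom K0) t}).relfinrank
      (modularFunctionFieldFullC K0 L) ≠ 0 ∧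
    (IntermediateField.adjoin K0 {coeffMap (Int.castRingHom K0) t}).relfinrank
      (modularFunctionFieldFullC K0 L) ≤ dedekindPsi L / P.natDegree := by
  classical
  set tK := coeffMap (Int.castRingHom K0) t with htK
  set PK := P.map (Int.castRingHom K0) with hPK
  set QK := Q.map (Int.castRingHom K0) with hQK
  have hrelK : jqModC K0 * aeval tK QK = aeval tK PK := rel_coeffMap t P Q hrel
  have hPKm : PK.Monic := hP.map _
  have hQKm : QK.Monic := hQ.map _
  have hPdeg : PK.natDegree = P.natDegree := hP.natDegree_map _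
  have hQdeg : QK.natDegree = Q.natDegree := hQ.natDegree_map _
  have hQt : aeval tK QK ≠ 0 := by
    intro h0
    have hP0 : aeval tK PK = 0 := by rw [← hrelK, h0, mul_zero]
    obtain ⟨u, w, huw⟩ := hcop
    have := congrArg (aeval tK) huw
    rw [map_add, map_mul, map_mul, hP0, h0, mul_zero, mul_zero, add_zero, map_one] at this
    exact zero_ne_one this
  have htr : Transcendental K0 tK :=
    transcendental_of_rel (jqModC K0) tK PK QK (S24.H89.transcendental_jqModC K0) hrelK hQt
  obtain ⟨hle, -, -⟩ := relfinrank_adjoin_le_of_rel (jqModC K0) tK PK QK hPKm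
    (by rw [hPdeg, hQdeg]; exact hdeg) hrelK hQt
  have heq := relfinrank_adjoin_eq_of_rel (jqModC K0) tK PK QK hPKm.ne_zero hQKm.ne_zero
    (by rw [hPdeg, hQdeg]; exact hdeg.le) hcop htr hrelK
  rw [hPdeg] at heq
  have hTF : IntermediateField.adjoin K0 {tK} ≤ modularFunctionFieldFullC K0 L := by
    rw [adjoin_simple_le_iff]
    exact hmem
  have htower := relfinrank_mul_relfinrank hle hTF
  obtain ⟨hne, hlepsi⟩ := relfinrank_j_le K0 L
  rw [heq] at htower
  have hd : 0 < P.natDegree := lt_of_le_of_lt (Nat.zero_le _) hdeg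
  refine ⟨htr, hle, heq, ?_, ?_⟩
  · intro h0
    rw [h0, mul_zero] at htower
    exact hne htower.symm
  · rw [Nat.le_div_iff_mul_le hd, mul_comm, htower]
    exact hlepsi

/-- **(DI-t, char l)** `ψ(L) / deg P` integral monomials in the `j(q^d)` whose reductions are
independent over `k₀(t̄)`. -/
theorem exists_monomials_t (k0 : Type*) [Field k0] (l : ℕ) [Fact l.Prime] [CharP k0 l]
    (L : ℕ) [NeZero L] (hlL : ¬ l ∣ L)
    (t : LaurentSeries ℤ) (P Q : ℤ[X]) (hP : P.Monic) (hdeg : Q.natDegree < P.natDegree)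
    (hrel : jqModC ℤ * aeval t Q = aeval t P)
    (hQk : aeval (coeffMap (Int.castRingHom k0) t) (Q.map (Int.castRingHom k0)) ≠ 0) :
    ∃ b : Fin (dedekindPsi L / P.natDegree) → LaurentSeries ℤ,
      (∀ i, b i ∈ Submonoid.closure (S28.H72.gensZ L)) ∧
      LinearIndependent ↥(IntermediateField.adjoin k0 {coeffMap (Int.castRingHom k0) t})
        (fun i => coeffMap (Int.castRingHom k0) (b i)) := by
  classical
  obtain ⟨b, hb, hli⟩ := exists_monomials_j k0 l L hlL
  set tk := coeffMap (Int.castRingHom k0) t with htk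
  have hrelk := rel_coeffMap (R := k0) t P Q hrel
  have hPdeg : (P.map (Int.castRingHom k0)).natDegree = P.natDegree := hP.natDegree_map _
  obtain ⟨hle, hne, hled⟩ := relfinrank_adjoin_le_of_rel (jqModC k0) tk
    (P.map (Int.castRingHom k0)) (Q.map (Int.castRingHom k0)) (hP.map _)
    (by rw [hPdeg]; exact lt_of_le_of_lt (natDegree_map_le) hdeg) hrelk hQk
  rw [hPdeg] at hled
  obtain ⟨f, hf, hfli⟩ := exists_subfamily_linearIndependent _ _ hle hne hled
    (fun i => coeffMap (Int.castRingHom k0) (b i)) hli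
  exact ⟨fun i => b (f i), fun i => hb (f i), hfli⟩

/-- Transcendence of the reduction of `t`. -/
theorem transcendental_red_t (k0 : Type*) [Field k0]
    (t : LaurentSeries ℤ) (P Q : ℤ[X])
    (hrel : jqModC ℤ * aeval t Q = aeval t P)
    (hQk : aeval (coeffMap (Int.castRingHom k0) t) (Q.map (Int.castRingHom k0)) ≠ 0) :
    Transcendental k0 (coeffMap (Int.castRingHom k0) t) :=
  transcendental_of_rel (jqModC k0) _ _ _ (S24.H89.transcendental_jqModC k0)
    (rel_coeffMap (R := k0) t P Q hrel) hQk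

/-- **(DI-t)** the degree input of the Gauss chain for a base `t` with `j * Q(t) = P(t)`. -/
theorem degin_t (K0 : Type*) [Field K0] [CharZero K0] (k0 : Type*) [Field k0] (l : ℕ)
    [Fact l.Prime] [CharP k0 l] (L : ℕ) [NeZero L] (hlL : ¬ l ∣ L)
    (t : LaurentSeries ℤ) (P Q : ℤ[X]) (hP : P.Monic) (hQ : Q.Monic)
    (hdeg : Q.natDegree < P.natDegree)
    (hrel : jqModC ℤ * aeval t Q = aeval t P)
    (hcop : IsCoprime (P.map (Int.castRingHom K0)) (Q.map (Int.castRingHom K0)))
    (hmem : coeffMap (Int.castRingHom K0) t ∈ modularFunctionFieldFullC K0 L)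
    (hQk : aeval (coeffMap (Int.castRingHom k0) t) (Q.map (Int.castRingHom k0)) ≠ 0) :
    ∃ b : Fin (dedekindPsi L / P.natDegree) → LaurentSeries ℤ,
      (∀ i, b i ∈ Submonoid.closure (S28.H72.gensZ L)) ∧
      LinearIndependent ↥(IntermediateField.adjoin k0 {coeffMap (Int.castRingHom k0) t})
        (fun i => coeffMap (Int.castRingHom k0) (b i)) ∧
      (IntermediateField.adjoin K0 {coeffMap (Int.castRingHom K0) t}).relfinrank
        (modularFunctionFieldFullC K0 L) ≠ 0 ∧
      (IntermediateField.adjoin K0 {coeffMap (Int.castRingHom K0) t}).relfinrank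
        (modularFunctionFieldFullC K0 L) ≤ dedekindPsi L / P.natDegree := by
  obtain ⟨b, hb, hli⟩ := exists_monomials_t k0 l L hlL t P Q hP hdeg hrel hQk
  obtain ⟨-, -, -, h1, h2⟩ := relfinrank_t_le K0 L t P Q hP hQ hdeg hrel hcop hmem
  exact ⟨b, hb, hli, h1, h2⟩

/-! ### The same statements inside the field `↥F₀` (the shapes `K₀⟮ξ⟯ ≤ ↥F₀` of the consumers) -/

/-- For `x : ↥F`, the degree of `↥F` over `K⟮x⟯` (computed inside `↥F`) is the relative degree
in the ambient field. -/
theorem finrank_adjoin_subtype {K E : Type*} [Field K] [Field E] [Algebra K E]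
    (F : IntermediateField K E) (x : ↥F) :
    Module.finrank ↥K⟮x⟯ ↥F = (K⟮(x : E)⟯).relfinrank F := by
  have h1 := IntermediateField.finrank_comap (A := K⟮(x : E)⟯) F.val
  rw [IntermediateField.fieldRange_val] at h1
  have hcomap : (K⟮(x : E)⟯).comap F.val = K⟮x⟯ := by
    apply le_antisymm
    · intro y hy
      have hy' : F.val y ∈ K⟮(x : E)⟯ := hy
      have hmap : (K⟮x⟯).map F.val = K⟮(x : E)⟯ := by
        rw [adjoin_map, Set.image_singleton]
        rfl
      rw [← hmap] at hy'
      obtain ⟨z, hz, hzy⟩ := hy'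
      have : z = y := F.val.toRingHom.injective hzy
      rw [← this]
      exact hz
    · rw [adjoin_simple_le_iff]
      show F.val x ∈ K⟮(x : E)⟯
      exact mem_adjoin_simple_self K (x : E)
  rw [← hcomap]
  exact h1

theorem finiteDimensional_adjoin_subtype {K E : Type*} [Field K] [Field E] [Algebra K E]
    (F : IntermediateField K E) (x : ↥F) (h : (K⟮(x : E)⟯).relfinrank F ≠ 0) :
    FiniteDimensional ↥K⟮x⟯ ↥F := by
  rw [← finrank_adjoin_subtype] at h
  exact Module.finite_of_finrank_pos (Nat.pos_of_ne_zero h)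

/-- **(MODEL-FIN, base `j`)** over any field `K₀` of characteristic zero. -/
theorem finiteDimensional_model_j (K0 : Type*) [Field K0] [CharZero K0] (L : ℕ) [NeZero L] :
    FiniteDimensional
        ↥K0⟮(⟨jqModC K0, jqModC_mem_full K0 L⟩ : ↥(modularFunctionFieldFullC K0 L))⟯
        ↥(modularFunctionFieldFullC K0 L) ∧
      Module.finrank
        ↥K0⟮(⟨jqModC K0, jqModC_mem_full K0 L⟩ : ↥(modularFunctionFieldFullC K0 L))⟯
        ↥(modularFunctionFieldFullC K0 L) ≤ dedekindPsi L := by
  obtain ⟨h1, h2⟩ := relfinrank_j_le K0 L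
  exact ⟨finiteDimensional_adjoin_subtype _ _ h1, by rw [finrank_adjoin_subtype]; exact h2⟩

/-- **(MODEL-FIN, base `t`)** over any field `K₀` of characteristic zero, for `t` with
`j * Q(t) = P(t)` and `t ∈ F₀`. -/
theorem finiteDimensional_model_t (K0 : Type*) [Field K0] [CharZero K0] (L : ℕ) [NeZero L]
    (t : LaurentSeries ℤ) (P Q : ℤ[X]) (hP : P.Monic) (hQ : Q.Monic)
    (hdeg : Q.natDegree < P.natDegree)
    (hrel : jqModC ℤ * aeval t Q = aeval t P)
    (hcop : IsCoprime (P.map (Int.castRingHom K0)) (Q.map (Int.castRingHom K0)))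
    (hmem : coeffMap (Int.castRingHom K0) t ∈ modularFunctionFieldFullC K0 L) :
    Transcendental K0 (⟨_, hmem⟩ : ↥(modularFunctionFieldFullC K0 L)) ∧
    FiniteDimensional
        ↥K0⟮(⟨_, hmem⟩ : ↥(modularFunctionFieldFullC K0 L))⟯
        ↥(modularFunctionFieldFullC K0 L) ∧
      Module.finrank
        ↥K0⟮(⟨_, hmem⟩ : ↥(modularFunctionFieldFullC K0 L))⟯
        ↥(modularFunctionFieldFullC K0 L) ≤ dedekindPsi L / P.natDegree := by
  obtain ⟨htr, -, -, h1, h2⟩ := relfinrank_t_le K0 L t P Q hP hQ hdeg hrel hcop hmem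
  refine ⟨?_, finiteDimensional_adjoin_subtype _ _ h1, by rw [finrank_adjoin_subtype]; exact h2⟩
  intro halg
  apply htr
  exact (halg.algebraMap : IsAlgebraic K0
    (algebraMap ↥(modularFunctionFieldFullC K0 L) (LaurentSeries K0) ⟨_, hmem⟩))

/-! ### The two Hauptmodul shapes (`M = 2`, `M = 3`) -/

theorem isCoprime_haupt_two (K : Type*) [Field K] (h2 : (2 : K) ≠ 0) :
    IsCoprime (((X + C 256) ^ 3 : ℤ[X]).map (Int.castRingHom K))
      ((X ^ 2 : ℤ[X]).map (Int.castRingHom K)) := by
  simp only [Polynomial.map_pow, Polynomial.map_add, Polynomial.map_X, Polynomial.map_C]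
  apply IsCoprime.pow
  have h256 : ((Int.castRingHom K) 256) ≠ 0 := by
    have : ((Int.castRingHom K) 256) = (2 : K) ^ 8 := by norm_num
    rw [this]
    exact pow_ne_zero _ h2
  refine ⟨C ((Int.castRingHom K) 256)⁻¹, -C ((Int.castRingHom K) 256)⁻¹, ?_⟩
  have : C ((Int.castRingHom K) 256)⁻¹ * (X + C ((Int.castRingHom K) 256))
      + -C ((Int.castRingHom K) 256)⁻¹ * X
      = C (((Int.castRingHom K) 256)⁻¹ * (Int.castRingHom K) 256) := by
    rw [C_mul]; ring
  rw [this, inv_mul_cancel₀ h256, C_1]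

theorem isCoprime_haupt_three (K : Type*) [Field K] (h3 : (3 : K) ≠ 0) :
    IsCoprime ((((X + C 27) * (X + C 243) ^ 3 : ℤ[X])).map (Int.castRingHom K))
      ((X ^ 3 : ℤ[X]).map (Int.castRingHom K)) := by
  simp only [Polynomial.map_pow, Polynomial.map_add, Polynomial.map_X, Polynomial.map_C,
    Polynomial.map_mul]
  have key : ∀ c : K, c ≠ 0 → IsCoprime (X + C c : K[X]) X := by
    intro c hc
    refine ⟨C c⁻¹, -C c⁻¹, ?_⟩
    have : C c⁻¹ * (X + C c) + -C c⁻¹ * X = C (c⁻¹ * c) := by rw [C_mul]; ring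
    rw [this, inv_mul_cancel₀ hc, C_1]
  have h27 : ((Int.castRingHom K) 27) ≠ 0 := by
    have : ((Int.castRingHom K) 27) = (3 : K) ^ 3 := by norm_num
    rw [this]
    exact pow_ne_zero _ h3
  have h243 : ((Int.castRingHom K) 243) ≠ 0 := by
    have : ((Int.castRingHom K) 243) = (3 : K) ^ 5 := by norm_num
    rw [this]
    exact pow_ne_zero _ h3
  exact IsCoprime.pow_right (IsCoprime.mul_left (key _ h27) (IsCoprime.pow_left (key _ h243)))

theorem monic_haupt_two : ((X + C 256) ^ 3 : ℤ[X]).Monic := (monic_X_add_C 256).pow 3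

theorem natDegree_haupt_two : ((X + C 256) ^ 3 : ℤ[X]).natDegree = 3 := by
  rw [natDegree_pow, natDegree_X_add_C]

theorem monic_haupt_three : ((X + C 27) * (X + C 243) ^ 3 : ℤ[X]).Monic :=
  (monic_X_add_C 27).mul ((monic_X_add_C 243).pow 3)

theorem natDegree_haupt_three : ((X + C 27) * (X + C 243) ^ 3 : ℤ[X]).natDegree = 4 := by
  rw [((monic_X_add_C 27).natDegree_mul ((monic_X_add_C 243).pow 3)), natDegree_pow,
    natDegree_X_add_C, natDegree_X_add_C]

theorem aeval_rel_two (t : LaurentSeries ℤ) (hrel : jqModC ℤ * t ^ 2 = (t + 256) ^ 3) :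
    jqModC ℤ * aeval t (X ^ 2 : ℤ[X]) = aeval t ((X + C 256) ^ 3 : ℤ[X]) := by
  simp only [map_pow, map_add, aeval_X, aeval_C]
  rw [hrel, map_ofNat]

theorem aeval_rel_three (t : LaurentSeries ℤ)
    (hrel : jqModC ℤ * t ^ 3 = (t + 27) * (t + 243) ^ 3) :
    jqModC ℤ * aeval t (X ^ 3 : ℤ[X]) = aeval t ((X + C 27) * (X + C 243) ^ 3 : ℤ[X]) := by
  simp only [map_pow, map_add, map_mul, aeval_X, aeval_C]
  rw [hrel, map_ofNat, map_ofNat]

/-- **(MODEL-FIN + degree, `M = 2`)**: for `t` with `j t² = (t + 256)³` and `t ∈ F₀`. -/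
theorem finiteDimensional_model_two (K0 : Type*) [Field K0] [CharZero K0] (L : ℕ) [NeZero L]
    (t : LaurentSeries ℤ) (hrel : jqModC ℤ * t ^ 2 = (t + 256) ^ 3)
    (hmem : coeffMap (Int.castRingHom K0) t ∈ modularFunctionFieldFullC K0 L) :
    Transcendental K0 (⟨_, hmem⟩ : ↥(modularFunctionFieldFullC K0 L)) ∧
    FiniteDimensional
        ↥K0⟮(⟨_, hmem⟩ : ↥(modularFunctionFieldFullC K0 L))⟯
        ↥(modularFunctionFieldFullC K0 L) ∧
      Module.finrank
        ↥K0⟮(⟨_, hmem⟩ : ↥(modularFunctionFieldFullC K0 L))⟯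
        ↥(modularFunctionFieldFullC K0 L) ≤ dedekindPsi L / 3 := by
  have h := finiteDimensional_model_t K0 L t ((X + C 256) ^ 3) (X ^ 2) monic_haupt_two
    (monic_X_pow 2) (by rw [natDegree_haupt_two, natDegree_X_pow]; norm_num)
    (aeval_rel_two t hrel) (isCoprime_haupt_two K0 two_ne_zero) hmem
  rwa [natDegree_haupt_two] at h

/-- **(MODEL-FIN + degree, `M = 3`)**: for `t` with `j t³ = (t + 27)(t + 243)³` and `t ∈ F₀`. -/
theorem finiteDimensional_model_three (K0 : Type*) [Field K0] [CharZero K0] (L : ℕ) [NeZero L]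
    (t : LaurentSeries ℤ) (hrel : jqModC ℤ * t ^ 3 = (t + 27) * (t + 243) ^ 3)
    (hmem : coeffMap (Int.castRingHom K0) t ∈ modularFunctionFieldFullC K0 L) :
    Transcendental K0 (⟨_, hmem⟩ : ↥(modularFunctionFieldFullC K0 L)) ∧
    FiniteDimensional
        ↥K0⟮(⟨_, hmem⟩ : ↥(modularFunctionFieldFullC K0 L))⟯
        ↥(modularFunctionFieldFullC K0 L) ∧
      Module.finrank
        ↥K0⟮(⟨_, hmem⟩ : ↥(modularFunctionFieldFullC K0 L))⟯
        ↥(modularFunctionFieldFullC K0 L) ≤ dedekindPsi L / 4 := by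
  have h := finiteDimensional_model_t K0 L t ((X + C 27) * (X + C 243) ^ 3) (X ^ 3)
    monic_haupt_three (monic_X_pow 3) (by rw [natDegree_haupt_three, natDegree_X_pow]; norm_num)
    (aeval_rel_three t hrel) (isCoprime_haupt_three K0 three_ne_zero) hmem
  rwa [natDegree_haupt_three] at h

/-- Residue side, `M = 2`: `ψ(L) / 3` integral monomials with `k₀(t̄)`-independent reductions. -/
theorem exists_monomials_two (k0 : Type*) [Field k0] (l : ℕ) [Fact l.Prime] [CharP k0 l]
    (L : ℕ) [NeZero L] (hlL : ¬ l ∣ L) (t : LaurentSeries ℤ)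
    (hrel : jqModC ℤ * t ^ 2 = (t + 256) ^ 3)
    (ht0 : coeffMap (Int.castRingHom k0) t ≠ 0) :
    ∃ b : Fin (dedekindPsi L / 3) → LaurentSeries ℤ,
      (∀ i, b i ∈ Submonoid.closure (S28.H72.gensZ L)) ∧
      LinearIndependent ↥(IntermediateField.adjoin k0 {coeffMap (Int.castRingHom k0) t})
        (fun i => coeffMap (Int.castRingHom k0) (b i)) := by
  have h := exists_monomials_t k0 l L hlL t ((X + C 256) ^ 3) (X ^ 2) monic_haupt_two
    (by rw [natDegree_haupt_two, natDegree_X_pow]; norm_num) (aeval_rel_two t hrel)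
    (by simpa using pow_ne_zero 2 ht0)
  rwa [natDegree_haupt_two] at h

/-- Residue side, `M = 3`: `ψ(L) / 4` integral monomials with `k₀(t̄)`-independent reductions. -/
theorem exists_monomials_three (k0 : Type*) [Field k0] (l : ℕ) [Fact l.Prime] [CharP k0 l]
    (L : ℕ) [NeZero L] (hlL : ¬ l ∣ L) (t : LaurentSeries ℤ)
    (hrel : jqModC ℤ * t ^ 3 = (t + 27) * (t + 243) ^ 3)
    (ht0 : coeffMap (Int.castRingHom k0) t ≠ 0) :
    ∃ b : Fin (dedekindPsi L / 4) → LaurentSeries ℤ,
      (∀ i, b i ∈ Submonoid.closure (S28.H72.gensZ L)) ∧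
      LinearIndependent ↥(IntermediateField.adjoin k0 {coeffMap (Int.castRingHom k0) t})
        (fun i => coeffMap (Int.castRingHom k0) (b i)) := by
  have h := exists_monomials_t k0 l L hlL t ((X + C 27) * (X + C 243) ^ 3) (X ^ 3)
    monic_haupt_three (by rw [natDegree_haupt_three, natDegree_X_pow]; norm_num)
    (aeval_rel_three t hrel) (by simpa using pow_ne_zero 3 ht0)
  rwa [natDegree_haupt_three] at h

end Fermat.Agent.S18.H20
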