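import Mathlib

/-!
# Unit discriminant ⟹ integrally closed  (node DISC of S18, helper45)

`R` an integrally closed domain with fraction field `K`, `L` a finite-dimensional commutative
`K`-algebra (not necessarily a field).

* `isIntegral_trace_of_isIntegral` : the trace of an `R`-integral element of `L` is `R`-integral.
* `exists_algebraMap_eq_trace_of_isIntegral` : ... hence lies in `R`.
* `mem_span_of_isIntegral_of_isUnit_discr` : if a `K`-basis `b` of `L` consists of integral
  elements and its discriminant is a unit of `R`, every integral element of `L` lies in the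
  `R`-span of `b`.
* `mem_range_of_isIntegral_of_isUnit_discr` : abstract form for a finite free `R`-algebra `S`
  with unit discriminant mapping to `L`.
* `exists_tmul_eq_of_isIntegral_of_isUnit_discr` : the same for `L = K ⊗[R] S`.
-/

set_option autoImplicit false

namespace Fermat.Agent.S18.H45

open Polynomial TensorProduct

section Trace

variable {R K L : Type*} [CommRing R] [Field K] [Algebra R K]
  [CommRing L] [Algebra K L] [Algebra R L] [IsScalarTower R K L] [FiniteDimensional K L]

/-- The trace of an element integral over `R` of a finite-dimensional commutative `K`-algebra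
(not necessarily a field) is integral over `R`. -/
theorem isIntegral_trace_of_isIntegral (z : L) (hz : IsIntegral R z) :
    IsIntegral R (Algebra.trace K L z) := by
  classical
  obtain ⟨p, hpm, hp⟩ := hz
  -- the base-changed multiplication map
  let ψ : L →ₐ[K] Module.End (AlgebraicClosure K) (AlgebraicClosure K ⊗[K] L) :=
    (Module.End.baseChangeHom K (AlgebraicClosure K) L).comp (Algebra.lmul K L)
  set f : Module.End (AlgebraicClosure K) (AlgebraicClosure K ⊗[K] L) := ψ z with hf
  have hpf : aeval f (p.map (algebraMap R (AlgebraicClosure K))) = 0 := by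
    have h1 : aeval z (p.map (algebraMap R K)) = 0 := by
      rw [aeval_map_algebraMap]; exact hp
    have h2 : aeval f (p.map (algebraMap R K)) = 0 := by
      rw [hf, aeval_algHom_apply, h1, map_zero]
    rw [IsScalarTower.algebraMap_eq R K (AlgebraicClosure K), ← Polynomial.map_map,
      aeval_map_algebraMap]
    exact h2
  have htr : algebraMap K (AlgebraicClosure K) (Algebra.trace K L z) =
      LinearMap.trace (AlgebraicClosure K) (AlgebraicClosure K ⊗[K] L) f := by
    rw [Algebra.trace_apply]
    exact (LinearMap.trace_baseChange (Algebra.lmul K L z) (AlgebraicClosure K)).symm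
  rw [← isIntegral_algebraMap_iff (algebraMap K (AlgebraicClosure K)).injective, htr,
    Module.End.trace_eq_sum_roots_charpoly_of_splits (IsAlgClosed.splits _)]
  refine IsIntegral.multiset_sum fun μ hμ => ?_
  have hroot : f.charpoly.IsRoot μ := (mem_roots (LinearMap.charpoly_monic f).ne_zero).mp hμ
  obtain ⟨v, hv⟩ :=
    ((Module.End.hasEigenvalue_iff_isRoot_charpoly f μ).mpr hroot).exists_hasEigenvector
  have hev := Module.End.aeval_apply_of_hasEigenvector
    (p := p.map (algebraMap R (AlgebraicClosure K))) hv
  rw [hpf, LinearMap.zero_apply] at hev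
  have h0 : (p.map (algebraMap R (AlgebraicClosure K))).eval μ = 0 := by
    rcases smul_eq_zero.mp hev.symm with h | h
    · exact h
    · exact absurd h hv.2
  exact ⟨p, hpm, by rwa [eval_map] at h0⟩

/-- Over an integrally closed domain, the trace of an integral element lies in `R`. -/
theorem exists_algebraMap_eq_trace_of_isIntegral [IsDomain R] [IsIntegrallyClosed R]
    [IsFractionRing R K] (z : L) (hz : IsIntegral R z) :
    ∃ r : R, algebraMap R K r = Algebra.trace K L z :=
  IsIntegrallyClosed.isIntegral_iff.mp (isIntegral_trace_of_isIntegral z hz)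

end Trace

section Span

open Matrix

variable {R K L : Type*} [CommRing R] [IsDomain R] [IsIntegrallyClosed R] [Field K] [Algebra R K]
  [IsFractionRing R K] [CommRing L] [Algebra K L] [Algebra R L] [IsScalarTower R K L]

/-- **Unit discriminant ⟹ integrally closed** (fraction-field form). If a `K`-basis `b` of the
finite-dimensional commutative `K`-algebra `L` consists of elements integral over the integrally
closed domain `R` and `discr K b` is (the image of) a unit of `R`, then every element of `L`
integral over `R` lies in the `R`-span of `b`. -/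
theorem mem_span_of_isIntegral_of_isUnit_discr {ι : Type*} [Fintype ι] [DecidableEq ι]
    (b : Module.Basis ι K L) (hb : ∀ i, IsIntegral R (b i))
    (hd : ∃ u : Rˣ, Algebra.discr K b = algebraMap R K u) (z : L) (hz : IsIntegral R z) :
    z ∈ Submodule.span R (Set.range b) := by
  classical
  have : FiniteDimensional K L := Module.Finite.of_basis b
  -- the Gram matrix has entries in `R`
  have hG : ∀ i j, ∃ r : R, algebraMap R K r = Algebra.trace K L (b i * b j) := fun i j =>
    exists_algebraMap_eq_trace_of_isIntegral _ ((hb i).mul (hb j))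
  choose GR hGR using hG
  have hGmap : Algebra.traceMatrix K b = (Matrix.of GR).map (algebraMap R K) := by
    ext i j
    simp [Algebra.traceMatrix_apply, Algebra.traceForm_apply, hGR]
  obtain ⟨u, hu⟩ := hd
  have hdetR : (Matrix.of GR).det = u := by
    apply IsFractionRing.injective R K
    rw [← hu, Algebra.discr_def, hGmap, ← RingHom.mapMatrix_apply, ← RingHom.map_det]
  have hunitR : IsUnit (Matrix.of GR).det := by rw [hdetR]; exact u.isUnit
  have hunitK : IsUnit (Algebra.traceMatrix K b) := by
    rw [Matrix.isUnit_iff_isUnit_det, ← Algebra.discr_def, hu]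
    exact (u.isUnit.map (algebraMap R K))
  -- the traces `Tr(z * b i)` lie in `R`
  have hT : ∀ i, ∃ r : R, algebraMap R K r = Algebra.trace K L (z * b i) := fun i =>
    exists_algebraMap_eq_trace_of_isIntegral _ (hz.mul (hb i))
  choose t ht using hT
  -- solve the linear system over `R`
  set w : ι → R := (Matrix.of GR)⁻¹ *ᵥ t with hw
  have hw' : (Matrix.of GR) *ᵥ w = t := by
    rw [hw, Matrix.mulVec_mulVec, Matrix.mul_nonsing_inv _ hunitR, Matrix.one_mulVec]
  have hcoord : b.equivFun z = fun j => algebraMap R K (w j) := by
    apply Matrix.mulVec_injective_iff_isUnit.mpr hunitK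
    rw [Algebra.traceMatrix_of_basis_mulVec]
    funext i
    have h1 := RingHom.map_mulVec (algebraMap R K) (Matrix.of GR) w i
    rw [hw'] at h1
    rw [hGmap, ← ht i, h1]
    rfl
  have hz' : z = ∑ j, w j • b j := by
    conv_lhs => rw [← b.sum_equivFun z]
    refine Finset.sum_congr rfl fun j _ => ?_
    rw [hcoord, algebraMap_smul]
  rw [hz']
  exact Submodule.sum_mem _ fun j _ => Submodule.smul_mem _ _ (Submodule.subset_span ⟨j, rfl⟩)

end Span

section Abstract

open Matrix

variable {R K S L : Type*} [CommRing R] [Field K] [Algebra R K]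
  [CommRing S] [Algebra R S] [CommRing L] [Algebra K L] [Algebra R L] [IsScalarTower R K L]

/-- The matrix of multiplication by `φ s` in a `K`-basis `bL` of `L` which is the image of an
`R`-basis `b` of `S` is the image of the matrix of multiplication by `s`. -/
theorem leftMulMatrix_map_of_basis {ι : Type*} [Fintype ι] [DecidableEq ι]
    (b : Module.Basis ι R S) (bL : Module.Basis ι K L) (φ : S →ₐ[R] L)
    (hφ : ∀ i, bL i = φ (b i)) (s : S) :
    Algebra.leftMulMatrix bL (φ s) = (Algebra.leftMulMatrix b s).map (algebraMap R K) := by
  ext i j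
  rw [Algebra.leftMulMatrix_eq_repr_mul, Matrix.map_apply, Algebra.leftMulMatrix_eq_repr_mul]
  have h : φ s * bL j = ∑ i, algebraMap R K (b.repr (s * b j) i) • bL i := by
    rw [hφ j, ← map_mul]
    conv_lhs => rw [← b.sum_repr (s * b j)]
    rw [map_sum]
    refine Finset.sum_congr rfl fun i _ => ?_
    rw [map_smul, algebraMap_smul, hφ i]
  rw [h, map_sum, Finsupp.finsetSum_apply]
  simp only [map_smul, Module.Basis.repr_self, Finsupp.smul_apply, Finsupp.single_apply,
    smul_eq_mul, mul_ite, mul_one, mul_zero, Finset.sum_ite_eq', Finset.mem_univ, if_true]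

theorem trace_map_of_basis {ι : Type*} [Fintype ι] [DecidableEq ι]
    (b : Module.Basis ι R S) (bL : Module.Basis ι K L) (φ : S →ₐ[R] L)
    (hφ : ∀ i, bL i = φ (b i)) (s : S) :
    Algebra.trace K L (φ s) = algebraMap R K (Algebra.trace R S s) := by
  rw [Algebra.trace_eq_matrix_trace bL, leftMulMatrix_map_of_basis b bL φ hφ,
    Algebra.trace_eq_matrix_trace b]
  simp [Matrix.trace, map_sum]

theorem discr_map_of_basis {ι : Type*} [Fintype ι] [DecidableEq ι]
    (b : Module.Basis ι R S) (bL : Module.Basis ι K L) (φ : S →ₐ[R] L)
    (hφ : ∀ i, bL i = φ (b i)) :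
    Algebra.discr K bL = algebraMap R K (Algebra.discr R b) := by
  have hM : Algebra.traceMatrix K bL = (Algebra.traceMatrix R b).map (algebraMap R K) := by
    ext i j
    rw [Matrix.map_apply, Algebra.traceMatrix_apply, Algebra.traceMatrix_apply,
      Algebra.traceForm_apply, Algebra.traceForm_apply, hφ i, hφ j, ← map_mul,
      trace_map_of_basis b bL φ hφ]
  rw [Algebra.discr_def, hM, Algebra.discr_def, ← RingHom.mapMatrix_apply, ← RingHom.map_det]

variable [IsDomain R] [IsIntegrallyClosed R] [IsFractionRing R K]

/-- **Unit discriminant ⟹ integrally closed** (abstract form). `S` a finite free `R`-algebra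
with basis `b` and unit discriminant, `φ : S → L` an `R`-algebra map to a `K`-algebra sending
`b` to a `K`-basis. Then every element of `L` integral over `R` lies in the image of `S`. -/
theorem mem_range_of_isIntegral_of_isUnit_discr {ι : Type*} [Fintype ι] [DecidableEq ι]
    (b : Module.Basis ι R S) (hd : IsUnit (Algebra.discr R b))
    (bL : Module.Basis ι K L) (φ : S →ₐ[R] L) (hφ : ∀ i, bL i = φ (b i))
    (z : L) (hz : IsIntegral R z) : z ∈ φ.range := by
  have hfin : Module.Finite R S := Module.Finite.of_basis b
  have hb : ∀ i, IsIntegral R (bL i) := fun i => by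
    rw [hφ i]; exact (IsIntegral.of_finite R (b i)).map φ
  have hd' : ∃ u : Rˣ, Algebra.discr K bL = algebraMap R K u :=
    ⟨hd.unit, by rw [discr_map_of_basis b bL φ hφ, IsUnit.unit_spec]⟩
  have hmem := mem_span_of_isIntegral_of_isUnit_discr bL hb hd' z hz
  have hle : Submodule.span R (Set.range bL) ≤ Subalgebra.toSubmodule φ.range := by
    rw [Submodule.span_le]
    rintro _ ⟨i, rfl⟩
    exact ⟨b i, (hφ i).symm⟩
  exact hle hmem

/-- **Unit discriminant ⟹ integrally closed** (tensor form): every element of `K ⊗[R] S`
integral over `R` is of the form `1 ⊗ₜ s`. -/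
theorem exists_tmul_eq_of_isIntegral_of_isUnit_discr {ι : Type*} [Fintype ι] [DecidableEq ι]
    (b : Module.Basis ι R S) (hd : IsUnit (Algebra.discr R b))
    (z : K ⊗[R] S) (hz : IsIntegral R z) : ∃ s : S, (1 : K) ⊗ₜ[R] s = z := by
  obtain ⟨s, hs⟩ := mem_range_of_isIntegral_of_isUnit_discr (K := K) b hd
    (Algebra.TensorProduct.basis K b) (Algebra.TensorProduct.includeRight)
    (fun i => by simp) z hz
  exact ⟨s, hs⟩

end Abstract

end Fermat.Agent.S18.H45
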