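import Fermat.Agent.S18.Bridge_helper18
import Fermat.Agent.S24.FundId_helper32
import Fermat.Agent.S24.Basics_helper19
import Fermat.Agent.S28.DegreeQ_helper98

/-!
# S18 (helper18): existence of divisors on the generic fibre

`exists_divisor_bar`: every nonzero element of `modularFunctionFieldBar N` has a divisor
(finitely many zeros and poles).  This is the hypothesis `hdivL` of `H18.bridge`, discharged from
the landed S24 library.  `bridge'` is `bridge` without `hdivL`.
-/

set_option autoImplicit false
set_option synthInstance.maxHeartbeats 400000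

open ModularCurve AlgebraicCurve IntermediateField

namespace Fermat.Agent.S18.H18

section Generic

variable {K F : Type*} [Field K] [Field F] [Algebra K F] [IsAlgClosed K] [CharZero K]

/-- In a one-variable function field over an algebraically closed field of characteristic zero
every nonzero function has a divisor. -/
theorem exists_divisor_of_finiteDimensional (x : F) (hx : Transcendental K x)
    [FiniteDimensional K⟮x⟯ F] (f : F) (hf : f ≠ 0) :
    ∃ E : Divisor K F, ∀ P : Place K F, E P = P.ord f := by
  classical
  by_cases hfa : IsAlgebraic K f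
  · obtain ⟨c, rfl⟩ : ∃ c : K, algebraMap K F c = f := by
      have hint : IsIntegral K f := hfa.isIntegral
      have hdeg := IsAlgClosed.degree_eq_one_of_irreducible K (minpoly.irreducible hint)
      exact minpoly.mem_range_of_degree_eq_one K f hdeg
    have hc : c ≠ 0 := by
      rintro rfl
      exact hf (map_zero _)
    exact ⟨0, fun P => by rw [ord_algebraMap_eq_zero P hc]; rfl⟩
  · have hfd : FiniteDimensional K⟮f⟯ F :=
      S24.H19.finiteDimensional_adjoin x f hx inferInstance hfa
    have hz := S24.H32.finite_zeros (K := K) (F := F) hfa
    have hp := S24.H32.finite_poles (K := K) (F := F) hfa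
    have hsupp : (Function.support fun P : Place K F => P.ord f).Finite := by
      refine (hz.union hp).subset ?_
      intro P hP
      rcases lt_trichotomy (P.ord f) 0 with h | h | h
      · exact Or.inr h
      · exact absurd h hP
      · exact Or.inl h
    exact ⟨Finsupp.ofSupportFinite _ hsupp, fun P => rfl⟩

end Generic

/-- `hdivL`: every nonzero modular function over `ℚ̄` has a divisor. -/
theorem exists_divisor_bar (N : ℕ) [NeZero N] (f : modularFunctionFieldBar N) (hf : f ≠ 0) :
    ∃ E : Divisor (AlgebraicClosure ℚ) (modularFunctionFieldBar N), ∀ P, E P = P.ord f := by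
  obtain ⟨hfd, -⟩ := S28.H98.finrank_bar N
  exact exists_divisor_of_finiteDimensional (S24.H98.jBar N)
    (S24.H89.transcendental_jBar N _) f hf

/-- `bridge` with `hdivL` discharged. -/
theorem bridge' {A : ValuationSubring (AlgebraicClosure ℚ)} {N : ℕ} [NeZero N]
    (h : ReductionInputsModL A N) (m : ℕ) (z : JZero N) (hmz : m • z = 0)
    (hz : reductionModL A N z = 0)
    (hconstk : ∀ g : modularFunctionFieldFullC (IsLocalRing.ResidueField A) N, g ≠ 0 →
      (∀ Q : Place (IsLocalRing.ResidueField A)
        (modularFunctionFieldFullC (IsLocalRing.ResidueField A) N), Q.ord g = 0) →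
      ∃ c : IsLocalRing.ResidueField A,
        g = algebraMap (IsLocalRing.ResidueField A)
          (modularFunctionFieldFullC (IsLocalRing.ResidueField A) N) c)
    (core : ∀ D : Divisor (AlgebraicClosure ℚ) (modularFunctionFieldBar N),
      Divisor.degree D = 0 → Finsupp.mapDomain (placeReductionModL h) D = 0 →
      ∀ (Y1 Y2 : LaurentSeries A) (h1 : Y1 ∈ gaussRing A N) (h2 : Y2 ∈ gaussRing A N),
        coeffMap (IsLocalRing.residue A) Y1 ≠ 0 →
        coeffMap (IsLocalRing.residue A) Y1 = coeffMap (IsLocalRing.residue A) Y2 →
        (∀ P : Place (AlgebraicClosure ℚ) (modularFunctionFieldBar N),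
          (m • D) P = P.ord (⟨coeffMap A.subtype Y1, h1.1⟩ : modularFunctionFieldBar N) -
            P.ord (⟨coeffMap A.subtype Y2, h2.1⟩ : modularFunctionFieldBar N)) →
        D ∈ Divisor.principal (K := AlgebraicClosure ℚ) (F := modularFunctionFieldBar N)) :
    z = 0 :=
  bridge h m z hmz hz (exists_divisor_bar N) hconstk core

end Fermat.Agent.S18.H18
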