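import Mathlib
import Fermat.Prelude.Def_FLTPrelim_Ramification

set_option autoImplicit false

/-!
# S18, node (A0) = (DVR-K0): `A ∩ K₀` is a discrete valuation ring

* `isDiscreteValuationRing_of_dedekind`: a valuation subring `V ≠ ⊤` of the fraction field of a
  Dedekind domain `R`, containing `R`, is the localisation of `R` at `𝔪_V ∩ R`, hence a DVR.
* `isDiscreteValuationRing_of_numberField`, `finite_residueField_of_numberField`: every valuation
  subring `≠ ⊤` of a number field is a DVR with finite residue field.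
* `isDiscreteValuationRing_comap`: for a number field `K`, `f : K →+* L` and a valuation subring
  `A` of `L` lying over `ℓ ≠ 0`, the ring `A.comap f = A ∩ K` is a DVR; `comapIncl` is the local
  inclusion `A ∩ K → A`, `comapResidue` the map of residue fields, `exists_uniformizer_comap` the
  uniformiser pack, `finite_residueField_comap`, `charP_residueField_comap`.
* `..._inter`, `..._inter_Qbar`: the same for `K₀ : IntermediateField ℚ L` finite over `ℚ`.
-/

namespace Fermat.Agent.S18.H17

open IsLocalRing

section Generic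

variable {R K : Type*} [CommRing R] [IsDedekindDomain R] [Field K] [Algebra R K]
  [IsFractionRing R K]

/-- The `R`-algebra structure on a valuation subring of `K` containing the image of `R`. -/
@[reducible] def algebraOfMem (V : ValuationSubring K) (hRV : ∀ r : R, algebraMap R K r ∈ V) :
    Algebra R V :=
  ((algebraMap R K).codRestrict V.toSubring hRV).toAlgebra

/-- A valuation subring `V ≠ ⊤` of the fraction field of a Dedekind domain `R` which contains
`R` is the localisation of `R` at the nonzero prime `𝔪_V ∩ R`. -/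
theorem comap_ne_bot_and_isLocalization (V : ValuationSubring K)
    (hRV : ∀ r : R, algebraMap R K r ∈ V) (hV : V ≠ ⊤) :
    letI := algebraOfMem V hRV
    (maximalIdeal V).comap (algebraMap R V) ≠ ⊥ ∧
      IsLocalization.AtPrime V ((maximalIdeal V).comap (algebraMap R V)) := by
  classical
  let _ : Algebra R V := algebraOfMem V hRV
  let φ : R →+* V := algebraMap R V
  have hφ : ∀ r : R, ((φ r : V) : K) = algebraMap R K r := fun r => rfl
  have hinj : Function.Injective φ := by
    intro a b hab
    have := congrArg (fun x : V => (x : K)) hab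
    exact IsFractionRing.injective R K this
  let p : Ideal R := (maximalIdeal V).comap φ
  have hmemp : ∀ r : R, r ∈ p ↔ φ r ∈ maximalIdeal V := fun r => Iff.rfl
  -- `p ≠ ⊥`
  have hp0 : p ≠ ⊥ := by
    obtain ⟨x, hx⟩ : ∃ x : K, x ∉ V := by
      by_contra hcon
      push Not at hcon
      exact hV (eq_top_iff.mpr fun x _ => hcon x)
    obtain ⟨a, b, hb, rfl⟩ := IsFractionRing.div_surjective R x
    have hb0 : b ≠ 0 := nonZeroDivisors.ne_zero hb
    have hbp : b ∈ p := by
      rw [hmemp]
      by_contra hnot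
      have hu : IsUnit (φ b) := notMem_maximalIdeal.mp hnot
      obtain ⟨u, hu⟩ := hu
      apply hx
      have h1 : ((↑(u⁻¹ : Vˣ) : V) : K) = (algebraMap R K b)⁻¹ := by
        have h2 : ((u : V) : K) * ((↑(u⁻¹ : Vˣ) : V) : K) = 1 := by
          rw [← MulMemClass.coe_mul, Units.mul_inv]; rfl
        rw [hu, hφ] at h2
        exact eq_inv_of_mul_eq_one_right h2
      rw [div_eq_mul_inv, ← h1]
      exact V.mul_mem _ _ (hRV a) (↑(u⁻¹ : Vˣ) : V).2
    intro hbot
    rw [hbot] at hbp
    exact hb0 hbp
  refine ⟨hp0, ?_⟩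
  refine (isLocalization_iff _ _).mpr ⟨?_, ?_, ?_⟩
  · rintro ⟨y, hy⟩
    exact notMem_maximalIdeal.mp hy
  · intro z
    -- the DVR `R_p` inside `K`
    let Rp := Localization.subalgebra.ofField K p.primeCompl p.primeCompl_le_nonZeroDivisors
    have : IsLocalization.AtPrime Rp p :=
      Localization.subalgebra.isLocalization_ofField K p.primeCompl _
    have : IsDiscreteValuationRing Rp :=
      IsLocalization.AtPrime.isDiscreteValuationRing_of_dedekind_domain R hp0 Rp
    rcases ValuationRing.isInteger_or_isInteger Rp (z : K) with ⟨y, hy⟩ | ⟨y, hy⟩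
    · obtain ⟨a, s, hs, h⟩ := y.2
      have hsK : algebraMap R K s ≠ 0 :=
        (map_ne_zero_iff _ (IsFractionRing.injective R K)).mpr
          (nonZeroDivisors.ne_zero (p.primeCompl_le_nonZeroDivisors hs))
      refine ⟨(a, ⟨s, hs⟩), Subtype.ext ?_⟩
      have hy' : (y : K) = (z : K) := hy
      show (z : K) * algebraMap R K s = algebraMap R K a
      rw [← hy', h, inv_mul_cancel_right₀ hsK]
    · by_cases hz : (z : K) = 0
      · refine ⟨(0, 1), Subtype.ext ?_⟩
        show (z : K) * algebraMap R K 1 = algebraMap R K 0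
        rw [hz, zero_mul, map_zero]
      obtain ⟨a, s, hs, h⟩ := y.2
      have hsK : algebraMap R K s ≠ 0 :=
        (map_ne_zero_iff _ (IsFractionRing.injective R K)).mpr
          (nonZeroDivisors.ne_zero (p.primeCompl_le_nonZeroDivisors hs))
      have hy' : (y : K) = (z : K)⁻¹ := hy
      have hzas : (z : K) * algebraMap R K a = algebraMap R K s := by
        have : (z : K)⁻¹ = algebraMap R K a * (algebraMap R K s)⁻¹ := by rw [← hy', h]
        field_simp at this
        linear_combination -this
      have hap : a ∉ p := by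
        intro hap
        apply hs
        show s ∈ p
        rw [hmemp]
        have : φ s = z * φ a := Subtype.ext (by rw [MulMemClass.coe_mul, hφ, hφ, hzas])
        rw [this]
        exact Ideal.mul_mem_left _ _ ((hmemp a).mp hap)
      exact ⟨(s, ⟨a, hap⟩), Subtype.ext hzas⟩
  · intro x y hxy
    exact ⟨1, by rw [hinj hxy]⟩

/-- A valuation subring `V ≠ ⊤` of the fraction field of a Dedekind domain `R` which contains
`R` is a discrete valuation ring. -/
theorem isDiscreteValuationRing_of_dedekind (V : ValuationSubring K)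
    (hRV : ∀ r : R, algebraMap R K r ∈ V) (hV : V ≠ ⊤) : IsDiscreteValuationRing V := by
  let _ : Algebra R V := algebraOfMem V hRV
  obtain ⟨hp0, hloc⟩ := comap_ne_bot_and_isLocalization V hRV hV
  exact IsLocalization.AtPrime.isDiscreteValuationRing_of_dedekind_domain R hp0 V

end Generic

section NumberField

open NumberField

/-- **(G)** Every valuation subring `V ≠ ⊤` of a number field is a discrete valuation ring. -/
theorem isDiscreteValuationRing_of_numberField (K : Type*) [Field K] [NumberField K]
    (V : ValuationSubring K) (hV : V ≠ ⊤) : IsDiscreteValuationRing V := by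
  refine isDiscreteValuationRing_of_dedekind (R := 𝓞 K) V (fun r => ?_) hV
  have hint : IsIntegral ℤ (algebraMap (𝓞 K) K r) := RingOfIntegers.isIntegral_coe r
  have hint' : IsIntegral V (algebraMap (𝓞 K) K r) := hint.tower_top
  obtain ⟨y, hy⟩ := IsIntegrallyClosed.isIntegral_iff.mp hint'
  rw [← hy]
  exact y.2

/-- Elements of the ring of integers lie in every valuation subring. -/
theorem ringOfIntegers_mem (K : Type*) [Field K] [NumberField K] (V : ValuationSubring K)
    (r : 𝓞 K) : algebraMap (𝓞 K) K r ∈ V := by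
  have hint : IsIntegral ℤ (algebraMap (𝓞 K) K r) := RingOfIntegers.isIntegral_coe r
  have hint' : IsIntegral V (algebraMap (𝓞 K) K r) := hint.tower_top
  obtain ⟨y, hy⟩ := IsIntegrallyClosed.isIntegral_iff.mp hint'
  rw [← hy]
  exact y.2

/-- The residue field of a valuation subring `V ≠ ⊤` of a number field is finite. -/
theorem finite_residueField_of_numberField (K : Type*) [Field K] [NumberField K]
    (V : ValuationSubring K) (hV : V ≠ ⊤) : Finite (ResidueField V) := by
  let _ : Algebra (𝓞 K) V := algebraOfMem (R := 𝓞 K) V (ringOfIntegers_mem K V)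
  obtain ⟨hp0, hloc⟩ := comap_ne_bot_and_isLocalization (R := 𝓞 K) V (ringOfIntegers_mem K V) hV
  have hmax : ((maximalIdeal V).comap (algebraMap (𝓞 K) V)).IsMaximal :=
    Ideal.IsPrime.isMaximal inferInstance hp0
  have hfin : Finite (𝓞 K ⧸ (maximalIdeal V).comap (algebraMap (𝓞 K) V)) :=
    Ideal.finiteQuotientOfFreeOfNeBot _ hp0
  exact Finite.of_equiv _
    (IsLocalization.AtPrime.equivQuotMaximalIdeal
      ((maximalIdeal V).comap (algebraMap (𝓞 K) V)) V).toEquiv

end NumberField

section Comap

variable {K L : Type*} [Field K] [Field L] (f : K →+* L) (A : ValuationSubring L) {ℓ : ℕ}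

/-- The inclusion `A ∩ K → A` as a ring homomorphism. -/
def comapIncl : A.comap f →+* A :=
  (f.comp (A.comap f).subtype).codRestrict A.toSubring fun x => x.2

@[simp] theorem comapIncl_coe (x : A.comap f) : ((comapIncl f A x : A) : L) = f (x : K) := rfl

theorem comapIncl_injective : Function.Injective (comapIncl f A) := by
  intro x y hxy
  have h := congrArg (fun z : A => (z : L)) hxy
  exact Subtype.ext (f.injective h)

/-- `x ∈ A ∩ K` is a unit of `A ∩ K` iff it is a unit of `A`. -/
theorem isUnit_comapIncl_iff (x : A.comap f) : IsUnit (comapIncl f A x) ↔ IsUnit x := by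
  constructor
  · intro h
    have hx0 : (x : K) ≠ 0 := by
      intro h0
      have : comapIncl f A x = 0 := Subtype.ext (by simp [h0])
      rw [this] at h
      exact not_isUnit_zero h
    obtain ⟨u, hu⟩ := h
    have h1 : ((↑(u⁻¹ : Aˣ) : A) : L) = (f (x : K))⁻¹ := by
      have h2 : ((u : A) : L) * ((↑(u⁻¹ : Aˣ) : A) : L) = 1 := by
        rw [← MulMemClass.coe_mul, Units.mul_inv]; rfl
      rw [hu, comapIncl_coe] at h2
      exact eq_inv_of_mul_eq_one_right h2
    have hinv : (x : K)⁻¹ ∈ A.comap f := by
      rw [ValuationSubring.mem_comap, map_inv₀, ← h1]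
      exact (↑(u⁻¹ : Aˣ) : A).2
    exact IsUnit.of_mul_eq_one ⟨(x : K)⁻¹, hinv⟩ (Subtype.ext (mul_inv_cancel₀ hx0))
  · intro h
    exact h.map (comapIncl f A)

instance comapIncl_isLocalHom : IsLocalHom (comapIncl f A) :=
  ⟨fun x hx => (isUnit_comapIncl_iff f A x).mp hx⟩

/-- `x ∈ A ∩ K` lies in the maximal ideal of `A ∩ K` iff it lies in the maximal ideal of `A`. -/
theorem comapIncl_mem_maximalIdeal_iff (x : A.comap f) :
    comapIncl f A x ∈ maximalIdeal A ↔ x ∈ maximalIdeal (A.comap f) := by
  rw [mem_maximalIdeal, mem_maximalIdeal, mem_nonunits_iff, mem_nonunits_iff,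
    isUnit_comapIncl_iff]

/-- The induced map of residue fields `k₀ = (A ∩ K)/m₀ → k = A/m`. -/
noncomputable def comapResidue : ResidueField (A.comap f) →+* ResidueField A :=
  ResidueField.map (comapIncl f A)

@[simp] theorem comapResidue_residue (x : A.comap f) :
    comapResidue f A (residue _ x) = residue _ (comapIncl f A x) := rfl

theorem comapResidue_injective : Function.Injective (comapResidue f A) :=
  (comapResidue f A).injective

/-- If `A` lies over `ℓ`, so does `A ∩ K`. -/
theorem liesOverPrime_comap (hA : A.LiesOverPrime ℓ) : (A.comap f).LiesOverPrime ℓ := by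
  unfold ValuationSubring.LiesOverPrime at hA ⊢
  rw [ValuationSubring.mem_nonunits_iff_or] at hA ⊢
  rcases hA with h | h
  · left
    apply f.injective
    rw [map_natCast, map_zero]; exact h
  · right
    intro hmem
    apply h
    rw [ValuationSubring.mem_comap, map_inv₀, map_natCast] at hmem
    exact hmem

/-- If `A` lies over `ℓ ≠ 0` (and `L` has characteristic `0`), then `A ∩ K ≠ K`. -/
theorem comap_ne_top [CharZero L] (hA : A.LiesOverPrime ℓ) (hℓ : ℓ ≠ 0) : A.comap f ≠ ⊤ := by
  intro htop
  unfold ValuationSubring.LiesOverPrime at hA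
  rw [ValuationSubring.mem_nonunits_iff_or] at hA
  rcases hA with h | h
  · exact hℓ (by exact_mod_cast h)
  · apply h
    have hmem : ((ℓ : K))⁻¹ ∈ A.comap f := by rw [htop]; trivial
    rw [ValuationSubring.mem_comap, map_inv₀, map_natCast] at hmem
    exact hmem

/-- **(DVR-K0)** For a number field `K`, an embedding `f : K → L` and a valuation subring `A`
of `L` lying over a prime `ℓ`, the ring `A ∩ K` is a discrete valuation ring. -/
theorem isDiscreteValuationRing_comap [NumberField K] [CharZero L] (hA : A.LiesOverPrime ℓ)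
    (hℓ : ℓ ≠ 0) : IsDiscreteValuationRing (A.comap f) :=
  isDiscreteValuationRing_of_numberField K _ (comap_ne_top f A hA hℓ)

end Comap

section Uniformizer

variable {K L : Type*} [Field K] [Field L] (f : K →+* L) (A : ValuationSubring L) {ℓ : ℕ}

/-- `ℓ` lies in the maximal ideal of `A ∩ K`. -/
theorem natCast_mem_maximalIdeal_comap (hA : A.LiesOverPrime ℓ) :
    ((ℓ : ℕ) : A.comap f) ∈ maximalIdeal (A.comap f) := by
  have h := liesOverPrime_comap f A hA
  unfold ValuationSubring.LiesOverPrime at h
  have e : (((ℓ : ℕ) : A.comap f) : K) = (ℓ : K) := by simp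
  rw [← e] at h
  exact (ValuationSubring.coe_mem_nonunits_iff (A := A.comap f)).mp h

/-- `ℓ ≠ 0` in `A ∩ K`. -/
theorem natCast_ne_zero_comap [CharZero L] (hℓ : ℓ ≠ 0) : ((ℓ : ℕ) : A.comap f) ≠ 0 := by
  intro h
  have h1 := congrArg (fun x : A.comap f => f (x : K)) h
  simp only [ZeroMemClass.coe_zero, map_zero] at h1
  have e : (((ℓ : ℕ) : A.comap f) : K) = (ℓ : K) := by simp
  rw [e, map_natCast] at h1
  exact hℓ (by exact_mod_cast h1)

/-- **Uniformiser pack for `A₀ = A ∩ K`**: there is an irreducible `π` of `A₀` with `π ∣ ℓ`,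
every nonzero element of `A₀` divides a power of `π` (`harch`), every element is a unit times a
power of `π`, and `π` is a nonunit of `A`. -/
theorem exists_uniformizer_comap [NumberField K] [CharZero L] (hA : A.LiesOverPrime ℓ)
    (hℓ : ℓ ≠ 0) :
    ∃ π : A.comap f, Irreducible π ∧ π ∣ ((ℓ : ℕ) : A.comap f) ∧
      maximalIdeal (A.comap f) = Ideal.span {π} ∧
      (∀ c : A.comap f, c ≠ 0 → ∃ n : ℕ, c ∣ π ^ n) ∧
      (∀ c : A.comap f, c ≠ 0 → ∃ (n : ℕ) (u : (A.comap f)ˣ), c = u * π ^ n) ∧
      comapIncl f A π ∈ maximalIdeal A := by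
  have hdvr : IsDiscreteValuationRing (A.comap f) := isDiscreteValuationRing_comap f A hA hℓ
  obtain ⟨π, hπ⟩ := IsDiscreteValuationRing.exists_irreducible (A.comap f)
  have hmax : maximalIdeal (A.comap f) = Ideal.span {π} := hπ.maximalIdeal_eq
  refine ⟨π, hπ, ?_, hmax, ?_, ?_, ?_⟩
  · have := natCast_mem_maximalIdeal_comap f A hA
    rw [hmax, Ideal.mem_span_singleton] at this
    exact this
  · intro c hc
    obtain ⟨n, hn⟩ := IsDiscreteValuationRing.associated_pow_irreducible hc hπ
    exact ⟨n, hn.dvd⟩
  · intro c hc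
    obtain ⟨n, u, hu⟩ := IsDiscreteValuationRing.associated_pow_irreducible hc hπ
    exact ⟨n, u⁻¹, by rw [← hu]; simp [mul_comm]⟩
  · rw [comapIncl_mem_maximalIdeal_iff, hmax]
    exact Ideal.mem_span_singleton_self π

/-- **(D3)** The residue field `k₀` of `A ∩ K` is finite. -/
theorem finite_residueField_comap [NumberField K] [CharZero L] (hA : A.LiesOverPrime ℓ)
    (hℓ : ℓ ≠ 0) : Finite (ResidueField (A.comap f)) :=
  finite_residueField_of_numberField K _ (comap_ne_top f A hA hℓ)

/-- **(D3)** The residue field `k₀` of `A ∩ K` has characteristic `ℓ`. -/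
theorem charP_residueField_comap (hA : A.LiesOverPrime ℓ) (hℓ : ℓ.Prime) :
    CharP (ResidueField (A.comap f)) ℓ := by
  rw [CharP.charP_iff_prime_eq_zero hℓ]
  have h := (residue_eq_zero_iff (R := A.comap f) _).mpr (natCast_mem_maximalIdeal_comap f A hA)
  rwa [map_natCast] at h

end Uniformizer

section Frozen

variable {L : Type*} [Field L] [CharZero L] [Algebra ℚ L]

/-- **(A0)** For a number field `K₀ ≤ L` (an intermediate field, finite over `ℚ`) and a valuation
subring `A` of `L` lying over a prime `ℓ`, `A₀ = A ∩ K₀` is a discrete valuation ring. -/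
theorem isDiscreteValuationRing_inter (K₀ : IntermediateField ℚ L) [FiniteDimensional ℚ K₀]
    (A : ValuationSubring L) {ℓ : ℕ} (hA : A.LiesOverPrime ℓ) (hℓ : ℓ ≠ 0) :
    IsDiscreteValuationRing (A.comap (algebraMap K₀ L)) := by
  have hfin : @FiniteDimensional ℚ K₀ _ _
      (@Algebra.toModule ℚ K₀ _ _ DivisionRing.toRatAlgebra) := by
    convert (inferInstance : FiniteDimensional ℚ K₀)
    exact Subsingleton.elim _ _
  have : NumberField K₀ := @NumberField.mk K₀ _ inferInstance hfin
  exact isDiscreteValuationRing_comap (algebraMap K₀ L) A hA hℓ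

/-- **(A0)**, residue field: `k₀` is finite of characteristic `ℓ`. -/
theorem finite_residueField_inter (K₀ : IntermediateField ℚ L) [FiniteDimensional ℚ K₀]
    (A : ValuationSubring L) {ℓ : ℕ} (hA : A.LiesOverPrime ℓ) (hℓ : ℓ ≠ 0) :
    Finite (ResidueField (A.comap (algebraMap K₀ L))) := by
  have hfin : @FiniteDimensional ℚ K₀ _ _
      (@Algebra.toModule ℚ K₀ _ _ DivisionRing.toRatAlgebra) := by
    convert (inferInstance : FiniteDimensional ℚ K₀)
    exact Subsingleton.elim _ _
  have : NumberField K₀ := @NumberField.mk K₀ _ inferInstance hfin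
  exact finite_residueField_comap (algebraMap K₀ L) A hA hℓ

/-- **(A0)**, uniformiser pack for `A₀ = A ∩ K₀`. -/
theorem exists_uniformizer_inter (K₀ : IntermediateField ℚ L) [FiniteDimensional ℚ K₀]
    (A : ValuationSubring L) {ℓ : ℕ} (hA : A.LiesOverPrime ℓ) (hℓ : ℓ ≠ 0) :
    ∃ π : A.comap (algebraMap K₀ L), Irreducible π ∧
      π ∣ ((ℓ : ℕ) : A.comap (algebraMap K₀ L)) ∧
      maximalIdeal (A.comap (algebraMap K₀ L)) = Ideal.span {π} ∧
      (∀ c : A.comap (algebraMap K₀ L), c ≠ 0 → ∃ n : ℕ, c ∣ π ^ n) ∧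
      (∀ c : A.comap (algebraMap K₀ L), c ≠ 0 →
        ∃ (n : ℕ) (u : (A.comap (algebraMap K₀ L))ˣ), c = u * π ^ n) ∧
      comapIncl (algebraMap K₀ L) A π ∈ maximalIdeal A := by
  have hfin : @FiniteDimensional ℚ K₀ _ _
      (@Algebra.toModule ℚ K₀ _ _ DivisionRing.toRatAlgebra) := by
    convert (inferInstance : FiniteDimensional ℚ K₀)
    exact Subsingleton.elim _ _
  have : NumberField K₀ := @NumberField.mk K₀ _ inferInstance hfin
  exact exists_uniformizer_comap (algebraMap K₀ L) A hA hℓ

omit [CharZero L] in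
/-- Membership in `A₀ = A ∩ K₀` is membership in `A`. -/
theorem mem_inter_iff (K₀ : IntermediateField ℚ L) (A : ValuationSubring L) (x : K₀) :
    x ∈ A.comap (algebraMap K₀ L) ↔ (x : L) ∈ A := Iff.rfl

end Frozen

section Qbar

/-- **(A0), frozen shape**: `A ∩ K₀` is a DVR for `K₀ ≤ Qbar` finite over `ℚ` and `A` over `ℓ`. -/
theorem isDiscreteValuationRing_inter_Qbar (K₀ : IntermediateField ℚ (AlgebraicClosure ℚ))
    [FiniteDimensional ℚ K₀] (A : ValuationSubring (AlgebraicClosure ℚ)) {ℓ : ℕ}
    (hℓ : ℓ.Prime) (hA : A.LiesOverPrime ℓ) :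
    IsDiscreteValuationRing (A.comap (algebraMap K₀ (AlgebraicClosure ℚ))) :=
  isDiscreteValuationRing_inter K₀ A hA hℓ.ne_zero

/-- **(A0), frozen shape**: the residue field of `A ∩ K₀` is finite. -/
theorem finite_residueField_inter_Qbar (K₀ : IntermediateField ℚ (AlgebraicClosure ℚ))
    [FiniteDimensional ℚ K₀] (A : ValuationSubring (AlgebraicClosure ℚ)) {ℓ : ℕ}
    (hℓ : ℓ.Prime) (hA : A.LiesOverPrime ℓ) :
    Finite (ResidueField (A.comap (algebraMap K₀ (AlgebraicClosure ℚ)))) :=
  finite_residueField_inter K₀ A hA hℓ.ne_zero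

end Qbar

end Fermat.Agent.S18.H17
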