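import Mathlib
import Fermat.Prelude.Def_FLTPrelim_Ramification

/-!
# S18 node (A0) = (DVR-K0) (helper53)

For a number field `K` and a valuation subring `B` of `K` in which a prime number `ℓ` is a
non-unit, `B` is a discrete valuation ring.  In particular, for a valuation subring `A` of any
field `L ⊇ K` lying over `ℓ` (e.g. the frozen `A ⊆ AlgebraicClosure ℚ` of S18), the ring
`A ∩ K = A.comap (algebraMap K L)` is a DVR.

Main statements:

* `exists_ne_map_eq_of_sum_eq_zero` : two terms of a vanishing sum share the maximal valuation.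
* `exists_pow_eq_zpow` : `v x ^ (n!) = v ℓ ^ k` for every `x ≠ 0` (`n = [K : ℚ]`).
* `exists_generator` : a uniformiser `x0` with `v y ∈ (v x0) ^ ℤ` for all `y ≠ 0`.
* `isDVR_of_numberField` : `IsDiscreteValuationRing B`.
* `isDVR_comap`, `exists_uniformiser_comap` : the same for `A.comap (algebraMap K L)`.
* `comapHom`, `comapHom_isLocalHom`, `residueMap`, `residueMap_residue` : the local inclusion
  `A ∩ K → A` and the induced map of residue fields.
-/

set_option autoImplicit false

namespace Fermat.Agent.S18.H53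

open Polynomial

section Val

variable {K : Type*} [Field K] {Γ : Type*} [LinearOrderedCommGroupWithZero Γ] (v : Valuation K Γ)

/-- In a vanishing finite sum with a nonzero term, two distinct terms have the same nonzero
valuation. -/
theorem exists_ne_map_eq_of_sum_eq_zero {ι : Type*} [DecidableEq ι] (s : Finset ι) (f : ι → K)
    (hsum : ∑ i ∈ s, f i = 0) (hne : ∃ i ∈ s, f i ≠ 0) :
    ∃ i ∈ s, ∃ j ∈ s, i ≠ j ∧ v (f i) = v (f j) ∧ v (f i) ≠ 0 := by
  have hs : s.Nonempty := by obtain ⟨i, hi, _⟩ := hne; exact ⟨i, hi⟩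
  obtain ⟨i0, hi0, hmax⟩ := s.exists_max_image (fun i => v (f i)) hs
  have hpos : v (f i0) ≠ 0 := by
    obtain ⟨i, hi, hfi⟩ := hne
    have h1 : v (f i) ≠ 0 := (v.ne_zero_iff).mpr hfi
    intro h0
    have h2 := hmax i hi
    rw [h0] at h2
    exact h1 (le_zero_iff.mp h2)
  by_contra hcon
  push Not at hcon
  have hlt : ∀ j ∈ s.erase i0, v (f j) < v (f i0) := by
    intro j hj
    have hj' := Finset.mem_erase.mp hj
    refine lt_of_le_of_ne (hmax j hj'.2) ?_
    intro heq
    exact hpos (hcon i0 hi0 j hj'.2 (Ne.symm hj'.1) heq.symm)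
  have h1 : v (∑ j ∈ s.erase i0, f j) < v (f i0) := v.map_sum_lt hpos hlt
  have h2 : ∑ j ∈ s.erase i0, f j = - f i0 := by
    have := Finset.add_sum_erase s f hi0
    rw [hsum] at this
    linear_combination this
  rw [h2, v.map_neg] at h1
  exact lt_irrefl _ h1

end Val

section NumberField

variable {K : Type*} [Field K] (B : ValuationSubring K) {ℓ : ℕ}

/-- Natural numbers prime to `ℓ` have valuation one. -/
theorem valuation_natCast_eq_one (hℓ : ℓ.Prime) (hB : (ℓ : K) ∈ B.nonunits) {n : ℕ}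
    (hn : ¬ ℓ ∣ n) : B.valuation (n : K) = 1 := by
  have hle : B.valuation (n : K) ≤ 1 := (B.valuation_le_one_iff _).mpr (natCast_mem B n)
  refine le_antisymm hle (le_of_not_gt fun hlt => ?_)
  have hcop : IsCoprime (ℓ : ℤ) (n : ℤ) :=
    Nat.isCoprime_iff_coprime.mpr ((Nat.Prime.coprime_iff_not_dvd hℓ).mpr hn)
  obtain ⟨a, b, hab⟩ := hcop
  have h1 : ((a : ℤ) : K) * (ℓ : K) + ((b : ℤ) : K) * (n : K) = 1 := by
    have := congrArg (fun z : ℤ => (z : K)) hab
    simpa using this
  have ha : B.valuation ((a : ℤ) : K) ≤ 1 := (B.valuation_le_one_iff _).mpr (intCast_mem B a)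
  have hb : B.valuation ((b : ℤ) : K) ≤ 1 := (B.valuation_le_one_iff _).mpr (intCast_mem B b)
  have hl : B.valuation (ℓ : K) < 1 := hB
  have h2 : B.valuation (1 : K) < 1 := by
    rw [← h1]
    refine lt_of_le_of_lt (B.valuation.map_add _ _) (max_lt ?_ ?_)
    · rw [map_mul]
      calc B.valuation ((a : ℤ) : K) * B.valuation (ℓ : K)
          ≤ 1 * B.valuation (ℓ : K) := mul_le_mul' ha le_rfl
        _ = B.valuation (ℓ : K) := one_mul _
        _ < 1 := hl
    · rw [map_mul]
      calc B.valuation ((b : ℤ) : K) * B.valuation (n : K)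
          ≤ 1 * B.valuation (n : K) := mul_le_mul' hb le_rfl
        _ = B.valuation (n : K) := one_mul _
        _ < 1 := hlt
  rw [map_one] at h2
  exact lt_irrefl _ h2

/-- The valuation of a nonzero natural number is a power of the valuation of `ℓ`. -/
theorem exists_valuation_natCast (hℓ : ℓ.Prime) (hB : (ℓ : K) ∈ B.nonunits) {a : ℕ}
    (ha : a ≠ 0) : ∃ e : ℕ, B.valuation (a : K) = B.valuation (ℓ : K) ^ e := by
  obtain ⟨e, u, hu, rfl⟩ := Nat.exists_eq_pow_mul_and_not_dvd ha ℓ hℓ.ne_one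
  exact ⟨e, by rw [Nat.cast_mul, Nat.cast_pow, map_mul, map_pow,
    valuation_natCast_eq_one B hℓ hB hu, mul_one]⟩

variable [CharZero K]

/-- The valuation of a nonzero rational number is an integral power of the valuation of `ℓ`. -/
theorem exists_valuation_ratCast (hℓ : ℓ.Prime) (hB : (ℓ : K) ∈ B.nonunits) {c : ℚ}
    (hc : c ≠ 0) : ∃ k : ℤ, B.valuation (c : K) = B.valuation (ℓ : K) ^ k := by
  have hl0 : B.valuation (ℓ : K) ≠ 0 :=
    (B.valuation.ne_zero_iff).mpr (Nat.cast_ne_zero.mpr hℓ.ne_zero)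
  have hnum : c.num.natAbs ≠ 0 := Int.natAbs_ne_zero.mpr (Rat.num_ne_zero.mpr hc)
  obtain ⟨e1, h1⟩ := exists_valuation_natCast B hℓ hB hnum
  obtain ⟨e2, h2⟩ := exists_valuation_natCast B hℓ hB c.den_nz
  have h3 : B.valuation ((c.num : ℤ) : K) = B.valuation ((c.num.natAbs : ℕ) : K) := by
    rcases Int.natAbs_eq c.num with h | h
    · conv_lhs => rw [h]
      simp
    · conv_lhs => rw [h]
      simp
  refine ⟨(e1 : ℤ) - e2, ?_⟩
  rw [Rat.cast_def, map_div₀, h3, h1, h2, zpow_sub₀ hl0, zpow_natCast, zpow_natCast]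

variable [FiniteDimensional ℚ K]

/-- **Bounded ramification.** For `x ≠ 0` in a number field of degree `n`, the valuation of
`x ^ (n!)` is an integral power of the valuation of `ℓ`. -/
theorem exists_pow_eq_zpow (hℓ : ℓ.Prime) (hB : (ℓ : K) ∈ B.nonunits) (x : K) (hx : x ≠ 0) :
    ∃ k : ℤ, B.valuation x ^ (Module.finrank ℚ K).factorial = B.valuation (ℓ : K) ^ k := by
  classical
  have hl0 : B.valuation (ℓ : K) ≠ 0 :=
    (B.valuation.ne_zero_iff).mpr (Nat.cast_ne_zero.mpr hℓ.ne_zero)
  have hint : IsIntegral ℚ x := IsIntegral.of_finite ℚ x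
  have hp0 : minpoly ℚ x ≠ 0 := minpoly.ne_zero hint
  have hdeg : (minpoly ℚ x).natDegree ≤ Module.finrank ℚ K := minpoly.natDegree_le x
  have hsum : ∑ i ∈ Finset.range ((minpoly ℚ x).natDegree + 1),
      (algebraMap ℚ K ((minpoly ℚ x).coeff i) * x ^ i) = 0 := by
    have := minpoly.aeval ℚ x
    rw [Polynomial.aeval_eq_sum_range] at this
    simpa [Algebra.smul_def] using this
  have hne : ∃ i ∈ Finset.range ((minpoly ℚ x).natDegree + 1),
      algebraMap ℚ K ((minpoly ℚ x).coeff i) * x ^ i ≠ 0 :=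
    ⟨(minpoly ℚ x).natDegree, Finset.self_mem_range_succ _,
      mul_ne_zero ((_root_.map_ne_zero _).mpr (Polynomial.leadingCoeff_ne_zero.mpr hp0))
        (pow_ne_zero _ hx)⟩
  obtain ⟨i, hi, j, hj, hij, heq, hnz⟩ :=
    exists_ne_map_eq_of_sum_eq_zero B.valuation _ _ hsum hne
  wlog hlt : i < j generalizing i j
  · exact this j hj i hi hij.symm heq.symm (heq ▸ hnz) (lt_of_le_of_ne (not_lt.mp hlt) hij.symm)
  have hvx : B.valuation x ≠ 0 := (B.valuation.ne_zero_iff).mpr hx
  have hci : (minpoly ℚ x).coeff i ≠ 0 := by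
    intro h
    apply hnz
    rw [h, map_zero, zero_mul, map_zero]
  have hcj : (minpoly ℚ x).coeff j ≠ 0 := by
    intro h
    apply hnz
    rw [heq, h, map_zero, zero_mul, map_zero]
  obtain ⟨ki, hki⟩ := exists_valuation_ratCast B hℓ hB hci
  obtain ⟨kj, hkj⟩ := exists_valuation_ratCast B hℓ hB hcj
  obtain ⟨d, rfl⟩ : ∃ d, j = i + d := ⟨j - i, by omega⟩
  have hd0 : 0 < d := by omega
  have hdn : d ≤ Module.finrank ℚ K := by
    have := Finset.mem_range.mp hj
    omega
  -- `v x ^ d = v ℓ ^ (ki - kj)`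
  have hxd : B.valuation x ^ d = B.valuation (ℓ : K) ^ (ki - kj) := by
    rw [map_mul, map_mul, map_pow, map_pow, pow_add] at heq
    have e1 : algebraMap ℚ K ((minpoly ℚ x).coeff i) = (((minpoly ℚ x).coeff i : ℚ) : K) := rfl
    have e2 : algebraMap ℚ K ((minpoly ℚ x).coeff (i + d)) =
        (((minpoly ℚ x).coeff (i + d) : ℚ) : K) := rfl
    rw [e1, e2, hki, hkj] at heq
    have hxi : B.valuation x ^ i ≠ 0 := pow_ne_zero _ hvx
    have hkj0 : B.valuation (ℓ : K) ^ kj ≠ 0 := zpow_ne_zero _ hl0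
    rw [zpow_sub₀ hl0, eq_div_iff hkj0]
    have h4 : B.valuation (ℓ : K) ^ ki * B.valuation x ^ i =
        (B.valuation x ^ d * B.valuation (ℓ : K) ^ kj) * B.valuation x ^ i := by
      rw [heq]; ac_rfl
    exact (mul_right_cancel₀ hxi h4).symm
  obtain ⟨q, hq⟩ := Nat.dvd_factorial hd0 hdn
  refine ⟨(ki - kj) * q, ?_⟩
  rw [hq, pow_mul, hxd, zpow_mul, zpow_natCast]

/-- **Discreteness.** There is `x0 ≠ 0` of valuation `< 1` such that the valuation of every
nonzero element is an integral power of the valuation of `x0`. -/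
theorem exists_generator (hℓ : ℓ.Prime) (hB : (ℓ : K) ∈ B.nonunits) :
    ∃ x0 : K, x0 ≠ 0 ∧ B.valuation x0 < 1 ∧
      ∀ y : K, y ≠ 0 → ∃ q : ℤ, B.valuation y = B.valuation x0 ^ q := by
  classical
  have hN : (Module.finrank ℚ K).factorial ≠ 0 := Nat.factorial_ne_zero _
  have hℓK : (ℓ : K) ≠ 0 := Nat.cast_ne_zero.mpr hℓ.ne_zero
  have hl0 : B.valuation (ℓ : K) ≠ 0 := (B.valuation.ne_zero_iff).mpr hℓK
  have hl0' : 0 < B.valuation (ℓ : K) := zero_lt_iff.mpr hl0
  have hl1 : B.valuation (ℓ : K) < 1 := hB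
  have hT : ∃ k : ℕ, ∃ x : K, x ≠ 0 ∧ B.valuation x < 1 ∧
      B.valuation x ^ (Module.finrank ℚ K).factorial = B.valuation (ℓ : K) ^ k :=
    ⟨_, (ℓ : K), hℓK, hl1, rfl⟩
  obtain ⟨x0, hx0, hx01, hx0N⟩ := Nat.find_spec hT
  have hmin : ∀ k : ℕ, k < Nat.find hT → ¬ ∃ x : K, x ≠ 0 ∧ B.valuation x < 1 ∧
      B.valuation x ^ (Module.finrank ℚ K).factorial = B.valuation (ℓ : K) ^ k :=
    fun k hk => Nat.find_min hT hk
  have hvx0 : B.valuation x0 ≠ 0 := (B.valuation.ne_zero_iff).mpr hx0
  have hk0 : 0 < Nat.find hT := by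
    rcases Nat.eq_zero_or_pos (Nat.find hT) with h | h
    · rw [h, pow_zero] at hx0N
      exact absurd hx0N (ne_of_lt (pow_lt_one₀ zero_le hx01 hN))
    · exact h
  refine ⟨x0, hx0, hx01, fun y hy => ?_⟩
  obtain ⟨k, hk⟩ := exists_pow_eq_zpow B hℓ hB y hy
  have hk0' : ((Nat.find hT : ℕ) : ℤ) ≠ 0 := by exact_mod_cast hk0.ne'
  have hr0 : 0 ≤ k % (Nat.find hT : ℤ) := Int.emod_nonneg k hk0'
  have hr1 : k % (Nat.find hT : ℤ) < (Nat.find hT : ℤ) :=
    Int.emod_lt_of_pos k (by exact_mod_cast hk0)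
  have hdm : (Nat.find hT : ℤ) * (k / (Nat.find hT : ℤ)) + k % (Nat.find hT : ℤ) = k :=
    Int.mul_ediv_add_emod k _
  -- the element `z = y / x0 ^ q`
  have hzN : B.valuation (y * (x0 ^ (k / (Nat.find hT : ℤ)))⁻¹) ^ (Module.finrank ℚ K).factorial
      = B.valuation (ℓ : K) ^ (k % (Nat.find hT : ℤ)) := by
    rw [map_mul, map_inv₀, map_zpow₀, mul_pow, hk, inv_pow, ← zpow_natCast (_ ^ _),
      ← zpow_mul, mul_comm (k / (Nat.find hT : ℤ)), zpow_mul, zpow_natCast, hx0N,
      ← zpow_natCast (B.valuation (ℓ : K)), ← zpow_mul, ← zpow_neg, ← zpow_add₀ hl0]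
    congr 1
    linarith
  have hz0 : y * (x0 ^ (k / (Nat.find hT : ℤ)))⁻¹ ≠ 0 :=
    mul_ne_zero hy (inv_ne_zero (zpow_ne_zero _ hx0))
  have hr : k % (Nat.find hT : ℤ) = 0 := by
    by_contra hne
    have hpos : 0 < k % (Nat.find hT : ℤ) := lt_of_le_of_ne hr0 (Ne.symm hne)
    obtain ⟨r, hr⟩ := Int.eq_ofNat_of_zero_le hr0
    have hrlt : r < Nat.find hT := by
      have : (r : ℤ) < (Nat.find hT : ℤ) := hr ▸ hr1
      exact_mod_cast this
    apply hmin r hrlt
    refine ⟨_, hz0, ?_, ?_⟩
    · by_contra hge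
      have hge' : 1 ≤ B.valuation (y * (x0 ^ (k / (Nat.find hT : ℤ)))⁻¹) := not_lt.mp hge
      have h1 : 1 ≤ B.valuation (y * (x0 ^ (k / (Nat.find hT : ℤ)))⁻¹) ^
          (Module.finrank ℚ K).factorial := one_le_pow₀ hge'
      rw [hzN] at h1
      exact absurd h1 (not_le.mpr ((zpow_lt_one_iff_right_of_lt_one₀ hl0' hl1).mpr hpos))
    · rw [hzN, hr, zpow_natCast]
  rw [hr, zpow_zero] at hzN
  have hz1 : B.valuation (y * (x0 ^ (k / (Nat.find hT : ℤ)))⁻¹) = 1 :=
    (pow_eq_one_iff_of_nonneg zero_le hN).mp hzN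
  refine ⟨k / (Nat.find hT : ℤ), ?_⟩
  rw [map_mul, map_inv₀, map_zpow₀] at hz1
  have hne : B.valuation x0 ^ (k / (Nat.find hT : ℤ)) ≠ 0 := zpow_ne_zero _ hvx0
  field_simp at hz1
  exact hz1

/-- A valuation subring of a number field in which a prime number `ℓ` is a non-unit has a
uniformiser: an irreducible element `π` such that every nonzero element is associated to a
power of `π`. -/
theorem exists_irreducible_forall_associated (hℓ : ℓ.Prime) (hB : (ℓ : K) ∈ B.nonunits) :
    ∃ π : B, Irreducible π ∧ ∀ y : B, y ≠ 0 → ∃ n : ℕ, Associated (π ^ n) y := by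
  obtain ⟨x0, hx0, hx01, hgen⟩ := exists_generator B hℓ hB
  have hvx0 : 0 < B.valuation x0 := zero_lt_iff.mpr ((B.valuation.ne_zero_iff).mpr hx0)
  have hx0B : x0 ∈ B := (B.valuation_le_one_iff _).mp hx01.le
  -- every nonzero element of `B` is associated to a power of `π`
  have key : ∀ y : B, y ≠ 0 → ∃ n : ℕ, B.valuation (y : K) = B.valuation x0 ^ n := by
    intro y hy
    have hyK : (y : K) ≠ 0 := fun h => hy (Subtype.ext h)
    obtain ⟨q, hq⟩ := hgen y hyK
    have hle : B.valuation (y : K) ≤ 1 := B.valuation_le_one y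
    rw [hq, zpow_le_one_iff_right_of_lt_one₀ hvx0 hx01] at hle
    obtain ⟨n, rfl⟩ := Int.eq_ofNat_of_zero_le hle
    exact ⟨n, by rw [hq, zpow_natCast]⟩
  refine ⟨⟨x0, hx0B⟩, ?_, ?_⟩
  · rw [irreducible_iff]
    refine ⟨?_, ?_⟩
    · rw [B.valuation_eq_one_iff]
      exact ne_of_lt hx01
    · intro a b hab
      have ha0 : a ≠ 0 := by
        rintro rfl
        rw [zero_mul] at hab
        exact hx0 (congrArg Subtype.val hab)
      have hb0 : b ≠ 0 := by
        rintro rfl
        rw [mul_zero] at hab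
        exact hx0 (congrArg Subtype.val hab)
      obtain ⟨na, hna⟩ := key a ha0
      obtain ⟨nb, hnb⟩ := key b hb0
      have hval : B.valuation x0 = B.valuation x0 ^ (na + nb) := by
        have h1 : x0 = (a : K) * (b : K) := congrArg Subtype.val hab
        conv_lhs => rw [h1]
        rw [map_mul, hna, hnb, pow_add]
      have hinj := zpow_right_injective₀ hvx0 (ne_of_lt hx01)
      have h1 : ((na + nb : ℕ) : ℤ) = 1 := by
        apply hinj
        simp only
        rw [zpow_natCast, zpow_one]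
        exact hval.symm
      have h2 : na + nb = 1 := by exact_mod_cast h1
      rcases Nat.eq_zero_or_pos na with h | h
      · left
        rw [B.valuation_eq_one_iff, hna, h, pow_zero]
      · right
        have : nb = 0 := by omega
        rw [B.valuation_eq_one_iff, hnb, this, pow_zero]
  · intro y hy
    obtain ⟨n, hn⟩ := key y hy
    refine ⟨n, ?_⟩
    have h1 : B.valuation (y : K) = B.valuation (((⟨x0, hx0B⟩ : B) ^ n : B) : K) := by
      rw [hn]; simp
    obtain ⟨u, hu⟩ := (B.valuation_eq_iff _ _).mp h1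
    refine ⟨u, ?_⟩
    apply Subtype.ext
    rw [mul_comm]
    exact hu

/-- **(A0-1)** A valuation subring of a number field in which a prime number is a non-unit is
a discrete valuation ring. -/
theorem isDVR_of_numberField (hℓ : ℓ.Prime) (hB : (ℓ : K) ∈ B.nonunits) :
    IsDiscreteValuationRing B := by
  obtain ⟨π, hπ, h⟩ := exists_irreducible_forall_associated B hℓ hB
  exact IsDiscreteValuationRing.ofHasUnitMulPowIrreducibleFactorization
    ⟨π, hπ, fun {x} hx => h x hx⟩

end NumberField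

section Comap

variable {K L : Type*} [Field K] [Field L] [Algebra K L] (A : ValuationSubring L) {ℓ : ℕ}

/-- Membership in `A ∩ K` (definitional). -/
theorem mem_comap_iff {x : K} : x ∈ A.comap (algebraMap K L) ↔ algebraMap K L x ∈ A :=
  Iff.rfl

/-- Non-units of `A ∩ K` are the elements of `K` which are non-units of `A`. -/
theorem mem_nonunits_comap {x : K} :
    x ∈ (A.comap (algebraMap K L)).nonunits ↔ algebraMap K L x ∈ A.nonunits := by
  rw [ValuationSubring.mem_nonunits_iff_or, ValuationSubring.mem_nonunits_iff_or,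
    ValuationSubring.mem_comap, map_inv₀, map_eq_zero]

/-- **(A0-3)** If `A` lies over `ℓ`, so does `A ∩ K`. -/
theorem liesOverPrime_comap (hA : A.LiesOverPrime ℓ) :
    (A.comap (algebraMap K L)).LiesOverPrime ℓ := by
  unfold ValuationSubring.LiesOverPrime at hA ⊢
  rw [mem_nonunits_comap, map_natCast]
  exact hA

/-- **(A0-1)** For a number field `K`, a field `L ⊇ K` and a valuation subring `A` of `L` lying
over a prime `ℓ`, the ring `A ∩ K` is a discrete valuation ring. -/
theorem isDVR_comap [CharZero K] [FiniteDimensional ℚ K] (hℓ : ℓ.Prime)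
    (hA : A.LiesOverPrime ℓ) : IsDiscreteValuationRing (A.comap (algebraMap K L)) :=
  isDVR_of_numberField _ hℓ (liesOverPrime_comap A hA)

/-- **(A0-2)** A uniformiser of `A ∩ K`: irreducible, a non-unit of `A`, every nonzero element
of `A ∩ K` is associated to a power of it, and `ℓ` is associated to a positive power. -/
theorem exists_uniformiser_comap [CharZero K] [FiniteDimensional ℚ K] (hℓ : ℓ.Prime)
    (hA : A.LiesOverPrime ℓ) :
    ∃ π : A.comap (algebraMap K L), Irreducible π ∧ algebraMap K L (π : K) ∈ A.nonunits ∧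
      (∀ y : A.comap (algebraMap K L), y ≠ 0 → ∃ n : ℕ, Associated (π ^ n) y) ∧
      ∃ e : ℕ, 0 < e ∧ Associated (π ^ e) ((ℓ : ℕ) : A.comap (algebraMap K L)) := by
  have hB := liesOverPrime_comap (K := K) A hA
  obtain ⟨π, hπ, h⟩ := exists_irreducible_forall_associated _ hℓ hB
  have hπmem : π ∈ IsLocalRing.maximalIdeal (A.comap (algebraMap K L)) :=
    (IsLocalRing.mem_maximalIdeal _).mpr hπ.not_isUnit
  refine ⟨π, hπ, ?_, h, ?_⟩
  · rw [← mem_nonunits_comap]
    exact ValuationSubring.coe_mem_nonunits_iff.mpr hπmem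
  · have hl0 : ((ℓ : ℕ) : A.comap (algebraMap K L)) ≠ 0 := by
      intro h0
      have h1 : ((ℓ : ℕ) : K) = 0 := by
        have := congrArg Subtype.val h0
        simpa using this
      exact hℓ.ne_zero (Nat.cast_eq_zero.mp h1)
    obtain ⟨e, he⟩ := h _ hl0
    refine ⟨e, ?_, he⟩
    rcases Nat.eq_zero_or_pos e with h0 | h0
    · exfalso
      rw [h0, pow_zero] at he
      have hunit : IsUnit ((ℓ : ℕ) : A.comap (algebraMap K L)) := he.isUnit isUnit_one
      have hmem : ((ℓ : ℕ) : A.comap (algebraMap K L)) ∈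
          IsLocalRing.maximalIdeal (A.comap (algebraMap K L)) := by
        rw [← ValuationSubring.coe_mem_nonunits_iff]
        have : (((ℓ : ℕ) : A.comap (algebraMap K L)) : K) = (ℓ : K) := by simp
        rw [this]
        exact hB
      exact (IsLocalRing.mem_maximalIdeal _).mp hmem hunit
    · exact h0

/-- `harch` for `A ∩ K` with respect to any uniformiser: every nonzero element divides a power
of `π`. -/
theorem exists_dvd_pow_of_irreducible [CharZero K] [FiniteDimensional ℚ K] (hℓ : ℓ.Prime)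
    (hA : A.LiesOverPrime ℓ) {π : A.comap (algebraMap K L)} (hπ : Irreducible π)
    (c : A.comap (algebraMap K L)) (hc : c ≠ 0) : ∃ n : ℕ, c ∣ π ^ n := by
  have := isDVR_comap (K := K) A hℓ hA
  obtain ⟨n, hn⟩ := IsDiscreteValuationRing.associated_pow_irreducible hc hπ
  exact ⟨n, hn.dvd⟩

/-- **(A0-5)** The inclusion `A ∩ K → A`. -/
def comapHom : A.comap (algebraMap K L) →+* A where
  toFun x := ⟨algebraMap K L (x : K), x.2⟩
  map_one' := Subtype.ext (map_one _)
  map_mul' _ _ := Subtype.ext (map_mul _ _ _)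
  map_zero' := Subtype.ext (map_zero _)
  map_add' _ _ := Subtype.ext (map_add _ _ _)

@[simp] theorem coe_comapHom (x : A.comap (algebraMap K L)) :
    ((comapHom A x : A) : L) = algebraMap K L (x : K) := rfl

theorem comapHom_injective : Function.Injective (comapHom (K := K) A) := by
  intro x y h
  have h1 : algebraMap K L (x : K) = algebraMap K L (y : K) := congrArg Subtype.val h
  exact Subtype.ext ((algebraMap K L).injective h1)

/-- The inclusion `A ∩ K → A` is a local homomorphism. -/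
instance comapHom_isLocalHom : IsLocalHom (comapHom (K := K) A) := by
  refine ⟨fun x hx => ?_⟩
  by_contra hnu
  have h1 : x ∈ IsLocalRing.maximalIdeal (A.comap (algebraMap K L)) :=
    (IsLocalRing.mem_maximalIdeal _).mpr hnu
  have h2 : (x : K) ∈ (A.comap (algebraMap K L)).nonunits :=
    ValuationSubring.coe_mem_nonunits_iff.mpr h1
  have h3 : ((comapHom A x : A) : L) ∈ A.nonunits := (mem_nonunits_comap A).mp h2
  have h4 : comapHom A x ∈ IsLocalRing.maximalIdeal A :=
    ValuationSubring.coe_mem_nonunits_iff.mp h3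
  exact (IsLocalRing.mem_maximalIdeal _).mp h4 hx

/-- The induced map of residue fields `k0 → k`. -/
noncomputable def residueMap :
    IsLocalRing.ResidueField (A.comap (algebraMap K L)) →+* IsLocalRing.ResidueField A :=
  IsLocalRing.ResidueField.map (comapHom (K := K) A)

@[simp] theorem residueMap_residue (x : A.comap (algebraMap K L)) :
    residueMap A (IsLocalRing.residue _ x) = IsLocalRing.residue A (comapHom A x) := rfl

theorem residueMap_injective : Function.Injective (residueMap (K := K) A) :=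
  (residueMap (K := K) A).injective

/-- `x ∈ A ∩ K` is a unit iff its image in `A` is a unit. -/
theorem isUnit_comapHom_iff (x : A.comap (algebraMap K L)) :
    IsUnit (comapHom A x) ↔ IsUnit x :=
  ⟨fun h => IsLocalHom.map_nonunit x h, fun h => h.map _⟩

/-- `x ∈ A ∩ K` lies in the maximal ideal iff its image does. -/
theorem comapHom_mem_maximalIdeal_iff (x : A.comap (algebraMap K L)) :
    comapHom A x ∈ IsLocalRing.maximalIdeal A ↔
      x ∈ IsLocalRing.maximalIdeal (A.comap (algebraMap K L)) := by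
  rw [IsLocalRing.mem_maximalIdeal, IsLocalRing.mem_maximalIdeal, mem_nonunits_iff,
    mem_nonunits_iff, isUnit_comapHom_iff]

end Comap

section Qbar

/-- **(A0-6)** Every finite set of algebraic numbers lies in a number field inside `ℚ̄`. -/
theorem exists_numberField_of_finset (S : Finset (AlgebraicClosure ℚ)) :
    ∃ K0 : IntermediateField ℚ (AlgebraicClosure ℚ), FiniteDimensional ℚ K0 ∧ ∀ x ∈ S, x ∈ K0 := by
  refine ⟨IntermediateField.adjoin ℚ (S : Set (AlgebraicClosure ℚ)), ?_, ?_⟩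
  · exact IntermediateField.finiteDimensional_adjoin
      (fun x _ => ((AlgebraicClosure.isAlgebraic ℚ).isAlgebraic x).isIntegral)
  · intro x hx
    exact IntermediateField.subset_adjoin ℚ _ (Finset.mem_coe.mpr hx)

/-- The frozen situation of S18: for a number field `K0 ⊆ ℚ̄` and `A ⊆ ℚ̄` lying over `ℓ`,
`A ∩ K0` is a DVR. -/
theorem isDVR_comap_Qbar (K0 : IntermediateField ℚ (AlgebraicClosure ℚ)) [FiniteDimensional ℚ K0]
    (A : ValuationSubring (AlgebraicClosure ℚ)) {ℓ : ℕ} (hℓ : ℓ.Prime) (hA : A.LiesOverPrime ℓ) :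
    IsDiscreteValuationRing (A.comap (algebraMap K0 (AlgebraicClosure ℚ))) :=
  isDVR_comap A hℓ hA

end Qbar


end Fermat.Agent.S18.H53
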