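/-
S18, node KC3 (algebra part), helper56.  Mathlib only.

* `exists_ne_zero_smul_eq_zero_of_torsion` : the torsion of a finitely generated module over a
  domain is killed by ONE nonzero scalar (no finite presentation needed).
* `exists_pow_smul_eq_zero_bound`, `exists_pow_smul_mem_bound` : bounded `a`-power torsion when
  every nonzero scalar divides a power of `a` ("rank one").
* `eq_zero_of_forall_pow_torsion` : an element which is `a ^ n` times an `a ^ (n+1)`-torsion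
  element for every `n` is zero.
* `exists_pow_dvd_of_liesOverPrime` etc. : the valuation ring of `AlgebraicClosure ℚ` over a
  prime `ℓ` is "rank one".
* `twoChart_fg`, `twoChart_field_fg` : the two-chart finiteness of the Cech `H¹`.
-/
import Mathlib

set_option autoImplicit false

namespace Fermat.Agent.S18.H56

section Torsion

variable {A : Type*} [CommRing A] [IsDomain A]
variable {H : Type*} [AddCommGroup H] [Module A H]

/-- Torsion elements of the span of a finite set are killed by one nonzero scalar. -/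
theorem exists_ne_zero_smul_eq_zero_of_span (s : Finset H) :
    ∃ c : A, c ≠ 0 ∧ ∀ h ∈ Submodule.span A (s : Set H),
      (∃ b : A, b ≠ 0 ∧ b • h = 0) → c • h = 0 := by
  classical
  induction s using Finset.induction_on with
  | empty =>
    refine ⟨1, one_ne_zero, fun h hh _ => ?_⟩
    simp only [Finset.coe_empty, Submodule.span_empty, Submodule.mem_bot] at hh
    simp [hh]
  | insert g s hg ih =>
    obtain ⟨c, hc, hcs⟩ := ih
    by_cases hgN : ∃ b : A, b ≠ 0 ∧ b • g ∈ Submodule.span A (s : Set H)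
    · obtain ⟨b, hb, hbg⟩ := hgN
      refine ⟨c * b, mul_ne_zero hc hb, ?_⟩
      rintro h hh ⟨b', hb', hb'h⟩
      rw [Finset.coe_insert, Submodule.mem_span_insert] at hh
      obtain ⟨a, n, hn, rfl⟩ := hh
      have h1 : b • (a • g + n) ∈ Submodule.span A (s : Set H) := by
        rw [smul_add, smul_comm]
        exact Submodule.add_mem _ (Submodule.smul_mem _ _ hbg) (Submodule.smul_mem _ _ hn)
      have h2 := hcs _ h1 ⟨b', hb', by rw [smul_comm, hb'h, smul_zero]⟩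
      rw [mul_smul]; exact h2
    · push Not at hgN
      refine ⟨c, hc, ?_⟩
      rintro h hh ⟨b', hb', hb'h⟩
      rw [Finset.coe_insert, Submodule.mem_span_insert] at hh
      obtain ⟨a, n, hn, rfl⟩ := hh
      have ha : a = 0 := by
        by_contra ha
        apply hgN (b' * a) (mul_ne_zero hb' ha)
        have : (b' * a) • g = - (b' • n) := by
          rw [smul_add, ← mul_smul] at hb'h
          exact eq_neg_of_add_eq_zero_left hb'h
        rw [this]
        exact Submodule.neg_mem _ (Submodule.smul_mem _ _ hn)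
      subst ha
      rw [zero_smul, zero_add] at hb'h ⊢
      exact hcs n hn ⟨b', hb', hb'h⟩

/-- (V1) The torsion of a finitely generated module over a domain is killed by one nonzero
scalar. -/
theorem exists_ne_zero_smul_eq_zero_of_torsion [Module.Finite A H] :
    ∃ c : A, c ≠ 0 ∧ ∀ h : H, (∃ b : A, b ≠ 0 ∧ b • h = 0) → c • h = 0 := by
  obtain ⟨s, hs⟩ := (Module.Finite.fg_top : (⊤ : Submodule A H).FG)
  obtain ⟨c, hc, hcs⟩ := exists_ne_zero_smul_eq_zero_of_span (A := A) s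
  exact ⟨c, hc, fun h hh => hcs h (by rw [hs]; trivial) hh⟩

/-- (V2) Bounded `a`-power torsion in a finitely generated module, when every nonzero scalar
divides a power of `a`. -/
theorem exists_pow_smul_eq_zero_bound [Module.Finite A H] (a : A)
    (hrk : ∀ c : A, c ≠ 0 → ∃ n : ℕ, c ∣ a ^ n) :
    ∃ n₀ : ℕ, ∀ h : H, (∃ n : ℕ, a ^ n • h = 0) → a ^ n₀ • h = 0 := by
  obtain ⟨c, hc, hcT⟩ := exists_ne_zero_smul_eq_zero_of_torsion (A := A) (H := H)
  obtain ⟨n₀, d, hd⟩ := hrk c hc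
  refine ⟨n₀ + 1, ?_⟩
  rintro h ⟨n, hn⟩
  by_cases ha : a = 0
  · subst ha; simp
  · have h1 : c • h = 0 := hcT h ⟨a ^ n, pow_ne_zero n ha, hn⟩
    rw [pow_succ, hd, mul_comm c d, mul_assoc, mul_smul, mul_comm, mul_smul, h1, smul_zero,
      smul_zero]

/-- (V3) An element which, for every `n`, is `a ^ n` times an `a ^ (n+1)`-torsion element,
is zero. -/
theorem eq_zero_of_forall_pow_torsion [Module.Finite A H] (a : A)
    (hrk : ∀ c : A, c ≠ 0 → ∃ n : ℕ, c ∣ a ^ n) (x : H)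
    (hx : ∀ n : ℕ, ∃ y : H, a ^ (n + 1) • y = 0 ∧ x = a ^ n • y) : x = 0 := by
  obtain ⟨n₀, hn₀⟩ := exists_pow_smul_eq_zero_bound (H := H) a hrk
  obtain ⟨y, hy, rfl⟩ := hx n₀
  exact hn₀ y ⟨n₀ + 1, hy⟩

/-- (V2') Submodule form: if `N ⊔ span S` (S finite) is considered modulo `N`, the `a`-power
torsion is bounded. -/
theorem exists_pow_smul_mem_bound {M : Type*} [AddCommGroup M] [Module A M]
    (N : Submodule A M) (S : Finset M) (a : A)
    (hrk : ∀ c : A, c ≠ 0 → ∃ n : ℕ, c ∣ a ^ n) :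
    ∃ n₀ : ℕ, ∀ h ∈ N ⊔ Submodule.span A (S : Set M),
      (∃ n : ℕ, a ^ n • h ∈ N) → a ^ n₀ • h ∈ N := by
  classical
  set Q : Submodule A (M ⧸ N) := Submodule.map N.mkQ (Submodule.span A (S : Set M)) with hQ
  have : Module.Finite A Q :=
    Module.Finite.iff_fg.mpr ((Submodule.fg_span S.finite_toSet).map _)
  obtain ⟨n₀, hn₀⟩ := exists_pow_smul_eq_zero_bound (H := Q) a hrk
  refine ⟨n₀, ?_⟩
  rintro h hh ⟨n, hn⟩
  obtain ⟨x, hx, y, hy, rfl⟩ := Submodule.mem_sup.mp hh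
  have hmem : N.mkQ (x + y) ∈ Q := by
    refine ⟨y, hy, ?_⟩
    have hx0 : N.mkQ x = 0 := (Submodule.Quotient.mk_eq_zero N).mpr hx
    rw [map_add, hx0, zero_add]
  have h0 : a ^ n • (⟨N.mkQ (x + y), hmem⟩ : Q) = 0 := by
    apply Subtype.ext
    simp only [Submodule.coe_smul, Submodule.coe_zero]
    rw [← map_smul]
    exact (Submodule.Quotient.mk_eq_zero N).mpr hn
  have h1 := hn₀ _ ⟨n, h0⟩
  have h2 := congrArg Subtype.val h1
  simp only [Submodule.coe_smul, Submodule.coe_zero] at h2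
  rw [← map_smul] at h2
  exact (Submodule.Quotient.mk_eq_zero N).mp h2

end Torsion

section RankOne

open Polynomial

variable (A : ValuationSubring (AlgebraicClosure ℚ))

/-- Every element of a valuation subring of `AlgebraicClosure ℚ` is algebraic over `ℤ`. -/
theorem isAlgebraic_int (c : A) : IsAlgebraic ℤ c := by
  have h1 : IsAlgebraic ℚ (c : AlgebraicClosure ℚ) :=
    (AlgebraicClosure.isAlgebraic ℚ).isAlgebraic _
  have h2 : IsAlgebraic ℤ (c : AlgebraicClosure ℚ) :=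
    (IsFractionRing.isAlgebraic_iff ℤ ℚ (AlgebraicClosure ℚ)).mpr h1
  obtain ⟨p, hp0, hp⟩ := h2
  refine ⟨p, hp0, ?_⟩
  apply Subtype.ext
  have h3 : A.subtype (aeval c p) = aeval (c : AlgebraicClosure ℚ) p := by
    rw [aeval_def, aeval_def, hom_eval₂]
    congr 1
  exact h3.trans hp

variable (ℓ : ℕ) [hℓ : Fact ℓ.Prime]

/- NOTE: the hypothesis `hA` below is the unfolded form of the Prelude's `A.LiesOverPrime ℓ`
(`ValuationSubring.LiesOverPrime A q := (q : L) ∈ A.nonunits`), so a proof of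
`A.LiesOverPrime ℓ` can be passed for it directly. -/

omit hℓ in
theorem natCast_mem_maximalIdeal (hA : ((ℓ : ℕ) : AlgebraicClosure ℚ) ∈ A.nonunits) :
    ((ℓ : ℕ) : A) ∈ IsLocalRing.maximalIdeal A := by
  rw [ValuationSubring.valuation_lt_one_iff]
  have h := (ValuationSubring.mem_nonunits_iff (A := A)).mp hA
  simpa using h

/-- Integers prime to `ℓ` are units of a valuation ring lying over `ℓ`. -/
theorem isUnit_intCast_of_not_dvd (hA : ((ℓ : ℕ) : AlgebraicClosure ℚ) ∈ A.nonunits) {u : ℤ} (hu : ¬ (ℓ : ℤ) ∣ u) :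
    IsUnit ((u : ℤ) : A) := by
  have hcop : IsCoprime (ℓ : ℤ) u :=
    (Nat.prime_iff_prime_int.mp hℓ.out).irreducible.coprime_iff_not_dvd.mpr hu
  obtain ⟨x, y, hxy⟩ := hcop
  by_contra hnu
  have hu_mem : ((u : ℤ) : A) ∈ IsLocalRing.maximalIdeal A :=
    (IsLocalRing.mem_maximalIdeal _).mpr hnu
  have hl_mem := natCast_mem_maximalIdeal A ℓ hA
  have h1 : (1 : A) ∈ IsLocalRing.maximalIdeal A := by
    have h2 : ((x : ℤ) : A) * ((ℓ : ℕ) : A) + ((y : ℤ) : A) * ((u : ℤ) : A) = 1 := by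
      have := congrArg (Int.cast : ℤ → A) hxy
      push_cast at this
      exact this
    rw [← h2]
    exact Ideal.add_mem _ (Ideal.mul_mem_left _ _ hl_mem) (Ideal.mul_mem_left _ _ hu_mem)
  exact (Ideal.ne_top_iff_one _).mp (IsLocalRing.maximalIdeal.isMaximal A).ne_top h1

/-- (V4) Every nonzero element of a valuation ring of `AlgebraicClosure ℚ` over `ℓ` divides a
power of `ℓ`. -/
theorem exists_pow_dvd_of_liesOverPrime (hA : ((ℓ : ℕ) : AlgebraicClosure ℚ) ∈ A.nonunits) (c : A) (hc : c ≠ 0) :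
    ∃ n : ℕ, c ∣ ((ℓ : ℕ) : A) ^ n := by
  obtain ⟨r, hr0, hr⟩ :=
    (isAlgebraic_int A c).exists_nonzero_dvd (mem_nonZeroDivisors_of_ne_zero hc)
  have hr' : c ∣ ((r.natAbs : ℕ) : A) := by
    have h1 : r ∣ ((r.natAbs : ℕ) : ℤ) := Int.dvd_natAbs.mpr dvd_rfl
    have h2 := map_dvd (Int.castRingHom A) h1
    simp only [eq_intCast, Int.cast_natCast] at h2
    refine hr.trans ?_
    simpa using h2
  obtain ⟨e, n', hn', hrn⟩ :=
    Nat.exists_eq_pow_mul_and_not_dvd (Int.natAbs_ne_zero.mpr hr0) ℓ hℓ.out.ne_one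
  have hunit : IsUnit ((n' : ℕ) : A) := by
    have := isUnit_intCast_of_not_dvd A ℓ hA (u := (n' : ℤ))
      (by rwa [Int.natCast_dvd_natCast])
    simpa using this
  refine ⟨e, ?_⟩
  rw [hrn] at hr'
  push_cast at hr'
  exact (IsUnit.dvd_mul_right hunit).mp hr'

/-- A nonunit `π ≠ 0` of a valuation ring of `AlgebraicClosure ℚ` over `ℓ` has a power divisible
by `ℓ` (the value group has rank one). -/
theorem exists_natCast_dvd_pow_of_liesOverPrime (hA : ((ℓ : ℕ) : AlgebraicClosure ℚ) ∈ A.nonunits) (π : A) (hπ0 : π ≠ 0)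
    (hπ : ¬ IsUnit π) : ∃ k : ℕ, ((ℓ : ℕ) : A) ∣ π ^ k := by
  classical
  obtain ⟨p, hp0, hp⟩ := isAlgebraic_int A π
  -- pass to the primitive part
  have hcont : p.content ≠ 0 := fun h => hp0 (content_eq_zero_iff.mp h)
  have hp1 : aeval π p.primPart = 0 := by
    have h1 : aeval π p = aeval π (C p.content * p.primPart) := by
      rw [← eq_C_content_mul_primPart]
    rw [hp, map_mul, aeval_C] at h1
    have h2 : algebraMap ℤ A p.content ≠ 0 := by
      rw [eq_intCast]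
      intro h
      have h3 := congrArg (A.subtype) h
      simp only [map_intCast, map_zero] at h3
      exact hcont (by exact_mod_cast h3)
    exact (mul_eq_zero.mp h1.symm).resolve_left h2
  set q := p.primPart with hq
  have hprim : q.IsPrimitive := isPrimitive_primPart p
  have hex : ∃ i, ¬ (ℓ : ℤ) ∣ q.coeff i := by
    by_contra hall
    push Not at hall
    have h1 : C (ℓ : ℤ) ∣ q := (C_dvd_iff_dvd_coeff _ _).mpr hall
    have h2 := hprim _ h1
    have h3 : (ℓ : ℤ) = 1 ∨ (ℓ : ℤ) = -1 := Int.isUnit_iff.mp h2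
    have h4 := hℓ.out.two_le
    omega
  set i₀ := Nat.find hex with hi₀
  have hi₀spec : ¬ (ℓ : ℤ) ∣ q.coeff i₀ := Nat.find_spec hex
  have hi₀min : ∀ i, i < i₀ → (ℓ : ℤ) ∣ q.coeff i := fun i hi => by
    by_contra h
    exact Nat.find_min hex hi h
  refine ⟨i₀ + 1, ?_⟩
  by_contra hnd
  have hdvd : π ^ (i₀ + 1) ∣ ((ℓ : ℕ) : A) :=
    (ValuationRing.dvd_total _ _).resolve_right hnd
  have hunit : IsUnit ((q.coeff i₀ : ℤ) : A) := isUnit_intCast_of_not_dvd A ℓ hA hi₀spec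
  have hne : q.coeff i₀ ≠ 0 := fun h => hi₀spec (by rw [h]; exact dvd_zero _)
  have hmem : i₀ ∈ Finset.range (q.natDegree + 1) :=
    Finset.mem_range.mpr (Nat.lt_succ_of_le (le_natDegree_of_ne_zero hne))
  have hsum := aeval_eq_sum_range (p := q) π
  rw [hp1] at hsum
  rw [← Finset.add_sum_erase _ _ hmem] at hsum
  have hrest : π ^ (i₀ + 1) ∣ ∑ i ∈ (Finset.range (q.natDegree + 1)).erase i₀, q.coeff i • π ^ i := by
    refine Finset.dvd_sum fun i hi => ?_
    have hii : i ≠ i₀ := (Finset.mem_erase.mp hi).1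
    rw [zsmul_eq_mul]
    rcases lt_or_gt_of_ne hii with hlt | hgt
    · have h1 : ((ℓ : ℕ) : A) ∣ ((q.coeff i : ℤ) : A) := by
        have h2 := map_dvd (Int.castRingHom A) (hi₀min i hlt)
        simpa using h2
      exact Dvd.dvd.mul_right (hdvd.trans h1) _
    · exact Dvd.dvd.mul_left (pow_dvd_pow π (Nat.succ_le_of_lt hgt)) _
  have hterm : π ^ (i₀ + 1) ∣ q.coeff i₀ • π ^ i₀ := by
    have h1 : q.coeff i₀ • π ^ i₀ =
        -∑ i ∈ (Finset.range (q.natDegree + 1)).erase i₀, q.coeff i • π ^ i :=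
      eq_neg_of_add_eq_zero_left hsum.symm
    rw [h1]
    exact (dvd_neg).mpr hrest
  rw [zsmul_eq_mul] at hterm
  have h2 : π ^ (i₀ + 1) ∣ π ^ i₀ := (IsUnit.dvd_mul_left hunit).mp hterm
  rw [pow_succ] at h2
  have h3 : π ∣ 1 := by
    have h4 : π ^ i₀ * π ∣ π ^ i₀ * 1 := by rwa [mul_one]
    exact (mul_dvd_mul_iff_left (pow_ne_zero i₀ hπ0)).mp h4
  exact hπ (isUnit_of_dvd_one h3)

/-- (V4') "Rank one" in the form used by the bounded-torsion lemmas: every nonzero element divides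
a power of any fixed nonunit `π`. -/
theorem exists_dvd_pow_of_liesOverPrime (hA : ((ℓ : ℕ) : AlgebraicClosure ℚ) ∈ A.nonunits) (π : A) (hπ : ¬ IsUnit π)
    (c : A) (hc : c ≠ 0) : ∃ n : ℕ, c ∣ π ^ n := by
  by_cases hπ0 : π = 0
  · exact ⟨1, by rw [hπ0, pow_one]; exact dvd_zero c⟩
  obtain ⟨n, hn⟩ := exists_pow_dvd_of_liesOverPrime A ℓ hA c hc
  obtain ⟨k, hk⟩ := exists_natCast_dvd_pow_of_liesOverPrime A ℓ hA π hπ0 hπ
  exact ⟨k * n, by rw [pow_mul]; exact hn.trans (pow_dvd_pow_of_dvd hk n)⟩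

end RankOne

section TwoChart

variable {A : Type*} [CommRing A] {F : Type*} [CommRing F] [Algebra A F]

/-- (V5) Two-chart finiteness. `MU` is generated over `A[j]` by finitely many `u i`, each of which
lies in `j ^ n • MV`, `MV` is stable under `j⁻¹`.  Then `⋃ j⁻ᵏ MU` is, modulo `MU + MV`,
spanned over `A` by a finite set. -/
theorem twoChart_fg (j : Fˣ) (MU MV : Submodule A F)
    (hJU : ∀ x ∈ MU, (j : F) * x ∈ MU) (hJV : ∀ x ∈ MV, ((j⁻¹ : Fˣ) : F) * x ∈ MV)
    {ι : Type*} [Finite ι] (u : ι → F) (hu : ∀ i, u i ∈ MU)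
    (hgen : MU ≤ Submodule.span A (Set.range fun p : ι × ℕ => (j : F) ^ p.2 * u p.1))
    (n : ι → ℕ) (hn : ∀ i, ((j⁻¹ : Fˣ) : F) ^ n i * u i ∈ MV) :
    ∃ S : Finset F, ∀ (k : ℕ), ∀ x ∈ MU,
      ((j⁻¹ : Fˣ) : F) ^ k * x ∈ MU ⊔ MV ⊔ Submodule.span A (S : Set F) := by
  classical
  have := Fintype.ofFinite ι
  set S : Finset F := Finset.univ.biUnion fun i : ι =>
    (Finset.range (n i)).image fun a => ((j⁻¹ : Fˣ) : F) ^ a * u i with hS
  refine ⟨S, ?_⟩
  set T : Submodule A F := MU ⊔ MV ⊔ Submodule.span A (S : Set F) with hT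
  have hMU : MU ≤ T := le_sup_of_le_left le_sup_left
  have hMV : MV ≤ T := le_sup_of_le_left le_sup_right
  have hST : Submodule.span A (S : Set F) ≤ T := le_sup_right
  -- nonnegative powers stay in `MU`
  have hpos : ∀ (a : ℕ) (i : ι), (j : F) ^ a * u i ∈ MU := by
    intro a i
    induction a with
    | zero => simpa using hu i
    | succ a ih => rw [pow_succ', mul_assoc]; exact hJU _ ih
  -- negative powers beyond `n i` are in `MV`
  have hneg : ∀ (b : ℕ) (i : ι), ((j⁻¹ : Fˣ) : F) ^ (n i + b) * u i ∈ MV := by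
    intro b i
    induction b with
    | zero => simpa using hn i
    | succ b ih => rw [← add_assoc, pow_succ', mul_assoc]; exact hJV _ ih
  -- all the elements `j⁻¹ ^ k * (j ^ a * u i)` are in `T`
  have key : ∀ (k a : ℕ) (i : ι), ((j⁻¹ : Fˣ) : F) ^ k * ((j : F) ^ a * u i) ∈ T := by
    intro k a i
    rcases le_total k a with hka | hak
    · -- j^(a-k) u_i
      obtain ⟨d, rfl⟩ := Nat.exists_eq_add_of_le hka
      have : ((j⁻¹ : Fˣ) : F) ^ k * ((j : F) ^ (k + d) * u i) = (j : F) ^ d * u i := by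
        rw [pow_add, ← mul_assoc, ← mul_assoc, ← mul_pow, Units.inv_mul, one_pow, one_mul]
      rw [this]
      exact hMU (hpos d i)
    · obtain ⟨d, rfl⟩ := Nat.exists_eq_add_of_le hak
      have : ((j⁻¹ : Fˣ) : F) ^ (a + d) * ((j : F) ^ a * u i) = ((j⁻¹ : Fˣ) : F) ^ d * u i := by
        rw [pow_add, mul_comm (((j⁻¹ : Fˣ) : F) ^ a), mul_assoc, ← mul_assoc (((j⁻¹ : Fˣ) : F) ^ a),
          ← mul_pow, Units.inv_mul, one_pow, one_mul]
      rw [this]
      by_cases hd : d < n i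
      · apply hST
        apply Submodule.subset_span
        rw [hS, Finset.mem_coe, Finset.mem_biUnion]
        exact ⟨i, Finset.mem_univ _, Finset.mem_image.mpr ⟨d, Finset.mem_range.mpr hd, rfl⟩⟩
      · obtain ⟨b, rfl⟩ := Nat.exists_eq_add_of_le (not_lt.mp hd)
        exact hMV (hneg b i)
  intro k x hx
  have hx' := hgen hx
  -- the `A`-linear map `x ↦ j⁻¹ ^ k * x`
  have hmap : Submodule.span A (Set.range fun p : ι × ℕ => (j : F) ^ p.2 * u p.1) ≤
      T.comap (LinearMap.mulLeft A (((j⁻¹ : Fˣ) : F) ^ k)) := by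
    rw [Submodule.span_le]
    rintro _ ⟨⟨i, a⟩, rfl⟩
    exact key k a i
  exact hmap hx'

/-- (K4) for the two-chart situation over a "rank one" domain: bounded `a`-power torsion of
`(⋃ j⁻ᵏ MU) / (MU + MV)`. -/
theorem twoChart_bounded_torsion [IsDomain A] (j : Fˣ) (MU MV : Submodule A F)
    (hJU : ∀ x ∈ MU, (j : F) * x ∈ MU) (hJV : ∀ x ∈ MV, ((j⁻¹ : Fˣ) : F) * x ∈ MV)
    {ι : Type*} [Finite ι] (u : ι → F) (hu : ∀ i, u i ∈ MU)
    (hgen : MU ≤ Submodule.span A (Set.range fun p : ι × ℕ => (j : F) ^ p.2 * u p.1))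
    (n : ι → ℕ) (hn : ∀ i, ((j⁻¹ : Fˣ) : F) ^ n i * u i ∈ MV)
    (a : A) (hrk : ∀ c : A, c ≠ 0 → ∃ m : ℕ, c ∣ a ^ m) :
    ∃ n₀ : ℕ, ∀ (k : ℕ), ∀ x ∈ MU,
      (∃ m : ℕ, a ^ m • (((j⁻¹ : Fˣ) : F) ^ k * x) ∈ MU ⊔ MV) →
        a ^ n₀ • (((j⁻¹ : Fˣ) : F) ^ k * x) ∈ MU ⊔ MV := by
  obtain ⟨S, hS⟩ := twoChart_fg j MU MV hJU hJV u hu hgen n hn
  obtain ⟨n₀, hn₀⟩ := exists_pow_smul_mem_bound (MU ⊔ MV) S a hrk
  exact ⟨n₀, fun k x hx hm => hn₀ _ (hS k x hx) hm⟩

end TwoChart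

end Fermat.Agent.S18.H56
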