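/-
S18 helper library (helper95): the BRIDGE between the landed Gauss valuation ring of helper93
(`H93.GaussData`, `gaussW`, `gaussRho`; any valuation subring `A`) and the landed abstract chart
theorems of `GaussChart_helper95` / `GaussSat_helper95`, for a DISCRETE `A`.

* `isGauss_gaussW` : for `A` a discrete valuation ring with uniformiser `ϖ`,
  `S28.H95.IsGauss (gaussW hD).toSubring ϖ (gaussRho hD)`;
* `gauss_sat_base` : for every integral base series `T : A((q))` with `ι T ∈ F`, `red T`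
  transcendental over the residue field and `ι J ∈ L(ι T)` (so `T = J, J⁻¹, t_M, t_M⁻¹`):
  with `φ : A[X] →+* F`, `P ↦ P(ι T)`, every `b ∈ F` integral over `φ(A[X])` lies in `gaussW`,
  and `b = ϖ ^ k * w` with `w ∈ gaussW` implies `w` integral over `φ(A[X])`.
-/
import Mathlib
import Fermat.Agent.S18.GaussA_helper93
import Fermat.Agent.S18.GaussSat_helper95

set_option autoImplicit false

noncomputable section

namespace Fermat.Agent.S18.H95

open Polynomial ModularCurve Fermat.Agent.S28.H95 Fermat.Agent.S18.H93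

section Abstract

variable {A0 F κ K₁ : Type*} [CommRing A0] [IsDomain A0] [UniqueFactorizationMonoid A0]
  [Field F] [CommRing κ] [IsDomain κ] [Field K₁] [Algebra K₁ F]
variable {V : Subring F} {ϖ : V} {red : V →+* κ}

omit [IsDomain κ] in
/-- The chart map `φ : A0[X] →+* F` is injective (`x = φ X` is transcendental). -/
theorem phi_injective (hG : IsGauss V ϖ red) (π₀ : A0) (hπ₀ : Irreducible π₀)
    (φ : A0[X] →+* F) (hϖ : (ϖ : F) = φ (C π₀)) (hφV : ∀ P, φ P ∈ V)
    (htr : ∀ (P : A0[X]) (v : V), (v : F) = φ P → red v = 0 → C π₀ ∣ P) :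
    Function.Injective φ := by
  let φV : A0[X] →+* V := φ.codRestrict V hφV
  rw [injective_iff_map_eq_zero]
  intro P hP
  by_contra hne
  obtain ⟨m, P', hP', rfl⟩ := exists_eq_C_pow_mul π₀ hπ₀ P hne
  rw [map_mul, map_pow, ← hϖ] at hP
  have h0 : φ P' = 0 := by
    rcases mul_eq_zero.mp hP with h | h
    · exact absurd h (pow_ne_zero _ hG.1)
    · exact h
  apply hP'
  refine htr P' (φV P') rfl ?_
  have : φV P' = 0 := Subtype.ext h0
  rw [this, map_zero]

/-- The independence hypothesis of `RedCore` from independence over polynomials. -/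
theorem hind_of_family (hG : IsGauss V ϖ red) (π₀ : A0) (hπ₀ : Irreducible π₀)
    (φ : A0[X] →+* F) (hϖ : (ϖ : F) = φ (C π₀)) (hφV : ∀ P, φ P ∈ V)
    (htr : ∀ (P : A0[X]) (v : V), (v : F) = φ P → red v = 0 → C π₀ ∣ P)
    (hK1b : ∀ c : K₁, ∃ P Q : A0[X], φ Q ≠ 0 ∧ algebraMap K₁ F c * φ Q = φ P)
    {n : ℕ} (y : Fin n → V)
    (hind : ∀ (P : Fin n → A0[X]) (c : Fin n → V), (∀ i, (c i : F) = φ (P i)) →
      ∑ i, red (c i) * red (y i) = 0 → ∀ i, C π₀ ∣ P i) :
    ∀ c : Fin n → V, (∀ i, (c i : F) ∈ (algebraMap K₁ F).range) →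
      ∑ i, red (c i) * red (y i) = 0 → ∀ i, red (c i) = 0 := by
  classical
  let φV : A0[X] →+* V := φ.codRestrict V hφV
  have hφVc : ∀ P, ((φV P : V) : F) = φ P := fun P => rfl
  have hredπ : ∀ P, C π₀ ∣ P → red (φV P) = 0 := by
    rintro _ ⟨Q, rfl⟩
    have : φV (C π₀ * Q) = ϖ * φV Q := by
      apply Subtype.ext
      push_cast
      rw [hφVc, hφVc, map_mul, hϖ]
    rw [this, map_mul, hG.2.1, zero_mul]
  have hprim : ∀ P, ¬ C π₀ ∣ P → red (φV P) ≠ 0 := fun P hP h0 => hP (htr P (φV P) rfl h0)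
  have hfrac : ∀ c : V, (∃ c₁ : K₁, algebraMap K₁ F c₁ = (c : F)) →
      ∃ P Q : A0[X], ¬ C π₀ ∣ Q ∧ (c : F) * φ Q = φ P := by
    rintro c ⟨c₁, hc₁⟩
    obtain ⟨P, Q, hQ, hPQ⟩ := hK1b c₁
    rw [hc₁] at hPQ
    have hQ0 : Q ≠ 0 := fun h => hQ (by rw [h, map_zero])
    by_cases hP0 : P = 0
    · refine ⟨0, 1, ?_, ?_⟩
      · intro hd
        exact hπ₀.not_isUnit (Polynomial.isUnit_C.mp (isUnit_of_dvd_one hd))
      · rw [hP0, map_zero] at hPQ
        rcases mul_eq_zero.mp hPQ with h | h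
        · rw [h, zero_mul, map_zero]
        · exact absurd h hQ
    obtain ⟨m, Q', hQ', rfl⟩ := exists_eq_C_pow_mul π₀ hπ₀ Q hQ0
    obtain ⟨k, P', hP', rfl⟩ := exists_eq_C_pow_mul π₀ hπ₀ P hP0
    rw [map_mul, map_mul, map_pow, map_pow, ← hϖ] at hPQ
    rcases le_or_gt m k with hmk | hmk
    · refine ⟨C π₀ ^ (k - m) * P', Q', hQ', ?_⟩
      rw [map_mul, map_pow, ← hϖ]
      have hpm : (ϖ : F) ^ m ≠ 0 := pow_ne_zero _ hG.1
      apply mul_left_cancel₀ hpm
      have e : (ϖ : F) ^ m * ((ϖ : F) ^ (k - m) * φ P') = (ϖ : F) ^ k * φ P' := by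
        rw [← mul_assoc, ← pow_add, Nat.add_sub_cancel' hmk]
      rw [e, ← hPQ]
      ring
    · exfalso
      apply hprim P' hP'
      have hkey : φV P' = c * ϖ ^ (m - k) * φV Q' := by
        apply Subtype.ext
        push_cast
        rw [hφVc, hφVc]
        have hpk : (ϖ : F) ^ k ≠ 0 := pow_ne_zero _ hG.1
        apply mul_left_cancel₀ hpk
        rw [← hPQ]
        have e : (ϖ : F) ^ m = (ϖ : F) ^ k * (ϖ : F) ^ (m - k) := by
          rw [← pow_add, Nat.add_sub_cancel' hmk.le]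
        rw [e]
        ring
      rw [hkey, map_mul, map_mul, map_pow, hG.2.1, zero_pow (by omega), mul_zero, zero_mul]
  intro c hc hsum
  choose P Q hQ hPQ using fun i => hfrac (c i) (hc i)
  set D : A0[X] := ∏ j, Q j with hD
  have hDne : red (φV D) ≠ 0 := by
    rw [hD, map_prod, map_prod]
    exact Finset.prod_ne_zero_iff.mpr fun j _ => hprim (Q j) (hQ j)
  let P' : Fin n → A0[X] := fun i => P i * ∏ j ∈ Finset.univ.erase i, Q j
  have hcP : ∀ i, ((c i * φV D : V) : F) = φ (P' i) := by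
    intro i
    push_cast
    rw [hφVc, hD, ← Finset.mul_prod_erase Finset.univ Q (Finset.mem_univ i), map_mul,
      ← mul_assoc, hPQ i, ← map_mul]
  have h2 : ∑ i, red (c i * φV D) * red (y i) = 0 := by
    have : ∀ i, red (c i * φV D) * red (y i) = red (φV D) * (red (c i) * red (y i)) := by
      intro i
      rw [map_mul]
      ring
    simp_rw [this]
    rw [← Finset.mul_sum, hsum, mul_zero]
  have h3 := hind P' (fun i => c i * φV D) hcP h2
  intro i
  have h4 : red (c i * φV D) = 0 := by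
    have e : c i * φV D = φV (P' i) := Subtype.ext (hcP i)
    rw [e]
    exact hredπ _ (h3 i)
  rw [map_mul] at h4
  rcases mul_eq_zero.mp h4 with h | h
  · exact h
  · exact absurd h hDne

end Abstract

section Bridge

variable {L : Type*} [Field L] {A : ValuationSubring L}
variable {F : IntermediateField L (LaurentSeries L)}
variable {Fk : IntermediateField (IsLocalRing.ResidueField A)
  (LaurentSeries (IsLocalRing.ResidueField A))}
variable {J : LaurentSeries A} {n : ℕ} {b : Fin n → LaurentSeries A}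

/-- The Gauss reduction, on the underlying subring. -/
def gRed (hD : GaussData A F Fk J b) : ↥(gaussW hD).toSubring →+* ↥Fk := gaussRho hD

/-- An integral series of `F` as an element of the Gauss ring. -/
def intV (hD : GaussData A F Fk J b) (y : LaurentSeries A) (hy : iotaA A y ∈ F) :
    ↥(gaussW hD).toSubring :=
  ⟨⟨iotaA A y, hy⟩, iota_mem_gaussW hD y hy⟩

theorem gRed_intV (hD : GaussData A F Fk J b) (y : LaurentSeries A) (hy : iotaA A y ∈ F) :
    gRed hD (intV hD y hy) = ⟨redA A y, hD.red_mem y hy⟩ :=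
  gaussRho_iota hD y hy

theorem iotaA_C (a : A) : iotaA A (HahnSeries.C a) = algebraMap L (LaurentSeries L) (a : L) := by
  rw [coeffMap_C, C_eq_algebraMap]
  rfl

/-- A constant of `A` as an element of the Gauss ring. -/
def constV (hD : GaussData A F Fk J b) (a : A) : ↥(gaussW hD).toSubring :=
  intV hD (HahnSeries.C a) (by rw [iotaA_C]; exact F.algebraMap_mem _)

theorem coe_constV (hD : GaussData A F Fk J b) (a : A) :
    ((constV hD a : ↥(gaussW hD).toSubring) : F) = algebraMap L F (a : L) := by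
  apply Subtype.ext
  show iotaA A (HahnSeries.C a) = algebraMap L (LaurentSeries L) (a : L)
  exact iotaA_C a

theorem constV_mul (hD : GaussData A F Fk J b) (a c : A) :
    constV hD (a * c) = constV hD a * constV hD c := by
  apply Subtype.ext
  rw [Subring.coe_mul, coe_constV, coe_constV, coe_constV]
  exact map_mul (algebraMap L F) (a : L) (c : L)

theorem constV_one (hD : GaussData A F Fk J b) : constV hD 1 = 1 := by
  apply Subtype.ext
  rw [coe_constV]
  simp

end Bridge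

section DVR

variable {L : Type*} [Field L] {A : ValuationSubring L} [IsDiscreteValuationRing A]
variable {F : IntermediateField L (LaurentSeries L)}
variable {Fk : IntermediateField (IsLocalRing.ResidueField A)
  (LaurentSeries (IsLocalRing.ResidueField A))}
variable {J : LaurentSeries A} {n : ℕ} {b : Fin n → LaurentSeries A}

omit [IsDiscreteValuationRing A] in
theorem coe_unit_inv (u u' : A) (h : u * u' = 1) : (u' : L) = (u : L)⁻¹ := by
  have h1 : (u : L) * (u' : L) = 1 := by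
    have := congrArg (Subtype.val) h
    simpa using this
  exact eq_inv_of_mul_eq_one_right h1

/-- Every nonzero element of `L` is a power of the uniformiser times a unit of `A`. -/
theorem exists_zpow_mul_unit (ϖ : A) (hϖ : Irreducible ϖ) (c : L) (hc : c ≠ 0) :
    ∃ (m : ℤ) (u u' : A), u * u' = 1 ∧ c = (ϖ : L) ^ m * (u : L) := by
  rcases A.mem_or_inv_mem c with hcA | hcA
  · have hc0 : (⟨c, hcA⟩ : A) ≠ 0 := fun h => hc (congrArg Subtype.val h)
    obtain ⟨k, u, hu⟩ := IsDiscreteValuationRing.eq_unit_mul_pow_irreducible hc0 hϖ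
    refine ⟨k, u, ((u⁻¹ : Aˣ) : A), by simp, ?_⟩
    have h1 : c = (u : L) * (ϖ : L) ^ k := by
      have := congrArg (Subtype.val) hu
      simpa using this
    rw [h1, zpow_natCast]
    ring
  · have hc0 : (⟨c⁻¹, hcA⟩ : A) ≠ 0 := fun h => (inv_ne_zero hc) (congrArg Subtype.val h)
    obtain ⟨k, u, hu⟩ := IsDiscreteValuationRing.eq_unit_mul_pow_irreducible hc0 hϖ
    refine ⟨-(k : ℤ), ((u⁻¹ : Aˣ) : A), u, by simp, ?_⟩
    have h1 : c⁻¹ = (u : L) * (ϖ : L) ^ k := by
      have := congrArg (Subtype.val) hu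
      simpa using this
    have h2 : (((u⁻¹ : Aˣ) : A) : L) = ((u : A) : L)⁻¹ := coe_unit_inv (u : A) _ (by simp)
    rw [h2, zpow_neg, zpow_natCast, ← mul_inv, mul_comm, ← h1, inv_inv]

/-- **The Gauss valuation ring of helper93 is a Gauss ring in the sense of `RedCore`**, for a
discrete valuation ring `A` with uniformiser `ϖ`. -/
theorem isGauss_gaussW (hD : GaussData A F Fk J b) (ϖ : A) (hϖ : Irreducible ϖ) :
    IsGauss (gaussW hD).toSubring (constV hD ϖ) (gRed hD) := by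
  have hres : IsLocalRing.residue A ϖ = 0 :=
    (IsLocalRing.residue_eq_zero_iff ϖ).mpr ((IsLocalRing.mem_maximalIdeal ϖ).mpr hϖ.not_isUnit)
  have hϖL : (ϖ : L) ≠ 0 := fun h => hϖ.ne_zero (Subtype.ext h)
  refine ⟨?_, ?_, ?_, ?_⟩
  · rw [coe_constV]
    exact (map_ne_zero (algebraMap L F)).mpr hϖL
  · show gRed hD (intV hD (HahnSeries.C ϖ) _) = 0
    rw [gRed_intV]
    apply Subtype.ext
    show redA A (HahnSeries.C ϖ) = 0
    rw [coeffMap_C, hres, map_zero]
  · intro v hv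
    obtain ⟨a, x', ha, hx⟩ := (gaussRho_eq_zero_iff hD v).mp hv
    have ha' : a ∈ IsLocalRing.maximalIdeal A := (IsLocalRing.residue_eq_zero_iff a).mp ha
    rw [hϖ.maximalIdeal_eq, Ideal.mem_span_singleton'] at ha'
    obtain ⟨a', rfl⟩ := ha'
    refine ⟨constV hD a' * x', ?_⟩
    apply Subtype.ext
    apply Subtype.ext
    show ((v : F) : LaurentSeries L) = ((constV hD ϖ : F) : LaurentSeries L) *
      (((constV hD a' : F) : LaurentSeries L) * ((x' : F) : LaurentSeries L))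
    rw [hx, coe_constV, coe_constV, C_eq_algebraMap]
    show algebraMap L (LaurentSeries L) ((a' : L) * (ϖ : L)) * _ =
      algebraMap L (LaurentSeries L) (ϖ : L) * (algebraMap L (LaurentSeries L) (a' : L) * _)
    rw [map_mul]
    ring
  · intro x hx
    obtain ⟨c, w, hc, hw, hxw⟩ := exists_const_mul_unit hD x hx
    obtain ⟨m, u, u', huu', hcm⟩ := exists_zpow_mul_unit ϖ hϖ c hc
    refine ⟨m, constV hD u * w, ?_, ?_⟩
    · rw [map_mul]
      refine mul_ne_zero ?_ hw
      intro h0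
      have h1 : gRed hD (constV hD u) * gRed hD (constV hD u') = 1 := by
        rw [← map_mul, ← constV_mul, huu', constV_one, map_one]
      rw [h0, zero_mul] at h1
      exact zero_ne_one h1
    · have key : F.val x = F.val (((constV hD ϖ : ↥(gaussW hD).toSubring) : F) ^ m *
          ((constV hD u * w : ↥(gaussW hD).toSubring) : F)) := by
        rw [map_mul, map_zpow₀]
        show (x : LaurentSeries L) = ((constV hD ϖ : F) : LaurentSeries L) ^ m *
          (((constV hD u : F) : LaurentSeries L) * ((w : F) : LaurentSeries L))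
        rw [hxw, hcm, coe_constV, coe_constV, C_eq_algebraMap]
        show algebraMap L (LaurentSeries L) ((ϖ : L) ^ m * (u : L)) * _ =
          algebraMap L (LaurentSeries L) (ϖ : L) ^ m *
            (algebraMap L (LaurentSeries L) (u : L) * _)
        rw [map_mul, map_zpow₀]
        ring
      exact Subtype.val_injective key

end DVR

section Base

variable {L : Type*} [Field L] {A : ValuationSubring L}
variable {F : IntermediateField L (LaurentSeries L)}
variable {Fk : IntermediateField (IsLocalRing.ResidueField A)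
  (LaurentSeries (IsLocalRing.ResidueField A))}
variable {J : LaurentSeries A} {n : ℕ} {b : Fin n → LaurentSeries A}

/-- The chart map `A[X] → F`, `P ↦ P(ι T)`, of an integral base series `T`. -/
def baseHom (T : LaurentSeries A) (hTF : iotaA A T ∈ F) : A[X] →+* ↥F :=
  Polynomial.eval₂RingHom ((algebraMap L ↥F).comp A.subtype) ⟨iotaA A T, hTF⟩

theorem coe_baseHom (T : LaurentSeries A) (hTF : iotaA A T ∈ F) (P : A[X]) :
    ((baseHom T hTF P : ↥F) : LaurentSeries L) = iotaA A (evC P T) := by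
  have h1 : ((baseHom T hTF P : ↥F) : LaurentSeries L) =
      Polynomial.eval₂ (F.val.toRingHom.comp ((algebraMap L ↥F).comp A.subtype))
        (iotaA A T) P :=
    Polynomial.hom_eval₂ P ((algebraMap L ↥F).comp A.subtype) F.val.toRingHom
      (⟨iotaA A T, hTF⟩ : ↥F)
  rw [h1]
  unfold evC
  rw [Polynomial.hom_eval₂]
  congr 1
  ext a : 1
  exact (iotaA_C a).symm

theorem baseHom_C (T : LaurentSeries A) (hTF : iotaA A T ∈ F) (a : A) :
    baseHom T hTF (C a) = algebraMap L ↥F (a : L) := by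
  show Polynomial.eval₂ _ _ (C a) = _
  rw [Polynomial.eval₂_C]
  rfl

theorem baseHom_eq_aeval (T : LaurentSeries A) (hTF : iotaA A T ∈ F) (P : A[X]) :
    baseHom T hTF P = aeval (⟨iotaA A T, hTF⟩ : ↥F) (P.map A.subtype) := by
  show Polynomial.eval₂ _ _ P = _
  rw [Polynomial.aeval_def, Polynomial.eval₂_map]

theorem evC_mem_F (T : LaurentSeries A) (hTF : iotaA A T ∈ F) (P : A[X]) :
    iotaA A (evC P T) ∈ F := by
  rw [← coe_baseHom T hTF P]
  exact (baseHom T hTF P).2

/-- `P(ι T)` as an element of the Gauss ring. -/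
def baseV (hD : GaussData A F Fk J b) (T : LaurentSeries A) (hTF : iotaA A T ∈ F) (P : A[X]) :
    ↥(gaussW hD).toSubring :=
  intV hD (evC P T) (evC_mem_F T hTF P)

theorem coe_baseV (hD : GaussData A F Fk J b) (T : LaurentSeries A) (hTF : iotaA A T ∈ F)
    (P : A[X]) : ((baseV hD T hTF P : ↥(gaussW hD).toSubring) : ↥F) = baseHom T hTF P :=
  Subtype.ext (coe_baseHom T hTF P).symm

theorem baseHom_mem (hD : GaussData A F Fk J b) (T : LaurentSeries A) (hTF : iotaA A T ∈ F)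
    (P : A[X]) : baseHom T hTF P ∈ (gaussW hD).toSubring := by
  rw [← coe_baseV hD T hTF P]
  exact (baseV hD T hTF P).2

theorem gRed_baseV (hD : GaussData A F Fk J b) (T : LaurentSeries A) (hTF : iotaA A T ∈ F)
    (P : A[X]) :
    ((gRed hD (baseV hD T hTF P) : ↥Fk) : LaurentSeries (IsLocalRing.ResidueField A)) =
      evC (P.map (IsLocalRing.residue A)) (redA A T) := by
  unfold baseV
  rw [gRed_intV]
  exact coeffMap_evC _ P T

/-- A nonzero polynomial over `L` does not vanish at `ι T` when `red T` is transcendental. -/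
theorem evC_iota_ne_zero (T : LaurentSeries A)
    (htrT : ∀ P : (IsLocalRing.ResidueField A)[X], evC P (redA A T) = 0 → P = 0)
    (P : L[X]) (hP : P ≠ 0) : evC P (iotaA A T) ≠ 0 := by
  obtain ⟨c, P', hc, hP', i, hi⟩ := exists_scale_poly A (fun _ : Fin 1 => P)
    (by intro h; exact hP (congrFun h 0))
  have hi0 : (P' 0).map (IsLocalRing.residue A) ≠ 0 := by rwa [Subsingleton.elim 0 i]
  intro h0
  rw [hP' 0, evC_C_mul, ← coeffMap_evC] at h0
  have hC : (HahnSeries.C c : LaurentSeries L) ≠ 0 := fun h =>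
    hc (HahnSeries.C_injective (by rw [h, map_zero]))
  have h1 : iotaA A (evC (P' 0) T) = 0 := by
    rcases mul_eq_zero.mp h0 with h | h
    · exact absurd h hC
    · exact h
  have h2 : evC (P' 0) T = 0 := iotaA_injective A (h1.trans (map_zero _).symm)
  apply hi0
  apply htrT
  rw [← coeffMap_evC, h2, map_zero]

theorem aeval_ne_zero_of_trans (T : LaurentSeries A) (hTF : iotaA A T ∈ F)
    (htrT : ∀ P : (IsLocalRing.ResidueField A)[X], evC P (redA A T) = 0 → P = 0)
    (P : L[X]) (hP : P ≠ 0) : aeval (⟨iotaA A T, hTF⟩ : ↥F) P ≠ 0 := by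
  intro h0
  apply evC_iota_ne_zero T htrT P hP
  rw [evC_eq_aeval]
  have h1 := congrArg F.val h0
  rw [← Polynomial.aeval_algHom_apply, map_zero] at h1
  exact h1

/-- `(K1a)`: `P(ι T) ∈ L(ι T)`. -/
theorem base_hK1a (T : LaurentSeries A) (hTF : iotaA A T ∈ F) (P : A[X]) :
    ∃ c : ↥(IntermediateField.adjoin L {(⟨iotaA A T, hTF⟩ : ↥F)}),
      algebraMap ↥(IntermediateField.adjoin L {(⟨iotaA A T, hTF⟩ : ↥F)}) ↥F c =
        baseHom T hTF P := by
  refine ⟨⟨baseHom T hTF P, ?_⟩, rfl⟩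
  rw [baseHom_eq_aeval]
  exact IntermediateField.algebra_adjoin_le_adjoin L _
    (Polynomial.aeval_mem_adjoin_singleton L _)

/-- `(K1b)`: every element of `L(ι T)` is a quotient `P(ι T) / Q(ι T)` with `P, Q ∈ A[X]`. -/
theorem base_hK1b (T : LaurentSeries A) (hTF : iotaA A T ∈ F)
    (c : ↥(IntermediateField.adjoin L {(⟨iotaA A T, hTF⟩ : ↥F)})) :
    ∃ P Q : A[X], baseHom T hTF Q ≠ 0 ∧
      algebraMap ↥(IntermediateField.adjoin L {(⟨iotaA A T, hTF⟩ : ↥F)}) ↥F c *
        baseHom T hTF Q = baseHom T hTF P := by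
  obtain ⟨r, s, hrs⟩ := (IntermediateField.mem_adjoin_simple_iff L (c : ↥F)).mp c.2
  show ∃ P Q : A[X], baseHom T hTF Q ≠ 0 ∧ (c : ↥F) * baseHom T hTF Q = baseHom T hTF P
  by_cases hs : aeval (⟨iotaA A T, hTF⟩ : ↥F) s = 0
  · refine ⟨0, 1, by rw [map_one]; exact one_ne_zero, ?_⟩
    rw [map_zero, map_one, mul_one, hrs, hs, div_zero]
  · have hQ : (![r, s] : Fin 2 → L[X]) ≠ 0 := by
      intro h
      apply hs
      have h1 : s = 0 := by simpa using congrFun h 1
      rw [h1, map_zero]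
    obtain ⟨c₀, Q', hc₀, hQ', -⟩ := exists_scale_poly A (![r, s] : Fin 2 → L[X]) hQ
    have hr : aeval (⟨iotaA A T, hTF⟩ : ↥F) r = algebraMap L ↥F c₀ * baseHom T hTF (Q' 0) := by
      have h1 : r = Polynomial.C c₀ * (Q' 0).map A.subtype := by simpa using hQ' 0
      rw [baseHom_eq_aeval, ← Polynomial.aeval_C (⟨iotaA A T, hTF⟩ : ↥F) c₀, ← map_mul, ← h1]
    have hs' : aeval (⟨iotaA A T, hTF⟩ : ↥F) s = algebraMap L ↥F c₀ * baseHom T hTF (Q' 1) := by
      have h1 : s = Polynomial.C c₀ * (Q' 1).map A.subtype := by simpa using hQ' 1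
      rw [baseHom_eq_aeval, ← Polynomial.aeval_C (⟨iotaA A T, hTF⟩ : ↥F) c₀, ← map_mul, ← h1]
    have hc₀' : algebraMap L ↥F c₀ ≠ 0 := (map_ne_zero (algebraMap L ↥F)).mpr hc₀
    have hQ1 : baseHom T hTF (Q' 1) ≠ 0 := by
      intro h0
      apply hs
      rw [hs', h0, mul_zero]
    refine ⟨Q' 0, Q' 1, hQ1, ?_⟩
    rw [hrs, hr, hs']
    field_simp

end Base

section Int

variable {L : Type*} [Field L] {A : ValuationSubring L} [IsDiscreteValuationRing A]
variable {F : IntermediateField L (LaurentSeries L)}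
variable {Fk : IntermediateField (IsLocalRing.ResidueField A)
  (LaurentSeries (IsLocalRing.ResidueField A))}
variable {J : LaurentSeries A} {n : ℕ} {b : Fin n → LaurentSeries A}

theorem C_dvd_of_map_residue_eq_zero (ϖ : A) (hϖ : Irreducible ϖ) (P : A[X])
    (h : P.map (IsLocalRing.residue A) = 0) : C ϖ ∣ P := by
  rw [Polynomial.C_dvd_iff_dvd_coeff]
  intro i
  have h1 : IsLocalRing.residue A (P.coeff i) = 0 := by
    rw [← Polynomial.coeff_map, h, Polynomial.coeff_zero]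
  have h2 : P.coeff i ∈ IsLocalRing.maximalIdeal A := (IsLocalRing.residue_eq_zero_iff _).mp h1
  rw [hϖ.maximalIdeal_eq] at h2
  exact Ideal.mem_span_singleton.mp h2

/-- `(tr)`: the reduction of `P(ι T)` vanishes only if `ϖ ∣ P`. -/
theorem base_htr (hD : GaussData A F Fk J b) (ϖ : A) (hϖ : Irreducible ϖ)
    (T : LaurentSeries A) (hTF : iotaA A T ∈ F)
    (htrT : ∀ P : (IsLocalRing.ResidueField A)[X], evC P (redA A T) = 0 → P = 0)
    (P : A[X]) (v : ↥(gaussW hD).toSubring) (hv : (v : ↥F) = baseHom T hTF P)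
    (h0 : gRed hD v = 0) : C ϖ ∣ P := by
  have hv' : v = baseV hD T hTF P := Subtype.ext (hv.trans (coe_baseV hD T hTF P).symm)
  rw [hv'] at h0
  have h1 : ((gRed hD (baseV hD T hTF P) : ↥Fk) :
      LaurentSeries (IsLocalRing.ResidueField A)) = 0 := by
    rw [h0]
    rfl
  rw [gRed_baseV] at h1
  exact C_dvd_of_map_residue_eq_zero ϖ hϖ P (htrT _ h1)

/-- The spanning family of `hD`, in the Gauss ring. -/
def famV (hD : GaussData A F Fk J b) (i : Fin n) : ↥(gaussW hD).toSubring :=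
  intV hD (b i) (hD.b_mem i)

theorem fam_hind (hD : GaussData A F Fk J b) (ϖ : A) (hϖ : Irreducible ϖ) :
    ∀ c : Fin n → ↥(gaussW hD).toSubring,
      (∀ i, (c i : ↥F) ∈ (algebraMap
        ↥(IntermediateField.adjoin L {(⟨iotaA A J, hD.J_mem⟩ : ↥F)}) ↥F).range) →
      ∑ i, gRed hD (c i) * gRed hD (famV hD i) = 0 → ∀ i, gRed hD (c i) = 0 := by
  refine hind_of_family (K₁ := ↥(IntermediateField.adjoin L {(⟨iotaA A J, hD.J_mem⟩ : ↥F)}))
    (isGauss_gaussW hD ϖ hϖ) ϖ hϖ (baseHom J hD.J_mem) ?_ (baseHom_mem hD J hD.J_mem)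
    (base_htr hD ϖ hϖ J hD.J_mem hD.trans) (base_hK1b J hD.J_mem) (famV hD) ?_
  · rw [coe_constV, baseHom_C]
  · intro P c hc hsum i
    have hc' : ∀ i, c i = baseV hD J hD.J_mem (P i) := fun i =>
      Subtype.ext ((hc i).trans (coe_baseV hD J hD.J_mem (P i)).symm)
    have h1 : ∑ i, evC ((P i).map (IsLocalRing.residue A)) (redA A J) * redA A (b i) = 0 := by
      have h2 := congrArg Fk.val hsum
      rw [map_sum, map_zero] at h2
      rw [← h2]
      refine Finset.sum_congr rfl fun i _ => ?_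
      rw [map_mul, hc' i]
      show _ = ((gRed hD (baseV hD J hD.J_mem (P i)) : ↥Fk) :
          LaurentSeries (IsLocalRing.ResidueField A)) *
        ((gRed hD (famV hD i) : ↥Fk) : LaurentSeries (IsLocalRing.ResidueField A))
      rw [gRed_baseV]
      unfold famV
      rw [gRed_intV]
    have h3 := hD.indep (fun i => (P i).map (IsLocalRing.residue A)) h1
    exact C_dvd_of_map_residue_eq_zero ϖ hϖ (P i) (congrFun h3 i)

omit [IsDiscreteValuationRing A] in
theorem fam_span (hD : GaussData A F Fk J b) :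
    ⊤ ≤ Submodule.span ↥(IntermediateField.adjoin L {(⟨iotaA A J, hD.J_mem⟩ : ↥F)})
      (Set.range fun i => ((famV hD i : ↥(gaussW hD).toSubring) : ↥F)) := by
  intro z _
  set xJ : ↥F := ⟨iotaA A J, hD.J_mem⟩ with hxJ
  obtain ⟨P, Q, hP, hPQ⟩ := hD.span (z : LaurentSeries L) z.2
  have hPne : aeval xJ P ≠ 0 := aeval_ne_zero_of_trans J hD.J_mem hD.trans P hP
  have hcoe : ∀ R : L[X], F.val (aeval xJ R) = evC R (iotaA A J) := by
    intro R
    rw [evC_eq_aeval, ← Polynomial.aeval_algHom_apply]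
    rfl
  have hrel : aeval xJ P * z =
      ∑ i, aeval xJ (Q i) * ((famV hD i : ↥(gaussW hD).toSubring) : ↥F) := by
    apply Subtype.val_injective
    show F.val (aeval xJ P * z) =
      F.val (∑ i, aeval xJ (Q i) * ((famV hD i : ↥(gaussW hD).toSubring) : ↥F))
    rw [map_mul, map_sum, hcoe]
    simp_rw [map_mul, hcoe]
    exact hPQ
  have hz : z = ∑ i, (aeval xJ (Q i) / aeval xJ P) *
      ((famV hD i : ↥(gaussW hD).toSubring) : ↥F) := by
    simp_rw [div_mul_eq_mul_div]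
    rw [← Finset.sum_div, ← hrel, mul_div_cancel_left₀ _ hPne]
  rw [hz]
  refine Submodule.sum_mem _ fun i _ => ?_
  have hmem : aeval xJ (Q i) / aeval xJ P ∈ IntermediateField.adjoin L {xJ} :=
    (IntermediateField.mem_adjoin_simple_iff L _).mpr ⟨Q i, P, rfl⟩
  have e : (aeval xJ (Q i) / aeval xJ P) * ((famV hD i : ↥(gaussW hD).toSubring) : ↥F) =
      (⟨aeval xJ (Q i) / aeval xJ P, hmem⟩ : ↥(IntermediateField.adjoin L {xJ})) •
        ((famV hD i : ↥(gaussW hD).toSubring) : ↥F) := rfl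
  rw [e]
  exact Submodule.smul_mem _ _ (Submodule.subset_span ⟨i, rfl⟩)

omit [IsDiscreteValuationRing A] in
theorem fam_pos (hD : GaussData A F Fk J b) : 0 < n := by
  by_contra h0
  have hn0 : n = 0 := by omega
  subst hn0
  obtain ⟨P, Q, hP, hPQ⟩ := hD.span 1 F.one_mem
  rw [Finset.univ_eq_empty, Finset.sum_empty, mul_one] at hPQ
  exact evC_iota_ne_zero J hD.trans P hP hPQ

theorem fam_finrank (hD : GaussData A F Fk J b) (ϖ : A) (hϖ : Irreducible ϖ) :
    Module.finrank ↥(IntermediateField.adjoin L {(⟨iotaA A J, hD.J_mem⟩ : ↥F)}) ↥F = n := by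
  have hG := isGauss_gaussW hD ϖ hϖ
  have hπ : algebraMap ↥(IntermediateField.adjoin L {(⟨iotaA A J, hD.J_mem⟩ : ↥F)}) ↥F
      (algebraMap L _ (ϖ : L)) = (constV hD ϖ : ↥(gaussW hD).toSubring) := by
    rw [coe_constV]
    rfl
  have hli := hG.linearIndependent _ hπ (famV hD) (fam_hind hD ϖ hϖ)
  rw [Module.finrank_eq_card_basis (Module.Basis.mk hli (fam_span hD)), Fintype.card_fin]

/-- **(INT)**: every element of the Gauss ring is integral over its intersection with
`L(ι T)`, as soon as `ι J ∈ L(ι T)`. -/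
theorem base_hint (hD : GaussData A F Fk J b) (ϖ : A) (hϖ : Irreducible ϖ)
    (T : LaurentSeries A) (hTF : iotaA A T ∈ F)
    (hJT : (⟨iotaA A J, hD.J_mem⟩ : ↥F) ∈
      IntermediateField.adjoin L {(⟨iotaA A T, hTF⟩ : ↥F)})
    (w : ↥(gaussW hD).toSubring) :
    IsIntegral (((gaussW hD).toSubring).comap
      (algebraMap ↥(IntermediateField.adjoin L {(⟨iotaA A T, hTF⟩ : ↥F)}) ↥F)) (w : ↥F) := by
  have hG := isGauss_gaussW hD ϖ hϖ
  have hπ : algebraMap ↥(IntermediateField.adjoin L {(⟨iotaA A J, hD.J_mem⟩ : ↥F)}) ↥F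
      (algebraMap L _ (ϖ : L)) = (constV hD ϖ : ↥(gaussW hD).toSubring) := by
    rw [coe_constV]
    rfl
  have h1 := hG.isIntegral_comap _ hπ (famV hD) (fam_hind hD ϖ hϖ) (fam_finrank hD ϖ hϖ)
    (fam_pos hD) w
  have hle : IntermediateField.adjoin L {(⟨iotaA A J, hD.J_mem⟩ : ↥F)} ≤
      IntermediateField.adjoin L {(⟨iotaA A T, hTF⟩ : ↥F)} :=
    IntermediateField.adjoin_simple_le_iff.mpr hJT
  exact isIntegral_comap_of_tower _ (IntermediateField.inclusion hle).toRingHom (fun c => rfl)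
    (w : ↥F) h1

/-- **Gauss saturation for the base `T`, ring-hom form.**  Every `z ∈ F` integral over
`A[ι T]` lies in the Gauss ring, and `z = ϖ ^ k * w` with `w` in the Gauss ring forces `w`
integral over `A[ι T]`. -/
theorem gauss_sat_base (hD : GaussData A F Fk J b) (ϖ : A) (hϖ : Irreducible ϖ)
    (T : LaurentSeries A) (hTF : iotaA A T ∈ F)
    (htrT : ∀ P : (IsLocalRing.ResidueField A)[X], evC P (redA A T) = 0 → P = 0)
    (hJT : (⟨iotaA A J, hD.J_mem⟩ : ↥F) ∈
      IntermediateField.adjoin L {(⟨iotaA A T, hTF⟩ : ↥F)})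
    (z : ↥F) (hz : (baseHom T hTF).IsIntegralElem z) :
    z ∈ gaussW hD ∧ ∀ (k : ℕ) (w : ↥F), w ∈ gaussW hD →
      z = algebraMap L ↥F (ϖ : L) ^ k * w → (baseHom T hTF).IsIntegralElem w := by
  have hG := isGauss_gaussW hD ϖ hϖ
  have key : ∀ z : ↥F, (baseHom T hTF).IsIntegralElem z → z ∈ (gaussW hD).toSubring ∧
      ∀ w : ↥(gaussW hD).toSubring,
        z = ((constV hD ϖ : ↥(gaussW hD).toSubring) : ↥F) * w →
          (baseHom T hTF).IsIntegralElem (w : ↥F) := fun z hz =>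
    gauss_chart_hom_of_isIntegral
      (K₁ := ↥(IntermediateField.adjoin L {(⟨iotaA A T, hTF⟩ : ↥F)})) hG ϖ hϖ
      (baseHom T hTF) (by rw [coe_constV, baseHom_C]) (baseHom_mem hD T hTF)
      (base_htr hD ϖ hϖ T hTF htrT) (base_hK1a T hTF) (base_hK1b T hTF)
      (base_hint hD ϖ hϖ T hTF hJT) z hz
  refine ⟨(key z hz).1, fun k w hw hzw => ?_⟩
  let _ : Algebra A[X] ↥F := (baseHom T hTF).toAlgebra
  exact isIntegral_of_eq_pow_mul (R₀ := A[X]) (V := (gaussW hD).toSubring)
    (ϖ := constV hD ϖ) key k z hz ⟨w, hw⟩ (by rw [coe_constV]; exact hzw)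

end Int

section Model

variable {L : Type*} [Field L] {A : ValuationSubring L}
variable {F : IntermediateField L (LaurentSeries L)}
variable {Fk : IntermediateField (IsLocalRing.ResidueField A)
  (LaurentSeries (IsLocalRing.ResidueField A))}
variable {J : LaurentSeries A} {n : ℕ} {b : Fin n → LaurentSeries A}

/-- The reduction of `P(ι T)` is `P̄(red T)`. -/
theorem gaussRho_baseHom (hD : GaussData A F Fk J b) (T : LaurentSeries A)
    (hTF : iotaA A T ∈ F) (P : A[X]) (h : baseHom T hTF P ∈ gaussW hD) :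
    ((gaussRho hD ⟨baseHom T hTF P, h⟩ : ↥Fk) : LaurentSeries (IsLocalRing.ResidueField A)) =
      evC (P.map (IsLocalRing.residue A)) (redA A T) := by
  rw [← gRed_baseV hD T hTF P]
  have e : (⟨baseHom T hTF P, h⟩ : ↥(gaussW hD).toSubring) = baseV hD T hTF P :=
    Subtype.ext (coe_baseV hD T hTF P).symm
  show ((gRed hD ⟨baseHom T hTF P, h⟩ : ↥Fk) : LaurentSeries (IsLocalRing.ResidueField A)) = _
  rw [e]

/-- `ι J' ∈ L(ι T)` from a polynomial relation `J' * Q(T) = P(T)` over `A`. -/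
theorem mem_adjoin_of_rel (T J' : LaurentSeries A) (hTF : iotaA A T ∈ F)
    (hJF : iotaA A J' ∈ F) (P Q : A[X]) (hQ : evC Q T ≠ 0) (h : J' * evC Q T = evC P T) :
    (⟨iotaA A J', hJF⟩ : ↥F) ∈ IntermediateField.adjoin L {(⟨iotaA A T, hTF⟩ : ↥F)} := by
  rw [IntermediateField.mem_adjoin_simple_iff]
  refine ⟨P.map A.subtype, Q.map A.subtype, ?_⟩
  rw [← baseHom_eq_aeval, ← baseHom_eq_aeval]
  have hQ' : baseHom T hTF Q ≠ 0 := by
    intro h0
    apply hQ
    apply iotaA_injective A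
    rw [← coe_baseHom T hTF Q, h0, map_zero]
    rfl
  rw [eq_div_iff hQ']
  apply Subtype.ext
  show iotaA A J' * ((baseHom T hTF Q : ↥F) : LaurentSeries L) =
    ((baseHom T hTF P : ↥F) : LaurentSeries L)
  rw [coe_baseHom, coe_baseHom, ← map_mul, h]

variable [IsDiscreteValuationRing A]

/-- **Gauss chart, `(NC)` shape**: `F` an `A[X]`-algebra through `X ↦ x = ι T`;
`B := integralClosure A[X] F`.  Then `B ⊆ gaussW`, `B ∩ ϖ ^ k gaussW = ϖ ^ k B`, and the
restriction `ρ` of `gaussRho` to `B` has kernel `(C ϖ) B` (a prime ideal) and satisfies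
`ρ (P(x)) = P̄(red T)`. -/
theorem gauss_chart_poly [Algebra A[X] ↥F] (hD : GaussData A F Fk J b) (ϖ : A)
    (hϖ : Irreducible ϖ) (x : ↥F) (T : LaurentSeries A)
    (hxT : (x : LaurentSeries L) = iotaA A T)
    (htrT : ∀ P : (IsLocalRing.ResidueField A)[X], evC P (redA A T) = 0 → P = 0)
    (xJ : ↥F) (hxJ : (xJ : LaurentSeries L) = iotaA A J)
    (hJx : xJ ∈ IntermediateField.adjoin L {x})
    (hC : ∀ a : A, algebraMap A[X] ↥F (C a) = algebraMap L ↥F (a : L))
    (hX : algebraMap A[X] ↥F X = x) :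
    (∀ z : ↥F, IsIntegral A[X] z → z ∈ gaussW hD ∧
        ∀ (k : ℕ) (w : ↥F), w ∈ gaussW hD → z = algebraMap L ↥F (ϖ : L) ^ k * w →
          IsIntegral A[X] w) ∧
    ∃ (hBV : ∀ z : integralClosure A[X] ↥F, (z : ↥F) ∈ gaussW hD)
      (ρ : integralClosure A[X] ↥F →+* ↥Fk),
      (∀ z, ρ z = gaussRho hD ⟨z, hBV z⟩) ∧
      (∀ P : A[X], ((ρ (algebraMap A[X] (integralClosure A[X] ↥F) P) : ↥Fk) :
          LaurentSeries (IsLocalRing.ResidueField A)) =
        evC (P.map (IsLocalRing.residue A)) (redA A T)) ∧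
      RingHom.ker ρ = Ideal.span {algebraMap A[X] (integralClosure A[X] ↥F) (C ϖ)} ∧
      (Ideal.span {algebraMap A[X] (integralClosure A[X] ↥F) (C ϖ)}).IsPrime := by
  have hTF : iotaA A T ∈ F := hxT ▸ x.2
  obtain rfl : x = ⟨iotaA A T, hTF⟩ := Subtype.ext hxT
  obtain rfl : xJ = ⟨iotaA A J, hD.J_mem⟩ := Subtype.ext hxJ
  have hG := isGauss_gaussW hD ϖ hϖ
  have halg : algebraMap A[X] ↥F = baseHom T hTF := by
    apply Polynomial.ringHom_ext
    · intro a
      rw [hC, baseHom_C]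
    · rw [hX]
      show _ = Polynomial.eval₂ _ _ X
      rw [Polynomial.eval₂_X]
  have halg' : ∀ P, algebraMap A[X] ↥F P = baseHom T hTF P := fun P => by rw [halg]
  have h := exists_rho_of_isIntegral
    (K₁ := ↥(IntermediateField.adjoin L {(⟨iotaA A T, hTF⟩ : ↥F)})) hG ϖ hϖ
    (by rw [coe_constV, hC])
    (fun P => by rw [halg']; exact baseHom_mem hD T hTF P)
    (fun P v hv h0 => base_htr hD ϖ hϖ T hTF htrT P v (by rw [hv, halg']) h0)
    (fun P => by rw [halg']; exact base_hK1a T hTF P)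
    (fun c => by simp_rw [halg']; exact base_hK1b T hTF c)
    (base_hint hD ϖ hϖ T hTF hJx)
  obtain ⟨h1, hBV, ρ, hρ, hker, hprime⟩ := h
  refine ⟨fun z hz => ⟨(h1 z hz).1, fun k w hw hzw => ?_⟩, hBV, ρ, hρ, fun P => ?_, hker, hprime⟩
  · exact (h1 z hz).2 k ⟨w, hw⟩ (by rw [coe_constV]; exact hzw)
  · rw [hρ]
    have e : ((algebraMap A[X] (integralClosure A[X] ↥F) P : integralClosure A[X] ↥F) : ↥F) =
        baseHom T hTF P := halg' P
    have hm : baseHom T hTF P ∈ gaussW hD := baseHom_mem hD T hTF P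
    rw [← gaussRho_baseHom hD T hTF P hm]
    congr 2
    exact Subtype.ext e

variable [Algebra ↥A ↥F]

omit [IsDiscreteValuationRing A] in
/-- The constants of `A` lie in the Gauss ring. -/
theorem algebraMap_mem_gaussW (hD : GaussData A F Fk J b)
    (halg : ∀ a : A, algebraMap ↥A ↥F a = algebraMap L ↥F (a : L)) (a : A) :
    algebraMap ↥A ↥F a ∈ gaussW hD := by
  rw [halg, ← coe_constV hD a]
  exact (constV hD a).2

/-- `(KC)`: the uniformiser is a non-unit of the Gauss ring. -/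
theorem pi_mem_nonunits (hD : GaussData A F Fk J b)
    (halg : ∀ a : A, algebraMap ↥A ↥F a = algebraMap L ↥F (a : L)) (ϖ : A)
    (hϖ : Irreducible ϖ) : algebraMap ↥A ↥F ϖ ∈ (gaussW hD).nonunits := by
  rw [ValuationSubring.mem_nonunits_iff_exists_mem_maximalIdeal]
  refine ⟨algebraMap_mem_gaussW hD halg ϖ, ?_⟩
  rw [IsLocalRing.mem_maximalIdeal, mem_nonunits_iff]
  intro hu
  have h1 : IsUnit (gaussRho hD ⟨_, algebraMap_mem_gaussW hD halg ϖ⟩) := hu.map (gaussRho hD)
  have h2 : (⟨algebraMap ↥A ↥F ϖ, algebraMap_mem_gaussW hD halg ϖ⟩ : ↥(gaussW hD).toSubring) =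
      constV hD ϖ := Subtype.ext (by
    show algebraMap ↥A ↥F ϖ = _
    rw [halg, coe_constV])
  have h3 : gRed hD (constV hD ϖ) = 0 := (isGauss_gaussW hD ϖ hϖ).2.1
  rw [← h2] at h3
  exact h1.ne_zero h3

/-- `(KC)`: the uniformiser generates the maximal ideal of the Gauss ring. -/
theorem nonunits_dvd (hD : GaussData A F Fk J b)
    (halg : ∀ a : A, algebraMap ↥A ↥F a = algebraMap L ↥F (a : L)) (ϖ : A)
    (hϖ : Irreducible ϖ) :
    ∀ x ∈ (gaussW hD).nonunits, ∃ y ∈ gaussW hD, x = algebraMap ↥A ↥F ϖ * y := by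
  intro x hx
  obtain ⟨hxV, hxm⟩ := ValuationSubring.mem_nonunits_iff_exists_mem_maximalIdeal.mp hx
  have hred : gaussRho hD ⟨x, hxV⟩ = 0 := by
    by_contra hne
    have hinv := inv_mem_gaussW_of_rho_ne_zero hD ⟨x, hxV⟩ hne
    have hx0 : x ≠ 0 := by
      rintro rfl
      exact hne (map_zero (gaussRho hD))
    rw [IsLocalRing.mem_maximalIdeal, mem_nonunits_iff] at hxm
    apply hxm
    exact IsUnit.of_mul_eq_one (⟨x⁻¹, hinv⟩ : gaussW hD) (Subtype.ext (mul_inv_cancel₀ hx0))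
  obtain ⟨w, hw⟩ := (isGauss_gaussW hD ϖ hϖ).2.2.1 ⟨x, hxV⟩ hred
  refine ⟨(w : ↥F), w.2, ?_⟩
  have h1 : x = ((constV hD ϖ : ↥(gaussW hD).toSubring) : ↥F) * (w : ↥F) :=
    congrArg Subtype.val hw
  rw [halg, ← coe_constV hD ϖ]
  exact h1

/-- The Gauss ring is local with maximal ideal generated by `ϖ` (shape of `SatX`). -/
theorem gaussW_loc (hD : GaussData A F Fk J b)
    (halg : ∀ a : A, algebraMap ↥A ↥F a = algebraMap L ↥F (a : L)) (ϖ : A)
    (hϖ : Irreducible ϖ) :
    ∀ v ∈ (gaussW hD).toSubring, v⁻¹ ∈ (gaussW hD).toSubring ∨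
      ∃ w ∈ (gaussW hD).toSubring, v = algebraMap ↥A ↥F ϖ * w := by
  intro v hv
  by_cases hred : gaussRho hD ⟨v, hv⟩ = 0
  · right
    obtain ⟨w, hw⟩ := (isGauss_gaussW hD ϖ hϖ).2.2.1 ⟨v, hv⟩ hred
    refine ⟨(w : ↥F), w.2, ?_⟩
    have h1 : v = ((constV hD ϖ : ↥(gaussW hD).toSubring) : ↥F) * (w : ↥F) :=
      congrArg Subtype.val hw
    rw [halg, ← coe_constV hD ϖ]
    exact h1
  · left
    exact inv_mem_gaussW_of_rho_ne_zero hD ⟨v, hv⟩ hred

omit [IsDiscreteValuationRing A] in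
theorem aeval_eq_baseHom (halg : ∀ a : A, algebraMap ↥A ↥F a = algebraMap L ↥F (a : L))
    (T : LaurentSeries A) (hTF : iotaA A T ∈ F) (P : A[X]) :
    aeval (⟨iotaA A T, hTF⟩ : ↥F) P = baseHom T hTF P := by
  rw [Polynomial.aeval_def]
  show Polynomial.eval₂ _ _ P = Polynomial.eval₂ _ _ P
  congr 1
  exact RingHom.ext halg

/-- Transcendence of the reduction of the base, in the shape of `SatX` (`htr`). -/
theorem gaussW_htr (hD : GaussData A F Fk J b)
    (halg : ∀ a : A, algebraMap ↥A ↥F a = algebraMap L ↥F (a : L)) (ϖ : A)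
    (hϖ : Irreducible ϖ) (x : ↥F) (T : LaurentSeries A)
    (hxT : (x : LaurentSeries L) = iotaA A T)
    (htrT : ∀ P : (IsLocalRing.ResidueField A)[X], evC P (redA A T) = 0 → P = 0) :
    ∀ P : A[X], (∃ w ∈ (gaussW hD).toSubring, aeval x P = algebraMap ↥A ↥F ϖ * w) →
      C ϖ ∣ P := by
  have hTF : iotaA A T ∈ F := hxT ▸ x.2
  obtain rfl : x = ⟨iotaA A T, hTF⟩ := Subtype.ext hxT
  rintro P ⟨w, hw, hPw⟩
  rw [aeval_eq_baseHom halg, halg, ← coe_constV hD ϖ] at hPw
  refine base_htr hD ϖ hϖ T hTF htrT P (baseV hD T hTF P) (coe_baseV hD T hTF P) ?_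
  have e : baseV hD T hTF P = constV hD ϖ * ⟨w, hw⟩ :=
    Subtype.ext ((coe_baseV hD T hTF P).trans hPw)
  rw [e, map_mul, (isGauss_gaussW hD ϖ hϖ).2.1, zero_mul]

/-- **Gauss chart, subalgebra shape** (`(KC)` / `Charts` / `SatX`): for `x = ι T` with
`red T` transcendental and `ι J ∈ L(x)`, and `B := integralClosure (A[x]) F`:
`B ⊆ gaussW`, `B ∩ ϖ ^ k gaussW = ϖ ^ k B`, and the restriction `ρ` of `gaussRho` to `B` has
kernel `ϖ B`, a prime ideal. -/
theorem gauss_chart_adjoin (hD : GaussData A F Fk J b)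
    (halg : ∀ a : A, algebraMap ↥A ↥F a = algebraMap L ↥F (a : L)) (ϖ : A)
    (hϖ : Irreducible ϖ) (x : ↥F) (T : LaurentSeries A)
    (hxT : (x : LaurentSeries L) = iotaA A T)
    (htrT : ∀ P : (IsLocalRing.ResidueField A)[X], evC P (redA A T) = 0 → P = 0)
    (xJ : ↥F) (hxJ : (xJ : LaurentSeries L) = iotaA A J)
    (hJx : xJ ∈ IntermediateField.adjoin L {x}) :
    (∀ z : ↥F, IsIntegral (Algebra.adjoin ↥A {x}) z → z ∈ gaussW hD ∧
        ∀ (k : ℕ) (w : ↥F), w ∈ gaussW hD → z = algebraMap ↥A ↥F ϖ ^ k * w →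
          IsIntegral (Algebra.adjoin ↥A {x}) w) ∧
    ∃ (hBV : ∀ z : integralClosure (Algebra.adjoin ↥A {x}) ↥F, (z : ↥F) ∈ gaussW hD)
      (ρ : integralClosure (Algebra.adjoin ↥A {x}) ↥F →+* ↥Fk),
      (∀ z, ρ z = gaussRho hD ⟨z, hBV z⟩) ∧
      RingHom.ker ρ = Ideal.span
        {algebraMap ↥A (integralClosure (Algebra.adjoin ↥A {x}) ↥F) ϖ} ∧
      (Ideal.span {algebraMap ↥A (integralClosure (Algebra.adjoin ↥A {x}) ↥F) ϖ}).IsPrime := by
  have hTF : iotaA A T ∈ F := hxT ▸ x.2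
  obtain rfl : x = ⟨iotaA A T, hTF⟩ := Subtype.ext hxT
  obtain rfl : xJ = ⟨iotaA A J, hD.J_mem⟩ := Subtype.ext hxJ
  have hG := isGauss_gaussW hD ϖ hϖ
  have h := exists_rho_adjoin_of_isIntegral
    (K₁ := ↥(IntermediateField.adjoin L {(⟨iotaA A T, hTF⟩ : ↥F)})) hG ϖ hϖ
    (⟨iotaA A T, hTF⟩ : ↥F) (by rw [coe_constV, halg])
    (fun P => by rw [aeval_eq_baseHom halg]; exact baseHom_mem hD T hTF P)
    (fun P v hv h0 => base_htr hD ϖ hϖ T hTF htrT P v (by rw [hv, aeval_eq_baseHom halg]) h0)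
    (fun P => by rw [aeval_eq_baseHom halg]; exact base_hK1a T hTF P)
    (fun c => by simp_rw [aeval_eq_baseHom halg]; exact base_hK1b T hTF c)
    (base_hint hD ϖ hϖ T hTF hJx)
  obtain ⟨h1, hBV, ρ, hρ, hker, hprime⟩ := h
  refine ⟨fun z hz => ⟨(h1 z hz).1, fun k w hw hzw => ?_⟩, hBV, ρ, hρ, hker, hprime⟩
  exact (h1 z hz).2 k ⟨w, hw⟩ (by rw [coe_constV, ← halg]; exact hzw)

end Model

end Fermat.Agent.S18.H95
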