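import Mathlib
import Fermat.Agent.S28.GaussB_helper36

/-!
S18, node (i) (helper36, second seat): the Gauss chain over a DVR-like base.

Generalisation of the S28 chain (`S28/Gauss*_helper36`) from `ℤ_(ℓ) ⊂ ℚ` to a domain `A0` with
fraction field `K0`, a residue map `res : A0 →+* k0` and a uniformiser `π`.  For a subfield `F` of
`K0((q))` generated by integral `q`-series and a coordinate `t` with transcendental reduction, the
integral closure `B` of `A0[t]` in `F` has a reduction map `ρ : B → k0((q))` with kernel `π B`,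
given the degree input (independent reductions of `[F : K0(t)]` integral series).
-/

set_option autoImplicit false
set_option linter.unusedSectionVars false

noncomputable section

namespace Fermat.Agent.S18.H36

open Polynomial ModularCurve Fermat.Agent.S28.H36

/-- DVR-like data: a residue map with kernel `(π)`, local, `π`-adically separated. -/
structure IsUnif {A0 k0 : Type*} [CommRing A0] [Field k0] (res : A0 →+* k0) (π : A0) : Prop where
  ker : ∀ a, res a = 0 → ∃ a', a = π * a'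
  res_pi : res π = 0
  unit : ∀ a, res a ≠ 0 → IsUnit a
  sep : ∀ a, a ≠ 0 → ∃ n : ℕ, ¬ π ^ n ∣ a
  ne_zero : π ≠ 0

section Laurent

variable {A0 : Type*} [CommRing A0] [IsDomain A0] (K0 : Type*) [Field K0]
  [Algebra A0 K0] [IsFractionRing A0 K0] {k0 : Type*} [Field k0] (res : A0 →+* k0) (π : A0)

/-- coefficientwise inclusion `A0((q)) → K0((q))`. -/
def ιL : LaurentSeries A0 →+* LaurentSeries K0 := coeffMap (algebraMap A0 K0)

/-- coefficientwise reduction `A0((q)) → k0((q))`. -/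
def redL : LaurentSeries A0 →+* LaurentSeries k0 := coeffMap res

theorem ιL_coeff (a : LaurentSeries A0) (k : ℤ) :
    (ιL K0 a).coeff k = algebraMap A0 K0 (a.coeff k) := rfl

omit [IsDomain A0] in
theorem redL_coeff (a : LaurentSeries A0) (k : ℤ) : (redL res a).coeff k = res (a.coeff k) := rfl

theorem ιL_injective : Function.Injective (ιL (A0 := A0) K0) := by
  intro a b h
  ext k
  have := congrArg (fun x => x.coeff k) h
  simp only [ιL_coeff] at this
  exact IsFractionRing.injective A0 K0 this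

omit [IsDomain A0] in
theorem C_mul_coeff {R : Type*} [CommRing R] (c : R) (a : LaurentSeries R) (k : ℤ) :
    ((HahnSeries.C c : LaurentSeries R) * a).coeff k = c * a.coeff k := by
  rw [HahnSeries.C_mul_eq_smul, HahnSeries.coeff_smul, smul_eq_mul]

variable {res π}

theorem redL_eq_zero (hu : IsUnif res π) (a : LaurentSeries A0) (ha : redL res a = 0) :
    ∃ a', a = (HahnSeries.C π : LaurentSeries A0) * a' := by
  classical
  have hc : ∀ k, ∃ y : A0, a.coeff k = π * y := fun k => hu.ker _ (by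
    have := congrArg (fun x => x.coeff k) ha
    simpa [redL_coeff] using this)
  let f : ZeroHom A0 A0 :=
    ⟨fun c => if h : c ≠ 0 ∧ ∃ y : A0, c = π * y then h.2.choose else 0, by simp⟩
  refine ⟨a.map f, HahnSeries.ext (funext fun k => ?_)⟩
  rw [C_mul_coeff, HahnSeries.map_coeff]
  show a.coeff k = π *
    (if h : a.coeff k ≠ 0 ∧ ∃ y : A0, a.coeff k = π * y then h.2.choose else 0)
  by_cases h0 : a.coeff k = 0
  · rw [dif_neg (by simp [h0]), h0, mul_zero]
  · rw [dif_pos ⟨h0, hc k⟩]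
    exact (hc k).choose_spec

omit [IsDomain A0] in
theorem redL_C_pi (hu : IsUnif res π) : redL res (HahnSeries.C π : LaurentSeries A0) = 0 := by
  show coeffMap res (HahnSeries.single 0 π) = 0
  rw [coeffMap_single, hu.res_pi, HahnSeries.single_eq_zero]

omit [IsDomain A0] in
theorem not_pow_dvd_L (hu : IsUnif res π) (a : LaurentSeries A0) (ha : a ≠ 0) :
    ∃ B : ℕ, ¬ (HahnSeries.C π : LaurentSeries A0) ^ B ∣ a := by
  obtain ⟨k, hk⟩ : ∃ k, a.coeff k ≠ 0 := by
    by_contra h
    exact ha (HahnSeries.ext (funext fun k => by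
      by_contra hk
      exact h ⟨k, hk⟩))
  obtain ⟨B, hB⟩ := hu.sep _ hk
  refine ⟨B, ?_⟩
  rintro ⟨a', ha'⟩
  apply hB
  refine ⟨a'.coeff k, ?_⟩
  have : a.coeff k = ((HahnSeries.C π : LaurentSeries A0) ^ B * a').coeff k := by rw [← ha']
  rw [this, ← map_pow, C_mul_coeff]

/-- normal form in `A0((q))`. -/
theorem exists_pow_mul_L (hu : IsUnif res π) (a : LaurentSeries A0) (ha : a ≠ 0) :
    ∃ (m : ℕ) (a₀ : LaurentSeries A0),
      a = (HahnSeries.C π : LaurentSeries A0) ^ m * a₀ ∧ redL res a₀ ≠ 0 := by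
  obtain ⟨B, hB⟩ := not_pow_dvd_L hu a ha
  exact exists_pow_mul_of_bound (redL res) _ (redL_eq_zero hu) B a hB

end Laurent

section Concrete

variable {A0 : Type*} [CommRing A0] [IsDomain A0] (K0 : Type*) [Field K0]
  [Algebra A0 K0] [IsFractionRing A0 K0] {k0 : Type*} [Field k0] (res : A0 →+* k0) {π : A0}

/-- the Gauss localization of `A0((q))`. -/
abbrev OG : Type _ := OLoc (redL res)

/-- its embedding in `K0((q))`. -/
def ιG : OG res →+* LaurentSeries K0 := ιO (ιL K0) (redL res) (ιL_injective K0)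

/-- its reduction to `k0((q))`. -/
def redG : OG res →+* LaurentSeries k0 := redO (redL res)

/-- the inclusion of `A0((q))`. -/
def incG : LaurentSeries A0 →+* OG res := algebraMap (LaurentSeries A0) (OG res)

theorem ιG_incG (a : LaurentSeries A0) : ιG K0 res (incG res a) = ιL K0 a :=
  ιO_algebraMap _ _ _ a

theorem redG_incG (a : LaurentSeries A0) : redG res (incG res a) = redL res a :=
  redO_algebraMap _ a

theorem ιG_injective : Function.Injective (ιG K0 res) := ιO_injective _ _ _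

/-- the uniformizer in the Gauss ring. -/
def πG (π : A0) : OG res := incG res (HahnSeries.C π)

/-- the uniformizer in `K0((q))`. -/
def πK (π : A0) : LaurentSeries K0 := HahnSeries.C (algebraMap A0 K0 π)

theorem ιL_C (c : A0) : ιL K0 (HahnSeries.C c) = HahnSeries.C (algebraMap A0 K0 c) := by
  show coeffMap _ (HahnSeries.single 0 c) = _
  rw [coeffMap_single]; rfl

theorem redL_C (c : A0) : redL res (HahnSeries.C c) = HahnSeries.C (res c) := by
  show coeffMap _ (HahnSeries.single 0 c) = _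
  rw [coeffMap_single]; rfl

theorem ιG_πG : ιG K0 res (πG res π) = πK K0 π := by
  rw [πG, ιG_incG, ιL_C, πK]

variable {res}

theorem redG_πG (hu : IsUnif res π) : redG res (πG res π) = 0 := by
  rw [πG, redG_incG]; exact redL_C_pi hu

theorem πK_ne_zero (hu : IsUnif res π) : πK K0 π ≠ 0 := by
  intro h
  have h1 : algebraMap A0 K0 π = 0 := by
    have := congrArg (fun x : LaurentSeries K0 => x.coeff 0) h
    simpa [πK] using this
  exact hu.ne_zero (IsFractionRing.injective A0 K0 (by rw [h1, map_zero]))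

variable (A0) in
/-- the fraction field of `A0((q))` inside `K0((q))`. -/
def fracL : Subfield (LaurentSeries K0) where
  carrier := {x | ∃ g h : LaurentSeries A0, h ≠ 0 ∧ x * ιL K0 h = ιL K0 g}
  mul_mem' := by
    rintro x y ⟨g, h, hh, hx⟩ ⟨g', h', hh', hy⟩
    exact ⟨g * g', h * h', mul_ne_zero hh hh', by rw [map_mul, map_mul, ← hx, ← hy]; ring⟩
  one_mem' := ⟨1, 1, one_ne_zero, by simp⟩
  add_mem' := by
    rintro x y ⟨g, h, hh, hx⟩ ⟨g', h', hh', hy⟩
    exact ⟨g * h' + g' * h, h * h', mul_ne_zero hh hh', by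
      simp only [map_add, map_mul, ← hx, ← hy]; ring⟩
  zero_mem' := ⟨0, 1, one_ne_zero, by simp⟩
  neg_mem' := by
    rintro x ⟨g, h, hh, hx⟩
    exact ⟨-g, h, hh, by rw [map_neg, ← hx]; ring⟩
  inv_mem' := by
    rintro x ⟨g, h, hh, hx⟩
    by_cases hx0 : x = 0
    · exact ⟨0, 1, one_ne_zero, by simp [hx0]⟩
    · have hg : g ≠ 0 := by
        rintro rfl
        rw [map_zero] at hx
        rcases mul_eq_zero.mp hx with h1 | h1
        · exact hx0 h1
        · exact hh (ιL_injective K0 (by rw [h1, map_zero]))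
      refine ⟨h, g, hg, ?_⟩
      rw [← hx, ← mul_assoc, inv_mul_cancel₀ hx0, one_mul]

theorem ιL_mem_fracL (a : LaurentSeries A0) : ιL K0 a ∈ fracL A0 K0 :=
  ⟨a, 1, one_ne_zero, by rw [map_one, mul_one]⟩

theorem algebraMap_mem_fracL (c : K0) : algebraMap K0 (LaurentSeries K0) c ∈ fracL A0 K0 := by
  obtain ⟨a, s, hs, rfl⟩ := IsFractionRing.div_surjective (A := A0) c
  have hs0 : s ≠ 0 := nonZeroDivisors.ne_zero hs
  have hC : ∀ e : A0, algebraMap K0 (LaurentSeries K0) (algebraMap A0 K0 e)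
      = ιL K0 (HahnSeries.C e) := by
    intro e
    rw [ιL_C, algebraMap_laurentSeries_eq_single]; rfl
  rw [map_div₀, hC, hC]
  exact (fracL A0 K0).div_mem (ιL_mem_fracL K0 _) (ιL_mem_fracL K0 _)

/-- a field generated over `K0` by integral series lies in the fraction field of `A0((q))`. -/
theorem adjoin_le_fracL (S : Set (LaurentSeries K0)) (hS : ∀ s ∈ S, ∃ a : LaurentSeries A0, ιL K0 a = s)
    (x : LaurentSeries K0) (hx : x ∈ IntermediateField.adjoin K0 S) : x ∈ fracL A0 K0 := by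
  have hx' : x ∈ Subfield.closure (Set.range (algebraMap K0 (LaurentSeries K0)) ∪ S) := hx
  refine Subfield.closure_le.mpr ?_ hx'
  rintro y (⟨c, rfl⟩ | hy)
  · exact algebraMap_mem_fracL K0 c
  · obtain ⟨a, rfl⟩ := hS y hy
    exact ιL_mem_fracL K0 a

/-- the Gauss data for a subfield of the fraction field of `A0((q))`. -/
theorem isGaussL (hu : IsUnif res π) (F : IntermediateField K0 (LaurentSeries K0))
    (hF : ∀ x ∈ F, x ∈ fracL A0 K0) :
    IsGauss (ιG K0 res) (redG res) (πG res π) (F.val : ↥F →+* LaurentSeries K0) where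
  inj := ιG_injective K0 res
  ker := redO_eq_zero (redL res) (HahnSeries.C π : LaurentSeries A0) (redL_eq_zero hu)
  red_pi := redG_πG hu
  unit := isUnit_of_redO_ne (redL res)
  pow := fun x => by
    obtain ⟨g, h, hh, hx⟩ := hF x x.2
    obtain ⟨n, z, hz⟩ := exists_pow_mul_ιO (ιL K0) (redL res) (ιL_injective K0)
      (HahnSeries.C π : LaurentSeries A0) (exists_pow_mul_L hu) x g h hh hx
    refine ⟨n, z, ?_⟩
    rw [ιG_πG]
    rw [ιL_C] at hz
    exact hz
  pi_ne := by rw [ιG_πG]; exact πK_ne_zero K0 hu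

end Concrete

section Poly

variable {A0 : Type*} [CommRing A0] [IsDomain A0] (K0 : Type*) [Field K0]
  [Algebra A0 K0] [IsFractionRing A0 K0] {k0 : Type*} [Field k0] {res : A0 →+* k0} {π : A0}

theorem algebraMap_eq_C {K : Type*} [Field K] (c : K) :
    algebraMap K (LaurentSeries K) c = HahnSeries.C c := by
  rw [algebraMap_laurentSeries_eq_single]; rfl

/-- clearing the denominator of an element of `K0`. -/
theorem exists_pow_mul_mem (hu : IsUnif res π) (c : K0) :
    ∃ (e : ℕ) (a : A0), algebraMap A0 K0 a = algebraMap A0 K0 π ^ e * c := by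
  obtain ⟨a, s, hs, rfl⟩ := IsFractionRing.div_surjective (A := A0) c
  have hs0 : s ≠ 0 := nonZeroDivisors.ne_zero hs
  obtain ⟨B, hB⟩ := hu.sep s hs0
  obtain ⟨m, s₀, rfl, hs₀⟩ := exists_pow_mul_of_bound res π hu.ker B s hB
  obtain ⟨v, hv⟩ := hu.unit s₀ hs₀
  refine ⟨m, a * ↑v⁻¹, ?_⟩
  have hπ : algebraMap A0 K0 π ≠ 0 := fun h =>
    hu.ne_zero (IsFractionRing.injective A0 K0 (by rw [h, map_zero]))
  have hv' : algebraMap A0 K0 (↑v⁻¹ : A0) * algebraMap A0 K0 s₀ = 1 := by
    rw [← map_mul, ← hv, Units.inv_mul, map_one]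
  have hs₀ne : algebraMap A0 K0 s₀ ≠ 0 := right_ne_zero_of_mul_eq_one hv'
  have hinv : algebraMap A0 K0 (↑v⁻¹ : A0) = (algebraMap A0 K0 s₀)⁻¹ :=
    eq_inv_of_mul_eq_one_left hv'
  rw [map_mul, hinv, map_mul, map_pow]
  have hp : algebraMap A0 K0 π ^ m ≠ 0 := pow_ne_zero _ hπ
  field_simp

/-- clearing denominators of a polynomial over `K0`. -/
theorem exists_map_eq_C_mul (hu : IsUnif res π) (P : K0[X]) :
    ∃ (a : ℕ) (P₁ : A0[X]),
      P₁.map (algebraMap A0 K0) = C (algebraMap A0 K0 π ^ a) * P := by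
  induction P using Polynomial.induction_on' with
  | add P Q hP hQ =>
    obtain ⟨a, P₁, h1⟩ := hP
    obtain ⟨b, Q₁, h2⟩ := hQ
    refine ⟨a + b, C (π ^ b) * P₁ + C (π ^ a) * Q₁, ?_⟩
    rw [Polynomial.map_add, Polynomial.map_mul, Polynomial.map_mul, Polynomial.map_C,
      Polynomial.map_C, h1, h2]
    simp only [map_pow, pow_add, C_mul]
    ring
  | monomial n c =>
    obtain ⟨e, a, ha⟩ := exists_pow_mul_mem K0 hu c
    refine ⟨e, monomial n a, ?_⟩
    rw [Polynomial.map_monomial, C_mul_monomial, ha]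

theorem map_res_eq_zero (hu : IsUnif res π) (P : A0[X]) (hP : P.map res = 0) :
    ∃ P', P = C π * P' := by
  have : C π ∣ P := by
    rw [C_dvd_iff_dvd_coeff]
    intro i
    have hi : res (P.coeff i) = 0 := by rw [← coeff_map, hP, coeff_zero]
    obtain ⟨y, hy⟩ := hu.ker _ hi
    exact ⟨y, hy⟩
  exact this

/-- normal form of a nonzero polynomial over `A0`. -/
theorem exists_pow_mul_poly (hu : IsUnif res π) (P : A0[X]) (hP : P ≠ 0) :
    ∃ (m : ℕ) (P₀ : A0[X]), P = C π ^ m * P₀ ∧ P₀.map res ≠ 0 := by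
  have hc : P.leadingCoeff ≠ 0 := leadingCoeff_ne_zero.mpr hP
  obtain ⟨B, hB⟩ := hu.sep _ hc
  have hB' : ¬ C π ^ B ∣ P := by
    intro hd
    rw [← C_pow, C_dvd_iff_dvd_coeff] at hd
    exact hB (hd _)
  exact exists_pow_mul_of_bound (mapRingHom res) (C π)
    (fun r hr => map_res_eq_zero hu r hr) _ P hB'

variable (res)

/-- constants `A0 → O`. -/
def cG : A0 →+* OG res := (incG res).comp HahnSeries.C

theorem ιG_comp_cG :
    (ιG K0 res).comp (cG res) = (algebraMap K0 (LaurentSeries K0)).comp (algebraMap A0 K0) := by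
  ext c : 1
  show ιG K0 res (incG res (HahnSeries.C c)) = algebraMap K0 (LaurentSeries K0) (algebraMap A0 K0 c)
  rw [ιG_incG, ιL_C, algebraMap_eq_C]

theorem redG_comp_cG :
    (redG res).comp (cG res) = (algebraMap k0 (LaurentSeries k0)).comp res := by
  ext c : 1
  show redG res (incG res (HahnSeries.C c)) = algebraMap k0 (LaurentSeries k0) (res c)
  rw [redG_incG, redL_C, algebraMap_eq_C]

/-- evaluation of integral polynomials at an integral series. -/
def evG (tA : LaurentSeries A0) : A0[X] →+* OG res :=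
  eval₂RingHom (cG res) (incG res tA)

theorem ιG_evG (tA : LaurentSeries A0) (P : A0[X]) :
    ιG K0 res (evG res tA P) = aeval (ιL K0 tA) (P.map (algebraMap A0 K0)) := by
  rw [evG, coe_eval₂RingHom, hom_eval₂, ιG_comp_cG, ιG_incG, aeval_def, eval₂_map]

theorem redG_evG (tA : LaurentSeries A0) (P : A0[X]) :
    redG res (evG res tA P) = aeval (redL res tA) (P.map res) := by
  rw [evG, coe_eval₂RingHom, hom_eval₂, redG_comp_cG, redG_incG, aeval_def, eval₂_map]

variable {res}

/-- `K0[t] ∩ O = A0[t]`. -/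
theorem poly_descent (hu : IsUnif res π) (tA : LaurentSeries A0)
    (htr : Transcendental k0 (redL res tA))
    (P : K0[X]) (w : OG res) (hw : ιG K0 res w = aeval (ιL K0 tA) P) :
    ∃ P₀ : A0[X], P₀.map (algebraMap A0 K0) = P := by
  classical
  have hπ : algebraMap A0 K0 π ≠ 0 := fun h =>
    hu.ne_zero (IsFractionRing.injective A0 K0 (by rw [h, map_zero]))
  have hex := exists_map_eq_C_mul K0 hu P
  have hM := Nat.find_spec hex
  rcases Nat.eq_zero_or_pos (Nat.find hex) with h0 | hpos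
  · obtain ⟨P₁, hP₁⟩ := hM
    exact ⟨P₁, by rw [hP₁, h0, pow_zero, C_1, one_mul]⟩
  · exfalso
    obtain ⟨M', hM'⟩ : ∃ M', Nat.find hex = M' + 1 := Nat.exists_eq_succ_of_ne_zero hpos.ne'
    rw [hM'] at hM
    obtain ⟨P₁, hP₁⟩ := hM
    have h1 : evG res tA P₁ = πG res π ^ (M' + 1) * w := ιG_injective K0 res (by
      calc ιG K0 res (evG res tA P₁)
          = aeval (ιL K0 tA) (C (algebraMap A0 K0 π ^ (M' + 1)) * P) := by
            rw [ιG_evG, hP₁]
        _ = πK K0 π ^ (M' + 1) * aeval (ιL K0 tA) P := by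
            rw [map_mul, aeval_C, map_pow, algebraMap_eq_C]; rfl
        _ = ιG K0 res (πG res π ^ (M' + 1) * w) := by
            rw [map_mul (ιG K0 res), map_pow, ιG_πG, hw])
    have h2 : redG res (evG res tA P₁) = 0 := by
      rw [h1, map_mul, map_pow, redG_πG hu, zero_pow (Nat.succ_ne_zero M'), zero_mul]
    rw [redG_evG] at h2
    have h3 : P₁.map res = 0 := by
      by_contra hne
      exact htr ⟨_, hne, h2⟩
    obtain ⟨P₂, rfl⟩ := map_res_eq_zero hu P₁ h3
    refine Nat.find_min hex (m := M') (by omega) ⟨P₂, ?_⟩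
    rw [Polynomial.map_mul, Polynomial.map_C, pow_succ, C_mul] at hP₁
    have hC : (C (algebraMap A0 K0 π) : K0[X]) ≠ 0 := C_ne_zero.mpr hπ
    apply mul_left_cancel₀ hC
    rw [← mul_assoc, mul_comm (C (algebraMap A0 K0 π)) (C (algebraMap A0 K0 π ^ M')), ← hP₁]

theorem aeval_mem_intermediate' {k L : Type*} [Field k] [Field L] [Algebra k L]
    (κ : IntermediateField k L) {x : L} (hx : x ∈ κ) (p : k[X]) : aeval x p ∈ κ := by
  rw [aeval_eq_sum_range]
  exact sum_mem fun i _ => κ.smul_mem (pow_mem hx i)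

/-- normal form of the value of a polynomial over `K0` at an integral series. -/
theorem normal_form_aeval (hu : IsUnif res π) (tA : LaurentSeries A0)
    (htr : Transcendental k0 (redL res tA))
    (κ : IntermediateField k0 (LaurentSeries k0)) (htκ : redL res tA ∈ κ)
    (P : K0[X]) (hP : P ≠ 0) :
    ∃ (a b : ℕ) (u : OG res), redG res u ≠ 0 ∧ redG res u ∈ κ ∧
      πK K0 π ^ a * aeval (ιL K0 tA) P = πK K0 π ^ b * ιG K0 res u := by
  have hπ : algebraMap A0 K0 π ≠ 0 := fun h =>
    hu.ne_zero (IsFractionRing.injective A0 K0 (by rw [h, map_zero]))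
  obtain ⟨a, P₁, hP₁⟩ := exists_map_eq_C_mul K0 hu P
  have hP₁0 : P₁ ≠ 0 := by
    rintro rfl
    rw [Polynomial.map_zero] at hP₁
    rcases mul_eq_zero.mp hP₁.symm with h | h
    · exact absurd (C_eq_zero.mp h) (pow_ne_zero _ hπ)
    · exact hP h
  obtain ⟨b, P₀, rfl, hP₀⟩ := exists_pow_mul_poly hu P₁ hP₁0
  refine ⟨a, b, evG res tA P₀, ?_, ?_, ?_⟩
  · rw [redG_evG]; exact fun h => htr ⟨_, hP₀, h⟩
  · rw [redG_evG]; exact aeval_mem_intermediate' κ htκ _
  · rw [ιG_evG]
    have h1 := congrArg (aeval (ιL K0 tA)) hP₁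
    rw [Polynomial.map_mul, Polynomial.map_pow, Polynomial.map_C] at h1
    rw [map_mul, map_pow, aeval_C, algebraMap_eq_C, map_mul, aeval_C, map_pow,
      algebraMap_eq_C] at h1
    exact h1.symm

theorem aeval_ιL_ne_zero (hu : IsUnif res π) (tA : LaurentSeries A0)
    (htr : Transcendental k0 (redL res tA)) (P : K0[X]) (hP : P ≠ 0) :
    aeval (ιL K0 tA) P ≠ 0 := by
  intro h0
  obtain ⟨a, b, u, hu0, -, hu'⟩ := normal_form_aeval K0 hu tA htr ⊤ trivial P hP
  rw [h0, mul_zero] at hu'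
  have hu1 : ιG K0 res u = 0 := by
    rcases mul_eq_zero.mp hu'.symm with h | h
    · exact absurd h (pow_ne_zero _ (πK_ne_zero K0 hu))
    · exact h
  have : u = 0 := ιG_injective K0 res (by rw [hu1, map_zero])
  exact hu0 (by rw [this, map_zero])

/-- `red (K0(t) ∩ O) ⊆ k0(t̄)`. -/
theorem red_mem_of_frac (hu : IsUnif res π) (tA : LaurentSeries A0)
    (htr : Transcendental k0 (redL res tA))
    (κ : IntermediateField k0 (LaurentSeries k0)) (htκ : redL res tA ∈ κ)
    (r s : K0[X]) (z : OG res)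
    (hz : ιG K0 res z = aeval (ιL K0 tA) r / aeval (ιL K0 tA) s) :
    redG res z ∈ κ := by
  classical
  have hℓq : πK K0 π ≠ 0 := πK_ne_zero K0 hu
  by_cases hz0 : ιG K0 res z = 0
  · have : z = 0 := ιG_injective K0 res (by rw [hz0, map_zero])
    rw [this, map_zero]; exact zero_mem κ
  have hr : aeval (ιL K0 tA) r ≠ 0 := fun h => hz0 (by rw [hz, h, zero_div])
  have hs : aeval (ιL K0 tA) s ≠ 0 := fun h => hz0 (by rw [hz, h, div_zero])
  have hr0 : r ≠ 0 := fun h => hr (by rw [h, map_zero])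
  have hs0 : s ≠ 0 := fun h => hs (by rw [h, map_zero])
  obtain ⟨a, b, u, hu0, huκ, hu'⟩ := normal_form_aeval K0 hu tA htr κ htκ r hr0
  obtain ⟨a', b', v, hv0, hvκ, hv⟩ := normal_form_aeval K0 hu tA htr κ htκ s hs0
  have key : ιG K0 res z * πK K0 π ^ (b' + a) * ιG K0 res v
      = πK K0 π ^ (b + a') * ιG K0 res u := by
    rw [hz]
    calc aeval (ιL K0 tA) r / aeval (ιL K0 tA) s * πK K0 π ^ (b' + a) * ιG K0 res v
        = (πK K0 π ^ a * aeval (ιL K0 tA) r)
            * (πK K0 π ^ b' * ιG K0 res v) / aeval (ιL K0 tA) s := by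
          rw [pow_add]; ring
      _ = (πK K0 π ^ b * ιG K0 res u)
            * (πK K0 π ^ a' * aeval (ιL K0 tA) s) / aeval (ιL K0 tA) s := by
          rw [hu', hv]
      _ = πK K0 π ^ (b + a') * ιG K0 res u := by
          rw [pow_add]; field_simp
  rcases le_or_gt (b' + a) (b + a') with hle | hlt
  · have h2 : z * v = πG res π ^ (b + a' - (b' + a)) * u := ιG_injective K0 res (by
      simp only [map_mul, map_pow, ιG_πG]
      have hp : πK K0 π ^ (b' + a) ≠ 0 := pow_ne_zero _ hℓq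
      apply mul_left_cancel₀ hp
      calc πK K0 π ^ (b' + a) * (ιG K0 res z * ιG K0 res v)
          = ιG K0 res z * πK K0 π ^ (b' + a) * ιG K0 res v := by ring
        _ = πK K0 π ^ (b + a') * ιG K0 res u := key
        _ = πK K0 π ^ (b' + a)
              * (πK K0 π ^ (b + a' - (b' + a)) * ιG K0 res u) := by
            rw [← mul_assoc, ← pow_add, Nat.add_sub_cancel' hle])
    have h3 := congrArg (redG res) h2
    rw [map_mul, map_mul, map_pow, redG_πG hu] at h3
    have h4 : redG res z = (0 ^ (b + a' - (b' + a)) * redG res u) * (redG res v)⁻¹ := by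
      rw [← h3, mul_assoc, mul_inv_cancel₀ hv0, mul_one]
    rw [h4]
    exact κ.mul_mem (κ.mul_mem (pow_mem (zero_mem κ) _) huκ) (κ.inv_mem hvκ)
  · exfalso
    have h2 : πG res π ^ (b' + a - (b + a')) * (z * v) = u := ιG_injective K0 res (by
      simp only [map_mul, map_pow, ιG_πG]
      have hp : πK K0 π ^ (b + a') ≠ 0 := pow_ne_zero _ hℓq
      apply mul_left_cancel₀ hp
      calc πK K0 π ^ (b + a')
            * (πK K0 π ^ (b' + a - (b + a')) * (ιG K0 res z * ιG K0 res v))
          = πK K0 π ^ (b' + a) * (ιG K0 res z * ιG K0 res v) := by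
            rw [← mul_assoc, ← pow_add, Nat.add_sub_cancel' hlt.le]
        _ = ιG K0 res z * πK K0 π ^ (b' + a) * ιG K0 res v := by ring
        _ = πK K0 π ^ (b + a') * ιG K0 res u := key)
    have h3 := congrArg (redG res) h2
    rw [map_mul, map_pow, redG_πG hu, zero_pow (by omega), zero_mul] at h3
    exact hu0 h3.symm

variable (res)

/-- lifting along the injective `ιG`. -/
def liftG {B : Type*} [CommRing B] (ψ : B →+* LaurentSeries K0)
    (h : ∀ y, ∃ z, ιG K0 res z = ψ y) : B →+* OG res where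
  toFun y := (h y).choose
  map_one' := ιG_injective K0 res (by rw [(h 1).choose_spec, map_one, map_one])
  map_mul' a b := ιG_injective K0 res (by
    rw [(h _).choose_spec, map_mul, map_mul, (h a).choose_spec, (h b).choose_spec])
  map_zero' := ιG_injective K0 res (by rw [(h 0).choose_spec, map_zero, map_zero])
  map_add' a b := ιG_injective K0 res (by
    rw [(h _).choose_spec, map_add, map_add, (h a).choose_spec, (h b).choose_spec])

theorem ιG_liftG {B : Type*} [CommRing B] (ψ : B →+* LaurentSeries K0)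
    (h : ∀ y, ∃ z, ιG K0 res z = ψ y) (y : B) : ιG K0 res (liftG K0 res ψ h y) = ψ y :=
  (h y).choose_spec

end Poly

section Abs

variable {O 𝕃 kt F : Type*} [CommRing O] [Field 𝕃] [Field kt] [Field F]
  {ι : O →+* 𝕃} {red : O →+* kt} {π : O} {φ : F →+* 𝕃}
  {K₀ : Type*} [Field K₀] [Algebra K₀ F] {κ : Type*} [Field κ] [Algebra κ kt]

/-- every integral element of `F` is integral over the valuation ring of `K₀`: spanning form
of the degree input. -/
theorem isIntegral_valSub_of_span (h : IsGauss ι red π φ) (pK : K₀)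
    (hpK : φ (algebraMap K₀ F pK) = ι π)
    (hκ : ∀ (c : K₀) (z : O), ι z = φ (algebraMap K₀ F c) → red z ∈ (algebraMap κ kt).range)
    {n : ℕ} (x : Fin n → F) (zx : Fin n → O) (hzx : ∀ i, ι (zx i) = φ (x i))
    (hli : LinearIndependent κ (fun i => red (zx i)))
    (hspan : ∀ y : F, ∃ c : Fin n → K₀, y = ∑ i, c i • x i)
    (y : F) (zy : O) (hzy : ι zy = φ y) :
    ((algebraMap K₀ F).comp (algebraMap ↥(h.valSub K₀) K₀)).IsIntegralElem y := by
  classical
  letI : Algebra ↥(h.valSub K₀) F :=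
    ((algebraMap K₀ F).comp (algebraMap ↥(h.valSub K₀) K₀)).toAlgebra
  haveI : IsScalarTower ↥(h.valSub K₀) K₀ F := IsScalarTower.of_algebraMap_eq' rfl
  let S : Subalgebra ↥(h.valSub K₀) F :=
    { carrier := {y | ∃ z, ι z = φ y}
      mul_mem' := by
        rintro a b ⟨wa, ha⟩ ⟨wb, hb⟩
        exact ⟨wa * wb, by rw [map_mul, ha, hb, map_mul]⟩
      one_mem' := ⟨1, by simp⟩
      add_mem' := by
        rintro a b ⟨wa, ha⟩ ⟨wb, hb⟩
        exact ⟨wa + wb, by rw [map_add, ha, hb, map_add]⟩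
      zero_mem' := ⟨0, by simp⟩
      algebraMap_mem' := fun a => a.2 }
  have hS : Subalgebra.toSubmodule S = Submodule.span ↥(h.valSub K₀) (Set.range x) := by
    apply le_antisymm
    · rintro y ⟨zy, hzy⟩
      obtain ⟨c, hc⟩ := hspan y
      have hcm := h.coeff_mem pK hpK hκ x zx hzx hli c zy (by rw [← hc]; exact hzy)
      rw [hc]
      refine Submodule.sum_mem _ fun i _ => ?_
      have : c i • x i = (⟨c i, hcm i⟩ : ↥(h.valSub K₀)) • x i := by
        rw [Algebra.smul_def, Algebra.smul_def]; rfl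
      rw [this]
      exact Submodule.smul_mem _ _ (Submodule.subset_span ⟨i, rfl⟩)
    · rw [Submodule.span_le]
      rintro _ ⟨i, rfl⟩
      exact ⟨zx i, hzx i⟩
  have hfg : (Subalgebra.toSubmodule S).FG := by
    rw [hS]; exact Submodule.fg_span (Set.finite_range x)
  exact IsIntegral.of_mem_of_fg S hfg y ⟨zy, hzy⟩

/-- the core statement with an integrality hypothesis in place of the degree input: an
integral element with zero reduction is `π` times an element integral over the small ring. -/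
theorem core_of_isIntegral (h : IsGauss ι red π φ) (pK : K₀)
    (hpK : φ (algebraMap K₀ F pK) = ι π)
    (hint : ∀ (y : F) (zy : O), ι zy = φ y →
      ((algebraMap K₀ F).comp (algebraMap ↥(h.valSub K₀) K₀)).IsIntegralElem y)
    {R₂ R₀ : Type*} [CommRing R₂] [IsDomain R₂] [IsIntegrallyClosed R₂] [CommRing R₀]
    [Algebra R₂ K₀] [IsFractionRing R₂ K₀] (f₀ : R₀ →+* K₀)
    (hr : ∀ c : K₀, c ∈ h.valSub K₀ → c ∈ (algebraMap R₂ K₀).range → c ∈ f₀.range)
    (hpinv : pK⁻¹ ∈ (algebraMap R₂ K₀).range)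
    (b : F) (hb : ((algebraMap K₀ F).comp (algebraMap R₂ K₀)).IsIntegralElem b)
    (z : O) (hz : ι z = φ b) (hrz : red z = 0) :
    ∃ b' : F, ((algebraMap K₀ F).comp f₀).IsIntegralElem b' ∧ b = algebraMap K₀ F pK * b' := by
  obtain ⟨z', rfl⟩ := h.ker z hrz
  have hπ := h.pi_ne
  have hpK0 : pK ≠ 0 := by
    rintro rfl
    rw [map_zero, map_zero] at hpK
    exact hπ hpK.symm
  have hpKF : algebraMap K₀ F pK ≠ 0 := (_root_.map_ne_zero _).mpr hpK0
  refine ⟨algebraMap K₀ F pK⁻¹ * b, ?_, ?_⟩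
  · have hz' : ι z' = φ (algebraMap K₀ F pK⁻¹ * b) := by
      rw [map_mul, ← hz, map_inv₀, map_inv₀, hpK, map_mul]
      field_simp
    have int1 := hint _ z' hz'
    have int2 : ((algebraMap K₀ F).comp (algebraMap R₂ K₀)).IsIntegralElem
        (algebraMap K₀ F pK⁻¹ * b) := by
      obtain ⟨r, hr'⟩ := hpinv
      refine RingHom.IsIntegralElem.mul _ ?_ hb
      rw [← hr']
      exact RingHom.isIntegralElem_map ((algebraMap K₀ F).comp (algebraMap R₂ K₀))
    refine isIntegralElem_of_two (R₁ := ↥(h.valSub K₀)) (R₂ := R₂) f₀ ?_ _ int1 int2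
    rintro c ⟨a, rfl⟩ hc2
    exact hr _ a.2 hc2
  · rw [← mul_assoc, ← map_mul, mul_inv_cancel₀ hpK0, map_one, one_mul]

end Abs

section Chart

variable {A0 : Type*} [CommRing A0] [IsDomain A0] {K0 : Type*} [Field K0]
  [Algebra A0 K0] [IsFractionRing A0 K0] {k0 : Type*} [Field k0] {res : A0 →+* k0} {π : A0}
  (F : IntermediateField K0 (LaurentSeries K0))

/-- the structure map `A0[X] → F`, `P ↦ P(t)`, of the chart with coordinate `t`. -/
def chartHom (t : F) : A0[X] →+* F :=
  eval₂RingHom ((algebraMap K0 F).comp (algebraMap A0 K0)) t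

theorem chartHom_C (t : F) (a : A0) :
    chartHom F t (C a) = algebraMap K0 F (algebraMap A0 K0 a) := by
  rw [chartHom, coe_eval₂RingHom, eval₂_C]; rfl

theorem chartHom_X (t : F) : chartHom (A0 := A0) F t X = t := by
  rw [chartHom, coe_eval₂RingHom, eval₂_X]

/-- the value of `chartHom` as a Laurent series. -/
theorem coe_chartHom (t : F) (tA : LaurentSeries A0) (htA : ιL K0 tA = (t : LaurentSeries K0))
    (P : A0[X]) :
    ((chartHom F t P : F) : LaurentSeries K0) = aeval (ιL K0 tA) (P.map (algebraMap A0 K0)) := by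
  have e1 : (F.val : ↥F →+* LaurentSeries K0).comp ((algebraMap K0 F).comp (algebraMap A0 K0))
      = (algebraMap K0 (LaurentSeries K0)).comp (algebraMap A0 K0) := by
    ext a; rfl
  have e2 : ((chartHom F t P : F) : LaurentSeries K0)
      = (F.val : ↥F →+* LaurentSeries K0) (eval₂ ((algebraMap K0 F).comp (algebraMap A0 K0)) t P) :=
    rfl
  rw [e2, hom_eval₂, e1, aeval_def, eval₂_map, htA]
  rfl

variable {F}

/-- elements integral over `A0[t]` lie in the Gauss ring. -/
theorem chart_mem_range (hu : IsUnif res π) (hF : ∀ x ∈ F, x ∈ fracL A0 K0)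
    (t : F) (tA : LaurentSeries A0) (htA : ιL K0 tA = (t : LaurentSeries K0))
    (y : F) (hy : (chartHom (A0 := A0) F t).IsIntegralElem y) :
    ∃ z : OG res, ιG K0 res z = (y : LaurentSeries K0) := by
  obtain ⟨p, hp, hpy⟩ := hy
  refine (isGaussL K0 hu F hF).mem_of_monic (p.map (chartHom F t)) (hp.map _) (fun i => ?_) y
    (by rw [eval_map]; exact hpy)
  rw [coeff_map]
  exact ⟨evG res tA (p.coeff i), by rw [ιG_evG]; exact (coe_chartHom F t tA htA _).symm⟩

/-- the integrality input for a base field `K₁ ⊆ F`: every element of the Gauss ring of `F` is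
integral over the Gauss ring of `K₁`. -/
def GaussInt (hu : IsUnif res π) (hF : ∀ x ∈ F, x ∈ fracL A0 K0)
    (K₁ : IntermediateField K0 F) : Prop :=
  ∀ (y : F) (zy : OG res), ιG K0 res zy = (y : LaurentSeries K0) →
    ((algebraMap K₁ F).comp
      (algebraMap ↥((isGaussL K0 hu F hF).valSub ↥K₁) ↥K₁)).IsIntegralElem y

/-- the integrality input is monotone in the base field. -/
theorem GaussInt.mono (hu : IsUnif res π) (hF : ∀ x ∈ F, x ∈ fracL A0 K0)
    {K₁ K₂ : IntermediateField K0 F} (hle : K₁ ≤ K₂) (h : GaussInt hu hF K₁) :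
    GaussInt hu hF K₂ := by
  intro y zy hzy
  refine isIntegralElem_of_range_le _ _ (fun r => ?_) (h y zy hzy)
  obtain ⟨w, hw⟩ := r.2
  exact ⟨⟨⟨(r : K₁).1, hle (r : K₁).2⟩, ⟨w, hw⟩⟩, rfl⟩

set_option synthInstance.maxHeartbeats 400000 in
set_option maxHeartbeats 1600000 in
/-- the core statement for one chart: an integral element with zero reduction is `π` times an
integral element. -/
theorem chart_core (hu : IsUnif res π) (hF : ∀ x ∈ F, x ∈ fracL A0 K0)
    (t : F) (tA : LaurentSeries A0) (htA : ιL K0 tA = (t : LaurentSeries K0))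
    (htr : Transcendental k0 (redL res tA))
    (K₁ : IntermediateField K0 F) (hK : K₁ = IntermediateField.adjoin K0 {t})
    (hint : GaussInt hu hF K₁)
    (y : F) (hy : (chartHom (A0 := A0) F t).IsIntegralElem y)
    (z : OG res) (hz : ιG K0 res z = (y : LaurentSeries K0)) (hredz : redG res z = 0) :
    ∃ y' : F, (chartHom (A0 := A0) F t).IsIntegralElem y' ∧
      y = algebraMap K0 F (algebraMap A0 K0 π) * y' := by
  let φ : ↥F →+* LaurentSeries K0 := F.val
  have htK : t ∈ K₁ := by rw [hK]; exact IntermediateField.mem_adjoin_simple_self K0 t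
  let t₀ : ↥K₁ := ⟨t, htK⟩
  letI algQ : Algebra K0[X] ↥K₁ := (aeval t₀).toRingHom.toAlgebra
  have halg : ∀ P : K0[X], algebraMap K0[X] ↥K₁ P = aeval t₀ P := fun _ => rfl
  have hcoeF : ∀ P : K0[X], algebraMap ↥K₁ ↥F (aeval t₀ P) = aeval t P := by
    intro P
    have e1 : (algebraMap ↥K₁ ↥F).comp (algebraMap K0 ↥K₁) = algebraMap K0 ↥F := by
      ext c; rfl
    rw [aeval_def, hom_eval₂, e1, aeval_def]
    rfl
  have hcoe : ∀ P : K0[X], φ (algebraMap ↥K₁ ↥F (aeval t₀ P)) = aeval (ιL K0 tA) P := by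
    intro P
    have e1 : φ.comp (algebraMap K0 ↥F) = algebraMap K0 (LaurentSeries K0) := by
      ext c; rfl
    rw [hcoeF, aeval_def, hom_eval₂, e1, aeval_def, htA]
    rfl
  have hfrac : ∀ c : ↥K₁, ∃ r s : K0[X], c = aeval t₀ r / aeval t₀ s := by
    intro c
    have hc : (c : ↥F) ∈ IntermediateField.adjoin K0 {t} := by rw [← hK]; exact c.2
    obtain ⟨r, s, hrs⟩ := (IntermediateField.mem_adjoin_simple_iff K0 _).mp hc
    refine ⟨r, s, Subtype.ext ?_⟩
    rw [hrs, IntermediateField.coe_div]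
    congr 1
    · exact (hcoeF r).symm
    · exact (hcoeF s).symm
  haveI hfs : FaithfulSMul K0[X] ↥K₁ := by
    rw [faithfulSMul_iff_algebraMap_injective, injective_iff_map_eq_zero]
    intro P hP
    by_contra hP0
    apply aeval_ιL_ne_zero K0 hu tA htr P hP0
    rw [← hcoe, ← halg, hP, map_zero, map_zero]
  haveI hfr : IsFractionRing K0[X] ↥K₁ := by
    refine IsFractionRing.of_field K0[X] _ (fun z => ?_)
    obtain ⟨r, s, hrs⟩ := hfrac z
    exact ⟨r, s, by rw [hrs, halg, halg]⟩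
  have h := isGaussL K0 hu F hF
  let pK : ↥K₁ := algebraMap K0 ↥K₁ (algebraMap A0 K0 π)
  have hpKF : algebraMap ↥K₁ ↥F pK = algebraMap K0 F (algebraMap A0 K0 π) := rfl
  have hpK : φ (algebraMap ↥K₁ ↥F pK) = ιG K0 res (πG res π) := by
    rw [ιG_πG, hpKF]
    show algebraMap K0 (LaurentSeries K0) (algebraMap A0 K0 π) = πK K0 π
    rw [algebraMap_eq_C]; rfl
  let f₀ : A0[X] →+* ↥K₁ := (algebraMap K0[X] ↥K₁).comp (mapRingHom (algebraMap A0 K0))
  have hr : ∀ c : ↥K₁, c ∈ h.valSub ↥K₁ → c ∈ (algebraMap K0[X] ↥K₁).range → c ∈ f₀.range := by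
    rintro c ⟨w, hw⟩ ⟨P, rfl⟩
    obtain ⟨P₀, rfl⟩ := poly_descent K0 hu tA htr P w (by rw [hw, halg]; exact hcoe P)
    exact ⟨P₀, rfl⟩
  have hπK : algebraMap A0 K0 π ≠ 0 := fun h0 =>
    hu.ne_zero (IsFractionRing.injective A0 K0 (by rw [h0, map_zero]))
  have hpinv : pK⁻¹ ∈ (algebraMap K0[X] ↥K₁).range :=
    ⟨C ((algebraMap A0 K0 π)⁻¹), by rw [halg, aeval_C, map_inv₀]⟩
  -- the two structure maps agree
  have hcomp : ∀ P₀ : A0[X], ((algebraMap ↥K₁ ↥F).comp f₀) P₀ = chartHom F t P₀ := by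
    intro P₀
    show algebraMap ↥K₁ ↥F (aeval t₀ (P₀.map (algebraMap A0 K0))) = _
    rw [hcoeF, aeval_def, eval₂_map]
    rfl
  have hyint : ((algebraMap ↥K₁ ↥F).comp (algebraMap K0[X] ↥K₁)).IsIntegralElem y :=
    isIntegralElem_of_range_le (chartHom F t) _
      (fun P₀ => ⟨P₀.map (algebraMap A0 K0), (hcomp P₀)⟩) hy
  obtain ⟨b', hb'int, hb'eq⟩ := core_of_isIntegral h pK hpK hint f₀ hr hpinv y hyint z hz hredz
  refine ⟨b', isIntegralElem_of_range_le _ (chartHom F t) (fun P₀ => ⟨P₀, (hcomp P₀).symm⟩)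
    hb'int, ?_⟩
  rw [hb'eq, hpKF]

/-- elements of `K0(t)` are ratios of polynomials in `t`. -/
theorem exists_frac_of_mem (t : F) (tA : LaurentSeries A0)
    (htA : ιL K0 tA = (t : LaurentSeries K0))
    (K₁ : IntermediateField K0 F) (hK : K₁ = IntermediateField.adjoin K0 {t}) (c : ↥K₁) :
    ∃ r s : K0[X], (((c : ↥F)) : LaurentSeries K0)
      = aeval (ιL K0 tA) r / aeval (ιL K0 tA) s := by
  have hc : (c : ↥F) ∈ IntermediateField.adjoin K0 {t} := by rw [← hK]; exact c.2
  obtain ⟨r, s, hrs⟩ := (IntermediateField.mem_adjoin_simple_iff K0 _).mp hc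
  refine ⟨r, s, ?_⟩
  have e : ∀ P : K0[X], ((aeval t P : ↥F) : LaurentSeries K0) = aeval (ιL K0 tA) P := by
    intro P
    rw [htA]
    exact (Polynomial.aeval_algHom_apply F.val t P).symm
  rw [hrs, IntermediateField.coe_div, e, e]

set_option synthInstance.maxHeartbeats 400000 in
set_option maxHeartbeats 1600000 in
/-- the integrality input from an independent spanning family: if `F` is spanned over `K0(t)`
by integral series whose reductions are independent over `k0(t̄)`, then every element of the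
Gauss ring of `F` is integral over the Gauss ring of `K0(t)`. -/
theorem gaussInt_of_indep (hu : IsUnif res π) (hF : ∀ x ∈ F, x ∈ fracL A0 K0)
    (t : F) (tA : LaurentSeries A0) (htA : ιL K0 tA = (t : LaurentSeries K0))
    (htr : Transcendental k0 (redL res tA))
    (κ : IntermediateField k0 (LaurentSeries k0)) (htκ : redL res tA ∈ κ)
    (K₁ : IntermediateField K0 F) (hK : K₁ = IntermediateField.adjoin K0 {t})
    {n : ℕ} (b : Fin n → LaurentSeries A0) (hb : ∀ i, ιL K0 (b i) ∈ F)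
    (hli : LinearIndependent κ (fun i => redL res (b i)))
    (hspan : ∀ y : F, ∃ c : Fin n → ↥K₁, y = ∑ i, c i • (⟨ιL K0 (b i), hb i⟩ : ↥F)) :
    GaussInt hu hF K₁ := by
  intro y zy hzy
  have h := isGaussL K0 hu F hF
  let φ : ↥F →+* LaurentSeries K0 := F.val
  let pK : ↥K₁ := algebraMap K0 ↥K₁ (algebraMap A0 K0 π)
  have hpK : φ (algebraMap ↥K₁ ↥F pK) = ιG K0 res (πG res π) := by
    rw [ιG_πG]
    show algebraMap K0 (LaurentSeries K0) (algebraMap A0 K0 π) = πK K0 π
    rw [algebraMap_eq_C]; rfl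
  have hκ : ∀ (c : ↥K₁) (z : OG res), ιG K0 res z = φ (algebraMap ↥K₁ ↥F c) →
      redG res z ∈ (algebraMap ↥κ (LaurentSeries k0)).range := by
    intro c z hz
    obtain ⟨r, s, hrs⟩ := exists_frac_of_mem t tA htA K₁ hK c
    exact ⟨⟨_, red_mem_of_frac K0 hu tA htr κ htκ r s z (hz.trans hrs)⟩, rfl⟩
  let x : Fin n → ↥F := fun i => ⟨ιL K0 (b i), hb i⟩
  let zx : Fin n → OG res := fun i => incG res (b i)
  have hzx : ∀ i, ιG K0 res (zx i) = φ (x i) := fun i => ιG_incG K0 res (b i)
  have hli' : LinearIndependent ↥κ (fun i => redG res (zx i)) := by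
    have : (fun i => redG res (zx i)) = fun i => redL res (b i) :=
      funext fun i => redG_incG res (b i)
    rw [this]; exact hli
  exact isIntegral_valSub_of_span h pK hpK hκ x zx hzx hli' hspan y zy hzy

end Chart

section Val

variable {A0 : Type*} [CommRing A0] [IsDomain A0] {K0 : Type*} [Field K0]
  [Algebra A0 K0] [IsFractionRing A0 K0] {k0 : Type*} [Field k0] {res : A0 →+* k0} {π : A0}
  {F : IntermediateField K0 (LaurentSeries K0)}

/-- the image of the Gauss ring in `K0((q))`: ratios of integral series with denominator of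
nonzero reduction. -/
theorem exists_ιG_iff (x : LaurentSeries K0) :
    (∃ z : OG res, ιG K0 res z = x) ↔
      ∃ Y1 Y2 : LaurentSeries A0, redL res Y2 ≠ 0 ∧ x * ιL K0 Y2 = ιL K0 Y1 := by
  constructor
  · rintro ⟨z, rfl⟩
    obtain ⟨a, s, hs, h⟩ := exists_rep (redL res) z
    refine ⟨a, s, hs, ?_⟩
    have h1 := congrArg (ιG K0 res) h
    rw [map_mul] at h1
    rw [← ιG_incG K0 res s, ← ιG_incG K0 res a]
    exact h1
  · rintro ⟨Y1, Y2, h2, h⟩
    obtain ⟨u, hu⟩ := isUnit_algebraMap_of_red_ne (redL res) h2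
    have hu' : ιG K0 res (↑u⁻¹ : OG res) * ιL K0 Y2 = 1 := by
      rw [← ιG_incG K0 res Y2]
      show ιG K0 res (↑u⁻¹ : OG res) * ιG K0 res (algebraMap _ _ Y2) = 1
      rw [← map_mul, ← hu, Units.inv_mul, map_one]
    have hY2 : ιL K0 Y2 ≠ 0 := right_ne_zero_of_mul_eq_one hu'
    refine ⟨incG res Y1 * ↑u⁻¹, ?_⟩
    rw [map_mul, ιG_incG, ← h, eq_inv_of_mul_eq_one_left hu']
    field_simp

/-- the reduction of a ratio. -/
theorem redG_eq_div (z : OG res) (Y1 Y2 : LaurentSeries A0) (h2 : redL res Y2 ≠ 0)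
    (h : ιG K0 res z * ιL K0 Y2 = ιL K0 Y1) : redG res z = redL res Y1 / redL res Y2 := by
  have h1 : z * incG res Y2 = incG res Y1 := ιG_injective K0 res (by
    rw [map_mul, ιG_incG, ιG_incG, h])
  have h3 := congrArg (redG res) h1
  rw [map_mul, redG_incG, redG_incG] at h3
  exact eq_div_of_mul_eq h2 h3

/-- the Gauss valuation subring of `F`. -/
def gaussV (hu : IsUnif res π) (hF : ∀ x ∈ F, x ∈ fracL A0 K0) : ValuationSubring ↥F :=
  (isGaussL K0 hu F hF).valSub ↥F

theorem mem_gaussV (hu : IsUnif res π) (hF : ∀ x ∈ F, x ∈ fracL A0 K0) (y : ↥F) :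
    y ∈ gaussV hu hF ↔ ∃ z : OG res, ιG K0 res z = (y : LaurentSeries K0) := Iff.rfl

/-- membership in the Gauss valuation ring: ratios `Y1 / Y2` of integral series with
`red Y2 ≠ 0`. -/
theorem mem_gaussV_iff (hu : IsUnif res π) (hF : ∀ x ∈ F, x ∈ fracL A0 K0) (y : ↥F) :
    y ∈ gaussV hu hF ↔ ∃ Y1 Y2 : LaurentSeries A0, redL res Y2 ≠ 0 ∧
      (y : LaurentSeries K0) * ιL K0 Y2 = ιL K0 Y1 :=
  (mem_gaussV hu hF y).trans (exists_ιG_iff _)

/-- the lift of the Gauss valuation ring to the Gauss localization. -/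
def liftV (hu : IsUnif res π) (hF : ∀ x ∈ F, x ∈ fracL A0 K0) : ↥(gaussV hu hF) →+* OG res :=
  liftG K0 res ((F.val : ↥F →+* LaurentSeries K0).comp (gaussV hu hF).subtype) (fun y => y.2)

theorem ιG_liftV (hu : IsUnif res π) (hF : ∀ x ∈ F, x ∈ fracL A0 K0) (y : ↥(gaussV hu hF)) :
    ιG K0 res (liftV hu hF y) = ((y : ↥F) : LaurentSeries K0) :=
  ιG_liftG K0 res _ _ y

/-- the reduction map of the Gauss valuation ring. -/
def redV (hu : IsUnif res π) (hF : ∀ x ∈ F, x ∈ fracL A0 K0) :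
    ↥(gaussV hu hF) →+* LaurentSeries k0 :=
  (redG res).comp (liftV hu hF)

theorem redV_eq_redG (hu : IsUnif res π) (hF : ∀ x ∈ F, x ∈ fracL A0 K0)
    (y : ↥(gaussV hu hF)) (z : OG res) (hz : ιG K0 res z = ((y : ↥F) : LaurentSeries K0)) :
    redV hu hF y = redG res z := by
  have : liftV hu hF y = z := ιG_injective K0 res (by rw [ιG_liftV, hz])
  show redG res (liftV hu hF y) = _
  rw [this]

/-- the reduction of a ratio `Y1 / Y2`. -/
theorem redV_eq_div (hu : IsUnif res π) (hF : ∀ x ∈ F, x ∈ fracL A0 K0)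
    (y : ↥(gaussV hu hF)) (Y1 Y2 : LaurentSeries A0) (h2 : redL res Y2 ≠ 0)
    (h : ((y : ↥F) : LaurentSeries K0) * ιL K0 Y2 = ιL K0 Y1) :
    redV hu hF y = redL res Y1 / redL res Y2 :=
  redG_eq_div _ Y1 Y2 h2 (by rw [ιG_liftV]; exact h)

/-- integral series lie in the Gauss valuation ring. -/
theorem ιL_mem_gaussV (hu : IsUnif res π) (hF : ∀ x ∈ F, x ∈ fracL A0 K0)
    (a : LaurentSeries A0) (ha : ιL K0 a ∈ F) : (⟨ιL K0 a, ha⟩ : ↥F) ∈ gaussV hu hF :=
  ⟨incG res a, ιG_incG K0 res a⟩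

/-- on integral series the reduction is the coefficientwise one. -/
theorem redV_ιL (hu : IsUnif res π) (hF : ∀ x ∈ F, x ∈ fracL A0 K0)
    (a : LaurentSeries A0) (ha : ιL K0 a ∈ F) :
    redV hu hF ⟨⟨ιL K0 a, ha⟩, ιL_mem_gaussV hu hF a ha⟩ = redL res a := by
  rw [redV_eq_redG hu hF _ (incG res a) (ιG_incG K0 res a), redG_incG]

/-- the uniformizer as an element of `F`. -/
abbrev πF (F : IntermediateField K0 (LaurentSeries K0)) (π : A0) : ↥F :=
  algebraMap K0 ↥F (algebraMap A0 K0 π)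

theorem coe_πF (π : A0) : ((πF F π : ↥F) : LaurentSeries K0) = πK K0 π := by
  show algebraMap K0 (LaurentSeries K0) (algebraMap A0 K0 π) = πK K0 π
  rw [algebraMap_eq_C]; rfl

theorem πF_ne_zero (hu : IsUnif res π) : πF F π ≠ 0 := by
  intro h
  apply πK_ne_zero K0 hu
  rw [← coe_πF (F := F), h]; rfl

theorem πF_mem_gaussV (hu : IsUnif res π) (hF : ∀ x ∈ F, x ∈ fracL A0 K0) :
    πF F π ∈ gaussV hu hF :=
  ⟨πG res π, by
    show ιG K0 res (πG res π) = ((πF F π : ↥F) : LaurentSeries K0)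
    rw [ιG_πG, coe_πF]⟩

/-- the kernel of the reduction is `π V`. -/
theorem redV_eq_zero_iff (hu : IsUnif res π) (hF : ∀ x ∈ F, x ∈ fracL A0 K0)
    (y : ↥(gaussV hu hF)) :
    redV hu hF y = 0 ↔ ∃ y' ∈ gaussV hu hF, (y : ↥F) = πF F π * y' := by
  have h := isGaussL K0 hu F hF
  constructor
  · intro hy
    obtain ⟨z', hz'⟩ := h.ker (liftV hu hF y) hy
    have h1 : ((y : ↥F) : LaurentSeries K0) = πK K0 π * ιG K0 res z' := by
      rw [← ιG_liftV hu hF y, hz', map_mul, ιG_πG]
    refine ⟨(πF F π)⁻¹ * (y : ↥F), ⟨z', ?_⟩, ?_⟩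
    · show ιG K0 res z' = (((πF F π)⁻¹ * (y : ↥F) : ↥F) : LaurentSeries K0)
      rw [IntermediateField.coe_mul, IntermediateField.coe_inv, coe_πF, h1,
        ← mul_assoc, inv_mul_cancel₀ (πK_ne_zero K0 hu), one_mul]
    · rw [← mul_assoc, mul_inv_cancel₀ (πF_ne_zero hu), one_mul]
  · rintro ⟨y', ⟨z', hz'⟩, hyy'⟩
    have hz'' : ιG K0 res z' = ((y' : ↥F) : LaurentSeries K0) := hz'
    rw [redV_eq_redG hu hF y (πG res π * z') (by
      rw [map_mul, ιG_πG, hz'', hyy', IntermediateField.coe_mul, coe_πF]),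
      map_mul, redG_πG hu, zero_mul]

/-- `π` is a nonunit of the Gauss valuation ring. -/
theorem πF_mem_nonunits (hu : IsUnif res π) (hF : ∀ x ∈ F, x ∈ fracL A0 K0) :
    πF F π ∈ (gaussV hu hF).nonunits := by
  rw [ValuationSubring.mem_nonunits_iff_or]
  right
  rintro ⟨z, hz⟩
  have hz' : ιG K0 res z = (((πF F π)⁻¹ : ↥F) : LaurentSeries K0) := hz
  have h1 : πG res π * z = 1 := ιG_injective K0 res (by
    rw [map_mul, ιG_πG, hz', IntermediateField.coe_inv, coe_πF, map_one,
      mul_inv_cancel₀ (πK_ne_zero K0 hu)])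
  have h2 := congrArg (redG res) h1
  rw [map_mul, redG_πG hu, zero_mul, map_one] at h2
  exact zero_ne_one h2

/-- `π` generates the maximal ideal of the Gauss valuation ring. -/
theorem exists_eq_πF_mul_of_mem_nonunits (hu : IsUnif res π) (hF : ∀ x ∈ F, x ∈ fracL A0 K0)
    (x : ↥F) (hx : x ∈ (gaussV hu hF).nonunits) :
    ∃ y ∈ gaussV hu hF, x = πF F π * y := by
  have h := isGaussL K0 hu F hF
  rw [ValuationSubring.mem_nonunits_iff_or] at hx
  rcases hx with rfl | hx
  · exact ⟨0, zero_mem _, by rw [mul_zero]⟩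
  by_cases hx0 : x = 0
  · exact ⟨0, zero_mem _, by rw [mul_zero, hx0]⟩
  rcases h.mem_or_inv x hx0 with ⟨z, hz⟩ | ⟨z, hz, -⟩
  · have hxV : x ∈ gaussV hu hF := ⟨z, hz⟩
    have hred : redG res z = 0 := by
      by_contra hne
      obtain ⟨u, rfl⟩ := h.unit z hne
      apply hx
      refine ⟨(↑u⁻¹ : OG res), ?_⟩
      have hz' : ιG K0 res (u : OG res) = ((x : ↥F) : LaurentSeries K0) := hz
      have h1 : ιG K0 res (↑u⁻¹ : OG res) * ιG K0 res (u : OG res) = 1 := by
        rw [← map_mul, Units.inv_mul, map_one]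
      show ιG K0 res (↑u⁻¹ : OG res) = ((x⁻¹ : ↥F) : LaurentSeries K0)
      rw [IntermediateField.coe_inv, ← hz']
      exact eq_inv_of_mul_eq_one_left h1
    have := (redV_eq_zero_iff hu hF ⟨x, hxV⟩).mp (by
      rw [redV_eq_redG hu hF ⟨x, hxV⟩ z hz]; exact hred)
    exact this
  · exact absurd ⟨z, hz⟩ hx

end Val

section ChartV

variable {A0 : Type*} [CommRing A0] [IsDomain A0] {K0 : Type*} [Field K0]
  [Algebra A0 K0] [IsFractionRing A0 K0] {k0 : Type*} [Field k0] {res : A0 →+* k0} {π : A0}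
  {F : IntermediateField K0 (LaurentSeries K0)}

/-- the chart `B` (integral closure of `A0[t]` in `F`) lies in the Gauss valuation ring. -/
theorem chart_mem_gaussV (hu : IsUnif res π) (hF : ∀ x ∈ F, x ∈ fracL A0 K0)
    (t : F) (tA : LaurentSeries A0) (htA : ιL K0 tA = (t : LaurentSeries K0))
    (y : F) (hy : (chartHom (A0 := A0) F t).IsIntegralElem y) : y ∈ gaussV hu hF :=
  chart_mem_range hu hF t tA htA y hy

/-- the reduction of `P(t)`. -/
theorem redV_chartHom (hu : IsUnif res π) (hF : ∀ x ∈ F, x ∈ fracL A0 K0)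
    (t : F) (tA : LaurentSeries A0) (htA : ιL K0 tA = (t : LaurentSeries K0)) (P : A0[X])
    (hP : chartHom F t P ∈ gaussV hu hF) :
    redV hu hF ⟨chartHom F t P, hP⟩ = aeval (redL res tA) (P.map res) := by
  rw [redV_eq_redG hu hF _ (evG res tA P) (by
    rw [ιG_evG]; exact (coe_chartHom F t tA htA P).symm), redG_evG]

/-- saturation of the chart in the Gauss valuation ring: `B ∩ π ^ n V = π ^ n B`. -/
theorem chart_sat (hu : IsUnif res π) (hF : ∀ x ∈ F, x ∈ fracL A0 K0)
    (t : F) (tA : LaurentSeries A0) (htA : ιL K0 tA = (t : LaurentSeries K0))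
    (htr : Transcendental k0 (redL res tA))
    (K₁ : IntermediateField K0 F) (hK : K₁ = IntermediateField.adjoin K0 {t})
    (hint : GaussInt hu hF K₁) (n : ℕ)
    (y : F) (hy : (chartHom (A0 := A0) F t).IsIntegralElem y)
    (w : F) (hw : w ∈ gaussV hu hF) (hyw : y = πF F π ^ n * w) :
    (chartHom (A0 := A0) F t).IsIntegralElem w := by
  induction n generalizing y with
  | zero =>
    rw [pow_zero, one_mul] at hyw
    rwa [← hyw]
  | succ n ih =>
    obtain ⟨zw, hzw⟩ := hw
    have hzw' : ιG K0 res zw = ((w : ↥F) : LaurentSeries K0) := hzw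
    have hz : ιG K0 res (πG res π ^ (n + 1) * zw) = ((y : ↥F) : LaurentSeries K0) := by
      rw [map_mul, map_pow, ιG_πG, hzw', hyw, IntermediateField.coe_mul,
        IntermediateField.coe_pow, coe_πF]
    have hred : redG res (πG res π ^ (n + 1) * zw) = 0 := by
      rw [map_mul, map_pow, redG_πG hu, zero_pow (Nat.succ_ne_zero n), zero_mul]
    obtain ⟨y', hy', hyy'⟩ := chart_core hu hF t tA htA htr K₁ hK hint y hy _ hz hred
    refine ih y' hy' ?_
    apply mul_left_cancel₀ (πF_ne_zero (F := F) hu)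
    rw [← hyy', hyw, pow_succ]
    ring

/-- the `(NC)` input shape: for `B := integralClosure A0[X] F` (structure map `P ↦ P(t)`), the
Gauss reduction restricted to `B` is a ring hom `ρ : B → k0((q))` with kernel `π B`; in
particular `π B` is prime. -/
theorem exists_rho (hu : IsUnif res π) (hF : ∀ x ∈ F, x ∈ fracL A0 K0)
    (t : F) (tA : LaurentSeries A0) (htA : ιL K0 tA = (t : LaurentSeries K0))
    (htr : Transcendental k0 (redL res tA))
    (K₁ : IntermediateField K0 F) (hK : K₁ = IntermediateField.adjoin K0 {t})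
    (hint : GaussInt hu hF K₁)
    [Algebra A0[X] ↥F] (halg : algebraMap A0[X] ↥F = chartHom F t) :
    ∃ ρ : ↥(integralClosure A0[X] ↥F) →+* LaurentSeries k0,
      RingHom.ker ρ = Ideal.span {algebraMap A0[X] ↥(integralClosure A0[X] ↥F) (C π)} ∧
      (Ideal.span {algebraMap A0[X] ↥(integralClosure A0[X] ↥F) (C π)}).IsPrime ∧
      (∀ (b : ↥(integralClosure A0[X] ↥F)) (hb : (b : ↥F) ∈ gaussV hu hF),
        ρ b = redV hu hF ⟨b, hb⟩) ∧
      (∀ P : A0[X], ρ (algebraMap A0[X] ↥(integralClosure A0[X] ↥F) P)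
        = aeval (redL res tA) (P.map res)) := by
  have hint' : ∀ b : ↥F, IsIntegral A0[X] b ↔ (chartHom (A0 := A0) F t).IsIntegralElem b := by
    intro b
    show (algebraMap A0[X] ↥F).IsIntegralElem b ↔ _
    rw [halg]
  have hBV : ∀ b : ↥(integralClosure A0[X] ↥F), (b : ↥F) ∈ gaussV hu hF := fun b =>
    chart_mem_gaussV hu hF t tA htA _ ((hint' _).mp b.2)
  let incl : ↥(integralClosure A0[X] ↥F) →+* ↥(gaussV hu hF) :=
    ((integralClosure A0[X] ↥F).val.toRingHom).codRestrict (gaussV hu hF) hBV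
  let ρ : ↥(integralClosure A0[X] ↥F) →+* LaurentSeries k0 := (redV hu hF).comp incl
  have hρ : ∀ (b : ↥(integralClosure A0[X] ↥F)) (hb : (b : ↥F) ∈ gaussV hu hF),
      ρ b = redV hu hF ⟨b, hb⟩ := fun b hb => rfl
  have hCπ : ((algebraMap A0[X] ↥(integralClosure A0[X] ↥F) (C π) :
      ↥(integralClosure A0[X] ↥F)) : ↥F) = πF F π := by
    show algebraMap A0[X] ↥F (C π) = πF F π
    rw [halg, chartHom_C]
  have hker : RingHom.ker ρ
      = Ideal.span {algebraMap A0[X] ↥(integralClosure A0[X] ↥F) (C π)} := by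
    ext b
    rw [RingHom.mem_ker, Ideal.mem_span_singleton', hρ b (hBV b), redV_eq_zero_iff]
    constructor
    · rintro ⟨y', hy'V, hby'⟩
      have hy'int : (chartHom (A0 := A0) F t).IsIntegralElem y' :=
        chart_sat hu hF t tA htA htr K₁ hK hint 1 (b : ↥F) ((hint' _).mp b.2) y' hy'V
          (by rw [pow_one]; exact hby')
      refine ⟨⟨y', (hint' _).mpr hy'int⟩, Subtype.ext ?_⟩
      show y' * ((algebraMap A0[X] ↥(integralClosure A0[X] ↥F) (C π) :
        ↥(integralClosure A0[X] ↥F)) : ↥F) = (b : ↥F)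
      rw [hCπ, hby', mul_comm]
    · rintro ⟨c, rfl⟩
      refine ⟨(c : ↥F), hBV c, ?_⟩
      show (c : ↥F) * ((algebraMap A0[X] ↥(integralClosure A0[X] ↥F) (C π) :
        ↥(integralClosure A0[X] ↥F)) : ↥F) = πF F π * (c : ↥F)
      rw [hCπ, mul_comm]
  refine ⟨ρ, hker, ?_, hρ, fun P => ?_⟩
  · rw [← hker]
    exact RingHom.ker_isPrime ρ
  · have hP : chartHom F t P ∈ gaussV hu hF := by
      have := hBV (algebraMap A0[X] ↥(integralClosure A0[X] ↥F) P)
      have e : ((algebraMap A0[X] ↥(integralClosure A0[X] ↥F) P :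
          ↥(integralClosure A0[X] ↥F)) : ↥F) = chartHom F t P := by
        show algebraMap A0[X] ↥F P = _
        rw [halg]
      rwa [e] at this
    have e2 : ρ (algebraMap A0[X] ↥(integralClosure A0[X] ↥F) P)
        = redV hu hF ⟨chartHom F t P, hP⟩ := by
      have e : ((algebraMap A0[X] ↥(integralClosure A0[X] ↥F) P :
          ↥(integralClosure A0[X] ↥F)) : ↥F) = chartHom F t P := by
        show algebraMap A0[X] ↥F P = _
        rw [halg]
      rw [hρ _ (by rw [e]; exact hP)]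
      congr 1
      exact Subtype.ext e
    rw [e2, redV_chartHom hu hF t tA htA P hP]

end ChartV

section DVR

/-- a discrete valuation ring with a uniformizer gives the base data. -/
theorem isUnif_of_dvr {A0 : Type*} [CommRing A0] [IsDomain A0] [IsDiscreteValuationRing A0]
    (π : A0) (hπ : Irreducible π) : IsUnif (IsLocalRing.residue A0) π where
  ker := fun a ha => by
    rw [IsLocalRing.residue_eq_zero_iff, hπ.maximalIdeal_eq, Ideal.mem_span_singleton] at ha
    exact ha
  res_pi := by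
    rw [IsLocalRing.residue_eq_zero_iff, hπ.maximalIdeal_eq]
    exact Ideal.mem_span_singleton_self π
  unit := fun a ha => (IsLocalRing.residue_ne_zero_iff_isUnit a).mp ha
  sep := fun a ha => by
    obtain ⟨n, hn⟩ := FiniteMultiplicity.of_not_isUnit hπ.not_isUnit ha
    exact ⟨n + 1, hn⟩
  ne_zero := hπ.ne_zero

end DVR

end Fermat.Agent.S18.H36
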