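import Mathlib
import Fermat.Agent.S18.GaussFull_helper93

/-!
# S18: `IsGauss` for the canonical Gauss ring of the modular function field (helper93)

One-line adapters on top of `GaussFull_helper93` for call sites which use the named objects
`gaussWFull` / `gaussRhoFull`:

* `constHom_mem_gaussWFull` : constants of `A` lie in the Gauss ring;
* `isGauss_gaussWFull` : `(gaussWFull, pi, gaussRhoFull)` is a Gauss valuation ring in the sense
  of `S28.H95.IsGauss` (so `GaussChart_helper95` / `GaussSat_helper95` apply verbatim);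
* `exists_eq_mul_of_gaussRhoFull_eq` : equal reductions differ by a multiple of `pi`
  (shape `hf` of the Kummer core).
-/

set_option autoImplicit false

noncomputable section

open HahnSeries ModularCurve Polynomial
open Fermat.Agent.S28

namespace Fermat.Agent.S18.H93

variable (L : Type*) [Field L] [CharZero L] (N : ℕ) [NeZero N] (A : ValuationSubring L)
  (ℓ : ℕ) [Fact ℓ.Prime] [CharP (IsLocalRing.ResidueField A) ℓ] (hℓN : ¬ ℓ ∣ N)

/-- Constants of `A` lie in the Gauss ring. -/
theorem constHom_mem_gaussWFull (a : A) :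
    constHom A (modularFunctionFieldFullC L N) a ∈ gaussWFull L N A ℓ hℓN :=
  constHom_mem_gaussW (fullData L N A ℓ hℓN) a

/-- **`(gaussWFull, pi, gaussRhoFull)` is a Gauss valuation ring** (`S28.H95.IsGauss`). -/
theorem isGauss_gaussWFull [IsDiscreteValuationRing A] {pi : A} (hpi : Irreducible pi) :
    H95.IsGauss (gaussWFull L N A ℓ hℓN).toSubring
      ⟨constHom A (modularFunctionFieldFullC L N) pi, constHom_mem_gaussWFull L N A ℓ hℓN pi⟩
      (gaussRhoFull L N A ℓ hℓN) :=
  isGauss_gaussW (fullData L N A ℓ hℓN) hpi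

/-- Elements of the Gauss ring with equal reductions differ by a multiple of `pi`. -/
theorem exists_eq_mul_of_gaussRhoFull_eq [IsDiscreteValuationRing A] {pi : A}
    (hpi : Irreducible pi) (x y : gaussWFull L N A ℓ hℓN)
    (h : gaussRhoFull L N A ℓ hℓN x = gaussRhoFull L N A ℓ hℓN y) :
    ∃ w ∈ gaussWFull L N A ℓ hℓN,
      (x : ↥(modularFunctionFieldFullC L N)) - y =
        constHom A (modularFunctionFieldFullC L N) pi * w := by
  have h0 : gaussRhoFull L N A ℓ hℓN (x - y) = 0 := by rw [map_sub, h, sub_self]
  exact exists_eq_mul_of_mem_nonunits_full L N A ℓ hℓN hpi _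
    ((mem_nonunits_gaussWFull_iff L N A ℓ hℓN (x - y)).mpr h0)

end Fermat.Agent.S18.H93
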