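import Mathlib
import Fermat.Agent.S18.GaussDVR_helper36
import Fermat.Agent.S18.GaussMod_helper93

/-!
S18, node (i) (helper36, second seat), concrete half: the Gauss valuation ring of the modular
function field `F0 = K0(j(q^d) : d ∣ L) ⊆ K0((q))` over a discrete valuation subring `A0` of a
characteristic-zero field `K0` with residue characteristic `ℓ ∤ L`, and the chart statements
(`B ⊆ V`, `B ∩ ϖ ^ n V = ϖ ^ n B`, `ρ : B → k0((q))` with kernel `ϖ B`) for every integral chart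
coordinate `t ∈ F0` with transcendental reduction and `j ∈ K0(t)`.

The only modular input is the family of `ψ(L)` integral monomials with independent reductions
(`H93.exists_monomials_char`, `H93.full_le_span`); no degree statement for the base `t` is used.
-/

set_option autoImplicit false
set_option linter.unusedSectionVars false

noncomputable section

namespace Fermat.Agent.S18.H36

open Polynomial ModularCurve Fermat.Agent.S28 Fermat.Agent.S28.H36

section Adapters

variable {A0 : Type*} [CommRing A0] [IsDomain A0] (K0 : Type*) [Field K0]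
  [Algebra A0 K0] [IsFractionRing A0 K0] {k0 : Type*} [Field k0] (res : A0 →+* k0)

/-- series with integer coefficients are integral. -/
theorem ιL_intCast (x : LaurentSeries ℤ) :
    ιL K0 (coeffMap (Int.castRingHom A0) x) = coeffMap (Int.castRingHom K0) x := by
  show coeffMap (algebraMap A0 K0) (coeffMap (Int.castRingHom A0) x) = _
  rw [coeffMap_coeffMap]
  exact coeffMap_congr (RingHom.ext_int _ _) _

omit [IsDomain A0] in
/-- the reduction of a series with integer coefficients. -/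
theorem redL_intCast (x : LaurentSeries ℤ) :
    redL res (coeffMap (Int.castRingHom A0) x) = coeffMap (Int.castRingHom k0) x := by
  show coeffMap res (coeffMap (Int.castRingHom A0) x) = _
  rw [coeffMap_coeffMap]
  exact coeffMap_congr (RingHom.ext_int _ _) _

variable {K0}

/-- integrality over `A0[t] = Algebra.adjoin A0 {t}` is integrality for `P ↦ P(t)`. -/
theorem isIntegral_adjoin_iff (F : IntermediateField K0 (LaurentSeries K0))
    [Algebra A0 ↥F] [IsScalarTower A0 K0 ↥F] (t y : ↥F) :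
    IsIntegral (Algebra.adjoin A0 {t}) y ↔ (chartHom (A0 := A0) F t).IsIntegralElem y := by
  have hφ : ∀ P : A0[X], chartHom F t P = aeval t P := by
    intro P
    rw [chartHom, coe_eval₂RingHom, aeval_def, IsScalarTower.algebraMap_eq A0 K0 ↥F]
  constructor
  · intro hy
    refine isIntegralElem_of_range_le (algebraMap (Algebra.adjoin A0 {t}) ↥F) _ (fun r => ?_) hy
    have h1 : (r : ↥F) ∈ (aeval t : A0[X] →ₐ[A0] ↥F).range := by
      rw [← Algebra.adjoin_singleton_eq_range_aeval]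
      exact r.2
    obtain ⟨P, hP⟩ := h1
    exact ⟨P, (hφ P).trans hP⟩
  · intro hy
    refine isIntegralElem_of_range_le _ (algebraMap (Algebra.adjoin A0 {t}) ↥F) (fun P => ?_) hy
    have h1 : aeval t P ∈ Algebra.adjoin A0 {t} := by
      rw [Algebra.adjoin_singleton_eq_range_aeval]
      exact ⟨P, rfl⟩
    exact ⟨⟨aeval t P, h1⟩, (hφ P).symm⟩

end Adapters

section Full

variable {K0 : Type*} [Field K0] [CharZero K0] (A0 : ValuationSubring K0)
  [IsDiscreteValuationRing ↥A0] (L : ℕ) [NeZero L]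

/-- the modular function field over `K0` is generated by integral series. -/
theorem full_le_fracL : ∀ x ∈ modularFunctionFieldFullC K0 L, x ∈ fracL ↥A0 K0 := by
  intro x hx
  refine adjoin_le_fracL K0 (divisorExpansionsC K0 L) ?_ x hx
  rintro s ⟨d, hd, hdL, rfl⟩
  exact ⟨coeffMap (Int.castRingHom ↥A0) (qExpand ℤ d (jqModC ℤ)), by
    rw [ιL_intCast, H72.coeffMap_qExpand_jqModC]⟩

/-- `j` as an element of the modular function field. -/
abbrev jFull : ↥(modularFunctionFieldFullC K0 L) := ⟨jqModC K0, jqModC_mem_full K0 L⟩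

variable (ϖ : ↥A0) (hϖ : Irreducible ϖ)

/-- the Gauss valuation subring of the modular function field `K0(j(q^d) : d ∣ L)`:
`y ∈ V ↔ y = Y1 / Y2` with `Y1, Y2 ∈ A0((q))`, `red Y2 ≠ 0` (`mem_gaussVFull_iff`). -/
def gaussVFull : ValuationSubring ↥(modularFunctionFieldFullC K0 L) :=
  gaussV (isUnif_of_dvr ϖ hϖ) (full_le_fracL A0 L)

theorem mem_gaussVFull_iff (y : ↥(modularFunctionFieldFullC K0 L)) :
    y ∈ gaussVFull A0 L ϖ hϖ ↔ ∃ Y1 Y2 : LaurentSeries ↥A0,
      coeffMap (IsLocalRing.residue ↥A0) Y2 ≠ 0 ∧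
      (y : LaurentSeries K0) * coeffMap A0.subtype Y2 = coeffMap A0.subtype Y1 :=
  mem_gaussV_iff (isUnif_of_dvr ϖ hϖ) (full_le_fracL A0 L) y

/-- the reduction map `V → k0((q))`. -/
def redVFull : ↥(gaussVFull A0 L ϖ hϖ) →+* LaurentSeries (IsLocalRing.ResidueField ↥A0) :=
  redV (isUnif_of_dvr ϖ hϖ) (full_le_fracL A0 L)

/-- the integrality input for the base `j`: every element of the Gauss ring of `F0` is integral
over the Gauss ring of `K0(j)` (from the `ψ(L)` monomials). -/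
theorem gaussInt_full_j (ℓ : ℕ) [Fact ℓ.Prime] [CharP (IsLocalRing.ResidueField ↥A0) ℓ]
    (hℓL : ¬ ℓ ∣ L) :
    GaussInt (isUnif_of_dvr ϖ hϖ) (full_le_fracL A0 L)
      (IntermediateField.adjoin K0 {jFull (K0 := K0) L}) := by
  classical
  obtain ⟨b, hb, hli⟩ := H93.exists_monomials_char (IsLocalRing.ResidueField ↥A0) ℓ L hℓL
  have hιJ : H93.iotaA A0 (jqModC ↥A0) = jqModC K0 := coeffMap_jqModC _
  have hrJ : H93.redA A0 (jqModC ↥A0) = jqModC (IsLocalRing.ResidueField ↥A0) :=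
    coeffMap_jqModC _
  have hιb : ∀ i, H93.iotaA A0 (coeffMap (Int.castRingHom ↥A0) (b i)) =
      coeffMap (Int.castRingHom K0) (b i) := by
    intro i
    rw [coeffMap_coeffMap]
    exact coeffMap_congr (RingHom.ext_int _ _) _
  have hrb : ∀ i, H93.redA A0 (coeffMap (Int.castRingHom ↥A0) (b i)) =
      coeffMap (Int.castRingHom (IsLocalRing.ResidueField ↥A0)) (b i) := by
    intro i
    rw [coeffMap_coeffMap]
    exact coeffMap_congr (RingHom.ext_int _ _) _
  have hindκ : ∀ Q : Fin (dedekindPsi L) → Polynomial (IsLocalRing.ResidueField ↥A0),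
      ∑ i, H93.evC (Q i) (H93.redA A0 (jqModC ↥A0)) *
        H93.redA A0 (coeffMap (Int.castRingHom ↥A0) (b i)) = 0 → Q = 0 := by
    intro Q h
    rw [hrJ] at h
    simp only [hrb] at h
    exact H93.indep_poly_of_linearIndependent _ _ hli Q h
  have hindL : ∀ Q : Fin (dedekindPsi L) → Polynomial K0,
      ∑ i, H93.evC (Q i) (jqModC K0) * coeffMap (Int.castRingHom K0) (b i) = 0 → Q = 0 := by
    intro Q h
    refine H93.indep_lift (A := A0) (J := jqModC ↥A0)
      (b := fun i => coeffMap (Int.castRingHom ↥A0) (b i)) hindκ Q ?_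
    rw [hιJ]
    simp only [hιb]
    exact h
  have hjK : jFull (K0 := K0) L ∈ IntermediateField.adjoin K0 {jFull (K0 := K0) L} :=
    IntermediateField.mem_adjoin_simple_self K0 _
  have hcoe : ∀ R : K0[X], ((aeval (jFull (K0 := K0) L) R : ↥(modularFunctionFieldFullC K0 L)) :
      LaurentSeries K0) = aeval (jqModC K0) R := fun R =>
    (Polynomial.aeval_algHom_apply (modularFunctionFieldFullC K0 L).val (jFull (K0 := K0) L) R).symm
  have hbF : ∀ i, ιL K0 (coeffMap (Int.castRingHom ↥A0) (b i)) ∈ modularFunctionFieldFullC K0 L := by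
    intro i
    rw [ιL_intCast]
    exact H93.coeffMap_int_mem_full K0 L (hb i)
  refine gaussInt_of_indep (isUnif_of_dvr ϖ hϖ) (full_le_fracL A0 L) (jFull (K0 := K0) L)
    (jqModC ↥A0) (coeffMap_jqModC _) ?_
    (IntermediateField.adjoin (IsLocalRing.ResidueField ↥A0)
      {jqModC (IsLocalRing.ResidueField ↥A0)}) ?_ _ rfl
    (fun i => coeffMap (Int.castRingHom ↥A0) (b i)) hbF ?_ ?_
  · rw [show redL (IsLocalRing.residue ↥A0) (jqModC ↥A0)
      = jqModC (IsLocalRing.ResidueField ↥A0) from coeffMap_jqModC _]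
    rintro ⟨p, hp, h⟩
    exact H72.aeval_jqModC_ne_zero _ hp h
  · rw [show redL (IsLocalRing.residue ↥A0) (jqModC ↥A0)
      = jqModC (IsLocalRing.ResidueField ↥A0) from coeffMap_jqModC _]
    exact IntermediateField.mem_adjoin_simple_self _ _
  · have : (fun i => redL (IsLocalRing.residue ↥A0) (coeffMap (Int.castRingHom ↥A0) (b i)))
        = fun i => coeffMap (Int.castRingHom (IsLocalRing.ResidueField ↥A0)) (b i) :=
      funext fun i => redL_intCast _ _
    rw [this]
    exact hli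
  · intro y
    obtain ⟨P, Q, hP, hrel⟩ := H93.exists_rel_of_mem_span _ (y : LaurentSeries K0)
      (H93.full_le_span K0 L b hb hindL _ y.2)
    have hP0 : aeval (jqModC K0) P ≠ 0 := H72.aeval_jqModC_ne_zero K0 hP
    rw [H93.evC_eq_aeval] at hrel
    simp only [H93.evC_eq_aeval] at hrel
    refine ⟨fun i => ⟨aeval (jFull (K0 := K0) L) (Q i) / aeval (jFull (K0 := K0) L) P,
      div_mem (aeval_mem_intermediate' _ hjK _) (aeval_mem_intermediate' _ hjK _)⟩,
      Subtype.ext ?_⟩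
    have hy : (y : LaurentSeries K0) = ∑ i, aeval (jqModC K0) (Q i) / aeval (jqModC K0) P
        * coeffMap (Int.castRingHom K0) (b i) := by
      have h1 : (y : LaurentSeries K0) = (aeval (jqModC K0) P)⁻¹
          * ∑ i, aeval (jqModC K0) (Q i) * coeffMap (Int.castRingHom K0) (b i) := by
        rw [← hrel, ← mul_assoc, inv_mul_cancel₀ hP0, one_mul]
      rw [h1, Finset.mul_sum]
      refine Finset.sum_congr rfl fun i _ => ?_
      rw [div_eq_mul_inv]; ring
    rw [hy, IntermediateField.coe_sum]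
    refine Finset.sum_congr rfl fun i _ => ?_
    show _ = ((aeval (jFull (K0 := K0) L) (Q i) / aeval (jFull (K0 := K0) L) P
      : ↥(modularFunctionFieldFullC K0 L)) : LaurentSeries K0)
        * ιL K0 (coeffMap (Int.castRingHom ↥A0) (b i))
    rw [IntermediateField.coe_div, hcoe, hcoe, ιL_intCast]

/-- the integrality input for any base `t` with `j ∈ K0(t)`. -/
theorem gaussInt_full (ℓ : ℕ) [Fact ℓ.Prime] [CharP (IsLocalRing.ResidueField ↥A0) ℓ]
    (hℓL : ¬ ℓ ∣ L) (t : ↥(modularFunctionFieldFullC K0 L))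
    (hj : jFull (K0 := K0) L ∈ IntermediateField.adjoin K0 {t}) :
    GaussInt (isUnif_of_dvr ϖ hϖ) (full_le_fracL A0 L) (IntermediateField.adjoin K0 {t}) :=
  GaussInt.mono _ _ (IntermediateField.adjoin_simple_le_iff.mpr hj)
    (gaussInt_full_j A0 L ϖ hϖ ℓ hℓL)

/-! ### The valuation ring `V` -/

/-- `ϖ` is a nonunit of `V`. -/
theorem πF_mem_nonunits_full :
    πF (modularFunctionFieldFullC K0 L) ϖ ∈ (gaussVFull A0 L ϖ hϖ).nonunits :=
  πF_mem_nonunits (isUnif_of_dvr ϖ hϖ) (full_le_fracL A0 L)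

/-- `ϖ` generates the maximal ideal of `V`. -/
theorem exists_eq_πF_mul_full (x : ↥(modularFunctionFieldFullC K0 L))
    (hx : x ∈ (gaussVFull A0 L ϖ hϖ).nonunits) :
    ∃ y ∈ gaussVFull A0 L ϖ hϖ, x = πF (modularFunctionFieldFullC K0 L) ϖ * y :=
  exists_eq_πF_mul_of_mem_nonunits (isUnif_of_dvr ϖ hϖ) (full_le_fracL A0 L) x hx

/-- the kernel of the reduction is `ϖ V`. -/
theorem redVFull_eq_zero_iff (y : ↥(gaussVFull A0 L ϖ hϖ)) :
    redVFull A0 L ϖ hϖ y = 0 ↔ ∃ y' ∈ gaussVFull A0 L ϖ hϖ,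
      (y : ↥(modularFunctionFieldFullC K0 L)) = πF (modularFunctionFieldFullC K0 L) ϖ * y' :=
  redV_eq_zero_iff (isUnif_of_dvr ϖ hϖ) (full_le_fracL A0 L) y

/-- the reduction of a ratio `Y1 / Y2`, `red Y2 ≠ 0`. -/
theorem redVFull_eq_div (y : ↥(gaussVFull A0 L ϖ hϖ)) (Y1 Y2 : LaurentSeries ↥A0)
    (h2 : coeffMap (IsLocalRing.residue ↥A0) Y2 ≠ 0)
    (h : ((y : ↥(modularFunctionFieldFullC K0 L)) : LaurentSeries K0) * coeffMap A0.subtype Y2
      = coeffMap A0.subtype Y1) :
    redVFull A0 L ϖ hϖ y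
      = coeffMap (IsLocalRing.residue ↥A0) Y1 / coeffMap (IsLocalRing.residue ↥A0) Y2 :=
  redV_eq_div (isUnif_of_dvr ϖ hϖ) (full_le_fracL A0 L) y Y1 Y2 h2 h

/-- integral series of `F0` lie in `V`. -/
theorem coeffMap_mem_gaussVFull (a : LaurentSeries ↥A0)
    (ha : coeffMap A0.subtype a ∈ modularFunctionFieldFullC K0 L) :
    (⟨coeffMap A0.subtype a, ha⟩ : ↥(modularFunctionFieldFullC K0 L)) ∈ gaussVFull A0 L ϖ hϖ :=
  ιL_mem_gaussV (isUnif_of_dvr ϖ hϖ) (full_le_fracL A0 L) a ha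

/-- on integral series the reduction is coefficientwise. -/
theorem redVFull_coeffMap (a : LaurentSeries ↥A0)
    (ha : coeffMap A0.subtype a ∈ modularFunctionFieldFullC K0 L) :
    redVFull A0 L ϖ hϖ ⟨⟨coeffMap A0.subtype a, ha⟩, coeffMap_mem_gaussVFull A0 L ϖ hϖ a ha⟩
      = coeffMap (IsLocalRing.residue ↥A0) a :=
  redV_ιL (isUnif_of_dvr ϖ hϖ) (full_le_fracL A0 L) a ha

/-- two integral series with equal nonzero reductions: `Y1 / Y2 - 1 ∈ ϖ V`
(the hypothesis `f ≡ 1 mod ϖ` of the Kummer core). -/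
theorem exists_sub_one_eq_πF_mul (f : ↥(modularFunctionFieldFullC K0 L))
    (Y1 Y2 : LaurentSeries ↥A0)
    (h2 : coeffMap (IsLocalRing.residue ↥A0) Y2 ≠ 0)
    (h12 : coeffMap (IsLocalRing.residue ↥A0) Y1 = coeffMap (IsLocalRing.residue ↥A0) Y2)
    (h : (f : LaurentSeries K0) * coeffMap A0.subtype Y2 = coeffMap A0.subtype Y1) :
    ∃ y ∈ gaussVFull A0 L ϖ hϖ, f - 1 = πF (modularFunctionFieldFullC K0 L) ϖ * y := by
  have hf : f ∈ gaussVFull A0 L ϖ hϖ := (mem_gaussVFull_iff A0 L ϖ hϖ f).mpr ⟨Y1, Y2, h2, h⟩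
  have h1 : (f - 1 : ↥(modularFunctionFieldFullC K0 L)) ∈ gaussVFull A0 L ϖ hϖ :=
    sub_mem hf (one_mem _)
  refine (redVFull_eq_zero_iff A0 L ϖ hϖ ⟨f - 1, h1⟩).mp ?_
  have e : (⟨f - 1, h1⟩ : ↥(gaussVFull A0 L ϖ hϖ)) = ⟨f, hf⟩ - 1 := rfl
  rw [e, map_sub, map_one, redVFull_eq_div A0 L ϖ hϖ ⟨f, hf⟩ Y1 Y2 h2 h, h12, div_self h2,
    sub_self]

/-! ### The charts -/

/-- `B ⊆ V`: elements integral over `A0[t]` lie in the Gauss valuation ring. -/
theorem full_chart_mem (t : ↥(modularFunctionFieldFullC K0 L)) (tA : LaurentSeries ↥A0)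
    (htA : coeffMap A0.subtype tA = (t : LaurentSeries K0))
    (y : ↥(modularFunctionFieldFullC K0 L))
    (hy : (chartHom (A0 := ↥A0) (modularFunctionFieldFullC K0 L) t).IsIntegralElem y) :
    y ∈ gaussVFull A0 L ϖ hϖ :=
  chart_mem_gaussV (isUnif_of_dvr ϖ hϖ) (full_le_fracL A0 L) t tA htA y hy

/-- saturation `B ∩ ϖ ^ n V = ϖ ^ n B` for the chart with coordinate `t`: `t` integral with
transcendental reduction and `j ∈ K0(t)`. -/
theorem full_chart_sat (ℓ : ℕ) [Fact ℓ.Prime] [CharP (IsLocalRing.ResidueField ↥A0) ℓ]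
    (hℓL : ¬ ℓ ∣ L) (t : ↥(modularFunctionFieldFullC K0 L)) (tA : LaurentSeries ↥A0)
    (htA : coeffMap A0.subtype tA = (t : LaurentSeries K0))
    (htr : Transcendental (IsLocalRing.ResidueField ↥A0) (coeffMap (IsLocalRing.residue ↥A0) tA))
    (hj : jFull (K0 := K0) L ∈ IntermediateField.adjoin K0 {t}) (n : ℕ)
    (y : ↥(modularFunctionFieldFullC K0 L))
    (hy : (chartHom (A0 := ↥A0) (modularFunctionFieldFullC K0 L) t).IsIntegralElem y)
    (w : ↥(modularFunctionFieldFullC K0 L)) (hw : w ∈ gaussVFull A0 L ϖ hϖ)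
    (hyw : y = πF (modularFunctionFieldFullC K0 L) ϖ ^ n * w) :
    (chartHom (A0 := ↥A0) (modularFunctionFieldFullC K0 L) t).IsIntegralElem w :=
  chart_sat (isUnif_of_dvr ϖ hϖ) (full_le_fracL A0 L) t tA htA htr _ rfl
    (gaussInt_full A0 L ϖ hϖ ℓ hℓL t hj) n y hy w hw hyw

/-- the `(NC)` input for the chart with coordinate `t`: for `B := integralClosure A0[X] F0`
(structure map `P ↦ P(t)`), `ρ : B → k0((q))` is the Gauss reduction, `ker ρ = ϖ B` (prime). -/
theorem full_exists_rho (ℓ : ℕ) [Fact ℓ.Prime] [CharP (IsLocalRing.ResidueField ↥A0) ℓ]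
    (hℓL : ¬ ℓ ∣ L) (t : ↥(modularFunctionFieldFullC K0 L)) (tA : LaurentSeries ↥A0)
    (htA : coeffMap A0.subtype tA = (t : LaurentSeries K0))
    (htr : Transcendental (IsLocalRing.ResidueField ↥A0) (coeffMap (IsLocalRing.residue ↥A0) tA))
    (hj : jFull (K0 := K0) L ∈ IntermediateField.adjoin K0 {t})
    [Algebra (↥A0)[X] ↥(modularFunctionFieldFullC K0 L)]
    (halg : algebraMap (↥A0)[X] ↥(modularFunctionFieldFullC K0 L)
      = chartHom (modularFunctionFieldFullC K0 L) t) :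
    ∃ ρ : ↥(integralClosure (↥A0)[X] ↥(modularFunctionFieldFullC K0 L)) →+*
        LaurentSeries (IsLocalRing.ResidueField ↥A0),
      RingHom.ker ρ = Ideal.span {algebraMap (↥A0)[X]
        ↥(integralClosure (↥A0)[X] ↥(modularFunctionFieldFullC K0 L)) (C ϖ)} ∧
      (Ideal.span {algebraMap (↥A0)[X]
        ↥(integralClosure (↥A0)[X] ↥(modularFunctionFieldFullC K0 L)) (C ϖ)}).IsPrime ∧
      (∀ (b : ↥(integralClosure (↥A0)[X] ↥(modularFunctionFieldFullC K0 L)))
        (hb : (b : ↥(modularFunctionFieldFullC K0 L)) ∈ gaussVFull A0 L ϖ hϖ),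
        ρ b = redVFull A0 L ϖ hϖ ⟨b, hb⟩) ∧
      (∀ P : (↥A0)[X],
        ρ (algebraMap (↥A0)[X] ↥(integralClosure (↥A0)[X] ↥(modularFunctionFieldFullC K0 L)) P)
          = aeval (coeffMap (IsLocalRing.residue ↥A0) tA) (P.map (IsLocalRing.residue ↥A0))) :=
  exists_rho (isUnif_of_dvr ϖ hϖ) (full_le_fracL A0 L) t tA htA htr _ rfl
    (gaussInt_full A0 L ϖ hϖ ℓ hℓL t hj) halg

/-- the chart statements in subalgebra form (the `V`-hypotheses of the Kummer core): for
`B := integralClosure (Algebra.adjoin A0 {t}) F0`, `B ⊆ V` and `B ∩ ϖ ^ n V = ϖ ^ n B`. -/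
theorem full_chart_adjoin (ℓ : ℕ) [Fact ℓ.Prime] [CharP (IsLocalRing.ResidueField ↥A0) ℓ]
    (hℓL : ¬ ℓ ∣ L) [Algebra ↥A0 ↥(modularFunctionFieldFullC K0 L)]
    [IsScalarTower ↥A0 K0 ↥(modularFunctionFieldFullC K0 L)]
    (t : ↥(modularFunctionFieldFullC K0 L)) (tA : LaurentSeries ↥A0)
    (htA : coeffMap A0.subtype tA = (t : LaurentSeries K0))
    (htr : Transcendental (IsLocalRing.ResidueField ↥A0) (coeffMap (IsLocalRing.residue ↥A0) tA))
    (hj : jFull (K0 := K0) L ∈ IntermediateField.adjoin K0 {t}) :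
    (∀ y : ↥(modularFunctionFieldFullC K0 L), IsIntegral (Algebra.adjoin ↥A0 {t}) y →
      y ∈ gaussVFull A0 L ϖ hϖ) ∧
    (∀ (n : ℕ) (y w : ↥(modularFunctionFieldFullC K0 L)),
      IsIntegral (Algebra.adjoin ↥A0 {t}) y → w ∈ gaussVFull A0 L ϖ hϖ →
      y = algebraMap ↥A0 ↥(modularFunctionFieldFullC K0 L) ϖ ^ n * w →
      IsIntegral (Algebra.adjoin ↥A0 {t}) w) := by
  refine ⟨fun y hy => full_chart_mem A0 L ϖ hϖ t tA htA y
    ((isIntegral_adjoin_iff (modularFunctionFieldFullC K0 L) t y).mp hy), fun n y w hy hw hyw => ?_⟩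
  refine (isIntegral_adjoin_iff (modularFunctionFieldFullC K0 L) t w).mpr
    (full_chart_sat A0 L ϖ hϖ ℓ hℓL t tA htA htr hj n y
      ((isIntegral_adjoin_iff (modularFunctionFieldFullC K0 L) t y).mp hy) w hw ?_)
  rw [hyw, IsScalarTower.algebraMap_apply ↥A0 K0 ↥(modularFunctionFieldFullC K0 L)]

set_option synthInstance.maxHeartbeats 400000 in
/-- the canonical tower `A0 → K0 → F0` (instance search needs a raised heartbeat limit). -/
theorem isScalarTower_full : IsScalarTower ↥A0 K0 ↥(modularFunctionFieldFullC K0 L) :=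
  inferInstance

/-- `full_chart_adjoin` for the canonical `A0`-algebra structure of `F0`. -/
theorem full_chart_adjoin' (ℓ : ℕ) [Fact ℓ.Prime] [CharP (IsLocalRing.ResidueField ↥A0) ℓ]
    (hℓL : ¬ ℓ ∣ L)
    (t : ↥(modularFunctionFieldFullC K0 L)) (tA : LaurentSeries ↥A0)
    (htA : coeffMap A0.subtype tA = (t : LaurentSeries K0))
    (htr : Transcendental (IsLocalRing.ResidueField ↥A0) (coeffMap (IsLocalRing.residue ↥A0) tA))
    (hj : jFull (K0 := K0) L ∈ IntermediateField.adjoin K0 {t}) :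
    (∀ y : ↥(modularFunctionFieldFullC K0 L), IsIntegral (Algebra.adjoin ↥A0 {t}) y →
      y ∈ gaussVFull A0 L ϖ hϖ) ∧
    (∀ (n : ℕ) (y w : ↥(modularFunctionFieldFullC K0 L)),
      IsIntegral (Algebra.adjoin ↥A0 {t}) y → w ∈ gaussVFull A0 L ϖ hϖ →
      y = algebraMap ↥A0 ↥(modularFunctionFieldFullC K0 L) ϖ ^ n * w →
      IsIntegral (Algebra.adjoin ↥A0 {t}) w) := by
  haveI := isScalarTower_full A0 L
  exact full_chart_adjoin A0 L ϖ hϖ ℓ hℓL t tA htA htr hj

end Full

section Inputs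

/-- `j ∈ K(t)` from a relation `j * Q(t) = P(t)`, `Q(t) ≠ 0`. -/
theorem mem_adjoin_of_mul_eq {K E : Type*} [Field K] [Field E] [Algebra K E] (t j : E)
    (P Q : K[X]) (hQ : aeval t Q ≠ 0) (h : j * aeval t Q = aeval t P) :
    j ∈ IntermediateField.adjoin K {t} := by
  rw [IntermediateField.mem_adjoin_simple_iff]
  exact ⟨P, Q, by rw [← h, mul_div_assoc, div_self hQ, mul_one]⟩

/-- transcendence of `t` from a relation `j * Q(t) = P(t)`, `Q(t) ≠ 0`, with `j` transcendental. -/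
theorem transcendental_of_mul_eq {K E : Type*} [Field K] [Field E] [Algebra K E] (t j : E)
    (P Q : K[X]) (hQ : aeval t Q ≠ 0) (h : j * aeval t Q = aeval t P)
    (hj : Transcendental K j) : Transcendental K t := by
  intro ht
  apply hj
  have hmem := mem_adjoin_of_mul_eq t j P Q hQ h
  haveI : Algebra.IsAlgebraic K ↥(IntermediateField.adjoin K {t}) :=
    IntermediateField.isAlgebraic_adjoin_simple ht.isIntegral
  have h1 : IsAlgebraic K (⟨j, hmem⟩ : ↥(IntermediateField.adjoin K {t})) :=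
    Algebra.IsAlgebraic.isAlgebraic _
  exact (h1.algebraMap : IsAlgebraic K (algebraMap ↥(IntermediateField.adjoin K {t}) E ⟨j, hmem⟩))

/-- `j̄` is transcendental over any field. -/
theorem transcendental_jqModC (k : Type*) [Field k] : Transcendental k (jqModC k) := by
  rintro ⟨p, hp, h⟩
  exact H72.aeval_jqModC_ne_zero k hp h

end Inputs

end Fermat.Agent.S18.H36
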