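import Mathlib
import Fermat.Agent.S18.GaussDVR_helper93
import Fermat.Agent.S18.Charts_helper97

/-!
# S18: the GAUSS -> (KC) adapter (helper92)

`H93.gauss_chart` (helper93) is stated for the chart homomorphism `chartHom A x : A[X] →+* F`;
the Kummer core at the charts (`H97.kc_charts`, helper97) consumes the charts as the subalgebras
`H97.chartU A x`, `H97.chartV A x` of `F` for the canonical `Algebra ↥A ↥F`.  This file
translates: for the Gauss valuation ring `V := gaussW hD` of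
`F : IntermediateField L (LaurentSeries L)` over a DVR `A : ValuationSubring L` with uniformiser
`pi`, and a chart coordinate `x = iota xA` with inverse `iota xA'`, all the `V`-hypotheses of
`H97.kc_charts` hold: `hAV`, `hxV`, `hxV'`, `hπV`, `hVπ`, `hsatU`, `hsatV`, and `hf` for a
quotient of two integral series with equal nonzero reductions.
-/

set_option autoImplicit false
set_option synthInstance.maxHeartbeats 400000

noncomputable section

open HahnSeries ModularCurve Polynomial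

namespace Fermat.Agent.S18.H92

open Fermat.Agent.S18.H93 Fermat.Agent.S18.H97

section GaussKC

variable {L : Type*} [Field L] {A : ValuationSubring L}
variable {F : IntermediateField L (LaurentSeries L)}
variable {Fk : IntermediateField (IsLocalRing.ResidueField A)
  (LaurentSeries (IsLocalRing.ResidueField A))}
variable {J : LaurentSeries A} {n : ℕ} {b : Fin n → LaurentSeries A}

/-- The canonical structure map `A → F` is helper93's `constHom`. -/
theorem algebraMap_eq_constHom (a : A) : algebraMap ↥A ↥F a = constHom A F a := rfl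

theorem chartHom_apply_eq_aeval (x : F) (P : A[X]) : chartHom A x P = aeval x P := rfl

/-- Integrality for the chart homomorphism is membership in the chart. -/
theorem isIntegralElem_chartHom_iff (x y : F) :
    (chartHom A x).IsIntegralElem y ↔ y ∈ chartU ↥A x := by
  rw [mem_chartU]
  constructor
  · intro hy
    refine Fermat.Agent.S18.H95.isIntegralElem_of_range_le (chartHom A x)
      (algebraMap (Algebra.adjoin ↥A {x}) F) (fun P => ?_) hy
    have h1 : aeval x P ∈ Algebra.adjoin ↥A {x} := by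
      rw [Algebra.adjoin_singleton_eq_range_aeval]
      exact ⟨P, rfl⟩
    exact ⟨⟨aeval x P, h1⟩, rfl⟩
  · intro hy
    refine Fermat.Agent.S18.H95.isIntegralElem_of_range_le
      (algebraMap (Algebra.adjoin ↥A {x}) F) (chartHom A x) (fun r => ?_) hy
    have h1 : (r : F) ∈ (aeval x : A[X] →ₐ[↥A] F).range := by
      rw [← Algebra.adjoin_singleton_eq_range_aeval]
      exact r.2
    obtain ⟨P, hP⟩ := h1
    exact ⟨P, hP⟩

/-- Transcendence of the reduction passes to the inverse series. -/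
theorem xtr_inv (xA xA' : LaurentSeries A) (hmul : xA * xA' = 1)
    (hxtr : ∀ P : Polynomial (IsLocalRing.ResidueField A), evC P (redA A xA) = 0 → P = 0) :
    ∀ P : Polynomial (IsLocalRing.ResidueField A), evC P (redA A xA') = 0 → P = 0 := by
  have hz : redA A xA * redA A xA' = 1 := by rw [← map_mul, hmul, map_one]
  have hinv : redA A xA' = (redA A xA)⁻¹ := eq_inv_of_mul_eq_one_right hz
  have htr : Transcendental (IsLocalRing.ResidueField A) (redA A xA) := by
    rw [transcendental_iff]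
    intro P hP
    exact hxtr P (by rw [evC_eq_aeval]; exact hP)
  have htr' := Fermat.Agent.S18.H97.transcendental_inv htr
  rw [transcendental_iff] at htr'
  intro P hP
  apply htr' P
  rw [← hinv, ← evC_eq_aeval]
  exact hP

variable [IsDiscreteValuationRing A]

/-- **GAUSS -> (KC).**  All the `V`-hypotheses of `H97.kc_charts` for the Gauss valuation ring
`V := gaussW hD` and a chart coordinate `x = iota xA` with inverse series `xA'`. -/
theorem gauss_kc (hD : GaussData A F Fk J b) {pi : A} (hpi : Irreducible pi)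
    (xA xA' : LaurentSeries A) (hmul : xA * xA' = 1) (hx : iotaA A xA ∈ F)
    (hxtr : ∀ P : Polynomial (IsLocalRing.ResidueField A), evC P (redA A xA) = 0 → P = 0)
    (hJx : jElt hD ∈ IntermediateField.adjoin L {(⟨iotaA A xA, hx⟩ : F)}) :
    (∀ a : A, algebraMap ↥A ↥F a ∈ gaussW hD) ∧
    (⟨iotaA A xA, hx⟩ : F) ∈ gaussW hD ∧ (⟨iotaA A xA, hx⟩ : F)⁻¹ ∈ gaussW hD ∧
    algebraMap ↥A ↥F pi ∈ (gaussW hD).nonunits ∧
    (∀ y ∈ (gaussW hD).nonunits, ∃ z ∈ gaussW hD, y = algebraMap ↥A ↥F pi * z) ∧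
    (∀ c ∈ chartU ↥A (⟨iotaA A xA, hx⟩ : F),
      (∃ y ∈ gaussW hD, c = algebraMap ↥A ↥F pi * y) →
        ∃ d ∈ chartU ↥A (⟨iotaA A xA, hx⟩ : F), c = algebraMap ↥A ↥F pi * d) ∧
    (∀ c ∈ chartV ↥A (⟨iotaA A xA, hx⟩ : F),
      (∃ y ∈ gaussW hD, c = algebraMap ↥A ↥F pi * y) →
        ∃ d ∈ chartV ↥A (⟨iotaA A xA, hx⟩ : F), c = algebraMap ↥A ↥F pi * d) := by
  have hι : iotaA A xA * iotaA A xA' = 1 := by rw [← map_mul, hmul, map_one]
  have hinv : iotaA A xA' = (iotaA A xA)⁻¹ := eq_inv_of_mul_eq_one_right hι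
  have hx' : iotaA A xA' ∈ F := by rw [hinv]; exact F.inv_mem hx
  have hxinv : (⟨iotaA A xA, hx⟩ : F)⁻¹ = ⟨iotaA A xA', hx'⟩ := by
    apply Subtype.ext
    show (iotaA A xA)⁻¹ = iotaA A xA'
    exact hinv.symm
  have hJx' : jElt hD ∈ IntermediateField.adjoin L {(⟨iotaA A xA', hx'⟩ : F)} := by
    rw [← hxinv]
    exact mem_adjoin_inv_of_mem_adjoin hJx
  refine ⟨fun a => constHom_mem_gaussW hD a, iota_mem_gaussW hD xA hx, ?_,
    constHom_mem_nonunits hD hpi, fun y hy => exists_eq_mul_of_mem_nonunits hD hpi y hy, ?_, ?_⟩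
  · rw [hxinv]
    exact iota_mem_gaussW hD xA' hx'
  · rintro c hc ⟨y, hy, hcy⟩
    have h := gauss_chart hD hpi xA hx hxtr hJx c ((isIntegralElem_chartHom_iff _ c).mpr hc)
    exact ⟨y, (isIntegralElem_chartHom_iff _ y).mp (h.2 y hy hcy), hcy⟩
  · rintro c hc ⟨y, hy, hcy⟩
    have hc' : c ∈ chartU ↥A (⟨iotaA A xA', hx'⟩ : F) := by rw [← hxinv]; exact hc
    have h := gauss_chart hD hpi xA' hx' (xtr_inv xA xA' hmul hxtr) hJx' c
      ((isIntegralElem_chartHom_iff _ c).mpr hc')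
    refine ⟨y, ?_, hcy⟩
    have hy' := (isIntegralElem_chartHom_iff _ y).mp (h.2 y hy hcy)
    show y ∈ chartU ↥A (⟨iotaA A xA, hx⟩ : F)⁻¹
    rw [hxinv]
    exact hy'

/-- **`hf` of `H97.kc_charts`**: a quotient of two integral series of `F` with equal nonzero
reductions is `≡ 1` modulo `pi` in the Gauss ring. -/
theorem gauss_hf (hD : GaussData A F Fk J b) {pi : A} (hpi : Irreducible pi)
    (Z1 Z2 : LaurentSeries A) (h1 : iotaA A Z1 ∈ F) (h2 : iotaA A Z2 ∈ F)
    (hne : redA A Z1 ≠ 0) (heq : redA A Z1 = redA A Z2) :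
    ∃ y ∈ gaussW hD,
      (⟨iotaA A Z1, h1⟩ : F) / ⟨iotaA A Z2, h2⟩ - 1 = algebraMap ↥A ↥F pi * y := by
  have hne2 : redA A Z2 ≠ 0 := heq ▸ hne
  -- `z2` is a unit of the Gauss ring
  have hz2W : (⟨iotaA A Z2, h2⟩ : F) ∈ gaussW hD := iota_mem_gaussW hD Z2 h2
  have hρ2 : gaussRho hD ⟨⟨iotaA A Z2, h2⟩, hz2W⟩ ≠ 0 := by
    rw [gaussRho_iota hD Z2 h2]
    intro h0
    exact hne2 (congrArg Subtype.val h0)
  have hz2inv : (⟨iotaA A Z2, h2⟩ : F)⁻¹ ∈ gaussW hD :=
    inv_mem_gaussW_of_rho_ne_zero hD ⟨⟨iotaA A Z2, h2⟩, hz2W⟩ hρ2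
  have hz2ne : (⟨iotaA A Z2, h2⟩ : F) ≠ 0 := by
    intro h0
    apply hρ2
    have : (⟨⟨iotaA A Z2, h2⟩, hz2W⟩ : gaussW hD) = 0 := Subtype.ext h0
    rw [this, map_zero]
  -- `z1 - z2` is a non-unit
  have hd : iotaA A (Z1 - Z2) ∈ F := by rw [map_sub]; exact F.sub_mem h1 h2
  have hdW : (⟨iotaA A (Z1 - Z2), hd⟩ : F) ∈ gaussW hD := iota_mem_gaussW hD (Z1 - Z2) hd
  have hρd : gaussRho hD ⟨⟨iotaA A (Z1 - Z2), hd⟩, hdW⟩ = 0 := by
    rw [gaussRho_iota hD (Z1 - Z2) hd]
    apply Subtype.ext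
    show redA A (Z1 - Z2) = 0
    rw [map_sub, heq, sub_self]
  have hdnu : (⟨iotaA A (Z1 - Z2), hd⟩ : F) ∈ (gaussW hD).nonunits :=
    (mem_nonunits_gaussW_iff hD ⟨⟨iotaA A (Z1 - Z2), hd⟩, hdW⟩).mpr hρd
  obtain ⟨y, hy, hdy⟩ := exists_eq_mul_of_mem_nonunits hD hpi _ hdnu
  refine ⟨y * (⟨iotaA A Z2, h2⟩ : F)⁻¹, (gaussW hD).mul_mem _ _ hy hz2inv, ?_⟩
  have hsub : (⟨iotaA A Z1, h1⟩ : F) - ⟨iotaA A Z2, h2⟩ = ⟨iotaA A (Z1 - Z2), hd⟩ := by
    apply Subtype.ext
    show iotaA A Z1 - iotaA A Z2 = iotaA A (Z1 - Z2)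
    rw [map_sub]
  rw [algebraMap_eq_constHom, ← mul_assoc, ← hdy, ← hsub]
  field_simp

end GaussKC

end Fermat.Agent.S18.H92
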