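/-
S18, node GAUSS-RES (helper72): the integral structure of the modular function field
`Qbar(j(q^d) : d ∣ N)` with respect to a valuation ring `A` of `Qbar`, from the S28 monomials.

* `exists_integral_relation` : for an integral series `y` of the function field there are
  `B, a_i ∈ A[X]`, `B` with nonzero reduction, with `B(j) y = ∑ a_i(j) M_i`;
* `red_mem_full` (G3) : the reduction of an integral element of the function field lies in
  `k(j(q^d) : d ∣ N)`;
* `exists_smul_of_red_eq_zero` (G4, weak form) and `exists_eq_C_mul_of_red_eq_zero` (G4);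
* `dvd_of_mul_eq` (G1', the bounded one-sided Gauss lemma over a rank one valuation ring).
-/
import Mathlib
import Fermat.Prelude.Def_ModularCurve_ReductionModL
import Fermat.Agent.S28.Monomials_helper72
import Fermat.Agent.S28.DegLower_helper72
import Fermat.Agent.S28.DegreeQ_helper98
import Fermat.Agent.S28.PsiFinal_helper50

set_option autoImplicit false

noncomputable section

open ModularCurve Polynomial IntermediateField

namespace Fermat.Agent.S18.H72

/-- evaluation of a polynomial at `j`, for an arbitrary coefficient ring -/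
def evJ (R : Type*) [CommRing R] (P : Polynomial R) : LaurentSeries R :=
  P.eval₂ (HahnSeries.C : R →+* LaurentSeries R) (jqModC R)

theorem coeffMap_C {R S : Type*} [CommRing R] [CommRing S] (f : R →+* S) (r : R) :
    coeffMap f (HahnSeries.C r : LaurentSeries R) = HahnSeries.C (f r) := by
  rw [HahnSeries.C_apply, HahnSeries.C_apply, coeffMap_single]

theorem coeffMap_evJ {R S : Type*} [CommRing R] [CommRing S] (f : R →+* S) (P : Polynomial R) :
    coeffMap f (evJ R P) = evJ S (P.map f) := by
  unfold evJ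
  rw [Polynomial.hom_eval₂, Polynomial.eval₂_map, coeffMap_jqModC]
  congr 1
  ext r : 1
  exact coeffMap_C f r

theorem evJ_eq_aeval (K : Type*) [Field K] (P : Polynomial K) :
    evJ K P = Polynomial.aeval (jqModC K) P := by
  unfold evJ
  rw [Polynomial.aeval_def]
  congr 1
  ext c : 1
  rw [algebraMap_laurentSeries_eq_single]
  rfl

theorem evJ_C_mul {R : Type*} [CommRing R] (c : R) (P : Polynomial R) :
    evJ R (Polynomial.C c * P) = HahnSeries.C c * evJ R P := by
  unfold evJ
  rw [Polynomial.eval₂_mul, Polynomial.eval₂_C]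

theorem evJ_neg {R : Type*} [CommRing R] (P : Polynomial R) : evJ R (-P) = - evJ R P := by
  unfold evJ
  rw [Polynomial.eval₂_neg]

theorem evJ_zero {R : Type*} [CommRing R] : evJ R (0 : Polynomial R) = 0 := by
  unfold evJ
  rw [Polynomial.eval₂_zero]

theorem evJ_ne_zero (K : Type*) [Field K] {P : Polynomial K} (hP : P ≠ 0) : evJ K P ≠ 0 := by
  rw [evJ_eq_aeval]
  exact S28.H72.aeval_jqModC_ne_zero K hP

theorem evJ_mem_adjoin (K : Type*) [Field K] (P : Polynomial K) :
    evJ K P ∈ IntermediateField.adjoin K {jqModC K} := by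
  rw [evJ_eq_aeval]
  exact IntermediateField.algebra_adjoin_le_adjoin K _
    (Polynomial.aeval_mem_adjoin_singleton K (jqModC K))

local notation "Qb" => AlgebraicClosure ℚ

theorem coe_jBar (N : ℕ) [NeZero N] :
    ((S24.H98.jBar N : ↥(modularFunctionFieldBar N)) : LaurentSeries Qb) = jqModC Qb := by
  show coeffMap (algebraMap ℚ Qb) jq = jqModC Qb
  rw [← jqModC_rat, coeffMap_jqModC]

/-- more than `ψ(N)` elements of the modular function field over `Qbar` satisfy a nontrivial
linear relation with coefficients in `Qbar[j]`. -/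
theorem exists_polynomial_relation_bar (N : ℕ) [NeZero N] {κ : Type*} [Fintype κ]
    (X : κ → LaurentSeries Qb) (hX : ∀ i, X i ∈ modularFunctionFieldBar N)
    (hcard : dedekindPsi N < Fintype.card κ) :
    ∃ P : κ → Polynomial Qb, P ≠ 0 ∧ ∑ i, evJ Qb (P i) * X i = 0 := by
  classical
  obtain ⟨hfd, hrank⟩ := S28.H98.finrank_bar N
  have hα : Transcendental Qb (S24.H98.jBar N) := S24.H89.transcendental_jBar N _
  let Xs : κ → ↥(modularFunctionFieldBar N) := fun i => ⟨X i, hX i⟩
  have hdep : ¬ LinearIndependent Qb⟮S24.H98.jBar N⟯ Xs := by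
    intro hli
    have := hli.fintype_card_le_finrank
    omega
  obtain ⟨g, hg, i₀, hi₀⟩ := Fintype.not_linearIndependent_iff.mp hdep
  have hfrac : ∀ i, ∃ r s : Polynomial Qb, s ≠ 0 ∧
      ((g i : ↥(modularFunctionFieldBar N))) * Polynomial.aeval (S24.H98.jBar N) s
        = Polynomial.aeval (S24.H98.jBar N) r := by
    intro i
    obtain ⟨r, s, hrs⟩ := (IntermediateField.mem_adjoin_simple_iff Qb _).mp (g i).2
    by_cases hs : Polynomial.aeval (S24.H98.jBar N) s = 0
    · refine ⟨0, 1, one_ne_zero, ?_⟩
      rw [hrs, hs, div_zero]; simp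
    · refine ⟨r, s, fun h => hs (by rw [h, map_zero]), ?_⟩
      rw [hrs, div_mul_cancel₀ _ hs]
  choose r s hs hrs using hfrac
  let P : κ → Polynomial Qb := fun i => r i * ∏ j ∈ Finset.univ.erase i, s j
  have hPi : ∀ i, Polynomial.aeval (S24.H98.jBar N) (P i)
      = (g i : ↥(modularFunctionFieldBar N)) * Polynomial.aeval (S24.H98.jBar N) (∏ j, s j) := by
    intro i
    rw [← Finset.mul_prod_erase Finset.univ s (Finset.mem_univ i)]
    simp only [P, map_mul]
    rw [← hrs i]; ring
  have hD : Polynomial.aeval (S24.H98.jBar N) (∏ j, s j) ≠ 0 := by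
    intro h
    exact Finset.prod_ne_zero_iff.mpr (fun j _ => hs j) (transcendental_iff.mp hα _ h)
  have hP0 : P i₀ ≠ 0 := by
    intro h
    have h1 := hPi i₀
    rw [h, map_zero] at h1
    rcases mul_eq_zero.mp h1.symm with h2 | h2
    · exact hi₀ (Subtype.ext h2)
    · exact hD h2
  have hrel : ∑ i, Polynomial.aeval (S24.H98.jBar N) (P i) * Xs i = 0 := by
    have h1 : ∑ i, Polynomial.aeval (S24.H98.jBar N) (P i) * Xs i
        = Polynomial.aeval (S24.H98.jBar N) (∏ j, s j) * ∑ i, g i • Xs i := by
      rw [Finset.mul_sum]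
      refine Finset.sum_congr rfl fun i _ => ?_
      rw [hPi i, IntermediateField.smul_def, smul_eq_mul]
      ring
    rw [h1, hg, mul_zero]
  refine ⟨P, fun h => hP0 (congrFun h i₀), ?_⟩
  have h1 := congrArg (fun y : ↥(modularFunctionFieldBar N) => (y : LaurentSeries Qb)) hrel
  simp only [AddSubmonoidClass.coe_finsetSum, MulMemClass.coe_mul, ZeroMemClass.coe_zero] at h1
  rw [← h1]
  refine Finset.sum_congr rfl fun i _ => ?_
  congr 1
  rw [evJ_eq_aeval, ← coe_jBar N]
  exact Polynomial.aeval_algHom_apply (modularFunctionFieldBar N).val (S24.H98.jBar N) (P i)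

section Worst

variable {L : Type*} [Field L] (A : ValuationSubring L)

/-- Normalise a finite family of polynomials over the fraction field by its worst
coefficient: the result has coefficients in `A` and one coefficient equal to `1`. -/
theorem exists_worst_coeff {κ : Type*} [Fintype κ] (P : κ → Polynomial L) (hP : P ≠ 0) :
    ∃ (c : L) (Pt : κ → Polynomial A), c ≠ 0 ∧ (∃ o n, (P o).coeff n = c) ∧
      (∀ o, (Pt o).map A.subtype = Polynomial.C c⁻¹ * P o) ∧ (∃ o n, (Pt o).coeff n = 1) := by
  classical
  let S : Finset (Σ _ : κ, ℕ) := Finset.univ.sigma (fun o => (P o).support)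
  have hS : S.Nonempty := by
    obtain ⟨o, ho⟩ : ∃ o, P o ≠ 0 := by
      by_contra h
      push Not at h
      exact hP (funext h)
    obtain ⟨n, hn⟩ := Polynomial.nonempty_support_iff.mpr ho
    exact ⟨⟨o, n⟩, Finset.mem_sigma.mpr ⟨Finset.mem_univ _, hn⟩⟩
  obtain ⟨⟨o₀, n₀⟩, hmem, hmax⟩ :=
    Finset.exists_max_image S (fun x => A.valuation ((P x.1).coeff x.2)) hS
  have hc : (P o₀).coeff n₀ ≠ 0 := Polynomial.mem_support_iff.mp (Finset.mem_sigma.mp hmem).2
  have hle : ∀ o n, A.valuation ((P o).coeff n) ≤ A.valuation ((P o₀).coeff n₀) := by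
    intro o n
    by_cases h0 : (P o).coeff n = 0
    · rw [h0, map_zero]; exact zero_le
    · exact hmax ⟨o, n⟩
        (Finset.mem_sigma.mpr ⟨Finset.mem_univ _, Polynomial.mem_support_iff.mpr h0⟩)
  have hmemA : ∀ o n, ((P o₀).coeff n₀)⁻¹ * (P o).coeff n ∈ A := by
    intro o n
    rw [← A.valuation_le_one_iff, map_mul, map_inv₀]
    have hvc : A.valuation ((P o₀).coeff n₀) ≠ 0 := (Valuation.ne_zero_iff _).mpr hc
    rw [inv_mul_le_one₀ (zero_lt_iff.mpr hvc)]
    exact hle o n
  have hlift : ∀ o, Polynomial.C ((P o₀).coeff n₀)⁻¹ * P o ∈ Polynomial.lifts A.subtype := by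
    intro o
    rw [Polynomial.lifts_iff_coeff_lifts]
    intro n
    rw [Polynomial.coeff_C_mul]
    exact ⟨⟨_, hmemA o n⟩, rfl⟩
  choose Pt hPt using fun o => (Polynomial.mem_lifts _).mp (hlift o)
  refine ⟨(P o₀).coeff n₀, Pt, hc, ⟨o₀, n₀, rfl⟩, hPt, o₀, n₀, ?_⟩
  apply Subtype.val_injective
  have h1 := congrArg (fun Q => Q.coeff n₀) (hPt o₀)
  simp only [Polynomial.coeff_map, Polynomial.coeff_C_mul] at h1
  rw [inv_mul_cancel₀ hc] at h1
  exact h1

end Worst

section Monomials

variable (N : ℕ) [NeZero N]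

/-- the integral monomials over `Qbar` lie in the function field -/
theorem coeffMap_int_mem_bar {x : LaurentSeries ℤ}
    (hx : x ∈ Submonoid.closure (S28.H72.gensZ N)) :
    coeffMap (Int.castRingHom Qb) x ∈ modularFunctionFieldBar N := by
  have h1 := S28.H72.coeffMap_mem_full N hx
  have h2 := coeffEmb_mem_laurentBaseChange Qb h1
  have h3 : coeffEmb Qb (coeffMap (Int.castRingHom ℚ) x) = coeffMap (Int.castRingHom Qb) x := by
    rw [coeffEmb, coeffMap_coeffMap]
    exact coeffMap_congr (RingHom.ext_int _ _) _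
  rwa [h3] at h2

omit [NeZero N] in
/-- the integral monomials over any field lie in `K(j(q^d) : d ∣ N)` -/
theorem coeffMap_int_mem_fullC (K : Type*) [Field K] {x : LaurentSeries ℤ}
    (hx : x ∈ Submonoid.closure (S28.H72.gensZ N)) :
    coeffMap (Int.castRingHom K) x ∈ modularFunctionFieldFullC K N := by
  induction hx using Submonoid.closure_induction with
  | mem y hy =>
    obtain ⟨d, hd, hdN, rfl⟩ := hy
    rw [S28.H72.coeffMap_qExpand_jqModC]
    exact jqModCd_mem_full K N hdN
  | one => rw [map_one]; exact one_mem _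
  | mul x y _ _ hx hy => rw [map_mul]; exact mul_mem hx hy

/-- polynomial form of the independence of the reduced monomials -/
theorem eq_zero_of_sum_evJ_mul_eq_zero {K : Type*} [Field K] {n : ℕ} (M : Fin n → LaurentSeries K)
    (hli : LinearIndependent ↥(IntermediateField.adjoin K {jqModC K}) M)
    (Q : Fin n → Polynomial K) (h : ∑ i, evJ K (Q i) * M i = 0) : ∀ i, Q i = 0 := by
  intro i
  have h' : ∑ i, (⟨evJ K (Q i), evJ_mem_adjoin K (Q i)⟩ :
      ↥(IntermediateField.adjoin K {jqModC K})) • M i = 0 := by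
    rw [← h]
    refine Finset.sum_congr rfl fun i _ => ?_
    rfl
  have h2 := Fintype.linearIndependent_iff.mp hli _ h' i
  by_contra hne
  exact evJ_ne_zero K hne (congrArg Subtype.val h2)

end Monomials

section Structure

variable (A : ValuationSubring Qb) (N : ℕ) [NeZero N]

local notation "kA" => IsLocalRing.ResidueField A
local notation "resA" => IsLocalRing.residue A

/-- **Structure of integral elements.** For an integral series `y` of the function field
there are `B, a_i ∈ A[X]`, `B` with nonzero reduction, with `B(j) y = ∑ a_i(j) M_i`. -/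
theorem exists_integral_relation (b : Fin (dedekindPsi N) → LaurentSeries ℤ)
    (hb : ∀ i, b i ∈ Submonoid.closure (S28.H72.gensZ N))
    (hli : LinearIndependent ↥(IntermediateField.adjoin kA {jqModC kA})
        (fun i => coeffMap (Int.castRingHom kA) (b i)))
    (y : LaurentSeries A) (hy : coeffMap A.subtype y ∈ modularFunctionFieldBar N) :
    ∃ (B : Polynomial A) (a : Fin (dedekindPsi N) → Polynomial A),
      B.map resA ≠ 0 ∧
      evJ A B * y = ∑ i, evJ A (a i) * coeffMap (Int.castRingHom A) (b i) := by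
  classical
  let X : Option (Fin (dedekindPsi N)) → LaurentSeries Qb := fun o =>
    o.elim (coeffMap A.subtype y) (fun i => coeffMap (Int.castRingHom Qb) (b i))
  let Xt : Option (Fin (dedekindPsi N)) → LaurentSeries A := fun o =>
    o.elim y (fun i => coeffMap (Int.castRingHom A) (b i))
  have hXt : ∀ o, coeffMap A.subtype (Xt o) = X o := by
    intro o
    cases o with
    | none => rfl
    | some i =>
      show coeffMap A.subtype (coeffMap (Int.castRingHom A) (b i))
        = coeffMap (Int.castRingHom Qb) (b i)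
      rw [coeffMap_coeffMap]
      exact coeffMap_congr (RingHom.ext_int _ _) _
  have hX : ∀ o, X o ∈ modularFunctionFieldBar N := by
    intro o
    cases o with
    | none => exact hy
    | some i => exact coeffMap_int_mem_bar N (hb i)
  obtain ⟨P, hP0, hrel⟩ := exists_polynomial_relation_bar N X hX (by simp)
  obtain ⟨c, Pt, hc, -, hPt, o₁, n₁, h1⟩ := exists_worst_coeff A P hP0
  have hrelA : ∑ o, evJ A (Pt o) * Xt o = 0 := by
    apply S28.H72.coeffMap_injective A.subtype Subtype.val_injective
    rw [map_sum, map_zero]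
    have h2 : ∀ o, coeffMap A.subtype (evJ A (Pt o) * Xt o)
        = HahnSeries.C c⁻¹ * (evJ Qb (P o) * X o) := by
      intro o
      rw [map_mul, coeffMap_evJ, hPt, evJ_C_mul, hXt, mul_assoc]
    simp only [h2]
    rw [← Finset.mul_sum, hrel, mul_zero]
  have hred : ∑ o, evJ kA ((Pt o).map resA) * coeffMap resA (Xt o) = 0 := by
    have h2 := congrArg (coeffMap resA) hrelA
    rw [map_sum, map_zero] at h2
    rw [← h2]
    refine Finset.sum_congr rfl fun o _ => ?_
    rw [map_mul, coeffMap_evJ]
  have hXtred : ∀ i, coeffMap resA (Xt (some i)) = coeffMap (Int.castRingHom kA) (b i) := by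
    intro i
    show coeffMap resA (coeffMap (Int.castRingHom A) (b i)) = _
    rw [coeffMap_coeffMap]
    exact coeffMap_congr (RingHom.ext_int _ _) _
  have hB : (Pt none).map resA ≠ 0 := by
    intro h0
    rw [Fintype.sum_option, h0, evJ_zero, zero_mul, zero_add] at hred
    simp only [hXtred] at hred
    have hall := eq_zero_of_sum_evJ_mul_eq_zero _ hli (fun i => (Pt (some i)).map resA) hred
    have hall' : ∀ o, (Pt o).map resA = 0 := by
      intro o
      cases o with
      | none => exact h0
      | some i => exact hall i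
    have h2 := congrArg (fun Q => Q.coeff n₁) (hall' o₁)
    simp only [Polynomial.coeff_map, h1, map_one, Polynomial.coeff_zero] at h2
    exact one_ne_zero h2
  refine ⟨Pt none, fun i => - Pt (some i), hB, ?_⟩
  rw [Fintype.sum_option] at hrelA
  have h3 : evJ A (Pt none) * y = - ∑ i, evJ A (Pt (some i)) * Xt (some i) :=
    eq_neg_of_add_eq_zero_left hrelA
  rw [h3, ← Finset.sum_neg_distrib]
  refine Finset.sum_congr rfl fun i _ => ?_
  rw [evJ_neg, neg_mul]
  rfl

omit [NeZero N] in
theorem adjoin_jq_le_fullC (K : Type*) [Field K] :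
    IntermediateField.adjoin K {jqModC K} ≤ modularFunctionFieldFullC K N := by
  rw [IntermediateField.adjoin_le_iff]
  rintro x hx
  rw [Set.mem_singleton_iff] at hx
  subst hx
  exact jqModC_mem_full K N

theorem evJ_mem_bar (Q : Polynomial Qb) : evJ Qb Q ∈ modularFunctionFieldBar N := by
  rw [evJ_eq_aeval]
  have h1 : jqModC Qb ∈ modularFunctionFieldBar N := by
    rw [← coe_jBar N]
    exact (S24.H98.jBar N).2
  have h2 : Algebra.adjoin Qb {jqModC Qb} ≤ (modularFunctionFieldBar N).toSubalgebra :=
    Algebra.adjoin_le (by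
      rintro x hx
      rw [Set.mem_singleton_iff] at hx
      subst hx
      exact h1)
  exact h2 (Polynomial.aeval_mem_adjoin_singleton Qb (jqModC Qb))

theorem coeffMap_res_int (x : LaurentSeries ℤ) :
    coeffMap resA (coeffMap (Int.castRingHom A) x) = coeffMap (Int.castRingHom kA) x := by
  rw [coeffMap_coeffMap]
  exact coeffMap_congr (RingHom.ext_int _ _) _

theorem coeffMap_subtype_int (x : LaurentSeries ℤ) :
    coeffMap A.subtype (coeffMap (Int.castRingHom A) x) = coeffMap (Int.castRingHom Qb) x := by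
  rw [coeffMap_coeffMap]
  exact coeffMap_congr (RingHom.ext_int _ _) _

/-- (G3), monomial form: the reduction of an integral element of the function field lies in
`k(j(q^d) : d ∣ N)`. -/
theorem red_mem_full_of_monomials (b : Fin (dedekindPsi N) → LaurentSeries ℤ)
    (hb : ∀ i, b i ∈ Submonoid.closure (S28.H72.gensZ N))
    (hli : LinearIndependent ↥(IntermediateField.adjoin kA {jqModC kA})
        (fun i => coeffMap (Int.castRingHom kA) (b i)))
    (y : LaurentSeries A) (hy : coeffMap A.subtype y ∈ modularFunctionFieldBar N) :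
    coeffMap resA y ∈ modularFunctionFieldFullC kA N := by
  obtain ⟨B, a, hB, hrel⟩ := exists_integral_relation A N b hb hli y hy
  have h2 := congrArg (coeffMap resA) hrel
  rw [map_mul, coeffMap_evJ, map_sum] at h2
  have hrhs : ∑ i, coeffMap resA (evJ A (a i) * coeffMap (Int.castRingHom A) (b i))
      ∈ modularFunctionFieldFullC kA N := by
    refine sum_mem fun i _ => ?_
    rw [map_mul, coeffMap_evJ, coeffMap_res_int]
    exact mul_mem (adjoin_jq_le_fullC N kA (evJ_mem_adjoin kA _))
      (coeffMap_int_mem_fullC N kA (hb i))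
  have hne : evJ kA (B.map resA) ≠ 0 := evJ_ne_zero kA hB
  have h3 : coeffMap resA y = (evJ kA (B.map resA))⁻¹ *
      ∑ i, coeffMap resA (evJ A (a i) * coeffMap (Int.castRingHom A) (b i)) := by
    rw [← h2, inv_mul_cancel_left₀ hne]
  rw [h3]
  exact mul_mem (inv_mem (adjoin_jq_le_fullC N kA (evJ_mem_adjoin kA _))) hrhs

/-- (G4), weak form, monomial form: an integral element of the function field with zero
reduction is `a * u / B(j)` with `a ∈ m_A`, `u` integral with nonzero reduction and `B(j)`
a polynomial in `j` with nonzero reduction. -/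
theorem exists_smul_of_red_eq_zero_of_monomials (b : Fin (dedekindPsi N) → LaurentSeries ℤ)
    (hb : ∀ i, b i ∈ Submonoid.closure (S28.H72.gensZ N))
    (hli : LinearIndependent ↥(IntermediateField.adjoin kA {jqModC kA})
        (fun i => coeffMap (Int.castRingHom kA) (b i)))
    (y : LaurentSeries A) (hy : coeffMap A.subtype y ∈ modularFunctionFieldBar N)
    (hred : coeffMap resA y = 0) :
    ∃ (a : A) (B : Polynomial A) (u : LaurentSeries A), resA a = 0 ∧ B.map resA ≠ 0 ∧
      coeffMap A.subtype u ∈ modularFunctionFieldBar N ∧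
      (y ≠ 0 → coeffMap resA u ≠ 0) ∧ evJ A B * y = HahnSeries.C a * u := by
  classical
  obtain ⟨B, a, hB, hrel⟩ := exists_integral_relation A N b hb hli y hy
  have h2 := congrArg (coeffMap resA) hrel
  rw [map_mul, hred, mul_zero, map_sum] at h2
  have h3 : ∑ i, evJ kA ((a i).map resA) * coeffMap (Int.castRingHom kA) (b i) = 0 := by
    rw [h2]
    refine Finset.sum_congr rfl fun i _ => ?_
    rw [map_mul, coeffMap_evJ, coeffMap_res_int]
  have hall := eq_zero_of_sum_evJ_mul_eq_zero _ hli (fun i => (a i).map resA) h3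
  have hBne : evJ A B ≠ 0 := by
    intro h0
    have h4 := congrArg (coeffMap resA) h0
    rw [coeffMap_evJ, map_zero] at h4
    exact evJ_ne_zero kA hB h4
  by_cases ha0 : (fun i => (a i).map A.subtype) = 0
  · have hy0 : y = 0 := by
      have h5 : ∀ i, a i = 0 := by
        intro i
        apply Polynomial.map_injective A.subtype Subtype.val_injective
        rw [Polynomial.map_zero]
        exact congrFun ha0 i
      have h6 : evJ A B * y = 0 := by
        rw [hrel]
        refine Finset.sum_eq_zero fun i _ => ?_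
        rw [h5 i, evJ_zero, zero_mul]
      rcases mul_eq_zero.mp h6 with h7 | h7
      · exact absurd h7 hBne
      · exact h7
    refine ⟨0, B, 0, map_zero _, hB, ?_, fun h => absurd hy0 h, ?_⟩
    · rw [map_zero]; exact zero_mem _
    · rw [hy0, mul_zero, mul_zero]
  · obtain ⟨c, at', hc, ⟨o, n, hcn⟩, hat, o₁, n₁, h1⟩ :=
      exists_worst_coeff A (fun i => (a i).map A.subtype) ha0
    have hcA : A.subtype ((a o).coeff n) = c := by
      rw [← hcn, Polynomial.coeff_map]
    have hres : resA ((a o).coeff n) = 0 := by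
      have h5 := congrArg (fun Q => Q.coeff n) (hall o)
      simpa [Polynomial.coeff_map] using h5
    have hfac : ∀ i, a i = Polynomial.C ((a o).coeff n) * at' i := by
      intro i
      apply Polynomial.map_injective A.subtype Subtype.val_injective
      rw [Polynomial.map_mul, Polynomial.map_C, hat i, ← mul_assoc, ← Polynomial.C_mul, hcA,
        mul_inv_cancel₀ hc, Polynomial.C_1, one_mul]
    refine ⟨(a o).coeff n, B, ∑ i, evJ A (at' i) * coeffMap (Int.castRingHom A) (b i), hres, hB,
      ?_, ?_, ?_⟩
    · rw [map_sum]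
      refine sum_mem fun i _ => ?_
      rw [map_mul, coeffMap_evJ, coeffMap_subtype_int]
      exact mul_mem (evJ_mem_bar N _) (coeffMap_int_mem_bar N (hb i))
    · intro _ h0
      rw [map_sum] at h0
      have h5 : ∑ i, evJ kA ((at' i).map resA) * coeffMap (Int.castRingHom kA) (b i) = 0 := by
        rw [← h0]
        refine Finset.sum_congr rfl fun i _ => ?_
        rw [map_mul, coeffMap_evJ, coeffMap_res_int]
      have h6 := eq_zero_of_sum_evJ_mul_eq_zero _ hli (fun i => (at' i).map resA) h5 o₁
      have h7 := congrArg (fun Q => Q.coeff n₁) h6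
      simp only [Polynomial.coeff_map, h1, map_one, Polynomial.coeff_zero] at h7
      exact one_ne_zero h7
    · rw [hrel, Finset.mul_sum]
      refine Finset.sum_congr rfl fun i _ => ?_
      rw [hfac i, evJ_C_mul, mul_assoc]

end Structure

section Gauss

variable {L : Type*} [Field L] (A : ValuationSubring L)

/-- all coefficients divisible by `a` ⇒ the series is `C a * _` -/
theorem exists_eq_C_mul_of_forall_dvd (a : A) (y : LaurentSeries A) (h : ∀ j, a ∣ y.coeff j) :
    ∃ y' : LaurentSeries A, y = HahnSeries.C a * y' := by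
  classical
  by_cases ha : a = 0
  · subst ha
    refine ⟨0, ?_⟩
    ext j
    obtain ⟨q, hq⟩ := h j
    rw [hq]
    simp
  choose q hq using h
  have hsupp : Function.support q ⊆ y.support := by
    intro j hj
    rw [HahnSeries.mem_support, hq j]
    exact mul_ne_zero ha hj
  refine ⟨⟨q, y.isPWO_support.mono hsupp⟩, ?_⟩
  ext j
  rw [hq j, HahnSeries.C_mul_eq_smul, HahnSeries.coeff_smul, smul_eq_mul]

theorem dvd_of_valuation_le (x z : A) (h : A.valuation (z : L) ≤ A.valuation (x : L)) :
    x ∣ z := by
  obtain ⟨q, hq⟩ := (A.valuation_le_iff _ _).mp h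
  exact ⟨q, Subtype.ext (by rw [← hq]; push_cast; ring)⟩

theorem valuation_le_of_dvd (x z : A) (h : x ∣ z) :
    A.valuation (z : L) ≤ A.valuation (x : L) := by
  obtain ⟨q, rfl⟩ := h
  exact (A.valuation_le_iff _ _).mpr ⟨q, by push_cast; ring⟩

/-- **(G1') The bounded one-sided Gauss lemma** over a rank one valuation ring: if `P` has
nonzero reduction and `P * y = a * u` with `P, y, u` integral, then `a` divides every
coefficient of `y`. -/
theorem dvd_coeff_of_mul_eq
    (harch : ∀ r : A, r ∈ nonunits A → ∀ a : A, a ≠ 0 → ∃ n : ℕ, a ∣ r ^ n)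
    (P y u : LaurentSeries A) (a : A) (ha : a ≠ 0)
    (hP : coeffMap (IsLocalRing.residue A) P ≠ 0) (h : P * y = HahnSeries.C a * u) :
    ∀ j, a ∣ y.coeff j := by
  classical
  by_contra hcon
  push Not at hcon
  obtain ⟨j0, hj0⟩ := hcon
  have hj0' : A.valuation (a : L) < A.valuation ((y.coeff j0 : A) : L) := by
    by_contra hle
    exact hj0 (dvd_of_valuation_le A _ _ (not_lt.mp hle))
  -- the first unit coefficient of `P`
  set i0 : ℤ := (coeffMap (IsLocalRing.residue A) P).order with hi0
  have hunit : A.valuation ((P.coeff i0 : A) : L) = 1 := by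
    have h1 : (coeffMap (IsLocalRing.residue A) P).coeff i0 ≠ 0 :=
      fun h0 => hP (HahnSeries.coeff_order_eq_zero.mp h0)
    rw [coeffMap_coeff] at h1
    rcases A.valuation_lt_one_or_eq_one (P.coeff i0) with h2 | h2
    · exact absurd ((IsLocalRing.residue_eq_zero_iff _).mpr ((A.valuation_lt_one_iff _).mpr h2)) h1
    · exact h2
  have hlow : ∀ i < i0, P.coeff i ∈ nonunits A := by
    intro i hi
    have h1 : (coeffMap (IsLocalRing.residue A) P).coeff i = 0 :=
      HahnSeries.coeff_eq_zero_of_lt_order hi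
    rw [coeffMap_coeff] at h1
    exact (IsLocalRing.mem_maximalIdeal _).mp ((IsLocalRing.residue_eq_zero_iff _).mp h1)
  have hPne : P ≠ 0 := fun h0 => hP (by rw [h0, map_zero])
  -- a bound for the coefficients below `i0`
  obtain ⟨r, hr, hrbound⟩ : ∃ r : A, r ∈ nonunits A ∧
      ∀ i < i0, A.valuation ((P.coeff i : A) : L) ≤ A.valuation (r : L) := by
    by_cases hne : (Finset.Ico P.order i0).Nonempty
    · obtain ⟨i1, hi1, hmax⟩ := Finset.exists_max_image (Finset.Ico P.order i0)
        (fun i => A.valuation ((P.coeff i : A) : L)) hne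
      refine ⟨P.coeff i1, hlow i1 (Finset.mem_Ico.mp hi1).2, fun i hi => ?_⟩
      by_cases hio : P.order ≤ i
      · exact hmax i (Finset.mem_Ico.mpr ⟨hio, hi⟩)
      · rw [HahnSeries.coeff_eq_zero_of_lt_order (not_le.mp hio)]
        simp
    · refine ⟨0, by simp, fun i hi => ?_⟩
      have hio : i < P.order := by
        by_contra hio
        exact hne ⟨i, Finset.mem_Ico.mpr ⟨not_lt.mp hio, hi⟩⟩
      rw [HahnSeries.coeff_eq_zero_of_lt_order hio]
  -- a good index
  obtain ⟨j1, hj1a, hj1⟩ : ∃ j1, A.valuation (a : L) < A.valuation ((y.coeff j1 : A) : L) ∧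
      ∀ j, A.valuation (r : L) * A.valuation ((y.coeff j : A) : L)
        < A.valuation ((y.coeff j1 : A) : L) := by
    by_contra hno
    push Not at hno
    have hS : ∀ n : ℕ, ∃ j, A.valuation (a : L) < A.valuation ((y.coeff j : A) : L) ∧
        A.valuation ((y.coeff j0 : A) : L)
          ≤ A.valuation (r : L) ^ n * A.valuation ((y.coeff j : A) : L) := by
      intro n
      induction n with
      | zero => exact ⟨j0, hj0', by simp⟩
      | succ n ih =>
        obtain ⟨j, h1, h2⟩ := ih
        obtain ⟨j', h3⟩ := hno j h1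
        refine ⟨j', ?_, ?_⟩
        · calc A.valuation (a : L) < A.valuation ((y.coeff j : A) : L) := h1
            _ ≤ A.valuation (r : L) * A.valuation ((y.coeff j' : A) : L) := h3
            _ ≤ 1 * A.valuation ((y.coeff j' : A) : L) :=
                mul_le_mul_left (A.valuation_le_one r) _
            _ = A.valuation ((y.coeff j' : A) : L) := one_mul _
        · calc A.valuation ((y.coeff j0 : A) : L)
              ≤ A.valuation (r : L) ^ n * A.valuation ((y.coeff j : A) : L) := h2
            _ ≤ A.valuation (r : L) ^ n *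
                (A.valuation (r : L) * A.valuation ((y.coeff j' : A) : L)) :=
                mul_le_mul_right h3 _
            _ = A.valuation (r : L) ^ (n + 1) * A.valuation ((y.coeff j' : A) : L) := by
                rw [pow_succ, mul_assoc]
    obtain ⟨n, hn⟩ := harch r hr a ha
    have hrn : A.valuation (r : L) ^ n ≤ A.valuation (a : L) := by
      have := valuation_le_of_dvd A _ _ hn
      simpa using this
    obtain ⟨j, h1, h2⟩ := hS n
    have h3 : A.valuation (r : L) ^ n * A.valuation ((y.coeff j : A) : L)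
        ≤ A.valuation (r : L) ^ n * 1 := mul_le_mul_right (A.valuation_le_one _) _
    rw [mul_one] at h3
    exact absurd (lt_of_le_of_lt (h2.trans (h3.trans hrn)) hj0') (lt_irrefl _)
  -- the first index up to `j1` where the maximum is attained
  have hy1 : y.coeff j1 ≠ 0 := by
    intro h0
    rw [h0] at hj1a
    simp at hj1a
  have hord : y.order ≤ j1 := HahnSeries.order_le_of_coeff_ne_zero hy1
  obtain ⟨jm, hjm, hmax⟩ := Finset.exists_max_image (Finset.Icc y.order j1)
    (fun j => A.valuation ((y.coeff j : A) : L)) ⟨j1, Finset.mem_Icc.mpr ⟨hord, le_rfl⟩⟩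
  set T : Finset ℤ := (Finset.Icc y.order j1).filter
    (fun j => A.valuation ((y.coeff j : A) : L) = A.valuation ((y.coeff jm : A) : L)) with hT
  have hTne : T.Nonempty := ⟨jm, Finset.mem_filter.mpr ⟨hjm, rfl⟩⟩
  set js : ℤ := T.min' hTne with hjs
  have hjsT : js ∈ T := Finset.min'_mem T hTne
  have hjsI : js ∈ Finset.Icc y.order j1 := (Finset.mem_filter.mp hjsT).1
  have hjsM : A.valuation ((y.coeff js : A) : L) = A.valuation ((y.coeff jm : A) : L) :=
    (Finset.mem_filter.mp hjsT).2
  have hM1 : A.valuation ((y.coeff j1 : A) : L) ≤ A.valuation ((y.coeff js : A) : L) := by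
    rw [hjsM]
    exact hmax j1 (Finset.mem_Icc.mpr ⟨hord, le_rfl⟩)
  have hMpos : A.valuation ((y.coeff js : A) : L) ≠ 0 :=
    ne_of_gt (lt_of_le_of_lt zero_le (lt_of_lt_of_le hj1a hM1))
  have hbefore : ∀ j < js, A.valuation ((y.coeff j : A) : L)
      < A.valuation ((y.coeff js : A) : L) := by
    intro j hj
    by_cases hjo : y.order ≤ j
    · have hjI : j ∈ Finset.Icc y.order j1 :=
        Finset.mem_Icc.mpr ⟨hjo, hj.le.trans (Finset.mem_Icc.mp hjsI).2⟩
      rcases lt_or_eq_of_le (hmax j hjI) with h1 | h1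
      · rw [hjsM]; exact h1
      · exfalso
        have hjT : j ∈ T := Finset.mem_filter.mpr ⟨hjI, h1⟩
        exact absurd (Finset.min'_le T j hjT) (not_le.mpr hj)
    · rw [HahnSeries.coeff_eq_zero_of_lt_order (not_le.mp hjo)]
      simpa using zero_lt_iff.mpr hMpos
  -- the coefficient of `P * y` at `i0 + js`
  have hcoeff := congrArg (fun z : LaurentSeries A => z.coeff (i0 + js)) h
  simp only [HahnSeries.coeff_mul, HahnSeries.C_mul_eq_smul, HahnSeries.coeff_smul,
    smul_eq_mul] at hcoeff
  have hPi0 : P.coeff i0 ≠ 0 := by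
    intro h0
    rw [h0] at hunit
    simp at hunit
  have hyjs : y.coeff js ≠ 0 := by
    intro h0
    rw [h0] at hMpos
    simp at hMpos
  have hmem : (i0, js) ∈ Finset.antidiagonal P.isPWO_support y.isPWO_support (i0 + js) :=
    Finset.mem_antidiagonal.mpr ⟨hPi0, hyjs, rfl⟩
  rw [← Finset.add_sum_erase _ _ hmem] at hcoeff
  have hrest : A.valuation (((∑ x ∈ (Finset.antidiagonal P.isPWO_support y.isPWO_support
      (i0 + js)).erase (i0, js), P.coeff x.1 * y.coeff x.2 : A)) : L)
      < A.valuation ((y.coeff js : A) : L) := by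
    have hcast : (((∑ x ∈ (Finset.antidiagonal P.isPWO_support y.isPWO_support
        (i0 + js)).erase (i0, js), P.coeff x.1 * y.coeff x.2 : A)) : L)
        = ∑ x ∈ (Finset.antidiagonal P.isPWO_support y.isPWO_support
        (i0 + js)).erase (i0, js), ((P.coeff x.1 : A) : L) * ((y.coeff x.2 : A) : L) := by
      push_cast
      rfl
    rw [hcast]
    refine Valuation.map_sum_lt _ hMpos fun x hx => ?_
    obtain ⟨hxne, hxmem⟩ := Finset.mem_erase.mp hx
    obtain ⟨-, -, hsum⟩ := Finset.mem_antidiagonal.mp hxmem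
    rw [map_mul]
    have hx1 : x.1 ≠ i0 := by
      intro h1
      apply hxne
      have h2 : x.2 = js := by omega
      exact Prod.ext h1 h2
    rcases lt_or_gt_of_ne hx1 with h1 | h1
    · calc A.valuation ((P.coeff x.1 : A) : L) * A.valuation ((y.coeff x.2 : A) : L)
          ≤ A.valuation (r : L) * A.valuation ((y.coeff x.2 : A) : L) :=
            mul_le_mul_left (hrbound _ h1) _
        _ < A.valuation ((y.coeff j1 : A) : L) := hj1 _
        _ ≤ A.valuation ((y.coeff js : A) : L) := hM1
    · have h2 : x.2 < js := by omega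
      calc A.valuation ((P.coeff x.1 : A) : L) * A.valuation ((y.coeff x.2 : A) : L)
          ≤ 1 * A.valuation ((y.coeff x.2 : A) : L) :=
            mul_le_mul_left (A.valuation_le_one _) _
        _ = A.valuation ((y.coeff x.2 : A) : L) := one_mul _
        _ < A.valuation ((y.coeff js : A) : L) := hbefore _ h2
  have htotal : A.valuation (((a * u.coeff (i0 + js) : A)) : L)
      < A.valuation ((y.coeff js : A) : L) := by
    have h1 : A.valuation (((a * u.coeff (i0 + js) : A)) : L) ≤ A.valuation (a : L) :=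
      valuation_le_of_dvd A _ _ (Dvd.intro _ rfl)
    exact lt_of_le_of_lt h1 (lt_of_lt_of_le hj1a hM1)
  have hmain : ((P.coeff i0 * y.coeff js : A) : L)
      = ((a * u.coeff (i0 + js) : A) : L) - ((∑ x ∈ (Finset.antidiagonal P.isPWO_support
        y.isPWO_support (i0 + js)).erase (i0, js), P.coeff x.1 * y.coeff x.2 : A) : L) := by
    rw [← hcoeff]
    push_cast
    ring
  have hlt := Valuation.map_sub_lt (v := A.valuation) htotal hrest
  rw [← hmain] at hlt
  have heq : A.valuation ((P.coeff i0 * y.coeff js : A) : L)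
      = A.valuation ((y.coeff js : A) : L) := by
    push_cast
    rw [map_mul, hunit, one_mul]
  rw [heq] at hlt
  exact lt_irrefl _ hlt

/-- (G1'), series form. -/
theorem exists_eq_C_mul_of_mul_eq
    (harch : ∀ r : A, r ∈ nonunits A → ∀ a : A, a ≠ 0 → ∃ n : ℕ, a ∣ r ^ n)
    (P y u : LaurentSeries A) (a : A)
    (hP : coeffMap (IsLocalRing.residue A) P ≠ 0) (h : P * y = HahnSeries.C a * u) :
    ∃ y' : LaurentSeries A, y = HahnSeries.C a * y' := by
  by_cases ha : a = 0
  · subst ha
    refine ⟨0, ?_⟩
    rw [map_zero, zero_mul] at h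
    have hPne : P ≠ 0 := fun h0 => hP (by rw [h0, map_zero])
    rcases mul_eq_zero.mp h with h1 | h1
    · exact absurd h1 hPne
    · rw [h1, mul_zero]
  · exact exists_eq_C_mul_of_forall_dvd A a y (dvd_coeff_of_mul_eq A harch P y u a ha hP h)

end Gauss

section Main

variable (A : ValuationSubring Qb) (N : ℕ) [NeZero N]

local notation "kA" => IsLocalRing.ResidueField A
local notation "resA" => IsLocalRing.residue A

omit [NeZero N] in
/-- the monomials over `Qbar` are linearly independent over `Qbar[j]` (polynomial form) -/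
theorem eq_zero_of_sum_evJ_mul_monomials_eq_zero (b : Fin (dedekindPsi N) → LaurentSeries ℤ)
    (hli : LinearIndependent ↥(IntermediateField.adjoin kA {jqModC kA})
        (fun i => coeffMap (Int.castRingHom kA) (b i)))
    (Q : Fin (dedekindPsi N) → Polynomial Qb)
    (h : ∑ i, evJ Qb (Q i) * coeffMap (Int.castRingHom Qb) (b i) = 0) : Q = 0 := by
  classical
  by_contra hQ
  obtain ⟨c, Qt, hc, -, hQt, o₁, n₁, h1⟩ := exists_worst_coeff A Q hQ
  have hrelA : ∑ i, evJ A (Qt i) * coeffMap (Int.castRingHom A) (b i) = 0 := by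
    apply S28.H72.coeffMap_injective A.subtype Subtype.val_injective
    rw [map_sum, map_zero]
    have h2 : ∀ i, coeffMap A.subtype (evJ A (Qt i) * coeffMap (Int.castRingHom A) (b i))
        = HahnSeries.C c⁻¹ * (evJ Qb (Q i) * coeffMap (Int.castRingHom Qb) (b i)) := by
      intro i
      rw [map_mul, coeffMap_evJ, hQt, evJ_C_mul, coeffMap_subtype_int, mul_assoc]
    simp only [h2]
    rw [← Finset.mul_sum, h, mul_zero]
  have hred : ∑ i, evJ kA ((Qt i).map resA) * coeffMap (Int.castRingHom kA) (b i) = 0 := by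
    have h2 := congrArg (coeffMap resA) hrelA
    rw [map_sum, map_zero] at h2
    rw [← h2]
    refine Finset.sum_congr rfl fun i _ => ?_
    rw [map_mul, coeffMap_evJ, coeffMap_res_int]
  have h6 := eq_zero_of_sum_evJ_mul_eq_zero _ hli (fun i => (Qt i).map resA) hred o₁
  have h7 := congrArg (fun Q => Q.coeff n₁) h6
  simp only [Polynomial.coeff_map, h1, map_one, Polynomial.coeff_zero] at h7
  exact one_ne_zero h7

/-- (G2), monomial form: every nonzero element of the function field is
`c * u / B(j)` with `c ∈ Qbar^×`, `u` integral with nonzero reduction, `B ∈ A[X]` with nonzero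
reduction. -/
theorem exists_gauss_decomp_of_monomials (b : Fin (dedekindPsi N) → LaurentSeries ℤ)
    (hb : ∀ i, b i ∈ Submonoid.closure (S28.H72.gensZ N))
    (hli : LinearIndependent ↥(IntermediateField.adjoin kA {jqModC kA})
        (fun i => coeffMap (Int.castRingHom kA) (b i)))
    (x : LaurentSeries Qb) (hx : x ∈ modularFunctionFieldBar N) (hx0 : x ≠ 0) :
    ∃ (c : Qb) (B : Polynomial A) (u : LaurentSeries A), c ≠ 0 ∧ B.map resA ≠ 0 ∧
      coeffMap A.subtype u ∈ modularFunctionFieldBar N ∧ coeffMap resA u ≠ 0 ∧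
      evJ Qb (B.map A.subtype) * x = HahnSeries.C c * coeffMap A.subtype u := by
  classical
  let X : Option (Fin (dedekindPsi N)) → LaurentSeries Qb := fun o =>
    o.elim x (fun i => coeffMap (Int.castRingHom Qb) (b i))
  have hX : ∀ o, X o ∈ modularFunctionFieldBar N := by
    intro o
    cases o with
    | none => exact hx
    | some i => exact coeffMap_int_mem_bar N (hb i)
  obtain ⟨P, hP0, hrel⟩ := exists_polynomial_relation_bar N X hX (by simp)
  rw [Fintype.sum_option] at hrel
  have hrel' : evJ Qb (P none) * x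
      = ∑ i, evJ Qb (-P (some i)) * coeffMap (Int.castRingHom Qb) (b i) := by
    have h3 : evJ Qb (P none) * x = - ∑ i, evJ Qb (P (some i)) * X (some i) :=
      eq_neg_of_add_eq_zero_left hrel
    rw [h3, ← Finset.sum_neg_distrib]
    refine Finset.sum_congr rfl fun i _ => ?_
    rw [evJ_neg, neg_mul]
    rfl
  -- the coefficient of `x` is nonzero
  have hPn : P none ≠ 0 := by
    intro h0
    rw [h0, evJ_zero, zero_mul] at hrel'
    have h4 := eq_zero_of_sum_evJ_mul_monomials_eq_zero A N b hli _ hrel'.symm
    apply hP0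
    funext o
    cases o with
    | none => exact h0
    | some i => simpa using congrFun h4 i
  -- the other coefficients are not all zero
  have hQ : (fun i => -P (some i)) ≠ 0 := by
    intro h0
    have h4 : evJ Qb (P none) * x = 0 := by
      rw [hrel']
      refine Finset.sum_eq_zero fun i _ => ?_
      rw [show -P (some i) = 0 from congrFun h0 i, evJ_zero, zero_mul]
    rcases mul_eq_zero.mp h4 with h5 | h5
    · exact evJ_ne_zero Qb hPn h5
    · exact hx0 h5
  obtain ⟨cB, Bt, hcB, -, hBt, o₁, n₁, h1⟩ :=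
    exists_worst_coeff A (fun _ : Unit => P none) (fun h0 => hPn (congrFun h0 ()))
  obtain ⟨cQ, Qt, hcQ, -, hQt, o₂, n₂, h2⟩ := exists_worst_coeff A _ hQ
  refine ⟨cB⁻¹ * cQ, Bt (), ∑ i, evJ A (Qt i) * coeffMap (Int.castRingHom A) (b i),
    mul_ne_zero (inv_ne_zero hcB) hcQ, ?_, ?_, ?_, ?_⟩
  · intro h0
    have h7 := congrArg (fun Q => Q.coeff n₁) h0
    simp only [Polynomial.coeff_map, h1, map_one, Polynomial.coeff_zero] at h7
    exact one_ne_zero h7
  · rw [map_sum]
    refine sum_mem fun i _ => ?_
    rw [map_mul, coeffMap_evJ, coeffMap_subtype_int]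
    exact mul_mem (evJ_mem_bar N _) (coeffMap_int_mem_bar N (hb i))
  · intro h0
    rw [map_sum] at h0
    have h5 : ∑ i, evJ kA ((Qt i).map resA) * coeffMap (Int.castRingHom kA) (b i) = 0 := by
      rw [← h0]
      refine Finset.sum_congr rfl fun i _ => ?_
      rw [map_mul, coeffMap_evJ, coeffMap_res_int]
    have h6 := eq_zero_of_sum_evJ_mul_eq_zero _ hli (fun i => (Qt i).map resA) h5 o₂
    have h7 := congrArg (fun Q => Q.coeff n₂) h6
    simp only [Polynomial.coeff_map, h2, map_one, Polynomial.coeff_zero] at h7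
    exact one_ne_zero h7
  · have hu : coeffMap A.subtype (∑ i, evJ A (Qt i) * coeffMap (Int.castRingHom A) (b i))
        = HahnSeries.C cQ⁻¹ *
          ∑ i, evJ Qb (-P (some i)) * coeffMap (Int.castRingHom Qb) (b i) := by
      rw [map_sum, Finset.mul_sum]
      refine Finset.sum_congr rfl fun i _ => ?_
      rw [map_mul, coeffMap_evJ, hQt i, evJ_C_mul, coeffMap_subtype_int, mul_assoc]
    rw [hBt (), evJ_C_mul, mul_assoc, hrel', hu, ← mul_assoc, ← map_mul, mul_assoc,
      mul_inv_cancel₀ hcQ, mul_one]

variable (ℓ : ℕ) [Fact ℓ.Prime] [IsAlgClosed (IsLocalRing.ResidueField A)]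
  [CharP (IsLocalRing.ResidueField A) ℓ]

/-- **(G3)** the reduction of an integral element of the function field lies in
`k(j(q^d) : d ∣ N)`: the hypothesis `hyk` of the frozen compatibility is automatic. -/
theorem red_mem_full (hℓN : ¬ ℓ ∣ N) (y : LaurentSeries A)
    (hy : coeffMap A.subtype y ∈ modularFunctionFieldBar N) :
    coeffMap resA y ∈ modularFunctionFieldFullC kA N := by
  obtain ⟨b, hb, hli⟩ := S28.H72.exists_monomials_field kA N (S28.H50.psi_le_char kA ℓ N hℓN)
  exact red_mem_full_of_monomials A N b hb hli y hy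

/-- **(G4), weak form**: an integral element of the function field with zero reduction is
`a * u / B(j)` with `a ∈ m_A`. -/
theorem exists_smul_of_red_eq_zero (hℓN : ¬ ℓ ∣ N) (y : LaurentSeries A)
    (hy : coeffMap A.subtype y ∈ modularFunctionFieldBar N) (hred : coeffMap resA y = 0) :
    ∃ (a : A) (B : Polynomial A) (u : LaurentSeries A), resA a = 0 ∧ B.map resA ≠ 0 ∧
      coeffMap A.subtype u ∈ modularFunctionFieldBar N ∧
      (y ≠ 0 → coeffMap resA u ≠ 0) ∧ evJ A B * y = HahnSeries.C a * u := by
  obtain ⟨b, hb, hli⟩ := S28.H72.exists_monomials_field kA N (S28.H50.psi_le_char kA ℓ N hℓN)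
  exact exists_smul_of_red_eq_zero_of_monomials A N b hb hli y hy hred

/-- **(G4)**: an integral element of the function field with zero reduction is `a * y'` with
`a ∈ m_A` and `y'` integral (again in the function field). -/
theorem exists_eq_C_mul_of_red_eq_zero
    (harch : ∀ r : A, r ∈ nonunits A → ∀ a : A, a ≠ 0 → ∃ n : ℕ, a ∣ r ^ n)
    (hℓN : ¬ ℓ ∣ N) (y : LaurentSeries A)
    (hy : coeffMap A.subtype y ∈ modularFunctionFieldBar N) (hred : coeffMap resA y = 0) :
    ∃ (a : A) (y' : LaurentSeries A), resA a = 0 ∧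
      coeffMap A.subtype y' ∈ modularFunctionFieldBar N ∧ y = HahnSeries.C a * y' := by
  obtain ⟨a, B, u, ha, hB, -, -, hrel⟩ := exists_smul_of_red_eq_zero A N ℓ hℓN y hy hred
  have hP : coeffMap resA (evJ A B) ≠ 0 := by
    rw [coeffMap_evJ]
    exact evJ_ne_zero kA hB
  obtain ⟨y', hy'⟩ := exists_eq_C_mul_of_mul_eq A harch (evJ A B) y u a hP hrel
  by_cases ha0 : a = 0
  · refine ⟨0, 0, map_zero _, by rw [map_zero]; exact zero_mem _, ?_⟩
    rw [hy', ha0, map_zero, zero_mul, mul_zero]
  · refine ⟨a, y', ha, ?_, hy'⟩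
    have h1 : coeffMap A.subtype y = HahnSeries.C (a : Qb) * coeffMap A.subtype y' := by
      rw [hy', map_mul, coeffMap_C]
      rfl
    have haQ : (a : Qb) ≠ 0 := fun h0 => ha0 (Subtype.ext h0)
    have h2 : coeffMap A.subtype y' = HahnSeries.C ((a : Qb)⁻¹) * coeffMap A.subtype y := by
      rw [h1, ← mul_assoc, ← map_mul, inv_mul_cancel₀ haQ, map_one, one_mul]
    rw [h2]
    refine mul_mem ?_ hy
    have h3 : (HahnSeries.C ((a : Qb)⁻¹) : LaurentSeries Qb)
        = algebraMap Qb (LaurentSeries Qb) ((a : Qb)⁻¹) := by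
      rw [algebraMap_laurentSeries_eq_single]
      rfl
    rw [h3]
    exact (modularFunctionFieldBar N).algebraMap_mem _

/-- **(G2)**: every nonzero element of the function field is `c * u / B(j)` with `c ≠ 0` a
constant, `u` integral with nonzero reduction, `B ∈ A[X]` with nonzero reduction. -/
theorem exists_gauss_decomp (hℓN : ¬ ℓ ∣ N) (x : LaurentSeries Qb)
    (hx : x ∈ modularFunctionFieldBar N) (hx0 : x ≠ 0) :
    ∃ (c : Qb) (B : Polynomial A) (u : LaurentSeries A), c ≠ 0 ∧ B.map resA ≠ 0 ∧
      coeffMap A.subtype u ∈ modularFunctionFieldBar N ∧ coeffMap resA u ≠ 0 ∧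
      evJ Qb (B.map A.subtype) * x = HahnSeries.C c * coeffMap A.subtype u := by
  obtain ⟨b, hb, hli⟩ := S28.H72.exists_monomials_field kA N (S28.H50.psi_le_char kA ℓ N hℓN)
  exact exists_gauss_decomp_of_monomials A N b hb hli x hx hx0

end Main

end Fermat.Agent.S18.H72
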