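import Mathlib
import Fermat.Agent.S24.JqBridge_helper74

/-!
# S18, node HAUPT (second seat, helper25): truncations modulo `X ^ 6` in `ℤ⟦X⟧`

`T6` is the quotient map `ℤ⟦X⟧ → ℤ⟦X⟧ / (X ^ 6)`; we record its values at the Prelude's
`eisenstein4`, at expansions `f(X ^ 2)`, `f(X ^ 3)` and at `dedekindEtaUnit = etaProd ^ 24`.
-/

set_option autoImplicit false

namespace Fermat.Agent.S18.H25

open PowerSeries

noncomputable section

/-- Reduction modulo `X ^ 6`. -/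
def T6 : PowerSeries ℤ →+* PowerSeries ℤ ⧸ Ideal.span {(X : PowerSeries ℤ) ^ 6} :=
  Ideal.Quotient.mk _

theorem T6_eq_iff (a b : PowerSeries ℤ) : T6 a = T6 b ↔ ∀ n < 6, coeff n a = coeff n b := by
  rw [T6, Ideal.Quotient.eq, Ideal.mem_span_singleton, X_pow_dvd_iff]
  simp [sub_eq_zero]

theorem T6_X6_mul (h : PowerSeries ℤ) : T6 (X ^ 6 * h) = 0 :=
  Ideal.Quotient.eq_zero_iff_mem.mpr (Ideal.mem_span_singleton.mpr (dvd_mul_right _ _))

theorem T6_add_X6_mul (a h : PowerSeries ℤ) : T6 (a + X ^ 6 * h) = T6 a := by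
  rw [map_add, T6_X6_mul, add_zero]

theorem coeff_eq_zero_of_T6 {a : PowerSeries ℤ} (h : T6 a = 0) {n : ℕ} (hn : n < 6) :
    coeff n a = 0 := by
  have h' : T6 a = T6 0 := by rw [h, map_zero]
  simpa using (T6_eq_iff a 0).mp h' n hn

theorem T6_normal (f : PowerSeries ℤ) :
    T6 f = T6 (∑ i ∈ Finset.range 6, C (coeff i f) * X ^ i) := by
  rw [T6_eq_iff]
  intro n hn
  rw [map_sum]
  simp only [coeff_C_mul_X_pow]
  rw [Finset.sum_ite_eq]
  simp [hn]

/-- `T6` of `f(X ^ 3)`. -/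
theorem T6_expand3 (f : PowerSeries ℤ) :
    T6 (f.expand 3 (by norm_num)) = T6 (C (coeff 0 f) + C (coeff 1 f) * X ^ 3) := by
  rw [T6_eq_iff]
  intro n hn
  rw [coeff_expand, map_add, coeff_C_mul_X_pow, coeff_C]
  interval_cases n <;> simp

/-- `T6` of `f(X ^ 2)`. -/
theorem T6_expand2 (f : PowerSeries ℤ) :
    T6 (f.expand 2 (by norm_num)) =
      T6 (C (coeff 0 f) + C (coeff 1 f) * X ^ 2 + C (coeff 2 f) * X ^ 4) := by
  rw [T6_eq_iff]
  intro n hn
  rw [coeff_expand, map_add, map_add, coeff_C_mul_X_pow, coeff_C_mul_X_pow, coeff_C]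
  interval_cases n <;> simp

theorem coeff_eisenstein4_zero : coeff 0 ModularCurve.eisenstein4 = 1 := by
  simp [ModularCurve.eisenstein4]

theorem coeff_eisenstein4_one : coeff 1 ModularCurve.eisenstein4 = 240 := by
  simp [ModularCurve.eisenstein4]

theorem coeff_eisenstein4_two : coeff 2 ModularCurve.eisenstein4 = 2160 := by
  simp only [ModularCurve.eisenstein4, coeff_mk]
  decide

theorem coeff_eisenstein4_three : coeff 3 ModularCurve.eisenstein4 = 6720 := by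
  simp only [ModularCurve.eisenstein4, coeff_mk]
  decide

theorem coeff_eisenstein4_four : coeff 4 ModularCurve.eisenstein4 = 17520 := by
  simp only [ModularCurve.eisenstein4, coeff_mk]
  decide

theorem coeff_eisenstein4_five : coeff 5 ModularCurve.eisenstein4 = 30240 := by
  simp only [ModularCurve.eisenstein4, coeff_mk]
  decide

/-- `E₄ ≡ 1 + 240 X + 2160 X² + 6720 X³ + 17520 X⁴ + 30240 X⁵ (mod X⁶)`. -/
theorem T6_eisenstein4 :
    T6 ModularCurve.eisenstein4 =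
      T6 (1 + 240 * X + 2160 * X ^ 2 + 6720 * X ^ 3 + 17520 * X ^ 4 + 30240 * X ^ 5) := by
  rw [T6_normal]
  congr 1
  simp only [Finset.sum_range_succ, Finset.sum_range_zero, zero_add, coeff_eisenstein4_zero,
    coeff_eisenstein4_one, coeff_eisenstein4_two, coeff_eisenstein4_three,
    coeff_eisenstein4_four, coeff_eisenstein4_five, pow_zero, pow_one, mul_one, map_one,
    map_ofNat]

theorem T6_eisenstein4_expand3 :
    T6 (ModularCurve.eisenstein4.expand 3 (by norm_num)) = T6 (1 + 240 * X ^ 3) := by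
  rw [T6_expand3, coeff_eisenstein4_zero, coeff_eisenstein4_one, map_one, map_ofNat]

theorem T6_eisenstein4_expand2 :
    T6 (ModularCurve.eisenstein4.expand 2 (by norm_num)) =
      T6 (1 + 240 * X ^ 2 + 2160 * X ^ 4) := by
  rw [T6_expand2, coeff_eisenstein4_zero, coeff_eisenstein4_one, coeff_eisenstein4_two, map_one,
    map_ofNat, map_ofNat]

/-! ### The eta product -/

open Fermat.Agent.S24.H74 (pP)

theorem coeff_pP_stable (n N M : ℕ) (hn : n ≤ N) (hM : N ≤ M) :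
    (pP M).coeff n = (pP N).coeff n := by
  induction M, hM using Nat.le_induction with
  | base => rfl
  | succ M hM ih =>
    rw [Fermat.Agent.S24.H74.coeff_pP_succ, if_neg (by omega), sub_zero, ih]

/-- Coefficients of `etaProd` in degree `≤ N` are those of the `N`-th partial product. -/
theorem coeff_etaProd_eq (n N : ℕ) (hn : n ≤ N) :
    coeff n ModularCurve.etaProd =
      coeff n (∏ i ∈ Finset.range N, (1 - (X : PowerSeries ℤ) ^ (i + 1))) := by
  obtain ⟨a, ha⟩ := Filter.eventually_atTop.mp (Fermat.Agent.S24.H74.eventually_coeff_pP n)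
  have h1 := ha (max a N) (le_max_left _ _)
  rw [coeff_pP_stable n N (max a N) hn (le_max_right _ _)] at h1
  rw [← h1, ← Fermat.Agent.S24.H74.coe_pP, Polynomial.coeff_coe]

theorem T6_etaProd : T6 ModularCurve.etaProd = T6 (1 - X - X ^ 2 + X ^ 5) := by
  have h1 : T6 ModularCurve.etaProd =
      T6 (∏ i ∈ Finset.range 5, (1 - (X : PowerSeries ℤ) ^ (i + 1))) := by
    rw [T6_eq_iff]
    intro n hn
    exact coeff_etaProd_eq n 5 (by omega)
  rw [h1]
  have h2 : (∏ i ∈ Finset.range 5, (1 - (X : PowerSeries ℤ) ^ (i + 1))) =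
      (1 - X - X ^ 2 + X ^ 5) + X ^ 6 * (1 + X - X ^ 2 - X ^ 3 - X ^ 4 + X ^ 7 + X ^ 8 - X ^ 9) := by
    simp only [Finset.prod_range_succ, Finset.prod_range_zero]
    ring
  rw [h2, T6_add_X6_mul]

/-- `∏ (1 - Xⁿ)^24 ≡ 1 - 24 X + 252 X² - 1472 X³ + 4830 X⁴ - 6048 X⁵ (mod X⁶)`. -/
theorem T6_dedekindEtaUnit :
    T6 ModularCurve.dedekindEtaUnit =
      T6 (1 - 24 * X + 252 * X ^ 2 - 1472 * X ^ 3 + 4830 * X ^ 4 - 6048 * X ^ 5) := by
  have e2 : T6 ModularCurve.etaProd ^ 2 =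
      T6 (1 - 2 * X - X ^ 2 + 2 * X ^ 3 + X ^ 4 + 2 * X ^ 5) := by
    rw [T6_etaProd, ← map_pow,
      show ((1 - X - X ^ 2 + X ^ 5 : PowerSeries ℤ)) ^ 2 =
        (1 - 2 * X - X ^ 2 + 2 * X ^ 3 + X ^ 4 + 2 * X ^ 5) + X ^ 6 * (-2 - 2 * X + X ^ 4) by ring,
      T6_add_X6_mul]
  have e3 : T6 ModularCurve.etaProd ^ 3 = T6 (1 - 3 * X + 5 * X ^ 3) := by
    have h3 : T6 ModularCurve.etaProd ^ 3 = T6 ModularCurve.etaProd ^ 2 * T6 ModularCurve.etaProd := by
      ring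
    rw [h3, e2, T6_etaProd, ← map_mul,
      show ((1 - 2 * X - X ^ 2 + 2 * X ^ 3 + X ^ 4 + 2 * X ^ 5 : PowerSeries ℤ)) *
          (1 - X - X ^ 2 + X ^ 5) =
        (1 - 3 * X + 5 * X ^ 3) + X ^ 6 * (-5 - 3 * X + 2 * X ^ 2 + X ^ 3 + 2 * X ^ 4) by ring,
      T6_add_X6_mul]
  have e6 : T6 ModularCurve.etaProd ^ 6 =
      T6 (1 - 6 * X + 9 * X ^ 2 + 10 * X ^ 3 - 30 * X ^ 4) := by
    have h6 : T6 ModularCurve.etaProd ^ 6 = (T6 ModularCurve.etaProd ^ 3) ^ 2 := by ring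
    rw [h6, e3, ← map_pow,
      show ((1 - 3 * X + 5 * X ^ 3 : PowerSeries ℤ)) ^ 2 =
        (1 - 6 * X + 9 * X ^ 2 + 10 * X ^ 3 - 30 * X ^ 4) + X ^ 6 * 25 by ring,
      T6_add_X6_mul]
  have e12 : T6 ModularCurve.etaProd ^ 12 =
      T6 (1 - 12 * X + 54 * X ^ 2 - 88 * X ^ 3 - 99 * X ^ 4 + 540 * X ^ 5) := by
    have h12 : T6 ModularCurve.etaProd ^ 12 = (T6 ModularCurve.etaProd ^ 6) ^ 2 := by ring
    rw [h12, e6, ← map_pow,
      show ((1 - 6 * X + 9 * X ^ 2 + 10 * X ^ 3 - 30 * X ^ 4 : PowerSeries ℤ)) ^ 2 =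
        (1 - 12 * X + 54 * X ^ 2 - 88 * X ^ 3 - 99 * X ^ 4 + 540 * X ^ 5) +
          X ^ 6 * (-440 - 600 * X + 900 * X ^ 2) by ring,
      T6_add_X6_mul]
  have h24 : T6 ModularCurve.etaProd ^ 24 = (T6 ModularCurve.etaProd ^ 12) ^ 2 := by ring
  rw [ModularCurve.dedekindEtaUnit, map_pow, h24, e12, ← map_pow,
    show ((1 - 12 * X + 54 * X ^ 2 - 88 * X ^ 3 - 99 * X ^ 4 + 540 * X ^ 5 : PowerSeries ℤ)) ^ 2 =
      (1 - 24 * X + 252 * X ^ 2 - 1472 * X ^ 3 + 4830 * X ^ 4 - 6048 * X ^ 5) +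
        X ^ 6 * (-15908 + 75744 * X - 85239 * X ^ 2 - 106920 * X ^ 3 + 291600 * X ^ 4) by ring,
    T6_add_X6_mul]

/-- Expansion preserves congruences modulo `X ^ 6`. -/
theorem T6_expand_congr (p : ℕ) (hp : p ≠ 0) {f g : PowerSeries ℤ} (h : T6 f = T6 g) :
    T6 (f.expand p hp) = T6 (g.expand p hp) := by
  rw [T6_eq_iff] at h ⊢
  intro n hn
  rw [coeff_expand, coeff_expand]
  split_ifs with hd
  · exact h _ (lt_of_le_of_lt (Nat.div_le_self n p) hn)
  · rfl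

/-- `Δ(X³) ≡ X³ (mod X⁶)`. -/
theorem T6_disc_expand3 :
    T6 ((X * ModularCurve.dedekindEtaUnit).expand 3 (by norm_num)) = T6 (X ^ 3) := by
  rw [T6_expand3, coeff_zero_X_mul, coeff_succ_X_mul, coeff_zero_eq_constantCoeff_apply,
    ModularCurve.constantCoeff_dedekindEtaUnit, map_zero, map_one, zero_add, one_mul]

/-- `Δ(X²) ≡ X² (1 - 24 X² + …) (mod X⁶)`. -/
theorem T6_disc_expand2 :
    T6 ((X * ModularCurve.dedekindEtaUnit).expand 2 (by norm_num)) =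
      T6 (X ^ 2 * (1 - 24 * X ^ 2 + 252 * (X ^ 2) ^ 2 - 1472 * (X ^ 2) ^ 3 + 4830 * (X ^ 2) ^ 4 -
        6048 * (X ^ 2) ^ 5)) := by
  have h : T6 (X * ModularCurve.dedekindEtaUnit) =
      T6 (X * (1 - 24 * X + 252 * X ^ 2 - 1472 * X ^ 3 + 4830 * X ^ 4 - 6048 * X ^ 5)) := by
    rw [map_mul, T6_dedekindEtaUnit, ← map_mul]
  rw [T6_expand_congr 2 (by norm_num) h]
  congr 1
  simp only [map_mul, map_sub, map_add, map_pow, expand_X, map_one, map_ofNat]

end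

end Fermat.Agent.S18.H25
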