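import Fermat.Agent.S18.HauptQE_helper25
import Fermat.Agent.S18.HauptTrunc_helper25

/-!
# S18, node HAUPT (second seat, helper25): the level `2` identities

With `P = eisenstein4`, `Q = P(X²)`, `D = X * dedekindEtaUnit` (`= Δ`) in `ℤ⟦X⟧`:

* `haupt2_a : (P - Q) * (16 Q - P)² = 54000 D`
* `haupt2_b : (P - Q)² * (16 Q - P) = 864000 D(X²)`

(Sturm bound on `Γ₀(2)`, weight `12`: coefficients `0..3`; we check `0..5`.)
-/

set_option autoImplicit false

namespace Fermat.Agent.S18.H25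

open UpperHalfPlane ModularForm CongruenceSubgroup EisensteinSeries PowerSeries
open scoped MatrixGroups ModularForm Manifold Real
open Fermat.Agent.S16.H26 (mulH)

noncomputable section

theorem two_ne_zero'' : (2 : ℕ) ≠ 0 := by norm_num

theorem index_Gamma0_two : (Gamma0 2).index = 3 := by
  rw [Fermat.Agent.S24.H35.index_Gamma0 2 (by norm_num)]
  have h := Fermat.Agent.S24.H35.dedekindPsi_prime_mul_of_not_dvd Nat.prime_two one_ne_zero
    (by norm_num : ¬ 2 ∣ 1)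
  rw [mul_one] at h
  rw [h, ModularCurve.dedekindPsi_one]

theorem sturm_two {F : ℍ → ℂ} {φ : PowerSeries ℤ} (h : QE 2 12 F φ) (hT : T6 φ = 0) : φ = 0 := by
  refine h.eq_zero (fun n hn => coeff_eq_zero_of_T6 hT ?_)
  rw [index_Gamma0_two] at hn
  have : ((((12 : ℕ) : ℤ) * ((3 : ℕ) : ℤ)).toNat / 12) = 3 := by decide
  omega

/-- **(Z2a)** `(P - Q)(16 Q - P)² = 54000 Δ` in `ℤ⟦X⟧`, `Q = P(X²)`. -/
theorem haupt2_a :
    (ModularCurve.eisenstein4 - ModularCurve.eisenstein4.expand 2 two_ne_zero'') *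
        (16 * ModularCurve.eisenstein4.expand 2 two_ne_zero'' - ModularCurve.eisenstein4) ^ 2 =
      54000 * (X * ModularCurve.dedekindEtaUnit) := by
  have hP := qe_E4 2
  have hQ := qe_E4_scale 2 Nat.prime_two
  have hD := qe_disc 2
  have hW := ((hP.sub hQ).mul (((hQ.smul 16).sub hP).pow 2)).sub (hD.smul 54000)
  have hW' := sturm_two hW ?_
  · rw [sub_eq_zero] at hW'
    simpa using hW'
  · simp only [map_sub, map_mul, map_pow, map_add, T6_eisenstein4,
      T6_eisenstein4_expand2, T6_dedekindEtaUnit, map_one, map_ofNat, Int.cast_ofNat]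
    have key : (((1 + 240 * X + 2160 * X ^ 2 + 6720 * X ^ 3 + 17520 * X ^ 4 + 30240 * X ^ 5) - (1 + 240 * X ^ 2 + 2160 * X ^ 4)) * (16 * (1 + 240 * X ^ 2 + 2160 * X ^ 4) - (1 + 240 * X + 2160 * X ^ 2 + 6720 * X ^ 3 + 17520 * X ^ 4 + 30240 * X ^ 5)) ^ 2 - 54000 * (X * (1 - 24 * X + 252 * X ^ 2 - 1472 * X ^ 3 + 4830 * X ^ 4 - 6048 * X ^ 5)) : PowerSeries ℤ) =
        X ^ 6 * (-12096000 - 874368000 * X + 2626560000 * X ^ 2 + 30153600000 * X ^ 3 - 292854528000 * X ^ 4 + 1380685824000 * X ^ 5 - 4465152000000 * X ^ 6 + 11386303488000 * X ^ 7 - 17118646272000 * X ^ 8 + 27653197824000 * X ^ 9) := by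
      ring
    have key2 := congrArg T6 key
    rw [T6_X6_mul] at key2
    simpa only [map_sub, map_mul, map_pow, map_add, map_intCast, map_one, map_ofNat,
      Int.cast_ofNat] using key2

/-- **(Z2b)** `(P - Q)² (16 Q - P) = 864000 Δ(X²)` in `ℤ⟦X⟧`, `Q = P(X²)`. -/
theorem haupt2_b :
    (ModularCurve.eisenstein4 - ModularCurve.eisenstein4.expand 2 two_ne_zero'') ^ 2 *
        (16 * ModularCurve.eisenstein4.expand 2 two_ne_zero'' - ModularCurve.eisenstein4) =
      864000 * (X * ModularCurve.dedekindEtaUnit).expand 2 two_ne_zero'' := by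
  have hP := qe_E4 2
  have hQ := qe_E4_scale 2 Nat.prime_two
  have hD := qe_disc_scale 2 Nat.prime_two
  have hW := (((hP.sub hQ).pow 2).mul ((hQ.smul 16).sub hP)).sub (hD.smul 864000)
  have hW' := sturm_two hW ?_
  · rw [sub_eq_zero] at hW'
    simpa using hW'
  · have hT := T6_disc_expand2
    generalize (X * ModularCurve.dedekindEtaUnit).expand 2 two_ne_zero'' = D3 at hT ⊢
    simp only [map_sub, map_mul, map_pow, map_add, T6_eisenstein4,
      T6_eisenstein4_expand2, hT, map_one, map_ofNat, Int.cast_ofNat]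
    have key : (((1 + 240 * X + 2160 * X ^ 2 + 6720 * X ^ 3 + 17520 * X ^ 4 + 30240 * X ^ 5) - (1 + 240 * X ^ 2 + 2160 * X ^ 4)) ^ 2 * (16 * (1 + 240 * X ^ 2 + 2160 * X ^ 4) - (1 + 240 * X + 2160 * X ^ 2 + 6720 * X ^ 3 + 17520 * X ^ 4 + 30240 * X ^ 5)) - 864000 * (X ^ 2 * (1 - 24 * X ^ 2 + 252 * (X ^ 2) ^ 2 - 1472 * (X ^ 2) ^ 3 + 4830 * (X ^ 2) ^ 4 - 6048 * (X ^ 2) ^ 5)) : PowerSeries ℤ) =
        X ^ 6 * (-387072000 * X - 207360000 * X ^ 2 - 39370752000 * X ^ 3 - 283248576000 * X ^ 4 - 1067157504000 * X ^ 5 - 3509664768000 * X ^ 6 - 9740279808000 * X ^ 7 - 12509779968000 * X ^ 8 - 27653197824000 * X ^ 9) := by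
      ring
    have key2 := congrArg T6 key
    rw [T6_X6_mul] at key2
    simpa only [map_sub, map_mul, map_pow, map_add, map_intCast, map_one, map_ofNat,
      Int.cast_ofNat] using key2

/-- `Δ(X²) = X² · η²⁴(X²)`. -/
theorem disc_expand2 :
    (X * ModularCurve.dedekindEtaUnit).expand 2 two_ne_zero'' =
      X ^ 2 * ModularCurve.dedekindEtaUnit.expand 2 two_ne_zero'' := by
  rw [map_mul, expand_X]

end

end Fermat.Agent.S18.H25
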