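import Fermat.Agent.S18.HauptQE_helper25
import Fermat.Agent.S18.HauptTrunc_helper25

/-!
# S18, node HAUPT (second seat, helper25): the level `3` identities

With `P = eisenstein4`, `Q = P(X³)`, `D = X * dedekindEtaUnit` (`= Δ`) in `ℤ⟦X⟧`:

* `haupt3_a : (P - Q) * (81 Q - P)³ = 12288000 (P + 9 Q) D`
* `haupt3_b : (P - Q)³ * (81 Q - P) = 110592000 (P + 9 Q) D(X³)`

(Sturm bound on `Γ₀(3)`, weight `16`: coefficients `0..5`.)
-/

set_option autoImplicit false

namespace Fermat.Agent.S18.H25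

open UpperHalfPlane ModularForm CongruenceSubgroup EisensteinSeries PowerSeries
open scoped MatrixGroups ModularForm Manifold Real
open Fermat.Agent.S16.H26 (mulH)

noncomputable section

theorem three_ne_zero' : (3 : ℕ) ≠ 0 := by norm_num

theorem index_Gamma0_three : (Gamma0 3).index = 4 := by
  rw [Fermat.Agent.S24.H35.index_Gamma0 3 (by norm_num)]
  have h := Fermat.Agent.S24.H35.dedekindPsi_prime_mul_of_not_dvd Nat.prime_three one_ne_zero
    (by norm_num : ¬ 3 ∣ 1)
  rw [mul_one] at h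
  rw [h, ModularCurve.dedekindPsi_one]

theorem sturm_three {F : ℍ → ℂ} {φ : PowerSeries ℤ} (h : QE 3 16 F φ) (hT : T6 φ = 0) : φ = 0 := by
  refine h.eq_zero (fun n hn => coeff_eq_zero_of_T6 hT ?_)
  rw [index_Gamma0_three] at hn
  have : ((((16 : ℕ) : ℤ) * ((4 : ℕ) : ℤ)).toNat / 12) = 5 := by decide
  omega

/-- **(Z3a)** `(P - Q)(81 Q - P)³ = 12288000 (P + 9 Q) Δ` in `ℤ⟦X⟧`, `Q = P(X³)`. -/
theorem haupt3_a :
    (ModularCurve.eisenstein4 - ModularCurve.eisenstein4.expand 3 three_ne_zero') *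
        (81 * ModularCurve.eisenstein4.expand 3 three_ne_zero' - ModularCurve.eisenstein4) ^ 3 =
      12288000 * ((ModularCurve.eisenstein4 + 9 * ModularCurve.eisenstein4.expand 3 three_ne_zero') *
        (X * ModularCurve.dedekindEtaUnit)) := by
  have hP := qe_E4 3
  have hQ := qe_E4_scale 3 Nat.prime_three
  have hD := qe_disc 3
  have hW := ((hP.sub hQ).mul (((hQ.smul 81).sub hP).pow 3)).sub
    (((hP.add (hQ.smul 9)).mul hD).smul 12288000)
  have hW' := sturm_three hW ?_
  · rw [sub_eq_zero] at hW'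
    simpa using hW'
  · simp only [map_sub, map_mul, map_pow, map_add, T6_eisenstein4,
      T6_eisenstein4_expand3, T6_dedekindEtaUnit, map_one, map_ofNat, Int.cast_ofNat]
    have key : ((1 + 240 * X + 2160 * X ^ 2 + 6720 * X ^ 3 + 17520 * X ^ 4 + 30240 * X ^ 5 -
          (1 + 240 * X ^ 3)) *
        (81 * (1 + 240 * X ^ 3) -
          (1 + 240 * X + 2160 * X ^ 2 + 6720 * X ^ 3 + 17520 * X ^ 4 + 30240 * X ^ 5)) ^ 3 -
        12288000 * ((1 + 240 * X + 2160 * X ^ 2 + 6720 * X ^ 3 + 17520 * X ^ 4 + 30240 * X ^ 5 +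
          9 * (1 + 240 * X ^ 3)) *
          (X * (1 - 24 * X + 252 * X ^ 2 - 1472 * X ^ 3 + 4830 * X ^ 4 - 6048 * X ^ 5))) :
          PowerSeries ℤ) =
        X ^ 6 * (-29859840000 - 1376501760000 * X - 60835184640000 * X ^ 2 + 30273454080000 * X ^ 3 - 1155754967040000 * X ^ 4 + 5537165598720000 * X ^ 5 - 5341056122880000 * X ^ 6 - 965833113600000 * X ^ 7 + 45151561728000000 * X ^ 8 - 174317724794880000 * X ^ 9 + 128391575592960000 * X ^ 10 + 633245270999040000 * X ^ 11 - 808105449553920000 * X ^ 12 - 1937936103505920000 * X ^ 13 - 836232702197760000 * X ^ 14) := by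
      ring
    have key2 := congrArg T6 key
    rw [T6_X6_mul] at key2
    simpa only [map_sub, map_mul, map_pow, map_add, map_intCast, map_one, map_ofNat,
      Int.cast_ofNat] using key2

/-- **(Z3b)** `(P - Q)³ (81 Q - P) = 110592000 (P + 9 Q) Δ(X³)` in `ℤ⟦X⟧`, `Q = P(X³)`. -/
theorem haupt3_b :
    (ModularCurve.eisenstein4 - ModularCurve.eisenstein4.expand 3 three_ne_zero') ^ 3 *
        (81 * ModularCurve.eisenstein4.expand 3 three_ne_zero' - ModularCurve.eisenstein4) =
      110592000 * ((ModularCurve.eisenstein4 + 9 * ModularCurve.eisenstein4.expand 3 three_ne_zero') *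
        (X * ModularCurve.dedekindEtaUnit).expand 3 three_ne_zero') := by
  have hP := qe_E4 3
  have hQ := qe_E4_scale 3 Nat.prime_three
  have hD := qe_disc_scale 3 Nat.prime_three
  have hW := (((hP.sub hQ).pow 3).mul ((hQ.smul 81).sub hP)).sub
    (((hP.add (hQ.smul 9)).mul hD).smul 110592000)
  have hW' := sturm_three hW ?_
  · rw [sub_eq_zero] at hW'
    simpa using hW'
  · have hT : T6 ((X * ModularCurve.dedekindEtaUnit).expand 3 three_ne_zero') = T6 (X ^ 3) :=
      T6_disc_expand3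
    generalize (X * ModularCurve.dedekindEtaUnit).expand 3 three_ne_zero' = D3 at hT ⊢
    simp only [map_sub, map_mul, map_pow, map_add, T6_eisenstein4,
      T6_eisenstein4_expand3, hT, map_one, map_ofNat, Int.cast_ofNat]
    have key : (((1 + 240 * X + 2160 * X ^ 2 + 6720 * X ^ 3 + 17520 * X ^ 4 + 30240 * X ^ 5) - (1 + 240 * X ^ 3)) ^ 3 * (81 * (1 + 240 * X ^ 3) - (1 + 240 * X + 2160 * X ^ 2 + 6720 * X ^ 3 + 17520 * X ^ 4 + 30240 * X ^ 5)) -
        110592000 * (((1 + 240 * X + 2160 * X ^ 2 + 6720 * X ^ 3 + 17520 * X ^ 4 + 30240 * X ^ 5) + 9 * (1 + 240 * X ^ 3)) * X ^ 3) : PowerSeries ℤ) =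
        X ^ 6 * (-26542080000 - 637009920000 * X - 6539304960000 * X ^ 2 - 29269278720000 * X ^ 3 - 134866944000000 * X ^ 4 - 497076756480000 * X ^ 5 - 2874555924480000 * X ^ 6 - 16203813765120000 * X ^ 7 - 68054576578560000 * X ^ 8 - 231945835806720000 * X ^ 9 - 612237563043840000 * X ^ 10 - 1212408160911360000 * X ^ 11 - 1869988245995520000 * X ^ 12 - 1937936103505920000 * X ^ 13 - 836232702197760000 * X ^ 14) := by
      ring
    have key2 := congrArg T6 key
    rw [T6_X6_mul] at key2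
    simpa only [map_sub, map_mul, map_pow, map_add, map_intCast, map_one, map_ofNat,
      Int.cast_ofNat] using key2

/-- `Δ(X³) = X³ · η²⁴(X³)`. -/
theorem disc_expand3 :
    (X * ModularCurve.dedekindEtaUnit).expand 3 three_ne_zero' =
      X ^ 3 * ModularCurve.dedekindEtaUnit.expand 3 three_ne_zero' := by
  rw [map_mul, expand_X]

end

end Fermat.Agent.S18.H25
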