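import Mathlib
import Fermat.Agent.S18.HauptShape_helper69
import Fermat.Agent.S18.GaussA_helper93

/-!
# S18, node HAUPT (helper69): the chart-coordinate inputs for `ξ = t₂, t₃`

For a valuation subring `A0` of a field `K0` and the integral series
`xA = haupt2 ↥A0`, `xA' = haupt2Inv ↥A0` (resp. `haupt3`), the coordinate hypotheses of the
chart-generic arrow (`H19.modelKum_of_chart`) and of the Gauss chart (`H93.gauss_chart_full`):

* `chart_two_hxx : haupt2 ↥A0 * haupt2Inv ↥A0 = 1`;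
* `chart_two_hx : H93.iotaA A0 (haupt2 ↥A0) ∈ modularFunctionFieldFullC K0 L` (`2 ∣ L`);
* `chart_two_hxtr`: the reduction of `xA` is transcendental over the residue field
  (`evC` form and `Transcendental` form; also for the inverse coordinate);
* `chart_two_hJx`: `j ∈ K0(ξ)` (also for the inverse coordinate).
-/

set_option autoImplicit false

namespace Fermat.Agent.S18.H69

open ModularCurve
open Fermat.Agent.S18

noncomputable section

/-! ### Transcendence of series with a pole -/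

section Transc

variable {K : Type*} [Field K]

/-- A Laurent series `x = q ^ a + …` with `a < 0` is transcendental over the constants. -/
theorem transcendental_of_isLead_neg {x : LaurentSeries K} {a : ℤ} (ha : a < 0)
    (hx : H30.IsLead x a) : Transcendental K x := by
  rintro ⟨P, hP0, hP⟩
  have key : (Polynomial.aeval x P).coeff (P.natDegree * a) = P.leadingCoeff := by
    rw [Polynomial.aeval_eq_sum_range, HahnSeries.coeff_sum]
    rw [Finset.sum_eq_single P.natDegree]
    · rw [Algebra.smul_def, algebraMap_laurentSeries_eq_single, HahnSeries.coeff_single_mul,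
        sub_zero, (hx.pow P.natDegree).1, mul_one]
      rfl
    · intro i hi hne
      have hlt : i < P.natDegree := lt_of_le_of_ne (Nat.lt_succ_iff.mp (Finset.mem_range.mp hi)) hne
      rw [Algebra.smul_def, algebraMap_laurentSeries_eq_single, HahnSeries.coeff_single_mul,
        sub_zero, (hx.pow i).2 _ (by
        have : (i : ℤ) < P.natDegree := by exact_mod_cast hlt
        nlinarith), mul_zero]
    · intro h
      exact absurd (Finset.mem_range.mpr (Nat.lt_succ_self _)) h
  rw [hP, HahnSeries.coeff_zero] at key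
  exact hP0 (Polynomial.leadingCoeff_eq_zero.mp key.symm)

variable (K)

theorem isLead_haupt2 : H30.IsLead (haupt2 K) (-1) :=
  ⟨coeff_haupt2_neg_one K, fun _ hm => coeff_haupt2_of_lt K hm⟩

theorem isLead_haupt3 : H30.IsLead (haupt3 K) (-1) :=
  ⟨coeff_haupt3_neg_one K, fun _ hm => coeff_haupt3_of_lt K hm⟩

theorem isLead_haupt2Inv : H30.IsLead (haupt2Inv K) 1 :=
  ⟨coeff_haupt2Inv_one K, fun _ hm => coeff_haupt2Inv_of_lt K hm⟩

theorem isLead_haupt3Inv : H30.IsLead (haupt3Inv K) 1 :=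
  ⟨coeff_haupt3Inv_one K, fun _ hm => coeff_haupt3Inv_of_lt K hm⟩

/-- `t₂` is transcendental over every field. -/
theorem transcendental_haupt2 : Transcendental K (haupt2 K) :=
  transcendental_of_isLead_neg (by norm_num) (isLead_haupt2 K)

/-- `t₃` is transcendental over every field. -/
theorem transcendental_haupt3 : Transcendental K (haupt3 K) :=
  transcendental_of_isLead_neg (by norm_num) (isLead_haupt3 K)

/-- `1 / t₂` is transcendental over every field. -/
theorem transcendental_haupt2Inv : Transcendental K (haupt2Inv K) := by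
  intro h
  apply transcendental_haupt2 K
  have h' := h.inv
  rwa [haupt2Inv_eq_inv, inv_inv] at h'

/-- `1 / t₃` is transcendental over every field. -/
theorem transcendental_haupt3Inv : Transcendental K (haupt3Inv K) := by
  intro h
  apply transcendental_haupt3 K
  have h' := h.inv
  rwa [haupt3Inv_eq_inv, inv_inv] at h'

end Transc

/-! ### `j ∈ K(t)` -/

section Adjoin

variable (K : Type*) [Field K] (L : ℕ) [NeZero L]

theorem jEl_eq_two (hL : 2 ∣ L) :
    jEl K L = (hauptEl2 K L hL + 256) ^ 3 * ((hauptEl2 K L hL) ^ 2)⁻¹ := by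
  rw [← hauptEl2_rel K L hL, mul_assoc, mul_inv_cancel₀ (pow_ne_zero 2 (hauptEl2_ne_zero K L hL)),
    mul_one]

theorem jEl_eq_three (hL : 3 ∣ L) :
    jEl K L = (hauptEl3 K L hL + 27) * (hauptEl3 K L hL + 243) ^ 3 *
      ((hauptEl3 K L hL) ^ 3)⁻¹ := by
  rw [← hauptEl3_rel K L hL, mul_assoc, mul_inv_cancel₀ (pow_ne_zero 3 (hauptEl3_ne_zero K L hL)),
    mul_one]

/-- `j ∈ K(t₂)`. -/
theorem jEl_mem_adjoin_two (hL : 2 ∣ L) :
    jEl K L ∈ IntermediateField.adjoin K {hauptEl2 K L hL} := by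
  have ht : hauptEl2 K L hL ∈ IntermediateField.adjoin K {hauptEl2 K L hL} :=
    IntermediateField.mem_adjoin_simple_self K _
  rw [jEl_eq_two K L hL]
  exact mul_mem (pow_mem (add_mem ht (ofNat_mem _ 256)) 3) (inv_mem (pow_mem ht 2))

/-- `j ∈ K(t₃)`. -/
theorem jEl_mem_adjoin_three (hL : 3 ∣ L) :
    jEl K L ∈ IntermediateField.adjoin K {hauptEl3 K L hL} := by
  have ht : hauptEl3 K L hL ∈ IntermediateField.adjoin K {hauptEl3 K L hL} :=
    IntermediateField.mem_adjoin_simple_self K _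
  rw [jEl_eq_three K L hL]
  exact mul_mem (mul_mem (add_mem ht (ofNat_mem _ 27)) (pow_mem (add_mem ht (ofNat_mem _ 243)) 3))
    (inv_mem (pow_mem ht 3))

/-- `j ∈ K(1 / t₂)`. -/
theorem jEl_mem_adjoin_two_inv (hL : 2 ∣ L) :
    jEl K L ∈ IntermediateField.adjoin K {(hauptEl2 K L hL)⁻¹} := by
  have hs : (hauptEl2 K L hL)⁻¹ ∈ IntermediateField.adjoin K {(hauptEl2 K L hL)⁻¹} :=
    IntermediateField.mem_adjoin_simple_self K _
  have ht : hauptEl2 K L hL ∈ IntermediateField.adjoin K {(hauptEl2 K L hL)⁻¹} := by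
    have := inv_mem hs
    rwa [inv_inv] at this
  rw [jEl_eq_two K L hL]
  exact mul_mem (pow_mem (add_mem ht (ofNat_mem _ 256)) 3) (inv_mem (pow_mem ht 2))

/-- `j ∈ K(1 / t₃)`. -/
theorem jEl_mem_adjoin_three_inv (hL : 3 ∣ L) :
    jEl K L ∈ IntermediateField.adjoin K {(hauptEl3 K L hL)⁻¹} := by
  have hs : (hauptEl3 K L hL)⁻¹ ∈ IntermediateField.adjoin K {(hauptEl3 K L hL)⁻¹} :=
    IntermediateField.mem_adjoin_simple_self K _
  have ht : hauptEl3 K L hL ∈ IntermediateField.adjoin K {(hauptEl3 K L hL)⁻¹} := by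
    have := inv_mem hs
    rwa [inv_inv] at this
  rw [jEl_eq_three K L hL]
  exact mul_mem (mul_mem (add_mem ht (ofNat_mem _ 27)) (pow_mem (add_mem ht (ofNat_mem _ 243)) 3))
    (inv_mem (pow_mem ht 3))

end Adjoin

/-! ### The literal chart inputs over a valuation subring -/

section Chart

variable {K0 : Type*} [Field K0] (A0 : ValuationSubring K0) (L : ℕ) [NeZero L]

theorem iotaA_haupt2 : H93.iotaA A0 (haupt2 ↥A0) = haupt2 K0 := coeffMap_haupt2 A0.subtype

theorem iotaA_haupt2Inv : H93.iotaA A0 (haupt2Inv ↥A0) = haupt2Inv K0 :=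
  coeffMap_haupt2Inv A0.subtype

theorem iotaA_haupt3 : H93.iotaA A0 (haupt3 ↥A0) = haupt3 K0 := coeffMap_haupt3 A0.subtype

theorem iotaA_haupt3Inv : H93.iotaA A0 (haupt3Inv ↥A0) = haupt3Inv K0 :=
  coeffMap_haupt3Inv A0.subtype

theorem redA_haupt2 : H93.redA A0 (haupt2 ↥A0) = haupt2 (IsLocalRing.ResidueField ↥A0) :=
  coeffMap_haupt2 _

theorem redA_haupt2Inv :
    H93.redA A0 (haupt2Inv ↥A0) = haupt2Inv (IsLocalRing.ResidueField ↥A0) :=
  coeffMap_haupt2Inv _

theorem redA_haupt3 : H93.redA A0 (haupt3 ↥A0) = haupt3 (IsLocalRing.ResidueField ↥A0) :=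
  coeffMap_haupt3 _

theorem redA_haupt3Inv :
    H93.redA A0 (haupt3Inv ↥A0) = haupt3Inv (IsLocalRing.ResidueField ↥A0) :=
  coeffMap_haupt3Inv _

/-- `hxx` for the chart `t₂`. -/
theorem chart_two_hxx : haupt2 ↥A0 * haupt2Inv ↥A0 = 1 := haupt2_mul_inv ↥A0

/-- `hxx` for the chart `t₃`. -/
theorem chart_three_hxx : haupt3 ↥A0 * haupt3Inv ↥A0 = 1 := haupt3_mul_inv ↥A0

/-- `hx` for the chart `t₂`: the generic fibre of the integral series lies in the model. -/
theorem chart_two_hx (hL : 2 ∣ L) :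
    H93.iotaA A0 (haupt2 ↥A0) ∈ modularFunctionFieldFullC K0 L := by
  rw [iotaA_haupt2]
  exact haupt2_mem_full K0 L hL

/-- `hx` for the chart `1 / t₂`. -/
theorem chart_two_inv_hx (hL : 2 ∣ L) :
    H93.iotaA A0 (haupt2Inv ↥A0) ∈ modularFunctionFieldFullC K0 L := by
  rw [iotaA_haupt2Inv]
  exact haupt2Inv_mem_full K0 L hL

/-- `hx` for the chart `t₃`. -/
theorem chart_three_hx (hL : 3 ∣ L) :
    H93.iotaA A0 (haupt3 ↥A0) ∈ modularFunctionFieldFullC K0 L := by
  rw [iotaA_haupt3]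
  exact haupt3_mem_full K0 L hL

/-- `hx` for the chart `1 / t₃`. -/
theorem chart_three_inv_hx (hL : 3 ∣ L) :
    H93.iotaA A0 (haupt3Inv ↥A0) ∈ modularFunctionFieldFullC K0 L := by
  rw [iotaA_haupt3Inv]
  exact haupt3Inv_mem_full K0 L hL

/-- the chart coordinate of the model is `hauptEl2`. -/
theorem chart_two_eq (hL : 2 ∣ L) :
    (⟨H93.iotaA A0 (haupt2 ↥A0), chart_two_hx A0 L hL⟩ : modularFunctionFieldFullC K0 L) =
      hauptEl2 K0 L hL :=
  Subtype.ext (iotaA_haupt2 A0)

/-- the chart coordinate of the model is `hauptEl3`. -/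
theorem chart_three_eq (hL : 3 ∣ L) :
    (⟨H93.iotaA A0 (haupt3 ↥A0), chart_three_hx A0 L hL⟩ : modularFunctionFieldFullC K0 L) =
      hauptEl3 K0 L hL :=
  Subtype.ext (iotaA_haupt3 A0)

theorem chart_two_inv_eq (hL : 2 ∣ L) :
    (⟨H93.iotaA A0 (haupt2Inv ↥A0), chart_two_inv_hx A0 L hL⟩ :
      modularFunctionFieldFullC K0 L) = (hauptEl2 K0 L hL)⁻¹ :=
  Subtype.ext ((iotaA_haupt2Inv A0).trans (coe_inv_hauptEl2 K0 L hL).symm)

theorem chart_three_inv_eq (hL : 3 ∣ L) :
    (⟨H93.iotaA A0 (haupt3Inv ↥A0), chart_three_inv_hx A0 L hL⟩ :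
      modularFunctionFieldFullC K0 L) = (hauptEl3 K0 L hL)⁻¹ :=
  Subtype.ext ((iotaA_haupt3Inv A0).trans (coe_inv_hauptEl3 K0 L hL).symm)

/-- `hxtr` (`Transcendental` form) for the chart `t₂`. -/
theorem chart_two_transcendental :
    Transcendental (IsLocalRing.ResidueField ↥A0) (H93.redA A0 (haupt2 ↥A0)) := by
  rw [redA_haupt2]
  exact transcendental_haupt2 _

theorem chart_two_inv_transcendental :
    Transcendental (IsLocalRing.ResidueField ↥A0) (H93.redA A0 (haupt2Inv ↥A0)) := by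
  rw [redA_haupt2Inv]
  exact transcendental_haupt2Inv _

theorem chart_three_transcendental :
    Transcendental (IsLocalRing.ResidueField ↥A0) (H93.redA A0 (haupt3 ↥A0)) := by
  rw [redA_haupt3]
  exact transcendental_haupt3 _

theorem chart_three_inv_transcendental :
    Transcendental (IsLocalRing.ResidueField ↥A0) (H93.redA A0 (haupt3Inv ↥A0)) := by
  rw [redA_haupt3Inv]
  exact transcendental_haupt3Inv _

/-- `hxtr` (`evC` form of `H19.modelKum_of_chart` / `H93.gauss_chart`) for the chart `t₂`. -/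
theorem chart_two_hxtr (P : Polynomial (IsLocalRing.ResidueField ↥A0))
    (hP : H93.evC P (H93.redA A0 (haupt2 ↥A0)) = 0) : P = 0 := by
  by_contra h
  exact chart_two_transcendental A0 ⟨P, h, by rw [← H93.evC_eq_aeval]; exact hP⟩

theorem chart_two_inv_hxtr (P : Polynomial (IsLocalRing.ResidueField ↥A0))
    (hP : H93.evC P (H93.redA A0 (haupt2Inv ↥A0)) = 0) : P = 0 := by
  by_contra h
  exact chart_two_inv_transcendental A0 ⟨P, h, by rw [← H93.evC_eq_aeval]; exact hP⟩

theorem chart_three_hxtr (P : Polynomial (IsLocalRing.ResidueField ↥A0))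
    (hP : H93.evC P (H93.redA A0 (haupt3 ↥A0)) = 0) : P = 0 := by
  by_contra h
  exact chart_three_transcendental A0 ⟨P, h, by rw [← H93.evC_eq_aeval]; exact hP⟩

theorem chart_three_inv_hxtr (P : Polynomial (IsLocalRing.ResidueField ↥A0))
    (hP : H93.evC P (H93.redA A0 (haupt3Inv ↥A0)) = 0) : P = 0 := by
  by_contra h
  exact chart_three_inv_transcendental A0 ⟨P, h, by rw [← H93.evC_eq_aeval]; exact hP⟩

/-- `hJx` for the chart `t₂`: `j ∈ K0(ξ)`. -/
theorem chart_two_hJx (hL : 2 ∣ L) :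
    (⟨jqModC K0, jqModC_mem_full K0 L⟩ : modularFunctionFieldFullC K0 L) ∈
      IntermediateField.adjoin K0
        {(⟨H93.iotaA A0 (haupt2 ↥A0), chart_two_hx A0 L hL⟩ : modularFunctionFieldFullC K0 L)} := by
  rw [chart_two_eq A0 L hL]
  exact jEl_mem_adjoin_two K0 L hL

theorem chart_two_inv_hJx (hL : 2 ∣ L) :
    (⟨jqModC K0, jqModC_mem_full K0 L⟩ : modularFunctionFieldFullC K0 L) ∈
      IntermediateField.adjoin K0
        {(⟨H93.iotaA A0 (haupt2Inv ↥A0), chart_two_inv_hx A0 L hL⟩ :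
          modularFunctionFieldFullC K0 L)} := by
  rw [chart_two_inv_eq A0 L hL]
  exact jEl_mem_adjoin_two_inv K0 L hL

/-- `hJx` for the chart `t₃`: `j ∈ K0(ξ)`. -/
theorem chart_three_hJx (hL : 3 ∣ L) :
    (⟨jqModC K0, jqModC_mem_full K0 L⟩ : modularFunctionFieldFullC K0 L) ∈
      IntermediateField.adjoin K0
        {(⟨H93.iotaA A0 (haupt3 ↥A0), chart_three_hx A0 L hL⟩ :
          modularFunctionFieldFullC K0 L)} := by
  rw [chart_three_eq A0 L hL]
  exact jEl_mem_adjoin_three K0 L hL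

theorem chart_three_inv_hJx (hL : 3 ∣ L) :
    (⟨jqModC K0, jqModC_mem_full K0 L⟩ : modularFunctionFieldFullC K0 L) ∈
      IntermediateField.adjoin K0
        {(⟨H93.iotaA A0 (haupt3Inv ↥A0), chart_three_inv_hx A0 L hL⟩ :
          modularFunctionFieldFullC K0 L)} := by
  rw [chart_three_inv_eq A0 L hL]
  exact jEl_mem_adjoin_three_inv K0 L hL

end Chart

end

end Fermat.Agent.S18.H69
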