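import Mathlib
import Fermat.Prelude.Def_ModularCurve_X0

/-!
# Truncated integer power series arithmetic (helper77)

A small kernel-evaluable engine for the first `n` coefficients of elements of `ℤ⟦X⟧`, and the
first coefficients of the Prelude's `eisenstein4` and `etaProd`.
-/

set_option autoImplicit false

namespace Fermat.Agent.S18.H77

open PowerSeries

/-- the first `n` coefficients of a power series -/
noncomputable def tr (n : ℕ) (f : PowerSeries ℤ) : List ℤ :=
  (List.range n).map (fun i => coeff i f)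

/-- entry of a list, `0` outside -/
def lget (a : List ℤ) (i : ℕ) : ℤ := a.getD i 0

theorem lget_tr {n i : ℕ} (f : PowerSeries ℤ) (hi : i < n) : lget (tr n f) i = coeff i f := by
  simp [lget, tr, hi]

theorem tr_congr {n : ℕ} {f g : PowerSeries ℤ} (h : ∀ i < n, coeff i f = coeff i g) :
    tr n f = tr n g :=
  List.map_congr_left fun i hi => h i (List.mem_range.mp hi)

theorem coeff_eq_of_tr_eq {n : ℕ} {f g : PowerSeries ℤ} (h : tr n f = tr n g) {i : ℕ}
    (hi : i < n) : coeff i f = coeff i g := by
  rw [← lget_tr f hi, ← lget_tr g hi, h]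

def ladd (n : ℕ) (a b : List ℤ) : List ℤ := (List.range n).map (fun i => lget a i + lget b i)

def lsub (n : ℕ) (a b : List ℤ) : List ℤ := (List.range n).map (fun i => lget a i - lget b i)

def lmul (n : ℕ) (a b : List ℤ) : List ℤ :=
  (List.range n).map (fun k => ((List.range (k + 1)).map (fun i => lget a i * lget b (k - i))).sum)

def lexp (n d : ℕ) (a : List ℤ) : List ℤ :=
  (List.range n).map (fun i => if d ∣ i then lget a (i / d) else 0)

def lC (n : ℕ) (c : ℤ) : List ℤ := (List.range n).map (fun i => if i = 0 then c else 0)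

def lX (n : ℕ) : List ℤ := (List.range n).map (fun i => if i = 1 then 1 else 0)

def lpow (n : ℕ) (a : List ℤ) : ℕ → List ℤ
  | 0 => lC n 1
  | k + 1 => lmul n (lpow n a k) a

/-- multiplication by `1 - X ^ m` -/
def lmulOneSub (n m : ℕ) (a : List ℤ) : List ℤ :=
  (List.range n).map (fun i => lget a i - if m ≤ i then lget a (i - m) else 0)

theorem tr_add (n : ℕ) (f g : PowerSeries ℤ) : tr n (f + g) = ladd n (tr n f) (tr n g) := by
  refine List.map_congr_left fun i hi => ?_
  rw [List.mem_range] at hi
  rw [lget_tr f hi, lget_tr g hi, map_add]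

theorem tr_sub (n : ℕ) (f g : PowerSeries ℤ) : tr n (f - g) = lsub n (tr n f) (tr n g) := by
  refine List.map_congr_left fun i hi => ?_
  rw [List.mem_range] at hi
  rw [lget_tr f hi, lget_tr g hi, map_sub]

theorem sum_range_eq_list_sum (k : ℕ) (F : ℕ → ℤ) :
    ∑ i ∈ Finset.range k, F i = ((List.range k).map F).sum := by
  induction k with
  | zero => simp
  | succ k ih => rw [Finset.sum_range_succ, ih, List.range_succ, List.map_append, List.sum_append]; simp

theorem tr_mul (n : ℕ) (f g : PowerSeries ℤ) : tr n (f * g) = lmul n (tr n f) (tr n g) := by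
  refine List.map_congr_left fun k hk => ?_
  rw [List.mem_range] at hk
  rw [coeff_mul, Finset.Nat.sum_antidiagonal_eq_sum_range_succ (fun i j => coeff i f * coeff j g) k,
    sum_range_eq_list_sum]
  congr 1
  refine List.map_congr_left fun i hi => ?_
  rw [List.mem_range] at hi
  rw [lget_tr f (by omega), lget_tr g (by omega)]

theorem tr_C (n : ℕ) (c : ℤ) : tr n (C c) = lC n c := by
  refine List.map_congr_left fun i _ => ?_
  rw [coeff_C]

theorem tr_one (n : ℕ) : tr n 1 = lC n 1 := by
  rw [← tr_C, map_one]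

theorem tr_X (n : ℕ) : tr n X = lX n := by
  refine List.map_congr_left fun i _ => ?_
  rw [coeff_X]

theorem tr_pow (n : ℕ) (f : PowerSeries ℤ) (k : ℕ) : tr n (f ^ k) = lpow n (tr n f) k := by
  induction k with
  | zero => rw [pow_zero, tr_one]; rfl
  | succ k ih => rw [pow_succ, tr_mul, ih]; rfl

theorem tr_expand (n d : ℕ) (hd : d ≠ 0) (f : PowerSeries ℤ) :
    tr n (expand d hd f) = lexp n d (tr n f) := by
  refine List.map_congr_left fun i hi => ?_
  rw [List.mem_range] at hi
  rw [coeff_expand]
  split_ifs with h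
  · rw [lget_tr f (lt_of_le_of_lt (Nat.div_le_self i d) hi)]
  · rfl

theorem tr_mul_one_sub (n m : ℕ) (f : PowerSeries ℤ) :
    tr n (f * (1 - X ^ m)) = lmulOneSub n m (tr n f) := by
  refine List.map_congr_left fun i hi => ?_
  rw [List.mem_range] at hi
  rw [mul_sub, mul_one, map_sub, coeff_mul_X_pow', lget_tr f hi]
  split_ifs with h
  · rw [lget_tr f (by omega)]
  · rfl

theorem coeff_eq_zero_of_tr {n : ℕ} {f : PowerSeries ℤ} (h : tr n f = lC n 0) {i : ℕ}
    (hi : i < n) : coeff i f = 0 := by
  rw [← lget_tr f hi, h]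
  simp [lget, lC, hi]

/-! ### The eta product -/

open scoped PowerSeries.WithPiTopology

/-- partial products of `∏ (1 - X ^ (i+1))` -/
noncomputable def etaPart (N : ℕ) : PowerSeries ℤ := ∏ i ∈ Finset.range N, (1 - X ^ (i + 1))

theorem etaPart_succ (N : ℕ) : etaPart (N + 1) = etaPart N * (1 - X ^ (N + 1)) :=
  Finset.prod_range_succ _ _

theorem coeff_etaPart_succ {k N : ℕ} (h : k ≤ N) :
    coeff k (etaPart (N + 1)) = coeff k (etaPart N) := by
  rw [etaPart_succ, mul_sub, mul_one, map_sub, coeff_mul_X_pow', if_neg (by omega), sub_zero]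

theorem coeff_etaPart_of_le {k N M : ℕ} (h : k ≤ N) (hNM : N ≤ M) :
    coeff k (etaPart M) = coeff k (etaPart N) := by
  induction M, hNM using Nat.le_induction with
  | base => rfl
  | succ M hM ih => rw [coeff_etaPart_succ (h.trans hM), ih]

theorem coeff_etaProd {k N : ℕ} (h : k ≤ N) :
    coeff k ModularCurve.etaProd = coeff k (etaPart N) := by
  have h1 := (PowerSeries.WithPiTopology.multipliable_one_sub_X_pow ℤ).hasProd.tendsto_prod_nat
  rw [PowerSeries.WithPiTopology.tendsto_iff_coeff_tendsto] at h1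
  have hk := h1 k
  rw [nhds_discrete, Filter.tendsto_pure] at hk
  obtain ⟨M, hM, hMN⟩ := (hk.and (Filter.eventually_ge_atTop N)).exists
  have h2 : coeff k (etaPart M) = coeff k ModularCurve.etaProd := hM
  rw [← h2, coeff_etaPart_of_le h hMN]

def lEta (n : ℕ) : ℕ → List ℤ
  | 0 => lC n 1
  | N + 1 => lmulOneSub n (N + 1) (lEta n N)

theorem tr_etaPart (n N : ℕ) : tr n (etaPart N) = lEta n N := by
  induction N with
  | zero => simp [etaPart, tr_one, lEta]
  | succ N ih => rw [etaPart_succ, tr_mul_one_sub, ih]; rfl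

theorem tr_etaProd (n : ℕ) : tr n ModularCurve.etaProd = lEta n n := by
  rw [← tr_etaPart]
  exact tr_congr fun i hi => coeff_etaProd hi.le

theorem tr_eisenstein4 (n : ℕ) : tr n ModularCurve.eisenstein4 =
    (List.range n).map
      (fun i : ℕ => if i = 0 then (1 : ℤ) else 240 * ∑ d ∈ Nat.divisors i, ((d : ℕ) : ℤ) ^ 3) := by
  refine List.map_congr_left fun i _ => ?_
  rw [ModularCurve.eisenstein4, coeff_mk]

end Fermat.Agent.S18.H77
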