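import Mathlib
import Fermat.Prelude.Def_ModularCurve_X0
import Fermat.Agent.S18.HauptTrunc_helper77

/-!
# Coefficient checks for the Hauptmodul identities of `X₀(2)`, `X₀(3)` (helper77)

Machine-generated chain of truncated computations (17 coefficients), checked by the kernel.
`qD = X * etaProd ^ 24` is the formal `q`-expansion of `Δ`.  The four series `G2A`, `G2B`,
`G3A`, `G3B` are the formal `q`-expansions of modular forms of weight `36` on `Γ₀(2)`, resp.
weight `48` on `Γ₀(3)`, and their first `17` coefficients vanish.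
-/

set_option autoImplicit false

namespace Fermat.Agent.S18.H77

open PowerSeries

/-- the formal `q`-expansion of `Δ` -/
noncomputable def qD : PowerSeries ℤ := X * ModularCurve.etaProd ^ 24

theorem tH : tr 17 ModularCurve.etaProd = [1, -1, -1, 0, 0, 1, 0, 1, 0, 0, 0, 0, -1, 0, 0, -1, 0] := by
  rw [tr_etaProd]; decide +kernel

theorem tE : tr 17 ModularCurve.eisenstein4 = [1, 240, 2160, 6720, 17520, 30240, 60480, 82560, 140400, 181680, 272160, 319680, 490560, 527520, 743040, 846720, 1123440] := by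
  rw [tr_eisenstein4]; decide +kernel

theorem t1 : tr 17 (ModularCurve.etaProd ^ 3) = [1, -3, 0, 5, 0, 0, -7, 0, 0, 0, 9, 0, 0, 0, 0, -11, 0] := by
  rw [tr_pow, tH]; decide +kernel

theorem t2 : tr 17 ((ModularCurve.etaProd ^ 3) ^ 2) = [1, -6, 9, 10, -30, 0, 11, 42, 0, -70, 18, -54, 49, 90, 0, -22, -60] := by
  rw [tr_pow, t1]; decide +kernel

theorem t3 : tr 17 (((ModularCurve.etaProd ^ 3) ^ 2) ^ 2) = [1, -12, 54, -88, -99, 540, -418, -648, 594, 836, 1056, -4104, -209, 4104, -594, 4256, -6480] := by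
  rw [tr_pow, t2]; decide +kernel

theorem t4 : tr 17 ((((ModularCurve.etaProd ^ 3) ^ 2) ^ 2) ^ 2) = [1, -24, 252, -1472, 4830, -6048, -16744, 84480, -113643, -115920, 534612, -370944, -577738, 401856, 1217160, 987136, -6905934] := by
  rw [tr_pow, t3]; decide +kernel

theorem tH12 : tr 17 (ModularCurve.etaProd ^ 12) = [1, -12, 54, -88, -99, 540, -418, -648, 594, 836, 1056, -4104, -209, 4104, -594, 4256, -6480] := by
  rw [show ModularCurve.etaProd ^ 12 = ((ModularCurve.etaProd ^ 3) ^ 2) ^ 2 by ring, t3]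

theorem tH24 : tr 17 (ModularCurve.etaProd ^ 24) = [1, -24, 252, -1472, 4830, -6048, -16744, 84480, -113643, -115920, 534612, -370944, -577738, 401856, 1217160, 987136, -6905934] := by
  rw [show ModularCurve.etaProd ^ 24 = (((ModularCurve.etaProd ^ 3) ^ 2) ^ 2) ^ 2 by ring, t4]

theorem tqD : tr 17 qD = [0, 1, -24, 252, -1472, 4830, -6048, -16744, 84480, -113643, -115920, 534612, -370944, -577738, 401856, 1217160, 987136] := by
  rw [qD, tr_mul, tr_X, tH24]; decide +kernel

theorem tE3 : tr 17 (ModularCurve.eisenstein4 ^ 3) = [1, 720, 179280, 16954560, 396974160, 4632858720, 34413301440, 187477879680, 814940600400, 2975469665040, 9486467837280, 27053330840640, 70485969919680, 169930679355360, 384163875688320, 820167497170560, 1668890801059920] := by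
  rw [tr_pow, tE]; decide +kernel

theorem te2D : tr 17 (expand 2 two_ne_zero qD) = [0, 0, 1, 0, -24, 0, 252, 0, -1472, 0, 4830, 0, -6048, 0, -16744, 0, 84480] := by
  rw [tr_expand, tqD]; decide +kernel

theorem t5 : tr 17 (C (256 : ℤ) * (expand 2 two_ne_zero qD)) = [0, 0, 256, 0, -6144, 0, 64512, 0, -376832, 0, 1236480, 0, -1548288, 0, -4286464, 0, 21626880] := by
  rw [tr_mul, tr_C, te2D]; decide +kernel

theorem t6 : tr 17 (qD + (C (256 : ℤ) * (expand 2 two_ne_zero qD))) = [0, 1, 232, 252, -7616, 4830, 58464, -16744, -292352, -113643, 1120560, 534612, -1919232, -577738, -3884608, 1217160, 22614016] := by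
  rw [tr_add, tqD, t5]; decide +kernel

theorem t7 : tr 17 ((qD + (C (256 : ℤ) * (expand 2 two_ne_zero qD))) ^ 3) = [0, 0, 0, 1, 696, 162228, 12815104, 30294474, -1190188608, -1613013192, 49897552896, 8336028459, -1141020749792, 655881703668, 15704496582144, -11700122581074, -159642592252416] := by
  rw [tr_pow, t6]; decide +kernel

theorem t8 : tr 17 ((ModularCurve.eisenstein4 ^ 3) * qD) = [0, 1, 696, 162252, 12831808, 34188270, -882400608, -833380744, 25487347200, -20041723323, -288074404080, 434433753732, 1007032271616, 2385917303462, -21022079461824, 20516848304040, 10832015527936] := by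
  rw [tr_mul, tE3, tqD]; decide +kernel

theorem t9 : tr 17 (((ModularCurve.eisenstein4 ^ 3) * qD) * (expand 2 two_ne_zero qD)) = [0, 0, 0, 1, 696, 162228, 12815104, 30294474, -1190188608, -1613013192, 49897552896, 8336028459, -1141020749792, 655881703668, 15704496582144, -11700122581074, -159642592252416] := by
  rw [tr_mul, t8, te2D]; decide +kernel

theorem tG2A : tr 17 (((qD + (C (256 : ℤ) * (expand 2 two_ne_zero qD))) ^ 3) - (((ModularCurve.eisenstein4 ^ 3) * qD) * (expand 2 two_ne_zero qD))) = [0, 0, 0, 0, 0, 0, 0, 0, 0, 0, 0, 0, 0, 0, 0, 0, 0] := by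
  rw [tr_sub, t7, t9]; decide +kernel

theorem t10 : tr 17 (expand 2 two_ne_zero ModularCurve.eisenstein4) = [1, 0, 240, 0, 2160, 0, 6720, 0, 17520, 0, 30240, 0, 60480, 0, 82560, 0, 140400] := by
  rw [tr_expand, tE]; decide +kernel

theorem t11 : tr 17 ((expand 2 two_ne_zero ModularCurve.eisenstein4) ^ 3) = [1, 0, 720, 0, 179280, 0, 16954560, 0, 396974160, 0, 4632858720, 0, 34413301440, 0, 187477879680, 0, 814940600400] := by
  rw [tr_pow, t10]; decide +kernel

theorem t12 : tr 17 (C (16 : ℤ) * (expand 2 two_ne_zero qD)) = [0, 0, 16, 0, -384, 0, 4032, 0, -23552, 0, 77280, 0, -96768, 0, -267904, 0, 1351680] := by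
  rw [tr_mul, tr_C, te2D]; decide +kernel

theorem t13 : tr 17 (qD + (C (16 : ℤ) * (expand 2 two_ne_zero qD))) = [0, 1, -8, 252, -1856, 4830, -2016, -16744, 60928, -113643, -38640, 534612, -467712, -577738, 133952, 1217160, 2338816] := by
  rw [tr_add, tqD, t12]; decide +kernel

theorem t14 : tr 17 ((qD + (C (16 : ℤ) * (expand 2 two_ne_zero qD))) ^ 3) = [0, 0, 0, 1, -24, 948, -18176, 342474, -4924608, 57064248, -550923264, 4039713579, -20631557792, 66915367668, -93128295936, -290992074834, 2177089288704] := by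
  rw [tr_pow, t13]; decide +kernel

theorem t15 : tr 17 (((expand 2 two_ne_zero ModularCurve.eisenstein4) ^ 3) * qD) = [0, 1, -24, 972, -18752, 365550, -5368608, 65593976, -675079680, 5523276357, -35508067920, 183477719172, -783014010624, 2815402164902, -8635114576704, 22758065548200, -51670586445824] := by
  rw [tr_mul, t11, tqD]; decide +kernel

theorem t16 : tr 17 ((((expand 2 two_ne_zero ModularCurve.eisenstein4) ^ 3) * qD) * (expand 2 two_ne_zero qD)) = [0, 0, 0, 1, -24, 948, -18176, 342474, -4924608, 57064248, -550923264, 4039713579, -20631557792, 66915367668, -93128295936, -290992074834, 2177089288704] := by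
  rw [tr_mul, t15, te2D]; decide +kernel

theorem tG2B : tr 17 (((qD + (C (16 : ℤ) * (expand 2 two_ne_zero qD))) ^ 3) - ((((expand 2 two_ne_zero ModularCurve.eisenstein4) ^ 3) * qD) * (expand 2 two_ne_zero qD))) = [0, 0, 0, 0, 0, 0, 0, 0, 0, 0, 0, 0, 0, 0, 0, 0, 0] := by
  rw [tr_sub, t14, t16]; decide +kernel

theorem te3D : tr 17 (expand 3 three_ne_zero qD) = [0, 0, 0, 1, 0, 0, -24, 0, 0, 252, 0, 0, -1472, 0, 0, 4830, 0] := by
  rw [tr_expand, tqD]; decide +kernel

theorem t17 : tr 17 (qD * (expand 3 three_ne_zero qD)) = [0, 0, 0, 0, 1, -24, 252, -1496, 5406, -12096, 18836, -37488, 95013, -86480, -240420, 461448, 156468] := by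
  rw [tr_mul, tqD, te3D]; decide +kernel

theorem t18 : tr 17 (qD ^ 2) = [0, 0, 1, -48, 1080, -15040, 143820, -985824, 4857920, -16295040, 28412910, 38671600, -424520544, 1268350272, -1211937160, -4306546080, 18293091840] := by
  rw [tr_pow, tqD]; decide +kernel

theorem t19 : tr 17 ((expand 3 three_ne_zero qD) ^ 2) = [0, 0, 0, 0, 0, 0, 1, 0, 0, -48, 0, 0, 1080, 0, 0, -15040, 0] := by
  rw [tr_pow, te3D]; decide +kernel

theorem t20 : tr 17 (C (756 : ℤ) * qD) = [0, 756, -18144, 190512, -1112832, 3651480, -4572288, -12658464, 63866880, -85914108, -87635520, 404166672, -280433664, -436769928, 303803136, 920172960, 746274816] := by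
  rw [tr_mul, tr_C, tqD]; decide +kernel

theorem t21 : tr 17 ((ModularCurve.eisenstein4 ^ 3) - (C (756 : ℤ) * qD)) = [1, -36, 197424, 16764048, 398086992, 4629207240, 34417873728, 187490538144, 814876733520, 2975555579148, 9486555472800, 27052926673968, 70486250353344, 169931116125288, 384163571885184, 820166576997600, 1668890054785104] := by
  rw [tr_sub, tE3, t20]; decide +kernel

theorem t22 : tr 17 (C (19131876 : ℤ) * (expand 3 three_ne_zero qD)) = [0, 0, 0, 19131876, 0, 0, -459165024, 0, 0, 4821232752, 0, 0, -28162121472, 0, 0, 92406961080, 0] := by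
  rw [tr_mul, tr_C, te3D]; decide +kernel

theorem t23 : tr 17 (((ModularCurve.eisenstein4 ^ 3) - (C (756 : ℤ) * qD)) - (C (19131876 : ℤ) * (expand 3 three_ne_zero qD))) = [1, -36, 197424, -2367828, 398086992, 4629207240, 34877038752, 187490538144, 814876733520, 2970734346396, 9486555472800, 27052926673968, 70514412474816, 169931116125288, 384163571885184, 820074170036520, 1668890054785104] := by
  rw [tr_sub, t21, t22]; decide +kernel

theorem t24 : tr 17 ((((ModularCurve.eisenstein4 ^ 3) - (C (756 : ℤ) * qD)) - (C (19131876 : ℤ) * (expand 3 three_ne_zero qD))) ^ 2) = [1, -72, 396144, -18950184, 39942893376, -954335999088, 162526913211024, -59505997601088, 150310179590128992, 3594466247553264312, 48631417400980693152, 469494553014161059680, 3590732165460948648864, 22953669471447451867728, 126950632927311897842688, 621886626324436636458576, 2745675023060155245187104] := by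
  rw [tr_pow, t23]; decide +kernel

theorem t25 : tr 17 ((qD * (expand 3 three_ne_zero qD)) * ((((ModularCurve.eisenstein4 ^ 3) - (C (756 : ℤ) * qD)) - (C (19131876 : ℤ) * (expand 3 three_ne_zero qD))) ^ 2)) = [0, 0, 0, 0, 1, -96, 398124, -28477280, 40497639198, -1918333919232, 195527078239364, -4260506392772544, 194338960283947653, -276756497621582912, 1222330942278791628, -19025088944838264288, 17056116962597468244] := by
  rw [tr_mul, t17, t24]; decide +kernel

theorem t26 : tr 17 (C (196830 : ℤ) * (qD * (expand 3 three_ne_zero qD))) = [0, 0, 0, 0, 196830, -4723920, 49601160, -294457680, 1064062980, -2380855680, 3707489880, -7378763040, 18701408790, -17021858400, -47321868600, 90826809840, 30797596440] := by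
  rw [tr_mul, tr_C, t17]; decide +kernel

theorem t27 : tr 17 ((qD ^ 2) + (C (196830 : ℤ) * (qD * (expand 3 three_ne_zero qD)))) = [0, 0, 1, -48, 197910, -4738960, 49744980, -295443504, 1068920900, -2397150720, 3735902790, -7340091440, 18276888246, -15753508128, -48533805760, 86520263760, 49090688280] := by
  rw [tr_add, t18, t26]; decide +kernel

theorem t28 : tr 17 (C (387420489 : ℤ) * ((expand 3 three_ne_zero qD) ^ 2)) = [0, 0, 0, 0, 0, 0, 387420489, 0, 0, -18596183472, 0, 0, 418414128120, 0, 0, -5826804154560, 0] := by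
  rw [tr_mul, tr_C, t19]; decide +kernel

theorem t29 : tr 17 (((qD ^ 2) + (C (196830 : ℤ) * (qD * (expand 3 three_ne_zero qD)))) + (C (387420489 : ℤ) * ((expand 3 three_ne_zero qD) ^ 2))) = [0, 0, 1, -48, 197910, -4738960, 437165469, -295443504, 1068920900, -20993334192, 3735902790, -7340091440, 436691016366, -15753508128, -48533805760, -5740283890800, 49090688280] := by
  rw [tr_add, t27, t28]; decide +kernel

theorem t30 : tr 17 ((((qD ^ 2) + (C (196830 : ℤ) * (qD * (expand 3 three_ne_zero qD)))) + (C (387420489 : ℤ) * ((expand 3 three_ne_zero qD) ^ 2))) ^ 2) = [0, 0, 0, 0, 1, -96, 398124, -28477280, 40497639198, -1918333919232, 195527078239364, -4260506392772544, 194338960283947653, -276756497621582912, 1222330942278791628, -19025088944838264288, 17056116962597468244] := by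
  rw [tr_pow, t29]; decide +kernel

theorem tG3A : tr 17 (((qD * (expand 3 three_ne_zero qD)) * ((((ModularCurve.eisenstein4 ^ 3) - (C (756 : ℤ) * qD)) - (C (19131876 : ℤ) * (expand 3 three_ne_zero qD))) ^ 2)) - ((((qD ^ 2) + (C (196830 : ℤ) * (qD * (expand 3 three_ne_zero qD)))) + (C (387420489 : ℤ) * ((expand 3 three_ne_zero qD) ^ 2))) ^ 2)) = [0, 0, 0, 0, 0, 0, 0, 0, 0, 0, 0, 0, 0, 0, 0, 0, 0] := by
  rw [tr_sub, t25, t30]; decide +kernel

theorem t31 : tr 17 (expand 3 three_ne_zero ModularCurve.eisenstein4) = [1, 0, 0, 240, 0, 0, 2160, 0, 0, 6720, 0, 0, 17520, 0, 0, 30240, 0] := by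
  rw [tr_expand, tE]; decide +kernel

theorem t32 : tr 17 ((expand 3 three_ne_zero ModularCurve.eisenstein4) ^ 3) = [1, 0, 0, 720, 0, 0, 179280, 0, 0, 16954560, 0, 0, 396974160, 0, 0, 4632858720, 0] := by
  rw [tr_pow, t31]; decide +kernel

theorem t33 : tr 17 (C (36 : ℤ) * qD) = [0, 36, -864, 9072, -52992, 173880, -217728, -602784, 3041280, -4091148, -4173120, 19246032, -13353984, -20798568, 14466816, 43817760, 35536896] := by
  rw [tr_mul, tr_C, tqD]; decide +kernel

theorem t34 : tr 17 (((expand 3 three_ne_zero ModularCurve.eisenstein4) ^ 3) - (C (36 : ℤ) * qD)) = [1, -36, 864, -8352, 52992, -173880, 397008, 602784, -3041280, 21045708, 4173120, -19246032, 410328144, 20798568, -14466816, 4589040960, -35536896] := by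
  rw [tr_sub, t32, t33]; decide +kernel

theorem t35 : tr 17 (C (756 : ℤ) * (expand 3 three_ne_zero qD)) = [0, 0, 0, 756, 0, 0, -18144, 0, 0, 190512, 0, 0, -1112832, 0, 0, 3651480, 0] := by
  rw [tr_mul, tr_C, te3D]; decide +kernel

theorem t36 : tr 17 ((((expand 3 three_ne_zero ModularCurve.eisenstein4) ^ 3) - (C (36 : ℤ) * qD)) - (C (756 : ℤ) * (expand 3 three_ne_zero qD))) = [1, -36, 864, -9108, 52992, -173880, 415152, 602784, -3041280, 20855196, 4173120, -19246032, 411440976, 20798568, -14466816, 4585389480, -35536896] := by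
  rw [tr_sub, t34, t35]; decide +kernel

theorem t37 : tr 17 (((((expand 3 three_ne_zero ModularCurve.eisenstein4) ^ 3) - (C (36 : ℤ) * qD)) - (C (756 : ℤ) * (expand 3 three_ne_zero qD))) ^ 2) = [1, -72, 3024, -80424, 1508256, -19901808, 187875504, -1294452288, 6643449792, -24688613448, 56504850912, 10610978400, -730078502976, 3629589741648, -7912128114432, 2710010642256, 87421775197824] := by
  rw [tr_pow, t36]; decide +kernel

theorem t38 : tr 17 ((qD * (expand 3 three_ne_zero qD)) * (((((expand 3 three_ne_zero ModularCurve.eisenstein4) ^ 3) - (C (36 : ℤ) * qD)) - (C (756 : ℤ) * (expand 3 three_ne_zero qD))) ^ 2)) = [0, 0, 0, 0, 1, -96, 5004, -172640, 4313598, -81292032, 1183151204, -13547815104, 124014231333, -918863335232, 5547786538668, -27215285112288, 106195231483284] := by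
  rw [tr_mul, t17, t37]; decide +kernel

theorem t39 : tr 17 (C (270 : ℤ) * (qD * (expand 3 three_ne_zero qD))) = [0, 0, 0, 0, 270, -6480, 68040, -403920, 1459620, -3265920, 5085720, -10121760, 25653510, -23349600, -64913400, 124590960, 42246360] := by
  rw [tr_mul, tr_C, t17]; decide +kernel

theorem t40 : tr 17 ((qD ^ 2) + (C (270 : ℤ) * (qD * (expand 3 three_ne_zero qD)))) = [0, 0, 1, -48, 1350, -21520, 211860, -1389744, 6317540, -19560960, 33498630, 28549840, -398867034, 1245000672, -1276850560, -4181955120, 18335338200] := by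
  rw [tr_add, t18, t39]; decide +kernel

theorem t41 : tr 17 (C (729 : ℤ) * ((expand 3 three_ne_zero qD) ^ 2)) = [0, 0, 0, 0, 0, 0, 729, 0, 0, -34992, 0, 0, 787320, 0, 0, -10964160, 0] := by
  rw [tr_mul, tr_C, t19]; decide +kernel

theorem t42 : tr 17 (((qD ^ 2) + (C (270 : ℤ) * (qD * (expand 3 three_ne_zero qD)))) + (C (729 : ℤ) * ((expand 3 three_ne_zero qD) ^ 2))) = [0, 0, 1, -48, 1350, -21520, 212589, -1389744, 6317540, -19595952, 33498630, 28549840, -398079714, 1245000672, -1276850560, -4192919280, 18335338200] := by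
  rw [tr_add, t40, t41]; decide +kernel

theorem t43 : tr 17 ((((qD ^ 2) + (C (270 : ℤ) * (qD * (expand 3 three_ne_zero qD)))) + (C (729 : ℤ) * ((expand 3 three_ne_zero qD) ^ 2))) ^ 2) = [0, 0, 0, 0, 1, -96, 5004, -172640, 4313598, -81292032, 1183151204, -13547815104, 124014231333, -918863335232, 5547786538668, -27215285112288, 106195231483284] := by
  rw [tr_pow, t42]; decide +kernel

theorem tG3B : tr 17 (((qD * (expand 3 three_ne_zero qD)) * (((((expand 3 three_ne_zero ModularCurve.eisenstein4) ^ 3) - (C (36 : ℤ) * qD)) - (C (756 : ℤ) * (expand 3 three_ne_zero qD))) ^ 2)) - ((((qD ^ 2) + (C (270 : ℤ) * (qD * (expand 3 three_ne_zero qD)))) + (C (729 : ℤ) * ((expand 3 three_ne_zero qD) ^ 2))) ^ 2)) = [0, 0, 0, 0, 0, 0, 0, 0, 0, 0, 0, 0, 0, 0, 0, 0, 0] := by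
  rw [tr_sub, t38, t43]; decide +kernel

/-- `(Δ + 256 Δ₂)³ - E₄³ Δ Δ₂` -/
noncomputable def G2A : PowerSeries ℤ :=
  (qD + C (256 : ℤ) * expand 2 two_ne_zero qD) ^ 3 -
    ModularCurve.eisenstein4 ^ 3 * qD * expand 2 two_ne_zero qD

/-- `(Δ + 16 Δ₂)³ - E₄(2z)³ Δ Δ₂` -/
noncomputable def G2B : PowerSeries ℤ :=
  (qD + C (16 : ℤ) * expand 2 two_ne_zero qD) ^ 3 -
    (expand 2 two_ne_zero ModularCurve.eisenstein4) ^ 3 * qD * expand 2 two_ne_zero qD

/-- `Δ Δ₃ (E₄³ - 756 Δ - 19131876 Δ₃)² - (Δ² + 196830 Δ Δ₃ + 3¹⁸ Δ₃²)²` -/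
noncomputable def G3A : PowerSeries ℤ :=
  qD * expand 3 three_ne_zero qD *
      (ModularCurve.eisenstein4 ^ 3 - C (756 : ℤ) * qD -
        C (19131876 : ℤ) * expand 3 three_ne_zero qD) ^ 2 -
    (qD ^ 2 + C (196830 : ℤ) * (qD * expand 3 three_ne_zero qD) +
      C (387420489 : ℤ) * (expand 3 three_ne_zero qD) ^ 2) ^ 2

/-- `Δ Δ₃ (E₄(3z)³ - 36 Δ - 756 Δ₃)² - (Δ² + 270 Δ Δ₃ + 729 Δ₃²)²` -/
noncomputable def G3B : PowerSeries ℤ :=
  qD * expand 3 three_ne_zero qD *
      ((expand 3 three_ne_zero ModularCurve.eisenstein4) ^ 3 - C (36 : ℤ) * qD -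
        C (756 : ℤ) * expand 3 three_ne_zero qD) ^ 2 -
    (qD ^ 2 + C (270 : ℤ) * (qD * expand 3 three_ne_zero qD) +
      C (729 : ℤ) * (expand 3 three_ne_zero qD) ^ 2) ^ 2

theorem coeff_G2A {i : ℕ} (hi : i < 17) : coeff i G2A = 0 :=
  coeff_eq_zero_of_tr (by rw [G2A, tG2A]; rfl) hi

theorem coeff_G2B {i : ℕ} (hi : i < 17) : coeff i G2B = 0 :=
  coeff_eq_zero_of_tr (by rw [G2B, tG2B]; rfl) hi

theorem coeff_G3A {i : ℕ} (hi : i < 17) : coeff i G3A = 0 :=
  coeff_eq_zero_of_tr (by rw [G3A, tG3A]; rfl) hi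

theorem coeff_G3B {i : ℕ} (hi : i < 17) : coeff i G3B = 0 :=
  coeff_eq_zero_of_tr (by rw [G3B, tG3B]; rfl) hi

end Fermat.Agent.S18.H77
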