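import Mathlib
import Fermat.Prelude.Def_ModularCurve_X0ModL

/-!
# S18, node (H3)/(HM): the Hauptmodul lies in the function field, degree-free (helper9)

For `M ∈ {2, 3}` and ANY field `K` with `(M : K) ≠ 0`: a Laurent series `t` satisfying the two
Hauptmodul identities

* `J * t ^ 2 = (t + 256) ^ 3`, `J₂ * t = (t + 16) ^ 3`  (`M = 2`),
* `J * t ^ 3 = (t + 27) * (t + 243) ^ 3`, `J₃ * t = (t + 27) * (t + 3) ^ 3`  (`M = 3`),

(`J = jqModC K`, `J_M = qExpand K M J`) lies in `modularFunctionFieldFullC K M = K(J, J_M)`.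

No degree count: by elimination, `t * A(J, J_M) = B(J, J_M)` for explicit integer polynomials
`A, B`, and `B(J, J_M) ≠ 0` because its lowest `q`-coefficient is `2 ^ 12` resp. `3 ^ 12`.
-/

set_option autoImplicit false

noncomputable section

open HahnSeries ModularCurve

namespace Fermat.Agent.S18.H09

/-! ### The two eliminations (pure field algebra) -/

/-- Elimination for `X₀(2)`. -/
theorem elim_two {F : Type*} [Field F] (t j k : F) (ht : t ≠ 0)
    (h1 : j * t ^ 2 = (t + 256) ^ 3) (h2 : k * t = (t + 16) ^ 3) :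
    t * (j ^ 2 + 195120 * j + 4095 * k + 660960000) =
      4096 * (j * k) - 2949120 * j - 2949120 * k - 66562560000 := by
  have hj : j = (t + 256) ^ 3 / t ^ 2 := by
    rw [eq_div_iff (pow_ne_zero 2 ht)]
    exact h1
  have hk : k = (t + 16) ^ 3 / t := by
    rw [eq_div_iff ht]
    exact h2
  rw [hj, hk]
  field_simp
  ring

/-- Elimination for `X₀(3)`. -/
theorem elim_three {F : Type*} [Field F] (t j k : F) (ht : t ≠ 0)
    (h1 : j * t ^ 3 = (t + 27) * (t + 243) ^ 3) (h2 : k * t = (t + 27) * (t + 3) ^ 3) :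
    t * (j ^ 3 * k - 756 * j ^ 3 + 19129644 * (j ^ 2 * k) + 23150726640 * j ^ 2
        + 76509442080 * (j * k) - 14204206448640000 * j + 531440 * k ^ 2
        - 48430448640000 * k + 97844723712000000000) =
      531441 * (j * k ^ 2) + 729 * j ^ 3 + 143489070 * (j ^ 2 * k) - 75419482320 * j ^ 2
        + 13720616192160 * (j * k) + 201476523294720000 * j - 382637520 * k ^ 2
        + 10373547294720000 * k - 2641807540224000000000 := by
  have hj : j = (t + 27) * (t + 243) ^ 3 / t ^ 3 := by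
    rw [eq_div_iff (pow_ne_zero 3 ht)]
    exact h1
  have hk : k = (t + 27) * (t + 3) ^ 3 / t := by
    rw [eq_div_iff ht]
    exact h2
  rw [hj, hk]
  field_simp
  ring

/-! ### Lowest coefficients of products of Laurent series -/

section Coeff

variable {R : Type*} [CommRing R]

/-- Below the sum of two lower bounds a product has no coefficients. -/
theorem coeff_mul_of_lt {x y : LaurentSeries R} {a b : ℤ}
    (hx : ∀ i < a, x.coeff i = 0) (hy : ∀ i < b, y.coeff i = 0) {n : ℤ} (hn : n < a + b) :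
    (x * y).coeff n = 0 := by
  rw [HahnSeries.coeff_mul]
  refine Finset.sum_eq_zero fun ij hij => ?_
  rw [Finset.mem_antidiagonal] at hij
  obtain ⟨-, -, hsum⟩ := hij
  by_cases h1 : ij.1 < a
  · rw [hx _ h1, zero_mul]
  · have h2 : ij.2 < b := by omega
    rw [hy _ h2, mul_zero]

/-- The coefficient of a product at the sum of two lower bounds. -/
theorem coeff_mul_add {x y : LaurentSeries R} {a b : ℤ}
    (hx : ∀ i < a, x.coeff i = 0) (hy : ∀ i < b, y.coeff i = 0) :
    (x * y).coeff (a + b) = x.coeff a * y.coeff b := by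
  rw [HahnSeries.coeff_mul]
  refine Finset.sum_eq_single (a, b) ?_ ?_
  · rintro ⟨i, j⟩ hij hne
    rw [Finset.mem_antidiagonal] at hij
    obtain ⟨-, -, hsum⟩ := hij
    simp only at hsum
    by_cases h1 : i < a
    · rw [hx _ h1, zero_mul]
    · by_cases h2 : j < b
      · rw [hy _ h2, mul_zero]
      · exfalso
        apply hne
        have h3 : i = a := by omega
        have h4 : j = b := by omega
        rw [h3, h4]
  · intro h
    rw [Finset.mem_antidiagonal] at h
    by_contra hne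
    exact h ⟨left_ne_zero_of_mul hne, right_ne_zero_of_mul hne, rfl⟩

theorem coeff_ofNat_mul (n : ℕ) [n.AtLeastTwo] (x : LaurentSeries R) (i : ℤ) :
    ((OfNat.ofNat n : LaurentSeries R) * x).coeff i = (OfNat.ofNat n : R) * x.coeff i := by
  rw [← map_ofNat (HahnSeries.C (Γ := ℤ) (R := R)) n, HahnSeries.C_mul_eq_smul,
    HahnSeries.coeff_smul, smul_eq_mul]

theorem coeff_ofNat_of_ne (n : ℕ) [n.AtLeastTwo] {i : ℤ} (hi : i ≠ 0) :
    (OfNat.ofNat n : LaurentSeries R).coeff i = 0 := by
  rw [← map_ofNat (HahnSeries.C (Γ := ℤ) (R := R)) n, HahnSeries.C_apply,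
    HahnSeries.coeff_single_of_ne hi]

variable (R)

theorem jq_pow_lb (n : ℕ) : ∀ i < -(n : ℤ), (jqModC R ^ n).coeff i = 0 :=
  fun _ hi => coeff_jqModC_pow_of_lt R hi

theorem jqM_pow_lb (M : ℕ) [NeZero M] (n : ℕ) :
    ∀ i < -((M : ℤ) * n), (qExpand R M (jqModC R) ^ n).coeff i = 0 := by
  intro i hi
  rw [← map_pow]
  by_cases hd : (M : ℤ) ∣ i
  · obtain ⟨i', rfl⟩ := hd
    rw [qExpand_coeff_mul]
    apply coeff_jqModC_pow_of_lt
    have hM : (0 : ℤ) < M := by exact_mod_cast Nat.pos_of_ne_zero (NeZero.ne M)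
    by_contra hcon
    have h1 : -(n : ℤ) ≤ i' := not_lt.mp hcon
    have h2 : (M : ℤ) * (-(n : ℤ)) ≤ (M : ℤ) * i' := mul_le_mul_of_nonneg_left h1 hM.le
    linarith
  · exact qExpand_coeff_of_not_dvd M _ hd

theorem jqM_pow_lead (M : ℕ) [NeZero M] (n : ℕ) :
    (qExpand R M (jqModC R) ^ n).coeff (-((M : ℤ) * n)) = 1 := by
  rw [← map_pow, show -((M : ℤ) * n) = (M : ℤ) * (-(n : ℤ)) by ring, qExpand_coeff_mul,
    coeff_jqModC_pow_self]

/-- Lower bound for a monomial `J ^ a * J_M ^ b`. -/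
theorem mono_lb (M : ℕ) [NeZero M] (a b : ℕ) :
    ∀ i < -(a : ℤ) + -((M : ℤ) * b),
      (jqModC R ^ a * qExpand R M (jqModC R) ^ b).coeff i = 0 :=
  fun _ hi => coeff_mul_of_lt (jq_pow_lb R a) (jqM_pow_lb R M b) hi

/-- Lowest coefficient of a monomial `J ^ a * J_M ^ b`. -/
theorem mono_lead (M : ℕ) [NeZero M] (a b : ℕ) :
    (jqModC R ^ a * qExpand R M (jqModC R) ^ b).coeff (-(a : ℤ) + -((M : ℤ) * b)) = 1 := by
  rw [coeff_mul_add (jq_pow_lb R a) (jqM_pow_lb R M b), coeff_jqModC_pow_self, jqM_pow_lead,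
    one_mul]

end Coeff

/-! ### Level two -/

section Two

variable (K : Type*) [Field K]

/-- The numerator of the elimination at level `2` is nonzero: its `q⁻³`-coefficient is `2¹²`. -/
theorem num_two_ne_zero (h2 : (2 : K) ≠ 0) :
    (4096 * (jqModC K * qExpand K 2 (jqModC K)) - 2949120 * jqModC K
      - 2949120 * qExpand K 2 (jqModC K) - 66562560000 : LaurentSeries K) ≠ 0 := by
  intro h
  have hc := congrArg (fun x : LaurentSeries K => x.coeff (-3)) h
  simp only [HahnSeries.coeff_sub, HahnSeries.coeff_zero] at hc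
  have e1 : (jqModC K * qExpand K 2 (jqModC K)).coeff (-3) = 1 := by
    have := mono_lead K 2 1 1
    simpa using this
  have e2 : (jqModC K).coeff (-3) = 0 := coeff_jqModC_of_lt K (by norm_num)
  have e3 : (qExpand K 2 (jqModC K)).coeff (-3) = 0 :=
    qExpand_coeff_of_not_dvd 2 _ (by norm_num)
  rw [coeff_ofNat_mul, coeff_ofNat_mul, coeff_ofNat_mul, coeff_ofNat_of_ne _ (by norm_num),
    e1, e2, e3] at hc
  have h4096 : (4096 : K) = 2 ^ 12 := by norm_num
  rw [mul_one, mul_zero, sub_zero, sub_zero, sub_zero, h4096] at hc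
  exact h2 (pow_eq_zero_iff (by norm_num) |>.mp hc)

/-- **(H3), level 2**: a solution `t` of the two Hauptmodul identities of `X₀(2)` lies in
`K(J, J(q²))`, over every field in which `2 ≠ 0`. -/
theorem mem_full_two (h2 : (2 : K) ≠ 0) (t : LaurentSeries K)
    (h1 : jqModC K * t ^ 2 = (t + 256) ^ 3)
    (h1' : qExpand K 2 (jqModC K) * t = (t + 16) ^ 3) :
    t ∈ modularFunctionFieldFullC K 2 := by
  have h2L : (2 : LaurentSeries K) ≠ 0 := by
    rw [← map_ofNat (algebraMap K (LaurentSeries K)) 2]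
    exact (map_ne_zero _).mpr h2
  have ht : t ≠ 0 := by
    rintro rfl
    have h256 : (256 : LaurentSeries K) = 2 ^ 8 := by norm_num
    rw [zero_pow (by norm_num), mul_zero, zero_add, h256] at h1
    exact h2L (pow_eq_zero_iff (by norm_num) |>.mp (pow_eq_zero_iff (by norm_num) |>.mp h1.symm))
  have hkey := elim_two t (jqModC K) (qExpand K 2 (jqModC K)) ht h1 h1'
  have hB := num_two_ne_zero K h2
  rw [← hkey] at hB
  have hA := right_ne_zero_of_mul hB
  have hJ : jqModC K ∈ modularFunctionFieldFullC K 2 := jqModC_mem_full K 2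
  have hJ2 : qExpand K 2 (jqModC K) ∈ modularFunctionFieldFullC K 2 :=
    jqModCd_mem_full K 2 dvd_rfl
  have hAm : jqModC K ^ 2 + 195120 * jqModC K + 4095 * qExpand K 2 (jqModC K) + 660960000 ∈
      modularFunctionFieldFullC K 2 :=
    add_mem (add_mem (add_mem (pow_mem hJ 2) (mul_mem (ofNat_mem _ _) hJ))
      (mul_mem (ofNat_mem _ _) hJ2)) (ofNat_mem _ _)
  have hBm : 4096 * (jqModC K * qExpand K 2 (jqModC K)) - 2949120 * jqModC K
      - 2949120 * qExpand K 2 (jqModC K) - 66562560000 ∈ modularFunctionFieldFullC K 2 :=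
    sub_mem (sub_mem (sub_mem (mul_mem (ofNat_mem _ _) (mul_mem hJ hJ2))
      (mul_mem (ofNat_mem _ _) hJ)) (mul_mem (ofNat_mem _ _) hJ2)) (ofNat_mem _ _)
  have ht_eq : t = (4096 * (jqModC K * qExpand K 2 (jqModC K)) - 2949120 * jqModC K
      - 2949120 * qExpand K 2 (jqModC K) - 66562560000) /
      (jqModC K ^ 2 + 195120 * jqModC K + 4095 * qExpand K 2 (jqModC K) + 660960000) := by
    rw [eq_div_iff hA]
    exact hkey
  rw [ht_eq]
  exact div_mem hBm hAm

end Two

/-! ### Level three -/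

section Three

variable (K : Type*) [Field K]

/-- The numerator of the elimination at level `3` is nonzero: its `q⁻⁷`-coefficient is `3¹²`. -/
theorem num_three_ne_zero (h3 : (3 : K) ≠ 0) :
    (531441 * (jqModC K * qExpand K 3 (jqModC K) ^ 2) + 729 * jqModC K ^ 3
      + 143489070 * (jqModC K ^ 2 * qExpand K 3 (jqModC K)) - 75419482320 * jqModC K ^ 2
      + 13720616192160 * (jqModC K * qExpand K 3 (jqModC K))
      + 201476523294720000 * jqModC K - 382637520 * qExpand K 3 (jqModC K) ^ 2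
      + 10373547294720000 * qExpand K 3 (jqModC K) - 2641807540224000000000 :
        LaurentSeries K) ≠ 0 := by
  intro h
  have hc := congrArg (fun x : LaurentSeries K => x.coeff (-7)) h
  simp only [HahnSeries.coeff_sub, HahnSeries.coeff_add, HahnSeries.coeff_zero] at hc
  have e1 : (jqModC K * qExpand K 3 (jqModC K) ^ 2).coeff (-7) = 1 := by
    have := mono_lead K 3 1 2
    simpa using this
  have e2 : (jqModC K ^ 3).coeff (-7) = 0 := coeff_jqModC_pow_of_lt K (by norm_num)
  have e3 : (jqModC K ^ 2 * qExpand K 3 (jqModC K)).coeff (-7) = 0 := by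
    have := mono_lb K 3 2 1 (-7) (by norm_num)
    simpa using this
  have e4 : (jqModC K ^ 2).coeff (-7) = 0 := coeff_jqModC_pow_of_lt K (by norm_num)
  have e5 : (jqModC K * qExpand K 3 (jqModC K)).coeff (-7) = 0 := by
    have := mono_lb K 3 1 1 (-7) (by norm_num)
    simpa using this
  have e6 : (jqModC K).coeff (-7) = 0 := coeff_jqModC_of_lt K (by norm_num)
  have e7 : (qExpand K 3 (jqModC K) ^ 2).coeff (-7) = 0 := jqM_pow_lb K 3 2 (-7) (by norm_num)
  have e8 : (qExpand K 3 (jqModC K)).coeff (-7) = 0 :=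
    qExpand_coeff_of_not_dvd 3 _ (by norm_num)
  rw [coeff_ofNat_mul, coeff_ofNat_mul, coeff_ofNat_mul, coeff_ofNat_mul, coeff_ofNat_mul,
    coeff_ofNat_mul, coeff_ofNat_mul, coeff_ofNat_mul, coeff_ofNat_of_ne _ (by norm_num),
    e1, e2, e3, e4, e5, e6, e7, e8] at hc
  have h531441 : (531441 : K) = 3 ^ 12 := by norm_num
  rw [mul_one, mul_zero, mul_zero, mul_zero, mul_zero, mul_zero, mul_zero, mul_zero, add_zero,
    add_zero, sub_zero, add_zero, add_zero, sub_zero, add_zero, sub_zero, h531441] at hc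
  exact h3 (pow_eq_zero_iff (by norm_num) |>.mp hc)

/-- **(H3), level 3**: a solution `t` of the two Hauptmodul identities of `X₀(3)` lies in
`K(J, J(q³))`, over every field in which `3 ≠ 0`. -/
theorem mem_full_three (h3 : (3 : K) ≠ 0) (t : LaurentSeries K)
    (h1 : jqModC K * t ^ 3 = (t + 27) * (t + 243) ^ 3)
    (h1' : qExpand K 3 (jqModC K) * t = (t + 27) * (t + 3) ^ 3) :
    t ∈ modularFunctionFieldFullC K 3 := by
  have h3L : (3 : LaurentSeries K) ≠ 0 := by
    rw [← map_ofNat (algebraMap K (LaurentSeries K)) 3]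
    exact (map_ne_zero _).mpr h3
  have ht : t ≠ 0 := by
    rintro rfl
    have h27 : ((0 : LaurentSeries K) + 27) * (0 + 243) ^ 3 = 3 ^ 18 := by norm_num
    rw [zero_pow (by norm_num), mul_zero, h27] at h1
    exact h3L (pow_eq_zero_iff (by norm_num) |>.mp h1.symm)
  have hkey := elim_three t (jqModC K) (qExpand K 3 (jqModC K)) ht h1 h1'
  have hB := num_three_ne_zero K h3
  rw [← hkey] at hB
  have hA := right_ne_zero_of_mul hB
  have hJ : jqModC K ∈ modularFunctionFieldFullC K 3 := jqModC_mem_full K 3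
  have hJ3 : qExpand K 3 (jqModC K) ∈ modularFunctionFieldFullC K 3 :=
    jqModCd_mem_full K 3 dvd_rfl
  have hAm : jqModC K ^ 3 * qExpand K 3 (jqModC K) - 756 * jqModC K ^ 3
      + 19129644 * (jqModC K ^ 2 * qExpand K 3 (jqModC K)) + 23150726640 * jqModC K ^ 2
      + 76509442080 * (jqModC K * qExpand K 3 (jqModC K)) - 14204206448640000 * jqModC K
      + 531440 * qExpand K 3 (jqModC K) ^ 2 - 48430448640000 * qExpand K 3 (jqModC K)
      + 97844723712000000000 ∈ modularFunctionFieldFullC K 3 :=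
    add_mem (sub_mem (add_mem (sub_mem (add_mem (add_mem (add_mem (sub_mem
      (mul_mem (pow_mem hJ 3) hJ3)
      (mul_mem (ofNat_mem _ _) (pow_mem hJ 3)))
      (mul_mem (ofNat_mem _ _) (mul_mem (pow_mem hJ 2) hJ3)))
      (mul_mem (ofNat_mem _ _) (pow_mem hJ 2)))
      (mul_mem (ofNat_mem _ _) (mul_mem hJ hJ3)))
      (mul_mem (ofNat_mem _ _) hJ))
      (mul_mem (ofNat_mem _ _) (pow_mem hJ3 2)))
      (mul_mem (ofNat_mem _ _) hJ3))
      (ofNat_mem _ _)
  have hBm : 531441 * (jqModC K * qExpand K 3 (jqModC K) ^ 2) + 729 * jqModC K ^ 3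
      + 143489070 * (jqModC K ^ 2 * qExpand K 3 (jqModC K)) - 75419482320 * jqModC K ^ 2
      + 13720616192160 * (jqModC K * qExpand K 3 (jqModC K))
      + 201476523294720000 * jqModC K - 382637520 * qExpand K 3 (jqModC K) ^ 2
      + 10373547294720000 * qExpand K 3 (jqModC K) - 2641807540224000000000 ∈
      modularFunctionFieldFullC K 3 :=
    sub_mem (add_mem (sub_mem (add_mem (add_mem (sub_mem (add_mem (add_mem
      (mul_mem (ofNat_mem _ _) (mul_mem hJ (pow_mem hJ3 2)))
      (mul_mem (ofNat_mem _ _) (pow_mem hJ 3)))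
      (mul_mem (ofNat_mem _ _) (mul_mem (pow_mem hJ 2) hJ3)))
      (mul_mem (ofNat_mem _ _) (pow_mem hJ 2)))
      (mul_mem (ofNat_mem _ _) (mul_mem hJ hJ3)))
      (mul_mem (ofNat_mem _ _) hJ))
      (mul_mem (ofNat_mem _ _) (pow_mem hJ3 2)))
      (mul_mem (ofNat_mem _ _) hJ3))
      (ofNat_mem _ _)
  have ht_eq : t = (531441 * (jqModC K * qExpand K 3 (jqModC K) ^ 2) + 729 * jqModC K ^ 3
      + 143489070 * (jqModC K ^ 2 * qExpand K 3 (jqModC K)) - 75419482320 * jqModC K ^ 2
      + 13720616192160 * (jqModC K * qExpand K 3 (jqModC K))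
      + 201476523294720000 * jqModC K - 382637520 * qExpand K 3 (jqModC K) ^ 2
      + 10373547294720000 * qExpand K 3 (jqModC K) - 2641807540224000000000) /
      (jqModC K ^ 3 * qExpand K 3 (jqModC K) - 756 * jqModC K ^ 3
      + 19129644 * (jqModC K ^ 2 * qExpand K 3 (jqModC K)) + 23150726640 * jqModC K ^ 2
      + 76509442080 * (jqModC K * qExpand K 3 (jqModC K)) - 14204206448640000 * jqModC K
      + 531440 * qExpand K 3 (jqModC K) ^ 2 - 48430448640000 * qExpand K 3 (jqModC K)
      + 97844723712000000000) := by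
    rw [eq_div_iff hA]
    exact hkey
  rw [ht_eq]
  exact div_mem hBm hAm

end Three

/-! ### Higher levels and the generated field -/

section Levels

variable (K : Type*) [Field K]

/-- The function fields grow with the level. -/
theorem fullC_mono {M L : ℕ} [NeZero M] [NeZero L] (h : M ∣ L) :
    modularFunctionFieldFullC K M ≤ modularFunctionFieldFullC K L := by
  rw [modularFunctionFieldFullC, IntermediateField.adjoin_le_iff]
  rintro x ⟨d, hne, hd, rfl⟩
  have := hne
  exact jqModCd_mem_full K L (hd.trans h)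

/-- (H3) at every level divisible by `2`. -/
theorem mem_full_of_two_dvd (h2 : (2 : K) ≠ 0) {L : ℕ} [NeZero L] (hL : 2 ∣ L)
    (t : LaurentSeries K) (h1 : jqModC K * t ^ 2 = (t + 256) ^ 3)
    (h1' : qExpand K 2 (jqModC K) * t = (t + 16) ^ 3) :
    t ∈ modularFunctionFieldFullC K L :=
  fullC_mono K hL (mem_full_two K h2 t h1 h1')

/-- (H3) at every level divisible by `3`. -/
theorem mem_full_of_three_dvd (h3 : (3 : K) ≠ 0) {L : ℕ} [NeZero L] (hL : 3 ∣ L)
    (t : LaurentSeries K) (h1 : jqModC K * t ^ 3 = (t + 27) * (t + 243) ^ 3)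
    (h1' : qExpand K 3 (jqModC K) * t = (t + 27) * (t + 3) ^ 3) :
    t ∈ modularFunctionFieldFullC K L :=
  fullC_mono K hL (mem_full_three K h3 t h1 h1')

/-- A solution of the first identity of `X₀(2)` is nonzero when `2 ≠ 0`. -/
theorem ne_zero_of_two (h2 : (2 : K) ≠ 0) (t : LaurentSeries K)
    (h1 : jqModC K * t ^ 2 = (t + 256) ^ 3) : t ≠ 0 := by
  have h2L : (2 : LaurentSeries K) ≠ 0 := by
    rw [← map_ofNat (algebraMap K (LaurentSeries K)) 2]
    exact (map_ne_zero _).mpr h2
  rintro rfl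
  have h256 : (256 : LaurentSeries K) = 2 ^ 8 := by norm_num
  rw [zero_pow (by norm_num), mul_zero, zero_add, h256] at h1
  exact h2L (pow_eq_zero_iff (by norm_num) |>.mp (pow_eq_zero_iff (by norm_num) |>.mp h1.symm))

/-- A solution of the first identity of `X₀(3)` is nonzero when `3 ≠ 0`. -/
theorem ne_zero_of_three (h3 : (3 : K) ≠ 0) (t : LaurentSeries K)
    (h1 : jqModC K * t ^ 3 = (t + 27) * (t + 243) ^ 3) : t ≠ 0 := by
  have h3L : (3 : LaurentSeries K) ≠ 0 := by
    rw [← map_ofNat (algebraMap K (LaurentSeries K)) 3]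
    exact (map_ne_zero _).mpr h3
  rintro rfl
  have h27 : ((0 : LaurentSeries K) + 27) * (0 + 243) ^ 3 = 3 ^ 18 := by norm_num
  rw [zero_pow (by norm_num), mul_zero, h27] at h1
  exact h3L (pow_eq_zero_iff (by norm_num) |>.mp h1.symm)

/-- `K(t) = K(J, J(q²))` for a solution `t` of the Hauptmodul identities of `X₀(2)`. -/
theorem adjoin_eq_full_two (h2 : (2 : K) ≠ 0) (t : LaurentSeries K)
    (h1 : jqModC K * t ^ 2 = (t + 256) ^ 3)
    (h1' : qExpand K 2 (jqModC K) * t = (t + 16) ^ 3) :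
    IntermediateField.adjoin K {t} = modularFunctionFieldFullC K 2 := by
  have ht := ne_zero_of_two K h2 t h1
  refine le_antisymm ?_ ?_
  · rw [IntermediateField.adjoin_le_iff, Set.singleton_subset_iff]
    exact mem_full_two K h2 t h1 h1'
  · rw [modularFunctionFieldFullC, IntermediateField.adjoin_le_iff]
    rintro x ⟨d, hne, hd, rfl⟩
    have htm : t ∈ IntermediateField.adjoin K {t} := IntermediateField.mem_adjoin_simple_self K t
    have hJ : jqModC K = (t + 256) ^ 3 / t ^ 2 := by
      rw [eq_div_iff (pow_ne_zero 2 ht)]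
      exact h1
    have hJ2 : qExpand K 2 (jqModC K) = (t + 16) ^ 3 / t := by
      rw [eq_div_iff ht]
      exact h1'
    rcases (Nat.dvd_prime Nat.prime_two).mp hd with rfl | rfl
    · rw [SetLike.mem_coe, qExpand_one_apply, hJ]
      exact div_mem (pow_mem (add_mem htm (ofNat_mem _ _)) 3) (pow_mem htm 2)
    · rw [SetLike.mem_coe, hJ2]
      exact div_mem (pow_mem (add_mem htm (ofNat_mem _ _)) 3) htm

/-- `K(t) = K(J, J(q³))` for a solution `t` of the Hauptmodul identities of `X₀(3)`. -/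
theorem adjoin_eq_full_three (h3 : (3 : K) ≠ 0) (t : LaurentSeries K)
    (h1 : jqModC K * t ^ 3 = (t + 27) * (t + 243) ^ 3)
    (h1' : qExpand K 3 (jqModC K) * t = (t + 27) * (t + 3) ^ 3) :
    IntermediateField.adjoin K {t} = modularFunctionFieldFullC K 3 := by
  have ht := ne_zero_of_three K h3 t h1
  refine le_antisymm ?_ ?_
  · rw [IntermediateField.adjoin_le_iff, Set.singleton_subset_iff]
    exact mem_full_three K h3 t h1 h1'
  · rw [modularFunctionFieldFullC, IntermediateField.adjoin_le_iff]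
    rintro x ⟨d, hne, hd, rfl⟩
    have htm : t ∈ IntermediateField.adjoin K {t} := IntermediateField.mem_adjoin_simple_self K t
    have hJ : jqModC K = (t + 27) * (t + 243) ^ 3 / t ^ 3 := by
      rw [eq_div_iff (pow_ne_zero 3 ht)]
      exact h1
    have hJ3 : qExpand K 3 (jqModC K) = (t + 27) * (t + 3) ^ 3 / t := by
      rw [eq_div_iff ht]
      exact h1'
    rcases (Nat.dvd_prime Nat.prime_three).mp hd with rfl | rfl
    · rw [SetLike.mem_coe, qExpand_one_apply, hJ]
      exact div_mem (mul_mem (add_mem htm (ofNat_mem _ _))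
        (pow_mem (add_mem htm (ofNat_mem _ _)) 3)) (pow_mem htm 3)
    · rw [SetLike.mem_coe, hJ3]
      exact div_mem (mul_mem (add_mem htm (ofNat_mem _ _))
        (pow_mem (add_mem htm (ofNat_mem _ _)) 3)) htm

end Levels

end Fermat.Agent.S18.H09
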