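import Mathlib
import Fermat.Agent.S16.Eis_helper26
import Fermat.Agent.S23.Nice_helper52
import Fermat.Agent.S24.JqBridge_helper74
import Fermat.Prelude.Thm_ModularForm_sturm_bound_Gamma0

/-!
# S18, node HAUPT (second seat, helper25): generic layer

* `Cov p k F`: `F : ℍ → ℂ` is holomorphic, transforms with weight `k` under `Γ₀(p)` and all its
  `SL(2,ℤ)`-translates are bounded at `i∞`, in a form closed under sums and products
  (natural-number weights, no casts between graded pieces).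
* `cov_levelOne`, `cov_scale`: level-one forms `f` and `z ↦ f (p z)` (`p` prime).
* `Cov.toMF`: the associated element of `ModularForm (Gamma0 p) k`.
* `qExpansion_scale`: `qExpansion 1 (z ↦ F (p z)) = (qExpansion 1 F).expand p`.
* `Cov.eq_zero_of_coeff`: the Prelude Sturm bound in this language.
-/

set_option autoImplicit false

namespace Fermat.Agent.S18.H25

open UpperHalfPlane ModularForm CongruenceSubgroup EisensteinSeries
open scoped MatrixGroups ModularForm Manifold Real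
open Fermat.Agent.S16.H26 (mulH divH coe_mulH coe_divH)
open Fermat.Agent.S23.H30 (IsNice)

noncomputable section

/-- The automorphy factor `c z + d`. -/
def aut (γ : SL(2, ℤ)) (z : ℍ) : ℂ := (γ 1 0 : ℂ) * z + γ 1 1

theorem aut_ne (γ : SL(2, ℤ)) (z : ℍ) : aut γ z ≠ 0 := Fermat.Agent.S16.H26.denom_ne γ z

theorem denom_eq_aut (γ : SL(2, ℤ)) (z : ℍ) :
    denom (Matrix.SpecialLinearGroup.toGL
      ((Matrix.SpecialLinearGroup.map (Int.castRingHom ℝ)) γ)) z = aut γ z := by
  rw [aut, ← ModularGroup.denom_apply]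

/-- Weight `k` covariance for `Γ₀(p)` with bounded translates. -/
structure Cov (p : ℕ) (k : ℕ) (F : ℍ → ℂ) : Prop where
  mdiff : MDiff F
  bdd : IsBoundedAtImInfty F
  inv : ∀ γ : SL(2, ℤ), (p : ℤ) ∣ γ 1 0 → ∀ z : ℍ, F (γ • z) = aut γ z ^ k * F z
  cusp : ∀ γ : SL(2, ℤ), ¬ (p : ℤ) ∣ γ 1 0 →
    ∃ H : ℍ → ℂ, IsBoundedAtImInfty H ∧ ∀ z : ℍ, F (γ • z) = aut γ z ^ k * H z

namespace Cov

variable {p : ℕ} {k l : ℕ} {F G : ℍ → ℂ}

theorem add (hF : Cov p k F) (hG : Cov p k G) : Cov p k (F + G) where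
  mdiff := hF.mdiff.add hG.mdiff
  bdd := hF.bdd.add hG.bdd
  inv γ h z := by
    simp only [Pi.add_apply, hF.inv γ h z, hG.inv γ h z]; ring
  cusp γ h := by
    obtain ⟨H1, hb1, h1⟩ := hF.cusp γ h
    obtain ⟨H2, hb2, h2⟩ := hG.cusp γ h
    exact ⟨H1 + H2, hb1.add hb2, fun z => by simp only [Pi.add_apply, h1 z, h2 z]; ring⟩

theorem const_mul (c : ℂ) (hF : Cov p k F) : Cov p k (fun z => c * F z) where
  mdiff := mdifferentiable_const.mul hF.mdiff
  bdd := by
    have := (Filter.const_boundedAtFilter atImInfty c).mul hF.bdd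
    exact this
  inv γ h z := by
    simp only [hF.inv γ h z]; ring
  cusp γ h := by
    obtain ⟨H1, hb1, h1⟩ := hF.cusp γ h
    refine ⟨fun z => c * H1 z, ?_, fun z => by simp only [h1 z]; ring⟩
    exact (Filter.const_boundedAtFilter atImInfty c).mul hb1

theorem neg (hF : Cov p k F) : Cov p k (-F) := by
  have := hF.const_mul (-1)
  convert this using 1
  ext z; simp

theorem sub (hF : Cov p k F) (hG : Cov p k G) : Cov p k (F - G) := by
  rw [sub_eq_add_neg]; exact hF.add hG.neg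

theorem mul (hF : Cov p k F) (hG : Cov p l G) : Cov p (k + l) (F * G) where
  mdiff := hF.mdiff.mul hG.mdiff
  bdd := hF.bdd.mul hG.bdd
  inv γ h z := by
    simp only [Pi.mul_apply, hF.inv γ h z, hG.inv γ h z]; ring
  cusp γ h := by
    obtain ⟨H1, hb1, h1⟩ := hF.cusp γ h
    obtain ⟨H2, hb2, h2⟩ := hG.cusp γ h
    exact ⟨H1 * H2, hb1.mul hb2, fun z => by simp only [Pi.mul_apply, h1 z, h2 z]; ring⟩

theorem congr_weight {k' : ℕ} (hF : Cov p k F) (h : k = k') : Cov p k' F := h ▸ hF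

end Cov

/-- Level-one input: any holomorphic bounded function with the full `SL(2,ℤ)` transformation law. -/
theorem cov_levelOne (p : ℕ) {k : ℕ} {f : ℍ → ℂ} (hf : MDiff f) (hb : IsBoundedAtImInfty f)
    (hsm : ∀ (γ : SL(2, ℤ)) (z : ℍ), f (γ • z) = aut γ z ^ k * f z) : Cov p k f where
  mdiff := hf
  bdd := hb
  inv γ _ z := hsm γ z
  cusp γ _ := ⟨f, hb, hsm γ⟩

/-- `z ↦ f (p z)` for a level-one input `f` and a prime `p`. -/
theorem cov_scale (p : ℕ) [NeZero p] (hp : p.Prime) {k : ℕ} {f : ℍ → ℂ} (hf : MDiff f)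
    (hb : IsBoundedAtImInfty f)
    (hsm : ∀ (γ : SL(2, ℤ)) (z : ℍ), f (γ • z) = aut γ z ^ k * f z) :
    Cov p k (fun z => f (mulH p z)) where
  mdiff := Fermat.Agent.S16.H26.mdiff_comp_mulH p hf
  bdd := Fermat.Agent.S16.H26.bdd_comp_mulH p hb
  inv γ h z := by
    obtain ⟨γ', h10, h11, hz⟩ := Fermat.Agent.S16.H26.exists_conj_of_dvd p γ h
    rw [hz z, hsm]
    congr 2
    rw [aut, aut, coe_mulH, h11, ← h10]
    push_cast
    ring
  cusp γ h := by
    obtain ⟨j, γ', h10, h11, hz⟩ := Fermat.Agent.S16.H26.exists_conj_of_not_dvd p hp γ h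
    have hp0 : (p : ℂ) ≠ 0 := Nat.cast_ne_zero.mpr (NeZero.ne p)
    refine ⟨fun z => ((p : ℂ)⁻¹) ^ k * f (divH p j z), ?_, fun z => ?_⟩
    · exact (Filter.const_boundedAtFilter atImInfty (((p : ℂ)⁻¹) ^ k)).mul
        (Fermat.Agent.S16.H26.bdd_comp_divH p j hb)
    · rw [hz z, hsm]
      have h11' : (γ' 1 1 : ℂ) * p = (γ 1 1 : ℂ) - (γ 1 0 : ℂ) * j := by exact_mod_cast h11
      have : aut γ' (divH p j z) = aut γ z * (p : ℂ)⁻¹ := by
        rw [aut, aut, coe_divH, h10]
        field_simp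
        linear_combination h11'
      rw [this, mul_pow]
      ring

/-- The modular form on `Γ₀(p)` attached to a covariant function. -/
def Cov.toMF {p : ℕ} [NeZero p] {k : ℕ} {F : ℍ → ℂ} (h : Cov p k F) :
    ModularForm (Gamma0 p) (k : ℤ) where
  toFun := F
  slash_action_eq' := by
    intro γ hγ
    obtain ⟨γ₀, hγ₀, rfl⟩ := Subgroup.mem_map.mp hγ
    have hd : (p : ℤ) ∣ γ₀ 1 0 :=
      (ZMod.intCast_zmod_eq_zero_iff_dvd _ _).mp (Gamma0_mem.mp hγ₀)
    show F ∣[(k : ℤ)] γ₀ = F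
    ext z
    rw [SL_slash_apply, denom_eq_aut, h.inv γ₀ hd z, zpow_neg, zpow_natCast]
    have := aut_ne γ₀ z
    field_simp
  holo' := h.mdiff
  bdd_at_cusps' := by
    intro c hc
    rw [Subgroup.IsArithmetic.isCusp_iff_isCusp_SL2Z] at hc
    rw [OnePoint.isBoundedAt_iff_forall_SL2Z hc]
    intro γ _
    by_cases hd : (p : ℤ) ∣ γ 1 0
    · have : F ∣[(k : ℤ)] γ = F := by
        ext z
        rw [SL_slash_apply, denom_eq_aut, h.inv γ hd z, zpow_neg, zpow_natCast]
        have := aut_ne γ z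
        field_simp
      rw [this]
      exact h.bdd
    · obtain ⟨H, hb, hH⟩ := h.cusp γ hd
      have : F ∣[(k : ℤ)] γ = H := by
        ext z
        rw [SL_slash_apply, denom_eq_aut, hH z, zpow_neg, zpow_natCast]
        have := aut_ne γ z
        field_simp
      rw [this]
      exact hb

@[simp] theorem Cov.toMF_apply {p : ℕ} [NeZero p] {k : ℕ} {F : ℍ → ℂ} (h : Cov p k F) (z : ℍ) :
    h.toMF z = F z := rfl

theorem Cov.coe_toMF {p : ℕ} [NeZero p] {k : ℕ} {F : ℍ → ℂ} (h : Cov p k F) :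
    (h.toMF : ℍ → ℂ) = F := rfl

/-- Sturm bound for covariant functions. -/
theorem Cov.eq_zero_of_coeff {p : ℕ} [NeZero p] {k : ℕ} {F : ℍ → ℂ} (h : Cov p k F)
    (hc : ∀ n : ℕ, n ≤ ((k : ℤ) * (Gamma0 p).index).toNat / 12 →
      (qExpansion 1 F).coeff n = 0) : F = 0 := by
  have := ModularForm.sturm_bound_Gamma0 p h.toMF hc
  funext z
  have h2 := congrArg (fun f : ModularForm (Gamma0 p) (k : ℤ) => f z) this
  exact h2

/-- Covariant functions are nice. -/
theorem Cov.isNice {p : ℕ} [NeZero p] {k : ℕ} {F : ℍ → ℂ} (h : Cov p k F) : IsNice F :=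
  Fermat.Agent.S23.H52.isNice_of_Gamma0 h.toMF

/-- `q`-expansion of `z ↦ F (p z)`. -/
theorem qExpansion_scale (p : ℕ) [NeZero p] {F : ℍ → ℂ} (hF : IsNice F)
    (hF' : IsNice (fun z => F (mulH p z))) :
    qExpansion 1 (fun z => F (mulH p z)) = (qExpansion 1 F).expand p (NeZero.ne p) := by
  ext m
  have key := Fermat.Agent.S24.H74.qExpansion_coeff_unique_of_isNice hF'
    (c := fun m => ((qExpansion 1 F).expand p (NeZero.ne p)).coeff m) (fun τ => ?_) m
  · exact key.symm
  · have hp : 0 < p := NeZero.pos p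
    have H := hF.hasSum_qExpansion (mulH p τ)
    have hq : Function.Periodic.qParam 1 ((mulH p τ : ℍ) : ℂ) =
        Function.Periodic.qParam 1 (τ : ℂ) ^ p := by
      simp only [Function.Periodic.qParam, coe_mulH, ← Complex.exp_nat_mul]
      congr 1
      push_cast
      ring
    rw [hq] at H
    have hinj : Function.Injective (fun m : ℕ => p * m) := fun a b hab =>
      Nat.eq_of_mul_eq_mul_left hp hab
    rw [← hinj.hasSum_iff]
    · convert H using 1
      funext n
      simp only [Function.comp_apply, PowerSeries.coeff_expand_mul, pow_mul]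
    · intro k hk
      have hnd : ¬ p ∣ k := fun ⟨m, hm⟩ => hk ⟨m, hm.symm⟩
      simp [PowerSeries.coeff_expand_of_not_dvd p (NeZero.ne p) _ hnd]

/-! ### Level-one inputs -/

theorem E4_aut (γ : SL(2, ℤ)) (z : ℍ) : E₄ (γ • z) = aut γ z ^ 4 * E₄ z := by
  have : SlashInvariantFormClass (ModularForm 𝒮ℒ 4) Γ(1) 4 :=
    CongruenceSubgroup.Gamma_one_coe_eq_SL ▸ inferInstance
  have h := SlashInvariantForm.slash_action_eqn_SL'' E₄ (CongruenceSubgroup.mem_Gamma_one γ) z
  rw [denom_eq_aut] at h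
  rw [h]
  norm_cast

theorem disc_aut (γ : SL(2, ℤ)) (z : ℍ) :
    discriminant (γ • z) = aut γ z ^ 12 * discriminant z := by
  have : SlashInvariantFormClass (CuspForm 𝒮ℒ 12) Γ(1) 12 :=
    CongruenceSubgroup.Gamma_one_coe_eq_SL ▸ inferInstance
  have h := SlashInvariantForm.slash_action_eqn_SL'' CuspForm.discriminant
    (CongruenceSubgroup.mem_Gamma_one γ) z
  rw [denom_eq_aut] at h
  have h' : discriminant (γ • z) = aut γ z ^ (12 : ℤ) * discriminant z := h
  rw [h']
  norm_cast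

theorem isNice_E4 : IsNice (⇑E₄) := Fermat.Agent.S23.H52.isNice_of_levelOne E₄

theorem isNice_disc : IsNice discriminant :=
  Fermat.Agent.S23.H52.isNice_of_cusp_levelOne CuspForm.discriminant

theorem cov_E4 (p : ℕ) : Cov p 4 (⇑E₄) :=
  cov_levelOne p isNice_E4.mdiff isNice_E4.bdd E4_aut

theorem cov_disc (p : ℕ) : Cov p 12 discriminant :=
  cov_levelOne p isNice_disc.mdiff isNice_disc.bdd disc_aut

theorem cov_E4_scale (p : ℕ) [NeZero p] (hp : p.Prime) : Cov p 4 (fun z => E₄ (mulH p z)) :=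
  cov_scale p hp isNice_E4.mdiff isNice_E4.bdd E4_aut

theorem cov_disc_scale (p : ℕ) [NeZero p] (hp : p.Prime) :
    Cov p 12 (fun z => discriminant (mulH p z)) :=
  cov_scale p hp isNice_disc.mdiff isNice_disc.bdd disc_aut

/-- `q`-expansion of `E₄(p z)`. -/
theorem qExpansion_E4_scale (p : ℕ) [NeZero p] (hp : p.Prime) :
    qExpansion 1 (fun z => E₄ (mulH p z)) =
      (ModularCurve.eisenstein4.expand p (NeZero.ne p)).map (Int.castRingHom ℂ) := by
  rw [qExpansion_scale p isNice_E4 (cov_E4_scale p hp).isNice,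
    Fermat.Agent.S24.H74.qExpansion_E4, PowerSeries.map_expand]

/-- `q`-expansion of `Δ(p z)`. -/
theorem qExpansion_disc_scale (p : ℕ) [NeZero p] (hp : p.Prime) :
    qExpansion 1 (fun z => discriminant (mulH p z)) =
      ((PowerSeries.X * ModularCurve.dedekindEtaUnit).expand p (NeZero.ne p)).map
        (Int.castRingHom ℂ) := by
  rw [qExpansion_scale p isNice_disc (cov_disc_scale p hp).isNice,
    Fermat.Agent.S24.H74.qExpansion_discriminant, PowerSeries.map_expand]
  congr 1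
  rw [map_mul, PowerSeries.map_X]

end

end Fermat.Agent.S18.H25
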