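import Mathlib
import Fermat.Prelude.Thm_ModularForm_sturm_bound_Gamma0
import Fermat.Agent.S23.PrimElt_helper35
import Fermat.Agent.S24.JqBridge_helper74
import Fermat.Agent.S18.HauptCoef_helper77

/-!
# The Hauptmodul identities of `X₀(2)`, `X₀(3)`: modular part (helper77)

`G2A = G2B = G3A = G3B = 0` in `ℤ⟦X⟧` (see `HauptCoef_helper77`), by the Sturm bound of the
Prelude for `Γ₀(2)` (weight `36`) and `Γ₀(3)` (weight `48`):
the four series are the `q`-expansions of polynomial expressions in `E₄(z)`, `E₄(pz)`, `Δ(z)`,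
`Δ(pz)`, and their first `17` coefficients vanish.

Reusable pieces: `index_Gamma0_prime_le`, `IsMF` (functions that are modular forms on `Γ₀(N)`),
`lvl N f = f(N·)` with `isMF_lvl`, `qExpansion_lvl`, and `QE` (integral `q`-expansions).
-/

set_option autoImplicit false

namespace Fermat.Agent.S18.H77

open UpperHalfPlane ModularForm CongruenceSubgroup Matrix.SpecialLinearGroup
open scoped MatrixGroups ModularForm Manifold

open Fermat.Agent.S23.H30 (IsNice)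

/-! ### index of `Γ₀(p)` -/

theorem index_Gamma0_prime_le (p : ℕ) [Fact p.Prime] : (Gamma0 p).index ≤ p + 1 := by
  classical
  let φ : SL(2, ℤ) → Option (ZMod p) := fun g =>
    if ((g 1 0 : ℤ) : ZMod p) = 0 then none
    else some (((g 0 0 : ℤ) : ZMod p) * (((g 1 0 : ℤ) : ZMod p))⁻¹)
  have hφ : ∀ g g' : SL(2, ℤ), φ g = φ g' → g⁻¹ * g' ∈ Gamma0 p := by
    intro g g' h
    rw [Gamma0_mem]
    have key : (g⁻¹ * g') 1 0 = - g 1 0 * g' 0 0 + g 0 0 * g' 1 0 := by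
      rw [Matrix.SpecialLinearGroup.coe_mul, Matrix.SpecialLinearGroup.coe_inv,
        Matrix.adjugate_fin_two, Matrix.mul_apply, Fin.sum_univ_two]
      simp
    rw [key]
    push_cast
    by_cases hc : ((g 1 0 : ℤ) : ZMod p) = 0
    · by_cases hc' : ((g' 1 0 : ℤ) : ZMod p) = 0
      · rw [hc, hc']; ring
      · simp [φ, hc, hc'] at h
    · by_cases hc' : ((g' 1 0 : ℤ) : ZMod p) = 0
      · simp [φ, hc, hc'] at h
      · simp only [φ, hc, hc', if_false, Option.some.injEq] at h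
        have h2 : ((g 0 0 : ℤ) : ZMod p) * ((g' 1 0 : ℤ) : ZMod p) =
            ((g' 0 0 : ℤ) : ZMod p) * ((g 1 0 : ℤ) : ZMod p) := by
          field_simp at h
          linear_combination h
        linear_combination h2
  have hinj : Function.Injective (fun q : SL(2, ℤ) ⧸ Gamma0 p => φ q.out) := by
    intro q q' h
    have := hφ _ _ h
    rw [← QuotientGroup.out_eq' q, ← QuotientGroup.out_eq' q']
    exact QuotientGroup.eq.mpr this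
  have h1 := Nat.card_le_card_of_injective _ hinj
  have h2 : Nat.card (Option (ZMod p)) = p + 1 := by
    rw [Nat.card_eq_fintype_card, Fintype.card_option, ZMod.card]
  rw [h2] at h1
  simpa [Subgroup.index] using h1


/-! ### Functions that are modular forms on `Γ₀(N)` -/

/-- `g` is (the underlying function of) a modular form of weight `k` on `Γ₀(N)`. -/
def IsMF (N : ℕ) (k : ℤ) (g : ℍ → ℂ) : Prop := ∃ f : ModularForm (Gamma0 N) k, ⇑f = g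

theorem IsMF.add {N : ℕ} {k : ℤ} {g₁ g₂ : ℍ → ℂ} (h₁ : IsMF N k g₁) (h₂ : IsMF N k g₂) :
    IsMF N k (g₁ + g₂) := by
  obtain ⟨f₁, rfl⟩ := h₁; obtain ⟨f₂, rfl⟩ := h₂; exact ⟨f₁ + f₂, rfl⟩

theorem IsMF.sub {N : ℕ} {k : ℤ} {g₁ g₂ : ℍ → ℂ} (h₁ : IsMF N k g₁) (h₂ : IsMF N k g₂) :
    IsMF N k (g₁ - g₂) := by
  obtain ⟨f₁, rfl⟩ := h₁; obtain ⟨f₂, rfl⟩ := h₂; exact ⟨f₁ - f₂, rfl⟩

theorem IsMF.smul {N : ℕ} {k : ℤ} {g : ℍ → ℂ} (h : IsMF N k g) (c : ℂ) : IsMF N k (c • g) := by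
  obtain ⟨f, rfl⟩ := h; exact ⟨c • f, rfl⟩

theorem IsMF.mul {N : ℕ} {k₁ k₂ : ℤ} {g₁ g₂ : ℍ → ℂ} (h₁ : IsMF N k₁ g₁) (h₂ : IsMF N k₂ g₂) :
    IsMF N (k₁ + k₂) (g₁ * g₂) := by
  obtain ⟨f₁, rfl⟩ := h₁; obtain ⟨f₂, rfl⟩ := h₂; exact ⟨f₁.mul f₂, rfl⟩

theorem IsMF.cast {N : ℕ} {k k' : ℤ} {g : ℍ → ℂ} (h : IsMF N k g) (hk : k = k') : IsMF N k' g :=
  hk ▸ h

theorem isMF_one (N : ℕ) : IsMF N 0 1 := ⟨1, ModularForm.one_coe_eq_one⟩

theorem IsMF.pow {N : ℕ} {k : ℤ} {g : ℍ → ℂ} (h : IsMF N k g) (n : ℕ) : IsMF N (n * k) (g ^ n) := by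
  induction n with
  | zero => simpa using isMF_one N
  | succ n ih => rw [pow_succ]; exact (ih.mul h).cast (by push_cast; ring)

theorem IsMF.isNice {N : ℕ} [NeZero N] {k : ℤ} {g : ℍ → ℂ} (h : IsMF N k g) : IsNice g := by
  obtain ⟨f, rfl⟩ := h; exact Fermat.Agent.S23.H52.isNice_of_Gamma0 f

theorem isMF_of_levelOne (N : ℕ) {k : ℤ} (a : ModularForm 𝒮ℒ k) : IsMF N k ⇑a :=
  ⟨{ toFun := a
     slash_action_eq' := fun γ hγ => a.slash_action_eq' γ (Subgroup.map_le_range _ _ hγ)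
     holo' := a.holo'
     bdd_at_cusps' := fun hc => a.bdd_at_cusps' (hc.mono (Subgroup.map_le_range _ _)) }, rfl⟩

/-- Sturm bound for functions. -/
theorem IsMF.eq_zero {N : ℕ} [NeZero N] {k : ℤ} {g : ℍ → ℂ} (h : IsMF N k g) (B : ℕ)
    (hB : (k * (Gamma0 N).index).toNat / 12 ≤ B)
    (hc : ∀ n ≤ B, (qExpansion 1 g).coeff n = 0) : g = 0 := by
  obtain ⟨f, rfl⟩ := h
  have := ModularForm.sturm_bound_Gamma0 N f (fun n hn => hc n (hn.trans hB))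
  rw [this]; rfl


/-! ### Level raising `f(z) ↦ f(N z)` -/

/-- `z ↦ f (N z)` -/
noncomputable def lvl (N : ℕ) (f : ℍ → ℂ) : ℍ → ℂ := fun z => f (heckeDiagMatrix N • z)

theorem isMF_lvl (N : ℕ) [NeZero N] {k : ℤ} (f : ModularForm 𝒮ℒ k) : IsMF N k (lvl N ⇑f) := by
  have hN : ((N : ℂ) ^ (k - 1)) ≠ 0 := zpow_ne_zero _ (Nat.cast_ne_zero.mpr (NeZero.ne N))
  let u : ModularForm (Gamma0 N) k :=
    { toFun := ⇑f ∣[k] (heckeDiagMatrix N)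
      slash_action_eq' := fun γ hγ =>
        (ModularForm.translate f (heckeDiagMatrix N)).slash_action_eq' γ
          (Fermat.Agent.S23.H35.gamma0_le_conj N hγ)
      holo' := (ModularForm.translate f (heckeDiagMatrix N)).holo'
      bdd_at_cusps' := fun hc =>
        (ModularForm.translate f (heckeDiagMatrix N)).bdd_at_cusps'
          (hc.mono (Fermat.Agent.S23.H35.gamma0_le_conj N)) }
  have hu : (⇑u : ℍ → ℂ) = ⇑f ∣[k] (heckeDiagMatrix N) := rfl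
  have h := (IsMF.smul ⟨u, rfl⟩ ((N : ℂ) ^ (k - 1))⁻¹ : IsMF N k (((N : ℂ) ^ (k - 1))⁻¹ • ⇑u))
  convert h using 1
  funext z
  rw [Pi.smul_apply, hu, slash_heckeDiagMatrix_apply k (NeZero.ne N), smul_eq_mul,
    ← mul_assoc, inv_mul_cancel₀ hN, one_mul, lvl]

local notation "𝕢" => Function.Periodic.qParam

theorem qExpansion_lvl (N : ℕ) [NeZero N] {k : ℤ} (f : ModularForm 𝒮ℒ k) :
    qExpansion 1 (lvl N ⇑f) = PowerSeries.expand N (NeZero.ne N) (qExpansion 1 ⇑f) := by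
  have hnice : IsNice (lvl N ⇑f) := (isMF_lvl N f).isNice
  have hf : IsNice ⇑f := Fermat.Agent.S23.H52.isNice_of_levelOne f
  ext m
  rw [← Fermat.Agent.S24.H74.qExpansion_coeff_unique_of_isNice hnice
    (c := fun m => (PowerSeries.expand N (NeZero.ne N) (qExpansion 1 ⇑f)).coeff m)]
  intro z
  have h1 := hf.hasSum_qExpansion (heckeDiagMatrix N • z)
  have hinj : Function.Injective (fun m : ℕ => N * m) := mul_right_injective₀ (NeZero.ne N)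
  refine (hinj.hasSum_iff ?_).mp ?_
  · intro n hn
    have hnd : ¬ N ∣ n := fun ⟨m, hm⟩ => hn ⟨m, hm.symm⟩
    simp only [PowerSeries.coeff_expand, if_neg hnd, zero_smul]
  · have hfun : ((fun m : ℕ => (PowerSeries.expand N (NeZero.ne N) (qExpansion 1 ⇑f)).coeff m •
          𝕢 1 (z : ℂ) ^ m) ∘ fun m : ℕ => N * m) =
        fun i => (qExpansion 1 ⇑f).coeff i • 𝕢 1 ((heckeDiagMatrix N • z : ℍ) : ℂ) ^ i := by
      funext m
      simp only [Function.comp_apply, PowerSeries.coeff_expand_mul,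
        Fermat.Agent.S23.H35.qParam_heckeDiag, pow_mul]
    rw [hfun]
    exact h1


/-! ### Nice functions with integral `q`-expansion -/

/-- `g` is nice and its `q`-expansion is the integral power series `P`. -/
def QE (g : ℍ → ℂ) (P : PowerSeries ℤ) : Prop :=
  IsNice g ∧ qExpansion 1 g = PowerSeries.map (Int.castRingHom ℂ) P

theorem QE.add {g₁ g₂ : ℍ → ℂ} {P₁ P₂ : PowerSeries ℤ} (h₁ : QE g₁ P₁) (h₂ : QE g₂ P₂) :
    QE (g₁ + g₂) (P₁ + P₂) :=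
  ⟨h₁.1.add h₂.1, by rw [h₁.1.qExpansion_add h₂.1, h₁.2, h₂.2, map_add]⟩

theorem QE.sub {g₁ g₂ : ℍ → ℂ} {P₁ P₂ : PowerSeries ℤ} (h₁ : QE g₁ P₁) (h₂ : QE g₂ P₂) :
    QE (g₁ - g₂) (P₁ - P₂) :=
  ⟨h₁.1.sub h₂.1, by rw [h₁.1.qExpansion_sub h₂.1, h₁.2, h₂.2, map_sub]⟩

theorem QE.mul {g₁ g₂ : ℍ → ℂ} {P₁ P₂ : PowerSeries ℤ} (h₁ : QE g₁ P₁) (h₂ : QE g₂ P₂) :
    QE (g₁ * g₂) (P₁ * P₂) :=
  ⟨h₁.1.mul h₂.1, by rw [h₁.1.qExpansion_mul h₂.1, h₁.2, h₂.2, map_mul]⟩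

theorem QE.pow {g : ℍ → ℂ} {P : PowerSeries ℤ} (h : QE g P) (n : ℕ) : QE (g ^ n) (P ^ n) :=
  ⟨h.1.pow n, by rw [h.1.qExpansion_pow, h.2, map_pow]⟩

theorem QE.cmul {g : ℍ → ℂ} {P : PowerSeries ℤ} (h : QE g P) (c : ℤ) :
    QE ((c : ℂ) • g) (PowerSeries.C c * P) :=
  ⟨h.1.smul _, by
    rw [h.1.qExpansion_smul, h.2, PowerSeries.smul_eq_C_mul, map_mul, PowerSeries.map_C]
    simp⟩

theorem QE.lvl {k : ℤ} {f : ModularForm 𝒮ℒ k} {P : PowerSeries ℤ} (h : QE ⇑f P) (N : ℕ)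
    [NeZero N] : QE (lvl N ⇑f) (PowerSeries.expand N (NeZero.ne N) P) :=
  ⟨(isMF_lvl N f).isNice, by rw [qExpansion_lvl, h.2, PowerSeries.map_expand]⟩

/-- if the function vanishes, so does the integral `q`-expansion -/
theorem QE.eq_zero {g : ℍ → ℂ} {P : PowerSeries ℤ} (h : QE g P) (hg : g = 0) : P = 0 := by
  have h2 := h.2
  rw [hg, UpperHalfPlane.qExpansion_zero] at h2
  ext n
  have := congrArg (PowerSeries.coeff n) h2
  rw [PowerSeries.coeff_map, map_zero] at this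
  simpa using this.symm

/-- Sturm bound in the `QE` form. -/
theorem QE.eq_zero_of_sturm {N : ℕ} [NeZero N] {k : ℤ} {g : ℍ → ℂ} {P : PowerSeries ℤ}
    (h : QE g P) (hg : IsMF N k g) (B : ℕ) (hB : (k * (Gamma0 N).index).toNat / 12 ≤ B)
    (hc : ∀ n ≤ B, PowerSeries.coeff n P = 0) : P = 0 := by
  refine h.eq_zero (hg.eq_zero B hB fun n hn => ?_)
  rw [h.2, PowerSeries.coeff_map, hc n hn, map_zero]

/-! ### The basic forms -/

/-- `Δ` as a modular form of level one -/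
noncomputable def ΔMF : ModularForm 𝒮ℒ 12 := ModularFormClass.modularForm CuspForm.discriminant

theorem qe_E4 : QE ⇑E₄ ModularCurve.eisenstein4 :=
  ⟨Fermat.Agent.S23.H52.isNice_of_levelOne E₄, Fermat.Agent.S24.H74.qExpansion_E4⟩

theorem qe_Δ : QE ⇑ΔMF qD := by
  refine ⟨Fermat.Agent.S23.H52.isNice_of_levelOne ΔMF, ?_⟩
  have h := Fermat.Agent.S24.H74.qExpansion_discriminant
  rw [qD, map_mul, PowerSeries.map_X]
  exact h


/-! ### The four identities -/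

theorem sturm_two (k : ℤ) (hk : k ≤ 64) : (k * (Gamma0 2).index).toNat / 12 ≤ 16 := by
  have h := index_Gamma0_prime_le 2
  have h' : ((Gamma0 2).index : ℤ) ≤ 3 := by exact_mod_cast h
  have h0 : (0 : ℤ) ≤ (Gamma0 2).index := Int.natCast_nonneg _
  have : k * ((Gamma0 2).index : ℤ) ≤ 64 * 3 := by nlinarith
  omega

theorem sturm_three (k : ℤ) (hk : k ≤ 48) : (k * (Gamma0 3).index).toNat / 12 ≤ 16 := by
  have h := index_Gamma0_prime_le 3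
  have h' : ((Gamma0 3).index : ℤ) ≤ 4 := by exact_mod_cast h
  have h0 : (0 : ℤ) ≤ (Gamma0 3).index := Int.natCast_nonneg _
  have : k * ((Gamma0 3).index : ℤ) ≤ 48 * 4 := by nlinarith
  omega

theorem G2A_eq_zero : G2A = 0 := by
  have hδ := isMF_of_levelOne 2 ΔMF
  have hδ2 := isMF_lvl 2 ΔMF
  have he := isMF_of_levelOne 2 E₄
  have qδ := qe_Δ
  have qδ2 := qe_Δ.lvl 2
  have qe := qe_E4
  have hMF : IsMF 2 36 ((⇑ΔMF + ((256 : ℤ) : ℂ) • lvl 2 ⇑ΔMF) ^ 3 - ⇑E₄ ^ 3 * ⇑ΔMF * lvl 2 ⇑ΔMF) :=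
    (((hδ.add (hδ2.smul _)).pow 3).cast (by norm_num)).sub
      ((((he.pow 3).mul hδ).mul hδ2).cast (by norm_num))
  have hQE : QE ((⇑ΔMF + ((256 : ℤ) : ℂ) • lvl 2 ⇑ΔMF) ^ 3 - ⇑E₄ ^ 3 * ⇑ΔMF * lvl 2 ⇑ΔMF) G2A :=
    ((qδ.add (qδ2.cmul 256)).pow 3).sub (((qe.pow 3).mul qδ).mul qδ2)
  exact hQE.eq_zero_of_sturm hMF 16 (sturm_two 36 (by norm_num)) fun n hn => coeff_G2A (by omega)

theorem G2B_eq_zero : G2B = 0 := by
  have hδ := isMF_of_levelOne 2 ΔMF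
  have hδ2 := isMF_lvl 2 ΔMF
  have he := isMF_lvl 2 E₄
  have qδ := qe_Δ
  have qδ2 := qe_Δ.lvl 2
  have qe := qe_E4.lvl 2
  have hMF : IsMF 2 36
      ((⇑ΔMF + ((16 : ℤ) : ℂ) • lvl 2 ⇑ΔMF) ^ 3 - lvl 2 ⇑E₄ ^ 3 * ⇑ΔMF * lvl 2 ⇑ΔMF) :=
    (((hδ.add (hδ2.smul _)).pow 3).cast (by norm_num)).sub
      ((((he.pow 3).mul hδ).mul hδ2).cast (by norm_num))
  have hQE : QE ((⇑ΔMF + ((16 : ℤ) : ℂ) • lvl 2 ⇑ΔMF) ^ 3 - lvl 2 ⇑E₄ ^ 3 * ⇑ΔMF * lvl 2 ⇑ΔMF)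
      G2B :=
    ((qδ.add (qδ2.cmul 16)).pow 3).sub (((qe.pow 3).mul qδ).mul qδ2)
  exact hQE.eq_zero_of_sturm hMF 16 (sturm_two 36 (by norm_num)) fun n hn => coeff_G2B (by omega)

theorem G3A_eq_zero : G3A = 0 := by
  have hδ := isMF_of_levelOne 3 ΔMF
  have hδ3 := isMF_lvl 3 ΔMF
  have he := isMF_of_levelOne 3 E₄
  have qδ := qe_Δ
  have qδ3 := qe_Δ.lvl 3
  have qe := qe_E4
  have hMF : IsMF 3 48
      (⇑ΔMF * lvl 3 ⇑ΔMF *
          (⇑E₄ ^ 3 - ((756 : ℤ) : ℂ) • ⇑ΔMF - ((19131876 : ℤ) : ℂ) • lvl 3 ⇑ΔMF) ^ 2 -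
        (⇑ΔMF ^ 2 + ((196830 : ℤ) : ℂ) • (⇑ΔMF * lvl 3 ⇑ΔMF) +
          ((387420489 : ℤ) : ℂ) • lvl 3 ⇑ΔMF ^ 2) ^ 2) :=
    (((hδ.mul hδ3).mul
        (((((he.pow 3).cast (by norm_num : ((3 : ℕ) : ℤ) * 4 = 12)).sub (hδ.smul _)).sub
          (hδ3.smul _)).pow 2)).cast (by norm_num)).sub
      ((((((hδ.pow 2).cast (by norm_num : ((2 : ℕ) : ℤ) * 12 = 24)).add
        (((hδ.mul hδ3).cast (by norm_num : (12 : ℤ) + 12 = 24)).smul _)).add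
          (((hδ3.pow 2).cast (by norm_num : ((2 : ℕ) : ℤ) * 12 = 24)).smul _)).pow 2).cast
            (by norm_num))
  have hQE : QE
      (⇑ΔMF * lvl 3 ⇑ΔMF *
          (⇑E₄ ^ 3 - ((756 : ℤ) : ℂ) • ⇑ΔMF - ((19131876 : ℤ) : ℂ) • lvl 3 ⇑ΔMF) ^ 2 -
        (⇑ΔMF ^ 2 + ((196830 : ℤ) : ℂ) • (⇑ΔMF * lvl 3 ⇑ΔMF) +
          ((387420489 : ℤ) : ℂ) • lvl 3 ⇑ΔMF ^ 2) ^ 2) G3A :=
    ((qδ.mul qδ3).mul ((((qe.pow 3).sub (qδ.cmul 756)).sub (qδ3.cmul 19131876)).pow 2)).sub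
      ((((qδ.pow 2).add ((qδ.mul qδ3).cmul 196830)).add ((qδ3.pow 2).cmul 387420489)).pow 2)
  exact hQE.eq_zero_of_sturm hMF 16 (sturm_three 48 le_rfl) fun n hn => coeff_G3A (by omega)

theorem G3B_eq_zero : G3B = 0 := by
  have hδ := isMF_of_levelOne 3 ΔMF
  have hδ3 := isMF_lvl 3 ΔMF
  have he := isMF_lvl 3 E₄
  have qδ := qe_Δ
  have qδ3 := qe_Δ.lvl 3
  have qe := qe_E4.lvl 3
  have hMF : IsMF 3 48
      (⇑ΔMF * lvl 3 ⇑ΔMF *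
          (lvl 3 ⇑E₄ ^ 3 - ((36 : ℤ) : ℂ) • ⇑ΔMF - ((756 : ℤ) : ℂ) • lvl 3 ⇑ΔMF) ^ 2 -
        (⇑ΔMF ^ 2 + ((270 : ℤ) : ℂ) • (⇑ΔMF * lvl 3 ⇑ΔMF) +
          ((729 : ℤ) : ℂ) • lvl 3 ⇑ΔMF ^ 2) ^ 2) :=
    (((hδ.mul hδ3).mul
        (((((he.pow 3).cast (by norm_num : ((3 : ℕ) : ℤ) * 4 = 12)).sub (hδ.smul _)).sub
          (hδ3.smul _)).pow 2)).cast (by norm_num)).sub
      ((((((hδ.pow 2).cast (by norm_num : ((2 : ℕ) : ℤ) * 12 = 24)).add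
        (((hδ.mul hδ3).cast (by norm_num : (12 : ℤ) + 12 = 24)).smul _)).add
          (((hδ3.pow 2).cast (by norm_num : ((2 : ℕ) : ℤ) * 12 = 24)).smul _)).pow 2).cast
            (by norm_num))
  have hQE : QE
      (⇑ΔMF * lvl 3 ⇑ΔMF *
          (lvl 3 ⇑E₄ ^ 3 - ((36 : ℤ) : ℂ) • ⇑ΔMF - ((756 : ℤ) : ℂ) • lvl 3 ⇑ΔMF) ^ 2 -
        (⇑ΔMF ^ 2 + ((270 : ℤ) : ℂ) • (⇑ΔMF * lvl 3 ⇑ΔMF) +
          ((729 : ℤ) : ℂ) • lvl 3 ⇑ΔMF ^ 2) ^ 2) G3B :=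
    ((qδ.mul qδ3).mul ((((qe.pow 3).sub (qδ.cmul 36)).sub (qδ3.cmul 756)).pow 2)).sub
      ((((qδ.pow 2).add ((qδ.mul qδ3).cmul 270)).add ((qδ3.pow 2).cmul 729)).pow 2)
  exact hQE.eq_zero_of_sturm hMF 16 (sturm_three 48 le_rfl) fun n hn => coeff_G3B (by omega)

end Fermat.Agent.S18.H77
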