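import Fermat.Agent.S18.HauptMod_helper25
import Fermat.Agent.S24.Cosets_helper35

/-!
# S18, node HAUPT (second seat, helper25): `q`-expansion bookkeeping and truncations

* `QE p k F φ`: `F` is `Cov p k` and its `q`-expansion is the image of `φ : ℤ⟦X⟧`; closed under
  `+`, `-`, `*`, integer multiples and powers; `QE.eq_zero`: Sturm bound for `φ`.
* `T6`: reduction modulo `X ^ 6` on `ℤ⟦X⟧`, with the values at `eisenstein4`, its expansions and
  `dedekindEtaUnit`.
-/

set_option autoImplicit false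

namespace Fermat.Agent.S18.H25

open UpperHalfPlane ModularForm CongruenceSubgroup EisensteinSeries
open scoped MatrixGroups ModularForm Manifold Real
open Fermat.Agent.S16.H26 (mulH divH coe_mulH coe_divH)
open Fermat.Agent.S23.H30 (IsNice)

noncomputable section

theorem Cov.one (p : ℕ) : Cov p 0 (1 : ℍ → ℂ) where
  mdiff := mdifferentiable_const
  bdd := Filter.const_boundedAtFilter atImInfty (1 : ℂ)
  inv γ _ z := by simp
  cusp γ _ := ⟨1, Filter.const_boundedAtFilter atImInfty (1 : ℂ), fun z => by simp⟩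

theorem Cov.smul {p k : ℕ} {F : ℍ → ℂ} (c : ℂ) (hF : Cov p k F) : Cov p k (c • F) :=
  hF.const_mul c

theorem Cov.pow {p k : ℕ} {F : ℍ → ℂ} (hF : Cov p k F) (n : ℕ) : Cov p (n * k) (F ^ n) := by
  induction n with
  | zero => simpa using Cov.one p
  | succ n ih =>
    rw [pow_succ, Nat.succ_mul]
    exact ih.mul hF

/-- `F` is covariant of weight `k` for `Γ₀(p)` with `q`-expansion `φ`. -/
structure QE (p k : ℕ) (F : ℍ → ℂ) (φ : PowerSeries ℤ) : Prop where
  cov : Cov p k F
  qexp : qExpansion 1 F = φ.map (Int.castRingHom ℂ)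

namespace QE

variable {p : ℕ} [NeZero p] {k l : ℕ} {F G : ℍ → ℂ} {φ ψ : PowerSeries ℤ}

theorem add (hF : QE p k F φ) (hG : QE p k G ψ) : QE p k (F + G) (φ + ψ) :=
  ⟨hF.cov.add hG.cov, by
    rw [hF.cov.isNice.qExpansion_add hG.cov.isNice, hF.qexp, hG.qexp, map_add]⟩

theorem sub (hF : QE p k F φ) (hG : QE p k G ψ) : QE p k (F - G) (φ - ψ) :=
  ⟨hF.cov.sub hG.cov, by
    rw [hF.cov.isNice.qExpansion_sub hG.cov.isNice, hF.qexp, hG.qexp, map_sub]⟩

theorem mul (hF : QE p k F φ) (hG : QE p l G ψ) : QE p (k + l) (F * G) (φ * ψ) :=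
  ⟨hF.cov.mul hG.cov, by
    rw [hF.cov.isNice.qExpansion_mul hG.cov.isNice, hF.qexp, hG.qexp, map_mul]⟩

theorem smul (c : ℤ) (hF : QE p k F φ) : QE p k ((c : ℂ) • F) ((c : PowerSeries ℤ) * φ) :=
  ⟨hF.cov.smul c, by
    rw [hF.cov.isNice.qExpansion_smul, hF.qexp, map_mul, map_intCast, PowerSeries.smul_eq_C_mul,
      map_intCast]⟩

omit [NeZero p] in
theorem one : QE p 0 (1 : ℍ → ℂ) 1 :=
  ⟨Cov.one p, by rw [map_one]; exact UpperHalfPlane.qExpansion_one 1⟩

theorem pow (hF : QE p k F φ) (n : ℕ) : QE p (n * k) (F ^ n) (φ ^ n) := by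
  induction n with
  | zero => simpa using (QE.one (p := p))
  | succ n ih =>
    rw [pow_succ, pow_succ, Nat.succ_mul]
    exact ih.mul hF

omit [NeZero p] in
theorem congr_weight {k' : ℕ} (hF : QE p k F φ) (h : k = k') : QE p k' F φ := h ▸ hF

/-- Sturm bound: if the first coefficients of `φ` vanish then `φ = 0`. -/
theorem eq_zero (h : QE p k F φ)
    (hc : ∀ n : ℕ, n ≤ ((k : ℤ) * (Gamma0 p).index).toNat / 12 → φ.coeff n = 0) : φ = 0 := by
  have hF : F = 0 := h.cov.eq_zero_of_coeff (fun n hn => by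
    rw [h.qexp, PowerSeries.coeff_map, hc n hn]; simp)
  have h0 : qExpansion 1 (0 : ℍ → ℂ) = 0 := by
    have := Fermat.Agent.S23.H52.qExpansion_const 0
    rw [map_zero] at this
    exact this
  have h1 := h.qexp
  rw [hF, h0] at h1
  ext n
  have h2 := congrArg (PowerSeries.coeff n) h1
  rw [PowerSeries.coeff_map] at h2
  simpa using h2.symm

end QE

/-! ### Base cases -/

theorem qe_E4 (p : ℕ) : QE p 4 (⇑E₄) ModularCurve.eisenstein4 :=
  ⟨cov_E4 p, Fermat.Agent.S24.H74.qExpansion_E4⟩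

theorem qe_disc (p : ℕ) :
    QE p 12 discriminant (PowerSeries.X * ModularCurve.dedekindEtaUnit) :=
  ⟨cov_disc p, by
    rw [Fermat.Agent.S24.H74.qExpansion_discriminant, map_mul, PowerSeries.map_X]⟩

theorem qe_E4_scale (p : ℕ) [NeZero p] (hp : p.Prime) :
    QE p 4 (fun z => E₄ (mulH p z)) (ModularCurve.eisenstein4.expand p (NeZero.ne p)) :=
  ⟨cov_E4_scale p hp, qExpansion_E4_scale p hp⟩

theorem qe_disc_scale (p : ℕ) [NeZero p] (hp : p.Prime) :
    QE p 12 (fun z => discriminant (mulH p z))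
      ((PowerSeries.X * ModularCurve.dedekindEtaUnit).expand p (NeZero.ne p)) :=
  ⟨cov_disc_scale p hp, qExpansion_disc_scale p hp⟩

end

end Fermat.Agent.S18.H25
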