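import Mathlib
import Fermat.Prelude.Def_ModularCurve_X0ModL

/-!
# S18, node (H3)/(HM): the Hauptmodul `t_M` of `X₀(M)` (`M = 2, 3`) is an explicit rational
function of `(J, J_M)`

Degree-free and characteristic-free: for fields `K ⊆ L`, `t ∈ L` transcendental over `K` and
`J, J_M ∈ L` with the Hauptmodul identities

* `M = 2`: `J t² = (t + 256)³`, `J₂ t = (t + 16)³`,
* `M = 3`: `J t³ = (t + 27)(t + 243)³`, `J₃ t = (t + 27)(t + 3)³`,

we have `t ∈ K(J, J_M)`; indeed `K(t) = K(J, J_M)`.
-/

namespace Fermat.Agent.S18.H59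

open Polynomial

section Generic

variable {K L : Type*} [Field K] [Field L] [Algebra K L]

/-- a monic polynomial minus a polynomial of smaller degree does not vanish at a
transcendental element. -/
theorem aeval_sub_ne_zero_of_transcendental {t : L} (ht : Transcendental K t) {p q : K[X]}
    (hp : p.Monic) (hq : q.degree < p.degree) : aeval t p - aeval t q ≠ 0 := by
  intro h
  have hm : (p - q).Monic := hp.sub_of_left hq
  have h0 : aeval t (p - q) = 0 := by rw [map_sub]; exact h
  exact hm.ne_zero ((transcendental_iff.mp ht) _ h0)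

/-! ### `M = 2` -/

/-- the explicit linear relation for `t₂` over `ℤ[J, J₂]`. -/
theorem haupt2_rel {t J J2 : L} (ht0 : t ≠ 0) (h1 : J * t ^ 2 = (t + 256) ^ 3)
    (h2 : J2 * t = (t + 16) ^ 3) :
    (J * J2 - 720 * J - 720 * J2 - 16250625) * t =
      J2 ^ 2 + 195120 * J2 + 4095 * J + 660960000 := by
  have hJ : J = (t + 256) ^ 3 / t ^ 2 := by
    rw [eq_div_iff (pow_ne_zero 2 ht0)]; exact h1
  have hJ2 : J2 = (t + 16) ^ 3 / t := by
    rw [eq_div_iff ht0]; exact h2
  rw [hJ, hJ2]
  field_simp
  ring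

/-- the denominator of the relation for `t₂` does not vanish. -/
theorem haupt2_den_ne_zero {t J J2 : L} (ht : Transcendental K t)
    (h1 : J * t ^ 2 = (t + 256) ^ 3) (h2 : J2 * t = (t + 16) ^ 3) :
    J * J2 - 720 * J - 720 * J2 - 16250625 ≠ 0 := by
  intro ha
  -- `t^3 * a = -(p(t) - q(t))` with `p` monic of degree 6 and `deg q ≤ 5`
  set p : K[X] := (X + C 256) ^ 3 * (X + C 16) ^ 3 with hp
  set q : K[X] := C 720 * (X + C 256) ^ 3 * X + C 720 * (X + C 16) ^ 3 * X ^ 2
    + C 16250625 * X ^ 3 with hq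
  have hpm : p.Monic := ((monic_X_add_C _).pow 3).mul ((monic_X_add_C _).pow 3)
  have hpd : p.natDegree = 6 := by
    rw [hp, ((monic_X_add_C (256 : K)).pow 3).natDegree_mul ((monic_X_add_C (16 : K)).pow 3),
      (monic_X_add_C (256 : K)).natDegree_pow, (monic_X_add_C (16 : K)).natDegree_pow,
      natDegree_X_add_C, natDegree_X_add_C]
  have hqd : q.degree < p.degree := by
    rw [degree_eq_natDegree hpm.ne_zero, hpd]
    have : q.natDegree ≤ 5 := by rw [hq]; compute_degree
    exact lt_of_le_of_lt (degree_le_of_natDegree_le this) (by norm_num)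
  refine aeval_sub_ne_zero_of_transcendental ht hpm hqd ?_
  have e : aeval t p - aeval t q =
      (J * J2 - 720 * J - 720 * J2 - 16250625) * t ^ 3 := by
    simp only [hp, hq, map_add, map_mul, map_pow, aeval_X, map_ofNat]
    rw [← h1, ← h2]
    ring
  rw [e, ha, zero_mul]

/-- **(H3), `M = 2`**: `t ∈ K(J, J₂)`. -/
theorem haupt2_mem_adjoin {t J J2 : L} (ht : Transcendental K t)
    (h1 : J * t ^ 2 = (t + 256) ^ 3) (h2 : J2 * t = (t + 16) ^ 3) :
    t ∈ IntermediateField.adjoin K {J, J2} := by
  have ht0 : t ≠ 0 := fun h => ht (h ▸ isAlgebraic_zero)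
  have hrel := haupt2_rel ht0 h1 h2
  have hden := haupt2_den_ne_zero ht h1 h2
  have hJ : J ∈ IntermediateField.adjoin K {J, J2} :=
    IntermediateField.subset_adjoin K _ (Set.mem_insert _ _)
  have hJ2 : J2 ∈ IntermediateField.adjoin K {J, J2} :=
    IntermediateField.subset_adjoin K _ (Set.mem_insert_of_mem _ rfl)
  have e : t = (J2 ^ 2 + 195120 * J2 + 4095 * J + 660960000) /
      (J * J2 - 720 * J - 720 * J2 - 16250625) := by
    rw [eq_div_iff hden, mul_comm]; exact hrel
  rw [e]
  set E := IntermediateField.adjoin K {J, J2}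
  refine div_mem ?_ ?_
  · exact add_mem (add_mem (add_mem (pow_mem hJ2 2) (mul_mem (ofNat_mem E 195120) hJ2))
      (mul_mem (ofNat_mem E 4095) hJ)) (ofNat_mem E 660960000)
  · exact sub_mem (sub_mem (sub_mem (mul_mem hJ hJ2) (mul_mem (ofNat_mem E 720) hJ))
      (mul_mem (ofNat_mem E 720) hJ2)) (ofNat_mem E 16250625)

/-- `K(J, J₂) = K(t)` for `M = 2`. -/
theorem haupt2_adjoin_eq {t J J2 : L} (ht : Transcendental K t)
    (h1 : J * t ^ 2 = (t + 256) ^ 3) (h2 : J2 * t = (t + 16) ^ 3) :
    IntermediateField.adjoin K {J, J2} = IntermediateField.adjoin K {t} := by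
  have ht0 : t ≠ 0 := fun h => ht (h ▸ isAlgebraic_zero)
  apply le_antisymm
  · rw [IntermediateField.adjoin_le_iff]
    have htm : t ∈ IntermediateField.adjoin K {t} :=
      IntermediateField.subset_adjoin K _ (Set.mem_singleton t)
    set E := IntermediateField.adjoin K {t}
    rintro x (rfl | rfl)
    · have hJ : x = (t + 256) ^ 3 / t ^ 2 := by
        rw [eq_div_iff (pow_ne_zero 2 ht0)]; exact h1
      rw [hJ]
      exact div_mem (pow_mem (add_mem htm (ofNat_mem E 256)) 3) (pow_mem htm 2)
    · have hJ2 : x = (t + 16) ^ 3 / t := by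
        rw [eq_div_iff ht0]; exact h2
      rw [hJ2]
      exact div_mem (pow_mem (add_mem htm (ofNat_mem E 16)) 3) htm
  · rw [IntermediateField.adjoin_le_iff]
    rintro x rfl
    exact haupt2_mem_adjoin ht h1 h2

/-! ### `M = 3` -/

/-- the explicit linear relation for `t₃` over `ℤ[J, J₃]`. -/
theorem haupt3_rel {t J J3 : L} (ht0 : t ≠ 0) (h1 : J * t ^ 3 = (t + 27) * (t + 243) ^ 3)
    (h2 : J3 * t = (t + 27) * (t + 3) ^ 3) :
    (J3 ^ 3 + 729 * J ^ 2 * J3 + 196830 * J * J3 ^ 2 + 18821147040 * J * J3 - 524880 * J ^ 2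
        - 103456080 * J3 ^ 2 + 14229831680000 * J + 276373831680000 * J3
        - 3623878656000000000) * t =
      J * J3 ^ 3 - 756 * J3 ^ 3 + 19129644 * J * J3 ^ 2 + 531440 * J ^ 2 + 23150726640 * J3 ^ 2
        + 76509442080 * J * J3 - 48430448640000 * J - 14204206448640000 * J3
        + 97844723712000000000 := by
  have hJ : J = (t + 27) * (t + 243) ^ 3 / t ^ 3 := by
    rw [eq_div_iff (pow_ne_zero 3 ht0)]; exact h1
  have hJ3 : J3 = (t + 27) * (t + 3) ^ 3 / t := by
    rw [eq_div_iff ht0]; exact h2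
  rw [hJ, hJ3]
  field_simp
  ring

/-- the denominator of the relation for `t₃` does not vanish. -/
theorem haupt3_den_ne_zero {t J J3 : L} (ht : Transcendental K t)
    (h1 : J * t ^ 3 = (t + 27) * (t + 243) ^ 3) (h2 : J3 * t = (t + 27) * (t + 3) ^ 3) :
    J3 ^ 3 + 729 * J ^ 2 * J3 + 196830 * J * J3 ^ 2 + 18821147040 * J * J3 - 524880 * J ^ 2
        - 103456080 * J3 ^ 2 + 14229831680000 * J + 276373831680000 * J3
        - 3623878656000000000 ≠ 0 := by
  intro ha
  -- `t^7 * den = p(t) - q(t)` with `p` monic of degree 16 and `deg q ≤ 14`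
  set n1 : K[X] := (X + C 27) * (X + C 243) ^ 3 with hn1
  set n2 : K[X] := (X + C 27) * (X + C 3) ^ 3 with hn2
  set p : K[X] := n2 ^ 3 * X ^ 4 with hp
  set q : K[X] := C 3623878656000000000 * X ^ 7 - C 276373831680000 * n2 * X ^ 6
    - C 14229831680000 * n1 * X ^ 4 + C 103456080 * n2 ^ 2 * X ^ 5 + C 524880 * n1 ^ 2 * X
    - C 18821147040 * n1 * n2 * X ^ 3 - C 196830 * n1 * n2 ^ 2 * X ^ 2
    - C 729 * n1 ^ 2 * n2 with hq
  have hn1m : n1.Monic := (monic_X_add_C _).mul ((monic_X_add_C _).pow 3)
  have hn2m : n2.Monic := (monic_X_add_C _).mul ((monic_X_add_C _).pow 3)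
  have hn1d : n1.natDegree = 4 := by
    rw [hn1, (monic_X_add_C (27 : K)).natDegree_mul ((monic_X_add_C (243 : K)).pow 3),
      (monic_X_add_C (243 : K)).natDegree_pow, natDegree_X_add_C, natDegree_X_add_C]
  have hn2d : n2.natDegree = 4 := by
    rw [hn2, (monic_X_add_C (27 : K)).natDegree_mul ((monic_X_add_C (3 : K)).pow 3),
      (monic_X_add_C (3 : K)).natDegree_pow, natDegree_X_add_C, natDegree_X_add_C]
  have hpm : p.Monic := (hn2m.pow 3).mul (monic_X_pow 4)
  have hpd : p.natDegree = 16 := by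
    rw [hp, (hn2m.pow 3).natDegree_mul (monic_X_pow 4), hn2m.natDegree_pow, hn2d,
      natDegree_X_pow]
  have hqd : q.degree < p.degree := by
    rw [degree_eq_natDegree hpm.ne_zero, hpd]
    have : q.natDegree ≤ 14 := by
      rw [hq]
      compute_degree
      rw [hn1d, hn2d]
      norm_num
    exact lt_of_le_of_lt (degree_le_of_natDegree_le this) (by norm_num)
  refine aeval_sub_ne_zero_of_transcendental ht hpm hqd ?_
  have e1 : aeval t n1 = J * t ^ 3 := by
    rw [h1]; simp only [hn1, map_add, map_mul, map_pow, aeval_X, map_ofNat]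
  have e2 : aeval t n2 = J3 * t := by
    rw [h2]; simp only [hn2, map_add, map_mul, map_pow, aeval_X, map_ofNat]
  have e : aeval t p - aeval t q =
      (J3 ^ 3 + 729 * J ^ 2 * J3 + 196830 * J * J3 ^ 2 + 18821147040 * J * J3 - 524880 * J ^ 2
        - 103456080 * J3 ^ 2 + 14229831680000 * J + 276373831680000 * J3
        - 3623878656000000000) * t ^ 7 := by
    simp only [hp, hq, map_add, map_sub, map_mul, map_pow, aeval_X, map_ofNat, e1, e2]
    ring
  rw [e, ha, zero_mul]

/-- **(H3), `M = 3`**: `t ∈ K(J, J₃)`. -/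
theorem haupt3_mem_adjoin {t J J3 : L} (ht : Transcendental K t)
    (h1 : J * t ^ 3 = (t + 27) * (t + 243) ^ 3) (h2 : J3 * t = (t + 27) * (t + 3) ^ 3) :
    t ∈ IntermediateField.adjoin K {J, J3} := by
  have ht0 : t ≠ 0 := fun h => ht (h ▸ isAlgebraic_zero)
  have hrel := haupt3_rel ht0 h1 h2
  have hden := haupt3_den_ne_zero ht h1 h2
  have hJ : J ∈ IntermediateField.adjoin K {J, J3} :=
    IntermediateField.subset_adjoin K _ (Set.mem_insert _ _)
  have hJ3 : J3 ∈ IntermediateField.adjoin K {J, J3} :=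
    IntermediateField.subset_adjoin K _ (Set.mem_insert_of_mem _ rfl)
  have e : t = (J * J3 ^ 3 - 756 * J3 ^ 3 + 19129644 * J * J3 ^ 2 + 531440 * J ^ 2
        + 23150726640 * J3 ^ 2 + 76509442080 * J * J3 - 48430448640000 * J
        - 14204206448640000 * J3 + 97844723712000000000) /
      (J3 ^ 3 + 729 * J ^ 2 * J3 + 196830 * J * J3 ^ 2 + 18821147040 * J * J3 - 524880 * J ^ 2
        - 103456080 * J3 ^ 2 + 14229831680000 * J + 276373831680000 * J3
        - 3623878656000000000) := by
    rw [eq_div_iff hden, mul_comm]; exact hrel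
  rw [e]
  set E := IntermediateField.adjoin K {J, J3}
  refine div_mem ?_ ?_ <;>
    repeat' first
      | exact hJ | exact hJ3 | exact ofNat_mem E _
      | apply add_mem | apply sub_mem | apply mul_mem | apply pow_mem

/-- `K(J, J₃) = K(t)` for `M = 3`. -/
theorem haupt3_adjoin_eq {t J J3 : L} (ht : Transcendental K t)
    (h1 : J * t ^ 3 = (t + 27) * (t + 243) ^ 3) (h2 : J3 * t = (t + 27) * (t + 3) ^ 3) :
    IntermediateField.adjoin K {J, J3} = IntermediateField.adjoin K {t} := by
  have ht0 : t ≠ 0 := fun h => ht (h ▸ isAlgebraic_zero)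
  apply le_antisymm
  · rw [IntermediateField.adjoin_le_iff]
    have htm : t ∈ IntermediateField.adjoin K {t} :=
      IntermediateField.subset_adjoin K _ (Set.mem_singleton t)
    set E := IntermediateField.adjoin K {t}
    rintro x (rfl | rfl)
    · have hJ : x = (t + 27) * (t + 243) ^ 3 / t ^ 3 := by
        rw [eq_div_iff (pow_ne_zero 3 ht0)]; exact h1
      rw [hJ]
      exact div_mem (mul_mem (add_mem htm (ofNat_mem E 27))
        (pow_mem (add_mem htm (ofNat_mem E 243)) 3)) (pow_mem htm 3)
    · have hJ3 : x = (t + 27) * (t + 3) ^ 3 / t := by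
        rw [eq_div_iff ht0]; exact h2
      rw [hJ3]
      exact div_mem (mul_mem (add_mem htm (ofNat_mem E 27))
        (pow_mem (add_mem htm (ofNat_mem E 3)) 3)) htm
  · rw [IntermediateField.adjoin_le_iff]
    rintro x rfl
    exact haupt3_mem_adjoin ht h1 h2

end Generic

/-! ### Laurent series: transcendence of a series with a pole, Prelude forms -/

section Laurent

open ModularCurve

variable (K : Type*) [Field K]

theorem coeff_algebraMap_mul_laurent (c : K) (x : LaurentSeries K) (n : ℤ) :
    (algebraMap K (LaurentSeries K) c * x).coeff n = c * x.coeff n := by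
  have h1 : algebraMap K (PowerSeries K) c = PowerSeries.C c := by simp
  rw [HahnSeries.algebraMap_apply', h1, HahnSeries.ofPowerSeries_C, HahnSeries.C_mul_eq_smul]
  exact HahnSeries.coeff_smul

/-- a Laurent series with a pole at `q = 0` is transcendental over the constants. -/
theorem transcendental_of_order_neg {t : LaurentSeries K} (h : t.order < 0) :
    Transcendental K t := by
  rw [transcendental_iff]
  intro p hp
  by_contra hne
  have hcoef : (aeval t p).coeff (p.natDegree • t.order) =
      p.leadingCoeff * (t ^ p.natDegree).coeff ((t ^ p.natDegree).order) := by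
    rw [aeval_eq_sum_range, HahnSeries.coeff_sum,
      Finset.sum_eq_single_of_mem p.natDegree (Finset.self_mem_range_succ _)]
    · rw [Algebra.smul_def, coeff_algebraMap_mul_laurent, HahnSeries.order_pow]
      rfl
    · intro i hi hine
      have hlt : i < p.natDegree := by
        have := Finset.mem_range.mp hi
        omega
      rw [Algebra.smul_def, coeff_algebraMap_mul_laurent, HahnSeries.coeff_eq_zero_of_lt_order,
        mul_zero]
      rw [HahnSeries.order_pow, nsmul_eq_mul, nsmul_eq_mul]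
      have : (i : ℤ) < (p.natDegree : ℤ) := by exact_mod_cast hlt
      nlinarith
  rw [hp, HahnSeries.coeff_zero] at hcoef
  have ht0 : t ≠ 0 := by
    rintro rfl
    simp at h
  have h1 : (t ^ p.natDegree).coeff ((t ^ p.natDegree).order) ≠ 0 :=
    HahnSeries.coeff_order_eq_zero.not.mpr (pow_ne_zero _ ht0)
  rcases mul_eq_zero.mp hcoef.symm with h0 | h0
  · exact hne (leadingCoeff_eq_zero.mp h0)
  · exact h1 h0

/-- a Laurent series with a nonzero coefficient in negative degree is transcendental over the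
constants. -/
theorem transcendental_of_coeff_ne_zero {t : LaurentSeries K} {m : ℤ} (hm : m < 0)
    (hc : t.coeff m ≠ 0) : Transcendental K t :=
  transcendental_of_order_neg K (lt_of_le_of_lt (HahnSeries.order_le_of_coeff_ne_zero hc) hm)

/-- **(H3), `M = 2`, Prelude form**: a transcendental `t` with `J t² = (t + 256)³` and
`J(q²) t = (t + 16)³` lies in `K(J, J(q²))`, hence in the level-`N` field for `2 ∣ N`. -/
theorem haupt2_mem_fullC {t : LaurentSeries K} (ht : Transcendental K t)
    (h1 : jqModC K * t ^ 2 = (t + 256) ^ 3) (h2 : qExpand K 2 (jqModC K) * t = (t + 16) ^ 3)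
    (N : ℕ) [NeZero N] (hN : 2 ∣ N) : t ∈ modularFunctionFieldFullC K N := by
  have hle : IntermediateField.adjoin K {jqModC K, qExpand K 2 (jqModC K)} ≤
      modularFunctionFieldFullC K N := by
    rw [IntermediateField.adjoin_le_iff]
    rintro x (rfl | rfl)
    · exact jqModC_mem_full K N
    · exact jqModCd_mem_full K N hN
  exact hle (haupt2_mem_adjoin ht h1 h2)

/-- **(H3), `M = 3`, Prelude form**. -/
theorem haupt3_mem_fullC {t : LaurentSeries K} (ht : Transcendental K t)
    (h1 : jqModC K * t ^ 3 = (t + 27) * (t + 243) ^ 3)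
    (h2 : qExpand K 3 (jqModC K) * t = (t + 27) * (t + 3) ^ 3)
    (N : ℕ) [NeZero N] (hN : 3 ∣ N) : t ∈ modularFunctionFieldFullC K N := by
  have hle : IntermediateField.adjoin K {jqModC K, qExpand K 3 (jqModC K)} ≤
      modularFunctionFieldFullC K N := by
    rw [IntermediateField.adjoin_le_iff]
    rintro x (rfl | rfl)
    · exact jqModC_mem_full K N
    · exact jqModCd_mem_full K N hN
  exact hle (haupt3_mem_adjoin ht h1 h2)

/-- for a prime `p`, the level-`p` field is `K(J, J(q^p))`. -/
theorem fullC_prime_eq_adjoin (p : ℕ) [NeZero p] (hp : p.Prime) :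
    modularFunctionFieldFullC K p =
      IntermediateField.adjoin K {jqModC K, qExpand K p (jqModC K)} := by
  apply le_antisymm
  · rw [modularFunctionFieldFullC, IntermediateField.adjoin_le_iff]
    rintro x ⟨d, hd, hdvd, rfl⟩
    rcases (Nat.dvd_prime hp).mp hdvd with rfl | rfl
    · rw [qExpand_one_apply]
      exact IntermediateField.subset_adjoin K _ (Set.mem_insert _ _)
    · exact IntermediateField.subset_adjoin K _ (Set.mem_insert_of_mem _ rfl)
  · rw [IntermediateField.adjoin_le_iff]
    rintro x (rfl | rfl)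
    · exact jqModC_mem_full K p
    · exact jqModCd_mem_full K p dvd_rfl

/-- `K(t₂) = ` the level-2 field. -/
theorem haupt2_adjoin_eq_fullC {t : LaurentSeries K} (ht : Transcendental K t)
    (h1 : jqModC K * t ^ 2 = (t + 256) ^ 3) (h2 : qExpand K 2 (jqModC K) * t = (t + 16) ^ 3) :
    IntermediateField.adjoin K {t} = modularFunctionFieldFullC K 2 := by
  rw [fullC_prime_eq_adjoin K 2 Nat.prime_two, haupt2_adjoin_eq ht h1 h2]

/-- `K(t₃) = ` the level-3 field. -/
theorem haupt3_adjoin_eq_fullC {t : LaurentSeries K} (ht : Transcendental K t)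
    (h1 : jqModC K * t ^ 3 = (t + 27) * (t + 243) ^ 3)
    (h2 : qExpand K 3 (jqModC K) * t = (t + 27) * (t + 3) ^ 3) :
    IntermediateField.adjoin K {t} = modularFunctionFieldFullC K 3 := by
  rw [fullC_prime_eq_adjoin K 3 Nat.prime_three, haupt3_adjoin_eq ht h1 h2]

end Laurent

end Fermat.Agent.S18.H59
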