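import Mathlib
import Fermat.Prelude.Def_ModularCurve_X0ModL
import Fermat.Agent.S18.HauptMod_helper77

/-!
# The Hauptmodul identities of `X₀(2)` and `X₀(3)` as formal `q`-series identities (helper77)

With `E = eisenstein4`, `η = etaProd` in `ℤ⟦X⟧` (Prelude):

* `haupt2_A : E³ η²⁴ η₂²⁴ = (η²⁴ + 256 X η₂²⁴)³`, `haupt2_B` (with `E(X²)` and `16`);
* `haupt3_A : E³ η¹² η₃¹² = (η¹² + 27 X η₃¹²)(η¹² + 243 X η₃¹²)³`, `haupt3_B` (with `E(X³)`, `3`);

and, over any commutative ring `K`, for the Laurent series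
`tq2 K = q⁻¹ ∏ (1-qⁿ)²⁴/(1-q²ⁿ)²⁴`, `tq3 K = q⁻¹ ∏ (1-qⁿ)¹²/(1-q³ⁿ)¹²`:

* `jq_mul_tq2_sq : jqModC K * tq2 K ^ 2 = (tq2 K + 256) ^ 3`
* `jq2_mul_tq2 : qExpand K 2 (jqModC K) * tq2 K = (tq2 K + 16) ^ 3`
* `jq_mul_tq3_cube : jqModC K * tq3 K ^ 3 = (tq3 K + 27) * (tq3 K + 243) ^ 3`
* `jq3_mul_tq3 : qExpand K 3 (jqModC K) * tq3 K = (tq3 K + 27) * (tq3 K + 3) ^ 3`
-/

set_option autoImplicit false

namespace Fermat.Agent.S18.H77

open PowerSeries ModularCurve

/-! ### Power series identities over `ℤ` -/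

theorem haupt2_A :
    eisenstein4 ^ 3 * etaProd ^ 24 * expand 2 two_ne_zero (etaProd ^ 24) =
      (etaProd ^ 24 + 256 * X * expand 2 two_ne_zero (etaProd ^ 24)) ^ 3 := by
  have h := G2A_eq_zero
  have hX : expand 2 two_ne_zero qD = X ^ 2 * expand 2 two_ne_zero (etaProd ^ 24) := by
    rw [qD, map_mul, expand_X]
  have hC : (C (256 : ℤ) : PowerSeries ℤ) = 256 := map_ofNat _ _
  rw [G2A, hX, qD, hC] at h
  have h3 : (X : PowerSeries ℤ) ^ 3 ≠ 0 := pow_ne_zero 3 X_ne_zero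
  apply mul_left_cancel₀ h3
  linear_combination -h

theorem haupt2_B :
    (expand 2 two_ne_zero eisenstein4) ^ 3 * etaProd ^ 24 * expand 2 two_ne_zero (etaProd ^ 24) =
      (etaProd ^ 24 + 16 * X * expand 2 two_ne_zero (etaProd ^ 24)) ^ 3 := by
  have h := G2B_eq_zero
  have hX : expand 2 two_ne_zero qD = X ^ 2 * expand 2 two_ne_zero (etaProd ^ 24) := by
    rw [qD, map_mul, expand_X]
  have hC : (C (16 : ℤ) : PowerSeries ℤ) = 16 := map_ofNat _ _
  rw [G2B, hX, qD, hC] at h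
  have h3 : (X : PowerSeries ℤ) ^ 3 ≠ 0 := pow_ne_zero 3 X_ne_zero
  apply mul_left_cancel₀ h3
  linear_combination -h

theorem constantCoeff_etaProd_pow (n : ℕ) : constantCoeff (etaProd ^ n) = 1 := by
  rw [map_pow, constantCoeff_etaProd, one_pow]

theorem constantCoeff_expand_etaProd_pow (p : ℕ) (hp : p ≠ 0) (n : ℕ) :
    constantCoeff (expand p hp (etaProd ^ n)) = 1 := by
  rw [constantCoeff_expand, constantCoeff_etaProd_pow]

theorem qD_eq_sq : qD = X * (etaProd ^ 12) ^ 2 := by rw [qD]; ring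

theorem expand_three_qD :
    expand 3 three_ne_zero qD = X ^ 3 * (expand 3 three_ne_zero (etaProd ^ 12)) ^ 2 := by
  rw [qD_eq_sq, map_mul, expand_X, map_pow]

/-- the common square-root step for `p = 3` -/
theorem haupt3_aux (F : PowerSeries ℤ) (hF : constantCoeff F = 1) (c₁ c₃ m₂ m₄ : ℤ)
    (h : qD * expand 3 three_ne_zero qD *
        (F - C c₁ * qD - C c₃ * expand 3 three_ne_zero qD) ^ 2 -
      (qD ^ 2 + C m₂ * (qD * expand 3 three_ne_zero qD) +
        C m₄ * (expand 3 three_ne_zero qD) ^ 2) ^ 2 = 0) :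
    etaProd ^ 12 * expand 3 three_ne_zero (etaProd ^ 12) *
        (F - C c₁ * (X * (etaProd ^ 12) ^ 2) -
          C c₃ * (X ^ 3 * (expand 3 three_ne_zero (etaProd ^ 12)) ^ 2)) =
      (etaProd ^ 12) ^ 4 +
        C m₂ * X ^ 2 * (etaProd ^ 12) ^ 2 * (expand 3 three_ne_zero (etaProd ^ 12)) ^ 2 +
        C m₄ * X ^ 4 * (expand 3 three_ne_zero (etaProd ^ 12)) ^ 4 := by
  rw [expand_three_qD, qD_eq_sq] at h
  set a := etaProd ^ 12 with ha
  set b := expand 3 three_ne_zero (etaProd ^ 12) with hb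
  have hca : constantCoeff a = 1 := constantCoeff_etaProd_pow 12
  have hcb : constantCoeff b = 1 := constantCoeff_expand_etaProd_pow 3 three_ne_zero 12
  have h4 : (X : PowerSeries ℤ) ^ 4 ≠ 0 := pow_ne_zero 4 X_ne_zero
  have hsq : (a * b * (F - C c₁ * (X * a ^ 2) - C c₃ * (X ^ 3 * b ^ 2))) ^ 2 =
      (a ^ 4 + C m₂ * X ^ 2 * a ^ 2 * b ^ 2 + C m₄ * X ^ 4 * b ^ 4) ^ 2 := by
    apply mul_left_cancel₀ h4
    linear_combination h
  rcases sq_eq_sq_iff_eq_or_eq_neg.mp hsq with h1 | h1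
  · exact h1
  · exfalso
    have h2 := congrArg (constantCoeff (R := ℤ)) h1
    simp only [map_mul, map_sub, map_add, map_neg, map_pow, hca, hcb, hF, constantCoeff_X,
      constantCoeff_C] at h2
    norm_num at h2

theorem haupt3_A :
    eisenstein4 ^ 3 * etaProd ^ 12 * expand 3 three_ne_zero (etaProd ^ 12) =
      (etaProd ^ 12 + 27 * X * expand 3 three_ne_zero (etaProd ^ 12)) *
        (etaProd ^ 12 + 243 * X * expand 3 three_ne_zero (etaProd ^ 12)) ^ 3 := by
  have h := haupt3_aux (eisenstein4 ^ 3)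
    (by rw [map_pow, constantCoeff_eisenstein4, one_pow]) 756 19131876 196830 387420489
    G3A_eq_zero
  have e1 : (C (756 : ℤ) : PowerSeries ℤ) = 756 := map_ofNat _ _
  have e2 : (C (19131876 : ℤ) : PowerSeries ℤ) = 19131876 := map_ofNat _ _
  have e3 : (C (196830 : ℤ) : PowerSeries ℤ) = 196830 := map_ofNat _ _
  have e4 : (C (387420489 : ℤ) : PowerSeries ℤ) = 387420489 := map_ofNat _ _
  rw [e1, e2, e3, e4] at h
  linear_combination h

theorem haupt3_B :
    (expand 3 three_ne_zero eisenstein4) ^ 3 * etaProd ^ 12 *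
        expand 3 three_ne_zero (etaProd ^ 12) =
      (etaProd ^ 12 + 27 * X * expand 3 three_ne_zero (etaProd ^ 12)) *
        (etaProd ^ 12 + 3 * X * expand 3 three_ne_zero (etaProd ^ 12)) ^ 3 := by
  have h := haupt3_aux ((expand 3 three_ne_zero eisenstein4) ^ 3)
    (by rw [map_pow, constantCoeff_expand, constantCoeff_eisenstein4, one_pow]) 36 756 270 729
    G3B_eq_zero
  have e1 : (C (36 : ℤ) : PowerSeries ℤ) = 36 := map_ofNat _ _
  have e2 : (C (756 : ℤ) : PowerSeries ℤ) = 756 := map_ofNat _ _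
  have e3 : (C (270 : ℤ) : PowerSeries ℤ) = 270 := map_ofNat _ _
  have e4 : (C (729 : ℤ) : PowerSeries ℤ) = 729 := map_ofNat _ _
  rw [e1, e2, e3, e4] at h
  linear_combination h


/-! ### Laurent series over a commutative ring -/

section Laurent

variable (K : Type*) [CommRing K]

/-- integral power series as Laurent series over `K` -/
noncomputable def Lz : PowerSeries ℤ →+* LaurentSeries K :=
  (HahnSeries.ofPowerSeries ℤ K).comp (PowerSeries.map (Int.castRingHom K))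

theorem Lz_apply (P : PowerSeries ℤ) :
    Lz K P = HahnSeries.ofPowerSeries ℤ K (P.map (Int.castRingHom K)) := rfl

theorem Lz_X : Lz K X = HahnSeries.single (1 : ℤ) (1 : K) := by
  rw [Lz_apply, PowerSeries.map_X, HahnSeries.ofPowerSeries_X]

theorem single_neg_one_mul_Lz_X : HahnSeries.single (-1 : ℤ) (1 : K) * Lz K X = 1 := by
  rw [Lz_X, HahnSeries.single_mul_single]; simp

theorem jqModC_eq : jqModC K = HahnSeries.single (-1 : ℤ) (1 : K) * Lz K jNum := rfl

variable {K} in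
theorem coeffMap_Lz {K' : Type*} [CommRing K'] (f : K →+* K') (P : PowerSeries ℤ) :
    coeffMap f (Lz K P) = Lz K' P := by
  rw [Lz_apply, Lz_apply, coeffMap_ofPowerSeries,
    ← RingHom.comp_apply (PowerSeries.map f) (PowerSeries.map (Int.castRingHom K)),
    ← PowerSeries.map_comp, RingHom.ext_int (f.comp (Int.castRingHom K)) (Int.castRingHom K')]

theorem qExpand_ofPowerSeries (N : ℕ) [NeZero N] (f : PowerSeries K) :
    qExpand K N (HahnSeries.ofPowerSeries ℤ K f) =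
      HahnSeries.ofPowerSeries ℤ K (expand N (NeZero.ne N) f) := by
  have hN : (0 : ℤ) < N := by exact_mod_cast Nat.pos_of_ne_zero (NeZero.ne N)
  ext k
  by_cases hk : (N : ℤ) ∣ k
  · obtain ⟨m, rfl⟩ := hk
    rw [qExpand_coeff_mul]
    rcases le_or_gt 0 m with hm | hm
    · lift m to ℕ using hm
      rw [HahnSeries.ofPowerSeries_apply_coeff, show (N : ℤ) * (m : ℤ) = ((N * m : ℕ) : ℤ) by
        push_cast; ring, HahnSeries.ofPowerSeries_apply_coeff, coeff_expand_mul]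
    · rw [ofPowerSeries_coeff_of_neg _ hm, ofPowerSeries_coeff_of_neg _ (by nlinarith)]
  · rw [qExpand_coeff_of_not_dvd N _ hk]
    rcases le_or_gt 0 k with hk0 | hk0
    · lift k to ℕ using hk0
      rw [HahnSeries.ofPowerSeries_apply_coeff, coeff_expand_of_not_dvd]
      exact fun h => hk (by exact_mod_cast h)
    · rw [ofPowerSeries_coeff_of_neg _ hk0]

theorem qExpand_Lz (N : ℕ) [NeZero N] (P : PowerSeries ℤ) :
    qExpand K N (Lz K P) = Lz K (expand N (NeZero.ne N) P) := by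
  rw [Lz_apply, qExpand_ofPowerSeries, Lz_apply, PowerSeries.map_expand]

theorem qExpand_jqModC (N : ℕ) [NeZero N] :
    qExpand K N (jqModC K) =
      HahnSeries.single (-(N : ℤ)) (1 : K) * Lz K (expand N (NeZero.ne N) jNum) := by
  rw [jqModC_eq, map_mul, qExpand_single, qExpand_Lz, mul_neg_one]

end Laurent

/-! ### The Hauptmodul of `X₀(2)` -/

/-- `∏ (1-Xⁿ)²⁴ / (1-X²ⁿ)²⁴` -/
noncomputable def u2 : PowerSeries ℤ :=
  etaProd ^ 24 * invOfUnit (expand 2 two_ne_zero (etaProd ^ 24)) 1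

theorem u2_mul : u2 * expand 2 two_ne_zero (etaProd ^ 24) = etaProd ^ 24 := by
  rw [u2, mul_assoc, mul_comm (invOfUnit _ _), PowerSeries.mul_invOfUnit _ _
    (by rw [constantCoeff_expand_etaProd_pow]; rfl), mul_one]

theorem constantCoeff_u2 : constantCoeff u2 = 1 := by
  have h := congrArg (constantCoeff (R := ℤ)) u2_mul
  rwa [map_mul, constantCoeff_expand_etaProd_pow, mul_one, constantCoeff_etaProd_pow] at h

theorem jNum_mul : jNum * etaProd ^ 24 = eisenstein4 ^ 3 := by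
  rw [jNum, mul_assoc, mul_comm dedekindEtaUnitInv, ← dedekindEtaUnit, dedekindEtaUnit_mul_inv,
    mul_one]

theorem expand_ne_zero (p : ℕ) (hp : p ≠ 0) (n : ℕ) : expand p hp (etaProd ^ n) ≠ 0 := by
  intro h
  have := constantCoeff_expand_etaProd_pow p hp n
  rw [h, map_zero] at this
  exact zero_ne_one this

theorem jNum_mul_u2_sq : jNum * u2 ^ 2 = (u2 + 256 * X) ^ 3 := by
  apply mul_right_cancel₀ (pow_ne_zero 3 (expand_ne_zero 2 two_ne_zero 24))
  calc jNum * u2 ^ 2 * expand 2 two_ne_zero (etaProd ^ 24) ^ 3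
      = jNum * (u2 * expand 2 two_ne_zero (etaProd ^ 24)) ^ 2 *
          expand 2 two_ne_zero (etaProd ^ 24) := by ring
    _ = jNum * etaProd ^ 24 * etaProd ^ 24 * expand 2 two_ne_zero (etaProd ^ 24) := by
        rw [u2_mul]; ring
    _ = (etaProd ^ 24 + 256 * X * expand 2 two_ne_zero (etaProd ^ 24)) ^ 3 := by
        rw [jNum_mul, haupt2_A]
    _ = (u2 * expand 2 two_ne_zero (etaProd ^ 24) +
          256 * X * expand 2 two_ne_zero (etaProd ^ 24)) ^ 3 := by rw [u2_mul]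
    _ = (u2 + 256 * X) ^ 3 * expand 2 two_ne_zero (etaProd ^ 24) ^ 3 := by ring

theorem expand_jNum_mul_u2 : expand 2 two_ne_zero jNum * u2 = (u2 + 16 * X) ^ 3 := by
  have hj : expand 2 two_ne_zero jNum * expand 2 two_ne_zero (etaProd ^ 24) =
      (expand 2 two_ne_zero eisenstein4) ^ 3 := by
    rw [← map_mul, jNum_mul, map_pow]
  apply mul_right_cancel₀ (pow_ne_zero 3 (expand_ne_zero 2 two_ne_zero 24))
  calc expand 2 two_ne_zero jNum * u2 * expand 2 two_ne_zero (etaProd ^ 24) ^ 3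
      = (expand 2 two_ne_zero jNum * expand 2 two_ne_zero (etaProd ^ 24)) *
          (u2 * expand 2 two_ne_zero (etaProd ^ 24)) *
          expand 2 two_ne_zero (etaProd ^ 24) := by ring
    _ = (etaProd ^ 24 + 16 * X * expand 2 two_ne_zero (etaProd ^ 24)) ^ 3 := by
        rw [hj, u2_mul, haupt2_B]
    _ = (u2 * expand 2 two_ne_zero (etaProd ^ 24) +
          16 * X * expand 2 two_ne_zero (etaProd ^ 24)) ^ 3 := by rw [u2_mul]
    _ = (u2 + 16 * X) ^ 3 * expand 2 two_ne_zero (etaProd ^ 24) ^ 3 := by ring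

section tq2

variable (K : Type*) [CommRing K]

/-- the Hauptmodul `t₂ = q⁻¹ ∏ (1-qⁿ)²⁴ / (1-q²ⁿ)²⁴ = Δ(q)/Δ(q²)` of `X₀(2)` -/
noncomputable def tq2 : LaurentSeries K := HahnSeries.single (-1 : ℤ) (1 : K) * Lz K u2

variable {K} in
theorem coeffMap_tq2 {K' : Type*} [CommRing K'] (f : K →+* K') : coeffMap f (tq2 K) = tq2 K' := by
  rw [tq2, map_mul, coeffMap_single, map_one, coeffMap_Lz, tq2]

/-- `tq2 + c = q⁻¹ (u2 + c X)` -/
theorem tq2_add (c : ℤ) :
    tq2 K + (c : LaurentSeries K) = HahnSeries.single (-1 : ℤ) (1 : K) * Lz K (u2 + (c : PowerSeries ℤ) * X) := by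
  rw [map_add, map_mul, mul_add, ← tq2, mul_left_comm, single_neg_one_mul_Lz_X, mul_one,
    map_intCast]

theorem jq_mul_tq2_sq : jqModC K * tq2 K ^ 2 = (tq2 K + 256) ^ 3 := by
  have h := tq2_add K 256
  rw [Int.cast_ofNat, Int.cast_ofNat] at h
  have hL : Lz K jNum * Lz K u2 ^ 2 = Lz K (u2 + 256 * X) ^ 3 := by
    rw [← map_pow, ← map_mul, jNum_mul_u2_sq, map_pow]
  rw [h, jqModC_eq, tq2]
  linear_combination (HahnSeries.single (-1 : ℤ) (1 : K)) ^ 3 * hL

theorem jq2_mul_tq2 : qExpand K 2 (jqModC K) * tq2 K = (tq2 K + 16) ^ 3 := by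
  have h := tq2_add K 16
  rw [Int.cast_ofNat, Int.cast_ofNat] at h
  have hs : HahnSeries.single (-((2 : ℕ) : ℤ)) (1 : K) = HahnSeries.single (-1 : ℤ) (1 : K) ^ 2 := by
    rw [HahnSeries.single_pow]; simp
  have hL : Lz K (expand 2 (NeZero.ne 2) jNum) * Lz K u2 = Lz K (u2 + 16 * X) ^ 3 := by
    rw [← map_mul, expand_jNum_mul_u2, map_pow]
  rw [h, qExpand_jqModC, hs, tq2]
  linear_combination (HahnSeries.single (-1 : ℤ) (1 : K)) ^ 3 * hL

theorem coeff_tq2_neg_one : (tq2 K).coeff (-1 : ℤ) = 1 := by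
  rw [tq2, HahnSeries.coeff_single_mul, one_mul, sub_neg_eq_add, neg_add_cancel,
    show (0 : ℤ) = ((0 : ℕ) : ℤ) from rfl, Lz_apply, HahnSeries.ofPowerSeries_apply_coeff,
    PowerSeries.coeff_map, PowerSeries.coeff_zero_eq_constantCoeff, constantCoeff_u2]
  simp

theorem coeff_tq2_of_lt {k : ℤ} (hk : k < -1) : (tq2 K).coeff k = 0 := by
  rw [tq2, HahnSeries.coeff_single_mul, one_mul, Lz_apply]
  exact ofPowerSeries_coeff_of_neg _ (by omega)

theorem tq2_ne_zero [Nontrivial K] : tq2 K ≠ 0 := fun h => by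
  simpa [h] using coeff_tq2_neg_one K

end tq2

/-! ### The Hauptmodul of `X₀(3)` -/

/-- `∏ (1-Xⁿ)¹² / (1-X³ⁿ)¹²` -/
noncomputable def u3 : PowerSeries ℤ :=
  etaProd ^ 12 * invOfUnit (expand 3 three_ne_zero (etaProd ^ 12)) 1

theorem u3_mul : u3 * expand 3 three_ne_zero (etaProd ^ 12) = etaProd ^ 12 := by
  rw [u3, mul_assoc, mul_comm (invOfUnit _ _), PowerSeries.mul_invOfUnit _ _
    (by rw [constantCoeff_expand_etaProd_pow]; rfl), mul_one]

theorem constantCoeff_u3 : constantCoeff u3 = 1 := by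
  have h := congrArg (constantCoeff (R := ℤ)) u3_mul
  rwa [map_mul, constantCoeff_expand_etaProd_pow, mul_one, constantCoeff_etaProd_pow] at h

theorem jNum_mul' : jNum * (etaProd ^ 12) ^ 2 = eisenstein4 ^ 3 := by
  rw [← jNum_mul]; ring

theorem etaProd_pow_ne_zero (n : ℕ) : etaProd ^ n ≠ 0 := by
  intro h
  have := constantCoeff_etaProd_pow n
  rw [h, map_zero] at this
  exact zero_ne_one this

theorem jNum_mul_u3_cube : jNum * u3 ^ 3 = (u3 + 27 * X) * (u3 + 243 * X) ^ 3 := by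
  apply mul_right_cancel₀ (mul_ne_zero (pow_ne_zero 2 (etaProd_pow_ne_zero 12))
    (pow_ne_zero 4 (expand_ne_zero 3 three_ne_zero 12)))
  calc jNum * u3 ^ 3 * ((etaProd ^ 12) ^ 2 * expand 3 three_ne_zero (etaProd ^ 12) ^ 4)
      = (jNum * (etaProd ^ 12) ^ 2) * (u3 * expand 3 three_ne_zero (etaProd ^ 12)) ^ 3 *
          expand 3 three_ne_zero (etaProd ^ 12) := by ring
    _ = (eisenstein4 ^ 3 * etaProd ^ 12 * expand 3 three_ne_zero (etaProd ^ 12)) *
          (etaProd ^ 12) ^ 2 := by rw [jNum_mul', u3_mul]; ring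
    _ = (u3 * expand 3 three_ne_zero (etaProd ^ 12) +
            27 * X * expand 3 three_ne_zero (etaProd ^ 12)) *
          (u3 * expand 3 three_ne_zero (etaProd ^ 12) +
            243 * X * expand 3 three_ne_zero (etaProd ^ 12)) ^ 3 * (etaProd ^ 12) ^ 2 := by
        rw [haupt3_A, u3_mul]
    _ = (u3 + 27 * X) * (u3 + 243 * X) ^ 3 *
          ((etaProd ^ 12) ^ 2 * expand 3 three_ne_zero (etaProd ^ 12) ^ 4) := by ring

theorem expand_jNum_mul_u3 :
    expand 3 three_ne_zero jNum * u3 = (u3 + 27 * X) * (u3 + 3 * X) ^ 3 := by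
  have hj : expand 3 three_ne_zero jNum * expand 3 three_ne_zero (etaProd ^ 12) ^ 2 =
      (expand 3 three_ne_zero eisenstein4) ^ 3 := by
    rw [← map_pow, ← map_mul, jNum_mul', map_pow]
  apply mul_right_cancel₀ (pow_ne_zero 4 (expand_ne_zero 3 three_ne_zero 12))
  calc expand 3 three_ne_zero jNum * u3 * expand 3 three_ne_zero (etaProd ^ 12) ^ 4
      = (expand 3 three_ne_zero jNum * expand 3 three_ne_zero (etaProd ^ 12) ^ 2) *
          (u3 * expand 3 three_ne_zero (etaProd ^ 12)) *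
          expand 3 three_ne_zero (etaProd ^ 12) := by ring
    _ = (u3 * expand 3 three_ne_zero (etaProd ^ 12) +
            27 * X * expand 3 three_ne_zero (etaProd ^ 12)) *
          (u3 * expand 3 three_ne_zero (etaProd ^ 12) +
            3 * X * expand 3 three_ne_zero (etaProd ^ 12)) ^ 3 := by
        rw [hj, u3_mul, haupt3_B]
    _ = (u3 + 27 * X) * (u3 + 3 * X) ^ 3 * expand 3 three_ne_zero (etaProd ^ 12) ^ 4 := by ring

section tq3

variable (K : Type*) [CommRing K]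

/-- the Hauptmodul `t₃ = q⁻¹ ∏ (1-qⁿ)¹² / (1-q³ⁿ)¹² = (η(z)/η(3z))¹²` of `X₀(3)` -/
noncomputable def tq3 : LaurentSeries K := HahnSeries.single (-1 : ℤ) (1 : K) * Lz K u3

variable {K} in
theorem coeffMap_tq3 {K' : Type*} [CommRing K'] (f : K →+* K') : coeffMap f (tq3 K) = tq3 K' := by
  rw [tq3, map_mul, coeffMap_single, map_one, coeffMap_Lz, tq3]

theorem tq3_add (c : ℤ) :
    tq3 K + (c : LaurentSeries K) = HahnSeries.single (-1 : ℤ) (1 : K) * Lz K (u3 + (c : PowerSeries ℤ) * X) := by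
  rw [map_add, map_mul, mul_add, ← tq3, mul_left_comm, single_neg_one_mul_Lz_X, mul_one,
    map_intCast]

theorem jq_mul_tq3_cube : jqModC K * tq3 K ^ 3 = (tq3 K + 27) * (tq3 K + 243) ^ 3 := by
  have h1 := tq3_add K 27
  have h2 := tq3_add K 243
  rw [Int.cast_ofNat, Int.cast_ofNat] at h1 h2
  have hL : Lz K jNum * Lz K u3 ^ 3 = Lz K (u3 + 27 * X) * Lz K (u3 + 243 * X) ^ 3 := by
    rw [← map_pow, ← map_mul, jNum_mul_u3_cube, map_mul, map_pow]
  rw [h1, h2, jqModC_eq, tq3]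
  linear_combination (HahnSeries.single (-1 : ℤ) (1 : K)) ^ 4 * hL

theorem jq3_mul_tq3 : qExpand K 3 (jqModC K) * tq3 K = (tq3 K + 27) * (tq3 K + 3) ^ 3 := by
  have h1 := tq3_add K 27
  have h2 := tq3_add K 3
  rw [Int.cast_ofNat, Int.cast_ofNat] at h1 h2
  have hs : HahnSeries.single (-((3 : ℕ) : ℤ)) (1 : K) = HahnSeries.single (-1 : ℤ) (1 : K) ^ 3 := by
    rw [HahnSeries.single_pow]; simp
  have hL : Lz K (expand 3 (NeZero.ne 3) jNum) * Lz K u3 =
      Lz K (u3 + 27 * X) * Lz K (u3 + 3 * X) ^ 3 := by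
    rw [← map_mul, expand_jNum_mul_u3, map_mul, map_pow]
  rw [h1, h2, qExpand_jqModC, hs, tq3]
  linear_combination (HahnSeries.single (-1 : ℤ) (1 : K)) ^ 4 * hL

theorem coeff_tq3_neg_one : (tq3 K).coeff (-1 : ℤ) = 1 := by
  rw [tq3, HahnSeries.coeff_single_mul, one_mul, sub_neg_eq_add, neg_add_cancel,
    show (0 : ℤ) = ((0 : ℕ) : ℤ) from rfl, Lz_apply, HahnSeries.ofPowerSeries_apply_coeff,
    PowerSeries.coeff_map, PowerSeries.coeff_zero_eq_constantCoeff, constantCoeff_u3]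
  simp

theorem coeff_tq3_of_lt {k : ℤ} (hk : k < -1) : (tq3 K).coeff k = 0 := by
  rw [tq3, HahnSeries.coeff_single_mul, one_mul, Lz_apply]
  exact ofPowerSeries_coeff_of_neg _ (by omega)

theorem tq3_ne_zero [Nontrivial K] : tq3 K ≠ 0 := fun h => by
  simpa [h] using coeff_tq3_neg_one K

end tq3

end Fermat.Agent.S18.H77
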