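/-
S18, node PB (place bridge), final model statements: `Fbar_L` is generated over the `K0`-model
by the constants `Qbar` (`hgen_model`), hence (constant field extensions are unramified, helper89)
every place of `Fbar_L` has a uniformiser in the model, and the `(DIV)` hypothesis of the generic
Kummer core holds at the `K0`-model with NO side hypothesis.
-/
import Mathlib
import Fermat.Agent.S18.PlaceModel_helper74
import Fermat.Agent.S18.ConstExt_helper89
import Fermat.Agent.S18.HdivAdapt_helper40

set_option autoImplicit false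

noncomputable section

namespace Fermat.Agent.S18.H74

open ModularCurve AlgebraicCurve Fermat.Agent.S24 Fermat.Agent.S24.H98 IntermediateField

section ModelDiv

variable (K0 : Type*) [Field K0] [Algebra K0 Kbar] (L : ℕ) [NeZero L]

attribute [local instance] algModel algK0Bar

omit [NeZero L] in
/-- the tower `K0 → Qbar → Fbar_L` (for `algK0Bar`) -/
theorem isScalarTower_K0_Kbar_bar : IsScalarTower K0 Kbar ↥(modularFunctionFieldBar L) :=
  IsScalarTower.of_algebraMap_eq fun _ => rfl

/-- the tower `K0 → F0 → Fbar_L` (for `algModel`, `algK0Bar`) -/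
theorem isScalarTower_K0_model_bar :
    IsScalarTower K0 ↥(modularFunctionFieldFullC K0 L) ↥(modularFunctionFieldBar L) :=
  IsScalarTower.of_algebraMap_eq fun c => (toBar_algebraMap K0 L c).symm

attribute [local instance] isScalarTower_K0_Kbar_bar isScalarTower_K0_model_bar

/-- **`Fbar_L = Qbar · F0`**: the frozen field is generated over the `K0`-model by the
constants. -/
theorem hgen_model :
    IntermediateField.adjoin ↥(modularFunctionFieldFullC K0 L)
      (Set.range (algebraMap Kbar ↥(modularFunctionFieldBar L))) = ⊤ := by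
  have key : ∀ (y : LaurentSeries Kbar)
      (_ : y ∈ IntermediateField.adjoin Kbar (Set.range (H20.Jd L Kbar)))
      (hy : y ∈ modularFunctionFieldBar L),
      (⟨y, hy⟩ : ↥(modularFunctionFieldBar L)) ∈
        IntermediateField.adjoin ↥(modularFunctionFieldFullC K0 L)
          (Set.range (algebraMap Kbar ↥(modularFunctionFieldBar L))) := by
    intro y hy'
    induction hy' using IntermediateField.adjoin_induction with
    | mem y hy =>
      intro hyb
      obtain ⟨⟨d, hd⟩, rfl⟩ := hy
      haveI : NeZero d := H20.neZero_of_dvd hd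
      have heq : (⟨H20.Jd L Kbar ⟨d, hd⟩, hyb⟩ : ↥(modularFunctionFieldBar L)) =
          algebraMap ↥(modularFunctionFieldFullC K0 L) ↥(modularFunctionFieldBar L)
            ⟨qExpand K0 d (jqModC K0), jqModCd_mem_full K0 L hd⟩ := by
        apply Subtype.ext
        show H20.Jd L Kbar ⟨d, hd⟩ = ((toBar K0 L ⟨qExpand K0 d (jqModC K0),
          jqModCd_mem_full K0 L hd⟩ : ↥(modularFunctionFieldBar L)) : LaurentSeries Kbar)
        rw [toBar_gen K0 L hd, H20.Jd_eq, coeffEmb, coeffMap_qExpand, H20.coeffMap_jq]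
      rw [heq]
      exact IntermediateField.algebraMap_mem _ _
    | algebraMap c =>
      intro hyb
      exact IntermediateField.subset_adjoin _ _ ⟨c, rfl⟩
    | add y z hy hz ihy ihz =>
      intro hyb
      have hy1 : y ∈ modularFunctionFieldBar L := by
        rw [H20.modularFunctionFieldBar_eq_adjoin]; exact hy
      have hz1 : z ∈ modularFunctionFieldBar L := by
        rw [H20.modularFunctionFieldBar_eq_adjoin]; exact hz
      have e : (⟨y + z, hyb⟩ : ↥(modularFunctionFieldBar L)) = ⟨y, hy1⟩ + ⟨z, hz1⟩ := rfl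
      rw [e]
      exact add_mem (ihy hy1) (ihz hz1)
    | inv y hy ih =>
      intro hyb
      have hy1 : y ∈ modularFunctionFieldBar L := by
        rw [H20.modularFunctionFieldBar_eq_adjoin]; exact hy
      have e : (⟨y⁻¹, hyb⟩ : ↥(modularFunctionFieldBar L)) =
          (⟨y, hy1⟩ : ↥(modularFunctionFieldBar L))⁻¹ := rfl
      rw [e]
      exact inv_mem (ih hy1)
    | mul y z hy hz ihy ihz =>
      intro hyb
      have hy1 : y ∈ modularFunctionFieldBar L := by
        rw [H20.modularFunctionFieldBar_eq_adjoin]; exact hy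
      have hz1 : z ∈ modularFunctionFieldBar L := by
        rw [H20.modularFunctionFieldBar_eq_adjoin]; exact hz
      have e : (⟨y * z, hyb⟩ : ↥(modularFunctionFieldBar L)) = ⟨y, hy1⟩ * ⟨z, hz1⟩ := rfl
      rw [e]
      exact mul_mem (ihy hy1) (ihz hz1)
  rw [eq_top_iff]
  rintro ⟨y, hy⟩ -
  have hy' : y ∈ IntermediateField.adjoin Kbar (Set.range (H20.Jd L Kbar)) := by
    rw [← H20.modularFunctionFieldBar_eq_adjoin]; exact hy
  exact key y hy' hy

omit [NeZero L] in
/-- a field with an algebra map to `Qbar` has characteristic zero -/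
theorem charZero_of_algebra_Kbar : CharZero K0 :=
  (algebraMap K0 Kbar).charZero

/-- `Qbar / K0` is separable -/
theorem isSeparable_K0_Kbar [Algebra.IsAlgebraic K0 Kbar] : Algebra.IsSeparable K0 Kbar := by
  haveI : CharZero K0 := charZero_of_algebra_Kbar K0
  infer_instance

/-- `Fbar_L` is integral over the `K0`-model -/
theorem isIntegral_model [Algebra.IsAlgebraic K0 Kbar] :
    Algebra.IsIntegral ↥(modularFunctionFieldFullC K0 L) ↥(modularFunctionFieldBar L) :=
  H89.isIntegral_of_adjoin_eq_top (K0 := K0) (hgen_model K0 L)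

/-- **(E1), model form.** Every place of `Fbar_L` has a uniformiser coming from the
`K0`-model (constant field extensions are unramified). -/
theorem exists_model_uniformiser [Algebra.IsAlgebraic K0 Kbar]
    (P : Place Kbar ↥(modularFunctionFieldBar L)) :
    ∃ t : ↥(modularFunctionFieldFullC K0 L), P.ord (toBar K0 L t) = 1 := by
  haveI := isSeparable_K0_Kbar K0
  haveI := isIntegral_model K0 L
  exact H89.exists_ord_eq_one K0 (hgen_model K0 L) P

/-- restriction to the model preserves orders (`e = 1`) -/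
theorem ord_toBar_eq [Algebra.IsAlgebraic K0 Kbar]
    (P : Place Kbar ↥(modularFunctionFieldBar L)) (y : ↥(modularFunctionFieldFullC K0 L)) :
    P.ord (toBar K0 L y) = (restrictModel K0 L P).ord y :=
  ord_toBar_eq_of_exists K0 L P (exists_model_uniformiser K0 L P) y

/-- every place of the model is the restriction of a place of `Fbar_L`, with the same orders -/
theorem exists_place_ord_eq [Algebra.IsAlgebraic K0 Kbar]
    (O : Place K0 ↥(modularFunctionFieldFullC K0 L)) :
    ∃ P : Place Kbar ↥(modularFunctionFieldBar L),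
      ∀ y : ↥(modularFunctionFieldFullC K0 L), O.ord y = P.ord (toBar K0 L y) := by
  obtain ⟨P, rfl⟩ := exists_restrictModel_eq K0 L O
  exact ⟨P, fun y => (ord_toBar_eq K0 L P y).symm⟩

/-- **(DIV), Place form, unconditional.** -/
theorem dvd_ord_model_of_forall [Algebra.IsAlgebraic K0 Kbar] (m : ℤ)
    (u : ↥(modularFunctionFieldFullC K0 L))
    (hP : ∀ P : Place Kbar ↥(modularFunctionFieldBar L), m ∣ P.ord (toBar K0 L u))
    (O : Place K0 ↥(modularFunctionFieldFullC K0 L)) : m ∣ O.ord u :=
  dvd_ord_model K0 L m u hP (fun P _ => exists_model_uniformiser K0 L P) O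

/-- **(DIV), `ZVal` form, unconditional.** -/
theorem dvd_zval_ord_model_of_forall [Algebra.IsAlgebraic K0 Kbar] (m : ℤ)
    (u : ↥(modularFunctionFieldFullC K0 L)) (hu : u ≠ 0)
    (hP : ∀ P : Place Kbar ↥(modularFunctionFieldBar L), m ∣ P.ord (toBar K0 L u))
    (w : H31.ZVal ↥(modularFunctionFieldFullC K0 L))
    (hw : ∀ c : K0, c ≠ 0 → w.ord (algebraMap K0 ↥(modularFunctionFieldFullC K0 L) c) = 0) :
    m ∣ w.ord u :=
  dvd_zval_ord_model K0 L m u hu hP (fun P _ => exists_model_uniformiser K0 L P) w hw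

/-- **(DIV), the literal `hdiv` shape of `H63.StmtKC` / `H63.StmtBase`, field form**: at every
valuation subring of the `K0`-model containing `K0`, `f` is a unit times an `m`-th power. -/
theorem hdiv_model_field [Algebra.IsAlgebraic K0 Kbar]
    (m : ℕ) (f : ↥(modularFunctionFieldFullC K0 L)) (hf : f ≠ 0)
    (hP : ∀ P : Place Kbar ↥(modularFunctionFieldBar L), (m : ℤ) ∣ P.ord (toBar K0 L f))
    (O : ValuationSubring ↥(modularFunctionFieldFullC K0 L))
    (hO : ∀ c : K0, algebraMap K0 ↥(modularFunctionFieldFullC K0 L) c ∈ O) :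
    ∃ g : ↥(modularFunctionFieldFullC K0 L), g ≠ 0 ∧ f / g ^ m ∈ O ∧ g ^ m / f ∈ O :=
  H40.hdiv_of_forall_place_field (K0 := K0) (K := Kbar) (F := ↥(modularFunctionFieldBar L))
    (hDVR_bar L) m f hf hP (fun P _ => exists_model_uniformiser K0 L P) O hO

/-- **(DIV), the literal `hdiv` shape of `H63.StmtKC` / `H63.StmtBase`** over any base ring `A`
with fraction field `K0` (application: `A = ↥A0`, the DVR `A ∩ K0`). -/
theorem hdiv_model [Algebra.IsAlgebraic K0 Kbar] {A : Type*} [CommRing A] [Algebra A K0]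
    [IsFractionRing A K0] [Algebra A ↥(modularFunctionFieldFullC K0 L)]
    [IsScalarTower A K0 ↥(modularFunctionFieldFullC K0 L)]
    (m : ℕ) (f : ↥(modularFunctionFieldFullC K0 L)) (hf : f ≠ 0)
    (hP : ∀ P : Place Kbar ↥(modularFunctionFieldBar L), (m : ℤ) ∣ P.ord (toBar K0 L f)) :
    ∀ O : ValuationSubring ↥(modularFunctionFieldFullC K0 L),
      (∀ a : A, algebraMap A ↥(modularFunctionFieldFullC K0 L) a ∈ O) →
      (∀ a : A, a ≠ 0 → (algebraMap A ↥(modularFunctionFieldFullC K0 L) a)⁻¹ ∈ O) →
      ∃ g : ↥(modularFunctionFieldFullC K0 L), g ≠ 0 ∧ f / g ^ m ∈ O ∧ g ^ m / f ∈ O :=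
  H40.hdiv_of_forall_place K0 Kbar ↥(modularFunctionFieldBar L) (hDVR_bar L) m f hf hP
    (fun P _ => exists_model_uniformiser K0 L P)

omit [Algebra K0 Kbar] [NeZero L] in
/-- the tower `A0 → K0 → F0` for a valuation subring `A0` of `K0` (the instance
`Algebra ↥A0 ↥F0` is Mathlib's `Algebra.ofSubsemiring A0`; instance search does not find this
tower within the default heartbeats, so it is exported as a theorem). -/
theorem isScalarTower_valuationSubring_model (A0 : ValuationSubring K0) :
    IsScalarTower ↥A0 K0 ↥(modularFunctionFieldFullC K0 L) :=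
  IsScalarTower.of_algebraMap_eq fun _ => rfl

/-- **(DIV), the literal `hdiv` shape of `H63.StmtKC` / `H63.StmtBase` at `A := ↥A0`,
`F := ↥F0`** for a valuation subring `A0` of `K0` (with Mathlib's instance
`Algebra ↥A0 ↥F0`). -/
theorem hdiv_model_valuationSubring [Algebra.IsAlgebraic K0 Kbar] (A0 : ValuationSubring K0)
    (m : ℕ) (f : ↥(modularFunctionFieldFullC K0 L)) (hf : f ≠ 0)
    (hP : ∀ P : Place Kbar ↥(modularFunctionFieldBar L), (m : ℤ) ∣ P.ord (toBar K0 L f)) :
    ∀ O : ValuationSubring ↥(modularFunctionFieldFullC K0 L),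
      (∀ a : ↥A0, algebraMap ↥A0 ↥(modularFunctionFieldFullC K0 L) a ∈ O) →
      (∀ a : ↥A0, a ≠ 0 → (algebraMap ↥A0 ↥(modularFunctionFieldFullC K0 L) a)⁻¹ ∈ O) →
      ∃ g : ↥(modularFunctionFieldFullC K0 L), g ≠ 0 ∧ f / g ^ m ∈ O ∧ g ^ m / f ∈ O :=
  haveI := isScalarTower_valuationSubring_model K0 L A0
  hdiv_model K0 L m f hf hP

end ModelDiv

end Fermat.Agent.S18.H74
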