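import Mathlib
import Fermat.Agent.S18.ModelArrow_helper60
import Fermat.Agent.S18.KCStmts_helper63
import Fermat.Agent.S18.ValRing_helper86

/-!
# S18, arrow T4a (helper60): the model statement from the generic Kummer core

* `KCData A F π V BU BV j` : the `f`-independent hypotheses of `H63.StmtKC`, as a structure
  (generic: any domain `A`, any field `F`).
* `KCData.kc` : `H63.StmtKC` applied to a `KCData`.
* `ModelCharts A K0 L` : chart data for the number-field model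
  (`A₀ = A ∩ K0`, `F₀ = modularFunctionFieldFullC K0 L`): a `KCData` together with three model
  facts (the uniformiser generates the maximal ideal of `A₀`; ratios of integral series with
  nonzero-reduction denominator lie in `V`; no pole on both charts implies algebraic over `K0`).
* `modelKum_of_charts` : `H63.StmtKC` + `ModelCharts` + the `hdiv` adapter give `ModelKum`.
* `result_of_charts` : the frozen statement S18 (literal signature) from these inputs.
-/

set_option autoImplicit false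
set_option synthInstance.maxHeartbeats 400000

open ModularCurve AlgebraicCurve IntermediateField

namespace Fermat.Agent.S18.H60

noncomputable section

/-! ### The `f`-independent data of the generic Kummer core -/

/-- The `f`-independent hypotheses of `H63.StmtKC`. -/
structure KCData (A F : Type) [CommRing A] [IsDomain A] [Field F] [Algebra A F]
    (π : A) (V : ValuationSubring F) (BU BV : Subalgebra A F) (j : F) : Prop where
  pi_ne : π ≠ 0
  inj : Function.Injective (algebraMap A F)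
  arch : ∀ c : A, c ≠ 0 → ∃ n : ℕ, c ∣ π ^ n
  pi_mem : algebraMap A F π ∈ V.nonunits
  nonunits : ∀ x ∈ V.nonunits, ∃ y ∈ V, x = algebraMap A F π * y
  leU : ∀ x ∈ BU, x ∈ V
  leV : ∀ x ∈ BV, x ∈ V
  icU : ∀ x : F, IsIntegral BU x → x ∈ BU
  icV : ∀ x : F, IsIntegral BV x → x ∈ BV
  satU : ∀ x ∈ BU, (∃ y ∈ V, x = algebraMap A F π * y) → ∃ b ∈ BU, x = algebraMap A F π * b
  satV : ∀ x ∈ BV, (∃ y ∈ V, x = algebraMap A F π * y) → ∃ b ∈ BV, x = algebraMap A F π * b
  j_ne : j ≠ 0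
  j_mem : j ∈ BU
  inv_mem : j⁻¹ ∈ BV
  UtoV : ∀ x ∈ BU, ∃ n : ℕ, j⁻¹ ^ n * x ∈ BV
  VtoU : ∀ x ∈ BV, ∃ n : ℕ, j ^ n * x ∈ BU
  noethU : IsNoetherianRing BU
  noethV : IsNoetherianRing BV
  fg : ∀ M : Submodule (Algebra.adjoin A {j}) F, (∀ x ∈ M, x ∈ BU) → M.FG
  fracU : ∀ x : F, ∃ a ∈ BU, ∃ b ∈ BU, b ≠ 0 ∧ x * b = a
  fracV : ∀ x : F, ∃ a ∈ BV, ∃ b ∈ BV, b ≠ 0 ∧ x * b = a
  regU : ∀ n : Ideal BU, n.IsMaximal → algebraMap A BU π ∈ n →
    ∃ τ ∈ n, ∀ a : BU, a ∉ Ideal.span {algebraMap A BU π} →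
      ∃ (e : ℕ) (d u : BU), d ∉ n ∧ u ∉ n ∧
        a * d - u * τ ^ e ∈ Ideal.span {algebraMap A BU π}
  regV : ∀ n : Ideal BV, n.IsMaximal → algebraMap A BV π ∈ n →
    ∃ τ ∈ n, ∀ a : BV, a ∉ Ideal.span {algebraMap A BV π} →
      ∃ (e : ℕ) (d u : BV), d ∉ n ∧ u ∉ n ∧
        a * d - u * τ ^ e ∈ Ideal.span {algebraMap A BV π}

/-- The generic Kummer core applied to a `KCData`. -/
theorem KCData.kc (hKC : H63.StmtKC) {A F : Type} [CommRing A] [IsDomain A] [Field F]
    [Algebra A F] {π : A} {V : ValuationSubring F} {BU BV : Subalgebra A F} {j : F}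
    (d : KCData A F π V BU BV j) (m : ℕ) (hm : IsUnit (m : A)) (f : F)
    (hf : ∃ y ∈ V, f - 1 = algebraMap A F π * y)
    (hdiv : ∀ O : ValuationSubring F, (∀ a : A, algebraMap A F a ∈ O) →
      (∀ a : A, a ≠ 0 → (algebraMap A F a)⁻¹ ∈ O) →
      ∃ g : F, g ≠ 0 ∧ f / g ^ m ∈ O ∧ g ^ m / f ∈ O) :
    ∃ σ γ : F, σ ≠ 0 ∧ γ ≠ 0 ∧ γ ∈ BU ∧ γ ∈ BV ∧ σ ^ m = f * γ :=
  hKC A F π m V BU BV j f d.pi_ne d.inj d.arch hm d.pi_mem d.nonunits d.leU d.leV d.icU d.icV
    d.satU d.satV d.j_ne d.j_mem d.inv_mem d.UtoV d.VtoU d.noethU d.noethV d.fg d.fracU d.fracV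
    d.regU d.regV hf hdiv

/-! ### Dividing a Laurent series by a constant -/

/-- A Laurent series all of whose coefficients are divisible by `π` is `C π` times a series. -/
theorem exists_C_mul_of_forall_dvd {R : Type*} [CommRing R] (π : R) (W : LaurentSeries R)
    (h : ∀ k : ℤ, π ∣ W.coeff k) : ∃ W' : LaurentSeries R, W = HahnSeries.C π * W' := by
  classical
  choose b hb using h
  let c : ℤ → R := fun k => if W.coeff k = 0 then 0 else b k
  have hc : ∀ k, W.coeff k = π * c k := by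
    intro k
    by_cases h0 : W.coeff k = 0
    · simp [c, h0]
    · simp only [c, if_neg h0]
      exact hb k
  have hsupp : Function.support c ⊆ W.support := by
    intro k hk
    simp only [Function.mem_support, ne_eq, c] at hk
    by_cases h0 : W.coeff k = 0
    · rw [if_pos h0] at hk
      exact absurd rfl hk
    · exact h0
  refine ⟨⟨c, W.isPWO_support.mono hsupp⟩, ?_⟩
  ext k
  rw [HahnSeries.C_mul_eq_smul, HahnSeries.coeff_smul, smul_eq_mul]
  exact hc k

/-! ### The number-field model -/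

section Model

variable (A : ValuationSubring (AlgebraicClosure ℚ))
  (K0 : IntermediateField ℚ (AlgebraicClosure ℚ)) (L : ℕ) [NeZero L]

/-- The algebra structure of the model field `F₀` over `A₀ = A ∩ K0`: a shortcut for the
instance found by type-class search (`Algebra.ofSubsemiring`), to which it is reducibly equal. -/
@[reducible] def algA0F0 : Algebra ↥(H61.A0 A K0) ↥(modularFunctionFieldFullC K0 L) :=
  Algebra.ofSubsemiring (H61.A0 A K0)

attribute [local instance 2000] algA0F0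

/-- **Chart data for the number-field model** `(A₀ = A ∩ K0, F₀ = K0(j(q^d) : d ∣ L))`. -/
def ModelCharts : Prop :=
  ∃ (π : ↥(H61.A0 A K0)) (V : ValuationSubring ↥(modularFunctionFieldFullC K0 L))
    (BU BV : Subalgebra ↥(H61.A0 A K0) ↥(modularFunctionFieldFullC K0 L))
    (ξ : ↥(modularFunctionFieldFullC K0 L)),
    KCData ↥(H61.A0 A K0) ↥(modularFunctionFieldFullC K0 L) π V BU BV ξ ∧
    (∀ a : ↥(H61.A0 A K0), IsLocalRing.residue ↥(H61.A0 A K0) a = 0 → π ∣ a) ∧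
    (∀ (Z1 Z2 : LaurentSeries ↥(H61.A0 A K0))
      (h1 : coeffMap (H61.A0 A K0).subtype Z1 ∈ modularFunctionFieldFullC K0 L)
      (h2 : coeffMap (H61.A0 A K0).subtype Z2 ∈ modularFunctionFieldFullC K0 L),
      coeffMap (IsLocalRing.residue ↥(H61.A0 A K0)) Z2 ≠ 0 →
      ((⟨_, h1⟩ : modularFunctionFieldFullC K0 L) / ⟨_, h2⟩) ∈ V) ∧
    (∀ γ : ↥(modularFunctionFieldFullC K0 L), γ ∈ BU → γ ∈ BV →
      IsAlgebraic K0 (γ : LaurentSeries K0))

/-- The `hdiv` adapter for the model, as a Prop (= `H74.hdiv_model` / `H40.hdiv_of_forall_place`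
for the model). -/
def HdivModel (m : ℕ) : Prop :=
  ∀ f : ↥(modularFunctionFieldFullC K0 L), f ≠ 0 →
    (∀ P : Place (AlgebraicClosure ℚ) (modularFunctionFieldBar L),
      (m : ℤ) ∣ P.ord (H74.toBar K0 L f)) →
    ∀ O : ValuationSubring ↥(modularFunctionFieldFullC K0 L),
      (∀ a : ↥(H61.A0 A K0),
        algebraMap ↥(H61.A0 A K0) ↥(modularFunctionFieldFullC K0 L) a ∈ O) →
      (∀ a : ↥(H61.A0 A K0), a ≠ 0 →
        (algebraMap ↥(H61.A0 A K0) ↥(modularFunctionFieldFullC K0 L) a)⁻¹ ∈ O) →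
      ∃ g : ↥(modularFunctionFieldFullC K0 L), g ≠ 0 ∧ f / g ^ m ∈ O ∧ g ^ m / f ∈ O

variable {A K0 L}

/-- **Arrow T4a.** The generic Kummer core, chart data for the model and the `hdiv` adapter give
the model statement. -/
theorem modelKum_of_charts (hKC : H63.StmtKC) {m : ℕ}
    (hm : IsUnit ((m : ℕ) : ↥(H61.A0 A K0))) (hC : ModelCharts A K0 L)
    (hdiv : HdivModel A K0 L m) : ModelKum A K0 L m := by
  intro Z1 Z2 h1 h2 hne heq hP
  obtain ⟨π, V, BU, BV, ξ, d, hred, hgauss, hnopole⟩ := hC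
  have hinjι : Function.Injective (coeffMap (H61.A0 A K0).subtype :
      LaurentSeries ↥(H61.A0 A K0) → LaurentSeries K0) := by
    intro x y hxy
    ext k
    have := congrArg (fun s => s.coeff k) hxy
    simpa using this
  have hZ2 : Z2 ≠ 0 := by
    rintro rfl
    rw [map_zero] at heq
    exact hne heq
  have hιZ2 : coeffMap (H61.A0 A K0).subtype Z2 ≠ 0 := fun h0 =>
    hZ2 (hinjι (by rw [h0, map_zero]))
  have hZ2' : (⟨_, h2⟩ : modularFunctionFieldFullC K0 L) ≠ 0 := fun h0 =>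
    hιZ2 (congrArg Subtype.val h0)
  have hπF : algebraMap ↥(H61.A0 A K0) ↥(modularFunctionFieldFullC K0 L) π ≠ 0 := fun h0 =>
    d.pi_ne (d.inj (by rw [h0, map_zero]))
  -- `Z1 - Z2 = π * W'`
  obtain ⟨W', hW'⟩ := exists_C_mul_of_forall_dvd π (Z1 - Z2) (fun k => hred _ (by
    have h0 : coeffMap (IsLocalRing.residue ↥(H61.A0 A K0)) (Z1 - Z2) = 0 := by
      rw [map_sub, heq, sub_self]
    have := congrArg (fun s => s.coeff k) h0
    simpa using this))
  -- the generic fibre of `W'` is in the model field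
  have hCπ : coeffMap (H61.A0 A K0).subtype (HahnSeries.C π : LaurentSeries ↥(H61.A0 A K0)) =
      ((algebraMap ↥(H61.A0 A K0) ↥(modularFunctionFieldFullC K0 L) π :
        ↥(modularFunctionFieldFullC K0 L)) : LaurentSeries K0) := by
    show coeffMap (H61.A0 A K0).subtype (HahnSeries.single 0 π) = _
    rw [coeffMap_single]
    show _ = algebraMap K0 (LaurentSeries K0) (π : K0)
    rw [algebraMap_laurentSeries_eq_single]
    rfl
  have hrel : coeffMap (H61.A0 A K0).subtype Z1 - coeffMap (H61.A0 A K0).subtype Z2 =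
      ((algebraMap ↥(H61.A0 A K0) ↥(modularFunctionFieldFullC K0 L) π :
        ↥(modularFunctionFieldFullC K0 L)) : LaurentSeries K0) *
        coeffMap (H61.A0 A K0).subtype W' := by
    rw [← map_sub, hW', map_mul, hCπ]
  have hW'F : coeffMap (H61.A0 A K0).subtype W' ∈ modularFunctionFieldFullC K0 L := by
    have hπ0 : ((algebraMap ↥(H61.A0 A K0) ↥(modularFunctionFieldFullC K0 L) π :
        ↥(modularFunctionFieldFullC K0 L)) : LaurentSeries K0) ≠ 0 := fun h0 =>
      hπF (Subtype.ext h0)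
    have e : coeffMap (H61.A0 A K0).subtype W' =
        (coeffMap (H61.A0 A K0).subtype Z1 - coeffMap (H61.A0 A K0).subtype Z2) /
          ((algebraMap ↥(H61.A0 A K0) ↥(modularFunctionFieldFullC K0 L) π :
            ↥(modularFunctionFieldFullC K0 L)) : LaurentSeries K0) := by
      rw [hrel, mul_div_cancel_left₀ _ hπ0]
    rw [e]
    exact div_mem (sub_mem h1 h2) (SetLike.coe_mem _)
  have hne2 : coeffMap (IsLocalRing.residue ↥(H61.A0 A K0)) Z2 ≠ 0 := by
    rw [← heq]; exact hne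
  have hyV : ((⟨_, hW'F⟩ : modularFunctionFieldFullC K0 L) / ⟨_, h2⟩) ∈ V :=
    hgauss W' Z2 hW'F h2 hne2
  have hrel' : (⟨_, h1⟩ : modularFunctionFieldFullC K0 L) - ⟨_, h2⟩ =
      algebraMap ↥(H61.A0 A K0) ↥(modularFunctionFieldFullC K0 L) π * ⟨_, hW'F⟩ :=
    Subtype.ext hrel
  have hZ1 : coeffMap (H61.A0 A K0).subtype Z1 ≠ 0 := by
    intro h0
    have : Z1 = 0 := hinjι (by rw [h0, map_zero])
    rw [this, map_zero] at hne
    exact hne rfl
  have hZ1' : (⟨_, h1⟩ : modularFunctionFieldFullC K0 L) ≠ 0 := fun h0 =>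
    hZ1 (congrArg Subtype.val h0)
  obtain ⟨f, hf⟩ : ∃ f : ↥(modularFunctionFieldFullC K0 L),
      f = (⟨_, h1⟩ : modularFunctionFieldFullC K0 L) / ⟨_, h2⟩ := ⟨_, rfl⟩
  rw [← hf] at hP
  have hf1 : ∃ y ∈ V, f - 1 =
      algebraMap ↥(H61.A0 A K0) ↥(modularFunctionFieldFullC K0 L) π * y := by
    refine ⟨_, hyV, ?_⟩
    rw [hf, ← mul_div_assoc, ← hrel', sub_div, div_self hZ2']
  have hf0 : f ≠ 0 := by
    rw [hf]
    exact div_ne_zero hZ1' hZ2'
  obtain ⟨σ, γ, hσ0, hγ0, hγU, hγV, hσγ⟩ := d.kc hKC m hm f hf1 (hdiv f hf0 hP)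
  refine ⟨((γ⁻¹ : ↥(modularFunctionFieldFullC K0 L)) : LaurentSeries K0), σ, σ.2, ?_, ?_⟩
  · exact (hnopole γ hγU hγV).inv
  · have e1 : (⟨_, h1⟩ : modularFunctionFieldFullC K0 L) = γ⁻¹ * σ ^ m * ⟨_, h2⟩ := by
      rw [hσγ, hf, mul_comm γ⁻¹, mul_assoc (_ / _), mul_inv_cancel₀ hγ0, mul_one,
        div_mul_cancel₀ _ hZ2']
    exact congrArg Subtype.val e1

/-- `m` is a unit of `A₀ = A ∩ K0` when `ℓ ∤ m`. -/
theorem isUnit_natCast_A0 {ℓ : ℕ} [Fact ℓ.Prime] (hA : A.LiesOverPrime ℓ) {m : ℕ}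
    (hm : ¬ ℓ ∣ m) : IsUnit ((m : ℕ) : ↥(H61.A0 A K0)) := by
  have h1 : IsUnit ((m : ℕ) : A) := H86.isUnit_natCast A hA (Fact.out : ℓ.Prime) hm
  have h2 : H61.incl A K0 ((m : ℕ) : ↥(H61.A0 A K0)) = ((m : ℕ) : A) := map_natCast _ m
  rw [← h2] at h1
  exact (isUnit_map_iff (H61.incl A K0) _).mp h1

end Model

/-- **The frozen statement S18 from the generic Kummer core, chart data and the `hdiv` adapter**
(literal frozen signature). -/
theorem result_of_charts (hKC : H63.StmtKC)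
    (hCh : ∀ (L : ℕ) [NeZero L] (ℓ : ℕ) [Fact ℓ.Prime], ¬ ℓ ∣ L → H16.auxM ℓ ∣ L →
      ∀ A : ValuationSubring (AlgebraicClosure ℚ), A.LiesOverPrime ℓ →
        ∃ C : Finset (AlgebraicClosure ℚ),
          ∀ K0 : IntermediateField ℚ (AlgebraicClosure ℚ), FiniteDimensional ℚ K0 →
            (∀ c ∈ C, c ∈ K0) → ModelCharts A K0 L)
    (hdiv : ∀ (A : ValuationSubring (AlgebraicClosure ℚ))
      (K0 : IntermediateField ℚ (AlgebraicClosure ℚ)) (L : ℕ) [NeZero L] (m : ℕ),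
      FiniteDimensional ℚ K0 → HdivModel A K0 L m)
    (N : ℕ) [NeZero N] {ℓ : ℕ}
    [Fact ℓ.Prime] (hℓN : ¬ ℓ ∣ N) (A : ValuationSubring (AlgebraicClosure ℚ))
    (hA : A.LiesOverPrime ℓ)
    (h : ModularCurve.ReductionInputsModL A N) (m : ℕ) (hm : ¬ ℓ ∣ m) (z : ModularCurve.JZero N)
    (hmz : m • z = 0) (hz : ModularCurve.reductionModL A N z = 0) :
    z = 0 := by
  refine result_of_modelKumStmt ?_ N hℓN A hA h m hm z hmz hz
  intro L _ ℓ' _ hℓL haux A' hA' m' hm'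
  obtain ⟨C, hC⟩ := hCh L ℓ' hℓL haux A' hA'
  exact ⟨C, fun K0 hfin hK0 =>
    modelKum_of_charts hKC (isUnit_natCast_A0 hA' hm') (hC K0 hfin hK0) (hdiv A' K0 L m' hfin)⟩

end

end Fermat.Agent.S18.H60
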