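/-
S18, TOP adapter (helper74): the `hdiv` hypothesis `H60.HdivModel A K0 L m` of helper60's
arrow T4a (`modelKum_of_charts` / `result_of_charts`), for every intermediate field `K0` of
`Qbar / ℚ` — no hypothesis left.
-/
import Mathlib
import Fermat.Agent.S18.ModelKC_helper60
import Fermat.Agent.S18.ModelDiv_helper74

set_option autoImplicit false

open ModularCurve AlgebraicCurve IntermediateField

namespace Fermat.Agent.S18.H74

/-- **(DIV) for the number-field model, in helper60's shape.** -/
theorem hdivModel (A : ValuationSubring (AlgebraicClosure ℚ))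
    (K0 : IntermediateField ℚ (AlgebraicClosure ℚ)) (L : ℕ) [NeZero L] (m : ℕ) :
    H60.HdivModel A K0 L m := by
  haveI : Algebra.IsAlgebraic ℚ (AlgebraicClosure ℚ) := AlgebraicClosure.isAlgebraic ℚ
  haveI : Algebra.IsAlgebraic ↥K0 (AlgebraicClosure ℚ) :=
    Algebra.IsAlgebraic.tower_top (K := ℚ) ↥K0
  intro f hf hP
  exact hdiv_model_valuationSubring ↥K0 L (H61.A0 A K0) m f hf hP

/-- the `hdiv` argument of `H60.result_of_charts`, literally -/
theorem hdivModel_all (A : ValuationSubring (AlgebraicClosure ℚ))
    (K0 : IntermediateField ℚ (AlgebraicClosure ℚ)) (L : ℕ) [NeZero L] (m : ℕ)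
    (_h : FiniteDimensional ℚ K0) : H60.HdivModel A K0 L m :=
  hdivModel A K0 L m

end Fermat.Agent.S18.H74
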