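/-
S18, node INT-Q (helper58): elements of `Qbar((q))` that are a RATIO of two `A`-integral Laurent
series and are INTEGRAL over the ring of `A`-integral Laurent series are themselves `A`-integral
Laurent series (`A` a valuation ring of rank one: "completely integrally closed").

This is the adapter between "`x` lies in the integral closure of `A[j]` in the function field"
and the frozen notion "`x = coeffMap A.subtype y` for a `y : LaurentSeries A`".  It is false
without the ratio hypothesis (`sqrt (π^2 + q)`), and false without rank one.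
-/
import Mathlib
import Fermat.Prelude.Def_ModularCurve_ArithmeticGalois
import Fermat.Prelude.Def_ModularCurve_JqCoeff
import Fermat.Prelude.Thm_ModularCurve_coeffMap_qExpand
import Fermat.Prelude.Def_FLTPrelim_Ramification
import Fermat.Agent.S18.BoundedTorsion_helper45

set_option autoImplicit false

open ModularCurve HahnSeries

namespace Fermat.Agent.S18.H58

noncomputable section

section Generic

variable {K : Type*} [Field K] (A : ValuationSubring K)

/-- A Laurent series over `K` comes from a Laurent series over `A` iff all its coefficients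
lie in `A`. -/
theorem mem_range_coeffMap_iff (z : LaurentSeries K) :
    z ∈ Set.range (coeffMap A.subtype) ↔ ∀ n : ℤ, z.coeff n ∈ A := by
  constructor
  · rintro ⟨y, rfl⟩ n
    rw [coeffMap_coeff]
    exact (y.coeff n).2
  · intro h
    refine ⟨⟨fun n => ⟨z.coeff n, h n⟩, z.isPWO_support.mono ?_⟩, ?_⟩
    · intro n hn
      rw [Function.mem_support] at hn
      rw [HahnSeries.mem_support]
      intro h0
      exact hn (Subtype.ext h0)
    · ext n
      rfl

theorem coeffMap_subtype_inj : Function.Injective (coeffMap A.subtype) := by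
  intro y y' h
  ext n
  have := congrArg (fun z : LaurentSeries K => z.coeff n) h
  simpa using this

/-- the truncation of a Laurent series below the index `n0`. -/
def truncBelow (x : LaurentSeries K) (n0 : ℤ) : LaurentSeries K :=
  ⟨fun n => if n < n0 then x.coeff n else 0, x.isPWO_support.mono (by
    intro n hn
    rw [Function.mem_support] at hn
    rw [HahnSeries.mem_support]
    intro h0
    apply hn
    rw [h0, ite_self])⟩

theorem truncBelow_coeff (x : LaurentSeries K) (n0 n : ℤ) :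
    (truncBelow x n0).coeff n = if n < n0 then x.coeff n else 0 := rfl

theorem leadingCoeff_mem_of_mem_range {z : LaurentSeries K}
    (hz : z ∈ Set.range (coeffMap A.subtype)) : z.leadingCoeff ∈ A := by
  rw [HahnSeries.leadingCoeff_eq]
  exact (mem_range_coeffMap_iff A z).mp hz _

/-- **Complete integral closedness of `A((q))` in `K((q))`.**  If `d ≠ 0` and all `d * x ^ m`
are `A`-integral Laurent series, and `A` is archimedean (rank one), then `x` is `A`-integral. -/
theorem mem_range_of_forall_mul_pow_mem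
    (harch : ∀ a : K, a ∉ A → ∀ b : K, b ≠ 0 → ∃ m : ℕ, b * a ^ m ∉ A)
    (x d : LaurentSeries K) (hd : d ≠ 0)
    (h : ∀ m : ℕ, d * x ^ m ∈ Set.range (coeffMap A.subtype)) :
    x ∈ Set.range (coeffMap A.subtype) := by
  classical
  by_contra hx
  rw [mem_range_coeffMap_iff] at hx
  push Not at hx
  -- the set of bad indices
  set S : Set ℤ := {n | x.coeff n ∉ A} with hS
  have hSne : S.Nonempty := hx
  have hSwf : S.IsWF := x.isWF_support.mono (by
    intro n hn
    rw [HahnSeries.mem_support]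
    intro h0
    apply hn
    rw [h0]
    exact A.zero_mem)
  set n0 : ℤ := hSwf.min hSne with hn0
  have hn0mem : x.coeff n0 ∉ A := hSwf.min_mem hSne
  have hmin : ∀ n : ℤ, n < n0 → x.coeff n ∈ A := by
    intro n hn
    by_contra hbad
    exact hSwf.not_lt_min hSne hbad hn
  -- the subring of integral series
  set Rs : Subring (LaurentSeries K) := (coeffMap A.subtype).range with hRs
  have hRs_iff : ∀ z : LaurentSeries K, z ∈ Rs ↔ ∀ n : ℤ, z.coeff n ∈ A := fun z =>
    mem_range_coeffMap_iff A z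
  -- the two pieces
  set x' : LaurentSeries K := truncBelow x n0 with hx'
  set x'' : LaurentSeries K := x - x' with hx''
  have hx'mem : x' ∈ Rs := by
    rw [hRs_iff]
    intro n
    rw [hx', truncBelow_coeff]
    split_ifs with hlt
    · exact hmin n hlt
    · exact A.zero_mem
  have hx''coeff : ∀ n : ℤ, x''.coeff n = if n < n0 then 0 else x.coeff n := by
    intro n
    rw [hx'', HahnSeries.coeff_sub, hx', truncBelow_coeff]
    split_ifs <;> simp
  have hx''n0 : x''.coeff n0 = x.coeff n0 := by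
    rw [hx''coeff, if_neg (lt_irrefl _)]
  have hx''ne : x'' ≠ 0 := by
    intro h0
    apply hn0mem
    rw [← hx''n0, h0, HahnSeries.coeff_zero]
    exact A.zero_mem
  have hcoeffne : x''.coeff n0 ≠ 0 := by
    rw [hx''n0]
    intro h0
    exact hn0mem (h0 ▸ A.zero_mem)
  have hord : x''.order = n0 := by
    apply le_antisymm (HahnSeries.order_le_of_coeff_ne_zero hcoeffne)
    by_contra hlt
    push Not at hlt
    have h1 : x''.coeff x''.order = 0 := by rw [hx''coeff, if_pos hlt]
    have h2 : x''.leadingCoeff ≠ 0 := HahnSeries.leadingCoeff_ne_zero.mpr hx''ne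
    rw [HahnSeries.leadingCoeff_eq] at h2
    exact h2 h1
  have hlead : x''.leadingCoeff = x.coeff n0 := by
    rw [HahnSeries.leadingCoeff_eq, hord, hx''n0]
  -- all `d * x'' ^ m` are integral
  have hpow : ∀ m : ℕ, d * x'' ^ m ∈ Rs := by
    intro m
    have hx''eq : x'' = x + -x' := by rw [hx'', sub_eq_add_neg]
    rw [hx''eq, add_pow, Finset.mul_sum]
    refine Subring.sum_mem _ fun i _ => ?_
    have h1 : d * (x ^ i * (-x') ^ (m - i) * (m.choose i : LaurentSeries K)) =
        (d * x ^ i) * ((-x') ^ (m - i) * (m.choose i : LaurentSeries K)) := by ring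
    rw [h1]
    exact Subring.mul_mem _ (h i)
      (Subring.mul_mem _ (Subring.pow_mem _ (Subring.neg_mem _ hx'mem) _) (natCast_mem _ _))
  -- leading coefficients
  have hleadpow : ∀ m : ℕ, (d * x'' ^ m).leadingCoeff = d.leadingCoeff * (x.coeff n0) ^ m := by
    intro m
    induction m with
    | zero => rw [pow_zero, mul_one, pow_zero, mul_one]
    | succ m ih =>
      rw [pow_succ, ← mul_assoc, HahnSeries.leadingCoeff_mul, ih, hlead, pow_succ, mul_assoc]
  obtain ⟨m, hm⟩ := harch (x.coeff n0) hn0mem d.leadingCoeff (HahnSeries.leadingCoeff_ne_zero.mpr hd)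
  apply hm
  rw [← hleadpow m]
  exact leadingCoeff_mem_of_mem_range A (hpow m)

/-- A ratio of integral Laurent series that is a root of a monic polynomial with integral
Laurent series coefficients is an integral Laurent series. -/
theorem mem_range_of_ratio_of_monic
    (harch : ∀ a : K, a ∉ A → ∀ b : K, b ≠ 0 → ∃ m : ℕ, b * a ^ m ∉ A)
    (x : LaurentSeries K) (g h : LaurentSeries A) (hh : h ≠ 0)
    (hx : x * coeffMap A.subtype h = coeffMap A.subtype g)
    (p : Polynomial (LaurentSeries K)) (hp : p.Monic)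
    (hcoeff : ∀ i, p.coeff i ∈ Set.range (coeffMap A.subtype))
    (hroot : p.eval x = 0) :
    x ∈ Set.range (coeffMap A.subtype) := by
  set ι := coeffMap A.subtype with hι
  set Rs : Subring (LaurentSeries K) := ι.range with hRs
  set n := p.natDegree with hn
  have hιh : ι h ≠ 0 := fun h0 => hh (coeffMap_subtype_inj A (by rw [h0, map_zero]))
  refine mem_range_of_forall_mul_pow_mem A harch x (ι h ^ n) (pow_ne_zero _ hιh) ?_
  -- the relation `x ^ n = - ∑ i < n, p_i x ^ i`
  have hrel : x ^ n = - ∑ i ∈ Finset.range n, p.coeff i * x ^ i := by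
    have h1 := hroot
    rw [hp.as_sum, Polynomial.eval_add, Polynomial.eval_pow, Polynomial.eval_X,
      Polynomial.eval_finsetSum] at h1
    simp only [Polynomial.eval_mul, Polynomial.eval_C, Polynomial.eval_pow, Polynomial.eval_X]
      at h1
    exact eq_neg_of_add_eq_zero_left h1
  intro m
  change ι h ^ n * x ^ m ∈ Rs
  induction m using Nat.strong_induction_on with
  | _ m ih =>
    rcases lt_or_ge m n with hlt | hge
    · have h1 : ι h ^ n * x ^ m = ι h ^ (n - m) * (x * ι h) ^ m := by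
        rw [mul_pow, mul_comm (x ^ m), ← mul_assoc, ← _root_.pow_add, Nat.sub_add_cancel hlt.le]
      rw [h1, hx]
      exact Subring.mul_mem _ (Subring.pow_mem _ (RingHom.mem_range_self ι h) _)
        (Subring.pow_mem _ (RingHom.mem_range_self ι g) _)
    · have h1 : x ^ m = x ^ (m - n) * x ^ n := by
        rw [← _root_.pow_add, Nat.sub_add_cancel hge]
      rw [h1, hrel, mul_neg, mul_neg, Finset.mul_sum, Finset.mul_sum]
      refine Subring.neg_mem _ (Subring.sum_mem _ fun i hi => ?_)
      have hi' : i < n := Finset.mem_range.mp hi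
      have h2 : ι h ^ n * (x ^ (m - n) * (p.coeff i * x ^ i)) =
          p.coeff i * (ι h ^ n * x ^ (m - n + i)) := by
        rw [_root_.pow_add]; ring
      rw [h2]
      exact Subring.mul_mem _ (hcoeff i) (ih (m - n + i) (by omega))

end Generic

section Frozen

local notation "Qb" => AlgebraicClosure ℚ

variable (A : ValuationSubring Qb)

theorem natCast_mem_maximalIdeal {ℓ : ℕ} (hA : A.LiesOverPrime ℓ) :
    ((ℓ : ℕ) : A) ∈ IsLocalRing.maximalIdeal A := by
  obtain ⟨ha, hmem⟩ := (ValuationSubring.mem_nonunits_iff_exists_mem_maximalIdeal).mp hA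
  have : (⟨(ℓ : Qb), ha⟩ : A) = ((ℓ : ℕ) : A) := Subtype.ext (by simp)
  rwa [this] at hmem

/-- In a valuation subring of `Qbar` over `ℓ`, a power of every non-unit is divisible by `ℓ`. -/
theorem exists_prime_dvd_pow {ℓ : ℕ} (hℓ : ℓ.Prime) (hA : A.LiesOverPrime ℓ)
    (c : A) (hc : c ∈ IsLocalRing.maximalIdeal A) : ∃ k : ℕ, ((ℓ : ℕ) : A) ∣ c ^ k := by
  classical
  have hℓmem := natCast_mem_maximalIdeal A hA
  -- `c` is algebraic over `ℤ`
  have halgQ : IsAlgebraic ℤ (c : Qb) :=
    (IsFractionRing.isAlgebraic_iff ℤ ℚ _).mpr ((AlgebraicClosure.isAlgebraic ℚ).isAlgebraic _)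
  have halg : IsAlgebraic ℤ c := by
    refine (isAlgebraic_ringHom_iff_of_comp_eq (RingEquiv.refl ℤ) A.subtype
      Subtype.val_injective ?_).mp halgQ
    exact RingHom.ext_int _ _
  obtain ⟨p, hp0, hpc⟩ := halg
  -- pass to the primitive part
  set P := p.primPart with hP
  have hPc : Polynomial.aeval c P = 0 := by
    have h1 : Polynomial.aeval c p = 0 := hpc
    rw [p.eq_C_content_mul_primPart, map_mul, Polynomial.aeval_C] at h1
    rcases mul_eq_zero.mp h1 with h2 | h2
    · exfalso
      have h3 : p.content = 0 := by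
        have hinj : Function.Injective (algebraMap ℤ A) := by
          rw [injective_iff_map_eq_zero]
          intro z hz
          have hz' : ((z : ℤ) : Qb) = 0 := by
            have := congrArg (fun t : A => (t : Qb)) hz
            simpa using this
          exact_mod_cast hz'
        exact hinj (by rw [h2, map_zero])
      exact hp0 (Polynomial.content_eq_zero_iff.mp h3)
    · exact h2
  -- some coefficient is prime to `ℓ`
  have hex : ∃ i, ¬ ((ℓ : ℕ) : ℤ) ∣ P.coeff i := by
    by_contra hall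
    push Not at hall
    have h1 : Polynomial.C ((ℓ : ℕ) : ℤ) ∣ P := (Polynomial.C_dvd_iff_dvd_coeff _ _).mpr hall
    have h2 : IsUnit ((ℓ : ℕ) : ℤ) := p.isPrimitive_primPart _ h1
    exact (Nat.prime_iff_prime_int.mp hℓ).not_isUnit h2
  set i0 := Nat.find hex with hi0
  have hi0spec : ¬ ((ℓ : ℕ) : ℤ) ∣ P.coeff i0 := Nat.find_spec hex
  have hi0min : ∀ i, i < i0 → ((ℓ : ℕ) : ℤ) ∣ P.coeff i := fun i hi => by
    by_contra hbad
    exact Nat.find_min hex hi hbad
  have hi0le : i0 ≤ P.natDegree := by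
    apply Polynomial.le_natDegree_of_ne_zero
    intro h0
    exact hi0spec (h0 ▸ dvd_zero _)
  -- the ideal generated by `ℓ` and `c ^ (i0 + 1)`
  set J : Ideal A := Ideal.span {((ℓ : ℕ) : A)} ⊔ Ideal.span {c ^ (i0 + 1)} with hJ
  have hterm : ∀ i, i ≠ i0 → P.coeff i • c ^ i ∈ J := by
    intro i hi
    rcases lt_or_gt_of_ne hi with hlt | hgt
    · obtain ⟨t, ht⟩ := hi0min i hlt
      refine Ideal.mem_sup_left (Ideal.mem_span_singleton.mpr ⟨(t : A) * c ^ i, ?_⟩)
      rw [ht, zsmul_eq_mul]
      push_cast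
      ring
    · refine Ideal.mem_sup_right (Ideal.mem_span_singleton.mpr
        ⟨(P.coeff i : A) * c ^ (i - (i0 + 1)), ?_⟩)
      rw [zsmul_eq_mul]
      have : c ^ i = c ^ (i0 + 1) * c ^ (i - (i0 + 1)) := by
        rw [← _root_.pow_add]; congr 1; omega
      rw [this]; ring
  have hmain : P.coeff i0 • c ^ i0 ∈ J := by
    have hsum := hPc
    rw [Polynomial.aeval_eq_sum_range,
      ← Finset.add_sum_erase _ _ (Finset.mem_range.mpr (Nat.lt_succ_of_le hi0le))] at hsum
    have h1 : P.coeff i0 • c ^ i0 =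
        - ∑ i ∈ (Finset.range (P.natDegree + 1)).erase i0, P.coeff i • c ^ i :=
      eq_neg_of_add_eq_zero_left hsum
    rw [h1]
    exact J.neg_mem (J.sum_mem fun i hi => hterm i (Finset.ne_of_mem_erase hi))
  obtain ⟨y, hy, z, hz, hyz⟩ := Submodule.mem_sup.mp hmain
  obtain ⟨s, rfl⟩ := Ideal.mem_span_singleton.mp hy
  obtain ⟨t, rfl⟩ := Ideal.mem_span_singleton.mp hz
  -- the integer coefficient is a unit of `A`
  have hcop : IsCoprime (P.coeff i0) ((ℓ : ℕ) : ℤ) :=
    ((Nat.prime_iff_prime_int.mp hℓ).coprime_iff_not_dvd.mpr hi0spec).symm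
  have hunit0 : ((P.coeff i0 : ℤ) : A) ∉ IsLocalRing.maximalIdeal A := by
    intro hmem
    obtain ⟨u, v, huv⟩ := hcop
    have h1 : ((u : ℤ) : A) * ((P.coeff i0 : ℤ) : A) + ((v : ℤ) : A) * ((ℓ : ℕ) : A) = 1 := by
      have := congrArg (fun n : ℤ => (n : A)) huv
      simpa using this
    have h2 : (1 : A) ∈ IsLocalRing.maximalIdeal A := by
      rw [← h1]
      exact Ideal.add_mem _ (Ideal.mul_mem_left _ _ hmem) (Ideal.mul_mem_left _ _ hℓmem)
    exact (Ideal.ne_top_iff_one _).mp (IsLocalRing.maximalIdeal.isMaximal A).ne_top h2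
  have hunit : IsUnit (((P.coeff i0 : ℤ) : A) - c * t) := by
    rw [← IsLocalRing.notMem_maximalIdeal]
    intro hmem
    apply hunit0
    have : ((P.coeff i0 : ℤ) : A) = (((P.coeff i0 : ℤ) : A) - c * t) + c * t := by ring
    rw [this]
    exact Ideal.add_mem _ hmem (Ideal.mul_mem_right _ _ hc)
  obtain ⟨w, hw⟩ := hunit
  refine ⟨i0, ⟨s * (↑w⁻¹ : A), ?_⟩⟩
  have h3 : c ^ i0 * (((P.coeff i0 : ℤ) : A) - c * t) = ((ℓ : ℕ) : A) * s := by
    have h4 : ((ℓ : ℕ) : A) * s + c ^ (i0 + 1) * t = ((P.coeff i0 : ℤ) : A) * c ^ i0 := by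
      rw [← zsmul_eq_mul]; exact hyz
    rw [pow_succ] at h4
    linear_combination -h4
  calc c ^ i0 = c ^ i0 * (w : A) * (↑w⁻¹ : A) := by
        rw [mul_assoc, Units.mul_inv, mul_one]
    _ = ((ℓ : ℕ) : A) * s * (↑w⁻¹ : A) := by rw [hw, h3]
    _ = ((ℓ : ℕ) : A) * (s * (↑w⁻¹ : A)) := by ring

/-- The valuation subrings of `Qbar` over a prime are archimedean (rank one). -/
theorem arch_of_liesOverPrime {ℓ : ℕ} (hℓ : ℓ.Prime) (hA : A.LiesOverPrime ℓ) :
    ∀ a : Qb, a ∉ A → ∀ b : Qb, b ≠ 0 → ∃ m : ℕ, b * a ^ m ∉ A := by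
  intro a ha b hb
  by_contra hall
  push Not at hall
  have hℓmem := natCast_mem_maximalIdeal A hA
  have ha0 : a ≠ 0 := fun h0 => ha (h0 ▸ A.zero_mem)
  have hinv : a⁻¹ ∈ A := (A.mem_or_inv_mem a).resolve_left ha
  set c : A := ⟨a⁻¹, hinv⟩ with hc
  have hcmem : c ∈ IsLocalRing.maximalIdeal A := by
    rw [IsLocalRing.mem_maximalIdeal, mem_nonunits_iff]
    rintro ⟨u, hu⟩
    apply ha
    have h1 : ((↑u⁻¹ : A) : Qb) * a⁻¹ = 1 := by
      have h2 : (↑u⁻¹ : A) * c = 1 := by rw [← hu, Units.inv_mul]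
      have := congrArg (fun t : A => (t : Qb)) h2
      simpa [hc] using this
    have h3 : ((↑u⁻¹ : A) : Qb) = a := by
      field_simp at h1
      exact h1
    rw [← h3]
    exact (↑u⁻¹ : A).2
  have hbA : b ∈ A := by simpa using hall 0
  set bA : A := ⟨b, hbA⟩ with hbAdef
  have hbA0 : bA ≠ 0 := fun h0 => hb (by simpa [hbAdef] using congrArg (fun t : A => (t : Qb)) h0)
  obtain ⟨n, hn⟩ := H45.exists_dvd_prime_pow_of_liesOverPrime hℓ A hA bA hbA0
  obtain ⟨k, hk⟩ := exists_prime_dvd_pow A hℓ hA c hcmem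
  -- `bA * ℓ ∣ c ^ (k * (n + 1))`
  have hdvd : bA * ((ℓ : ℕ) : A) ∣ c ^ (k * (n + 1)) := by
    have h1 : ((ℓ : ℕ) : A) ^ (n + 1) ∣ c ^ (k * (n + 1)) := by
      rw [pow_mul]; exact pow_dvd_pow_of_dvd hk _
    refine dvd_trans ?_ h1
    rw [pow_succ]
    exact mul_dvd_mul_right hn _
  obtain ⟨t, ht⟩ := hdvd
  set M := k * (n + 1) with hM
  set w : A := ⟨b * a ^ M, hall M⟩ with hw
  have h1 : w * c ^ M = bA := by
    apply Subtype.ext
    simp only [hw, hc, hbAdef, MulMemClass.coe_mul, SubmonoidClass.coe_pow]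
    rw [inv_pow, mul_assoc, mul_inv_cancel₀ (pow_ne_zero _ ha0), mul_one]
  rw [ht] at h1
  have h2 : bA * (w * ((ℓ : ℕ) : A) * t) = bA * 1 := by
    rw [mul_one]
    calc bA * (w * ((ℓ : ℕ) : A) * t) = w * (bA * ((ℓ : ℕ) : A) * t) := by ring
      _ = bA := h1
  have h3 : w * ((ℓ : ℕ) : A) * t = 1 := mul_left_cancel₀ hbA0 h2
  have h4 : (1 : A) ∈ IsLocalRing.maximalIdeal A := by
    rw [← h3]
    exact Ideal.mul_mem_right _ _ (Ideal.mul_mem_left _ _ hℓmem)
  exact (Ideal.ne_top_iff_one _).mp (IsLocalRing.maximalIdeal.isMaximal A).ne_top h4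

/-- `x` is a ratio of two `A`-integral Laurent series. -/
def IsRatio (x : LaurentSeries Qb) : Prop :=
  ∃ g h : LaurentSeries A, h ≠ 0 ∧ x * coeffMap A.subtype h = coeffMap A.subtype g

theorem isRatio_of_mem_range {x : LaurentSeries Qb} (hx : x ∈ Set.range (coeffMap A.subtype)) :
    IsRatio A x := by
  obtain ⟨g, rfl⟩ := hx
  exact ⟨g, 1, one_ne_zero, by rw [map_one, mul_one]⟩

theorem IsRatio.add {x y : LaurentSeries Qb} (hx : IsRatio A x) (hy : IsRatio A y) :
    IsRatio A (x + y) := by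
  obtain ⟨g1, h1, hh1, e1⟩ := hx
  obtain ⟨g2, h2, hh2, e2⟩ := hy
  refine ⟨g1 * h2 + g2 * h1, h1 * h2, mul_ne_zero hh1 hh2, ?_⟩
  rw [map_mul, map_add, map_mul, map_mul, ← e1, ← e2]
  ring

theorem IsRatio.mul {x y : LaurentSeries Qb} (hx : IsRatio A x) (hy : IsRatio A y) :
    IsRatio A (x * y) := by
  obtain ⟨g1, h1, hh1, e1⟩ := hx
  obtain ⟨g2, h2, hh2, e2⟩ := hy
  refine ⟨g1 * g2, h1 * h2, mul_ne_zero hh1 hh2, ?_⟩
  rw [map_mul, map_mul, ← e1, ← e2]
  ring

theorem IsRatio.inv {x : LaurentSeries Qb} (hx : IsRatio A x) : IsRatio A x⁻¹ := by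
  obtain ⟨g, h, hh, e⟩ := hx
  rcases eq_or_ne x 0 with rfl | hx0
  · rw [inv_zero]
    exact ⟨0, 1, one_ne_zero, by rw [map_zero, zero_mul]⟩
  · have hιh : coeffMap A.subtype h ≠ 0 := fun h0 =>
      hh (coeffMap_subtype_inj A (by rw [h0, map_zero]))
    have hg : g ≠ 0 := by
      rintro rfl
      rw [map_zero] at e
      exact (mul_ne_zero hx0 hιh) e
    refine ⟨h, g, hg, ?_⟩
    rw [← e, ← mul_assoc, inv_mul_cancel₀ hx0, one_mul]

theorem isRatio_single_zero (c : Qb) : IsRatio A (HahnSeries.single (0 : ℤ) c) := by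
  by_cases hc : c ∈ A
  · exact isRatio_of_mem_range A ⟨HahnSeries.single 0 ⟨c, hc⟩, by rw [coeffMap_single]; rfl⟩
  · have hc0 : c ≠ 0 := fun h0 => hc (h0 ▸ A.zero_mem)
    have hinv : c⁻¹ ∈ A := (A.mem_or_inv_mem c).resolve_left hc
    refine ⟨1, HahnSeries.single 0 ⟨c⁻¹, hinv⟩, ?_, ?_⟩
    · intro h0
      have := congrArg (fun z : LaurentSeries A => ((z.coeff 0 : A) : Qb)) h0
      simp at this
      exact hc0 this
    · rw [coeffMap_single, map_one, HahnSeries.single_mul_single]
      show HahnSeries.single (0 + 0) (c * c⁻¹) = 1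
      rw [mul_inv_cancel₀ hc0, add_zero]
      rfl

/-- `jqModC` over `Qbar` is the image of `jqModC` over `A`. -/
theorem coeffMap_subtype_jqModC :
    coeffMap A.subtype (jqModC A) = jqModC Qb :=
  map_jqModC A.subtype

theorem coeffEmb_jq : coeffEmb Qb jq = jqModC Qb := by
  rw [← jqModC_rat]
  exact map_jqModC (algebraMap ℚ Qb)

/-- the base change of the level-`d` expansion of `j` is `A`-integral. -/
theorem coeffEmb_qExpand_jq_mem_range (d : ℕ) [NeZero d] :
    coeffEmb Qb (qExpand ℚ d jq) ∈ Set.range (coeffMap A.subtype) := by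
  refine ⟨qExpand A d (jqModC A), ?_⟩
  rw [coeffMap_qExpand, coeffMap_subtype_jqModC]
  show _ = coeffMap (algebraMap ℚ Qb) (qExpand ℚ d jq)
  rw [coeffMap_qExpand]
  congr 1
  exact (coeffEmb_jq).symm

theorem isRatio_coeffEmb_of_mem_full (N : ℕ) (y : LaurentSeries ℚ)
    (hy : y ∈ modularFunctionFieldFull N) : IsRatio A (coeffEmb Qb y) := by
  have hy' : y ∈ IntermediateField.adjoin ℚ (divisorExpansions N) := hy
  refine IntermediateField.adjoin_induction (F := ℚ)
    (p := fun z _ => IsRatio A (coeffEmb Qb z)) ?_ ?_ ?_ ?_ ?_ hy'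
  · rintro z ⟨d, hd, _, rfl⟩
    exact isRatio_of_mem_range A (coeffEmb_qExpand_jq_mem_range A d)
  · intro r
    rw [algebraMap_laurentSeries_eq_single]
    show IsRatio A (coeffMap (algebraMap ℚ Qb) (HahnSeries.single 0 r))
    rw [coeffMap_single]
    exact isRatio_single_zero A _
  · intro x y _ _ hx hy
    rw [map_add]; exact hx.add A hy
  · intro x _ hx
    rw [map_inv₀]; exact hx.inv A
  · intro x y _ _ hx hy
    rw [map_mul]; exact hx.mul A hy

/-- Every element of the function field `Qbar(X₀(N))` is a ratio of two `A`-integral Laurent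
series. -/
theorem isRatio_of_mem_bar (N : ℕ) (x : LaurentSeries Qb) (hx : x ∈ modularFunctionFieldBar N) :
    IsRatio A x := by
  have hx' : x ∈ IntermediateField.adjoin Qb
      (⇑(coeffEmb Qb) '' (modularFunctionFieldFull N : Set (LaurentSeries ℚ))) := hx
  refine IntermediateField.adjoin_induction (F := Qb)
    (p := fun z _ => IsRatio A z) ?_ ?_ ?_ ?_ ?_ hx'
  · rintro z ⟨y, hy, rfl⟩
    exact isRatio_coeffEmb_of_mem_full A N y hy
  · intro c
    rw [algebraMap_laurentSeries_eq_single]
    exact isRatio_single_zero A c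
  · intro x y _ _ hx hy
    exact hx.add A hy
  · intro x _ hx
    exact hx.inv A
  · intro x y _ _ hx hy
    exact hx.mul A hy

theorem exists_ratio (N : ℕ) (x : LaurentSeries Qb) (hx : x ∈ modularFunctionFieldBar N) :
    ∃ g h : LaurentSeries A, h ≠ 0 ∧ x * coeffMap A.subtype h = coeffMap A.subtype g :=
  isRatio_of_mem_bar A N x hx

variable {A}

/-- **INT-Q, polynomial form.**  An element of `Qbar(X₀(N))` that is a root of a monic polynomial
whose coefficients are `A`-integral Laurent series is an `A`-integral Laurent series. -/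
theorem exists_laurent_of_monic {ℓ : ℕ} (hℓ : ℓ.Prime) (hA : A.LiesOverPrime ℓ) (N : ℕ)
    (x : LaurentSeries Qb) (hx : x ∈ modularFunctionFieldBar N)
    (p : Polynomial (LaurentSeries Qb)) (hp : p.Monic)
    (hcoeff : ∀ i, p.coeff i ∈ Set.range (coeffMap A.subtype))
    (hroot : p.eval x = 0) :
    ∃ y : LaurentSeries A, coeffMap A.subtype y = x := by
  obtain ⟨g, h, hh, e⟩ := exists_ratio A N x hx
  exact mem_range_of_ratio_of_monic A (arch_of_liesOverPrime A hℓ hA) x g h hh e p hp hcoeff hroot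

/-- **INT-Q, subring form.**  Integrality over any subring of `Qbar((q))` consisting of
`A`-integral Laurent series. -/
theorem exists_laurent_of_isIntegral_subring {ℓ : ℕ} (hℓ : ℓ.Prime) (hA : A.LiesOverPrime ℓ)
    (N : ℕ) (x : LaurentSeries Qb) (hx : x ∈ modularFunctionFieldBar N)
    (R : Subring (LaurentSeries Qb)) (hR : ∀ r ∈ R, r ∈ Set.range (coeffMap A.subtype))
    (hint : IsIntegral R x) :
    ∃ y : LaurentSeries A, coeffMap A.subtype y = x := by
  obtain ⟨p, hp, hroot⟩ := hint
  refine exists_laurent_of_monic hℓ hA N x hx (p.map (algebraMap R (LaurentSeries Qb)))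
    (hp.map _) (fun i => ?_) ?_
  · rw [Polynomial.coeff_map]
    exact hR _ (p.coeff i).2
  · rw [Polynomial.eval_map]
    exact hroot

/-- **INT-Q, range form.** -/
theorem exists_laurent_of_isIntegral {ℓ : ℕ} (hℓ : ℓ.Prime) (hA : A.LiesOverPrime ℓ)
    (N : ℕ) (x : LaurentSeries Qb) (hx : x ∈ modularFunctionFieldBar N)
    (hint : IsIntegral (coeffMap A.subtype).range x) :
    ∃ y : LaurentSeries A, coeffMap A.subtype y = x :=
  exists_laurent_of_isIntegral_subring hℓ hA N x hx _ (fun _ hr => hr) hint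

end Frozen

end

end Fermat.Agent.S18.H58
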