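import Mathlib

/-!
# S18 – saturation of an integral closure at a prime element (helper84)

`R` an integrally closed domain with fraction field `K`, `F/K` a field extension, `π : R` a
prime element, `t : R` not divisible by `π`.  If `π ^ k • u` and `t • u` are both integral over
`R`, then `u` is integral over `R`.

This is the engine of `B ∩ π ^ n V = π ^ n B` (the lead's (SAT)) and of the transfer step of
(NC) without assuming that `π B` is prime.
-/

namespace Fermat.Agent.S18.H84

open Polynomial

section WithK

variable {R : Type*} (K : Type*) {F : Type*} [CommRing R] [IsDomain R] [IsIntegrallyClosed R]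
  [Field K] [Algebra R K] [IsFractionRing R K] [Field F] [Algebra K F] [Algebra R F]
  [IsScalarTower R K F]

/-- If `a • u` is integral over `R` (`a ≠ 0`), then `a ^ (d - i) * c_i ∈ R` for the coefficients
`c_i` of the minimal polynomial of `u` over `K = Frac R` (`d` its degree). -/
theorem exists_coeff_minpoly_of_isIntegral_smul (a : R) (ha : a ≠ 0) (u : F)
    (h : IsIntegral R (a • u)) (i : ℕ) :
    ∃ r : R, algebraMap R K r =
      (minpoly K u).coeff i * (algebraMap R K a) ^ ((minpoly K u).natDegree - i) := by
  have haK : algebraMap R K a ≠ 0 := by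
    simpa using (IsFractionRing.injective R K).ne ha
  have hsm : a • u = algebraMap R K a • u := (algebraMap_smul K a u).symm
  have hKi : IsIntegral K (algebraMap R K a • u) := by
    rw [← hsm]; exact h.tower_top
  have hu : IsIntegral K u := by
    have := hKi.smul (algebraMap R K a)⁻¹
    rwa [smul_smul, inv_mul_cancel₀ haK, one_smul] at this
  have h1 : minpoly K (algebraMap R K a • u) = (minpoly K u).scaleRoots (algebraMap R K a) :=
    IsIntegrallyClosed.minpoly_smul haK hu
  have h2 : minpoly K (a • u) = (minpoly R (a • u)).map (algebraMap R K) :=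
    minpoly.isIntegrallyClosed_eq_field_fractions' K h
  refine ⟨(minpoly R (a • u)).coeff i, ?_⟩
  rw [← coeff_map, ← h2, hsm, h1, coeff_scaleRoots]

/-- **Saturation lemma.** `π` prime in the integrally closed domain `R`, `¬ π ∣ t`; if `π ^ k • u`
and `t • u` are integral over `R` then so is `u`. -/
theorem isIntegral_of_isIntegral_pow_smul_of_isIntegral_smul' {R : Type*} (K : Type*) {F : Type*}
    [CommRing R] [IsDomain R] [IsIntegrallyClosed R] [Field K] [Algebra R K] [IsFractionRing R K]
    [Field F] [Algebra K F] [Algebra R F] [IsScalarTower R K F] (π t : R) (hπ : Prime π)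
    (ht : ¬ π ∣ t) (k : ℕ) (u : F) (h1 : IsIntegral R (π ^ k • u)) (h2 : IsIntegral R (t • u)) :
    IsIntegral R u := by
  have hinj : Function.Injective (algebraMap R K) := IsFractionRing.injective R K
  have hπ0 : π ^ k ≠ 0 := pow_ne_zero _ hπ.ne_zero
  have ht0 : t ≠ 0 := fun h0 => ht (h0 ▸ dvd_zero π)
  set q := minpoly K u with hq
  have hsm : t • u = algebraMap R K t • u := (algebraMap_smul K t u).symm
  have hu : IsIntegral K u := by
    have htK : algebraMap R K t ≠ 0 := by simpa using hinj.ne ht0
    have hKi : IsIntegral K (algebraMap R K t • u) := by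
      rw [← hsm]; exact h2.tower_top
    have := hKi.smul (algebraMap R K t)⁻¹
    rwa [smul_smul, inv_mul_cancel₀ htK, one_smul] at this
  -- every coefficient of `q` lies in `R`
  have hcoeff : ∀ i, ∃ r : R, algebraMap R K r = q.coeff i := by
    intro i
    obtain ⟨r₁, hr₁⟩ := exists_coeff_minpoly_of_isIntegral_smul K (π ^ k) hπ0 u h1 i
    obtain ⟨r₂, hr₂⟩ := exists_coeff_minpoly_of_isIntegral_smul K t ht0 u h2 i
    set e := q.natDegree - i with he
    have hrel : r₁ * t ^ e = r₂ * (π ^ k) ^ e := by
      apply hinj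
      rw [map_mul, map_mul, map_pow, map_pow, hr₁, hr₂]
      ring
    have hdvd : (π ^ k) ^ e ∣ r₁ := by
      rw [← pow_mul]
      have hnd : ¬ π ∣ t ^ e := fun hd => ht (hπ.dvd_of_dvd_pow hd)
      refine hπ.pow_dvd_of_dvd_mul_right (b := t ^ e) (k * e) hnd ?_
      rw [hrel, ← pow_mul]
      exact dvd_mul_left _ _
    obtain ⟨r₃, hr₃⟩ := hdvd
    refine ⟨r₃, ?_⟩
    have hne : (algebraMap R K (π ^ k)) ^ e ≠ 0 :=
      pow_ne_zero _ (by simpa using hinj.ne hπ0)
    apply mul_right_cancel₀ hne
    rw [← hr₁, hr₃, map_mul, map_pow, mul_comm]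
    simp only [map_pow]
  have hlift : q ∈ Polynomial.lifts (algebraMap R K) := by
    rw [Polynomial.lifts_iff_coeff_lifts]
    intro i
    obtain ⟨r, hr⟩ := hcoeff i
    exact ⟨r, hr⟩
  obtain ⟨p, hp, -, hpm⟩ :=
    Polynomial.lifts_and_degree_eq_and_monic hlift (minpoly.monic hu)
  refine ⟨p, hpm, ?_⟩
  have : aeval u (p.map (algebraMap R K)) = 0 := by rw [hp]; exact minpoly.aeval K u
  rwa [aeval_map_algebraMap, aeval_def] at this

end WithK

/-- **Saturation lemma**, fraction-field-free form: `R` an integrally closed domain, `F` a field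
with an injective `algebraMap R F`, `π : R` prime, `¬ π ∣ t`.  If `π ^ k • u` and `t • u` are
integral over `R`, then `u` is integral over `R`. -/
theorem isIntegral_of_isIntegral_pow_smul_of_isIntegral_smul {R F : Type*} [CommRing R]
    [IsDomain R] [IsIntegrallyClosed R] [Field F] [Algebra R F] [FaithfulSMul R F]
    (π t : R) (hπ : Prime π) (ht : ¬ π ∣ t) (k : ℕ) (u : F)
    (h1 : IsIntegral R (π ^ k • u)) (h2 : IsIntegral R (t • u)) : IsIntegral R u := by
  let _ : Algebra (FractionRing R) F := FractionRing.liftAlgebra R F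
  exact isIntegral_of_isIntegral_pow_smul_of_isIntegral_smul' (FractionRing R) π t hπ ht k u h1 h2

/-- Multiplicative form: `algebraMap R F (π ^ k) * u` and `algebraMap R F t * u` integral. -/
theorem isIntegral_of_isIntegral_mul_of_isIntegral_mul {R F : Type*} [CommRing R]
    [IsDomain R] [IsIntegrallyClosed R] [Field F] [Algebra R F] [FaithfulSMul R F]
    (π t : R) (hπ : Prime π) (ht : ¬ π ∣ t) (k : ℕ) (u : F)
    (h1 : IsIntegral R (algebraMap R F π ^ k * u)) (h2 : IsIntegral R (algebraMap R F t * u)) :
    IsIntegral R u := by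
  refine isIntegral_of_isIntegral_pow_smul_of_isIntegral_smul π t hπ ht k u ?_ ?_
  · rwa [Algebra.smul_def, map_pow]
  · rwa [Algebra.smul_def]

/-- Localisation form (the lead's (SAT)): `M` a submonoid of `R` none of whose elements is
divisible by the prime `π` (e.g. the complement of `(π)`), `Rₘ` the localisation.  If `u` is
integral over `Rₘ` and `π ^ k • u` is integral over `R`, then `u` is integral over `R`. -/
theorem isIntegral_of_isIntegral_localization {R F : Type*} [CommRing R]
    [IsDomain R] [IsIntegrallyClosed R] [Field F] [Algebra R F] [FaithfulSMul R F]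
    (M : Submonoid R) (Rₘ : Type*) [CommRing Rₘ] [Algebra R Rₘ] [IsLocalization M Rₘ]
    [Algebra Rₘ F] [IsScalarTower R Rₘ F]
    (π : R) (hπ : Prime π) (hM : ∀ m ∈ M, ¬ π ∣ m) (k : ℕ) (u : F)
    (h1 : IsIntegral R (π ^ k • u)) (h2 : IsIntegral Rₘ u) : IsIntegral R u := by
  obtain ⟨m, hm⟩ := IsIntegral.exists_multiple_integral_of_isLocalization M u h2
  exact isIntegral_of_isIntegral_pow_smul_of_isIntegral_smul π (m : R) hπ (hM m m.2) k u h1 hm

end Fermat.Agent.S18.H84
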