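/-
S18 / KC1 (helper67), part 1: local algebra at a prime `n ∋ π` of a noetherian domain `B` in which
`π` is a prime element and `(B/π)_n` is a DVR with uniformiser `τ` (hypothesis (REG), elementary form).

* `EExp n π τ a e` : "the order of `a mod π` at `n` is `e`" (relational form): unique, additive.
* `exists_local_generator` : a nonzero prime `q ≤ n` with `π ∉ q` is generated at `n` by one element.
* `gOrd` : the order along such a generator; additive, ultrametric.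

Mathlib only; no sorry.
-/
import Mathlib

set_option autoImplicit false

namespace Fermat.Agent.S18.H67

section EFun

variable {B : Type*} [CommRing B] (n : Ideal B) (π τ : B)

/-- `EExp n π τ a e`: modulo `π`, `a` equals `τ ^ e` up to factors outside `n`. -/
def EExp (a : B) (e : ℕ) : Prop := ∃ d u : B, d ∉ n ∧ u ∉ n ∧ π ∣ a * d - u * τ ^ e

variable {n π τ}

theorem notMem_mul_of_prime [n.IsPrime] {d d' : B} (hd : d ∉ n) (hd' : d' ∉ n) : d * d' ∉ n :=
  fun h => (Ideal.IsPrime.mem_or_mem ‹n.IsPrime› h).elim hd hd'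

theorem notMem_pow_of_prime [n.IsPrime] {d : B} (hd : d ∉ n) (k : ℕ) : d ^ k ∉ n :=
  fun h => hd (Ideal.IsPrime.mem_of_pow_mem ‹n.IsPrime› k h)

theorem one_notMem_of_prime [n.IsPrime] : (1 : B) ∉ n :=
  (Ideal.ne_top_iff_one n).mp (Ideal.IsPrime.ne_top ‹n.IsPrime›)

theorem EExp.congr {a a' : B} {e : ℕ} (h : π ∣ a - a') (ha : EExp n π τ a e) : EExp n π τ a' e := by
  obtain ⟨d, u, hd, hu, hdvd⟩ := ha
  refine ⟨d, u, hd, hu, ?_⟩
  have h1 : a' * d - u * τ ^ e = (a * d - u * τ ^ e) - (a - a') * d := by ring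
  rw [h1]
  exact dvd_sub hdvd (Dvd.dvd.mul_right h d)

theorem EExp.mul [n.IsPrime] {a a' : B} {e e' : ℕ} (ha : EExp n π τ a e) (ha' : EExp n π τ a' e') :
    EExp n π τ (a * a') (e + e') := by
  obtain ⟨d, u, hd, hu, hdvd⟩ := ha
  obtain ⟨d', u', hd', hu', hdvd'⟩ := ha'
  refine ⟨d * d', u * u', notMem_mul_of_prime hd hd', notMem_mul_of_prime hu hu', ?_⟩
  have h1 : a * a' * (d * d') - u * u' * τ ^ (e + e')
      = (a * d - u * τ ^ e) * (a' * d') + u * τ ^ e * (a' * d' - u' * τ ^ e') := by ring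
  rw [h1]
  exact dvd_add (Dvd.dvd.mul_right hdvd _) (Dvd.dvd.mul_left hdvd' _)

theorem EExp.zero_of_notMem [n.IsPrime] {a : B} (ha : a ∉ n) : EExp n π τ a 0 :=
  ⟨1, a, one_notMem_of_prime, ha, by simp⟩

theorem EExp.pow [n.IsPrime] {a : B} {e : ℕ} (ha : EExp n π τ a e) (k : ℕ) :
    EExp n π τ (a ^ k) (k * e) := by
  induction k with
  | zero => simpa using EExp.zero_of_notMem (n := n) (π := π) (τ := τ) one_notMem_of_prime
  | succ k ih =>
    have h := ih.mul ha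
    rw [← pow_succ] at h
    have h2 : k * e + e = (k + 1) * e := by ring
    rw [h2] at h
    exact h

theorem EExp.notMem_of_zero (hπn : π ∈ n) {a : B} (ha : EExp n π τ a 0) : a ∉ n := by
  obtain ⟨d, u, hd, hu, x, hx⟩ := ha
  intro han
  apply hu
  have h1 : u = a * d - π * x := by rw [← hx]; ring
  rw [h1]
  exact n.sub_mem (n.mul_mem_right d han) (n.mul_mem_right x hπn)

theorem EExp.pos (hπn : π ∈ n) {a : B} {e : ℕ} (han : a ∈ n) (ha : EExp n π τ a e) : 0 < e := by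
  rcases Nat.eq_zero_or_pos e with h | h
  · subst h; exact absurd han (ha.notMem_of_zero hπn)
  · exact h

theorem EExp.unique_aux [n.IsPrime] (hπ : Prime π) (hπn : π ∈ n) (hτ : τ ∈ n) {a : B}
    (hpa : ¬ π ∣ a) {e e' : ℕ} (ha : EExp n π τ a e) (ha' : EExp n π τ a e') (hlt : e < e') :
    False := by
  obtain ⟨d, u, hd, hu, x, hx⟩ := ha
  obtain ⟨d', u', hd', hu', x', hx'⟩ := ha'
  obtain ⟨k, rfl⟩ := Nat.exists_eq_add_of_lt hlt
  -- τ^e * (u' d τ^(k+1) - u d') ∈ π B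
  have h1 : τ ^ e * (u' * d * τ ^ (k + 1) - u * d') = π * (x * d' - x' * d) := by
    have e1 : a * d = π * x + u * τ ^ e := by rw [← hx]; ring
    have e2 : a * d' = π * x' + u' * τ ^ (e + k + 1) := by rw [← hx']; ring
    have e3 : τ ^ (e + k + 1) = τ ^ e * τ ^ (k + 1) := by rw [add_assoc, pow_add]
    linear_combination d' * e1 - d * e2 + u' * d * e3
  have h2 : π ∣ τ ^ e * (u' * d * τ ^ (k + 1) - u * d') := ⟨_, h1⟩
  rcases hπ.dvd_or_dvd h2 with h3 | h3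
  · -- π ∣ τ^e
    have h4 : π ∣ τ := hπ.dvd_of_dvd_pow h3
    have he : e ≠ 0 := by
      rintro rfl
      rw [pow_zero] at h3
      exact hπ.not_isUnit (isUnit_of_dvd_one h3)
    have h5 : π ∣ a * d := by
      have e1 : a * d = π * x + u * τ ^ e := by rw [← hx]; ring
      rw [e1]
      exact dvd_add (dvd_mul_right π x) (Dvd.dvd.mul_left (dvd_pow h4 he) u)
    rcases hπ.dvd_or_dvd h5 with h6 | h6
    · exact hpa h6
    · obtain ⟨c, rfl⟩ := h6
      exact hd (n.mul_mem_right c hπn)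
  · -- π ∣ u' d τ^(k+1) - u d'
    obtain ⟨c, hc⟩ := h3
    have h4 : u * d' = u' * d * τ ^ (k + 1) - π * c := by rw [← hc]; ring
    have h5 : u * d' ∈ n := by
      rw [h4]
      exact n.sub_mem (n.mul_mem_left _ (n.pow_mem_of_mem hτ (k + 1) (Nat.succ_pos k)))
        (n.mul_mem_right c hπn)
    exact notMem_mul_of_prime hu hd' h5

theorem EExp.unique [n.IsPrime] (hπ : Prime π) (hπn : π ∈ n) (hτ : τ ∈ n) {a : B}
    (hpa : ¬ π ∣ a) {e e' : ℕ} (ha : EExp n π τ a e) (ha' : EExp n π τ a e') : e = e' := by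
  rcases lt_trichotomy e e' with h | h | h
  · exact (EExp.unique_aux hπ hπn hτ hpa ha ha' h).elim
  · exact h
  · exact (EExp.unique_aux hπ hπn hτ hpa ha' ha h).elim

end EFun

section Generator

variable {B : Type*} [CommRing B] [IsDomain B]

omit [IsDomain B] in
/-- Elementary Nakayama at a prime `n ∋ π`: if `N = N' + (finitely generated)` and every `x ∈ N` has a
multiple `s x`, `s ∉ n`, in `N' + π N`, then one `Δ ∉ n` maps `N` into `N'`. -/
theorem exists_notMem_mul_mem_of_nakayama (n : Ideal B) [n.IsPrime] (π : B) (hπn : π ∈ n)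
    (N' : Ideal B) (S : Finset B) :
    ∀ N : Ideal B, N = N' ⊔ Ideal.span (S : Set B) →
      (∀ x ∈ N, ∃ s, s ∉ n ∧ ∃ y ∈ N', ∃ z ∈ N, s * x = y + π * z) →
      ∃ Δ, Δ ∉ n ∧ ∀ x ∈ N, Δ * x ∈ N' := by
  classical
  induction S using Finset.induction_on with
  | empty =>
    intro N hN _
    refine ⟨1, one_notMem_of_prime, fun x hx => ?_⟩
    rw [one_mul]
    simpa [hN] using hx
  | insert x₀ S' hx₀ ih =>
    intro N hN h
    set N'' : Ideal B := N' ⊔ Ideal.span (S' : Set B) with hN''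
    have hN''N : N'' ≤ N := by
      rw [hN]
      exact sup_le_sup_left (Ideal.span_mono (by simp)) _
    have hx₀N : x₀ ∈ N := by
      rw [hN]
      exact Ideal.mem_sup_right (Ideal.subset_span (by simp))
    have hdec : ∀ z ∈ N, ∃ c : B, ∃ z'' ∈ N'', z = c * x₀ + z'' := by
      intro z hz
      rw [hN, Finset.coe_insert, Ideal.span_insert, ← sup_assoc, sup_comm N', sup_assoc] at hz
      obtain ⟨y, hy, z'', hz'', rfl⟩ := Submodule.mem_sup.mp hz
      obtain ⟨c, rfl⟩ := Ideal.mem_span_singleton'.mp hy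
      exact ⟨c, z'', hz'', rfl⟩
    obtain ⟨s, hs, y, hy, z, hz, hsx⟩ := h x₀ hx₀N
    obtain ⟨c, z'', hz'', rfl⟩ := hdec z hz
    set t := s - π * c with ht
    have htn : t ∉ n := fun h' => hs (by
      have h1 : s = t + π * c := by rw [ht]; ring
      rw [h1]; exact n.add_mem h' (n.mul_mem_right c hπn))
    have htx₀ : t * x₀ ∈ N'' := by
      have h1 : t * x₀ = y + π * z'' := by rw [ht]; linear_combination hsx
      rw [h1]
      exact N''.add_mem (Ideal.mem_sup_left hy) (N''.mul_mem_left π hz'')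
    have htN : ∀ x ∈ N, t * x ∈ N'' := by
      intro x hx
      obtain ⟨c', x'', hx'', rfl⟩ := hdec x hx
      have h1 : t * (c' * x₀ + x'') = c' * (t * x₀) + t * x'' := by ring
      rw [h1]
      exact N''.add_mem (N''.mul_mem_left c' htx₀) (N''.mul_mem_left t hx'')
    obtain ⟨Δ', hΔ', hΔ'N⟩ := ih N'' rfl (by
      intro x hx
      obtain ⟨s', hs', y', hy', z', hz', hsx'⟩ := h x (hN''N hx)
      refine ⟨t * s', notMem_mul_of_prime htn hs', t * y', N'.mul_mem_left t hy', t * z',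
        htN z' hz', ?_⟩
      rw [mul_assoc, hsx']; ring)
    refine ⟨Δ' * t, notMem_mul_of_prime hΔ' htn, fun x hx => ?_⟩
    rw [mul_assoc]; exact hΔ'N _ (htN x hx)

/-- A nonzero prime `q ≤ n` not containing `π` has an element not divisible by `π`. -/
theorem exists_mem_not_dvd [IsNoetherianRing B] {π : B} (hπ : Prime π)
    (q : Ideal B) [q.IsPrime] (hπq : π ∉ q) (hq0 : q ≠ ⊥) : ∃ g ∈ q, ¬ π ∣ g := by
  obtain ⟨x, hxq, hx0⟩ := Submodule.exists_mem_ne_zero_of_ne_bot hq0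
  obtain ⟨k, x₀, hx₀, rfl⟩ := WfDvdMonoid.max_power_factor' hx0 hπ.not_isUnit
  refine ⟨x₀, ?_, hx₀⟩
  rcases Ideal.IsPrime.mem_or_mem ‹q.IsPrime› hxq with h | h
  · exact absurd (Ideal.IsPrime.mem_of_pow_mem ‹q.IsPrime› k h) hπq
  · exact h

/-- **Local generator.** Under (REG) at `n`, a nonzero prime `q ≤ n` with `π ∉ q` is generated at `n`
by one element `g` (not divisible by `π`). -/
theorem exists_local_generator [IsNoetherianRing B] (n : Ideal B) [n.IsPrime] (π τ : B)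
    (hπ : Prime π) (hπn : π ∈ n)
    (hreg : ∀ a : B, ¬ π ∣ a → ∃ e, EExp n π τ a e)
    (q : Ideal B) [q.IsPrime] (hπq : π ∉ q) (hq0 : q ≠ ⊥) :
    ∃ g ∈ q, ¬ π ∣ g ∧ ∃ Δ, Δ ∉ n ∧ ∀ x ∈ q, g ∣ Δ * x := by
  classical
  -- choose g with minimal exponent
  have hex : ∃ e, ∃ g ∈ q, ¬ π ∣ g ∧ EExp n π τ g e := by
    obtain ⟨g, hg, hpg⟩ := exists_mem_not_dvd hπ q hπq hq0
    obtain ⟨e, he⟩ := hreg g hpg
    exact ⟨e, g, hg, hpg, he⟩
  obtain ⟨g, hgq, hpg, hge⟩ := Nat.find_spec hex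
  have hmin : ∀ e, (∃ g ∈ q, ¬ π ∣ g ∧ EExp n π τ g e) → Nat.find hex ≤ e :=
    fun e he => Nat.find_min' hex he
  set eg := Nat.find hex with heg
  refine ⟨g, hgq, hpg, ?_⟩
  obtain ⟨S, hS⟩ := (IsNoetherian.noetherian q : q.FG)
  have hS' : Ideal.span (S : Set B) = q := hS
  have hN : q = Ideal.span {g} ⊔ Ideal.span (S : Set B) := by
    rw [hS']
    exact (sup_eq_right.mpr ((Ideal.span_singleton_le_iff_mem q).mpr hgq)).symm
  obtain ⟨Δ, hΔ, hΔq⟩ := exists_notMem_mul_mem_of_nakayama n π hπn (Ideal.span {g}) S q hN (by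
    intro x hx
    by_cases hpx : π ∣ x
    · obtain ⟨x', rfl⟩ := hpx
      have hx' : x' ∈ q := (Ideal.IsPrime.mem_or_mem ‹q.IsPrime› hx).resolve_left hπq
      exact ⟨1, one_notMem_of_prime, 0, Ideal.zero_mem _, x', hx', by ring⟩
    · obtain ⟨ex, hex'⟩ := hreg x hpx
      have hle : eg ≤ ex := hmin ex ⟨x, hx, hpx, hex'⟩
      obtain ⟨k, rfl⟩ := Nat.exists_eq_add_of_le hle
      obtain ⟨d, u, hd, hu, y₁, hy₁⟩ := hex'
      obtain ⟨d', u', hd', hu', y₂, hy₂⟩ := hge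
      set z := u' * y₁ - u * τ ^ k * y₂ with hz
      have hrel : d * u' * x = g * (u * d' * τ ^ k) + π * z := by
        have e1 : x * d = π * y₁ + u * τ ^ (eg + k) := by rw [← hy₁]; ring
        have e2 : g * d' = π * y₂ + u' * τ ^ eg := by rw [← hy₂]; ring
        have e3 : τ ^ (eg + k) = τ ^ eg * τ ^ k := pow_add _ _ _
        rw [hz]
        linear_combination u' * e1 - u * τ ^ k * e2 + u * u' * e3
      have hzq : z ∈ q := by
        have h1 : π * z ∈ q := by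
          have h2 : π * z = d * u' * x - g * (u * d' * τ ^ k) := by rw [hrel]; ring
          rw [h2]
          exact q.sub_mem (q.mul_mem_left _ hx) (q.mul_mem_right _ hgq)
        exact (Ideal.IsPrime.mem_or_mem ‹q.IsPrime› h1).resolve_left hπq
      exact ⟨d * u', notMem_mul_of_prime hd hu', g * (u * d' * τ ^ k),
        Ideal.mem_span_singleton.mpr (dvd_mul_right g _), z, hzq, hrel⟩)
  exact ⟨Δ, hΔ, fun x hx => Ideal.mem_span_singleton.mp (hΔq x hx)⟩

end Generator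

section GOrd

variable {B : Type*} [CommRing B] [IsDomain B]

/-- `g ^ k` divides `b` at `n`. -/
def GDiv (n : Ideal B) (g : B) (k : ℕ) (b : B) : Prop := ∃ s, s ∉ n ∧ g ^ k ∣ s * b

/-- The order of `b` along `g` at `n` (junk if unbounded, e.g. for `b = 0`). -/
noncomputable def gOrd (n : Ideal B) (g : B) (b : B) : ℕ := sSup {k | GDiv n g k b}

/-- The local situation: `(B/π)_n` is a DVR with uniformiser `τ` (REG), `q ≤ n` is a prime not
containing `π`, generated at `n` by `g`. -/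
structure LocGen (n : Ideal B) (π τ g : B) (q : Ideal B) : Prop where
  prime_pi : Prime π
  pi_mem : π ∈ n
  tau_mem : τ ∈ n
  reg : ∀ a : B, ¬ π ∣ a → ∃ e, EExp n π τ a e
  q_le : q ≤ n
  pi_notMem : π ∉ q
  g_mem : g ∈ q
  not_dvd : ¬ π ∣ g
  gen : ∃ Δ, Δ ∉ n ∧ ∀ x ∈ q, g ∣ Δ * x

variable {n : Ideal B} {π τ g : B} {q : Ideal B}

omit [IsDomain B] in
theorem LocGen.g_ne_zero (h : LocGen n π τ g q) : g ≠ 0 := by
  rintro rfl
  exact h.not_dvd (dvd_zero π)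

omit [IsDomain B] in
theorem gDiv_zero [n.IsPrime] (b : B) : GDiv n g 0 b :=
  ⟨1, one_notMem_of_prime, by simp⟩

theorem LocGen.gDiv_bound [n.IsPrime] [IsNoetherianRing B] (h : LocGen n π τ g q) {b : B}
    (hb : b ≠ 0) : ∃ K, ∀ k, GDiv n g k b → k ≤ K := by
  obtain ⟨j, b₀, hb₀, rfl⟩ := WfDvdMonoid.max_power_factor' hb h.prime_pi.not_isUnit
  obtain ⟨e₀, he₀⟩ := h.reg b₀ hb₀
  obtain ⟨eg, heg⟩ := h.reg g h.not_dvd
  have hegpos : 0 < eg := EExp.pos h.pi_mem (h.q_le h.g_mem) heg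
  refine ⟨e₀, ?_⟩
  rintro k ⟨s, hs, b', hb'⟩
  have hpgk : ¬ π ∣ g ^ k := fun hd => h.not_dvd (h.prime_pi.dvd_of_dvd_pow hd)
  have h1 : π ^ j ∣ g ^ k * b' := ⟨s * b₀, by rw [← hb']; ring⟩
  obtain ⟨b'', rfl⟩ := h.prime_pi.pow_dvd_of_dvd_mul_left j hpgk h1
  have h2 : s * b₀ = g ^ k * b'' := by
    have h3 : π ^ j * (s * b₀) = π ^ j * (g ^ k * b'') := by
      linear_combination hb'
    exact mul_left_cancel₀ (pow_ne_zero j h.prime_pi.ne_zero) h3
  have hps : ¬ π ∣ s := fun ⟨c, hc⟩ => hs (hc ▸ n.mul_mem_right c h.pi_mem)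
  have hpsb : ¬ π ∣ s * b₀ := fun hd => (h.prime_pi.dvd_or_dvd hd).elim hps hb₀
  have hpb'' : ¬ π ∣ b'' := fun hd => hpsb (h2 ▸ Dvd.dvd.mul_left hd _)
  obtain ⟨e'', he''⟩ := h.reg b'' hpb''
  have E1 : EExp n π τ (s * b₀) (0 + e₀) := (EExp.zero_of_notMem hs).mul he₀
  have E2 : EExp n π τ (s * b₀) (k * eg + e'') := h2 ▸ (heg.pow k).mul he''
  have h4 := EExp.unique h.prime_pi h.pi_mem h.tau_mem hpsb E1 E2
  have h5 : k ≤ k * eg := Nat.le_mul_of_pos_right k hegpos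
  omega

theorem LocGen.gDiv_gOrd [n.IsPrime] [IsNoetherianRing B] (h : LocGen n π τ g q) {b : B}
    (hb : b ≠ 0) : GDiv n g (gOrd n g b) b := by
  obtain ⟨K, hK⟩ := h.gDiv_bound hb
  exact Nat.sSup_mem ⟨0, gDiv_zero b⟩ ⟨K, fun k hk => hK k hk⟩

theorem LocGen.le_gOrd [n.IsPrime] [IsNoetherianRing B] (h : LocGen n π τ g q) {b : B}
    (hb : b ≠ 0) {k : ℕ} (hk : GDiv n g k b) : k ≤ gOrd n g b := by
  obtain ⟨K, hK⟩ := h.gDiv_bound hb
  exact le_csSup ⟨K, fun k hk => hK k hk⟩ hk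

/-- Maximal decomposition `s b = g ^ (gOrd b) b'` with `s ∉ n`, `b' ∉ q`. -/
theorem LocGen.exists_eq [n.IsPrime] [IsNoetherianRing B] (h : LocGen n π τ g q) {b : B}
    (hb : b ≠ 0) : ∃ s, s ∉ n ∧ ∃ b', s * b = g ^ gOrd n g b * b' ∧ b' ∉ q := by
  obtain ⟨s, hs, b', hb'⟩ := h.gDiv_gOrd hb
  refine ⟨s, hs, b', hb', fun hq => ?_⟩
  obtain ⟨Δ, hΔ, hΔq⟩ := h.gen
  obtain ⟨c, hc⟩ := hΔq b' hq
  have h1 : GDiv n g (gOrd n g b + 1) b :=
    ⟨Δ * s, notMem_mul_of_prime hΔ hs, c, by rw [mul_assoc, hb', pow_succ]; linear_combination g ^ gOrd n g b * hc⟩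
  have h2 := h.le_gOrd hb h1
  omega

/-- Characterisation of `gOrd`. -/
theorem LocGen.gOrd_eq [n.IsPrime] [q.IsPrime] [IsNoetherianRing B] (h : LocGen n π τ g q)
    {b s b' : B} {k : ℕ} (hs : s ∉ n) (heq : s * b = g ^ k * b') (hb' : b' ∉ q) :
    gOrd n g b = k := by
  have hb'0 : b' ≠ 0 := fun h0 => hb' (h0 ▸ q.zero_mem)
  have hb : b ≠ 0 := by
    rintro rfl
    rw [mul_zero] at heq
    exact (mul_ne_zero (pow_ne_zero k h.g_ne_zero) hb'0) heq.symm
  have hle : k ≤ gOrd n g b := h.le_gOrd hb ⟨s, hs, b', heq⟩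
  rcases Nat.eq_or_lt_of_le hle with heq' | hlt
  · exact heq'.symm
  · exfalso
    obtain ⟨t, ht, c, hc⟩ := h.gDiv_gOrd hb
    obtain ⟨d, hd⟩ := Nat.exists_eq_add_of_lt hlt
    -- t * b = g^(k+d+1) * c ; s * b = g^k * b'
    have h1 : g ^ k * (t * b') = g ^ k * (g ^ (d + 1) * (s * c)) := by
      have e1 : g ^ (gOrd n g b) = g ^ k * g ^ (d + 1) := by rw [hd, add_assoc, pow_add]
      rw [e1] at hc
      linear_combination t * heq.symm + s * hc
    have h2 : t * b' = g ^ (d + 1) * (s * c) := mul_left_cancel₀ (pow_ne_zero k h.g_ne_zero) h1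
    have h3 : t * b' ∈ q := by
      rw [h2]
      exact q.mul_mem_right _ (q.pow_mem_of_mem h.g_mem (d + 1) (Nat.succ_pos d))
    rcases Ideal.IsPrime.mem_or_mem ‹q.IsPrime› h3 with h4 | h4
    · exact ht (h.q_le h4)
    · exact hb' h4

theorem LocGen.gOrd_mul [n.IsPrime] [q.IsPrime] [IsNoetherianRing B] (h : LocGen n π τ g q)
    {b c : B} (hb : b ≠ 0) (hc : c ≠ 0) : gOrd n g (b * c) = gOrd n g b + gOrd n g c := by
  obtain ⟨s, hs, b', hb', hb'q⟩ := h.exists_eq hb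
  obtain ⟨t, ht, c', hc', hc'q⟩ := h.exists_eq hc
  refine h.gOrd_eq (notMem_mul_of_prime hs ht) (b' := b' * c') ?_ (notMem_mul_of_prime hb'q hc'q)
  rw [pow_add]
  linear_combination (t * c) * hb' + (g ^ gOrd n g b * b') * hc'

theorem LocGen.min_le_gOrd_add [n.IsPrime] [IsNoetherianRing B] (h : LocGen n π τ g q)
    {b c : B} (hb : b ≠ 0) (hc : c ≠ 0) (hbc : b + c ≠ 0) :
    min (gOrd n g b) (gOrd n g c) ≤ gOrd n g (b + c) := by
  obtain ⟨s, hs, b', hb'⟩ := h.gDiv_gOrd hb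
  obtain ⟨t, ht, c', hc'⟩ := h.gDiv_gOrd hc
  apply h.le_gOrd hbc
  refine ⟨s * t, notMem_mul_of_prime hs ht, ?_⟩
  have h1 : s * t * (b + c) = t * (s * b) + s * (t * c) := by ring
  rw [h1, hb', hc']
  exact dvd_add (Dvd.dvd.mul_left (Dvd.dvd.mul_right (pow_dvd_pow g (min_le_left _ _)) _) _)
    (Dvd.dvd.mul_left (Dvd.dvd.mul_right (pow_dvd_pow g (min_le_right _ _)) _) _)

theorem LocGen.gOrd_eq_zero_of_notMem [n.IsPrime] [q.IsPrime] [IsNoetherianRing B]
    (h : LocGen n π τ g q) {b : B} (hb : b ∉ q) : gOrd n g b = 0 :=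
  h.gOrd_eq (s := 1) (b' := b) one_notMem_of_prime (by simp) hb

theorem LocGen.one_le_gOrd [n.IsPrime] [IsNoetherianRing B] (h : LocGen n π τ g q) {b : B}
    (hb : b ≠ 0) (hbq : b ∈ q) : 1 ≤ gOrd n g b := by
  obtain ⟨Δ, hΔ, hΔq⟩ := h.gen
  exact h.le_gOrd hb ⟨Δ, hΔ, by simpa using hΔq b hbq⟩

end GOrd

end Fermat.Agent.S18.H67
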