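/-
S18 / KC1 (helper67), part 2: the order along a local generator as a valuation subring of the
fraction field, and the induction "`f` is a unit at `n` times an `m`-th power".

Mathlib only (plus part 1); no sorry.
-/
import Mathlib
import Fermat.Agent.S18.KC1Local_helper67

set_option autoImplicit false

namespace Fermat.Agent.S18.H67

section Krull

variable {B : Type*} [CommRing B] [IsDomain B] [IsNoetherianRing B]

/-- Krull's principal ideal theorem: a minimal prime over `(c)` does not contain the prime element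
`π` unless `π ∣ c`. -/
theorem pi_notMem_of_mem_minimalPrimes {π c : B} (hπ : Prime π) (hc : ¬ π ∣ c) {q : Ideal B}
    (hq : q ∈ (Ideal.span {c}).minimalPrimes) : π ∉ q := by
  intro hπq
  have hqp : q.IsPrime := hq.1.1
  have hP : (Ideal.span {π}).IsPrime := (Ideal.span_singleton_prime hπ.ne_zero).mpr hπ
  have hPq : Ideal.span {π} ≤ q := (Ideal.span_singleton_le_iff_mem q).mpr hπq
  have hcq : c ∈ q := hq.1.2 (Ideal.subset_span rfl)
  have hne : Ideal.span {π} ≠ q := by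
    intro h
    rw [← h] at hcq
    exact hc (Ideal.mem_span_singleton.mp hcq)
  have hlt : Ideal.span {π} < q := lt_of_le_of_ne hPq hne
  have h1 : q.height ≤ 1 :=
    Ideal.height_le_one_of_isPrincipal_of_mem_minimalPrimes (Ideal.span {c}) q hq
  have hbot : (⊥ : Ideal B).IsPrime := Ideal.isPrime_bot
  have hlt0 : (⊥ : Ideal B) < Ideal.span {π} := by
    rw [bot_lt_iff_ne_bot]
    intro h
    exact hπ.ne_zero (Ideal.span_singleton_eq_bot.mp h)
  have h2 : (Ideal.span {π}).height < q.height := Ideal.height_strict_mono_of_isPrime_of_isPrime hlt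
  have h3 : (⊥ : Ideal B).height < (Ideal.span {π}).height :=
    Ideal.height_strict_mono_of_isPrime_of_isPrime hlt0
  have h4 : (Ideal.span {π}).height < 1 := lt_of_lt_of_le h2 h1
  rw [Order.lt_one_iff] at h4
  rw [h4] at h3
  exact not_lt_zero h3

end Krull

section FOrd

variable {B F : Type*} [CommRing B] [IsDomain B] [IsNoetherianRing B] [Field F]
variable (ι : B →+* F) (hfrac : ∀ x : F, ∃ a b : B, b ≠ 0 ∧ x * ι b = ι a)
variable (n : Ideal B) (g : B)

/-- The order on `F = Frac B` along `g` at `n` (junk at `0`). -/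
noncomputable def fOrd (x : F) : ℤ :=
  (gOrd n g (hfrac x).choose : ℤ) - (gOrd n g (hfrac x).choose_spec.choose : ℤ)

variable {ι} {n} {g}
variable {π τ : B} {q : Ideal B} [n.IsPrime] [q.IsPrime]

theorem fOrd_eq (hι : Function.Injective ι) (h : LocGen n π τ g q) {x : F} (hx : x ≠ 0)
    {a b : B} (hb : b ≠ 0) (hab : x * ι b = ι a) :
    fOrd ι hfrac n g x = (gOrd n g a : ℤ) - (gOrd n g b : ℤ) := by
  have hb₀ := (hfrac x).choose_spec.choose_spec.1
  have h₀ := (hfrac x).choose_spec.choose_spec.2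
  show ((gOrd n g (hfrac x).choose : ℤ) - (gOrd n g (hfrac x).choose_spec.choose : ℤ)) = _
  generalize (hfrac x).choose_spec.choose = b₀ at hb₀ h₀ ⊢
  generalize (hfrac x).choose = a₀ at h₀ ⊢
  have hιb : ι b ≠ 0 := (map_ne_zero_iff ι hι).mpr hb
  have hιb₀ : ι b₀ ≠ 0 := (map_ne_zero_iff ι hι).mpr hb₀
  have ha : a ≠ 0 := by
    rintro rfl
    rw [map_zero] at hab
    exact (mul_ne_zero hx hιb) hab
  have ha₀' : a₀ ≠ 0 := by
    rintro rfl
    rw [map_zero] at h₀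
    exact (mul_ne_zero hx hιb₀) h₀
  have hcross : a * b₀ = a₀ * b := by
    apply hι
    rw [map_mul, map_mul]
    linear_combination (-ι b₀) * hab + (ι b) * h₀
  have h1 := h.gOrd_mul ha hb₀
  have h2 := h.gOrd_mul ha₀' hb
  rw [hcross] at h1
  rw [h1] at h2
  omega

theorem fOrd_mul (hι : Function.Injective ι) (h : LocGen n π τ g q) {x y : F} (hx : x ≠ 0)
    (hy : y ≠ 0) : fOrd ι hfrac n g (x * y) = fOrd ι hfrac n g x + fOrd ι hfrac n g y := by
  obtain ⟨a, b, hb, hab⟩ := hfrac x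
  obtain ⟨a', b', hb', hab'⟩ := hfrac y
  have hιb : ι b ≠ 0 := (map_ne_zero_iff ι hι).mpr hb
  have hιb' : ι b' ≠ 0 := (map_ne_zero_iff ι hι).mpr hb'
  have ha : a ≠ 0 := by
    rintro rfl
    rw [map_zero] at hab
    exact (mul_ne_zero hx hιb) hab
  have ha' : a' ≠ 0 := by
    rintro rfl
    rw [map_zero] at hab'
    exact (mul_ne_zero hy hιb') hab'
  have hprod : x * y * ι (b * b') = ι (a * a') := by
    rw [map_mul, map_mul, ← hab, ← hab']; ring
  rw [fOrd_eq hfrac hι h (mul_ne_zero hx hy) (mul_ne_zero hb hb') hprod,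
    fOrd_eq hfrac hι h hx hb hab, fOrd_eq hfrac hι h hy hb' hab', h.gOrd_mul ha ha',
    h.gOrd_mul hb hb']
  push_cast
  ring

theorem fOrd_add (hι : Function.Injective ι) (h : LocGen n π τ g q) {x y : F} (hx : x ≠ 0)
    (hy : y ≠ 0) (hxy : x + y ≠ 0) :
    min (fOrd ι hfrac n g x) (fOrd ι hfrac n g y) ≤ fOrd ι hfrac n g (x + y) := by
  obtain ⟨a, b, hb, hab⟩ := hfrac x
  obtain ⟨a', b', hb', hab'⟩ := hfrac y
  have hιb : ι b ≠ 0 := (map_ne_zero_iff ι hι).mpr hb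
  have hιb' : ι b' ≠ 0 := (map_ne_zero_iff ι hι).mpr hb'
  have ha : a ≠ 0 := by
    rintro rfl
    rw [map_zero] at hab
    exact (mul_ne_zero hx hιb) hab
  have ha' : a' ≠ 0 := by
    rintro rfl
    rw [map_zero] at hab'
    exact (mul_ne_zero hy hιb') hab'
  have hsum : (x + y) * ι (b * b') = ι (a * b' + a' * b) := by
    rw [map_add, map_mul, map_mul, map_mul, ← hab, ← hab']; ring
  have hne : a * b' + a' * b ≠ 0 := by
    intro h0
    rw [h0, map_zero] at hsum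
    exact (mul_ne_zero hxy ((map_ne_zero_iff ι hι).mpr (mul_ne_zero hb hb'))) hsum
  have hmin := h.min_le_gOrd_add (mul_ne_zero ha hb') (mul_ne_zero ha' hb) hne
  rw [h.gOrd_mul ha hb', h.gOrd_mul ha' hb] at hmin
  rw [fOrd_eq hfrac hι h hxy (mul_ne_zero hb hb') hsum, fOrd_eq hfrac hι h hx hb hab,
    fOrd_eq hfrac hι h hy hb' hab', h.gOrd_mul hb hb']
  push_cast
  rcases le_total (gOrd n g a + gOrd n g b') (gOrd n g a' + gOrd n g b) with hle | hle
  · rw [min_eq_left hle] at hmin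
    have h1 : (gOrd n g a : ℤ) - gOrd n g b ≤ (gOrd n g a' : ℤ) - gOrd n g b' := by omega
    rw [min_eq_left h1]
    omega
  · rw [min_eq_right hle] at hmin
    have h1 : (gOrd n g a' : ℤ) - gOrd n g b' ≤ (gOrd n g a : ℤ) - gOrd n g b := by omega
    rw [min_eq_right h1]
    omega

theorem fOrd_map (hι : Function.Injective ι) (h : LocGen n π τ g q) {b : B} (hb : b ≠ 0) :
    fOrd ι hfrac n g (ι b) = gOrd n g b := by
  have h1 : ι b * ι 1 = ι b := by rw [map_one, mul_one]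
  rw [fOrd_eq hfrac hι h ((map_ne_zero_iff ι hι).mpr hb) one_ne_zero h1,
    h.gOrd_eq_zero_of_notMem (b := 1) (Ideal.ne_top_iff_one q |>.mp (Ideal.IsPrime.ne_top ‹_›))]
  simp

theorem fOrd_one (hι : Function.Injective ι) (h : LocGen n π τ g q) :
    fOrd ι hfrac n g 1 = 0 := by
  have h1 := fOrd_mul hfrac hι h (one_ne_zero (α := F)) one_ne_zero
  rw [mul_one] at h1
  omega

theorem fOrd_inv (hι : Function.Injective ι) (h : LocGen n π τ g q) {x : F} (hx : x ≠ 0) :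
    fOrd ι hfrac n g x⁻¹ = - fOrd ι hfrac n g x := by
  have h1 := fOrd_mul hfrac hι h hx (inv_ne_zero hx)
  rw [mul_inv_cancel₀ hx, fOrd_one hfrac hι h] at h1
  omega

theorem fOrd_pow (hι : Function.Injective ι) (h : LocGen n π τ g q) {x : F} (hx : x ≠ 0)
    (k : ℕ) : fOrd ι hfrac n g (x ^ k) = k * fOrd ι hfrac n g x := by
  induction k with
  | zero => simp [fOrd_one hfrac hι h]
  | succ k ih =>
    rw [pow_succ, fOrd_mul hfrac hι h (pow_ne_zero k hx) hx, ih]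
    push_cast
    ring

theorem fOrd_neg_one (hι : Function.Injective ι) (h : LocGen n π τ g q) :
    fOrd ι hfrac n g (-1) = 0 := by
  have h1 := fOrd_mul hfrac hι h (neg_ne_zero.mpr (one_ne_zero (α := F)))
    (neg_ne_zero.mpr one_ne_zero)
  rw [neg_mul_neg, mul_one, fOrd_one hfrac hι h] at h1
  omega

/-- The valuation subring of `F` attached to the local generator `g`. -/
noncomputable def gValSubring (hι : Function.Injective ι) (h : LocGen n π τ g q) :
    ValuationSubring F where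
  carrier := {x | x = 0 ∨ 0 ≤ fOrd ι hfrac n g x}
  mul_mem' := by
    rintro x y (rfl | hx) (rfl | hy)
    · left; simp
    · left; simp
    · left; simp
    · by_cases hx0 : x = 0
      · left; simp [hx0]
      by_cases hy0 : y = 0
      · left; simp [hy0]
      right
      rw [fOrd_mul hfrac hι h hx0 hy0]
      omega
  one_mem' := Or.inr (by rw [fOrd_one hfrac hι h])
  add_mem' := by
    rintro x y hx hy
    by_cases hx0 : x = 0
    · simpa [hx0] using hy
    by_cases hy0 : y = 0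
    · simpa [hy0] using hx
    by_cases hxy : x + y = 0
    · left; exact hxy
    right
    have hx' := hx.resolve_left hx0
    have hy' := hy.resolve_left hy0
    exact le_trans (le_min hx' hy') (fOrd_add hfrac hι h hx0 hy0 hxy)
  zero_mem' := Or.inl rfl
  neg_mem' := by
    rintro x (rfl | hx)
    · left; simp
    · by_cases hx0 : x = 0
      · left; simp [hx0]
      right
      have h1 : -x = (-1) * x := by ring
      rw [h1, fOrd_mul hfrac hι h (neg_ne_zero.mpr one_ne_zero) hx0, fOrd_neg_one hfrac hι h]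
      omega
  mem_or_inv_mem' := by
    intro x
    by_cases hx0 : x = 0
    · left; left; exact hx0
    rcases le_total 0 (fOrd ι hfrac n g x) with h1 | h1
    · left; right; exact h1
    · right; right
      rw [fOrd_inv hfrac hι h hx0]
      omega

theorem mem_gValSubring (hι : Function.Injective ι) (h : LocGen n π τ g q) {x : F} :
    x ∈ gValSubring hfrac hι h ↔ x = 0 ∨ 0 ≤ fOrd ι hfrac n g x := Iff.rfl

theorem map_mem_gValSubring (hι : Function.Injective ι) (h : LocGen n π τ g q) (b : B) :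
    ι b ∈ gValSubring hfrac hι h := by
  by_cases hb : b = 0
  · left; rw [hb, map_zero]
  · right; rw [fOrd_map hfrac hι h hb]; exact Int.natCast_nonneg _

/-- Elements of `B` dividing a power of `π` are units of the valuation subring. -/
theorem inv_map_mem_gValSubring (hι : Function.Injective ι) (h : LocGen n π τ g q) {c : B}
    (hc : c ≠ 0) {k : ℕ} (hck : c ∣ π ^ k) : (ι c)⁻¹ ∈ gValSubring hfrac hι h := by
  right
  obtain ⟨c', hc'⟩ := hck
  have hπk : π ^ k ∉ q := fun hmem => h.pi_notMem (Ideal.IsPrime.mem_of_pow_mem ‹q.IsPrime› k hmem)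
  have hc'0 : c' ≠ 0 := by
    rintro rfl
    rw [mul_zero] at hc'
    exact hπk (hc' ▸ q.zero_mem)
  have h1 := h.gOrd_mul hc hc'0
  rw [← hc', h.gOrd_eq_zero_of_notMem hπk] at h1
  rw [fOrd_inv hfrac hι h ((map_ne_zero_iff ι hι).mpr hc), fOrd_map hfrac hι h hc]
  omega

/-- Divisibility of the order of `f` from the valuation-subring form of (DIV). -/
theorem dvd_fOrd_of_div (hι : Function.Injective ι) (h : LocGen n π τ g q) {f : F} (hf : f ≠ 0)
    {m : ℕ} (hdiv : ∃ g₀ : F, g₀ ≠ 0 ∧ f / g₀ ^ m ∈ gValSubring hfrac hι h ∧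
      g₀ ^ m / f ∈ gValSubring hfrac hι h) : (m : ℤ) ∣ fOrd ι hfrac n g f := by
  obtain ⟨g₀, hg₀, h1, h2⟩ := hdiv
  have hgm : g₀ ^ m ≠ 0 := pow_ne_zero m hg₀
  have e1 : fOrd ι hfrac n g (f / g₀ ^ m) = fOrd ι hfrac n g f - m * fOrd ι hfrac n g g₀ := by
    rw [div_eq_mul_inv, fOrd_mul hfrac hι h hf (inv_ne_zero hgm), fOrd_inv hfrac hι h hgm,
      fOrd_pow hfrac hι h hg₀]
    ring
  have e2 : fOrd ι hfrac n g (g₀ ^ m / f) = m * fOrd ι hfrac n g g₀ - fOrd ι hfrac n g f := by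
    rw [div_eq_mul_inv, fOrd_mul hfrac hι h hgm (inv_ne_zero hf), fOrd_inv hfrac hι h hf,
      fOrd_pow hfrac hι h hg₀]
    ring
  have h1' := h1.resolve_left (div_ne_zero hf hgm)
  have h2' := h2.resolve_left (div_ne_zero hgm hf)
  rw [e1] at h1'
  rw [e2] at h2'
  exact ⟨fOrd ι hfrac n g g₀, by omega⟩

end FOrd

section Induction

variable {B F : Type*} [CommRing B] [IsDomain B] [IsNoetherianRing B] [Field F]
variable {ι : B →+* F} (hι : Function.Injective ι)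
variable (hfrac : ∀ x : F, ∃ a b : B, b ≠ 0 ∧ x * ι b = ι a)
variable {n : Ideal B} [n.IsPrime] {π τ : B}

include hι in
/-- One reduction step: divide `a` and `b` by their powers of a local generator of a minimal
prime over the one lying in `n`. -/
theorem reduce_step (hπ : Prime π) (hπn : π ∈ n) (hτ : τ ∈ n)
    (hreg : ∀ a : B, ¬ π ∣ a → ∃ e, EExp n π τ a e)
    {f : F} (hf : f ≠ 0) {m : ℕ}
    (hdiv : ∀ (g : B) (q : Ideal B) [q.IsPrime], LocGen n π τ g q →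
      (m : ℤ) ∣ fOrd ι hfrac n g f)
    {a b : B} (hpa : ¬ π ∣ a) (hpb : ¬ π ∣ b) {ea eb : ℕ} (hea : EExp n π τ a ea)
    (heb : EExp n π τ b eb) (hn : a ∈ n ∨ b ∈ n)
    {s s' : B} {z : F} (hs : s ∉ n) (hs' : s' ∉ n) (hz : z ≠ 0)
    (hrel : f * ι b * ι s' = ι a * ι s * z ^ m) :
    ∃ (a₁ b₁ : B) (ea₁ eb₁ : ℕ) (s₁ s₁' : B) (z₁ : F), ¬ π ∣ a₁ ∧ ¬ π ∣ b₁ ∧
      EExp n π τ a₁ ea₁ ∧ EExp n π τ b₁ eb₁ ∧ ea₁ + eb₁ < ea + eb ∧ s₁ ∉ n ∧ s₁' ∉ n ∧ z₁ ≠ 0 ∧
      f * ι b₁ * ι s₁' = ι a₁ * ι s₁ * z₁ ^ m := by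
  have ha0 : a ≠ 0 := fun h => hpa (h ▸ dvd_zero π)
  have hb0 : b ≠ 0 := fun h => hpb (h ▸ dvd_zero π)
  obtain ⟨c, hcn, hc0, hpc, hcab⟩ : ∃ c, c ∈ n ∧ c ≠ 0 ∧ ¬ π ∣ c ∧ (c = a ∨ c = b) := by
    rcases hn with h | h
    · exact ⟨a, h, ha0, hpa, Or.inl rfl⟩
    · exact ⟨b, h, hb0, hpb, Or.inr rfl⟩
  obtain ⟨q, hq, hqn⟩ := Ideal.exists_minimalPrimes_le (I := Ideal.span {c}) (J := n)
    ((Ideal.span_singleton_le_iff_mem n).mpr hcn)
  have : q.IsPrime := hq.1.1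
  have hcq : c ∈ q := hq.1.2 (Ideal.subset_span rfl)
  have hπq : π ∉ q := pi_notMem_of_mem_minimalPrimes hπ hpc hq
  have hq0 : q ≠ ⊥ := by
    intro h
    rw [h] at hcq
    exact hc0 (Ideal.mem_bot.mp hcq)
  obtain ⟨g, hgq, hpg, hgen⟩ := exists_local_generator n π τ hπ hπn hreg q hπq hq0
  have h : LocGen n π τ g q := ⟨hπ, hπn, hτ, hreg, hqn, hπq, hgq, hpg, hgen⟩
  obtain ⟨sa, hsa, a₁, haeq, ha₁q⟩ := h.exists_eq ha0
  obtain ⟨sb, hsb, b₁, hbeq, hb₁q⟩ := h.exists_eq hb0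
  have hnd : ∀ x : B, x ∉ n → ¬ π ∣ x := fun x hx ⟨y, hy⟩ => hx (hy ▸ n.mul_mem_right y hπn)
  have hpsa : ¬ π ∣ sa * a := fun hd => (hπ.dvd_or_dvd hd).elim (hnd sa hsa) hpa
  have hpsb : ¬ π ∣ sb * b := fun hd => (hπ.dvd_or_dvd hd).elim (hnd sb hsb) hpb
  have hpa₁ : ¬ π ∣ a₁ := fun hd => hpsa (haeq ▸ Dvd.dvd.mul_left hd _)
  have hpb₁ : ¬ π ∣ b₁ := fun hd => hpsb (hbeq ▸ Dvd.dvd.mul_left hd _)
  obtain ⟨ea₁, hea₁⟩ := hreg a₁ hpa₁
  obtain ⟨eb₁, heb₁⟩ := hreg b₁ hpb₁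
  obtain ⟨eg, heg⟩ := hreg g hpg
  have hegpos : 0 < eg := EExp.pos hπn (hqn hgq) heg
  have Ea : ea = gOrd n g a * eg + ea₁ := by
    have E1 : EExp n π τ (sa * a) (0 + ea) := (EExp.zero_of_notMem hsa).mul hea
    have E2 : EExp n π τ (sa * a) (gOrd n g a * eg + ea₁) := haeq ▸ (heg.pow _).mul hea₁
    have := EExp.unique hπ hπn hτ hpsa E1 E2
    omega
  have Eb : eb = gOrd n g b * eg + eb₁ := by
    have E1 : EExp n π τ (sb * b) (0 + eb) := (EExp.zero_of_notMem hsb).mul heb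
    have E2 : EExp n π τ (sb * b) (gOrd n g b * eg + eb₁) := hbeq ▸ (heg.pow _).mul heb₁
    have := EExp.unique hπ hπn hτ hpsb E1 E2
    omega
  have hk : 1 ≤ gOrd n g a ∨ 1 ≤ gOrd n g b := by
    rcases hcab with rfl | rfl
    · exact Or.inl (h.one_le_gOrd hc0 hcq)
    · exact Or.inr (h.one_le_gOrd hc0 hcq)
  -- nonvanishing in `F`
  have hιne : ∀ x : B, x ≠ 0 → ι x ≠ 0 := fun x hx => (map_ne_zero_iff ι hι).mpr hx
  have hs0 : s ≠ 0 := fun h0 => hs (h0 ▸ n.zero_mem)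
  have hs'0 : s' ≠ 0 := fun h0 => hs' (h0 ▸ n.zero_mem)
  have hG : ι g ≠ 0 := hιne g h.g_ne_zero
  -- the order of `f`
  have hord : fOrd ι hfrac n g f
      = (gOrd n g a : ℤ) - (gOrd n g b : ℤ) + m * fOrd ι hfrac n g z := by
    have h1 := congrArg (fOrd ι hfrac n g) hrel
    rw [fOrd_mul hfrac hι h (mul_ne_zero hf (hιne b hb0)) (hιne s' hs'0),
      fOrd_mul hfrac hι h hf (hιne b hb0),
      fOrd_mul hfrac hι h (mul_ne_zero (hιne a ha0) (hιne s hs0)) (pow_ne_zero m hz),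
      fOrd_mul hfrac hι h (hιne a ha0) (hιne s hs0), fOrd_map hfrac hι h hb0,
      fOrd_map hfrac hι h hs'0, fOrd_map hfrac hι h ha0, fOrd_map hfrac hι h hs0,
      fOrd_pow hfrac hι h hz, h.gOrd_eq_zero_of_notMem (fun hq' => hs (hqn hq')),
      h.gOrd_eq_zero_of_notMem (fun hq' => hs' (hqn hq'))] at h1
    push_cast at h1
    linarith
  obtain ⟨t, ht⟩ : ∃ t : ℤ, (gOrd n g a : ℤ) - (gOrd n g b : ℤ) = m * t := by
    obtain ⟨t', ht'⟩ := hdiv g q h
    refine ⟨t' - fOrd ι hfrac n g z, ?_⟩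
    rw [hord] at ht'
    linarith
  have hGpow : ι g ^ gOrd n g a = ι g ^ gOrd n g b * (ι g ^ t) ^ m := by
    have h1 : (ι g ^ t) ^ m = ι g ^ (t * (m : ℤ)) := by
      rw [zpow_mul, zpow_natCast]
    rw [h1, ← zpow_natCast (ι g) (gOrd n g a), ← zpow_natCast (ι g) (gOrd n g b),
      ← zpow_add₀ hG]
    congr 1
    linarith
  have e1 : ι sb * ι b = ι g ^ gOrd n g b * ι b₁ := by
    rw [← map_mul, hbeq, map_mul, map_pow]
  have e2 : ι sa * ι a = ι g ^ gOrd n g a * ι a₁ := by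
    rw [← map_mul, haeq, map_mul, map_pow]
  refine ⟨a₁, b₁, ea₁, eb₁, s * sb, s' * sa, z * ι g ^ t, hpa₁, hpb₁, hea₁, heb₁, ?_,
    notMem_mul_of_prime hs hsb, notMem_mul_of_prime hs' hsa,
    mul_ne_zero hz (zpow_ne_zero t hG), ?_⟩
  · have h1 : gOrd n g a ≤ gOrd n g a * eg := Nat.le_mul_of_pos_right _ hegpos
    have h2 : gOrd n g b ≤ gOrd n g b * eg := Nat.le_mul_of_pos_right _ hegpos
    omega
  · have hcancel : ι g ^ gOrd n g b * (f * ι b₁ * ι (s' * sa))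
        = ι g ^ gOrd n g b * (ι a₁ * ι (s * sb) * (z * ι g ^ t) ^ m) := by
      rw [map_mul, map_mul, mul_pow]
      linear_combination (-(f * ι s' * ι sa)) * e1 + (ι sa * ι sb) * hrel
        + (ι s * ι sb * z ^ m) * e2 + (ι a₁ * ι s * ι sb * z ^ m) * hGpow
    exact mul_left_cancel₀ (pow_ne_zero _ hG) hcancel

include hι in
theorem exists_unit_mul_pow_aux (hπ : Prime π) (hπn : π ∈ n) (hτ : τ ∈ n)
    (hreg : ∀ a : B, ¬ π ∣ a → ∃ e, EExp n π τ a e)
    {f : F} (hf : f ≠ 0) {m : ℕ}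
    (hdiv : ∀ (g : B) (q : Ideal B) [q.IsPrime], LocGen n π τ g q →
      (m : ℤ) ∣ fOrd ι hfrac n g f) :
    ∀ N : ℕ, ∀ (a b : B) (ea eb : ℕ) (s s' : B) (z : F), ¬ π ∣ a → ¬ π ∣ b →
      EExp n π τ a ea → EExp n π τ b eb → ea + eb ≤ N → s ∉ n → s' ∉ n → z ≠ 0 →
      f * ι b * ι s' = ι a * ι s * z ^ m →
      ∃ (t t' : B) (z' : F), t ∉ n ∧ t' ∉ n ∧ z' ≠ 0 ∧ f * ι t' = ι t * z' ^ m := by
  intro N
  induction N with
  | zero =>
    intro a b ea eb s s' z _ _ hea heb hle hs hs' hz hrel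
    have hea0 : ea = 0 := by omega
    have heb0 : eb = 0 := by omega
    subst hea0 heb0
    refine ⟨a * s, b * s', z, notMem_mul_of_prime (hea.notMem_of_zero hπn) hs,
      notMem_mul_of_prime (heb.notMem_of_zero hπn) hs', hz, ?_⟩
    rw [map_mul, map_mul]
    linear_combination hrel
  | succ N ih =>
    intro a b ea eb s s' z hpa hpb hea heb hle hs hs' hz hrel
    by_cases hn : a ∈ n ∨ b ∈ n
    · obtain ⟨a₁, b₁, ea₁, eb₁, s₁, s₁', z₁, hpa₁, hpb₁, hea₁, heb₁, hlt, hs₁, hs₁', hz₁, hrel₁⟩ :=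
        reduce_step hι hfrac hπ hπn hτ hreg hf hdiv hpa hpb hea heb hn hs hs' hz hrel
      exact ih a₁ b₁ ea₁ eb₁ s₁ s₁' z₁ hpa₁ hpb₁ hea₁ heb₁ (by omega) hs₁ hs₁' hz₁ hrel₁
    · push Not at hn
      refine ⟨a * s, b * s', z, notMem_mul_of_prime hn.1 hs, notMem_mul_of_prime hn.2 hs', hz, ?_⟩
      rw [map_mul, map_mul]
      linear_combination hrel

include hι in
/-- **Local factorisation.** If `f = a / b` with `a, b ∈ B` prime to `π` and `m` divides the order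
of `f` along every local generator at `n`, then `f` is a unit at `n` times an `m`-th power. -/
theorem exists_unit_mul_pow (hπ : Prime π) (hπn : π ∈ n) (hτ : τ ∈ n)
    (hreg : ∀ a : B, ¬ π ∣ a → ∃ e, EExp n π τ a e)
    {f : F} (hf : f ≠ 0) {m : ℕ}
    (hdiv : ∀ (g : B) (q : Ideal B) [q.IsPrime], LocGen n π τ g q →
      (m : ℤ) ∣ fOrd ι hfrac n g f)
    {a b : B} (hpa : ¬ π ∣ a) (hpb : ¬ π ∣ b) (hab : f * ι b = ι a) :
    ∃ (t t' : B) (z' : F), t ∉ n ∧ t' ∉ n ∧ z' ≠ 0 ∧ f * ι t' = ι t * z' ^ m := by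
  obtain ⟨ea, hea⟩ := hreg a hpa
  obtain ⟨eb, heb⟩ := hreg b hpb
  exact exists_unit_mul_pow_aux hι hfrac hπ hπn hτ hreg hf hdiv (ea + eb) a b ea eb 1 1 1 hpa hpb
    hea heb le_rfl one_notMem_of_prime one_notMem_of_prime one_ne_zero (by simp [hab])

end Induction

end Fermat.Agent.S18.H67
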