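import Mathlib
import Fermat.Agent.S18.BaseSection_helper76
import Fermat.Agent.S18.KCStmts_helper63

set_option autoImplicit false

/-!
# S18, node KC1: the BASE STEP of the generic Kummer core, in the literal shape of
`KCStmts_helper63` (helper76)

`stmtBase : H63.StmtBase`, from `H76.exists_base_section_of_reg` (local-UFD route).
Together with `H19.stmtKC_of_base` this gives `H63.StmtKC` (`stmtKC` below is NOT stated here to
keep the import closure small; it is `H19.stmtKC_of_base H76.stmtBase`).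
-/

namespace Fermat.Agent.S18.H76

/-- **KC1** in the shape of `KCStmts_helper63`. -/
theorem stmtBase : Fermat.Agent.S18.H63.StmtBase := by
  intro A F _ _ _ _ π m V B f hπ0 hinj harch hm hπV hVπ hBV hnoeth hic hfrac hsat hreg hf1 hdiv
  classical
  set ϖ : F := algebraMap A F π with hϖ
  have hϖ0 : ϖ ≠ 0 := fun h => hπ0 (hinj (by rw [← hϖ, h, map_zero]))
  have hϖinv : ϖ⁻¹ ∉ V :=
    ((ValuationSubring.mem_nonunits_iff_or V).mp hπV).resolve_left hϖ0
  have hϖV : ϖ ∈ V := hBV _ (B.algebraMap_mem π)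
  -- units of `V`
  have hVunit : ∀ x ∈ V, (¬ ∃ y ∈ V, x = ϖ * y) → x⁻¹ ∈ V := by
    intro x _ hnot
    by_contra hinv
    exact hnot (hVπ x ((ValuationSubring.mem_nonunits_iff_or V).mpr (Or.inr hinv)))
  -- the element `π` of `B`
  set πB : B := algebraMap A B π with hπB
  have hπBcoe : ((πB : B) : F) = ϖ := rfl
  have hcoe : ∀ x : B, algebraMap B F x = (x : F) := fun _ => rfl
  have hdvd_iff : ∀ x : B, πB ∣ x ↔ ∃ y ∈ V, (x : F) = ϖ * y := by
    intro x
    constructor
    · rintro ⟨c, rfl⟩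
      exact ⟨c, hBV _ c.2, by rw [MulMemClass.coe_mul, hπBcoe]⟩
    · intro h
      obtain ⟨b, hb, hxb⟩ := hsat x x.2 h
      exact ⟨⟨b, hb⟩, Subtype.ext (by rw [MulMemClass.coe_mul, hπBcoe]; exact hxb)⟩
  have hπBprime : Prime πB := by
    refine ⟨?_, ?_, ?_⟩
    · intro h
      apply hϖ0
      rw [← hπBcoe, h]
      rfl
    · intro hu
      obtain ⟨u, hu⟩ := isUnit_iff_exists_inv.mp hu
      apply hϖinv
      have h1 : ϖ * (u : F) = 1 := by
        have := congrArg Subtype.val hu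
        rwa [MulMemClass.coe_mul, hπBcoe] at this
      rw [inv_eq_of_mul_eq_one_right h1]
      exact hBV _ u.2
    · intro x y hxy
      obtain ⟨z, hz, hxyz⟩ := (hdvd_iff _).mp hxy
      rw [MulMemClass.coe_mul] at hxyz
      by_contra hcon
      push Not at hcon
      have hx := hVunit x (hBV _ x.2) (fun h => hcon.1 ((hdvd_iff x).mpr h))
      have hy := hVunit y (hBV _ y.2) (fun h => hcon.2 ((hdvd_iff y).mpr h))
      have hx0 : (x : F) ≠ 0 := by
        intro h
        apply hcon.1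
        have : x = 0 := Subtype.ext h
        rw [this]
        exact dvd_zero _
      have hy0 : (y : F) ≠ 0 := by
        intro h
        apply hcon.2
        have : y = 0 := Subtype.ext h
        rw [this]
        exact dvd_zero _
      apply hϖinv
      have h2 : z * (x : F)⁻¹ * (y : F)⁻¹ * ϖ = 1 := by
        rw [show z * (x : F)⁻¹ * (y : F)⁻¹ * ϖ = (ϖ * z) * (x : F)⁻¹ * (y : F)⁻¹ by ring, ← hxyz]
        field_simp
      rw [← eq_inv_of_mul_eq_one_left h2]
      exact V.mul_mem _ _ (V.mul_mem _ _ hz hx) hy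
  -- instances for `B`
  have hfaith : FaithfulSMul B F :=
    (faithfulSMul_iff_algebraMap_injective B F).mpr Subtype.val_injective
  have hfracI : IsFractionRing B F := IsFractionRing.of_field B F (fun z => by
    obtain ⟨a, ha, b, hb, hb0, hzb⟩ := hfrac z
    refine ⟨⟨a, ha⟩, ⟨b, hb⟩, ?_⟩
    rw [hcoe, hcoe]
    show z = a / b
    rw [← hzb]
    field_simp)
  have hicI : IsIntegrallyClosed B :=
    (isIntegrallyClosed_iff F).mpr (fun {x} hx => ⟨⟨x, hic x hx⟩, rfl⟩)
  have hone : ∀ n : Ideal B, n.IsMaximal → (1 : B) ∉ n := fun n hn =>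
    (Ideal.ne_top_iff_one n).mp hn.ne_top
  have hspan : ∀ x : B, x ∈ Ideal.span {πB} ↔ πB ∣ x := fun x => Ideal.mem_span_singleton
  -- `f ≠ 0`
  have hf0 : f ≠ 0 := by
    rintro rfl
    obtain ⟨y, hy, e⟩ := hf1
    apply hϖinv
    have h1 : ϖ * (-y) = 1 := by linear_combination e
    rw [inv_eq_of_mul_eq_one_right h1]
    exact V.neg_mem _ hy
  -- (a) in fraction form
  have hf1' : ∃ a s : B, ¬ πB ∣ s ∧ f * algebraMap B F s = algebraMap B F a ∧ πB ∣ a - s := by
    obtain ⟨y, hy, e⟩ := hf1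
    obtain ⟨a, ha, b, hb, hb0, hyb⟩ := hfrac y
    have hb0' : (⟨b, hb⟩ : B) ≠ 0 := fun h => hb0 (congrArg Subtype.val h)
    obtain ⟨k, b', hb', hbk⟩ := WfDvdMonoid.max_power_factor' hb0' hπBprime.not_isUnit
    have hbk' : b = ϖ ^ k * (b' : F) := by
      have := congrArg Subtype.val hbk
      rw [MulMemClass.coe_mul, SubmonoidClass.coe_pow, hπBcoe] at this
      exact this
    obtain ⟨a', ha', haa'⟩ := Fermat.Agent.S18.H63.sat_pow hϖ0 hϖV hsat k a ha
      ⟨y * b', V.mul_mem _ _ hy (hBV _ b'.2), by rw [← hyb, hbk']; ring⟩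
    have hya : y * (b' : F) = a' := by
      apply mul_left_cancel₀ (pow_ne_zero k hϖ0)
      rw [← haa', ← hyb, hbk']
      ring
    refine ⟨b' + πB * ⟨a', ha'⟩, b', hb', ?_, ⟨⟨a', ha'⟩, by ring⟩⟩
    rw [hcoe, hcoe]
    push_cast
    rw [hπBcoe]
    show f * (b' : F) = (b' : F) + ϖ * a'
    rw [← hya]
    linear_combination (b' : F) * e
  -- (b) in the valuation-subring form
  have hval : ∀ O : ValuationSubring F, O ≠ ⊤ → IsPrincipalIdealRing O →
      (∀ x : B, algebraMap B F x ∈ O) → (algebraMap B F πB)⁻¹ ∈ O →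
        ∃ w g : F, w ∈ O ∧ w⁻¹ ∈ O ∧ f = w * g ^ m := by
    intro O _ _ hBO hπO
    rw [hcoe, hπBcoe] at hπO
    obtain ⟨g, hg0, h1, h2⟩ := hdiv O (fun a => hBO (algebraMap A B a)) (fun a ha => by
      obtain ⟨k, c, hc⟩ := harch a ha
      have hα : algebraMap A F a ≠ 0 := fun h => ha (hinj (by rw [h, map_zero]))
      have h3 : ϖ ^ k = algebraMap A F a * algebraMap A F c := by
        rw [hϖ, ← map_pow, hc, map_mul]
      have hγ : algebraMap A F c ≠ 0 := by
        intro h
        rw [h, mul_zero] at h3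
        exact pow_ne_zero k hϖ0 h3
      have h4 : (algebraMap A F a)⁻¹ = algebraMap A F c * ϖ⁻¹ ^ k := by
        rw [inv_pow, h3]
        field_simp
      rw [h4]
      exact O.mul_mem _ _ (hBO (algebraMap A B c)) (O.pow_mem hπO k))
    refine ⟨f / g ^ m, g, h1, ?_, ?_⟩
    · rw [inv_div]
      exact h2
    · field_simp
  -- local principality at the closed points of the special fibre
  have hLP : ∀ n : Ideal B, n.IsMaximal → πB ∈ n → ∀ J : Ideal B, ∃ g ∈ J, ∀ x ∈ J,
      ∃ e : B, e ∉ n ∧ e * x ∈ Ideal.span {g} ⊔ Ideal.span {πB} := by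
    intro n hn hπn J
    obtain ⟨τ, hτn, hτ⟩ := hreg n hn hπn
    by_cases hJ : ∀ x ∈ J, x ∈ Ideal.span {πB}
    · exact ⟨0, J.zero_mem, fun x hx => ⟨1, hone n hn, by
        rw [one_mul]
        exact Submodule.mem_sup_right (hJ x hx)⟩⟩
    · push Not at hJ
      have hex : ∃ e : ℕ, ∃ x ∈ J, ∃ d u : B, d ∉ n ∧ u ∉ n ∧
          x * d - u * τ ^ e ∈ Ideal.span {πB} := by
        obtain ⟨x, hxJ, hx⟩ := hJ
        obtain ⟨e, d, u, hd, hu, h⟩ := hτ x hx
        exact ⟨e, x, hxJ, d, u, hd, hu, h⟩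
      obtain ⟨x0, hx0J, d0, u0, hd0, hu0, h0⟩ := Nat.find_spec hex
      refine ⟨x0, hx0J, fun x hx => ?_⟩
      by_cases hxπ : x ∈ Ideal.span {πB}
      · exact ⟨1, hone n hn, by
          rw [one_mul]
          exact Submodule.mem_sup_right hxπ⟩
      · obtain ⟨e, d, u, hd, hu, h⟩ := hτ x hxπ
        have hle : Nat.find hex ≤ e := Nat.find_min' hex ⟨x, hx, d, u, hd, hu, h⟩
        obtain ⟨k, hk⟩ := Nat.exists_eq_add_of_le hle
        rw [hk] at h
        refine ⟨d * u0, fun hmem => (hn.isPrime.mem_or_mem hmem).elim hd hu0, ?_⟩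
        have e1 : d * u0 * x = (u * τ ^ k * d0) * x0 +
            (u0 * (x * d - u * τ ^ (Nat.find hex + k)) -
              u * τ ^ k * (x0 * d0 - u0 * τ ^ Nat.find hex)) := by ring
        rw [e1]
        exact Submodule.add_mem_sup (Ideal.mem_span_singleton'.mpr ⟨_, rfl⟩)
          (Ideal.sub_mem _ (Ideal.mul_mem_left _ _ h) (Ideal.mul_mem_left _ _ h0))
  -- root closedness of the special fibre
  have hIC : ∀ a s b : B, ¬ πB ∣ s → πB ∣ a ^ m - b * s ^ m → ∃ r : B, πB ∣ r * s - a := by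
    intro a s b hs hab
    by_cases ha : πB ∣ a
    · exact ⟨0, by simpa using ha⟩
    let D : Ideal B :=
      { carrier := {d | ∃ r : B, πB ∣ r * s - d * a}
        add_mem' := by
          rintro d1 d2 ⟨r1, h1⟩ ⟨r2, h2⟩
          refine ⟨r1 + r2, ?_⟩
          have e1 : (r1 + r2) * s - (d1 + d2) * a = (r1 * s - d1 * a) + (r2 * s - d2 * a) := by
            ring
          rw [e1]
          exact dvd_add h1 h2
        zero_mem' := ⟨0, by simp⟩
        smul_mem' := by
          rintro c d ⟨r, h⟩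
          refine ⟨c * r, ?_⟩
          have e1 : c * r * s - c • d * a = c * (r * s - d * a) := by
            rw [smul_eq_mul]
            ring
          rw [e1]
          exact Dvd.dvd.mul_left h c }
    by_cases hD : D = ⊤
    · obtain ⟨r, hr⟩ : (1 : B) ∈ D := hD ▸ Submodule.mem_top
      exact ⟨r, by simpa using hr⟩
    exfalso
    obtain ⟨n, hn, hDn⟩ := Ideal.exists_le_maximal D hD
    have hπD : πB ∈ D := ⟨0, ⟨-a, by ring⟩⟩
    have hπn : πB ∈ n := hDn hπD
    obtain ⟨τ, hτn, hτ⟩ := hreg n hn hπn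
    obtain ⟨ea, da, ua, hda, hua, hA⟩ := hτ a (fun h => ha ((hspan a).mp h))
    obtain ⟨es, ds, us, hds, hus, hS⟩ := hτ s (fun h => hs ((hspan s).mp h))
    rw [hspan] at hA hS
    rcases le_or_gt es ea with hle | hlt
    · obtain ⟨k, rfl⟩ := Nat.exists_eq_add_of_le hle
      have hmem : da * us ∈ D := by
        refine ⟨ua * τ ^ k * ds, ?_⟩
        have e1 : ua * τ ^ k * ds * s - da * us * a =
            ua * τ ^ k * (s * ds - us * τ ^ es) - us * (a * da - ua * τ ^ (es + k)) := by ring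
        rw [e1]
        exact dvd_sub (Dvd.dvd.mul_left hS _) (Dvd.dvd.mul_left hA _)
      exact (hn.isPrime.mem_or_mem (hDn hmem)).elim hda hus
    · obtain ⟨k, rfl⟩ : ∃ k, es = ea + (k + 1) := ⟨es - ea - 1, by omega⟩
      have hXm : πB ∣ (a * da) ^ m - (ua * τ ^ ea) ^ m := hA.trans (sub_dvd_pow_sub_pow _ _ m)
      have hYm : πB ∣ (s * ds) ^ m - (us * τ ^ (ea + (k + 1))) ^ m :=
        hS.trans (sub_dvd_pow_sub_pow _ _ m)
      have key : πB ∣ τ ^ (m * ea) *
          (ua ^ m * ds ^ m - b * us ^ m * da ^ m * τ ^ (m * (k + 1))) := by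
        have e1 : τ ^ (m * ea) * (ua ^ m * ds ^ m - b * us ^ m * da ^ m * τ ^ (m * (k + 1))) =
            (da * ds) ^ m * (a ^ m - b * s ^ m) - ((a * da) ^ m - (ua * τ ^ ea) ^ m) * ds ^ m +
              b * ((s * ds) ^ m - (us * τ ^ (ea + (k + 1))) ^ m) * da ^ m := by ring
        rw [e1]
        exact dvd_add (dvd_sub (Dvd.dvd.mul_left hab _) (Dvd.dvd.mul_right hXm _))
          (Dvd.dvd.mul_right (Dvd.dvd.mul_left hYm _) _)
      rcases hπBprime.dvd_or_dvd key with h | h
      · have hτπ : πB ∣ τ := hπBprime.dvd_of_dvd_pow h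
        have h2 : πB ∣ us * τ ^ (ea + (k + 1)) :=
          Dvd.dvd.mul_left (dvd_pow hτπ (by omega)) us
        have h3 : πB ∣ s * ds := by
          have := dvd_add hS h2
          simpa using this
        rcases hπBprime.dvd_or_dvd h3 with h4 | h4
        · exact hs h4
        · exact hds (n.mem_of_dvd h4 hπn)
      · have h1 : ua ^ m * ds ^ m - b * us ^ m * da ^ m * τ ^ (m * (k + 1)) ∈ n :=
          n.mem_of_dvd h hπn
        have h2 : b * us ^ m * da ^ m * τ ^ (m * (k + 1)) ∈ n :=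
          n.mul_mem_left _ (Ideal.pow_mem_of_mem n hτn _ (Nat.mul_pos hm (Nat.succ_pos k)))
        have h3 : ua ^ m * ds ^ m ∈ n := by
          have := n.add_mem h1 h2
          simpa using this
        rcases hn.isPrime.mem_or_mem h3 with h4 | h4
        · exact hua (hn.isPrime.mem_of_pow_mem _ h4)
        · exact hds (hn.isPrime.mem_of_pow_mem _ h4)
  -- apply the general base-section theorem
  obtain ⟨s, b, hsb, c, d, hd, hsd, t, ht⟩ :=
    exists_base_section_of_reg πB hπBprime m hm f hf0 hf1' hval hLP hIC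
  rw [hcoe, hcoe] at hsd
  rw [hcoe, hcoe, hπBcoe] at hsb
  have hd0 : (d : F) ≠ 0 := by
    intro h
    apply hd
    have : d = 0 := Subtype.ext h
    rw [this]
    exact dvd_zero _
  have hdinv : (d : F)⁻¹ ∈ V := hVunit d (hBV _ d.2) (fun h => hd ((hdvd_iff d).mpr h))
  refine ⟨s, ⟨((1 + πB * b : B) : F), (1 + πB * b : B).2, ?_⟩, (t : F) * (d : F)⁻¹,
    V.mul_mem _ _ (hBV _ t.2) hdinv, ?_⟩
  · rw [hsb]
    push_cast
    rw [hπBcoe]
  · have h1 : (c : F) - (d : F) = ϖ * (t : F) := by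
      have := congrArg Subtype.val ht
      simpa [hπBcoe] using this
    field_simp
    linear_combination hsd + h1

end Fermat.Agent.S18.H76
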