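/-
S18, KUMMER CORE (helper63): the (DIV) bridge.

The landed Props `H63.StmtBase` / `H63.StmtKC` state the divisibility hypothesis in
valuation-subring form

  hdiv : ∀ O : ValuationSubring F, (∀ a : A, algebraMap A F a ∈ O) →
    (∀ a : A, a ≠ 0 → (algebraMap A F a)⁻¹ ∈ O) → ∃ g : F, g ≠ 0 ∧ f / g ^ m ∈ O ∧ g ^ m / f ∈ O.

This file converts it into the additive forms used inside proofs of the base step:
* `ordSubring v` : the valuation subring `{x | x = 0 ∨ 0 ≤ v x}` of an unbundled additive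
  valuation `v : F → ℤ`;
* `dvd_of_hdiv` : `(m : ℤ) ∣ v f` for every `v` trivial on `A \ 0`;
* `dvd_of_hdiv_chart` : the same for every `v` which is `≥ 0` on a chart `B` and `0` at `π`
  (with `harch`), i.e. literally `H08.DivAt (algebraMap A B π) m f`;
* `zval_dvd_of_hdiv` : the `S24.H31.ZVal` form.
-/
import Mathlib
import Fermat.Agent.S24.ZVal_helper31

set_option autoImplicit false

namespace Fermat.Agent.S18.H63

section OrdSubring

variable {F : Type*} [Field F]

theorem ord_one_of_mul (v : F → ℤ)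
    (hmul : ∀ x y : F, x ≠ 0 → y ≠ 0 → v (x * y) = v x + v y) : v 1 = 0 := by
  have h := hmul 1 1 one_ne_zero one_ne_zero
  rw [mul_one] at h
  linarith

theorem ord_neg_one_of_mul (v : F → ℤ)
    (hmul : ∀ x y : F, x ≠ 0 → y ≠ 0 → v (x * y) = v x + v y) : v (-1) = 0 := by
  have h := hmul (-1) (-1) (neg_ne_zero.mpr one_ne_zero) (neg_ne_zero.mpr one_ne_zero)
  rw [neg_mul_neg, mul_one, ord_one_of_mul v hmul] at h
  linarith

theorem ord_inv_of_mul (v : F → ℤ)
    (hmul : ∀ x y : F, x ≠ 0 → y ≠ 0 → v (x * y) = v x + v y) {x : F} (hx : x ≠ 0) :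
    v x⁻¹ = -v x := by
  have h := hmul x x⁻¹ hx (inv_ne_zero hx)
  rw [mul_inv_cancel₀ hx, ord_one_of_mul v hmul] at h
  linarith

theorem ord_pow_of_mul (v : F → ℤ)
    (hmul : ∀ x y : F, x ≠ 0 → y ≠ 0 → v (x * y) = v x + v y) {x : F} (hx : x ≠ 0) (n : ℕ) :
    v (x ^ n) = n * v x := by
  induction n with
  | zero => simp [ord_one_of_mul v hmul]
  | succ n ih =>
    rw [pow_succ, hmul _ _ (pow_ne_zero n hx) hx, ih]
    push_cast
    ring

/-- the valuation subring `{x | x = 0 ∨ 0 ≤ v x}` of an unbundled additive valuation -/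
def ordSubring (v : F → ℤ)
    (hmul : ∀ x y : F, x ≠ 0 → y ≠ 0 → v (x * y) = v x + v y)
    (hadd : ∀ x y : F, x ≠ 0 → y ≠ 0 → x + y ≠ 0 → min (v x) (v y) ≤ v (x + y)) :
    ValuationSubring F where
  carrier := {x | x = 0 ∨ 0 ≤ v x}
  mul_mem' := by
    rintro x y hx hy
    by_cases hx0 : x = 0
    · left; rw [hx0, zero_mul]
    by_cases hy0 : y = 0
    · left; rw [hy0, mul_zero]
    right
    rw [hmul x y hx0 hy0]
    have h1 : 0 ≤ v x := hx.resolve_left hx0
    have h2 : 0 ≤ v y := hy.resolve_left hy0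
    linarith
  one_mem' := Or.inr (ord_one_of_mul v hmul).ge
  add_mem' := by
    rintro x y hx hy
    by_cases hx0 : x = 0
    · rw [hx0, zero_add]; exact hy
    by_cases hy0 : y = 0
    · rw [hy0, add_zero]; exact hx
    by_cases hxy : x + y = 0
    · left; exact hxy
    right
    have h1 : 0 ≤ v x := hx.resolve_left hx0
    have h2 : 0 ≤ v y := hy.resolve_left hy0
    exact le_trans (le_min h1 h2) (hadd x y hx0 hy0 hxy)
  zero_mem' := Or.inl rfl
  neg_mem' := by
    rintro x hx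
    by_cases hx0 : x = 0
    · left; rw [hx0, neg_zero]
    right
    have h1 : 0 ≤ v x := hx.resolve_left hx0
    have e : -x = -1 * x := by ring
    rw [e, hmul _ _ (neg_ne_zero.mpr one_ne_zero) hx0, ord_neg_one_of_mul v hmul]
    linarith
  mem_or_inv_mem' := by
    intro x
    by_cases hx0 : x = 0
    · left; left; exact hx0
    rcases le_total 0 (v x) with h | h
    · left; right; exact h
    · right; right
      rw [ord_inv_of_mul v hmul hx0]
      linarith

theorem mem_ordSubring {v : F → ℤ}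
    {hmul : ∀ x y : F, x ≠ 0 → y ≠ 0 → v (x * y) = v x + v y}
    {hadd : ∀ x y : F, x ≠ 0 → y ≠ 0 → x + y ≠ 0 → min (v x) (v y) ≤ v (x + y)} {x : F} :
    x ∈ ordSubring v hmul hadd ↔ x = 0 ∨ 0 ≤ v x := Iff.rfl

end OrdSubring

section Bridge

variable {A F : Type*} [CommRing A] [Field F] [Algebra A F]

/-- **(DIV) bridge, unbundled form.**  From the valuation-subring form of (DIV):
`(m : ℤ) ∣ v f` for every additive valuation `v` which is trivial on `A \ 0`. -/
theorem dvd_of_hdiv (m : ℕ) {f : F} (hf : f ≠ 0)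
    (hdiv : ∀ O : ValuationSubring F, (∀ a : A, algebraMap A F a ∈ O) →
      (∀ a : A, a ≠ 0 → (algebraMap A F a)⁻¹ ∈ O) →
      ∃ g : F, g ≠ 0 ∧ f / g ^ m ∈ O ∧ g ^ m / f ∈ O)
    (v : F → ℤ) (hmul : ∀ x y : F, x ≠ 0 → y ≠ 0 → v (x * y) = v x + v y)
    (hadd : ∀ x y : F, x ≠ 0 → y ≠ 0 → x + y ≠ 0 → min (v x) (v y) ≤ v (x + y))
    (hA : ∀ a : A, a ≠ 0 → v (algebraMap A F a) = 0) : (m : ℤ) ∣ v f := by
  obtain ⟨g, hg, h1, h2⟩ := hdiv (ordSubring v hmul hadd)
    (fun a => by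
      by_cases ha : a = 0
      · left; rw [ha, map_zero]
      · right; exact (hA a ha).ge)
    (fun a ha => by
      by_cases h0 : algebraMap A F a = 0
      · left; rw [h0, inv_zero]
      · right
        rw [ord_inv_of_mul v hmul h0, hA a ha, neg_zero])
  have hgm : g ^ m ≠ 0 := pow_ne_zero m hg
  have e1 : 0 ≤ v (f / g ^ m) := h1.resolve_left (div_ne_zero hf hgm)
  have e2 : 0 ≤ v (g ^ m / f) := h2.resolve_left (div_ne_zero hgm hf)
  rw [div_eq_mul_inv, hmul _ _ hf (inv_ne_zero hgm), ord_inv_of_mul v hmul hgm,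
    ord_pow_of_mul v hmul hg] at e1
  rw [div_eq_mul_inv, hmul _ _ hgm (inv_ne_zero hf), ord_inv_of_mul v hmul hf,
    ord_pow_of_mul v hmul hg] at e2
  exact ⟨v g, by linarith⟩

/-- an additive valuation which is `≥ 0` on the image of `A` and `0` at `π` is trivial on
`A \ 0` when every nonzero element of `A` divides a power of `π` -/
theorem ord_eq_zero_of_harch (π : A) (hπ0 : π ≠ 0) (hinj : Function.Injective (algebraMap A F))
    (harch : ∀ c : A, c ≠ 0 → ∃ n : ℕ, c ∣ π ^ n)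
    (v : F → ℤ) (hmul : ∀ x y : F, x ≠ 0 → y ≠ 0 → v (x * y) = v x + v y)
    (hA : ∀ a : A, a ≠ 0 → 0 ≤ v (algebraMap A F a)) (hπ : v (algebraMap A F π) = 0)
    (a : A) (ha : a ≠ 0) : v (algebraMap A F a) = 0 := by
  have hne : ∀ c : A, c ≠ 0 → algebraMap A F c ≠ 0 := fun c hc h =>
    hc (hinj (by rw [h, map_zero]))
  have hπne : algebraMap A F π ≠ 0 := hne π hπ0
  obtain ⟨n, c, hc⟩ := harch a ha
  have hc0 : c ≠ 0 := by
    rintro rfl
    rw [mul_zero] at hc
    have := pow_ne_zero n hπne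
    rw [← map_pow, hc, map_zero] at this
    exact this rfl
  have hcv := hA c hc0
  have hav := hA a ha
  have e : algebraMap A F π ^ n = algebraMap A F a * algebraMap A F c := by
    rw [← map_pow, hc, map_mul]
  have h3 := congrArg v e
  rw [ord_pow_of_mul v hmul hπne, hπ, mul_zero, hmul _ _ (hne a ha) (hne c hc0)] at h3
  linarith

/-- **(DIV) bridge, chart form** (literally `H08.DivAt (algebraMap A B π) m f` for a chart
`B : Subalgebra A F`): `(m : ℤ) ∣ v f` for every additive valuation `v` which is `≥ 0` on `B`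
and `0` at `π`. -/
theorem dvd_of_hdiv_chart (π : A) (hπ0 : π ≠ 0) (hinj : Function.Injective (algebraMap A F))
    (harch : ∀ c : A, c ≠ 0 → ∃ n : ℕ, c ∣ π ^ n) (B : Subalgebra A F) (m : ℕ) {f : F}
    (hf : f ≠ 0)
    (hdiv : ∀ O : ValuationSubring F, (∀ a : A, algebraMap A F a ∈ O) →
      (∀ a : A, a ≠ 0 → (algebraMap A F a)⁻¹ ∈ O) →
      ∃ g : F, g ≠ 0 ∧ f / g ^ m ∈ O ∧ g ^ m / f ∈ O) :
    ∀ v : F → ℤ, (∀ x y : F, x ≠ 0 → y ≠ 0 → v (x * y) = v x + v y) →
      (∀ x y : F, x ≠ 0 → y ≠ 0 → x + y ≠ 0 → min (v x) (v y) ≤ v (x + y)) →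
      (∀ b : B, b ≠ 0 → 0 ≤ v (algebraMap B F b)) → v (algebraMap B F (algebraMap A B π)) = 0 →
      (m : ℤ) ∣ v f := by
  intro v hmul hadd hB hπ
  refine dvd_of_hdiv m hf hdiv v hmul hadd
    (ord_eq_zero_of_harch π hπ0 hinj harch v hmul (fun a ha => ?_) hπ)
  have hne : algebraMap A B a ≠ 0 := by
    intro h
    have h2 : algebraMap A F a = 0 := by
      have := congrArg (algebraMap B F) h
      rwa [map_zero] at this
    exact ha (hinj (by rw [h2, map_zero]))
  exact hB (algebraMap A B a) hne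

/-- **(DIV) bridge, `ZVal` form** (the (DIV) of board #1376). -/
theorem zval_dvd_of_hdiv (m : ℕ) {f : F} (hf : f ≠ 0)
    (hdiv : ∀ O : ValuationSubring F, (∀ a : A, algebraMap A F a ∈ O) →
      (∀ a : A, a ≠ 0 → (algebraMap A F a)⁻¹ ∈ O) →
      ∃ g : F, g ≠ 0 ∧ f / g ^ m ∈ O ∧ g ^ m / f ∈ O)
    (w : Fermat.Agent.S24.H31.ZVal F)
    (hw : ∀ a : A, a ≠ 0 → w.ord (algebraMap A F a) = 0) : (m : ℤ) ∣ w.ord f :=
  dvd_of_hdiv m hf hdiv w.ord (fun _ _ hx hy => w.ord_mul hx hy)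
    (fun _ _ hx hy hxy => w.ord_add hx hy hxy) hw

end Bridge

end Fermat.Agent.S18.H63
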