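import Mathlib
import Fermat.Agent.S18.KC1_helper76
import Fermat.Agent.S18.KCGlue_helper19

set_option autoImplicit false

/-!
# S18: the generic Kummer core `(KC)` of `KCStmts_helper63`, proved (helper76)

`stmtKC : H63.StmtKC`, from the base step `H76.stmtBase` (KC1) and helper19's glue
`H19.stmtKC_of_base` (refine + glue + Čech finiteness + bounded torsion).
-/

namespace Fermat.Agent.S18.H76

/-- **(KC)**, the generic Kummer core, unconditionally. -/
theorem stmtKC : Fermat.Agent.S18.H63.StmtKC :=
  Fermat.Agent.S18.H19.stmtKC_of_base stmtBase

end Fermat.Agent.S18.H76
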