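/-
S18 helper (helper67): the abstract "Kummer core".

Setting: `V` a commutative ring with a ring hom `red : V →+* κ` to a field such that every element
with nonzero reduction is a unit (e.g. a valuation ring with its residue map); two "charts" given by
subrings `B₁ B₂` and additive subgroups `I₁ I₂ ≤ I₁₂` (sections of a line bundle on the two charts and
on their intersection), `a ∈ B₁ ∩ B₂` with `red a = 0` (a uniformiser), `m` invertible.
If on each chart there is a section `sᵢ ∈ Iᵢ` with `red sᵢ = 1` and `sᵢ ^ m = f * (1 + a * bᵢ)`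
(local `m`-th roots of `f`), if `I₁₂` is `a`-saturated and the `a ^ (c+1)`-torsion of
`I₁₂ / (I₁ + I₂)` is killed by `a ^ c`, then there is a GLOBAL section `x ∈ I₁ ∩ I₂` with `red x = 1`.

Mathlib only; no sorry.
-/
import Mathlib

set_option autoImplicit false

namespace Fermat.Agent.S18.H67

/-- `(1 - y)^m = 1 - m y + y^2 p` with `p` in any subring containing `y`. -/
theorem one_sub_pow_expand {R : Type*} [CommRing R] (B : Subring R) {y : R} (hy : y ∈ B) (m : ℕ) :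
    ∃ p ∈ B, (1 - y) ^ m = 1 - (m : R) * y + y ^ 2 * p := by
  induction m with
  | zero => exact ⟨0, B.zero_mem, by simp⟩
  | succ k ih =>
    obtain ⟨p, hp, h⟩ := ih
    refine ⟨p + (k : R) - y * p, ?_, ?_⟩
    · exact B.sub_mem (B.add_mem hp (natCast_mem B k)) (B.mul_mem hy hp)
    · rw [pow_succ, h]; push_cast; ring

/-- Newton identity: `(1 + x) (1 - x/m)^m = 1 + x^2 g` with `g` in any subring containing `x`, `1/m`. -/
theorem newton_identity {R : Type*} [CommRing R] (B : Subring R) {x u : R} (hx : x ∈ B) (hu : u ∈ B)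
    (m : ℕ) (hmu : (m : R) * u = 1) :
    ∃ g ∈ B, (1 + x) * (1 - u * x) ^ m = 1 + x ^ 2 * g := by
  obtain ⟨p, hp, h⟩ := one_sub_pow_expand B (B.mul_mem hu hx) m
  refine ⟨-1 + (1 + x) * u ^ 2 * p, ?_, ?_⟩
  · exact B.add_mem (B.neg_mem B.one_mem)
      (B.mul_mem (B.mul_mem (B.add_mem B.one_mem hx) (B.pow_mem hu 2)) hp)
  · rw [h]; linear_combination (-(1 + x) * x) * hmu

/-- One Newton step on one chart. -/
theorem newton_step {V κ : Type*} [CommRing V] [Field κ] (red : V →+* κ) (m : ℕ)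
    (a : V) (hared : red a = 0) (f : V)
    (B : Subring V) (haB : a ∈ B) (u : V) (hu : (m : V) * u = 1) (huB : u ∈ B)
    (I : AddSubgroup V) (hBI : ∀ b ∈ B, ∀ x ∈ I, b * x ∈ I)
    (s₀ : V) (n : ℕ) (s b E : V) (hs : s ∈ I) (hb : b ∈ B) (hE : E ∈ I) (hsr : red s = 1)
    (hsm : s ^ m = f * (1 + a ^ (n + 1) * b)) (hsE : s = s₀ + a * E) :
    ∃ s' b' E', s' ∈ I ∧ b' ∈ B ∧ E' ∈ I ∧ red s' = 1 ∧
      s' ^ m = f * (1 + a ^ (n + 2) * b') ∧ s' = s₀ + a * E' := by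
  have hx : a ^ (n + 1) * b ∈ B := B.mul_mem (B.pow_mem haB _) hb
  obtain ⟨g, hg, hid⟩ := newton_identity B hx huB m hu
  refine ⟨(1 - u * (a ^ (n + 1) * b)) * s, a ^ n * b ^ 2 * g, E - (a ^ n * u * b) * s,
    ?_, ?_, ?_, ?_, ?_, ?_⟩
  · exact hBI _ (B.sub_mem B.one_mem (B.mul_mem huB hx)) _ hs
  · exact B.mul_mem (B.mul_mem (B.pow_mem haB _) (B.pow_mem hb 2)) hg
  · exact I.sub_mem hE (hBI _ (B.mul_mem (B.mul_mem (B.pow_mem haB _) huB) hb) _ hs)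
  · simp [hared, hsr, pow_succ]
  · rw [mul_pow, hsm]
    calc (1 - u * (a ^ (n + 1) * b)) ^ m * (f * (1 + a ^ (n + 1) * b))
        = f * ((1 + a ^ (n + 1) * b) * (1 - u * (a ^ (n + 1) * b)) ^ m) := by ring
      _ = f * (1 + (a ^ (n + 1) * b) ^ 2 * g) := by rw [hid]
      _ = f * (1 + a ^ (n + 2) * (a ^ n * b ^ 2 * g)) := by ring
  · rw [hsE]; ring

/-- Newton iteration on one chart: local `m`-th roots of `f` to any `a`-adic precision, all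
congruent to the initial one modulo `a I`. -/
theorem newton_iterate {V κ : Type*} [CommRing V] [Field κ] (red : V →+* κ) (m : ℕ)
    (a : V) (hared : red a = 0) (f : V)
    (B : Subring V) (haB : a ∈ B) (u : V) (hu : (m : V) * u = 1) (huB : u ∈ B)
    (I : AddSubgroup V) (hBI : ∀ b ∈ B, ∀ x ∈ I, b * x ∈ I)
    (s₀ b₀ : V) (hs₀ : s₀ ∈ I) (hb₀ : b₀ ∈ B) (hs₀r : red s₀ = 1)
    (hs₀m : s₀ ^ m = f * (1 + a * b₀)) (n : ℕ) :
    ∃ s b E, s ∈ I ∧ b ∈ B ∧ E ∈ I ∧ red s = 1 ∧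
      s ^ m = f * (1 + a ^ (n + 1) * b) ∧ s = s₀ + a * E := by
  induction n with
  | zero => exact ⟨s₀, b₀, 0, hs₀, hb₀, I.zero_mem, hs₀r, by simpa using hs₀m, by simp⟩
  | succ k ih =>
    obtain ⟨s, b, E, hs, hb, hE, hsr, hsm, hsE⟩ := ih
    exact newton_step red m a hared f B haB u hu huB I hBI s₀ k s b E hs hb hE hsr hsm hsE

/-- `a`-saturation iterated. -/
theorem mem_of_pow_mul_mem {V : Type*} [CommRing V] (a : V) (J : AddSubgroup V)
    (hK2 : ∀ x : V, a * x ∈ J → x ∈ J) (n : ℕ) (x : V) (h : a ^ n * x ∈ J) : x ∈ J := by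
  induction n with
  | zero => simpa using h
  | succ k ih =>
    apply ih
    apply hK2
    rw [← mul_assoc, ← pow_succ']; exact h

/-- **Kummer core.** Gluing local `m`-th roots of `f` (with reduction `1`) on two charts into a global
section with reduction `1`. -/
theorem kummer_core {V κ : Type*} [CommRing V] [Field κ] (red : V →+* κ)
    (hunit : ∀ x : V, red x ≠ 0 → IsUnit x)
    (m : ℕ) (hm : (m : κ) ≠ 0)
    (a : V) (hared : red a = 0) (f : V)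
    (B₁ B₂ : Subring V) (haB₁ : a ∈ B₁) (haB₂ : a ∈ B₂)
    (u : V) (hu : (m : V) * u = 1) (huB₁ : u ∈ B₁) (huB₂ : u ∈ B₂)
    (I₁ I₂ I₁₂ : AddSubgroup V) (hI₁ : I₁ ≤ I₁₂) (hI₂ : I₂ ≤ I₁₂)
    (hBI₁ : ∀ b ∈ B₁, ∀ x ∈ I₁, b * x ∈ I₁) (hBI₂ : ∀ b ∈ B₂, ∀ x ∈ I₂, b * x ∈ I₂)
    (hK2 : ∀ x : V, a * x ∈ I₁₂ → x ∈ I₁₂)
    (s₁ b₁ : V) (hs₁ : s₁ ∈ I₁) (hb₁ : b₁ ∈ B₁) (hs₁r : red s₁ = 1)
    (hs₁m : s₁ ^ m = f * (1 + a * b₁))
    (s₂ b₂ : V) (hs₂ : s₂ ∈ I₂) (hb₂ : b₂ ∈ B₂) (hs₂r : red s₂ = 1)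
    (hs₂m : s₂ ^ m = f * (1 + a * b₂))
    (c : ℕ) (hK4 : ∀ h ∈ I₁₂, a ^ (c + 1) * h ∈ I₁ ⊔ I₂ → a ^ c * h ∈ I₁ ⊔ I₂) :
    ∃ x, x ∈ I₁ ∧ x ∈ I₂ ∧ red x = 1 := by
  obtain ⟨s, b, E, hs, hb, hE, hsr, hsm, hsE⟩ :=
    newton_iterate red m a hared f B₁ haB₁ u hu huB₁ I₁ hBI₁ s₁ b₁ hs₁ hb₁ hs₁r hs₁m c
  obtain ⟨t, b', E', ht, hb', hE', htr, htm, htE⟩ :=
    newton_iterate red m a hared f B₂ haB₂ u hu huB₂ I₂ hBI₂ s₂ b₂ hs₂ hb₂ hs₂r hs₂m c
  -- the geometric sum is a unit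
  set T : V := ∑ i ∈ Finset.range m, s ^ i * t ^ (m - 1 - i) with hT
  have hTred : red T = (m : κ) := by
    simp [hT, hsr, htr]
  obtain ⟨T', hTT'⟩ := (hunit T (by rw [hTred]; exact hm)).exists_right_inv
  have hgeom : T * (s - t) = s ^ m - t ^ m := by
    rw [hT]; exact (Commute.all s t).geom_sum₂_mul m
  -- s - t = a^(c+1) h
  set h : V := T' * f * (b - b') with hh
  have hst : s - t = a ^ (c + 1) * h := by
    have h1 : T * (s - t) = a ^ (c + 1) * (f * (b - b')) := by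
      rw [hgeom, hsm, htm]; ring
    calc s - t = (T * T') * (s - t) := by rw [hTT', one_mul]
      _ = T' * (T * (s - t)) := by ring
      _ = T' * (a ^ (c + 1) * (f * (b - b'))) := by rw [h1]
      _ = a ^ (c + 1) * h := by rw [hh]; ring
  have hst12 : s - t ∈ I₁₂ := I₁₂.sub_mem (hI₁ hs) (hI₂ ht)
  have hh12 : h ∈ I₁₂ := mem_of_pow_mul_mem a I₁₂ hK2 (c + 1) h (hst ▸ hst12)
  have hstsup : a ^ (c + 1) * h ∈ I₁ ⊔ I₂ := by
    rw [← hst, sub_eq_add_neg]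
    exact AddSubgroup.add_mem_sup hs (I₂.neg_mem ht)
  obtain ⟨e₁, he₁, e₂, he₂, he⟩ := AddSubgroup.mem_sup.mp (hK4 h hh12 hstsup)
  refine ⟨s₁ - a * (e₁ - E), ?_, ?_, ?_⟩
  · exact I₁.sub_mem hs₁ (hBI₁ a haB₁ _ (I₁.sub_mem he₁ hE))
  · have hx : s₁ - a * (e₁ - E) = s₂ + a * (e₂ + E') := by
      have h2 : a ^ (c + 1) * h = a * (e₁ + e₂) := by rw [pow_succ', mul_assoc, he]
      have h3 : s₁ + a * E - (s₂ + a * E') = a * (e₁ + e₂) := by
        rw [← hsE, ← htE, hst, h2]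
      linear_combination h3
    rw [hx]
    exact I₂.add_mem hs₂ (hBI₂ a haB₂ _ (I₂.add_mem he₂ hE'))
  · simp [hared, hs₁r]

end Fermat.Agent.S18.H67
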