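/-
S18 helper (helper67): the complete abstract patching lemma (KC) of the Kummer core.

Assembles `kummer_core` (refine + glue), `cech_fg` (two-chart finiteness), `fg_of_base_section`
(chart module finitely generated over `A[x]`) and helper45's bounded torsion lemma into ONE statement
with no places, no divisors and no degrees: from base sections on the two charts to a global section
with reduction `1`.
-/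
import Mathlib
import Fermat.Agent.S18.KummerCore_helper67
import Fermat.Agent.S18.CechFG_helper67
import Fermat.Agent.S18.ChartFG_helper67
import Fermat.Agent.S18.BoundedTorsion_helper45

set_option autoImplicit false

namespace Fermat.Agent.S18.H67

/-- In a valuation ring with a nonzero nonunit `a₀`, two nonunits have a common nonzero nonunit
divisor. -/
theorem exists_common_dvd {A : Type*} [CommRing A] [IsDomain A] [ValuationRing A] (a₀ c₁ c₂ : A)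
    (ha₀ : ¬ IsUnit a₀) (ha₀' : a₀ ≠ 0) (h₁ : ¬ IsUnit c₁) (h₂ : ¬ IsUnit c₂) :
    ∃ a : A, ¬ IsUnit a ∧ a ≠ 0 ∧ a ∣ c₁ ∧ a ∣ c₂ := by
  have key : ∀ c : A, ¬ IsUnit c → ∃ a : A, ¬ IsUnit a ∧ a ≠ 0 ∧ a ∣ c := by
    intro c hc
    by_cases h : c = 0
    · exact ⟨a₀, ha₀, ha₀', h ▸ dvd_zero _⟩
    · exact ⟨c, hc, h, dvd_rfl⟩
  obtain ⟨e₁, he₁, he₁', hd₁⟩ := key c₁ h₁
  obtain ⟨e₂, he₂, he₂', hd₂⟩ := key c₂ h₂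
  rcases ValuationRing.dvd_total e₁ e₂ with h | h
  · exact ⟨e₁, he₁, he₁', hd₁, h.trans hd₂⟩
  · exact ⟨e₂, he₂, he₂', h.trans hd₁, hd₂⟩

/-- **Abstract patching lemma (KC).**

* `A` a rank-one valuation ring (`harch`) with a nonzero nonunit `a₀`;
* `V ⊆ F` a subring with a reduction map `red : V → κ` to a field, local (`hunit`), containing `A`,
  and `red` kills the nonunits of `A`; `m` is invertible in `κ`;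
* two charts: `A`-subalgebras `B₁ ∋ x`, `B₂ ∋ y = x⁻¹` of `V`, with `B₁` finite over `A[x]` (`hβ`),
  and `ker(red) ∩ Bᵢ ⊆ 𝔪_A Bᵢ` (`hker₁`, `hker₂`);
* modules `M₁, M₂ ≤ M₁₂ ⊆ V` (`Mᵢ` a `Bᵢ`-module), `M₁₂` saturated (`hsat`), `M₁₂ = M₁[1/x]` (`hloc`),
  `M₁ ⊆ M₂[x]` (`hloc₂`);
* `f ∈ V` with `red f = 1`, base sections `sᵢ ∈ Mᵢ` with `red sᵢ = 1`, `sᵢ ^ m = f uᵢ`, `uᵢ ∈ Bᵢ`, and
  `u₁ M₁ ⊆ s₁ B₁`.

Then there is a global section `σ ∈ M₁ ∩ M₂` with `red σ = 1`. -/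
theorem kummer_patch {A F κ : Type*} [CommRing A] [IsDomain A] [ValuationRing A] [Field F]
    [Algebra A F] [Field κ]
    (harch : ∀ a : A, ¬ IsUnit a → ∀ b : A, b ≠ 0 → ∃ n : ℕ, b ∣ a ^ n)
    (a₀ : A) (ha₀ : ¬ IsUnit a₀) (ha₀' : a₀ ≠ 0)
    (V : Subring F) (red : V →+* κ) (hunit : ∀ v : V, red v ≠ 0 → IsUnit v)
    (hAV : ∀ c : A, algebraMap A F c ∈ V)
    (hAred : ∀ c : A, ¬ IsUnit c → red ⟨algebraMap A F c, hAV c⟩ = 0)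
    (m : ℕ) (hm : (m : κ) ≠ 0)
    (x y : F) (hxy : x * y = 1)
    (B₁ B₂ : Subalgebra A F) (hB₁V : ∀ b ∈ B₁, b ∈ V) (hB₂V : ∀ b ∈ B₂, b ∈ V)
    (hxB₁ : x ∈ B₁) (hyB₂ : y ∈ B₂)
    (β : Finset F) (hβB : ∀ g ∈ β, g ∈ B₁)
    (hβ : ∀ b ∈ B₁, b ∈ Submodule.span A {w : F | ∃ k : ℕ, ∃ g ∈ β, w = x ^ k * g})
    (hker₁ : ∀ b (hb : b ∈ B₁), red ⟨b, hB₁V b hb⟩ = 0 →
      ∃ c : A, ¬ IsUnit c ∧ ∃ b' ∈ B₁, b = algebraMap A F c * b')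
    (hker₂ : ∀ b (hb : b ∈ B₂), red ⟨b, hB₂V b hb⟩ = 0 →
      ∃ c : A, ¬ IsUnit c ∧ ∃ b' ∈ B₂, b = algebraMap A F c * b')
    (M₁ M₂ M₁₂ : Submodule A F) (hM₁ : M₁ ≤ M₁₂) (hM₂ : M₂ ≤ M₁₂) (hM₁₂V : ∀ z ∈ M₁₂, z ∈ V)
    (hBM₁ : ∀ b ∈ B₁, ∀ z ∈ M₁, b * z ∈ M₁) (hBM₂ : ∀ b ∈ B₂, ∀ z ∈ M₂, b * z ∈ M₂)
    (hsat : ∀ c : A, c ≠ 0 → ∀ z ∈ V, algebraMap A F c * z ∈ M₁₂ → z ∈ M₁₂)
    (hloc : ∀ z ∈ M₁₂, ∃ n : ℕ, x ^ n * z ∈ M₁) (hloc₂ : ∀ z ∈ M₁, ∃ n : ℕ, y ^ n * z ∈ M₂)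
    (f : F) (hf : f ∈ V) (hfr : red ⟨f, hf⟩ = 1)
    (s₁ u₁ : F) (hs₁ : s₁ ∈ M₁) (hs₁r : red ⟨s₁, hM₁₂V _ (hM₁ hs₁)⟩ = 1) (hu₁ : u₁ ∈ B₁)
    (hs₁m : s₁ ^ m = f * u₁) (hu₁M : ∀ z ∈ M₁, ∃ b ∈ B₁, u₁ * z = s₁ * b)
    (s₂ u₂ : F) (hs₂ : s₂ ∈ M₂) (hs₂r : red ⟨s₂, hM₁₂V _ (hM₂ hs₂)⟩ = 1) (hu₂ : u₂ ∈ B₂)
    (hs₂m : s₂ ^ m = f * u₂) :
    ∃ σ : F, σ ∈ M₁ ∧ σ ∈ M₂ ∧ ∃ hσ : σ ∈ V, red ⟨σ, hσ⟩ = 1 := by
  classical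
  -- `m` is a unit of `A`
  have hmA : IsUnit ((m : ℕ) : A) := by
    by_contra hnu
    have h0 := hAred _ hnu
    have h1 : (⟨algebraMap A F ((m : ℕ) : A), hAV _⟩ : V) = ((m : ℕ) : V) := by
      apply Subtype.ext; simp
    rw [h1, map_natCast] at h0
    exact hm h0
  obtain ⟨w, hw⟩ := hmA.exists_right_inv
  -- reductions of `u₁`, `u₂`
  have hur : ∀ (s u : F) (hsV : s ∈ V) (huV : u ∈ V), red ⟨s, hsV⟩ = 1 → s ^ m = f * u →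
      red ⟨u, huV⟩ = 1 := by
    intro s u hsV huV hsr hsm
    have h1 : (⟨s, hsV⟩ : V) ^ m = ⟨f, hf⟩ * ⟨u, huV⟩ := Subtype.ext (by simpa using hsm)
    have h2 := congrArg red h1
    rw [map_pow, map_mul, hsr, hfr, one_pow, one_mul] at h2
    exact h2.symm
  have hu₁r : red ⟨u₁, hB₁V _ hu₁⟩ = 1 := hur s₁ u₁ _ _ hs₁r hs₁m
  have hu₂r : red ⟨u₂, hB₂V _ hu₂⟩ = 1 := hur s₂ u₂ _ _ hs₂r hs₂m
  -- `uᵢ = 1 + cᵢ bᵢ`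
  have hdec : ∀ (B : Subalgebra A F) (hBV : ∀ b ∈ B, b ∈ V)
      (_ : ∀ b (hb : b ∈ B), red ⟨b, hBV b hb⟩ = 0 →
        ∃ c : A, ¬ IsUnit c ∧ ∃ b' ∈ B, b = algebraMap A F c * b')
      (u : F) (hu : u ∈ B), red ⟨u, hBV u hu⟩ = 1 →
      ∃ c : A, ¬ IsUnit c ∧ ∃ b' ∈ B, u = 1 + algebraMap A F c * b' := by
    intro B hBV hker u hu hured
    have hmem : u - 1 ∈ B := B.sub_mem hu B.one_mem
    have hred0 : red ⟨u - 1, hBV _ hmem⟩ = 0 := by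
      have h1 : (⟨u - 1, hBV _ hmem⟩ : V) = ⟨u, hBV _ hu⟩ - 1 := Subtype.ext (by simp)
      rw [h1, map_sub, hured, map_one, sub_self]
    obtain ⟨c, hc, b', hb', h⟩ := hker _ hmem hred0
    exact ⟨c, hc, b', hb', by rw [← h]; ring⟩
  obtain ⟨c₁, hc₁, b₁, hb₁, hub₁⟩ := hdec B₁ hB₁V hker₁ u₁ hu₁ hu₁r
  obtain ⟨c₂, hc₂, b₂, hb₂, hub₂⟩ := hdec B₂ hB₂V hker₂ u₂ hu₂ hu₂r
  -- a common uniformising element `a`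
  obtain ⟨a, ha, ha0, ⟨d₁, hd₁⟩, ⟨d₂, hd₂⟩⟩ := exists_common_dvd a₀ c₁ c₂ ha₀ ha₀' hc₁ hc₂
  set g₁ : F := algebraMap A F d₁ * b₁ with hg₁def
  set g₂ : F := algebraMap A F d₂ * b₂ with hg₂def
  have hg₁ : g₁ ∈ B₁ := B₁.mul_mem (B₁.algebraMap_mem _) hb₁
  have hg₂ : g₂ ∈ B₂ := B₂.mul_mem (B₂.algebraMap_mem _) hb₂
  have hug₁ : u₁ = 1 + algebraMap A F a * g₁ := by
    rw [hub₁, hd₁, map_mul, hg₁def]; ring
  have hug₂ : u₂ = 1 + algebraMap A F a * g₂ := by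
    rw [hub₂, hd₂, map_mul, hg₂def]; ring
  -- `M₁` finitely generated over `A[x]`
  have hu₁0 : u₁ ≠ 0 := by
    intro h0
    have h1 : (⟨u₁, hB₁V _ hu₁⟩ : V) = 0 := Subtype.ext h0
    rw [h1, map_zero] at hu₁r
    exact zero_ne_one hu₁r
  obtain ⟨G, hGM, hG⟩ := fg_of_base_section a (harch a ha) x B₁ hxB₁ β hβB hβ M₁ hBM₁ s₁ u₁ g₁
    hg₁ hug₁ hu₁0 hu₁M hs₁
  -- two-chart finiteness
  obtain ⟨S, -, hS⟩ := cech_fg x y hxy M₁ M₂ M₁₂ (fun z hz => hBM₁ x hxB₁ z hz)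
    (fun z hz => hBM₂ y hyB₂ z hz) G hGM hG hloc (fun g hg => hloc₂ g (hGM g hg))
  -- bounded torsion
  obtain ⟨c, hc⟩ := H45.exists_bound_pow_smul_mem (M₁ ⊔ M₂) M₁₂ (Submodule.span A (S : Set F))
    (Submodule.fg_span S.finite_toSet) (fun z hz => hS z hz) a (harch a ha)
  -- the data inside `V`
  let aV : V := ⟨algebraMap A F a, hAV a⟩
  let uV : V := ⟨algebraMap A F w, hAV w⟩
  let B₁V : Subring V := B₁.toSubring.comap V.subtype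
  let B₂V : Subring V := B₂.toSubring.comap V.subtype
  let I₁ : AddSubgroup V := M₁.toAddSubgroup.comap V.subtype.toAddMonoidHom
  let I₂ : AddSubgroup V := M₂.toAddSubgroup.comap V.subtype.toAddMonoidHom
  let I₁₂ : AddSubgroup V := M₁₂.toAddSubgroup.comap V.subtype.toAddMonoidHom
  have hpow : ∀ (n : ℕ) (h : V), ((aV ^ n * h : V) : F) = a ^ n • (h : F) := by
    intro n h
    rw [Algebra.smul_def, map_pow]; rfl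
  have hK4 : ∀ h ∈ I₁₂, aV ^ (c + 1) * h ∈ I₁ ⊔ I₂ → aV ^ c * h ∈ I₁ ⊔ I₂ := by
    intro h hh hmem
    obtain ⟨z₁, hz₁, z₂, hz₂, hz⟩ := AddSubgroup.mem_sup.mp hmem
    have h1 : a ^ (c + 1) • (h : F) ∈ M₁ ⊔ M₂ := by
      rw [← hpow, ← hz]
      exact Submodule.add_mem_sup hz₁ hz₂
    obtain ⟨w₁, hw₁, w₂, hw₂, hw12⟩ := Submodule.mem_sup.mp (hc (h : F) hh ⟨c + 1, h1⟩)
    have h2 : aV ^ c * h = (⟨w₁, hM₁₂V _ (hM₁ hw₁)⟩ : V) + ⟨w₂, hM₁₂V _ (hM₂ hw₂)⟩ := by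
      apply Subtype.ext
      rw [hpow]; exact hw12.symm
    rw [h2]
    exact AddSubgroup.add_mem_sup (show (w₁ : F) ∈ M₁ from hw₁) (show (w₂ : F) ∈ M₂ from hw₂)
  have hsm : ∀ (s u g : F) (hsV : s ∈ V) (hgV : g ∈ V), s ^ m = f * u →
      u = 1 + algebraMap A F a * g →
      (⟨s, hsV⟩ : V) ^ m = ⟨f, hf⟩ * (1 + aV * ⟨g, hgV⟩) := by
    intro s u g hsV hgV h1 h2
    apply Subtype.ext
    simp only [SubmonoidClass.coe_pow, Subring.coe_mul, Subring.coe_add, Subring.coe_one, aV]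
    rw [h1, h2]
  obtain ⟨σ, hσ₁, hσ₂, hσr⟩ := kummer_core red hunit m hm aV (hAred a ha) ⟨f, hf⟩ B₁V B₂V
    (show algebraMap A F a ∈ B₁ from B₁.algebraMap_mem a)
    (show algebraMap A F a ∈ B₂ from B₂.algebraMap_mem a)
    uV (Subtype.ext (by
      simp only [Subring.coe_mul, Subring.coe_natCast, Subring.coe_one, uV]
      rw [← map_natCast (algebraMap A F), ← map_mul, hw, map_one]))
    (show algebraMap A F w ∈ B₁ from B₁.algebraMap_mem w)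
    (show algebraMap A F w ∈ B₂ from B₂.algebraMap_mem w)
    I₁ I₂ I₁₂ (fun z hz => hM₁ hz) (fun z hz => hM₂ hz)
    (fun b hb z hz => hBM₁ b hb z hz) (fun b hb z hz => hBM₂ b hb z hz)
    (fun z hz => hsat a ha0 z z.2 hz)
    ⟨s₁, hM₁₂V _ (hM₁ hs₁)⟩ ⟨g₁, hB₁V _ hg₁⟩ hs₁ hg₁ hs₁r (hsm s₁ u₁ g₁ _ _ hs₁m hug₁)
    ⟨s₂, hM₁₂V _ (hM₂ hs₂)⟩ ⟨g₂, hB₂V _ hg₂⟩ hs₂ hg₂ hs₂r (hsm s₂ u₂ g₂ _ _ hs₂m hug₂)
    c hK4
  exact ⟨σ, hσ₁, hσ₂, σ.2, hσr⟩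

end Fermat.Agent.S18.H67
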