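import Mathlib
import Fermat.Agent.S18.Charts_helper97
import Fermat.Agent.S18.GaussMod_helper93
import Fermat.Agent.S18.NoPole_helper32

/-!
# S18, node MODEL-FIN: transcendence and finiteness in the model `K₀(j(q^d) : d ∣ L)`

* `transcendental_of_coeff_ne_zero` : a non-constant element of an intermediate field of
  `K((q))` is transcendental over `K`.
* `jM K L`, `transcendental_jM` : the element `j` of the model and its transcendence.
* `finiteDimensional_of_gaussData` : Gauss data make `F` finite over `L(J)`.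
* `finiteDimensional_model` : the model is finite over `K₀(j)` (char. zero, a valuation
  subring of residue characteristic `ℓ ∤ L`).
* chart parameters `ξ` with `j ∈ K₀(ξ)` (Hauptmoduln): transcendence and finiteness over
  `K₀(ξ)` and `K₀(ξ⁻¹)`.
-/

set_option autoImplicit false

open Polynomial ModularCurve IntermediateField

namespace Fermat.Agent.S18.H97

section Transcendence

variable {K : Type*} [Field K]

/-- A non-constant element of an intermediate field of `K((q))` is transcendental over `K`. -/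
theorem transcendental_of_coeff_ne_zero (E : IntermediateField K (LaurentSeries K)) (x : E)
    {n : ℤ} (hn : n ≠ 0) (hx : (x : LaurentSeries K).coeff n ≠ 0) : Transcendental K x := by
  intro halg
  have h1 : IsAlgebraic K (x : LaurentSeries K) :=
    (IntermediateField.isAlgebraic_iff (S := E) (x := x)).mp halg
  obtain ⟨c, hc⟩ := H32.exists_eq_algebraMap_of_isAlgebraic _ h1
  apply hx
  rw [hc, H32.algebraMap_laurent_eq, HahnSeries.ofPowerSeries_C, HahnSeries.C_apply,
    HahnSeries.coeff_single_of_ne hn]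

variable (K) (L : ℕ)

/-- `j` as an element of the model `K(j(q^d) : d ∣ L)`. -/
noncomputable def jM : ↥(modularFunctionFieldFullC K L) := ⟨jqModC K, jqModC_mem_full K L⟩

@[simp] theorem coe_jM : ((jM K L : ↥(modularFunctionFieldFullC K L)) : LaurentSeries K) =
    jqModC K := rfl

/-- `j` is transcendental over the constants of the model. -/
theorem transcendental_jM : Transcendental K (jM K L) := by
  refine transcendental_of_coeff_ne_zero _ _ (n := -1) (by decide) ?_
  rw [coe_jM, ModularCurve.coeff_jqModC_neg_one]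
  exact one_ne_zero

end Transcendence

section Tower

variable {K F : Type*} [Field K] [Field F] [Algebra K F]

/-- Transcendence passes from `j` to a generator `t` of a rational subfield containing `j`. -/
theorem transcendental_of_mem_adjoin_simple {j t : F} (hj : Transcendental K j)
    (hmem : j ∈ K⟮t⟯) : Transcendental K t := by
  intro ht
  apply hj
  have : Algebra.IsAlgebraic K K⟮t⟯ := isAlgebraic_adjoin_simple ht.isIntegral
  have h1 : IsAlgebraic K (⟨j, hmem⟩ : K⟮t⟯) := Algebra.IsAlgebraic.isAlgebraic _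
  exact (IntermediateField.isAlgebraic_iff (S := K⟮t⟯) (x := ⟨j, hmem⟩)).mp h1

/-- Finiteness passes from `K(j)` to a bigger rational subfield `K(t)`. -/
theorem finiteDimensional_of_mem_adjoin_simple {j t : F} (hmem : j ∈ K⟮t⟯)
    [hfin : FiniteDimensional K⟮j⟯ F] : FiniteDimensional K⟮t⟯ F := by
  have hle : K⟮j⟯ ≤ K⟮t⟯ := adjoin_simple_le_iff.mpr hmem
  let _ : Algebra K⟮j⟯ K⟮t⟯ := (IntermediateField.inclusion hle).toRingHom.toAlgebra
  have : IsScalarTower K⟮j⟯ K⟮t⟯ F := IsScalarTower.of_algebraMap_eq (fun _ => rfl)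
  exact FiniteDimensional.right K⟮j⟯ K⟮t⟯ F

/-- `j ∈ K(t)` from a relation `j * t ^ a = p(t)` with `t ≠ 0`. -/
theorem mem_adjoin_simple_of_mul_pow_eq {j t : F} (ht : t ≠ 0) (a : ℕ) (p : K[X])
    (h : j * t ^ a = aeval t p) : j ∈ K⟮t⟯ := by
  have hta : t ^ a ≠ 0 := pow_ne_zero a ht
  have hj : j = aeval t p / t ^ a := by
    rw [eq_div_iff hta, h]
  rw [hj]
  refine div_mem ?_ (pow_mem (mem_adjoin_simple_self K t) a)
  exact (IntermediateField.algebra_adjoin_le_adjoin K {t}) (aeval_mem_adjoin_singleton K t)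

end Tower

/-- A finite sum of quotients with a common denominator. -/
theorem sum_div_mul_eq_aux {F : Type*} [Field F] {ι : Type*} [Fintype ι] (d : F)
    (_hd : d ≠ 0) (a b : ι → F) : ∑ i, (a i / d) * b i = (∑ i, a i * b i) / d := by
  rw [Finset.sum_div]
  exact Finset.sum_congr rfl fun i _ => by ring

section Gauss

open Fermat.Agent.S18.H93

variable {L : Type*} [Field L] {A : ValuationSubring L}
variable {F : IntermediateField L (LaurentSeries L)}
variable {Fk : IntermediateField (IsLocalRing.ResidueField A)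
  (LaurentSeries (IsLocalRing.ResidueField A))}
variable {J : LaurentSeries A} {n : ℕ} {b : Fin n → LaurentSeries A}

/-- Under Gauss data, `J` is transcendental: nonzero polynomials in `J` do not vanish. -/
theorem evC_ne_zero_of_gaussData (hD : GaussData A F Fk J b) {P : Polynomial L} (hP : P ≠ 0) :
    evC P (iotaA A J) ≠ 0 := by
  obtain ⟨c₁, P', hc₁, hP', hP'res⟩ := exists_scale_poly A (fun _ : Fin 1 => P)
    (by intro h; exact hP (congrFun h 0))
  have hP'res0 : (P' 0).map (IsLocalRing.residue A) ≠ 0 := by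
    obtain ⟨i, hi⟩ := hP'res
    rwa [Subsingleton.elim 0 i]
  have hPser : evC P (iotaA A J) = HahnSeries.C c₁ * iotaA A (evC (P' 0) J) := by
    rw [hP' 0, evC_C_mul, coeffMap_evC]
  have hPred : redA A (evC (P' 0) J) ≠ 0 := by
    rw [coeffMap_evC]
    exact fun h => hP'res0 (hD.trans _ h)
  have hC₁ : (HahnSeries.C c₁ : LaurentSeries L) ≠ 0 := by
    intro h
    exact hc₁ (HahnSeries.C_injective (by rw [h, map_zero]))
  have hιP : iotaA A (evC (P' 0) J) ≠ 0 := by
    intro h
    apply hPred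
    rw [iotaA_injective A (h.trans (map_zero _).symm), map_zero]
  rw [hPser]
  exact mul_ne_zero hC₁ hιP

/-- **Gauss data make `F` finite over `L(J)`.** -/
theorem finiteDimensional_of_gaussData (hD : GaussData A F Fk J b) :
    FiniteDimensional L⟮(⟨iotaA A J, hD.J_mem⟩ : F)⟯ F := by
  classical
  set jF : F := ⟨iotaA A J, hD.J_mem⟩ with hjF
  let bF : Fin n → F := fun i => ⟨iotaA A (b i), hD.b_mem i⟩
  -- polynomials in `J`, as elements of `F`, lie in `L(J)`
  have hcoe : ∀ P : Polynomial L, ((aeval jF P : F) : LaurentSeries L) = evC P (iotaA A J) := by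
    intro P
    rw [evC_eq_aeval]
    exact (Polynomial.aeval_algHom_apply F.val jF P).symm
  have hmem : ∀ P : Polynomial L, aeval jF P ∈ L⟮jF⟯ := fun P =>
    (IntermediateField.algebra_adjoin_le_adjoin L {jF}) (aeval_mem_adjoin_singleton L jF)
  refine Module.finite_def.mpr (Submodule.fg_def.mpr ⟨Set.range bF, Set.finite_range bF, ?_⟩)
  rw [eq_top_iff]
  rintro x -
  obtain ⟨P, Q, hP, hPQ⟩ := hD.span (x : LaurentSeries L) x.2
  have hP0 : aeval jF P ≠ 0 := by
    intro h
    apply evC_ne_zero_of_gaussData hD hP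
    rw [← hcoe, h]
    rfl
  have hx : x = ∑ i, (⟨aeval jF (Q i) / aeval jF P,
      div_mem (hmem (Q i)) (hmem P)⟩ : L⟮jF⟯) • bF i := by
    apply Subtype.ext
    have h1 : aeval jF P * x = ∑ i, aeval jF (Q i) * bF i := by
      apply Subtype.ext
      simp only [MulMemClass.coe_mul, AddSubmonoidClass.coe_finsetSum, hcoe]
      exact hPQ
    have h2 : x = ∑ i, (aeval jF (Q i) / aeval jF P) * bF i := by
      rw [sum_div_mul_eq_aux (aeval jF P) hP0 (fun i => aeval jF (Q i)) bF, ← h1,
        mul_div_cancel_left₀ _ hP0]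
    rw [h2]
    simp only [IntermediateField.smul_def, smul_eq_mul]
  rw [hx]
  exact Submodule.sum_mem _ fun i _ =>
    Submodule.smul_mem _ _ (Submodule.subset_span (Set.mem_range_self i))

end Gauss

section Model

open Fermat.Agent.S18.H93

set_option synthInstance.maxHeartbeats 400000

variable (K₀ : Type*) [Field K₀] (L : ℕ)

/-- **The model is finite over `K₀(j)`.** -/
theorem finiteDimensional_model [CharZero K₀] (A₀ : ValuationSubring K₀)
    (ℓ : ℕ) [Fact ℓ.Prime] [CharP (IsLocalRing.ResidueField A₀) ℓ] [NeZero L] (hℓL : ¬ ℓ ∣ L) :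
    FiniteDimensional K₀⟮jM K₀ L⟯ ↥(modularFunctionFieldFullC K₀ L) := by
  obtain ⟨b, -, hD⟩ := gaussData_full K₀ L A₀ ℓ hℓL
  have h := finiteDimensional_of_gaussData hD
  have e : (⟨iotaA A₀ (jqModC A₀), hD.J_mem⟩ : ↥(modularFunctionFieldFullC K₀ L)) = jM K₀ L :=
    Subtype.ext (coeffMap_jqModC _)
  rwa [e] at h

variable {K₀ L}

/-- A chart parameter `ξ` with `j ∈ K₀(ξ)` is transcendental over `K₀`. -/
theorem transcendental_of_jM_mem {ξ : ↥(modularFunctionFieldFullC K₀ L)}
    (hj : jM K₀ L ∈ K₀⟮ξ⟯) : Transcendental K₀ ξ :=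
  transcendental_of_mem_adjoin_simple (transcendental_jM K₀ L) hj

/-- The model is finite over `K₀(ξ)` for a chart parameter `ξ` with `j ∈ K₀(ξ)`. -/
theorem finiteDimensional_of_jM_mem [CharZero K₀] (A₀ : ValuationSubring K₀)
    (ℓ : ℕ) [Fact ℓ.Prime] [CharP (IsLocalRing.ResidueField A₀) ℓ] [NeZero L] (hℓL : ¬ ℓ ∣ L)
    {ξ : ↥(modularFunctionFieldFullC K₀ L)} (hj : jM K₀ L ∈ K₀⟮ξ⟯) :
    FiniteDimensional K₀⟮ξ⟯ ↥(modularFunctionFieldFullC K₀ L) :=
  haveI := finiteDimensional_model K₀ L A₀ ℓ hℓL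
  finiteDimensional_of_mem_adjoin_simple hj

/-- The same over `K₀(ξ⁻¹)`. -/
theorem finiteDimensional_inv_of_jM_mem [CharZero K₀] (A₀ : ValuationSubring K₀)
    (ℓ : ℕ) [Fact ℓ.Prime] [CharP (IsLocalRing.ResidueField A₀) ℓ] [NeZero L] (hℓL : ¬ ℓ ∣ L)
    {ξ : ↥(modularFunctionFieldFullC K₀ L)} (hj : jM K₀ L ∈ K₀⟮ξ⟯) :
    FiniteDimensional K₀⟮ξ⁻¹⟯ ↥(modularFunctionFieldFullC K₀ L) :=
  haveI := finiteDimensional_of_jM_mem A₀ ℓ hℓL hj
  finiteDimensional_adjoin_inv (K := K₀) ξ

/-- Level-2 Hauptmodul relation `j t² = (t + 256)³` puts `j` in `K₀(t)`. -/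
theorem jM_mem_adjoin_of_rel_two {t : ↥(modularFunctionFieldFullC K₀ L)} (ht : t ≠ 0)
    (hrel : jM K₀ L * t ^ 2 = (t + 256) ^ 3) : jM K₀ L ∈ K₀⟮t⟯ := by
  refine mem_adjoin_simple_of_mul_pow_eq ht 2 ((X + 256) ^ 3) ?_
  rw [hrel]
  simp only [map_pow, map_add, aeval_X, map_ofNat]

/-- Level-3 Hauptmodul relation `j t³ = (t + 27)(t + 243)³` puts `j` in `K₀(t)`. -/
theorem jM_mem_adjoin_of_rel_three {t : ↥(modularFunctionFieldFullC K₀ L)} (ht : t ≠ 0)
    (hrel : jM K₀ L * t ^ 3 = (t + 27) * (t + 243) ^ 3) : jM K₀ L ∈ K₀⟮t⟯ := by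
  refine mem_adjoin_simple_of_mul_pow_eq ht 3 ((X + 27) * (X + 243) ^ 3) ?_
  rw [hrel]
  simp only [map_pow, map_add, map_mul, aeval_X, map_ofNat]

/-- Relations between subtype elements from relations between the underlying series. -/
theorem subtype_rel_two {t : LaurentSeries K₀} (ht : t ∈ modularFunctionFieldFullC K₀ L)
    (hrel : jqModC K₀ * t ^ 2 = (t + 256) ^ 3) :
    jM K₀ L * (⟨t, ht⟩ : ↥(modularFunctionFieldFullC K₀ L)) ^ 2 =
      ((⟨t, ht⟩ : ↥(modularFunctionFieldFullC K₀ L)) + 256) ^ 3 :=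
  Subtype.ext hrel

theorem subtype_rel_three {t : LaurentSeries K₀} (ht : t ∈ modularFunctionFieldFullC K₀ L)
    (hrel : jqModC K₀ * t ^ 3 = (t + 27) * (t + 243) ^ 3) :
    jM K₀ L * (⟨t, ht⟩ : ↥(modularFunctionFieldFullC K₀ L)) ^ 3 =
      ((⟨t, ht⟩ : ↥(modularFunctionFieldFullC K₀ L)) + 27) *
        ((⟨t, ht⟩ : ↥(modularFunctionFieldFullC K₀ L)) + 243) ^ 3 :=
  Subtype.ext hrel

end Model

end Fermat.Agent.S18.H97
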