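/-
S18, TOP support (helper74): the model Kummer statement for a GENERIC number field `K0`
(a type with `[Field K0] [NumberField K0] [Algebra K0 Qbar]`), and the transfer to helper60's
`ModelKum` (stated for `K0 : IntermediateField ℚ Qbar`).

Reason: instance search over `↥K0` for `K0 : IntermediateField ℚ Qbar` is very slow
(`Algebra ↥A0 ↥F0`, `IsScalarTower ↥A0 ↥K0 ↥F0`, ... hit the default heartbeat limits), whereas
for a generic field the same goals are found at once.  The model-level instantiation can be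
written for a generic `K0` and transferred by `modelKum_of_gen` / `modelKumStmt_of_gen`.
-/
import Mathlib
import Fermat.Agent.S18.ModelArrow_helper60
import Fermat.Agent.S18.DvrK0_helper86

set_option autoImplicit false

open ModularCurve AlgebraicCurve IntermediateField

namespace Fermat.Agent.S18.H74

noncomputable section

/-- **(MODEL-KUM), generic base field.**  Same statement as `H60.ModelKum`, for any field `K0`
with an algebra map to `Qbar`; the DVR is `A0 = A.comap (algebraMap K0 Qbar)`. -/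
def ModelKumGen (A : ValuationSubring (AlgebraicClosure ℚ))
    (K0 : Type) [Field K0] [Algebra K0 (AlgebraicClosure ℚ)] (L : ℕ) [NeZero L] (m : ℕ) : Prop :=
  ∀ (Z1 Z2 : LaurentSeries ↥(A.comap (algebraMap K0 (AlgebraicClosure ℚ))))
    (h1 : coeffMap (A.comap (algebraMap K0 (AlgebraicClosure ℚ))).subtype Z1 ∈
      modularFunctionFieldFullC K0 L)
    (h2 : coeffMap (A.comap (algebraMap K0 (AlgebraicClosure ℚ))).subtype Z2 ∈
      modularFunctionFieldFullC K0 L),
    coeffMap (IsLocalRing.residue ↥(A.comap (algebraMap K0 (AlgebraicClosure ℚ)))) Z1 ≠ 0 →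
    coeffMap (IsLocalRing.residue ↥(A.comap (algebraMap K0 (AlgebraicClosure ℚ)))) Z1 =
      coeffMap (IsLocalRing.residue ↥(A.comap (algebraMap K0 (AlgebraicClosure ℚ)))) Z2 →
    (∀ P : Place (AlgebraicClosure ℚ) (modularFunctionFieldBar L),
      (m : ℤ) ∣ P.ord (H74.toBar K0 L
        ((⟨_, h1⟩ : modularFunctionFieldFullC K0 L) / ⟨_, h2⟩))) →
    ∃ b s : LaurentSeries K0, s ∈ modularFunctionFieldFullC K0 L ∧ IsAlgebraic K0 b ∧
      coeffMap (A.comap (algebraMap K0 (AlgebraicClosure ℚ))).subtype Z1 =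
        b * s ^ m * coeffMap (A.comap (algebraMap K0 (AlgebraicClosure ℚ))).subtype Z2

/-- transfer to the `IntermediateField` form -/
theorem modelKum_of_gen (A : ValuationSubring (AlgebraicClosure ℚ))
    (K0 : IntermediateField ℚ (AlgebraicClosure ℚ)) (L : ℕ) [NeZero L] (m : ℕ)
    (h : ModelKumGen A ↥K0 L m) : H60.ModelKum A K0 L m := h

/-- **(MODEL-KUM), all data, generic number field**: for every level `L` prime to `ℓ` and
divisible by `auxM ℓ`, every `A` over `ℓ` and every `m` prime to `ℓ`, the generic model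
statement holds over every number field `K0` (with a chosen embedding into `Qbar`) whose image
contains some finite set of constants. -/
def ModelKumGenStmt : Prop :=
  ∀ (L : ℕ) [NeZero L] (ℓ : ℕ) [Fact ℓ.Prime], ¬ ℓ ∣ L → H16.auxM ℓ ∣ L →
    ∀ A : ValuationSubring (AlgebraicClosure ℚ), A.LiesOverPrime ℓ →
      ∀ m : ℕ, ¬ ℓ ∣ m → ∃ C : Finset (AlgebraicClosure ℚ),
        ∀ (K0 : Type) [Field K0] [NumberField K0] [Algebra K0 (AlgebraicClosure ℚ)],
          (∀ c ∈ C, c ∈ Set.range (algebraMap K0 (AlgebraicClosure ℚ))) → ModelKumGen A K0 L m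

theorem modelKumStmt_of_gen (hM : ModelKumGenStmt) : H60.ModelKumStmt := by
  intro L _ ℓ _ hℓL haux A hA m hm
  obtain ⟨C, hC⟩ := hM L ℓ hℓL haux A hA m hm
  refine ⟨C, fun K0 hfin hCK => ?_⟩
  haveI := hfin
  haveI : NumberField ↥K0 := H86.numberField_of_finiteDimensional K0
  exact modelKum_of_gen A K0 L m (hC ↥K0 (fun c hc => ⟨⟨c, hCK c hc⟩, rfl⟩))

/-- **The frozen statement S18 from `ModelKumGenStmt`** (literal frozen signature). -/
theorem result_of_modelKumGenStmt (hM : ModelKumGenStmt) (N : ℕ) [NeZero N] {ℓ : ℕ}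
    [Fact ℓ.Prime] (hℓN : ¬ ℓ ∣ N) (A : ValuationSubring (AlgebraicClosure ℚ))
    (hA : A.LiesOverPrime ℓ)
    (h : ModularCurve.ReductionInputsModL A N) (m : ℕ) (hm : ¬ ℓ ∣ m) (z : ModularCurve.JZero N)
    (hmz : m • z = 0) (hz : ModularCurve.reductionModL A N z = 0) :
    z = 0 :=
  H60.result_of_modelKumStmt (modelKumStmt_of_gen hM) N hℓN A hA h m hm z hmz hz

end

end Fermat.Agent.S18.H74
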