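import Mathlib
import Fermat.Agent.S18.ModelGen_helper74
import Fermat.Agent.S18.ModelDiv_helper74
import Fermat.Agent.S18.KCCharts_helper97
import Fermat.Agent.S18.GaussFull_helper93
import Fermat.Agent.S18.NoPole_helper32
import Fermat.Agent.S18.DvrK0_helper86
import Fermat.Agent.S18.ValRing_helper86
import Fermat.Agent.S18.ModelKC_helper60
import Fermat.Agent.S18.ModelFin_helper97
import Fermat.Agent.S18.DvrK0_helper53

/-!
# S18, arrow T4 (helper60): the model Kummer statement from a chart coordinate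

Generic base field `K0` (a type), `A0` a discrete valuation subring with residue characteristic
`ℓ ∤ L`, `F0 = modularFunctionFieldFullC K0 L`, `V` the Gauss valuation ring `H93.gaussWFull`.
For a chart coordinate `x ∈ F0` with integral expansions of `x` and `x⁻¹` whose reductions are
transcendental, `j ∈ K0(x)`, `F0` finite over `K0(x)`, and regular special fibres of the two
charts `H97.chartU A0 x`, `H97.chartV A0 x`:

* `kum_of_chart` : the Kummer statement for one pair `(Z1, Z2)` (abstract `(K0, A0)`);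
* `modelKumGen_of_chart` : `H74.ModelKumGen A K0 L m` for a number field `K0` with an embedding
  into `ℚ̄` and `A0 = A ∩ K0`.
-/

set_option autoImplicit false
set_option linter.style.haveILetI false

open ModularCurve AlgebraicCurve IntermediateField Polynomial

namespace Fermat.Agent.S18.H60

noncomputable section

section Bridges

variable {K0 : Type} [Field K0] (A0 : ValuationSubring K0)
variable {F : IntermediateField K0 (LaurentSeries K0)}

/-- the two descriptions of the structure map `A0 → F` agree. -/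
theorem constHom_eq_algebraMap (a : A0) : H93.constHom A0 F a = algebraMap A0 F a := rfl

/-- the chart homomorphism is evaluation. -/
theorem chartHom_eq_aeval' (x : F) (P : A0[X]) : H93.chartHom A0 x P = aeval x P := by
  unfold H93.chartHom
  rw [Polynomial.coe_eval₂RingHom, Polynomial.aeval_def]
  rfl

/-- integrality over the chart homomorphism is membership in the chart. -/
theorem isIntegralElem_chartHom_iff (x y : F) :
    (H93.chartHom A0 x).IsIntegralElem y ↔ y ∈ H97.chartU A0 x := by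
  rw [H97.mem_chartU]
  constructor
  · rintro ⟨p, hp, hpy⟩
    have hmem : ∀ P : A0[X], H93.chartHom A0 x P ∈ Algebra.adjoin (↥A0) {x} := by
      intro P
      rw [chartHom_eq_aeval', Algebra.adjoin_singleton_eq_range_aeval]
      exact ⟨P, rfl⟩
    let φ : A0[X] →+* ↥(Algebra.adjoin (↥A0) {x}) :=
      (H93.chartHom A0 x).codRestrict (Algebra.adjoin (↥A0) {x}).toSubring hmem
    refine ⟨p.map φ, hp.map φ, ?_⟩
    rw [Polynomial.eval₂_map]
    exact hpy
  · rintro ⟨p, hp, hpy⟩
    have hex : ∀ r : ↥(Algebra.adjoin (↥A0) {x}), ∃ P : A0[X], H93.chartHom A0 x P = r := by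
      intro r
      have h1 : (r : F) ∈ (aeval x : A0[X] →ₐ[A0] F).range := by
        rw [← Algebra.adjoin_singleton_eq_range_aeval]
        exact r.2
      obtain ⟨P, hP⟩ := h1
      exact ⟨P, by rw [chartHom_eq_aeval']; exact hP⟩
    choose g hg using hex
    -- lift the coefficients
    classical
    let q : A0[X][X] := ∑ i ∈ Finset.range p.natDegree, Polynomial.C (g (p.coeff i)) * Polynomial.X ^ i
      + Polynomial.X ^ p.natDegree
    have hqdeg : (∑ i ∈ Finset.range p.natDegree,
        Polynomial.C (g (p.coeff i)) * (Polynomial.X : A0[X][X]) ^ i).degree <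
          ((Polynomial.X : A0[X][X]) ^ p.natDegree).degree := by
      rw [Polynomial.degree_X_pow]
      refine (Polynomial.degree_sum_le _ _).trans_lt ?_
      rw [Finset.sup_lt_iff (WithBot.bot_lt_coe _)]
      intro i hi
      refine (Polynomial.degree_C_mul_X_pow_le i _).trans_lt ?_
      exact_mod_cast Finset.mem_range.mp hi
    refine ⟨q, ?_, ?_⟩
    · show (∑ i ∈ Finset.range p.natDegree,
        Polynomial.C (g (p.coeff i)) * (Polynomial.X : A0[X][X]) ^ i
          + Polynomial.X ^ p.natDegree).Monic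
      rw [add_comm]
      exact (Polynomial.monic_X_pow _).add_of_left hqdeg
    · show Polynomial.eval₂ (H93.chartHom A0 x) y q = 0
      simp only [q, Polynomial.eval₂_add, Polynomial.eval₂_finsetSum, Polynomial.eval₂_mul,
        Polynomial.eval₂_C, Polynomial.eval₂_pow, Polynomial.eval₂_X, hg]
      have h2 := hpy
      rw [Polynomial.eval₂_eq_sum_range, Finset.sum_range_succ, hp.coeff_natDegree, map_one,
        one_mul] at h2
      exact h2

end Bridges

/-- The algebra structure of the model field over a valuation subring of the constants: a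
shortcut for the instance found by type-class search (`Algebra.ofSubsemiring`), to which it is
reducibly equal. -/
@[reducible] def algValSubModel (K0 : Type) [Field K0] (A0 : ValuationSubring K0) (L : ℕ) :
    Algebra ↥A0 ↥(modularFunctionFieldFullC K0 L) :=
  Algebra.ofSubsemiring A0

attribute [local instance 2000] algValSubModel

section Chart

variable (K0 : Type) [Field K0] [CharZero K0] (A0 : ValuationSubring K0)
  [IsDiscreteValuationRing A0] (ℓ : ℕ) [Fact ℓ.Prime] [CharP (IsLocalRing.ResidueField A0) ℓ]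
  (L : ℕ) [NeZero L] (hℓL : ¬ ℓ ∣ L)

include hℓL in
/-- **Arrow T4, abstract model.**  The Kummer statement for one pair `(Z1, Z2)` over an abstract
discretely valued field `(K0, A0)` from a chart coordinate `x`. -/
theorem kum_of_chart (hKC : H63.StmtKC) {π : A0} (hπ : Irreducible π) (m : ℕ)
    (hm : IsUnit ((m : ℕ) : A0))
    (x : ↥(modularFunctionFieldFullC K0 L)) (xA xA' : LaurentSeries A0)
    (hxA : (x : LaurentSeries K0) = H93.iotaA A0 xA)
    (hxA' : ((x⁻¹ : ↥(modularFunctionFieldFullC K0 L)) : LaurentSeries K0) = H93.iotaA A0 xA')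
    (hxtr : Transcendental (IsLocalRing.ResidueField A0) (H93.redA A0 xA))
    (hxtr' : Transcendental (IsLocalRing.ResidueField A0) (H93.redA A0 xA'))
    (hJx : H93.jFullC K0 L ∈ IntermediateField.adjoin K0 {x})
    (hx : Transcendental K0 x)
    [FiniteDimensional (IntermediateField.adjoin K0 {x}) ↥(modularFunctionFieldFullC K0 L)]
    (hregU : ∀ n : Ideal (H97.chartU A0 x), n.IsMaximal →
      algebraMap A0 (H97.chartU A0 x) π ∈ n →
      ∃ τ ∈ n, ∀ a : H97.chartU A0 x, a ∉ Ideal.span {algebraMap A0 (H97.chartU A0 x) π} →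
        ∃ (e : ℕ) (d u : H97.chartU A0 x), d ∉ n ∧ u ∉ n ∧
          a * d - u * τ ^ e ∈ Ideal.span {algebraMap A0 (H97.chartU A0 x) π})
    (hregV : ∀ n : Ideal (H97.chartV A0 x), n.IsMaximal →
      algebraMap A0 (H97.chartV A0 x) π ∈ n →
      ∃ τ ∈ n, ∀ a : H97.chartV A0 x, a ∉ Ideal.span {algebraMap A0 (H97.chartV A0 x) π} →
        ∃ (e : ℕ) (d u : H97.chartV A0 x), d ∉ n ∧ u ∉ n ∧
          a * d - u * τ ^ e ∈ Ideal.span {algebraMap A0 (H97.chartV A0 x) π})
    (Z1 Z2 : LaurentSeries A0)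
    (h1 : coeffMap A0.subtype Z1 ∈ modularFunctionFieldFullC K0 L)
    (h2 : coeffMap A0.subtype Z2 ∈ modularFunctionFieldFullC K0 L)
    (hne : coeffMap (IsLocalRing.residue A0) Z1 ≠ 0)
    (heq : coeffMap (IsLocalRing.residue A0) Z1 = coeffMap (IsLocalRing.residue A0) Z2)
    (hdiv : ∀ O : ValuationSubring ↥(modularFunctionFieldFullC K0 L),
      (∀ a : A0, algebraMap A0 ↥(modularFunctionFieldFullC K0 L) a ∈ O) →
      (∀ a : A0, a ≠ 0 → (algebraMap A0 ↥(modularFunctionFieldFullC K0 L) a)⁻¹ ∈ O) →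
      ∃ g : ↥(modularFunctionFieldFullC K0 L), g ≠ 0 ∧
        ((⟨_, h1⟩ : modularFunctionFieldFullC K0 L) / ⟨_, h2⟩) / g ^ m ∈ O ∧
        g ^ m / ((⟨_, h1⟩ : modularFunctionFieldFullC K0 L) / ⟨_, h2⟩) ∈ O) :
    ∃ b s : LaurentSeries K0, s ∈ modularFunctionFieldFullC K0 L ∧ IsAlgebraic K0 b ∧
      coeffMap A0.subtype Z1 = b * s ^ m * coeffMap A0.subtype Z2 := by
  have htower : IsScalarTower A0 K0 ↥(modularFunctionFieldFullC K0 L) :=
    IsScalarTower.of_algebraMap_eq fun _ => rfl
  -- the Gauss valuation ring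
  set V : ValuationSubring ↥(modularFunctionFieldFullC K0 L) := H93.gaussWFull K0 L A0 ℓ hℓL
    with hV
  have hAV : ∀ a : A0, algebraMap A0 ↥(modularFunctionFieldFullC K0 L) a ∈ V := fun a =>
    H93.constHom_mem_gaussW (H93.fullData K0 L A0 ℓ hℓL) a
  have hxV : x ∈ V := by
    rw [hV, H93.mem_gaussWFull_iff]
    exact ⟨xA, 1, by rw [map_one]; exact one_ne_zero, by rw [map_one, mul_one, hxA]⟩
  have hxV' : x⁻¹ ∈ V := by
    rw [hV, H93.mem_gaussWFull_iff]
    exact ⟨xA', 1, by rw [map_one]; exact one_ne_zero, by rw [map_one, mul_one, hxA']⟩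
  have hπV : algebraMap A0 ↥(modularFunctionFieldFullC K0 L) π ∈ V.nonunits :=
    H93.constHom_mem_nonunits_full K0 L A0 ℓ hℓL hπ
  have hVπ : ∀ y ∈ V.nonunits, ∃ z ∈ V,
      y = algebraMap A0 ↥(modularFunctionFieldFullC K0 L) π * z := fun y hy =>
    H93.exists_eq_mul_of_mem_nonunits_full K0 L A0 ℓ hℓL hπ y hy
  have hJx' : H93.jFullC K0 L ∈ IntermediateField.adjoin K0 {x⁻¹} :=
    H93.mem_adjoin_inv_of_mem_adjoin hJx
  have hsatU : ∀ b ∈ H97.chartU A0 x,
      (∃ y ∈ V, b = algebraMap A0 ↥(modularFunctionFieldFullC K0 L) π * y) →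
      ∃ c ∈ H97.chartU A0 x, b = algebraMap A0 ↥(modularFunctionFieldFullC K0 L) π * c := by
    rintro b hb ⟨y, hy, e⟩
    have h := (H93.gauss_chart_full K0 L A0 ℓ hℓL hπ x xA hxA hxtr hJx b
      ((isIntegralElem_chartHom_iff A0 x b).mpr hb)).2 y hy e
    exact ⟨y, (isIntegralElem_chartHom_iff A0 x y).mp h, e⟩
  have hsatV : ∀ b ∈ H97.chartV A0 x,
      (∃ y ∈ V, b = algebraMap A0 ↥(modularFunctionFieldFullC K0 L) π * y) →
      ∃ c ∈ H97.chartV A0 x, b = algebraMap A0 ↥(modularFunctionFieldFullC K0 L) π * c := by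
    rintro b hb ⟨y, hy, e⟩
    have h := (H93.gauss_chart_full K0 L A0 ℓ hℓL hπ x⁻¹ xA' hxA' hxtr' hJx' b
      ((isIntegralElem_chartHom_iff A0 x⁻¹ b).mpr hb)).2 y hy e
    exact ⟨y, (isIntegralElem_chartHom_iff A0 x⁻¹ y).mp h, e⟩
  -- the function `f`
  have hinjι : Function.Injective (coeffMap A0.subtype :
      LaurentSeries A0 → LaurentSeries K0) := H93.iotaA_injective A0
  have hne2 : coeffMap (IsLocalRing.residue A0) Z2 ≠ 0 := by rw [← heq]; exact hne
  have hZ1 : coeffMap A0.subtype Z1 ≠ 0 := by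
    intro h0
    have : Z1 = 0 := hinjι (by rw [h0, map_zero])
    rw [this, map_zero] at hne
    exact hne rfl
  have hZ2 : coeffMap A0.subtype Z2 ≠ 0 := by
    intro h0
    have : Z2 = 0 := hinjι (by rw [h0, map_zero])
    rw [this, map_zero] at hne2
    exact hne2 rfl
  have hZ1' : (⟨_, h1⟩ : modularFunctionFieldFullC K0 L) ≠ 0 := fun h0 =>
    hZ1 (congrArg Subtype.val h0)
  have hZ2' : (⟨_, h2⟩ : modularFunctionFieldFullC K0 L) ≠ 0 := fun h0 =>
    hZ2 (congrArg Subtype.val h0)
  have hπF : algebraMap A0 ↥(modularFunctionFieldFullC K0 L) π ≠ 0 := by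
    intro h0
    have h3 : ((π : A0) : K0) = 0 := by
      have h4 := congrArg Subtype.val h0
      exact (algebraMap K0 (LaurentSeries K0)).injective (by rw [map_zero]; exact h4)
    exact hπ.ne_zero (Subtype.ext h3)
  -- `Z1 - Z2 = C π * W'`
  obtain ⟨W', hW'⟩ := exists_C_mul_of_forall_dvd π (Z1 - Z2) (fun k => by
    have h0 : coeffMap (IsLocalRing.residue A0) (Z1 - Z2) = 0 := by
      rw [map_sub, heq, sub_self]
    have h3 : IsLocalRing.residue A0 ((Z1 - Z2).coeff k) = 0 := by
      have := congrArg (fun s => s.coeff k) h0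
      simpa using this
    have h4 : (Z1 - Z2).coeff k ∈ IsLocalRing.maximalIdeal A0 :=
      (IsLocalRing.residue_eq_zero_iff _).mp h3
    rw [hπ.maximalIdeal_eq, Ideal.mem_span_singleton] at h4
    exact h4)
  have hCπ : coeffMap A0.subtype (HahnSeries.C π : LaurentSeries A0) =
      ((algebraMap A0 ↥(modularFunctionFieldFullC K0 L) π :
        ↥(modularFunctionFieldFullC K0 L)) : LaurentSeries K0) :=
    (H93.coe_constHom (F := modularFunctionFieldFullC K0 L) π).symm
  have hrel : coeffMap A0.subtype Z1 - coeffMap A0.subtype Z2 =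
      ((algebraMap A0 ↥(modularFunctionFieldFullC K0 L) π :
        ↥(modularFunctionFieldFullC K0 L)) : LaurentSeries K0) * coeffMap A0.subtype W' := by
    rw [← map_sub, hW', map_mul, hCπ]
  have hW'F : coeffMap A0.subtype W' ∈ modularFunctionFieldFullC K0 L := by
    have hπ0 : ((algebraMap A0 ↥(modularFunctionFieldFullC K0 L) π :
        ↥(modularFunctionFieldFullC K0 L)) : LaurentSeries K0) ≠ 0 := fun h0 =>
      hπF (Subtype.ext h0)
    have e : coeffMap A0.subtype W' =
        (coeffMap A0.subtype Z1 - coeffMap A0.subtype Z2) /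
          ((algebraMap A0 ↥(modularFunctionFieldFullC K0 L) π :
            ↥(modularFunctionFieldFullC K0 L)) : LaurentSeries K0) := by
      rw [hrel, mul_div_cancel_left₀ _ hπ0]
    rw [e]
    exact div_mem (sub_mem h1 h2) (SetLike.coe_mem _)
  have hyV : ((⟨_, hW'F⟩ : modularFunctionFieldFullC K0 L) / ⟨_, h2⟩) ∈ V := by
    rw [hV, H93.mem_gaussWFull_iff]
    refine ⟨W', Z2, hne2, ?_⟩
    show (coeffMap A0.subtype W' / coeffMap A0.subtype Z2) * coeffMap A0.subtype Z2 = _
    rw [div_mul_cancel₀ _ hZ2]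
  have hrel' : (⟨_, h1⟩ : modularFunctionFieldFullC K0 L) - ⟨_, h2⟩ =
      algebraMap A0 ↥(modularFunctionFieldFullC K0 L) π * ⟨_, hW'F⟩ :=
    Subtype.ext hrel
  obtain ⟨f, hf⟩ : ∃ f : ↥(modularFunctionFieldFullC K0 L),
      f = (⟨_, h1⟩ : modularFunctionFieldFullC K0 L) / ⟨_, h2⟩ := ⟨_, rfl⟩
  rw [← hf] at hdiv
  have hf1 : ∃ y ∈ V, f - 1 = algebraMap A0 ↥(modularFunctionFieldFullC K0 L) π * y := by
    refine ⟨_, hyV, ?_⟩
    rw [hf, ← mul_div_assoc, ← hrel', sub_div, div_self hZ2']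
  obtain ⟨σ, γ, hσ0, hγ0, hγU, hγV, hσγ⟩ := H97.kc_charts hKC (K := K0) π hπ m hm x hx V hAV hxV
    hxV' hπV hVπ hsatU hsatV hregU hregV f hf1 hdiv
  obtain ⟨c, -, hc⟩ := H32.nopole_valuationSubring A0 (modularFunctionFieldFullC K0 L) x γ
    (H97.mem_chartU.mp hγU) (H97.mem_chartV.mp hγV)
  refine ⟨((γ⁻¹ : ↥(modularFunctionFieldFullC K0 L)) : LaurentSeries K0), σ, σ.2, ?_, ?_⟩
  · have h3 : IsAlgebraic K0 ((γ : ↥(modularFunctionFieldFullC K0 L)) : LaurentSeries K0) := by
      rw [hc]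
      exact isAlgebraic_algebraMap c
    exact h3.inv
  · have e1 : (⟨_, h1⟩ : modularFunctionFieldFullC K0 L) = γ⁻¹ * σ ^ m * ⟨_, h2⟩ := by
      rw [hσγ, hf, mul_comm γ⁻¹, mul_assoc (_ / _), mul_inv_cancel₀ hγ0, mul_one,
        div_mul_cancel₀ _ hZ2']
    exact congrArg Subtype.val e1

end Chart

section Gen

variable (A : ValuationSubring (AlgebraicClosure ℚ)) {ℓ : ℕ} [Fact ℓ.Prime]
  (K0 : Type) [Field K0] [NumberField K0] [Algebra K0 (AlgebraicClosure ℚ)]
  (L : ℕ) [NeZero L]

/-- **Arrow T4, generic number field.**  `H74.ModelKumGen A K0 L m` from a chart coordinate `x`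
of the `K0`-model: integral expansions of `x` and `x⁻¹` over `A0 = A ∩ K0` with transcendental
reductions, `j ∈ K0(x)`, and regular special fibres of the two charts (for every uniformiser
`π` of `A0`). -/
theorem modelKumGen_of_chart (hKC : H63.StmtKC) (hA : A.LiesOverPrime ℓ) (hℓL : ¬ ℓ ∣ L)
    (m : ℕ) (hm : ¬ ℓ ∣ m)
    (x : ↥(modularFunctionFieldFullC K0 L))
    (xA xA' : LaurentSeries ↥(A.comap (algebraMap K0 (AlgebraicClosure ℚ))))
    (hxA : (x : LaurentSeries K0) = H93.iotaA (A.comap (algebraMap K0 (AlgebraicClosure ℚ))) xA)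
    (hxA' : ((x⁻¹ : ↥(modularFunctionFieldFullC K0 L)) : LaurentSeries K0) =
      H93.iotaA (A.comap (algebraMap K0 (AlgebraicClosure ℚ))) xA')
    (hxtr : Transcendental
      (IsLocalRing.ResidueField ↥(A.comap (algebraMap K0 (AlgebraicClosure ℚ))))
      (H93.redA (A.comap (algebraMap K0 (AlgebraicClosure ℚ))) xA))
    (hxtr' : Transcendental
      (IsLocalRing.ResidueField ↥(A.comap (algebraMap K0 (AlgebraicClosure ℚ))))
      (H93.redA (A.comap (algebraMap K0 (AlgebraicClosure ℚ))) xA'))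
    (hJx : H93.jFullC K0 L ∈ IntermediateField.adjoin K0 {x})
    (hregU : ∀ π : ↥(A.comap (algebraMap K0 (AlgebraicClosure ℚ))), Irreducible π →
      ∀ n : Ideal (H97.chartU (A.comap (algebraMap K0 (AlgebraicClosure ℚ))) x), n.IsMaximal →
      algebraMap _ (H97.chartU (A.comap (algebraMap K0 (AlgebraicClosure ℚ))) x) π ∈ n →
      ∃ τ ∈ n, ∀ a : H97.chartU (A.comap (algebraMap K0 (AlgebraicClosure ℚ))) x,
        a ∉ Ideal.span
          {algebraMap _ (H97.chartU (A.comap (algebraMap K0 (AlgebraicClosure ℚ))) x) π} →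
        ∃ (e : ℕ) (d u : H97.chartU (A.comap (algebraMap K0 (AlgebraicClosure ℚ))) x),
          d ∉ n ∧ u ∉ n ∧ a * d - u * τ ^ e ∈ Ideal.span
            {algebraMap _ (H97.chartU (A.comap (algebraMap K0 (AlgebraicClosure ℚ))) x) π})
    (hregV : ∀ π : ↥(A.comap (algebraMap K0 (AlgebraicClosure ℚ))), Irreducible π →
      ∀ n : Ideal (H97.chartV (A.comap (algebraMap K0 (AlgebraicClosure ℚ))) x), n.IsMaximal →
      algebraMap _ (H97.chartV (A.comap (algebraMap K0 (AlgebraicClosure ℚ))) x) π ∈ n →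
      ∃ τ ∈ n, ∀ a : H97.chartV (A.comap (algebraMap K0 (AlgebraicClosure ℚ))) x,
        a ∉ Ideal.span
          {algebraMap _ (H97.chartV (A.comap (algebraMap K0 (AlgebraicClosure ℚ))) x) π} →
        ∃ (e : ℕ) (d u : H97.chartV (A.comap (algebraMap K0 (AlgebraicClosure ℚ))) x),
          d ∉ n ∧ u ∉ n ∧ a * d - u * τ ^ e ∈ Ideal.span
            {algebraMap _ (H97.chartV (A.comap (algebraMap K0 (AlgebraicClosure ℚ))) x) π}) :
    H74.ModelKumGen A K0 L m := by
  have hℓ : ℓ.Prime := Fact.out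
  have hA0 : (A.comap (algebraMap K0 (AlgebraicClosure ℚ))).LiesOverPrime ℓ :=
    H53.liesOverPrime_comap (K := K0) A hA
  haveI : IsDiscreteValuationRing ↥(A.comap (algebraMap K0 (AlgebraicClosure ℚ))) :=
    H86.isDiscreteValuationRing_of_liesOverPrime _ hℓ hA0
  haveI : CharP (IsLocalRing.ResidueField ↥(A.comap (algebraMap K0 (AlgebraicClosure ℚ)))) ℓ :=
    H86.charP_residueField _ hA0 hℓ
  haveI : Algebra.IsAlgebraic ℚ (AlgebraicClosure ℚ) := AlgebraicClosure.isAlgebraic ℚ
  haveI : Algebra.IsAlgebraic K0 (AlgebraicClosure ℚ) :=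
    Algebra.IsAlgebraic.tower_top (K := ℚ) K0
  have hmU : IsUnit ((m : ℕ) : ↥(A.comap (algebraMap K0 (AlgebraicClosure ℚ)))) :=
    H86.isUnit_natCast _ hA0 hℓ hm
  obtain ⟨π, hπ⟩ := IsDiscreteValuationRing.exists_irreducible
    ↥(A.comap (algebraMap K0 (AlgebraicClosure ℚ)))
  have hJM : H97.jM K0 L ∈ IntermediateField.adjoin K0 {x} := hJx
  have hxT : Transcendental K0 x := H97.transcendental_of_jM_mem hJM
  haveI : FiniteDimensional (IntermediateField.adjoin K0 {x})
      ↥(modularFunctionFieldFullC K0 L) :=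
    H97.finiteDimensional_of_jM_mem (A.comap (algebraMap K0 (AlgebraicClosure ℚ))) ℓ hℓL hJM
  intro Z1 Z2 h1 h2 hne heq hdvd
  have hinjι : Function.Injective
      (coeffMap (A.comap (algebraMap K0 (AlgebraicClosure ℚ))).subtype :
        LaurentSeries ↥(A.comap (algebraMap K0 (AlgebraicClosure ℚ))) → LaurentSeries K0) :=
    H93.iotaA_injective _
  have hZ1 : coeffMap (A.comap (algebraMap K0 (AlgebraicClosure ℚ))).subtype Z1 ≠ 0 := by
    intro h0
    have : Z1 = 0 := hinjι (by rw [h0, map_zero])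
    rw [this, map_zero] at hne
    exact hne rfl
  have hZ2 : coeffMap (A.comap (algebraMap K0 (AlgebraicClosure ℚ))).subtype Z2 ≠ 0 := by
    intro h0
    have : Z2 = 0 := hinjι (by rw [h0, map_zero])
    rw [this, map_zero] at heq
    exact hne heq
  have hf0 : ((⟨_, h1⟩ : modularFunctionFieldFullC K0 L) / ⟨_, h2⟩) ≠ 0 :=
    div_ne_zero (fun h0 => hZ1 (congrArg Subtype.val h0))
      (fun h0 => hZ2 (congrArg Subtype.val h0))
  exact kum_of_chart K0 (A.comap (algebraMap K0 (AlgebraicClosure ℚ))) ℓ L hℓL hKC hπ m hmU x xA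
    xA' hxA hxA' hxtr hxtr' hJx hxT (hregU π hπ) (hregV π hπ) Z1 Z2 h1 h2 hne heq
    (H74.hdiv_model_valuationSubring K0 L (A.comap (algebraMap K0 (AlgebraicClosure ℚ))) m _
      hf0 hdvd)

end Gen

end

end Fermat.Agent.S18.H60
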