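import Mathlib
import Fermat.Agent.S18.ModelKC_helper60
import Fermat.Agent.S18.KCCharts_helper97
import Fermat.Agent.S18.GaussFullIs_helper93
import Fermat.Agent.S18.NoPole_helper32
import Fermat.Agent.S18.DvrK0_helper86

/-!
# S18 (helper35): chart data of the model from the landed nodes, `(REG)` as a hypothesis

* `kcData_charts` : the `f`-independent hypotheses `H60.KCData` of the generic Kummer core at the
  integral-closure charts `H97.chartU A x`, `H97.chartV A x` (generic; same hypotheses as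
  `H97.kc_charts`).
* `chartData_gen` : for a field `K0` of characteristic zero with a discrete valuation subring
  `A0` of residue characteristic `ℓ ∤ L`, the Gauss valuation ring `V = H93.gaussWFull` of the
  model field `F0 = K0(j(q^d) : d ∣ L)` and a chart coordinate `x` (with integral expansions of
  `x` and `x⁻¹`, transcendental reductions, `j ∈ K0(x)`): the `KCData` for
  `(A0, F0, π, V, chartU x, chartV x, x)` and the three model clauses of `H60.ModelCharts`,
  from the two `(REG)` hypotheses.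
* `modelCharts_of_coord` : the same for `K0 : IntermediateField ℚ ℚ̄`, `A0 = A ∩ K0`, with
  conclusion literally `H60.ModelCharts A K0 L`.
-/

set_option autoImplicit false
set_option linter.unusedSectionVars false
set_option linter.style.haveILetI false
set_option synthInstance.maxHeartbeats 400000

noncomputable section

open HahnSeries ModularCurve Polynomial IntermediateField

namespace Fermat.Agent.S18.H35

/-! ### Generic: `KCData` at the integral-closure charts -/

/-- **The chart hypotheses of the Kummer core at the integral-closure charts.** -/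
theorem kcData_charts {A K F : Type} [CommRing A] [IsDomain A] [IsDiscreteValuationRing A]
    [Field K] [Algebra A K] [IsFractionRing A K] [CharZero K]
    [Field F] [Algebra K F] [Algebra A F] [IsScalarTower A K F]
    (π : A) (hπ : Irreducible π)
    (x : F) (hx : Transcendental K x) [FiniteDimensional (IntermediateField.adjoin K {x}) F]
    (V : ValuationSubring F)
    (hAV : ∀ a : A, algebraMap A F a ∈ V) (hxV : x ∈ V) (hxV' : x⁻¹ ∈ V)
    (hπV : algebraMap A F π ∈ V.nonunits)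
    (hVπ : ∀ y ∈ V.nonunits, ∃ z ∈ V, y = algebraMap A F π * z)
    (hsatU : ∀ b ∈ H97.chartU A x, (∃ y ∈ V, b = algebraMap A F π * y) →
      ∃ c ∈ H97.chartU A x, b = algebraMap A F π * c)
    (hsatV : ∀ b ∈ H97.chartV A x, (∃ y ∈ V, b = algebraMap A F π * y) →
      ∃ c ∈ H97.chartV A x, b = algebraMap A F π * c)
    (hregU : ∀ n : Ideal (H97.chartU A x), n.IsMaximal → algebraMap A (H97.chartU A x) π ∈ n →
      ∃ τ ∈ n, ∀ a : H97.chartU A x, a ∉ Ideal.span {algebraMap A (H97.chartU A x) π} →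
        ∃ (e : ℕ) (d u : H97.chartU A x), d ∉ n ∧ u ∉ n ∧
          a * d - u * τ ^ e ∈ Ideal.span {algebraMap A (H97.chartU A x) π})
    (hregV : ∀ n : Ideal (H97.chartV A x), n.IsMaximal → algebraMap A (H97.chartV A x) π ∈ n →
      ∃ τ ∈ n, ∀ a : H97.chartV A x, a ∉ Ideal.span {algebraMap A (H97.chartV A x) π} →
        ∃ (e : ℕ) (d u : H97.chartV A x), d ∉ n ∧ u ∉ n ∧
          a * d - u * τ ^ e ∈ Ideal.span {algebraMap A (H97.chartV A x) π}) :
    H60.KCData A F π V (H97.chartU A x) (H97.chartV A x) x := by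
  have hx0 : x ≠ 0 := by
    rintro rfl
    exact hx (isAlgebraic_zero)
  exact
    { pi_ne := hπ.ne_zero
      inj := H97.algebraMap_injective_of_isFractionRing A K F
      arch := by
        intro c hc
        obtain ⟨n, hn⟩ := IsDiscreteValuationRing.associated_pow_irreducible hc hπ
        exact ⟨n, hn.dvd⟩
      pi_mem := hπV
      nonunits := hVπ
      leU := fun y hy => H97.chartU_le_valuationSubring V hAV hxV hy
      leV := fun y hy => H97.chartV_le_valuationSubring V hAV hxV' hy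
      icU := fun y hy => H97.mem_chartU_of_isIntegral hy
      icV := fun y hy => H97.mem_chartV_of_isIntegral hy
      satU := hsatU
      satV := hsatV
      j_ne := hx0
      j_mem := H97.mem_chartU_self x
      inv_mem := H97.inv_mem_chartV x
      UtoV := fun y hy => H97.exists_inv_pow_mul_mem_chartV hx0 (H97.chartU_le_chartUV x hy)
      VtoU := fun y hy => H97.exists_pow_mul_mem_chartU hx0 (H97.chartV_le_chartUV x hy)
      noethU := H97.isNoetherianRing_chartU (K := K) hx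
      noethV := H97.isNoetherianRing_chartV (K := K) hx
      fg := fun M hM => H97.fg_of_le_chartU (K := K) hx M hM
      fracU := H97.exists_chartU_mul_eq_of_finiteDimensional (K := K) x
      fracV := H97.exists_chartV_mul_eq_of_finiteDimensional (K := K) x
      regU := hregU
      regV := hregV }

/-- finiteness passes to a bigger rational subfield. -/
theorem finite_of_mem_adjoin_simple {K F : Type*} [Field K] [Field F] [Algebra K F] {j t : F}
    (hmem : j ∈ K⟮t⟯) (hfin : FiniteDimensional K⟮j⟯ F) : FiniteDimensional K⟮t⟯ F := by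
  have hle : K⟮j⟯ ≤ K⟮t⟯ := adjoin_simple_le_iff.mpr hmem
  let _ : Algebra K⟮j⟯ K⟮t⟯ := (IntermediateField.inclusion hle).toRingHom.toAlgebra
  have : IsScalarTower K⟮j⟯ K⟮t⟯ F := IsScalarTower.of_algebraMap_eq (fun _ => rfl)
  exact FiniteDimensional.right K⟮j⟯ K⟮t⟯ F

/-! ### The model over a generic field `K0` -/

section Gen

variable (K0 : Type) [Field K0] [CharZero K0] (A0 : ValuationSubring K0)
  [IsDiscreteValuationRing A0] (ℓ : ℕ) [Fact ℓ.Prime] [CharP (IsLocalRing.ResidueField A0) ℓ]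
  (L : ℕ) [NeZero L] (hℓL : ¬ ℓ ∣ L)

local notation "F0" => modularFunctionFieldFullC K0 L
local notation "V0" => H93.gaussWFull K0 L A0 ℓ hℓL

/-- the scalar tower `A0 → K0 → F0`. -/
theorem isScalarTower_model : IsScalarTower ↥A0 K0 ↥F0 :=
  IsScalarTower.of_algebraMap_eq fun _ => rfl

/-- the chart homomorphism of `H93` is `aeval` for the inferred `A0`-algebra structure. -/
theorem chartHom_eq_aeval' (x : ↥F0) (P : (↥A0)[X]) :
    H93.chartHom A0 x P = Polynomial.aeval x P := by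
  unfold H93.chartHom
  rw [Polynomial.coe_eval₂RingHom, Polynomial.aeval_def]
  rfl

/-- integrality over the chart homomorphism is membership of the chart. -/
theorem isIntegralElem_chartHom_iff (x b : ↥F0) :
    (H93.chartHom A0 x).IsIntegralElem b ↔ b ∈ H97.chartU ↥A0 x := by
  rw [H97.mem_chartU]
  constructor
  · intro hb
    refine H95.isIntegralElem_of_range_le (H93.chartHom A0 x)
      (algebraMap (Algebra.adjoin ↥A0 {x}) ↥F0) (fun P => ?_) hb
    have h1 : Polynomial.aeval x P ∈ Algebra.adjoin ↥A0 {x} := by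
      rw [Algebra.adjoin_singleton_eq_range_aeval]
      exact ⟨P, rfl⟩
    exact ⟨⟨Polynomial.aeval x P, h1⟩, (chartHom_eq_aeval' K0 A0 L x P).symm⟩
  · intro hb
    refine H95.isIntegralElem_of_range_le (algebraMap (Algebra.adjoin ↥A0 {x}) ↥F0)
      (H93.chartHom A0 x) (fun r => ?_) hb
    have h1 : (r : ↥F0) ∈ (Polynomial.aeval x : (↥A0)[X] →ₐ[↥A0] ↥F0).range := by
      rw [← Algebra.adjoin_singleton_eq_range_aeval]
      exact r.2
    obtain ⟨P, hP⟩ := h1
    exact ⟨P, (chartHom_eq_aeval' K0 A0 L x P).trans hP⟩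

variable {K0 A0 L}

/-- the chart coordinate lies in the Gauss ring. -/
theorem coord_mem_gaussWFull {π : ↥A0} (hπ : Irreducible π) (x : ↥F0)
    (xA : LaurentSeries ↥A0) (hxA : (x : LaurentSeries K0) = H93.iotaA A0 xA)
    (hxtr : Transcendental (IsLocalRing.ResidueField A0) (H93.redA A0 xA))
    (hJx : H93.jFullC K0 L ∈ K0⟮x⟯) : x ∈ V0 := by
  refine (H93.gauss_chart_full K0 L A0 ℓ hℓL hπ x xA hxA hxtr hJx x ?_).1
  have h := (H93.chartHom A0 x).isIntegralElem_map (x := (X : (↥A0)[X]))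
  rwa [H93.chartHom_X] at h

/-- **Saturation of the chart** in the Gauss ring, in the shape of `H97.kc_charts`. -/
theorem sat_chartU_model {π : ↥A0} (hπ : Irreducible π) (x : ↥F0)
    (xA : LaurentSeries ↥A0) (hxA : (x : LaurentSeries K0) = H93.iotaA A0 xA)
    (hxtr : Transcendental (IsLocalRing.ResidueField A0) (H93.redA A0 xA))
    (hJx : H93.jFullC K0 L ∈ K0⟮x⟯) :
    ∀ b ∈ H97.chartU ↥A0 x, (∃ y ∈ V0, b = algebraMap ↥A0 ↥F0 π * y) →
      ∃ c ∈ H97.chartU ↥A0 x, b = algebraMap ↥A0 ↥F0 π * c := by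
  intro b hb ⟨y, hy, hby⟩
  have h := (H93.gauss_chart_full K0 L A0 ℓ hℓL hπ x xA hxA hxtr hJx b
    ((isIntegralElem_chartHom_iff K0 A0 L x b).mpr hb)).2 y hy hby
  exact ⟨y, (isIntegralElem_chartHom_iff K0 A0 L x y).mp h, hby⟩

include A0 hℓL in
/-- finiteness of the model field over the `j`-line. -/
theorem finiteDimensional_adjoin_jFullC :
    FiniteDimensional K0⟮H93.jFullC K0 L⟯ ↥F0 := by
  obtain ⟨π, hπ⟩ := IsDiscreteValuationRing.exists_irreducible ↥A0
  have h := H93.finrank_adjoin_J (H93.fullData K0 L A0 ℓ hℓL) hπ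
  rw [H93.jElt_fullData] at h
  exact Module.finite_of_finrank_pos (by rw [h]; exact H16.dedekindPsi_pos' L)

include A0 hℓL in
/-- finiteness over the line of a coordinate `x` with `j ∈ K0(x)`. -/
theorem finiteDimensional_adjoin_coord (x : ↥F0) (hJx : H93.jFullC K0 L ∈ K0⟮x⟯) :
    FiniteDimensional K0⟮x⟯ ↥F0 :=
  finite_of_mem_adjoin_simple hJx (finiteDimensional_adjoin_jFullC (A0 := A0) ℓ hℓL)

/-- **Chart data of the model over a generic field**, `(REG)` as a hypothesis. -/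
theorem chartData_gen {π : ↥A0} (hπ : Irreducible π) (x : ↥F0)
    (xA xA' : LaurentSeries ↥A0)
    (hxA : (x : LaurentSeries K0) = H93.iotaA A0 xA)
    (hxA' : ((x⁻¹ : ↥F0) : LaurentSeries K0) = H93.iotaA A0 xA')
    (hxtr : Transcendental (IsLocalRing.ResidueField A0) (H93.redA A0 xA))
    (hxtr' : Transcendental (IsLocalRing.ResidueField A0) (H93.redA A0 xA'))
    (hJx : H93.jFullC K0 L ∈ K0⟮x⟯) (hx : Transcendental K0 x)
    (hregU : ∀ n : Ideal (H97.chartU ↥A0 x), n.IsMaximal →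
      algebraMap ↥A0 (H97.chartU ↥A0 x) π ∈ n →
      ∃ τ ∈ n, ∀ a : H97.chartU ↥A0 x, a ∉ Ideal.span {algebraMap ↥A0 (H97.chartU ↥A0 x) π} →
        ∃ (e : ℕ) (d u : H97.chartU ↥A0 x), d ∉ n ∧ u ∉ n ∧
          a * d - u * τ ^ e ∈ Ideal.span {algebraMap ↥A0 (H97.chartU ↥A0 x) π})
    (hregV : ∀ n : Ideal (H97.chartV ↥A0 x), n.IsMaximal →
      algebraMap ↥A0 (H97.chartV ↥A0 x) π ∈ n →
      ∃ τ ∈ n, ∀ a : H97.chartV ↥A0 x, a ∉ Ideal.span {algebraMap ↥A0 (H97.chartV ↥A0 x) π} →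
        ∃ (e : ℕ) (d u : H97.chartV ↥A0 x), d ∉ n ∧ u ∉ n ∧
          a * d - u * τ ^ e ∈ Ideal.span {algebraMap ↥A0 (H97.chartV ↥A0 x) π}) :
    H60.KCData ↥A0 ↥F0 π V0 (H97.chartU ↥A0 x) (H97.chartV ↥A0 x) x ∧
    (∀ a : ↥A0, IsLocalRing.residue ↥A0 a = 0 → π ∣ a) ∧
    (∀ (Z1 Z2 : LaurentSeries ↥A0)
      (h1 : coeffMap A0.subtype Z1 ∈ F0) (h2 : coeffMap A0.subtype Z2 ∈ F0),
      coeffMap (IsLocalRing.residue ↥A0) Z2 ≠ 0 →
      ((⟨_, h1⟩ : ↥F0) / ⟨_, h2⟩) ∈ V0) ∧
    (∀ γ : ↥F0, γ ∈ H97.chartU ↥A0 x → γ ∈ H97.chartV ↥A0 x →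
      IsAlgebraic K0 (γ : LaurentSeries K0)) := by
  have : IsScalarTower ↥A0 K0 ↥F0 := isScalarTower_model K0 A0 L
  have hJx' : H93.jFullC K0 L ∈ K0⟮x⁻¹⟯ := H93.mem_adjoin_inv_of_mem_adjoin hJx
  haveI : FiniteDimensional K0⟮x⟯ ↥F0 :=
    finiteDimensional_adjoin_coord (A0 := A0) ℓ hℓL x hJx
  refine ⟨?_, fun a ha => H93.dvd_of_residue_eq_zero hπ ha, ?_, ?_⟩
  · refine kcData_charts (K := K0) π hπ x hx V0
      (fun a => H93.constHom_mem_gaussWFull K0 L A0 ℓ hℓL a)
      (coord_mem_gaussWFull ℓ hℓL hπ x xA hxA hxtr hJx)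
      (coord_mem_gaussWFull ℓ hℓL hπ x⁻¹ xA' hxA' hxtr' hJx')
      (H93.constHom_mem_nonunits_full K0 L A0 ℓ hℓL hπ)
      (fun y hy => H93.exists_eq_mul_of_mem_nonunits_full K0 L A0 ℓ hℓL hπ y hy)
      (sat_chartU_model ℓ hℓL hπ x xA hxA hxtr hJx)
      (sat_chartU_model ℓ hℓL hπ x⁻¹ xA' hxA' hxtr' hJx')
      hregU hregV
  · intro Z1 Z2 h1 h2 hne
    rw [H93.mem_gaussWFull_iff]
    refine ⟨Z1, Z2, hne, ?_⟩
    have hZ2 : (⟨_, h2⟩ : ↥F0) ≠ 0 := by
      intro h0
      apply hne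
      have h3 : coeffMap A0.subtype Z2 = 0 := congrArg Subtype.val h0
      have h4 : Z2 = 0 := H93.iotaA_injective A0 (by rw [h3, map_zero])
      rw [h4, map_zero]
    have h5 : ((⟨_, h1⟩ : ↥F0) / ⟨_, h2⟩) * (⟨_, h2⟩ : ↥F0) = ⟨_, h1⟩ :=
      div_mul_cancel₀ _ hZ2
    exact congrArg Subtype.val h5
  · intro γ hU hV
    obtain ⟨c, -, hc⟩ := H32.nopole_valuationSubring A0 F0 x γ hU hV
    rw [hc]
    exact isAlgebraic_algebraMap (R := K0) (A := LaurentSeries K0) c

end Gen

/-! ### The number-field model `K0 ≤ ℚ̄`, `A0 = A ∩ K0` -/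

section Model

variable (A : ValuationSubring (AlgebraicClosure ℚ))
  (K0 : IntermediateField ℚ (AlgebraicClosure ℚ)) (L : ℕ) [NeZero L]

attribute [local instance 2000] H60.algA0F0

set_option maxHeartbeats 1600000 in
/-- **Chart data for the number-field model from a chart coordinate**, `(REG)` as a hypothesis.
The conclusion is literally `H60.ModelCharts A K0 L`. -/
theorem modelCharts_of_coord (hfin : FiniteDimensional ℚ K0) {ℓ : ℕ} [Fact ℓ.Prime]
    (hA : A.LiesOverPrime ℓ) (hℓL : ¬ ℓ ∣ L)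
    (x : ↥(modularFunctionFieldFullC K0 L)) (xA xA' : LaurentSeries ↥(H61.A0 A K0))
    (hxA : (x : LaurentSeries K0) = coeffMap (H61.A0 A K0).subtype xA)
    (hxA' : ((x⁻¹ : ↥(modularFunctionFieldFullC K0 L)) : LaurentSeries K0) =
      coeffMap (H61.A0 A K0).subtype xA')
    (hxtr : Transcendental (IsLocalRing.ResidueField ↥(H61.A0 A K0))
      (coeffMap (IsLocalRing.residue ↥(H61.A0 A K0)) xA))
    (hxtr' : Transcendental (IsLocalRing.ResidueField ↥(H61.A0 A K0))
      (coeffMap (IsLocalRing.residue ↥(H61.A0 A K0)) xA'))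
    (hJx : H93.jFullC K0 L ∈ K0⟮x⟯) (hx : Transcendental K0 x)
    (hreg : ∀ π : ↥(H61.A0 A K0), Irreducible π →
      (∀ n : Ideal (H97.chartU ↥(H61.A0 A K0) x), n.IsMaximal →
        algebraMap ↥(H61.A0 A K0) (H97.chartU ↥(H61.A0 A K0) x) π ∈ n →
        ∃ τ ∈ n, ∀ a : H97.chartU ↥(H61.A0 A K0) x,
          a ∉ Ideal.span {algebraMap ↥(H61.A0 A K0) (H97.chartU ↥(H61.A0 A K0) x) π} →
          ∃ (e : ℕ) (d u : H97.chartU ↥(H61.A0 A K0) x), d ∉ n ∧ u ∉ n ∧
            a * d - u * τ ^ e ∈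
              Ideal.span {algebraMap ↥(H61.A0 A K0) (H97.chartU ↥(H61.A0 A K0) x) π}) ∧
      (∀ n : Ideal (H97.chartV ↥(H61.A0 A K0) x), n.IsMaximal →
        algebraMap ↥(H61.A0 A K0) (H97.chartV ↥(H61.A0 A K0) x) π ∈ n →
        ∃ τ ∈ n, ∀ a : H97.chartV ↥(H61.A0 A K0) x,
          a ∉ Ideal.span {algebraMap ↥(H61.A0 A K0) (H97.chartV ↥(H61.A0 A K0) x) π} →
          ∃ (e : ℕ) (d u : H97.chartV ↥(H61.A0 A K0) x), d ∉ n ∧ u ∉ n ∧
            a * d - u * τ ^ e ∈
              Ideal.span {algebraMap ↥(H61.A0 A K0) (H97.chartV ↥(H61.A0 A K0) x) π})) :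
    H60.ModelCharts A K0 L := by
  have hℓ : ℓ.Prime := Fact.out
  haveI := hfin
  haveI : IsDiscreteValuationRing ↥(H61.A0 A K0) := H86.isDiscreteValuationRing_A0 A K0 hℓ hA
  haveI : CharP (IsLocalRing.ResidueField ↥(H61.A0 A K0)) ℓ :=
    H86.charP_residueField_A0 A K0 hℓ hA
  obtain ⟨π, hπ⟩ := IsDiscreteValuationRing.exists_irreducible ↥(H61.A0 A K0)
  obtain ⟨hregU, hregV⟩ := hreg π hπ
  obtain ⟨h1, h2, h3, h4⟩ := chartData_gen (K0 := ↥K0) (A0 := H61.A0 A K0) ℓ hℓL hπ x xA xA'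
    hxA hxA' hxtr hxtr' hJx hx hregU hregV
  exact ⟨π, _, _, _, x, h1, h2, h3, h4⟩

end Model

end Fermat.Agent.S18.H35
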