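import Mathlib

/-!
# S18: shortcut instances for the `K₀`-model

In the model of S18 one works with a field `K` (in the application the number field
`↥K0`, `K0 : IntermediateField ℚ (AlgebraicClosure ℚ)`), a valuation subring `V` of `K`
(the DVR `A0 = A ∩ K0`) and an intermediate field `E` of `K((q)) / K` (the function field
`modularFunctionFieldFullC K L`).  Type-class search for the scalar actions

`K` on `↥E`,  `↥V` on `K((q))`,  `↥V` on `↥E`,  and the towers `↥V → K → K((q))`, `↥V → K → ↥E`

succeeds, but only after a very long search (several seconds each, and beyond the default
`synthInstance.maxHeartbeats` when `K` is itself a subtype such as `↥K0`).

This file records the instances that the search finds, once and for all, as named instances of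
high priority.  Each of them is *defined as* `inferInstance`, so it is definitionally (and
reducibly) the instance every other file obtains by search: statements elaborated with or
without this file imported are interchangeable.  With the file imported the searches above are
immediate at the default heartbeat limit.
-/

set_option autoImplicit false

namespace Fermat.Agent.S18.H97

noncomputable section ModelInst

variable {K : Type*} [Field K] (V : ValuationSubring K)
  (E : IntermediateField K (LaurentSeries K))

/-- `K`-algebra structure of an intermediate field of `K((q)) / K` (shortcut). -/
instance (priority := 2000) instAlgebraFieldModel : Algebra K ↥E := inferInstance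

/-- `K`-module structure of an intermediate field of `K((q)) / K` (shortcut). -/
instance (priority := 2000) instModuleFieldModel : Module K ↥E := inferInstance

/-- `K`-action on an intermediate field of `K((q)) / K` (shortcut). -/
instance (priority := 2000) instSMulFieldModel : SMul K ↥E := inferInstance

set_option maxHeartbeats 1000000 in
set_option synthInstance.maxHeartbeats 1000000 in
/-- A valuation subring of `K` acts on `K((q))` (shortcut). -/
instance (priority := 2000) instAlgebraValLaurent : Algebra ↥V (LaurentSeries K) := inferInstance

set_option maxHeartbeats 1000000 in
set_option synthInstance.maxHeartbeats 1000000 in
/-- The tower `↥V → K → K((q))` (shortcut). -/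
instance (priority := 2000) instIsScalarTowerValLaurent :
    IsScalarTower ↥V K (LaurentSeries K) := inferInstance

set_option maxHeartbeats 1000000 in
set_option synthInstance.maxHeartbeats 1000000 in
/-- A valuation subring of `K` acts on an intermediate field of `K((q)) / K` (shortcut). -/
instance (priority := 2000) instAlgebraValModel : Algebra ↥V ↥E := inferInstance

/-- Module structure for the previous instance (shortcut). -/
instance (priority := 2000) instModuleValModel : Module ↥V ↥E := inferInstance

/-- Scalar action for the previous instance (shortcut). -/
instance (priority := 2000) instSMulValModel : SMul ↥V ↥E := inferInstance

set_option maxHeartbeats 1000000 in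
set_option synthInstance.maxHeartbeats 1000000 in
/-- The tower `↥V → K → ↥E` (shortcut). -/
instance (priority := 2000) instIsScalarTowerValModel : IsScalarTower ↥V K ↥E := inferInstance

/-- The shortcut is the algebra structure obtained from `K` by restriction to `V`. -/
theorem algebraMap_val_model_apply (a : V) :
    algebraMap ↥V ↥E a = algebraMap K ↥E (a : K) := rfl

end ModelInst

end Fermat.Agent.S18.H97
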