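import Mathlib
import Fermat.Agent.S18.NCFusionV_helper68
import Fermat.Agent.S18.GaussFullIs_helper93
import Fermat.Agent.S18.SepAdapt_helper85

/-!
# S18, (REG) in the model for an arbitrary integral chart coordinate

`L` a field of characteristic zero, `A : ValuationSubring L` a discrete valuation ring with
perfect residue field `κ` of characteristic `ℓ ∤ N`, `F = modularFunctionFieldFullC L N`,
`V = H93.gaussWFull` the Gauss valuation ring.  For a chart coordinate `x : F` with integral
expansion `xA : A((q))` such that `theta (red xA) ≠ 0` (e.g. `q⁻¹`- or `q`-coefficient `1`) and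
`j ∈ L(x)`, `x` transcendental with `F / L(x)` finite, and a branch polynomial `Pi` with
squarefree reduction outside of which `L[X] → integralClosure L[X] F` is unramified:

* `reg_chartU_full` : the hypothesis `hregU` of `H97.kc_charts` for `H97.chartU A x`, literally;
* `reg_chartV_full` : the hypothesis `hregV` of `H97.kc_charts` for `H97.chartV A x`, literally
  (the integral expansion is that of `x⁻¹`).

This is `H68.reg_chartU_of_gauss` fed with the Gauss chart (`H93.gauss_chart_full`), the Gauss
reduction (`H93.gaussRhoFull`) and separability (`H85.isSeparable_closure`).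
-/

set_option autoImplicit false
set_option linter.style.haveILetI false

open Polynomial IntermediateField ModularCurve
open Fermat.Agent.S28

namespace Fermat.Agent.S18.H68

section Model

variable (L : Type*) [Field L] [CharZero L] (N : ℕ) [NeZero N] (A : ValuationSubring L)
  (ℓ : ℕ) [Fact ℓ.Prime] [CharP (IsLocalRing.ResidueField A) ℓ] (hℓN : ¬ ℓ ∣ N)
  [IsDiscreteValuationRing A] [PerfectField (IsLocalRing.ResidueField A)]
  [Algebra L[X] (modularFunctionFieldFullC L N)]

include ℓ hℓN in
/-- (REG) for the finite chart of an integral coordinate, in the `L`-model. -/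
theorem reg_chartU_full {pi : A} (hpi : Irreducible pi)
    (x : modularFunctionFieldFullC L N) (xA : LaurentSeries A)
    (hxA : (x : LaurentSeries L) = H93.iotaA A xA)
    (hθ : H85.theta (H93.redA A xA) ≠ 0)
    (hJx : H93.jFullC L N ∈ IntermediateField.adjoin L {x})
    (hx : Transcendental L x) [FiniteDimensional L⟮x⟯ (modularFunctionFieldFullC L N)]
    (hxK : ∀ p : L[X], algebraMap L[X] (modularFunctionFieldFullC L N) p = aeval x p)
    (Pi : A[X]) (hPi : Squarefree (Pi.map (Ideal.Quotient.mk (Ideal.span {pi}))))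
    (hunr : ∀ p : Ideal L[X], p.IsMaximal → Pi.map (algebraMap A L) ∉ p →
      (p.map (algebraMap L[X] (integralClosure L[X] (modularFunctionFieldFullC L N)))).IsRadical) :
    ∀ n : Ideal (H97.chartU A x), n.IsMaximal → algebraMap A (H97.chartU A x) pi ∈ n →
      ∃ τ ∈ n, ∀ a : H97.chartU A x, a ∉ Ideal.span {algebraMap A (H97.chartU A x) pi} →
        ∃ (e : ℕ) (d u : H97.chartU A x), d ∉ n ∧ u ∉ n ∧
          a * d - u * τ ^ e ∈ Ideal.span {algebraMap A (H97.chartU A x) pi} := by
  classical
  have hY : H93.iotaA A xA ∈ modularFunctionFieldFullC L N := hxA ▸ x.2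
  obtain rfl : x = ⟨H93.iotaA A xA, hY⟩ := Subtype.ext hxA
  set x : modularFunctionFieldFullC L N := ⟨H93.iotaA A xA, hY⟩ with hxdef
  have hxtr : Transcendental (IsLocalRing.ResidueField A) (H93.redA A xA) :=
    H85.transcendental_of_theta_ne_zero _ hθ
  have hch : ∀ p : A[X], H93.chartHom A x p = aeval x p := fun p => rfl
  -- membership in the chart
  have hmemU : ∀ y : modularFunctionFieldFullC L N,
      y ∈ H97.chartU A x ↔ (H93.chartHom A x).IsIntegralElem y := by
    intro y
    letI : Algebra A[X] (modularFunctionFieldFullC L N) := (H93.chartHom A x).toAlgebra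
    exact (H97.mem_integralClosure_polynomial_iff (A := A) (x := x) (fun p => hch p)).symm
  have hAV : ∀ a : A, algebraMap A (modularFunctionFieldFullC L N) a
      ∈ H93.gaussWFull L N A ℓ hℓN := fun a => H93.constHom_mem_gaussWFull L N A ℓ hℓN a
  have hxV : x ∈ H93.gaussWFull L N A ℓ hℓN := H93.iota_mem_gaussWFull L N A ℓ hℓN xA hY
  have hsatU : ∀ b ∈ H97.chartU A x,
      (∃ y ∈ H93.gaussWFull L N A ℓ hℓN,
        b = algebraMap A (modularFunctionFieldFullC L N) pi * y) →
      ∃ c ∈ H97.chartU A x, b = algebraMap A (modularFunctionFieldFullC L N) pi * c := by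
    rintro b hb ⟨y, hy, hby⟩
    have h := (H93.gauss_chart_full L N A ℓ hℓN hpi x xA rfl hxtr hJx b ((hmemU b).mp hb)).2
      y hy hby
    exact ⟨y, (hmemU y).mpr h, hby⟩
  -- the reduction with values in `κ((q))`
  let red : H93.gaussWFull L N A ℓ hℓN →+* LaurentSeries (IsLocalRing.ResidueField A) :=
    (algebraMap (modularFunctionFieldFullC (IsLocalRing.ResidueField A) N)
      (LaurentSeries (IsLocalRing.ResidueField A))).comp (H93.gaussRhoFull L N A ℓ hℓN)
  have hred : ∀ v : H93.gaussWFull L N A ℓ hℓN,
      (v : modularFunctionFieldFullC L N) ∈ (H93.gaussWFull L N A ℓ hℓN).nonunits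
        ↔ red v = 0 := by
    intro v
    rw [H93.mem_nonunits_gaussWFull_iff]
    constructor
    · intro h
      show ((H93.gaussRhoFull L N A ℓ hℓN v :
        modularFunctionFieldFullC (IsLocalRing.ResidueField A) N) :
          LaurentSeries (IsLocalRing.ResidueField A)) = 0
      rw [h]
      rfl
    · intro h
      exact Subtype.ext h
  -- reduction of a polynomial in `x`
  have hredp : ∀ (p : A[X]) (v : H93.gaussWFull L N A ℓ hℓN),
      (v : modularFunctionFieldFullC L N) = aeval x p →
      red v = aeval (H93.redA A xA) (p.map (IsLocalRing.residue A)) := by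
    intro p v hv
    have hv' : v = ⟨H93.chartHom A x p,
        H93.chartHom_mem_gaussW (H93.fullData L N A ℓ hℓN) xA hY p⟩ := Subtype.ext hv
    rw [hv', ← H93.evC_eq_aeval]
    exact H93.coe_gaussRho_chartHom (H93.fullData L N A ℓ hℓN) xA hY p
  have hsep : ∀ y : LaurentSeries (IsLocalRing.ResidueField A),
      IsAlgebraic (Subfield.closure (red '' {v : H93.gaussWFull L N A ℓ hℓN |
        ∃ p : A[X], (v : modularFunctionFieldFullC L N) = aeval x p})) y →
      IsSeparable (Subfield.closure (red '' {v : H93.gaussWFull L N A ℓ hℓN |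
        ∃ p : A[X], (v : modularFunctionFieldFullC L N) = aeval x p})) y := by
    refine H85.isSeparable_closure ℓ (H93.redA A xA) hθ _ ?_ ?_ ?_
    · rintro _ ⟨v, ⟨p, hp⟩, rfl⟩
      rw [hredp p v hp]
      exact H85.aeval_mem_adjoin_simple _ _
    · intro c
      obtain ⟨a, rfl⟩ := IsLocalRing.residue_surjective c
      apply Subfield.subset_closure
      refine ⟨⟨algebraMap A (modularFunctionFieldFullC L N) a, hAV a⟩, ⟨C a, ?_⟩, ?_⟩
      · rw [aeval_C]
      · rw [hredp (C a) _ (by rw [aeval_C]), Polynomial.map_C, aeval_C]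
    · apply Subfield.subset_closure
      refine ⟨⟨x, hxV⟩, ⟨X, ?_⟩, ?_⟩
      · rw [aeval_X]
      · rw [hredp X _ (by rw [aeval_X]), Polynomial.map_X, aeval_X]
  exact reg_chartU_of_gauss pi hpi x hx hxK (H93.gaussWFull L N A ℓ hℓN) hAV hxV
    (H93.constHom_mem_nonunits_full L N A ℓ hℓN hpi)
    (H93.exists_eq_mul_of_mem_nonunits_full L N A ℓ hℓN hpi) hsatU red hred hsep Pi hPi hunr

include ℓ hℓN in
/-- (REG) for the chart at infinity of an integral coordinate, in the `L`-model: `xA'` is the
integral expansion of `x⁻¹`, and `L[X]` acts on `F` through `X ↦ x⁻¹`. -/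
theorem reg_chartV_full {pi : A} (hpi : Irreducible pi)
    (x : modularFunctionFieldFullC L N) (xA' : LaurentSeries A)
    (hxA' : ((x⁻¹ : modularFunctionFieldFullC L N) : LaurentSeries L) = H93.iotaA A xA')
    (hθ : H85.theta (H93.redA A xA') ≠ 0)
    (hJx : H93.jFullC L N ∈ IntermediateField.adjoin L {x})
    (hx : Transcendental L x) [FiniteDimensional L⟮x⟯ (modularFunctionFieldFullC L N)]
    (hxK : ∀ p : L[X], algebraMap L[X] (modularFunctionFieldFullC L N) p = aeval x⁻¹ p)
    (Pi : A[X]) (hPi : Squarefree (Pi.map (Ideal.Quotient.mk (Ideal.span {pi}))))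
    (hunr : ∀ p : Ideal L[X], p.IsMaximal → Pi.map (algebraMap A L) ∉ p →
      (p.map (algebraMap L[X] (integralClosure L[X] (modularFunctionFieldFullC L N)))).IsRadical) :
    ∀ n : Ideal (H97.chartV A x), n.IsMaximal → algebraMap A (H97.chartV A x) pi ∈ n →
      ∃ τ ∈ n, ∀ a : H97.chartV A x, a ∉ Ideal.span {algebraMap A (H97.chartV A x) pi} →
        ∃ (e : ℕ) (d u : H97.chartV A x), d ∉ n ∧ u ∉ n ∧
          a * d - u * τ ^ e ∈ Ideal.span {algebraMap A (H97.chartV A x) pi} := by
  haveI : FiniteDimensional L⟮x⁻¹⟯ (modularFunctionFieldFullC L N) :=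
    H97.finiteDimensional_adjoin_inv (K := L) x
  exact reg_chartU_full L N A ℓ hℓN hpi x⁻¹ xA' hxA' hθ (H93.mem_adjoin_inv_of_mem_adjoin hJx)
    (H97.transcendental_inv hx) hxK Pi hPi hunr

end Model

end Fermat.Agent.S18.H68
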