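/-
S18, model leaf for REG-MODEL: the hypothesis `hPi` (squarefree reduction of the branch
polynomial) for the SIX standard branch polynomials of `H10.isRadical_model_*_std`
(`BranchModel_helper10`), literally:

  `X * (X - C 1728)`, `X * (C 1728 * X - 1)`   (charts `j`, `1/j`;   needs `ℓ ≠ 2`, `ℓ ≠ 3`)
  `X * (X + C 64)`,   `X * (C 64 * X + 1)`     (charts `t₂`, `1/t₂`; needs `ℓ ≠ 2`)
  `X * (X + C 27)`,   `X * (C 27 * X + 1)`     (charts `t₃`, `1/t₃`; needs `ℓ ≠ 3`)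

over a local ring `A₀` whose residue field has characteristic `ℓ`, in both shapes used by the
(NC) consumers:

* `Pi.map (Ideal.Quotient.mk (Ideal.span {π}))`  (`H68.reg_chartU_of_gauss`, `H81`, `H51`);
* `Pi.map (IsLocalRing.residue A₀)`              (`H49.nc_main`).

Imports `SqfreeRed_helper51`, `SqfreeRed2_helper51` only.
-/
import Mathlib
import Fermat.Agent.S18.SqfreeRed_helper51
import Fermat.Agent.S18.SqfreeRed2_helper51

set_option autoImplicit false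

namespace Fermat.Agent.S18.H51

open Polynomial

section Units

variable {A₀ : Type*} [CommRing A₀] [IsLocalRing A₀]

/-- In a local ring whose residue field has characteristic `ℓ`, a natural number prime to `ℓ`
is a unit. -/
theorem isUnit_natCast_of_residue_charP (ℓ : ℕ) [CharP (IsLocalRing.ResidueField A₀) ℓ]
    {n : ℕ} (hn : ¬ ℓ ∣ n) : IsUnit ((n : ℕ) : A₀) := by
  by_contra h
  have h1 : ((n : ℕ) : A₀) ∈ IsLocalRing.maximalIdeal A₀ :=
    (IsLocalRing.mem_maximalIdeal _).mpr h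
  have h2 : IsLocalRing.residue A₀ ((n : ℕ) : A₀) = 0 :=
    (IsLocalRing.residue_eq_zero_iff _).mpr h1
  rw [map_natCast] at h2
  exact hn ((CharP.cast_eq_zero_iff (IsLocalRing.ResidueField A₀) ℓ n).mp h2)

/-- the residue of a natural number prime to the residue characteristic is nonzero -/
theorem residue_natCast_ne_zero (ℓ : ℕ) [CharP (IsLocalRing.ResidueField A₀) ℓ]
    {n : ℕ} (hn : ¬ ℓ ∣ n) : IsLocalRing.residue A₀ ((n : ℕ) : A₀) ≠ 0 := by
  rw [map_natCast]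
  exact fun h => hn ((CharP.cast_eq_zero_iff (IsLocalRing.ResidueField A₀) ℓ n).mp h)

theorem not_dvd_1728 {ℓ : ℕ} (hℓ : ℓ.Prime) (h2 : ℓ ≠ 2) (h3 : ℓ ≠ 3) : ¬ ℓ ∣ 1728 := by
  intro h
  have e : (1728 : ℕ) = 2 ^ 6 * 3 ^ 3 := by norm_num
  rw [e] at h
  rcases hℓ.dvd_mul.mp h with h | h
  · exact h2 ((Nat.prime_dvd_prime_iff_eq hℓ Nat.prime_two).mp (hℓ.dvd_of_dvd_pow h))
  · exact h3 ((Nat.prime_dvd_prime_iff_eq hℓ Nat.prime_three).mp (hℓ.dvd_of_dvd_pow h))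

theorem not_dvd_64 {ℓ : ℕ} (hℓ : ℓ.Prime) (h2 : ℓ ≠ 2) : ¬ ℓ ∣ 64 := by
  intro h
  have e : (64 : ℕ) = 2 ^ 6 := by norm_num
  rw [e] at h
  exact h2 ((Nat.prime_dvd_prime_iff_eq hℓ Nat.prime_two).mp (hℓ.dvd_of_dvd_pow h))

theorem not_dvd_27 {ℓ : ℕ} (hℓ : ℓ.Prime) (h3 : ℓ ≠ 3) : ¬ ℓ ∣ 27 := by
  intro h
  have e : (27 : ℕ) = 3 ^ 3 := by norm_num
  rw [e] at h
  exact h3 ((Nat.prime_dvd_prime_iff_eq hℓ Nat.prime_three).mp (hℓ.dvd_of_dvd_pow h))

variable (A₀) in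
/-- `1728` is a unit when the residue characteristic is `≠ 2, 3`. -/
theorem isUnit_1728 (ℓ : ℕ) [CharP (IsLocalRing.ResidueField A₀) ℓ] (hℓ : ℓ.Prime)
    (h2 : ℓ ≠ 2) (h3 : ℓ ≠ 3) : IsUnit (1728 : A₀) := by
  have h := isUnit_natCast_of_residue_charP (A₀ := A₀) ℓ (not_dvd_1728 hℓ h2 h3)
  rwa [Nat.cast_ofNat] at h

variable (A₀) in
/-- `64` is a unit when the residue characteristic is `≠ 2`. -/
theorem isUnit_64 (ℓ : ℕ) [CharP (IsLocalRing.ResidueField A₀) ℓ] (hℓ : ℓ.Prime)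
    (h2 : ℓ ≠ 2) : IsUnit (64 : A₀) := by
  have h := isUnit_natCast_of_residue_charP (A₀ := A₀) ℓ (not_dvd_64 hℓ h2)
  rwa [Nat.cast_ofNat] at h

variable (A₀) in
/-- `27` is a unit when the residue characteristic is `≠ 3`. -/
theorem isUnit_27 (ℓ : ℕ) [CharP (IsLocalRing.ResidueField A₀) ℓ] (hℓ : ℓ.Prime)
    (h3 : ℓ ≠ 3) : IsUnit (27 : A₀) := by
  have h := isUnit_natCast_of_residue_charP (A₀ := A₀) ℓ (not_dvd_27 hℓ h3)
  rwa [Nat.cast_ofNat] at h

end Units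

/-! ### the six standard polynomials, `Ideal.Quotient.mk (Ideal.span {π})` shape -/

section Mk

variable {A₀ : Type*} [CommRing A₀] [IsLocalRing A₀] (π : A₀)
  (ℓ : ℕ) [CharP (IsLocalRing.ResidueField A₀) ℓ]

/-- chart `j`: `X * (X - C 1728)` -/
theorem squarefree_std_j (hπ : (Ideal.span {π}).IsMaximal) (hℓ : ℓ.Prime) (h2 : ℓ ≠ 2)
    (h3 : ℓ ≠ 3) :
    Squarefree ((X * (X - C 1728) : A₀[X]).map (Ideal.Quotient.mk (Ideal.span {π}))) :=
  squarefree_map_X_mul_X_sub_C π hπ (notMem_span_of_isUnit π hπ (isUnit_1728 A₀ ℓ hℓ h2 h3))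

/-- chart `1/j`: `X * (C 1728 * X - 1)` -/
theorem squarefree_std_j_inv (hπ : (Ideal.span {π}).IsMaximal) (hℓ : ℓ.Prime) (h2 : ℓ ≠ 2)
    (h3 : ℓ ≠ 3) :
    Squarefree ((X * (C 1728 * X - 1) : A₀[X]).map (Ideal.Quotient.mk (Ideal.span {π}))) :=
  squarefree_map_X_mul_C_mul_X_sub_one π hπ
    (notMem_span_of_isUnit π hπ (isUnit_1728 A₀ ℓ hℓ h2 h3))

/-- chart `t₂`: `X * (X + C 64)` -/
theorem squarefree_std_two (hπ : (Ideal.span {π}).IsMaximal) (hℓ : ℓ.Prime) (h2 : ℓ ≠ 2) :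
    Squarefree ((X * (X + C 64) : A₀[X]).map (Ideal.Quotient.mk (Ideal.span {π}))) :=
  squarefree_map_X_mul_X_add_C π hπ (notMem_span_of_isUnit π hπ (isUnit_64 A₀ ℓ hℓ h2))

/-- chart `1/t₂`: `X * (C 64 * X + 1)` -/
theorem squarefree_std_two_inv (hπ : (Ideal.span {π}).IsMaximal) (hℓ : ℓ.Prime) (h2 : ℓ ≠ 2) :
    Squarefree ((X * (C 64 * X + 1) : A₀[X]).map (Ideal.Quotient.mk (Ideal.span {π}))) :=
  squarefree_map_X_mul_C_mul_X_add_one π hπ
    (notMem_span_of_isUnit π hπ (isUnit_64 A₀ ℓ hℓ h2))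

/-- chart `t₃`: `X * (X + C 27)` -/
theorem squarefree_std_three (hπ : (Ideal.span {π}).IsMaximal) (hℓ : ℓ.Prime) (h3 : ℓ ≠ 3) :
    Squarefree ((X * (X + C 27) : A₀[X]).map (Ideal.Quotient.mk (Ideal.span {π}))) :=
  squarefree_map_X_mul_X_add_C π hπ (notMem_span_of_isUnit π hπ (isUnit_27 A₀ ℓ hℓ h3))

/-- chart `1/t₃`: `X * (C 27 * X + 1)` -/
theorem squarefree_std_three_inv (hπ : (Ideal.span {π}).IsMaximal) (hℓ : ℓ.Prime)
    (h3 : ℓ ≠ 3) :
    Squarefree ((X * (C 27 * X + 1) : A₀[X]).map (Ideal.Quotient.mk (Ideal.span {π}))) :=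
  squarefree_map_X_mul_C_mul_X_add_one π hπ
    (notMem_span_of_isUnit π hπ (isUnit_27 A₀ ℓ hℓ h3))

end Mk

/-! ### the same for a discrete valuation ring and an irreducible `π` -/

section Dvr

variable {A₀ : Type*} [CommRing A₀] [IsDomain A₀] [IsDiscreteValuationRing A₀] {π : A₀}
  (ℓ : ℕ) [CharP (IsLocalRing.ResidueField A₀) ℓ]

theorem squarefree_std_j_dvr (hπ : Irreducible π) (hℓ : ℓ.Prime) (h2 : ℓ ≠ 2) (h3 : ℓ ≠ 3) :
    Squarefree ((X * (X - C 1728) : A₀[X]).map (Ideal.Quotient.mk (Ideal.span {π}))) :=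
  squarefree_std_j π ℓ (PrincipalIdealRing.isMaximal_of_irreducible hπ) hℓ h2 h3

theorem squarefree_std_j_inv_dvr (hπ : Irreducible π) (hℓ : ℓ.Prime) (h2 : ℓ ≠ 2)
    (h3 : ℓ ≠ 3) :
    Squarefree ((X * (C 1728 * X - 1) : A₀[X]).map (Ideal.Quotient.mk (Ideal.span {π}))) :=
  squarefree_std_j_inv π ℓ (PrincipalIdealRing.isMaximal_of_irreducible hπ) hℓ h2 h3

theorem squarefree_std_two_dvr (hπ : Irreducible π) (hℓ : ℓ.Prime) (h2 : ℓ ≠ 2) :
    Squarefree ((X * (X + C 64) : A₀[X]).map (Ideal.Quotient.mk (Ideal.span {π}))) :=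
  squarefree_std_two π ℓ (PrincipalIdealRing.isMaximal_of_irreducible hπ) hℓ h2

theorem squarefree_std_two_inv_dvr (hπ : Irreducible π) (hℓ : ℓ.Prime) (h2 : ℓ ≠ 2) :
    Squarefree ((X * (C 64 * X + 1) : A₀[X]).map (Ideal.Quotient.mk (Ideal.span {π}))) :=
  squarefree_std_two_inv π ℓ (PrincipalIdealRing.isMaximal_of_irreducible hπ) hℓ h2

theorem squarefree_std_three_dvr (hπ : Irreducible π) (hℓ : ℓ.Prime) (h3 : ℓ ≠ 3) :
    Squarefree ((X * (X + C 27) : A₀[X]).map (Ideal.Quotient.mk (Ideal.span {π}))) :=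
  squarefree_std_three π ℓ (PrincipalIdealRing.isMaximal_of_irreducible hπ) hℓ h3

theorem squarefree_std_three_inv_dvr (hπ : Irreducible π) (hℓ : ℓ.Prime) (h3 : ℓ ≠ 3) :
    Squarefree ((X * (C 27 * X + 1) : A₀[X]).map (Ideal.Quotient.mk (Ideal.span {π}))) :=
  squarefree_std_three_inv π ℓ (PrincipalIdealRing.isMaximal_of_irreducible hπ) hℓ h3

end Dvr

/-! ### the six standard polynomials, `IsLocalRing.residue` shape -/

section Residue

variable (A₀ : Type*) [CommRing A₀] [IsLocalRing A₀]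
  (ℓ : ℕ) [CharP (IsLocalRing.ResidueField A₀) ℓ]

theorem residue_ne_zero_of_isUnit {c : A₀} (hc : IsUnit c) :
    IsLocalRing.residue A₀ c ≠ 0 := by
  intro h
  exact ((IsLocalRing.mem_maximalIdeal c).mp ((IsLocalRing.residue_eq_zero_iff c).mp h)) hc

theorem squarefree_std_j_residue (hℓ : ℓ.Prime) (h2 : ℓ ≠ 2) (h3 : ℓ ≠ 3) :
    Squarefree ((X * (X - C 1728) : A₀[X]).map (IsLocalRing.residue A₀)) := by
  have h := squarefree_X_mul_X_sub_C
    (residue_ne_zero_of_isUnit A₀ (isUnit_1728 A₀ ℓ hℓ h2 h3))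
  simpa only [Polynomial.map_mul, Polynomial.map_sub, Polynomial.map_X, Polynomial.map_C]
    using h

theorem squarefree_std_j_inv_residue (hℓ : ℓ.Prime) (h2 : ℓ ≠ 2) (h3 : ℓ ≠ 3) :
    Squarefree ((X * (C 1728 * X - 1) : A₀[X]).map (IsLocalRing.residue A₀)) := by
  have h := squarefree_X_mul_C_mul_X_sub_one
    (residue_ne_zero_of_isUnit A₀ (isUnit_1728 A₀ ℓ hℓ h2 h3))
  simpa only [Polynomial.map_mul, Polynomial.map_sub, Polynomial.map_X, Polynomial.map_C,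
    Polynomial.map_one] using h

theorem squarefree_std_two_residue (hℓ : ℓ.Prime) (h2 : ℓ ≠ 2) :
    Squarefree ((X * (X + C 64) : A₀[X]).map (IsLocalRing.residue A₀)) := by
  have h0 : IsLocalRing.residue A₀ (-64) ≠ 0 := by
    rw [map_neg, neg_ne_zero]
    exact residue_ne_zero_of_isUnit A₀ (isUnit_64 A₀ ℓ hℓ h2)
  have h := squarefree_X_mul_X_sub_C h0
  have e : (X * (X + C 64) : A₀[X]) = X * (X - C (-64)) := by rw [C_neg, sub_neg_eq_add]
  rw [e]
  simpa only [Polynomial.map_mul, Polynomial.map_sub, Polynomial.map_X, Polynomial.map_C]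
    using h

theorem squarefree_std_two_inv_residue (hℓ : ℓ.Prime) (h2 : ℓ ≠ 2) :
    Squarefree ((X * (C 64 * X + 1) : A₀[X]).map (IsLocalRing.residue A₀)) := by
  have h := squarefree_X_mul_C_mul_X_add_one
    (residue_ne_zero_of_isUnit A₀ (isUnit_64 A₀ ℓ hℓ h2))
  simpa only [Polynomial.map_mul, Polynomial.map_add, Polynomial.map_X, Polynomial.map_C,
    Polynomial.map_one] using h

theorem squarefree_std_three_residue (hℓ : ℓ.Prime) (h3 : ℓ ≠ 3) :
    Squarefree ((X * (X + C 27) : A₀[X]).map (IsLocalRing.residue A₀)) := by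
  have h0 : IsLocalRing.residue A₀ (-27) ≠ 0 := by
    rw [map_neg, neg_ne_zero]
    exact residue_ne_zero_of_isUnit A₀ (isUnit_27 A₀ ℓ hℓ h3)
  have h := squarefree_X_mul_X_sub_C h0
  have e : (X * (X + C 27) : A₀[X]) = X * (X - C (-27)) := by rw [C_neg, sub_neg_eq_add]
  rw [e]
  simpa only [Polynomial.map_mul, Polynomial.map_sub, Polynomial.map_X, Polynomial.map_C]
    using h

theorem squarefree_std_three_inv_residue (hℓ : ℓ.Prime) (h3 : ℓ ≠ 3) :
    Squarefree ((X * (C 27 * X + 1) : A₀[X]).map (IsLocalRing.residue A₀)) := by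
  have h := squarefree_X_mul_C_mul_X_add_one
    (residue_ne_zero_of_isUnit A₀ (isUnit_27 A₀ ℓ hℓ h3))
  simpa only [Polynomial.map_mul, Polynomial.map_add, Polynomial.map_X, Polynomial.map_C,
    Polynomial.map_one] using h

end Residue

end Fermat.Agent.S18.H51
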