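import Mathlib
import Fermat.Agent.S18.ModelChart_helper60
import Fermat.Agent.S18.RegFull_helper68
import Fermat.Agent.S18.Coord_helper36
import Fermat.Agent.S18.SqfreeStd_helper51
import Fermat.Agent.S18.BranchModel_helper10
import Fermat.Agent.S18.HauptShape_helper69
import Fermat.Agent.S18.KC_helper8
import Fermat.Agent.S28.Gauss_helper36

/-!
# S18, arrow T5 (helper60): the model Kummer statement, generic number field

Everything is stated for a generic field `K0` (a type) with an algebra map to `ℚ̄`; no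
`IntermediateField ℚ ℚ̄` instance problem occurs.

* `RegChart B π` : the hypothesis (REG) of `H97.kc_charts` for a chart `B` (a name for the
  literal statement).
* `regU_j`, `regV_j`, `regU_two`, `regV_two`, `regU_three`, `regV_three` : (REG) for the six
  charts `j, 1/j` (`ℓ ≠ 2, 3`), `t₂, 1/t₂` (`2 ∣ L`, `ℓ ≠ 2`), `t₃, 1/t₃` (`3 ∣ L`, `ℓ ≠ 3`) of
  the `K0`-model over an abstract discrete valuation subring `A0` with perfect residue field of
  characteristic `ℓ ∤ L`.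
* `modelKumGen_j`, `modelKumGen_two`, `modelKumGen_three` : `H74.ModelKumGen A K0 L m` in the
  three cases.
* `modelKumGenStmt : H74.ModelKumGenStmt`, `modelKumStmt : H60.ModelKumStmt`, and
  `s18_final` : the frozen statement S18 (literal signature).
-/

set_option autoImplicit false
set_option linter.style.haveILetI false

open ModularCurve AlgebraicCurve IntermediateField Polynomial

namespace Fermat.Agent.S18.H60

noncomputable section

/-- The hypothesis (REG) of `H97.kc_charts` / `H63.StmtKC` for a chart `B` and `π`. -/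
def RegChart {A F : Type*} [CommRing A] [Field F] [Algebra A F] (B : Subalgebra A F) (π : A) :
    Prop :=
  ∀ n : Ideal B, n.IsMaximal → algebraMap A B π ∈ n →
    ∃ τ ∈ n, ∀ a : B, a ∉ Ideal.span {algebraMap A B π} →
      ∃ (e : ℕ) (d u : B), d ∉ n ∧ u ∉ n ∧ a * d - u * τ ^ e ∈ Ideal.span {algebraMap A B π}

/-- the `q`-coefficient of `1/j` is `1`. -/
theorem coeff_jInv_one (R : Type*) [CommRing R] : (Fermat.Agent.S28.H36.jInv R).coeff 1 = 1 := by
  unfold Fermat.Agent.S28.H36.jInv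
  rw [HahnSeries.coeff_single_mul, one_mul, sub_self, show (0 : ℤ) = ((0 : ℕ) : ℤ) by norm_num,
    HahnSeries.ofPowerSeries_apply_coeff, PowerSeries.coeff_zero_eq_constantCoeff_apply,
    PowerSeries.constantCoeff_invOfUnit]
  simp

section Reg

variable (K0 : Type) [Field K0] [CharZero K0] [Algebra K0 (AlgebraicClosure ℚ)]
  [Algebra.IsAlgebraic K0 (AlgebraicClosure ℚ)]
  (A0 : ValuationSubring K0) [IsDiscreteValuationRing A0] (ℓ : ℕ) [Fact ℓ.Prime]
  [CharP (IsLocalRing.ResidueField A0) ℓ] [PerfectField (IsLocalRing.ResidueField A0)]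
  (L : ℕ) [NeZero L] (hℓL : ¬ ℓ ∣ L)

/-! ### chart data -/

omit [CharZero K0] [Algebra K0 (AlgebraicClosure ℚ)] [Algebra.IsAlgebraic K0 (AlgebraicClosure ℚ)]
  [IsDiscreteValuationRing A0] [Fact ℓ.Prime] [CharP (IsLocalRing.ResidueField A0) ℓ]
  [PerfectField (IsLocalRing.ResidueField A0)] [NeZero L] in
theorem coe_jFullC_eq : ((H93.jFullC K0 L : ↥(modularFunctionFieldFullC K0 L)) :
    LaurentSeries K0) = H93.iotaA A0 (jqModC A0) :=
  (coeffMap_jqModC _).symm

omit [CharZero K0] [Algebra K0 (AlgebraicClosure ℚ)] [Algebra.IsAlgebraic K0 (AlgebraicClosure ℚ)]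
  [IsDiscreteValuationRing A0] [Fact ℓ.Prime] [CharP (IsLocalRing.ResidueField A0) ℓ]
  [PerfectField (IsLocalRing.ResidueField A0)] [NeZero L] in
theorem coe_inv_jFullC_eq : (((H93.jFullC K0 L)⁻¹ : ↥(modularFunctionFieldFullC K0 L)) :
    LaurentSeries K0) = H93.iotaA A0 (Fermat.Agent.S28.H36.jInv A0) := by
  rw [IntermediateField.coe_inv, H93.iotaA, Fermat.Agent.S28.H36.coeffMap_jInv,
    Fermat.Agent.S28.H36.jInv_eq_inv]
  rfl

omit [CharZero K0] [Algebra K0 (AlgebraicClosure ℚ)] [Algebra.IsAlgebraic K0 (AlgebraicClosure ℚ)]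
  [IsDiscreteValuationRing A0] [Fact ℓ.Prime] [CharP (IsLocalRing.ResidueField A0) ℓ]
  [PerfectField (IsLocalRing.ResidueField A0)] in
theorem coe_hauptEl2_eq (hL : 2 ∣ L) : ((H69.hauptEl2 K0 L hL : ↥(modularFunctionFieldFullC K0 L)) :
    LaurentSeries K0) = H93.iotaA A0 (H69.haupt2 A0) := by
  rw [H69.coe_hauptEl2, H93.iotaA, H69.coeffMap_haupt2]

omit [CharZero K0] [Algebra K0 (AlgebraicClosure ℚ)] [Algebra.IsAlgebraic K0 (AlgebraicClosure ℚ)]
  [IsDiscreteValuationRing A0] [Fact ℓ.Prime] [CharP (IsLocalRing.ResidueField A0) ℓ]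
  [PerfectField (IsLocalRing.ResidueField A0)] in
theorem coe_inv_hauptEl2_eq (hL : 2 ∣ L) :
    (((H69.hauptEl2 K0 L hL)⁻¹ : ↥(modularFunctionFieldFullC K0 L)) : LaurentSeries K0) =
      H93.iotaA A0 (H69.haupt2Inv A0) := by
  rw [H69.coe_inv_hauptEl2, H93.iotaA, H69.coeffMap_haupt2Inv]

omit [CharZero K0] [Algebra K0 (AlgebraicClosure ℚ)] [Algebra.IsAlgebraic K0 (AlgebraicClosure ℚ)]
  [IsDiscreteValuationRing A0] [Fact ℓ.Prime] [CharP (IsLocalRing.ResidueField A0) ℓ]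
  [PerfectField (IsLocalRing.ResidueField A0)] in
theorem coe_hauptEl3_eq (hL : 3 ∣ L) : ((H69.hauptEl3 K0 L hL : ↥(modularFunctionFieldFullC K0 L)) :
    LaurentSeries K0) = H93.iotaA A0 (H69.haupt3 A0) := by
  rw [H69.coe_hauptEl3, H93.iotaA, H69.coeffMap_haupt3]

omit [CharZero K0] [Algebra K0 (AlgebraicClosure ℚ)] [Algebra.IsAlgebraic K0 (AlgebraicClosure ℚ)]
  [IsDiscreteValuationRing A0] [Fact ℓ.Prime] [CharP (IsLocalRing.ResidueField A0) ℓ]
  [PerfectField (IsLocalRing.ResidueField A0)] in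
theorem coe_inv_hauptEl3_eq (hL : 3 ∣ L) :
    (((H69.hauptEl3 K0 L hL)⁻¹ : ↥(modularFunctionFieldFullC K0 L)) : LaurentSeries K0) =
      H93.iotaA A0 (H69.haupt3Inv A0) := by
  rw [H69.coe_inv_hauptEl3, H93.iotaA, H69.coeffMap_haupt3Inv]

omit [CharZero K0] [Algebra K0 (AlgebraicClosure ℚ)] [Algebra.IsAlgebraic K0 (AlgebraicClosure ℚ)]
  [IsDiscreteValuationRing A0] [Fact ℓ.Prime] [CharP (IsLocalRing.ResidueField A0) ℓ]
  [PerfectField (IsLocalRing.ResidueField A0)] in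
theorem jFullC_mem_adjoin_two (hL : 2 ∣ L) :
    H93.jFullC K0 L ∈ IntermediateField.adjoin K0 {H69.hauptEl2 K0 L hL} :=
  H97.jM_mem_adjoin_of_rel_two (H69.hauptEl2_ne_zero K0 L hL) (H69.hauptEl2_rel K0 L hL)

omit [CharZero K0] [Algebra K0 (AlgebraicClosure ℚ)] [Algebra.IsAlgebraic K0 (AlgebraicClosure ℚ)]
  [IsDiscreteValuationRing A0] [Fact ℓ.Prime] [CharP (IsLocalRing.ResidueField A0) ℓ]
  [PerfectField (IsLocalRing.ResidueField A0)] in
theorem jFullC_mem_adjoin_three (hL : 3 ∣ L) :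
    H93.jFullC K0 L ∈ IntermediateField.adjoin K0 {H69.hauptEl3 K0 L hL} :=
  H97.jM_mem_adjoin_of_rel_three (H69.hauptEl3_ne_zero K0 L hL) (H69.hauptEl3_rel K0 L hL)

/-! ### the reductions -/

omit [CharZero K0] [Algebra K0 (AlgebraicClosure ℚ)] [Algebra.IsAlgebraic K0 (AlgebraicClosure ℚ)]
  [IsDiscreteValuationRing A0] [Fact ℓ.Prime] [CharP (IsLocalRing.ResidueField A0) ℓ]
  [PerfectField (IsLocalRing.ResidueField A0)] in
theorem theta_red_j : H85.theta (H93.redA A0 (jqModC A0)) ≠ 0 :=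
  H85.theta_coeffMap_ne_zero' _ _ (coeff_jqModC_neg_one _)

omit [CharZero K0] [Algebra K0 (AlgebraicClosure ℚ)] [Algebra.IsAlgebraic K0 (AlgebraicClosure ℚ)]
  [IsDiscreteValuationRing A0] [Fact ℓ.Prime] [CharP (IsLocalRing.ResidueField A0) ℓ]
  [PerfectField (IsLocalRing.ResidueField A0)] in
theorem theta_red_jInv : H85.theta (H93.redA A0 (Fermat.Agent.S28.H36.jInv A0)) ≠ 0 := by
  refine H85.theta_ne_zero_of_coeff _ 1 ?_
  rw [H93.redA, coeffMap_coeff, coeff_jInv_one, map_one]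
  simp

omit [CharZero K0] [Algebra K0 (AlgebraicClosure ℚ)] [Algebra.IsAlgebraic K0 (AlgebraicClosure ℚ)]
  [IsDiscreteValuationRing A0] [Fact ℓ.Prime] [CharP (IsLocalRing.ResidueField A0) ℓ]
  [PerfectField (IsLocalRing.ResidueField A0)] in
theorem theta_red_two : H85.theta (H93.redA A0 (H69.haupt2 A0)) ≠ 0 :=
  H85.theta_coeffMap_ne_zero' _ _ (H69.coeff_haupt2_neg_one _)

omit [CharZero K0] [Algebra K0 (AlgebraicClosure ℚ)] [Algebra.IsAlgebraic K0 (AlgebraicClosure ℚ)]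
  [IsDiscreteValuationRing A0] [Fact ℓ.Prime] [CharP (IsLocalRing.ResidueField A0) ℓ]
  [PerfectField (IsLocalRing.ResidueField A0)] in
theorem theta_red_twoInv : H85.theta (H93.redA A0 (H69.haupt2Inv A0)) ≠ 0 := by
  refine H85.theta_ne_zero_of_coeff _ 1 ?_
  rw [H93.redA, coeffMap_coeff, H69.coeff_haupt2Inv_one, map_one]
  simp

omit [CharZero K0] [Algebra K0 (AlgebraicClosure ℚ)] [Algebra.IsAlgebraic K0 (AlgebraicClosure ℚ)]
  [IsDiscreteValuationRing A0] [Fact ℓ.Prime] [CharP (IsLocalRing.ResidueField A0) ℓ]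
  [PerfectField (IsLocalRing.ResidueField A0)] in
theorem theta_red_three : H85.theta (H93.redA A0 (H69.haupt3 A0)) ≠ 0 :=
  H85.theta_coeffMap_ne_zero' _ _ (H69.coeff_haupt3_neg_one _)

omit [CharZero K0] [Algebra K0 (AlgebraicClosure ℚ)] [Algebra.IsAlgebraic K0 (AlgebraicClosure ℚ)]
  [IsDiscreteValuationRing A0] [Fact ℓ.Prime] [CharP (IsLocalRing.ResidueField A0) ℓ]
  [PerfectField (IsLocalRing.ResidueField A0)] in
theorem theta_red_threeInv : H85.theta (H93.redA A0 (H69.haupt3Inv A0)) ≠ 0 := by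
  refine H85.theta_ne_zero_of_coeff _ 1 ?_
  rw [H93.redA, coeffMap_coeff, H69.coeff_haupt3Inv_one, map_one]
  simp

/-! ### (REG) for the six charts -/

include hℓL in
/-- (REG), chart `j`, `ℓ ≠ 2, 3`. -/
theorem regU_j (h2 : ℓ ≠ 2) (h3 : ℓ ≠ 3) {π : A0} (hπ : Irreducible π) :
    RegChart (H97.chartU A0 (H93.jFullC K0 L)) π := by
  have hℓ : ℓ.Prime := Fact.out
  haveI : FiniteDimensional (IntermediateField.adjoin K0 {H93.jFullC K0 L})
      ↥(modularFunctionFieldFullC K0 L) := H97.finiteDimensional_model K0 L A0 ℓ hℓL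
  letI : Algebra K0[X] ↥(modularFunctionFieldFullC K0 L) :=
    (aeval (H93.jFullC K0 L)).toRingHom.toAlgebra
  have e : (X * (X - C 1728) : A0[X]).map (algebraMap A0 K0) = X * (X - C 1728) := by
    rw [Polynomial.map_mul, Polynomial.map_sub, Polynomial.map_X, Polynomial.map_C, map_ofNat]
  exact H68.reg_chartU_full K0 L A0 ℓ hℓL hπ (H93.jFullC K0 L) (jqModC A0)
    (coe_jFullC_eq K0 A0 L) (theta_red_j K0 A0)
    (IntermediateField.mem_adjoin_simple_self K0 _) (H97.transcendental_jM K0 L) (fun _ => rfl)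
    (X * (X - C 1728)) (H51.squarefree_std_j_dvr ℓ hπ hℓ h2 h3)
    (fun p hp h => H10.isRadical_model_j_std K0 L (H93.jFullC K0 L) rfl (fun _ => rfl) p hp
      (by rwa [e] at h))

include hℓL in
/-- (REG), chart `1/j`, `ℓ ≠ 2, 3`. -/
theorem regV_j (h2 : ℓ ≠ 2) (h3 : ℓ ≠ 3) {π : A0} (hπ : Irreducible π) :
    RegChart (H97.chartV A0 (H93.jFullC K0 L)) π := by
  have hℓ : ℓ.Prime := Fact.out
  haveI : FiniteDimensional (IntermediateField.adjoin K0 {H93.jFullC K0 L})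
      ↥(modularFunctionFieldFullC K0 L) := H97.finiteDimensional_model K0 L A0 ℓ hℓL
  letI : Algebra K0[X] ↥(modularFunctionFieldFullC K0 L) :=
    (aeval (H93.jFullC K0 L)⁻¹).toRingHom.toAlgebra
  have e : (X * (C 1728 * X - 1) : A0[X]).map (algebraMap A0 K0) = X * (C 1728 * X - 1) := by
    rw [Polynomial.map_mul, Polynomial.map_sub, Polynomial.map_mul, Polynomial.map_X,
      Polynomial.map_C, map_ofNat, Polynomial.map_one]
  have hinv : (((H93.jFullC K0 L)⁻¹ : ↥(modularFunctionFieldFullC K0 L)) : LaurentSeries K0) *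
      jqModC K0 = 1 := by
    rw [IntermediateField.coe_inv]
    exact inv_mul_cancel₀ (fun h0 => (H97.transcendental_jM K0 L)
      (by
        have : H97.jM K0 L = 0 := Subtype.ext h0
        rw [this]; exact isAlgebraic_zero))
  exact H68.reg_chartV_full K0 L A0 ℓ hℓL hπ (H93.jFullC K0 L) (Fermat.Agent.S28.H36.jInv A0)
    (coe_inv_jFullC_eq K0 A0 L) (theta_red_jInv K0 A0)
    (IntermediateField.mem_adjoin_simple_self K0 _) (H97.transcendental_jM K0 L) (fun _ => rfl)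
    (X * (C 1728 * X - 1)) (H51.squarefree_std_j_inv_dvr ℓ hπ hℓ h2 h3)
    (fun p hp h => H10.isRadical_model_j_inv_std K0 L (H93.jFullC K0 L)⁻¹ hinv (fun _ => rfl) p hp
      (by rwa [e] at h))

include hℓL in
/-- (REG), chart `t₂`, `2 ∣ L`, `ℓ ≠ 2`. -/
theorem regU_two (hL : 2 ∣ L) (h2 : ℓ ≠ 2) {π : A0} (hπ : Irreducible π) :
    RegChart (H97.chartU A0 (H69.hauptEl2 K0 L hL)) π := by
  have hℓ : ℓ.Prime := Fact.out
  have hJ := jFullC_mem_adjoin_two K0 L hL
  haveI : FiniteDimensional (IntermediateField.adjoin K0 {H69.hauptEl2 K0 L hL})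
      ↥(modularFunctionFieldFullC K0 L) := H97.finiteDimensional_of_jM_mem A0 ℓ hℓL hJ
  letI : Algebra K0[X] ↥(modularFunctionFieldFullC K0 L) :=
    (aeval (H69.hauptEl2 K0 L hL)).toRingHom.toAlgebra
  have e : (X * (X + C 64) : A0[X]).map (algebraMap A0 K0) = X * (X + C 64) := by
    rw [Polynomial.map_mul, Polynomial.map_add, Polynomial.map_X, Polynomial.map_C, map_ofNat]
  exact H68.reg_chartU_full K0 L A0 ℓ hℓL hπ (H69.hauptEl2 K0 L hL) (H69.haupt2 A0)
    (coe_hauptEl2_eq K0 A0 L hL) (theta_red_two K0 A0) hJ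
    (H97.transcendental_of_jM_mem hJ) (fun _ => rfl)
    (X * (X + C 64)) (H51.squarefree_std_two_dvr ℓ hπ hℓ h2)
    (fun p hp h => H10.isRadical_model_two_std K0 L (H69.hauptEl2 K0 L hL) rfl (fun _ => rfl) p hp
      (by rwa [e] at h))

include hℓL in
/-- (REG), chart `1/t₂`, `2 ∣ L`, `ℓ ≠ 2`. -/
theorem regV_two (hL : 2 ∣ L) (h2 : ℓ ≠ 2) {π : A0} (hπ : Irreducible π) :
    RegChart (H97.chartV A0 (H69.hauptEl2 K0 L hL)) π := by
  have hℓ : ℓ.Prime := Fact.out
  have hJ := jFullC_mem_adjoin_two K0 L hL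
  haveI : FiniteDimensional (IntermediateField.adjoin K0 {H69.hauptEl2 K0 L hL})
      ↥(modularFunctionFieldFullC K0 L) := H97.finiteDimensional_of_jM_mem A0 ℓ hℓL hJ
  letI : Algebra K0[X] ↥(modularFunctionFieldFullC K0 L) :=
    (aeval (H69.hauptEl2 K0 L hL)⁻¹).toRingHom.toAlgebra
  have e : (X * (C 64 * X + 1) : A0[X]).map (algebraMap A0 K0) = X * (C 64 * X + 1) := by
    rw [Polynomial.map_mul, Polynomial.map_add, Polynomial.map_mul, Polynomial.map_X,
      Polynomial.map_C, map_ofNat, Polynomial.map_one]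
  exact H68.reg_chartV_full K0 L A0 ℓ hℓL hπ (H69.hauptEl2 K0 L hL) (H69.haupt2Inv A0)
    (coe_inv_hauptEl2_eq K0 A0 L hL) (theta_red_twoInv K0 A0) hJ
    (H97.transcendental_of_jM_mem hJ) (fun _ => rfl)
    (X * (C 64 * X + 1)) (H51.squarefree_std_two_inv_dvr ℓ hπ hℓ h2)
    (fun p hp h => H10.isRadical_model_two_inv_std K0 L (H69.hauptEl2 K0 L hL)⁻¹
      (H69.coe_inv_hauptEl2 K0 L hL) (fun _ => rfl) p hp (by rwa [e] at h))

include hℓL in
/-- (REG), chart `t₃`, `3 ∣ L`, `ℓ ≠ 3`. -/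
theorem regU_three (hL : 3 ∣ L) (h3 : ℓ ≠ 3) {π : A0} (hπ : Irreducible π) :
    RegChart (H97.chartU A0 (H69.hauptEl3 K0 L hL)) π := by
  have hℓ : ℓ.Prime := Fact.out
  have hJ := jFullC_mem_adjoin_three K0 L hL
  haveI : FiniteDimensional (IntermediateField.adjoin K0 {H69.hauptEl3 K0 L hL})
      ↥(modularFunctionFieldFullC K0 L) := H97.finiteDimensional_of_jM_mem A0 ℓ hℓL hJ
  letI : Algebra K0[X] ↥(modularFunctionFieldFullC K0 L) :=
    (aeval (H69.hauptEl3 K0 L hL)).toRingHom.toAlgebra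
  have e : (X * (X + C 27) : A0[X]).map (algebraMap A0 K0) = X * (X + C 27) := by
    rw [Polynomial.map_mul, Polynomial.map_add, Polynomial.map_X, Polynomial.map_C, map_ofNat]
  exact H68.reg_chartU_full K0 L A0 ℓ hℓL hπ (H69.hauptEl3 K0 L hL) (H69.haupt3 A0)
    (coe_hauptEl3_eq K0 A0 L hL) (theta_red_three K0 A0) hJ
    (H97.transcendental_of_jM_mem hJ) (fun _ => rfl)
    (X * (X + C 27)) (H51.squarefree_std_three_dvr ℓ hπ hℓ h3)
    (fun p hp h => H10.isRadical_model_three_std K0 L (H69.hauptEl3 K0 L hL) rfl (fun _ => rfl)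
      p hp (by rwa [e] at h))

include hℓL in
/-- (REG), chart `1/t₃`, `3 ∣ L`, `ℓ ≠ 3`. -/
theorem regV_three (hL : 3 ∣ L) (h3 : ℓ ≠ 3) {π : A0} (hπ : Irreducible π) :
    RegChart (H97.chartV A0 (H69.hauptEl3 K0 L hL)) π := by
  have hℓ : ℓ.Prime := Fact.out
  have hJ := jFullC_mem_adjoin_three K0 L hL
  haveI : FiniteDimensional (IntermediateField.adjoin K0 {H69.hauptEl3 K0 L hL})
      ↥(modularFunctionFieldFullC K0 L) := H97.finiteDimensional_of_jM_mem A0 ℓ hℓL hJ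
  letI : Algebra K0[X] ↥(modularFunctionFieldFullC K0 L) :=
    (aeval (H69.hauptEl3 K0 L hL)⁻¹).toRingHom.toAlgebra
  have e : (X * (C 27 * X + 1) : A0[X]).map (algebraMap A0 K0) = X * (C 27 * X + 1) := by
    rw [Polynomial.map_mul, Polynomial.map_add, Polynomial.map_mul, Polynomial.map_X,
      Polynomial.map_C, map_ofNat, Polynomial.map_one]
  exact H68.reg_chartV_full K0 L A0 ℓ hℓL hπ (H69.hauptEl3 K0 L hL) (H69.haupt3Inv A0)
    (coe_inv_hauptEl3_eq K0 A0 L hL) (theta_red_threeInv K0 A0) hJ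
    (H97.transcendental_of_jM_mem hJ) (fun _ => rfl)
    (X * (C 27 * X + 1)) (H51.squarefree_std_three_inv_dvr ℓ hπ hℓ h3)
    (fun p hp h => H10.isRadical_model_three_inv_std K0 L (H69.hauptEl3 K0 L hL)⁻¹
      (H69.coe_inv_hauptEl3 K0 L hL) (fun _ => rfl) p hp (by rwa [e] at h))

end Reg

section Gen

variable (A : ValuationSubring (AlgebraicClosure ℚ)) {ℓ : ℕ} [Fact ℓ.Prime]
  (K0 : Type) [Field K0] [NumberField K0] [Algebra K0 (AlgebraicClosure ℚ)]
  (L : ℕ) [NeZero L]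

/-- **(MODEL-KUM), `ℓ ≠ 2, 3`**: the chart `j`. -/
theorem modelKumGen_j (hKC : H63.StmtKC) (hA : A.LiesOverPrime ℓ) (hℓL : ¬ ℓ ∣ L)
    (h2 : ℓ ≠ 2) (h3 : ℓ ≠ 3) (m : ℕ) (hm : ¬ ℓ ∣ m) : H74.ModelKumGen A K0 L m := by
  have hℓ : ℓ.Prime := Fact.out
  have hA0 : (A.comap (algebraMap K0 (AlgebraicClosure ℚ))).LiesOverPrime ℓ :=
    H53.liesOverPrime_comap (K := K0) A hA
  haveI : IsDiscreteValuationRing ↥(A.comap (algebraMap K0 (AlgebraicClosure ℚ))) :=
    H86.isDiscreteValuationRing_of_liesOverPrime _ hℓ hA0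
  haveI : CharP (IsLocalRing.ResidueField ↥(A.comap (algebraMap K0 (AlgebraicClosure ℚ)))) ℓ :=
    H86.charP_residueField _ hA0 hℓ
  haveI : Finite (IsLocalRing.ResidueField ↥(A.comap (algebraMap K0 (AlgebraicClosure ℚ)))) :=
    H86.finite_residueField_of_liesOverPrime _ hℓ hA0
  haveI : PerfectField
      (IsLocalRing.ResidueField ↥(A.comap (algebraMap K0 (AlgebraicClosure ℚ)))) :=
    PerfectField.ofFinite
  haveI : Algebra.IsAlgebraic ℚ (AlgebraicClosure ℚ) := AlgebraicClosure.isAlgebraic ℚ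
  haveI : Algebra.IsAlgebraic K0 (AlgebraicClosure ℚ) :=
    Algebra.IsAlgebraic.tower_top (K := ℚ) K0
  exact modelKumGen_of_chart A K0 L hKC hA hℓL m hm (H93.jFullC K0 L) (jqModC _)
    (Fermat.Agent.S28.H36.jInv _) (coe_jFullC_eq K0 _ L) (coe_inv_jFullC_eq K0 _ L)
    (H85.transcendental_of_theta_ne_zero _ (theta_red_j K0 _))
    (H85.transcendental_of_theta_ne_zero _ (theta_red_jInv K0 _))
    (IntermediateField.mem_adjoin_simple_self K0 _)
    (fun _ hπ => regU_j K0 _ ℓ L hℓL h2 h3 hπ) (fun _ hπ => regV_j K0 _ ℓ L hℓL h2 h3 hπ)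

/-- **(MODEL-KUM), `2 ∣ L`, `ℓ ≠ 2`**: the chart `t₂`. -/
theorem modelKumGen_two (hKC : H63.StmtKC) (hA : A.LiesOverPrime ℓ) (hℓL : ¬ ℓ ∣ L)
    (hL : 2 ∣ L) (h2 : ℓ ≠ 2) (m : ℕ) (hm : ¬ ℓ ∣ m) : H74.ModelKumGen A K0 L m := by
  have hℓ : ℓ.Prime := Fact.out
  have hA0 : (A.comap (algebraMap K0 (AlgebraicClosure ℚ))).LiesOverPrime ℓ :=
    H53.liesOverPrime_comap (K := K0) A hA
  haveI : IsDiscreteValuationRing ↥(A.comap (algebraMap K0 (AlgebraicClosure ℚ))) :=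
    H86.isDiscreteValuationRing_of_liesOverPrime _ hℓ hA0
  haveI : CharP (IsLocalRing.ResidueField ↥(A.comap (algebraMap K0 (AlgebraicClosure ℚ)))) ℓ :=
    H86.charP_residueField _ hA0 hℓ
  haveI : Finite (IsLocalRing.ResidueField ↥(A.comap (algebraMap K0 (AlgebraicClosure ℚ)))) :=
    H86.finite_residueField_of_liesOverPrime _ hℓ hA0
  haveI : PerfectField
      (IsLocalRing.ResidueField ↥(A.comap (algebraMap K0 (AlgebraicClosure ℚ)))) :=
    PerfectField.ofFinite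
  haveI : Algebra.IsAlgebraic ℚ (AlgebraicClosure ℚ) := AlgebraicClosure.isAlgebraic ℚ
  haveI : Algebra.IsAlgebraic K0 (AlgebraicClosure ℚ) :=
    Algebra.IsAlgebraic.tower_top (K := ℚ) K0
  exact modelKumGen_of_chart A K0 L hKC hA hℓL m hm (H69.hauptEl2 K0 L hL) (H69.haupt2 _)
    (H69.haupt2Inv _) (coe_hauptEl2_eq K0 _ L hL) (coe_inv_hauptEl2_eq K0 _ L hL)
    (H85.transcendental_of_theta_ne_zero _ (theta_red_two K0 _))
    (H85.transcendental_of_theta_ne_zero _ (theta_red_twoInv K0 _))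
    (jFullC_mem_adjoin_two K0 L hL)
    (fun _ hπ => regU_two K0 _ ℓ L hℓL hL h2 hπ) (fun _ hπ => regV_two K0 _ ℓ L hℓL hL h2 hπ)

/-- **(MODEL-KUM), `3 ∣ L`, `ℓ ≠ 3`**: the chart `t₃`. -/
theorem modelKumGen_three (hKC : H63.StmtKC) (hA : A.LiesOverPrime ℓ) (hℓL : ¬ ℓ ∣ L)
    (hL : 3 ∣ L) (h3 : ℓ ≠ 3) (m : ℕ) (hm : ¬ ℓ ∣ m) : H74.ModelKumGen A K0 L m := by
  have hℓ : ℓ.Prime := Fact.out
  have hA0 : (A.comap (algebraMap K0 (AlgebraicClosure ℚ))).LiesOverPrime ℓ :=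
    H53.liesOverPrime_comap (K := K0) A hA
  haveI : IsDiscreteValuationRing ↥(A.comap (algebraMap K0 (AlgebraicClosure ℚ))) :=
    H86.isDiscreteValuationRing_of_liesOverPrime _ hℓ hA0
  haveI : CharP (IsLocalRing.ResidueField ↥(A.comap (algebraMap K0 (AlgebraicClosure ℚ)))) ℓ :=
    H86.charP_residueField _ hA0 hℓ
  haveI : Finite (IsLocalRing.ResidueField ↥(A.comap (algebraMap K0 (AlgebraicClosure ℚ)))) :=
    H86.finite_residueField_of_liesOverPrime _ hℓ hA0
  haveI : PerfectField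
      (IsLocalRing.ResidueField ↥(A.comap (algebraMap K0 (AlgebraicClosure ℚ)))) :=
    PerfectField.ofFinite
  haveI : Algebra.IsAlgebraic ℚ (AlgebraicClosure ℚ) := AlgebraicClosure.isAlgebraic ℚ
  haveI : Algebra.IsAlgebraic K0 (AlgebraicClosure ℚ) :=
    Algebra.IsAlgebraic.tower_top (K := ℚ) K0
  exact modelKumGen_of_chart A K0 L hKC hA hℓL m hm (H69.hauptEl3 K0 L hL) (H69.haupt3 _)
    (H69.haupt3Inv _) (coe_hauptEl3_eq K0 _ L hL) (coe_inv_hauptEl3_eq K0 _ L hL)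
    (H85.transcendental_of_theta_ne_zero _ (theta_red_three K0 _))
    (H85.transcendental_of_theta_ne_zero _ (theta_red_threeInv K0 _))
    (jFullC_mem_adjoin_three K0 L hL)
    (fun _ hπ => regU_three K0 _ ℓ L hℓL hL h3 hπ)
    (fun _ hπ => regV_three K0 _ ℓ L hℓL hL h3 hπ)

end Gen

/-- **(T5), generic number field**: `H74.ModelKumGenStmt` from (KC); no constants are needed
(`C = ∅`). -/
theorem modelKumGenStmt_of_kc (hKC : H63.StmtKC) : H74.ModelKumGenStmt := by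
  intro L _ ℓ _ hℓL haux A hA m hm
  refine ⟨∅, fun K0 _ _ _ _ => ?_⟩
  by_cases h2 : ℓ = 2
  · subst h2
    have hL : 3 ∣ L := by rwa [H16.auxM_two] at haux
    exact modelKumGen_three A K0 L hKC hA hℓL hL (by norm_num) m hm
  · by_cases h3 : ℓ = 3
    · subst h3
      have hL : 2 ∣ L := by rwa [H16.auxM_three] at haux
      exact modelKumGen_two A K0 L hKC hA hℓL hL (by norm_num) m hm
    · exact modelKumGen_j A K0 L hKC hA hℓL h2 h3 m hm

/-- **(T5), generic number field.** -/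
theorem modelKumGenStmt : H74.ModelKumGenStmt := modelKumGenStmt_of_kc H08.stmtKC

/-- **(T5)**: the model Kummer statement `H60.ModelKumStmt`. -/
theorem modelKumStmt : ModelKumStmt := H74.modelKumStmt_of_gen modelKumGenStmt

/-- **The frozen statement S18** (literal frozen signature). -/
theorem s18_final (N : ℕ) [NeZero N] {ℓ : ℕ} [Fact ℓ.Prime] (hℓN : ¬ ℓ ∣ N)
    (A : ValuationSubring (AlgebraicClosure ℚ)) (hA : A.LiesOverPrime ℓ)
    (h : ModularCurve.ReductionInputsModL A N) (m : ℕ) (hm : ¬ ℓ ∣ m) (z : ModularCurve.JZero N)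
    (hmz : m • z = 0) (hz : ModularCurve.reductionModL A N z = 0) :
    z = 0 :=
  result_of_modelKumStmt modelKumStmt N hℓN A hA h m hm z hmz hz

end

end Fermat.Agent.S18.H60
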