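import Mathlib
import Fermat.Agent.S18.NCDual_helper57

/-!
# S18, node (NC): non-colliding branch points give a normal special fibre (assembly)

Layer 1: the abstract core.  `R` a noetherian integrally closed domain with a prime `π`
(think `A₀[x]`), `F` a finite separable extension of `K = Frac R`, `B` the integral closure of
`R` in `F`.  The special fibre is described by a surjection `φ : R → Pb` onto a PID with kernel
`(π)` and a ring hom `ψ : B → κ` into a field with kernel `π B` whose image generates `κ`.
-/

set_option autoImplicit false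

open Polynomial

namespace Fermat.Agent.S18.H49

section Layer1

variable {R : Type*} [CommRing R] [IsDomain R] [IsIntegrallyClosed R] [IsNoetherianRing R]
variable {K : Type*} [Field K] [Algebra R K] [IsFractionRing R K]
variable {F : Type*} [Field F] [Algebra K F] [Algebra R F] [IsScalarTower R K F]
  [FiniteDimensional K F] [Algebra.IsSeparable K F]
variable {Pb : Type*} [CommRing Pb] [IsDomain Pb] [IsPrincipalIdealRing Pb]
variable {k : Type*} [Field k] [Algebra Pb k] [IsFractionRing Pb k]
variable {κ : Type*} [Field κ] [Algebra k κ] [Algebra Pb κ] [IsScalarTower Pb k κ]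
  [FiniteDimensional k κ]

/-- The reduction datum: `φ : R → Pb` surjective with kernel `(π)`, `ψ : B → κ` with kernel
`π B`, compatible, and `κ` is generated by the image of `ψ`. -/
structure RedDatum (π : R) (φ : R →+* Pb) (ψ : ↥(integralClosure R F) →+* κ) : Prop where
  surj : Function.Surjective φ
  ker_phi : ∀ r, φ r = 0 ↔ π ∣ r
  ker_psi : ∀ b, ψ b = 0 ↔ ∃ c, b = algebraMap R (integralClosure R F) π * c
  comp : ∀ r, ψ (algebraMap R (integralClosure R F) r) = algebraMap Pb κ (φ r)
  gen : ∀ z : κ, ∃ (b : integralClosure R F) (r : R), φ r ≠ 0 ∧ z * algebraMap Pb κ (φ r) = ψ b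

variable {π : R} {φ : R →+* Pb} {ψ : ↥(integralClosure R F) →+* κ}

theorem RedDatum.psi_smul (h : RedDatum π φ ψ) (r : R) (b : integralClosure R F) :
    ψ (r • b) = φ r • ψ b := by
  rw [Algebra.smul_def, map_mul, h.comp, Algebra.smul_def]

theorem RedDatum.mem_range_of_mem_span (h : RedDatum π φ ψ) (m : κ)
    (hm : m ∈ Submodule.span Pb (Set.range ψ)) : ∃ b, ψ b = m := by
  induction hm using Submodule.span_induction with
  | mem x hx => exact hx
  | zero => exact ⟨0, map_zero ψ⟩
  | add x y _ _ hx hy =>
    obtain ⟨a, rfl⟩ := hx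
    obtain ⟨b, rfl⟩ := hy
    exact ⟨a + b, map_add ψ a b⟩
  | smul c x _ hx =>
    obtain ⟨b, rfl⟩ := hx
    obtain ⟨r, rfl⟩ := h.surj c
    exact ⟨r • b, h.psi_smul r b⟩

variable (K k) in
include K in
/-- (S1) a `Pb`-basis of the image of `ψ`, lifted to `B`; it is a `k`-basis of `κ`. -/
theorem RedDatum.exists_basis (h : RedDatum π φ ψ) :
    ∃ (n : ℕ) (β : Fin n → integralClosure R F) (bκ : Module.Basis (Fin n) k κ),
      (∀ i, bκ i = ψ (β i)) ∧ LinearIndependent Pb (fun i => ψ (β i)) ∧
      ∀ b : integralClosure R F, ψ b ∈ Submodule.span Pb (Set.range fun i => ψ (β i)) := by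
  classical
  have hfin : Module.Finite R (integralClosure R F) := IsIntegralClosure.finite R K F _
  obtain ⟨s, hs⟩ := Module.finite_def.mp hfin
  set M : Submodule Pb κ := Submodule.span Pb (Set.range ψ) with hM
  have hMfg : M.FG := by
    refine ⟨s.image ψ, le_antisymm (Submodule.span_mono ?_) (Submodule.span_le.mpr ?_)⟩
    · intro x hx
      simp only [Finset.coe_image, Set.mem_image] at hx
      obtain ⟨a, _, rfl⟩ := hx
      exact ⟨a, rfl⟩
    · rintro _ ⟨b, rfl⟩
      have hb : b ∈ Submodule.span R (s : Set (integralClosure R F)) := hs ▸ Submodule.mem_top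
      induction hb using Submodule.span_induction with
      | mem x hx =>
        exact Submodule.subset_span (by
          simp only [Finset.coe_image, Set.mem_image]; exact ⟨x, hx, rfl⟩)
      | zero => simp
      | add x y _ _ hx hy => rw [SetLike.mem_coe, map_add]; exact add_mem hx hy
      | smul r x _ hx => rw [SetLike.mem_coe, h.psi_smul]; exact Submodule.smul_mem _ _ hx
  have : Module.Finite Pb M := Module.Finite.of_fg hMfg
  have hinj : Function.Injective (algebraMap Pb κ) := by
    rw [IsScalarTower.algebraMap_eq Pb k κ]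
    exact (algebraMap k κ).injective.comp (IsFractionRing.injective Pb k)
  have : Module.IsTorsionFree Pb κ := Module.isTorsionFree_iff_algebraMap_injective.mpr hinj
  obtain ⟨n, bM⟩ := Module.basisOfFiniteTypeTorsionFree' (R := Pb) (M := M)
  have hex : ∀ i, ∃ b, ψ b = (bM i : κ) := fun i => h.mem_range_of_mem_span _ (bM i).2
  choose β hβ using hex
  have hfun : (fun i => ψ (β i)) = M.subtype ∘ bM := by
    funext i
    rw [Function.comp_apply, Submodule.subtype_apply, hβ]
  have hli : LinearIndependent Pb (fun i => ψ (β i)) := by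
    rw [hfun]; exact bM.linearIndependent.map' _ (Submodule.ker_subtype _)
  have hspan : ∀ b, ψ b ∈ Submodule.span Pb (Set.range fun i => ψ (β i)) := by
    intro b
    have hb : ψ b ∈ M := Submodule.subset_span ⟨b, rfl⟩
    have h1 : (⟨ψ b, hb⟩ : M) ∈ Submodule.span Pb (Set.range bM) := bM.mem_span _
    have h2 := Submodule.mem_map_of_mem (f := M.subtype) h1
    rw [Submodule.map_span, ← Set.range_comp, ← hfun] at h2
    exact h2
  have hlik : LinearIndependent k (fun i => ψ (β i)) := hli.localization k (nonZeroDivisors Pb)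
  have hspk : ⊤ ≤ Submodule.span k (Set.range fun i => ψ (β i)) := by
    intro z _
    obtain ⟨b, r, hr, hz⟩ := h.gen z
    have hne : algebraMap Pb k (φ r) ≠ 0 := fun h0 => hr (IsFractionRing.injective Pb k (by
      rw [h0, map_zero]))
    have hz' : z = (algebraMap Pb k (φ r))⁻¹ • ψ b := by
      have hne' : algebraMap k κ (algebraMap Pb k (φ r)) ≠ 0 := (_root_.map_ne_zero _).mpr hne
      rw [← hz, IsScalarTower.algebraMap_apply Pb k κ, Algebra.smul_def, map_inv₀, mul_comm z,
        inv_mul_cancel_left₀ hne']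
    rw [hz']
    exact Submodule.smul_mem _ _ (Submodule.span_subset_span Pb k _ (hspan b))
  exact ⟨n, β, Module.Basis.mk hlik hspk, fun i => by simp [Module.Basis.mk_apply], hli, hspan⟩

omit [IsDomain R] [IsIntegrallyClosed R] [IsNoetherianRing R] in
theorem coe_sum_smul {n : ℕ} (c : Fin n → R) (β : Fin n → integralClosure R F) :
    ((∑ i, c i • β i : integralClosure R F) : F) = ∑ i, c i • (β i : F) := by
  change (integralClosure R F).val (∑ i, c i • β i) = _
  rw [map_sum]
  exact Finset.sum_congr rfl fun i _ => map_smul _ _ _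

theorem RedDatum.phi_pi (h : RedDatum π φ ψ) : φ π = 0 := (h.ker_phi π).mpr dvd_rfl

variable (k) in
include k in
theorem RedDatum.algebraMap_injective (_h : RedDatum π φ ψ) :
    Function.Injective (algebraMap Pb κ) := by
  rw [IsScalarTower.algebraMap_eq Pb k κ]
  exact (algebraMap k κ).injective.comp (IsFractionRing.injective Pb k)

include K in
/-- (S2) Nakayama: some `s ≡ 1 mod π` multiplies `B` into the lattice spanned by `β`. -/
theorem RedDatum.exists_smul_mem_span (h : RedDatum π φ ψ) {n : ℕ}
    (β : Fin n → integralClosure R F)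
    (hspan : ∀ b : integralClosure R F,
      ψ b ∈ Submodule.span Pb (Set.range fun i => ψ (β i))) :
    ∃ s : R, φ s = 1 ∧
      ∀ b : integralClosure R F, s • b ∈ Submodule.span R (Set.range β) := by
  classical
  have hfin : Module.Finite R (integralClosure R F) := IsIntegralClosure.finite R K F _
  set Λ : Submodule R (integralClosure R F) := Submodule.span R (Set.range β) with hΛ
  have hfg : (⊤ : Submodule R (integralClosure R F ⧸ Λ)).FG := Module.finite_def.mp inferInstance
  have hle : (⊤ : Submodule R (integralClosure R F ⧸ Λ)) ≤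
      (Ideal.span {π} : Ideal R) • (⊤ : Submodule R (integralClosure R F ⧸ Λ)) := by
    intro x _
    obtain ⟨b, rfl⟩ := Submodule.Quotient.mk_surjective Λ x
    obtain ⟨c, hc⟩ := (Submodule.mem_span_range_iff_exists_fun Pb).mp (hspan b)
    choose r hr using fun i => h.surj (c i)
    have hker : ψ (b - ∑ i, r i • β i) = 0 := by
      rw [map_sub, map_sum, ← hc, sub_eq_zero]
      exact Finset.sum_congr rfl fun i _ => by rw [h.psi_smul, hr]
    obtain ⟨d, hd⟩ := (h.ker_psi _).mp hker
    have hb : b = ∑ i, r i • β i + π • d := by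
      rw [Algebra.smul_def, ← hd]; ring
    have hmem : ∑ i, r i • β i ∈ Λ :=
      Submodule.sum_mem _ fun i _ => Submodule.smul_mem _ _ (Submodule.subset_span ⟨i, rfl⟩)
    have : (Submodule.Quotient.mk b : integralClosure R F ⧸ Λ) = π • Submodule.Quotient.mk d := by
      rw [hb, Submodule.Quotient.mk_add, (Submodule.Quotient.mk_eq_zero Λ).mpr hmem, zero_add,
        Submodule.Quotient.mk_smul]
    rw [this]
    exact Submodule.smul_mem_smul (Ideal.mem_span_singleton_self π) Submodule.mem_top
  obtain ⟨s, hs1, hs⟩ :=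
    Submodule.exists_sub_one_mem_and_smul_eq_zero_of_fg_of_le_smul _ _ hfg hle
  refine ⟨s, ?_, fun b => ?_⟩
  · obtain ⟨c, hc⟩ := Ideal.mem_span_singleton'.mp hs1
    have : φ s - 1 = 0 := by rw [← map_one φ, ← map_sub, ← hc, map_mul, h.phi_pi, mul_zero]
    exact sub_eq_zero.mp this
  · have := hs (Submodule.Quotient.mk b) Submodule.mem_top
    rwa [← Submodule.Quotient.mk_smul, Submodule.Quotient.mk_eq_zero] at this

include K in
/-- (S3) the lifted basis is a `K`-basis of `F`. -/
theorem RedDatum.exists_basisF (h : RedDatum π φ ψ) (hπ : π ≠ 0) {n : ℕ}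
    (β : Fin n → integralClosure R F)
    (hli : LinearIndependent Pb (fun i => ψ (β i)))
    (s : R) (hs1 : φ s = 1)
    (hs : ∀ b : integralClosure R F, s • b ∈ Submodule.span R (Set.range β)) :
    ∃ bF : Module.Basis (Fin n) K F, ∀ i, bF i = (β i : F) := by
  classical
  have hinjRF : Function.Injective (algebraMap R F) := by
    rw [IsScalarTower.algebraMap_eq R K F]
    exact (algebraMap K F).injective.comp (IsFractionRing.injective R K)
  have hpitop : (Ideal.span {π} : Ideal R) ≠ ⊤ := by
    intro htop
    have h1 : (1 : R) ∈ Ideal.span {π} := htop ▸ Submodule.mem_top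
    obtain ⟨c, hc⟩ := Ideal.mem_span_singleton'.mp h1
    have : φ 1 = 0 := by rw [← hc, map_mul, h.phi_pi, mul_zero]
    rw [map_one] at this
    exact one_ne_zero this
  -- divisibility by all powers of π
  have key : ∀ m : ℕ, ∀ g : Fin n → R, ∑ i, g i • (β i : F) = 0 → ∀ i, π ^ m ∣ g i := by
    intro m
    induction m with
    | zero => intro g _ i; simp
    | succ m ih =>
      intro g hg
      choose g' hg' using ih g hg
      have h0 : ∑ i, g' i • (β i : F) = 0 := by
        have : algebraMap R F (π ^ m) * ∑ i, g' i • (β i : F) = 0 := by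
          rw [Finset.mul_sum, ← hg]
          refine Finset.sum_congr rfl fun i _ => ?_
          rw [hg' i, Algebra.smul_def, Algebra.smul_def, map_mul, mul_assoc]
        rcases mul_eq_zero.mp this with h1 | h1
        · exact absurd (hinjRF (by rw [h1, map_zero])) (pow_ne_zero m hπ)
        · exact h1
      have h0B : ∑ i, g' i • β i = 0 := by
        apply Subtype.val_injective
        rw [coe_sum_smul, h0]
        rfl
      have h0κ : ∑ i, φ (g' i) • ψ (β i) = 0 := by
        rw [← map_zero ψ, ← h0B, map_sum]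
        exact Finset.sum_congr rfl fun i _ => (h.psi_smul _ _).symm
      have hz := Fintype.linearIndependent_iff.mp hli _ h0κ
      intro i
      obtain ⟨c, hc⟩ := (h.ker_phi _).mp (hz i)
      rw [hg' i, hc, pow_succ]
      exact mul_dvd_mul_left _ (dvd_mul_right _ _)
  have hliR : LinearIndependent R (fun i => (β i : F)) := by
    rw [Fintype.linearIndependent_iff]
    intro g hg i
    have hmem : g i ∈ ⨅ m : ℕ, (Ideal.span {π} : Ideal R) ^ m := by
      rw [Ideal.mem_iInf]
      intro m
      rw [Ideal.span_singleton_pow, Ideal.mem_span_singleton]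
      exact key m g hg i
    rwa [Ideal.iInf_pow_eq_bot_of_isDomain _ hpitop, Ideal.mem_bot] at hmem
  have hliK : LinearIndependent K (fun i => (β i : F)) :=
    hliR.localization K (nonZeroDivisors R)
  have hs0 : s ≠ 0 := by
    rintro rfl
    rw [map_zero] at hs1
    exact zero_ne_one hs1
  have hsp : ⊤ ≤ Submodule.span K (Set.range fun i => (β i : F)) := by
    intro y _
    have halg : IsAlgebraic R y :=
      (IsFractionRing.isAlgebraic_iff R K F).mpr (Algebra.IsAlgebraic.isAlgebraic y)
    obtain ⟨d, hd0, hd⟩ := halg.exists_integral_multiple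
    have hmem := hs ⟨d • y, hd⟩
    obtain ⟨c, hc⟩ := (Submodule.mem_span_range_iff_exists_fun R).mp hmem
    have hc' : ∑ i, c i • (β i : F) = algebraMap R F (s * d) * y := by
      have := congrArg (Subtype.val : integralClosure R F → F) hc
      rw [coe_sum_smul] at this
      rw [this]
      change s • (d • y) = _
      rw [smul_smul, Algebra.smul_def]
    have hsd : algebraMap R K (s * d) ≠ 0 := fun h0 =>
      mul_ne_zero hs0 hd0 (IsFractionRing.injective R K (by rw [h0, map_zero]))
    have hy : y = ∑ i, ((algebraMap R K (s * d))⁻¹ * algebraMap R K (c i)) • (β i : F) := by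
      have hsd' : algebraMap K F (algebraMap R K (s * d)) ≠ 0 := (_root_.map_ne_zero _).mpr hsd
      have : y = (algebraMap R K (s * d))⁻¹ • ∑ i, c i • (β i : F) := by
        rw [hc', IsScalarTower.algebraMap_apply R K F, Algebra.smul_def, map_inv₀,
          inv_mul_cancel_left₀ hsd']
      rw [this, Finset.smul_sum]
      refine Finset.sum_congr rfl fun i _ => ?_
      rw [mul_smul, algebraMap_smul]
    rw [hy]
    exact Submodule.sum_mem _ fun i _ => Submodule.smul_mem _ _ (Submodule.subset_span ⟨i, rfl⟩)
  exact ⟨Module.Basis.mk hliK hsp, fun i => by simp [Module.Basis.mk_apply]⟩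

/-- (S4) traces of elements of `B` lie in `R` and reduce to the traces of their reductions. -/
theorem RedDatum.trace_compat (h : RedDatum π φ ψ) {n : ℕ}
    (β : Fin n → integralClosure R F)
    (bF : Module.Basis (Fin n) K F) (hbF : ∀ i, bF i = (β i : F))
    (bκ : Module.Basis (Fin n) k κ) (hbκ : ∀ i, bκ i = ψ (β i))
    (s : R) (hs1 : φ s = 1)
    (hs : ∀ b : integralClosure R F, s • b ∈ Submodule.span R (Set.range β))
    (b : integralClosure R F) :
    ∃ t : R, Algebra.trace K F (b : F) = algebraMap R K t ∧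
      Algebra.trace k κ (ψ b) = algebraMap Pb k (φ t) := by
  classical
  choose c hc using fun j => (Submodule.mem_span_range_iff_exists_fun R).mp (hs (b * β j))
  -- integrality of the trace
  have hbint : IsIntegral R (b : F) := b.2
  obtain ⟨t, ht⟩ := IsIntegrallyClosed.isIntegral_iff.mp
    (Algebra.isIntegral_trace (R := R) (L := K) (F := F) hbint)
  -- the trace of `s • b` over `K`
  have hF : ∀ j, (algebraMap R K s • (b : F)) * bF j =
      ∑ i, algebraMap R K (c j i) • bF i := by
    intro j
    have h1 := congrArg (Subtype.val : integralClosure R F → F) (hc j)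
    rw [coe_sum_smul] at h1
    have h2 : ((s • (b * β j) : integralClosure R F) : F) = s • ((b : F) * (β j : F)) := rfl
    rw [h2] at h1
    rw [hbF, algebraMap_smul, smul_mul_assoc, ← h1]
    exact Finset.sum_congr rfl fun i _ => by rw [hbF, algebraMap_smul]
  have htrF : Algebra.trace K F (algebraMap R K s • (b : F)) = algebraMap R K (∑ j, c j j) := by
    rw [Algebra.trace_eq_matrix_trace bF, Matrix.trace, map_sum]
    refine Finset.sum_congr rfl fun j _ => ?_
    rw [Matrix.diag_apply, Algebra.leftMulMatrix_eq_repr_mul, hF j, Module.Basis.repr_sum_self]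
  have hst : s * t = ∑ j, c j j := by
    apply IsFractionRing.injective R K
    rw [← htrF, map_smul, ← ht, smul_eq_mul, map_mul]
  -- the trace of `ψ b` over `k`
  have hκ : ∀ j, ψ b * bκ j = ∑ i, algebraMap Pb k (φ (c j i)) • bκ i := by
    intro j
    have h1 := congrArg ψ (hc j)
    rw [map_sum, h.psi_smul, hs1, one_smul, map_mul] at h1
    rw [hbκ, ← h1]
    exact Finset.sum_congr rfl fun i _ => by rw [hbκ, algebraMap_smul, h.psi_smul]
  have htrκ : Algebra.trace k κ (ψ b) = algebraMap Pb k (φ (∑ j, c j j)) := by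
    rw [Algebra.trace_eq_matrix_trace bκ, Matrix.trace, map_sum, map_sum]
    refine Finset.sum_congr rfl fun j _ => ?_
    rw [Matrix.diag_apply, Algebra.leftMulMatrix_eq_repr_mul, hκ j, Module.Basis.repr_sum_self]
  refine ⟨t, ht.symm, ?_⟩
  rw [htrκ, ← hst, map_mul, hs1, one_mul]

omit [IsDomain R] [IsIntegrallyClosed R] [IsNoetherianRing R] [IsDomain Pb]
  [IsPrincipalIdealRing Pb] in
theorem RedDatum.isIntegral_psi (h : RedDatum π φ ψ) (b : integralClosure R F) :
    IsIntegral Pb (ψ b) := by
  obtain ⟨p, hp, hpb⟩ := integralClosure.isIntegral b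
  refine ⟨p.map φ, hp.map φ, ?_⟩
  have hcomp : (algebraMap Pb κ).comp φ = ψ.comp (algebraMap R (integralClosure R F)) := by
    ext r
    simp [h.comp]
  rw [Polynomial.eval₂_map, hcomp, ← Polynomial.hom_eval₂, hpb, map_zero]

variable (K k) in
include K k in
/-- (S7) transfer: an element of `F` with a `π`-power multiple and a multiple by some
`d ∉ (π)` in `B` lies in `B` (because `π B` is prime). -/
theorem RedDatum.isIntegral_of_mul (h : RedDatum π φ ψ) (hπ : π ≠ 0) (x : F)
    (d : R) (hd : φ d ≠ 0) (hdx : IsIntegral R (algebraMap R F d * x)) :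
    ∀ m : ℕ, IsIntegral R (algebraMap R F (π ^ m) * x) → IsIntegral R x := by
  have hinjRF : Function.Injective (algebraMap R F) := by
    rw [IsScalarTower.algebraMap_eq R K F]
    exact (algebraMap K F).injective.comp (IsFractionRing.injective R K)
  have hπF : algebraMap R F π ≠ 0 := fun h0 => hπ (hinjRF (by rw [h0, map_zero]))
  intro m
  induction m with
  | zero => intro hk; simpa using hk
  | succ m ih =>
    intro hk
    apply ih
    have hb₁ : IsIntegral R (algebraMap R F π * (algebraMap R F (π ^ m) * x)) := by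
      have : algebraMap R F π * (algebraMap R F (π ^ m) * x) = algebraMap R F (π ^ (m + 1)) * x := by
        rw [pow_succ, map_mul]; ring
      rw [this]; exact hk
    have hb₂ : IsIntegral R (algebraMap R F (π ^ m) * (algebraMap R F d * x)) :=
      isIntegral_algebraMap.mul hdx
    have heq : d • (⟨_, hb₁⟩ : integralClosure R F) = π • (⟨_, hb₂⟩ : integralClosure R F) := by
      apply Subtype.ext
      change d • (algebraMap R F π * (algebraMap R F (π ^ m) * x)) =
        π • (algebraMap R F (π ^ m) * (algebraMap R F d * x))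
      rw [Algebra.smul_def, Algebra.smul_def]; ring
    have hψ : φ d • ψ (⟨_, hb₁⟩ : integralClosure R F) = 0 := by
      rw [← h.psi_smul, heq, h.psi_smul, h.phi_pi, zero_smul]
    have hψ0 : ψ (⟨_, hb₁⟩ : integralClosure R F) = 0 := by
      rw [Algebra.smul_def] at hψ
      rcases mul_eq_zero.mp hψ with h1 | h1
      · exact absurd (h.algebraMap_injective k (by rw [h1, map_zero])) hd
      · exact h1
    obtain ⟨c, hc⟩ := (h.ker_psi _).mp hψ0
    have hcF : algebraMap R F π * (algebraMap R F (π ^ m) * x) = algebraMap R F π * (c : F) :=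
      congrArg (Subtype.val : integralClosure R F → F) hc
    rw [mul_left_cancel₀ hπF hcF]
    exact c.2

/-- (S5) the "dual basis up to the discriminant": elements `H i ∈ B` with
`Tr (H i * β j) = δ` or `0`, where `δ ∉ (π)`. -/
theorem RedDatum.exists_dual [Algebra.IsSeparable k κ] (h : RedDatum π φ ψ) {n : ℕ}
    (β : Fin n → integralClosure R F)
    (bF : Module.Basis (Fin n) K F) (hbF : ∀ i, bF i = (β i : F))
    (bκ : Module.Basis (Fin n) k κ) (hbκ : ∀ i, bκ i = ψ (β i))
    (s : R) (hs1 : φ s = 1)
    (hs : ∀ b : integralClosure R F, s • b ∈ Submodule.span R (Set.range β)) :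
    ∃ (δ : R) (H : Fin n → integralClosure R F), φ δ ≠ 0 ∧
      ∀ i j, Algebra.trace K F ((H i : F) * (β j : F)) =
        algebraMap R K (if i = j then δ else 0) := by
  classical
  choose T hT hT' using fun i j => h.trace_compat β bF hbF bκ hbκ s hs1 hs (β i * β j)
  set TM : Matrix (Fin n) (Fin n) R := Matrix.of T with hTM
  have hδ : φ TM.det ≠ 0 := by
    have hdisc : algebraMap Pb k (φ TM.det) = Algebra.discr k bκ := by
      rw [Algebra.discr_def, ← RingHom.comp_apply, RingHom.map_det]
      congr 1
      ext i j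
      rw [RingHom.mapMatrix_apply, Matrix.map_apply, hTM, Matrix.of_apply, RingHom.comp_apply,
        ← hT' i j, map_mul, Algebra.traceMatrix_apply, Algebra.traceForm_apply, hbκ, hbκ]
    intro h0
    exact Algebra.discr_not_zero_of_basis k bκ (by rw [← hdisc, h0, map_zero])
  refine ⟨TM.det, fun i => ∑ l, TM.adjugate i l • β l, hδ, fun i j => ?_⟩
  rw [coe_sum_smul, Finset.sum_mul, map_sum]
  have hterm : ∀ l, Algebra.trace K F ((TM.adjugate i l • (β l : F)) * (β j : F)) =
      algebraMap R K (TM.adjugate i l * TM l j) := by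
    intro l
    have h1 : (TM.adjugate i l • (β l : F)) * (β j : F) =
        algebraMap R K (TM.adjugate i l) • (((β l * β j : integralClosure R F)) : F) := by
      rw [algebraMap_smul, smul_mul_assoc]; rfl
    rw [h1, map_smul, hT l j, smul_eq_mul, ← map_mul]
    rfl
  rw [Finset.sum_congr rfl fun l _ => hterm l, ← map_sum]
  congr 1
  have hadj := congrFun (congrFun (Matrix.adjugate_mul TM) i) j
  rw [Matrix.mul_apply, Matrix.smul_apply, Matrix.one_apply, smul_eq_mul, mul_ite, mul_one,
    mul_zero] at hadj
  exact hadj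

section Core

variable {P : Type*} [CommRing P] [IsDomain P] [IsPrincipalIdealRing P] [Algebra ℚ P]
  [Algebra P K] [IsFractionRing P K] [Algebra P F] [IsScalarTower P K F]
  [Algebra R P] [IsScalarTower R P K]

variable (k) in
include k in
/-- (S6)+(S7) the characteristic-zero input: for each `i` an element `y ∈ B` with
`Tr (y β_j) = Pi * s * δ_ij` and `y ^ N ∈ Pi B`. -/
theorem RedDatum.exists_char_zero (h : RedDatum π φ ψ) (hπ : π ≠ 0) (hP : ¬ IsField P)
    (hπP : IsUnit (algebraMap R P π))
    (hPint : ∀ y : F, IsIntegral P y → ∃ m : ℕ, IsIntegral R (algebraMap R F (π ^ m) * y))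
    (Pi : R) (hPi : φ Pi ≠ 0)
    (hunr : ∀ p : Ideal P, p.IsMaximal → algebraMap R P Pi ∉ p →
      (p.map (algebraMap P (integralClosure P F))).IsRadical)
    {n : ℕ} (β : Fin n → integralClosure R F)
    (s : R) (hs1 : φ s = 1)
    (hs : ∀ b : integralClosure R F, s • b ∈ Submodule.span R (Set.range β))
    (δ : R) (hδ : φ δ ≠ 0) (H : Fin n → integralClosure R F)
    (hH : ∀ i j, Algebra.trace K F ((H i : F) * (β j : F)) =
      algebraMap R K (if i = j then δ else 0))
    (i : Fin n) :
    ∃ (y w : integralClosure R F) (N : ℕ),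
      y ^ N = algebraMap R (integralClosure R F) Pi * w ∧
      ∀ j, Algebra.trace K F ((y : F) * (β j : F)) =
        algebraMap R K (if i = j then Pi * s else 0) := by
  classical
  have haK : Function.Injective (algebraMap R K) := IsFractionRing.injective R K
  have htow : ∀ r : R, algebraMap R F r = algebraMap K F (algebraMap R K r) :=
    fun r => IsScalarTower.algebraMap_apply R K F r
  have htowP : ∀ r : R, algebraMap R F r = algebraMap P F (algebraMap R P r) := by
    intro r
    rw [IsScalarTower.algebraMap_apply P K F, ← IsScalarTower.algebraMap_apply R P K, htow]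
  have hne : ∀ r : R, φ r ≠ 0 → algebraMap R K r ≠ 0 := by
    intro r hr h0
    have : r = 0 := haK (h0.trans (map_zero _).symm)
    exact hr (by rw [this, map_zero])
  have hδ0 : algebraMap R K δ ≠ 0 := hne δ hδ
  have hs0 : algebraMap R K s ≠ 0 := hne s (by rw [hs1]; exact one_ne_zero)
  set zc : K := algebraMap R K s * (algebraMap R K δ)⁻¹ with hzc
  set Z : F := zc • (H i : F) with hZ
  have hT0 : ∀ l, Algebra.trace K F (Z * (β l : F)) =
      if i = l then algebraMap R K s else 0 := by
    intro l
    rw [hZ, smul_mul_assoc, map_smul, hH i l, smul_eq_mul]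
    split_ifs with hil
    · rw [hzc, mul_assoc, inv_mul_cancel₀ hδ0, mul_one]
    · rw [map_zero, mul_zero]
  have hT1 : ∀ c : Fin n → R, Algebra.trace K F (Z * ∑ l, c l • (β l : F)) =
      algebraMap R K (s * c i) := by
    intro c
    rw [Finset.mul_sum, map_sum]
    have : ∀ l, Algebra.trace K F (Z * c l • (β l : F)) =
        algebraMap R K (c l) * (if i = l then algebraMap R K s else 0) := by
      intro l
      rw [← algebraMap_smul K (c l), mul_smul_comm, map_smul, hT0 l, smul_eq_mul]
    rw [Finset.sum_congr rfl fun l _ => this l]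
    simp [mul_comm]
  -- `Z` lies in the trace dual of the integral closure of `P`
  have hdual : ∀ b : integralClosure P F,
      Algebra.trace K F (Z * algebraMap (integralClosure P F) F b) ∈ (algebraMap P K).range := by
    intro b
    obtain ⟨m, hm⟩ := hPint (b : F) b.2
    obtain ⟨c, hc⟩ := (Submodule.mem_span_range_iff_exists_fun R).mp (hs ⟨_, hm⟩)
    have hc' : ∑ l, c l • (β l : F) = algebraMap R K (s * π ^ m) • (b : F) := by
      rw [← coe_sum_smul, hc]
      change s • (algebraMap R F (π ^ m) * (b : F)) = _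
      rw [Algebra.smul_def, ← mul_assoc, ← map_mul, htow, ← Algebra.smul_def]
    have h1 := hT1 c
    rw [hc', mul_smul_comm, map_smul, smul_eq_mul, _root_.map_mul (algebraMap R K) s (π ^ m),
      _root_.map_mul (algebraMap R K) s (c i)] at h1
    have h2 : algebraMap R K (π ^ m) * Algebra.trace K F (Z * (b : F)) = algebraMap R K (c i) := by
      apply mul_left_cancel₀ hs0
      rw [← mul_assoc]; exact h1
    obtain ⟨u, hu⟩ := hπP.exists_right_inv
    have hπm : algebraMap R K (π ^ m) ≠ 0 := by
      intro h0
      exact pow_ne_zero m hπ (haK (h0.trans (map_zero _).symm))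
    refine ⟨algebraMap R P (c i) * u ^ m, ?_⟩
    apply mul_left_cancel₀ hπm
    change _ = algebraMap R K (π ^ m) * Algebra.trace K F (Z * (b : F))
    rw [h2, IsScalarTower.algebraMap_apply R P K, IsScalarTower.algebraMap_apply R P K, ← map_mul]
    congr 1
    rw [map_pow, mul_left_comm, ← mul_pow, hu, one_pow, mul_one]
  have hq : algebraMap R P Pi ≠ 0 := by
    intro h0
    exact hne Pi hPi (by rw [IsScalarTower.algebraMap_apply R P K, h0, map_zero])
  obtain ⟨y, hy, N, hyN⟩ :=
    H57.mul_mem_of_trace_mem (K := K) hP (algebraMap R P Pi) hq hunr Z hdual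
  obtain ⟨w, hw⟩ := Ideal.mem_span_singleton'.mp hyN
  have hyF : (y : F) = algebraMap R F Pi * Z := by rw [htowP]; exact hy
  have hδy : algebraMap R F δ * (y : F) = algebraMap R F (Pi * s) * (H i : F) := by
    have hK : algebraMap R K δ * (algebraMap R K Pi * zc) = algebraMap R K (Pi * s) := by
      rw [hzc, _root_.map_mul]; field_simp
    rw [hyF, hZ, htow δ, htow Pi, htow (Pi * s), ← hK, Algebra.smul_def]
    simp only [_root_.map_mul]; ring
  have hδyint : IsIntegral R (algebraMap R F δ * (y : F)) := by
    rw [hδy]; exact isIntegral_algebraMap.mul (H i).2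
  have hyint : IsIntegral R (y : F) := by
    obtain ⟨m, hm⟩ := hPint (y : F) y.2
    exact h.isIntegral_of_mul K k hπ (y : F) δ hδ hδyint m hm
  have hwF : (y : F) ^ N = algebraMap R F Pi * (w : F) := by
    have := congrArg (algebraMap (integralClosure P F) F) hw
    rw [map_mul, map_pow] at this
    rw [htowP, mul_comm]
    exact this.symm
  have hwint : IsIntegral R (w : F) := by
    obtain ⟨m, hm⟩ := hPint (w : F) w.2
    refine h.isIntegral_of_mul K k hπ (w : F) (δ ^ N * Pi) ?_ ?_ m hm
    · rw [map_mul, map_pow]; exact mul_ne_zero (pow_ne_zero _ hδ) hPi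
    · have : algebraMap R F (δ ^ N * Pi) * (w : F) = (algebraMap R F δ * (y : F)) ^ N := by
        rw [mul_pow, hwF, map_mul, map_pow]; ring
      rw [this]; exact hδyint.pow N
  refine ⟨⟨y, hyint⟩, ⟨w, hwint⟩, N, Subtype.ext hwF, fun j => ?_⟩
  change Algebra.trace K F ((y : F) * (β j : F)) = _
  rw [hyF, htow Pi, ← Algebra.smul_def, smul_mul_assoc, map_smul, hT0 j, smul_eq_mul]
  split_ifs
  · rw [map_mul]
  · rw [mul_zero, map_zero]

variable (K k) in
include K in
/-- **(NC), abstract core.**  Every element of `κ` integral over `Pb` is the reduction of an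
element of `B`. -/
theorem nc_core [Algebra.IsSeparable k κ] (h : RedDatum π φ ψ) (hπ : π ≠ 0) (hP : ¬ IsField P)
    (hπP : IsUnit (algebraMap R P π))
    (hPint : ∀ y : F, IsIntegral P y → ∃ m : ℕ, IsIntegral R (algebraMap R F (π ^ m) * y))
    (Pi : R) (hPi : Squarefree (φ Pi))
    (hunr : ∀ p : Ideal P, p.IsMaximal → algebraMap R P Pi ∉ p →
      (p.map (algebraMap P (integralClosure P F))).IsRadical)
    (z : κ) (hz : IsIntegral Pb z) : ∃ b : integralClosure R F, ψ b = z := by
  classical
  obtain ⟨n, β, bκ, hbκ, hli, hspan⟩ := h.exists_basis K k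
  obtain ⟨s, hs1, hs⟩ := h.exists_smul_mem_span (K := K) β hspan
  obtain ⟨bF, hbF⟩ := h.exists_basisF (K := K) hπ β hli s hs1 hs
  obtain ⟨δ, H, hδ, hH⟩ := h.exists_dual β bF hbF bκ hbκ s hs1 hs
  have hPi0 : φ Pi ≠ 0 := hPi.ne_zero
  have hPik : algebraMap Pb k (φ Pi) ≠ 0 := fun h0 =>
    hPi0 (IsFractionRing.injective Pb k (h0.trans (map_zero _).symm))
  have hinjS : Function.Injective (algebraMap Pb (integralClosure Pb κ)) := by
    intro a b hab
    apply h.algebraMap_injective k
    have := congrArg (Subtype.val : integralClosure Pb κ → κ) hab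
    exact this
  have hfinS : Module.Finite Pb (integralClosure Pb κ) := IsIntegralClosure.finite Pb k κ _
  have hicS : IsIntegrallyClosed (integralClosure Pb κ) :=
    integralClosure.isIntegrallyClosedOfFiniteExtension k
  have htfS : Module.IsTorsionFree Pb (integralClosure Pb κ) :=
    Module.isTorsionFree_iff_algebraMap_injective.mpr hinjS
  have hrad : (Ideal.span {φ Pi}).IsRadical := isRadical_iff_span_singleton.mp hPi.isRadical
  have hcoef : ∀ i, ∃ c : Pb, bκ.repr z i = algebraMap Pb k c := by
    intro i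
    obtain ⟨y, w, N, hyw, hytr⟩ :=
      h.exists_char_zero k hπ hP hπP hPint Pi hPi0 hunr β s hs1 hs δ hδ H hH i
    have htr : ∀ j, Algebra.trace k κ (ψ y * bκ j) =
        if i = j then algebraMap Pb k (φ Pi) else 0 := by
      intro j
      obtain ⟨t, ht, ht'⟩ := h.trace_compat β bF hbF bκ hbκ s hs1 hs (y * β j)
      have ht0 : t = if i = j then Pi * s else 0 :=
        IsFractionRing.injective R K (by rw [← ht]; exact hytr j)
      rw [hbκ, ← map_mul, ht', ht0]
      split_ifs
      · rw [map_mul, hs1, mul_one]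
      · rw [map_zero, map_zero]
    have htrz : Algebra.trace k κ (ψ y * z) = bκ.repr z i * algebraMap Pb k (φ Pi) := by
      conv_lhs => rw [← bκ.sum_repr z]
      rw [Finset.mul_sum, map_sum]
      have : ∀ j, Algebra.trace k κ (ψ y * (bκ.repr z j • bκ j)) =
          bκ.repr z j * (if i = j then algebraMap Pb k (φ Pi) else 0) := by
        intro j
        rw [mul_smul_comm, map_smul, htr j, smul_eq_mul]
      rw [Finset.sum_congr rfl fun j _ => this j]
      simp
    have heN : (⟨ψ y * z, (h.isIntegral_psi y).mul hz⟩ : integralClosure Pb κ) ^ N ∈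
        Ideal.span {algebraMap Pb (integralClosure Pb κ) (φ Pi)} := by
      refine Ideal.mem_span_singleton'.mpr
        ⟨⟨ψ w * z ^ N, (h.isIntegral_psi w).mul (hz.pow N)⟩, Subtype.ext ?_⟩
      change ψ w * z ^ N * algebraMap Pb κ (φ Pi) = (ψ y * z) ^ N
      rw [mul_pow, ← map_pow, hyw, map_mul, h.comp]; ring
    obtain ⟨c, hc⟩ := H57.dvd_intTrace_of_pow_mem (φ Pi) hPi0 hrad _ N heN
    refine ⟨c, ?_⟩
    have h1 := Algebra.algebraMap_intTrace (A := Pb) (K := k) (L := κ)
      (B := integralClosure Pb κ) ⟨ψ y * z, (h.isIntegral_psi y).mul hz⟩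
    rw [hc, map_mul] at h1
    have h2 : Algebra.trace k κ (algebraMap (integralClosure Pb κ) κ
        ⟨ψ y * z, (h.isIntegral_psi y).mul hz⟩) = bκ.repr z i * algebraMap Pb k (φ Pi) := htrz
    rw [h2, mul_comm] at h1
    exact (mul_right_cancel₀ hPik h1).symm
  choose c hc using hcoef
  choose r hr using fun i => h.surj (c i)
  refine ⟨∑ i, r i • β i, ?_⟩
  rw [map_sum, ← bκ.sum_repr z]
  refine Finset.sum_congr rfl fun i _ => ?_
  rw [h.psi_smul, hr, hc, algebraMap_smul, hbκ]

end Core

end Layer1

section Dom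

/-- a root of a polynomial with non-vanishing derivative at it is separable. -/
theorem isSeparable_of_aeval_derivative_ne_zero {k κ : Type*} [Field k] [Field κ] [Algebra k κ]
    (x : κ) (p : k[X]) (hp : aeval x p = 0) (hp' : aeval x (derivative p) ≠ 0) :
    IsSeparable k x := by
  have hp0 : p ≠ 0 := by
    rintro rfl
    simp at hp'
  have hint : IsIntegral k x := isAlgebraic_iff_isIntegral.mp ⟨p, hp0, hp⟩
  obtain ⟨g, hg⟩ := minpoly.dvd k x hp
  have hne : aeval x (derivative (minpoly k x)) ≠ 0 := by
    intro h0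
    apply hp'
    rw [hg, derivative_mul, map_add, _root_.map_mul, _root_.map_mul, h0, minpoly.aeval, zero_mul,
      zero_mul, add_zero]
  exact (Polynomial.separable_iff_derivative_ne_zero (minpoly.irreducible hint)).mpr
    (fun h0 => hne (by rw [h0, map_zero]))

variable {R : Type*} [CommRing R] [IsDomain R] [IsIntegrallyClosed R] [IsNoetherianRing R]
variable (K : Type*) [Field K] [Algebra R K] [IsFractionRing R K]
variable {F : Type*} [Field F] [Algebra K F] [Algebra R F] [IsScalarTower R K F]
  [FiniteDimensional K F] [Algebra.IsSeparable K F]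
variable {Pb : Type*} [CommRing Pb] [IsDomain Pb] [IsPrincipalIdealRing Pb]
variable {P : Type*} [CommRing P] [IsDomain P] [IsPrincipalIdealRing P] [Algebra ℚ P]
  [Algebra P K] [IsFractionRing P K] [Algebra P F] [IsScalarTower P K F]
  [Algebra R P] [IsScalarTower R P K]

include K in
/-- **(NC), domain form.**  `red : B → Bb` a surjection onto a domain with kernel `π B`,
compatible with `φ : R → Pb` (kernel `(π)`, `Pb` a PID).  If the residue extension is separable
(elementwise form `hsep`) and `F / K` is unramified over `P = R[1/π]` (a PID of residue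
characteristic zero) outside `Pi`, where `φ Pi` is squarefree, then `Bb` is integrally closed. -/
theorem nc_dom {Bb : Type*} [CommRing Bb] [IsDomain Bb] [Algebra Pb Bb]
    (π : R) (hπ : π ≠ 0) (φ : R →+* Pb) (hφ : Function.Surjective φ)
    (hker : ∀ r, φ r = 0 ↔ π ∣ r)
    (red : integralClosure R F →+* Bb) (hred : Function.Surjective red)
    (hkerB : ∀ b, red b = 0 ↔ ∃ c, b = algebraMap R (integralClosure R F) π * c)
    (hcomm : ∀ r, red (algebraMap R (integralClosure R F) r) = algebraMap Pb Bb (φ r))
    (hsep : ∀ b : integralClosure R F, ∃ p : R[X],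
      red (aeval b p) = 0 ∧ red (aeval b (derivative p)) ≠ 0)
    (hP : ¬ IsField P) (hπP : IsUnit (algebraMap R P π))
    (hPint : ∀ y : F, IsIntegral P y → ∃ m : ℕ, IsIntegral R (algebraMap R F (π ^ m) * y))
    (Pi : R) (hPi : Squarefree (φ Pi))
    (hunr : ∀ p : Ideal P, p.IsMaximal → algebraMap R P Pi ∉ p →
      (p.map (algebraMap P (integralClosure P F))).IsRadical) :
    IsIntegrallyClosed Bb := by
  classical
  have hinjRF : Function.Injective (algebraMap R F) := by
    rw [IsScalarTower.algebraMap_eq R K F]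
    exact (algebraMap K F).injective.comp (IsFractionRing.injective R K)
  have hπF : algebraMap R F π ≠ 0 := fun h0 => hπ (hinjRF (h0.trans (map_zero _).symm))
  -- `Pb → Bb` is injective
  have hinj : Function.Injective (algebraMap Pb Bb) := by
    rw [injective_iff_map_eq_zero]
    intro c hc
    obtain ⟨r, rfl⟩ := hφ c
    rw [← hcomm, hkerB] at hc
    obtain ⟨c', hc'⟩ := hc
    have hF : algebraMap R F r = algebraMap R F π * (c' : F) :=
      congrArg (Subtype.val : integralClosure R F → F) hc'
    -- `r / π` is integral over `R`, hence in `R`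
    have hint : IsIntegral R (algebraMap R K r / algebraMap R K π) := by
      rw [← isIntegral_algebraMap_iff (algebraMap K F).injective]
      have : algebraMap K F (algebraMap R K r / algebraMap R K π) = (c' : F) := by
        rw [map_div₀, ← IsScalarTower.algebraMap_apply R K F, ← IsScalarTower.algebraMap_apply R K F,
          hF, mul_div_cancel_left₀ _ hπF]
      rw [this]; exact c'.2
    obtain ⟨t, ht⟩ := IsIntegrallyClosed.isIntegral_iff.mp hint
    have hπK : algebraMap R K π ≠ 0 := fun h0 =>
      hπ (IsFractionRing.injective R K (h0.trans (map_zero _).symm))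
    have : r = π * t := by
      apply IsFractionRing.injective R K
      rw [_root_.map_mul, ht, mul_div_cancel₀ _ hπK]
    exact (hker r).mpr ⟨t, this⟩
  haveI : FaithfulSMul Pb Bb := (faithfulSMul_iff_algebraMap_injective Pb Bb).mpr hinj
  letI : Algebra (FractionRing Pb) (FractionRing Bb) := FractionRing.liftAlgebra Pb (FractionRing Bb)
  haveI : IsScalarTower Pb (FractionRing Pb) (FractionRing Bb) :=
    FractionRing.isScalarTower_liftAlgebra Pb (FractionRing Bb)
  -- integrality of `Bb` over `Pb`
  have hintB : ∀ c : Bb, IsIntegral Pb c := by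
    intro c
    obtain ⟨b, rfl⟩ := hred c
    obtain ⟨p, hp, hpb⟩ := integralClosure.isIntegral b
    refine ⟨p.map φ, hp.map φ, ?_⟩
    have hc : (algebraMap Pb Bb).comp φ = red.comp (algebraMap R (integralClosure R F)) := by
      ext r
      simp [hcomm]
    rw [Polynomial.eval₂_map, hc, ← Polynomial.hom_eval₂, hpb, map_zero]
  haveI : Algebra.IsIntegral Pb Bb := ⟨hintB⟩
  set ψ : integralClosure R F →+* FractionRing Bb := (algebraMap Bb (FractionRing Bb)).comp red
    with hψ
  have hdatum : RedDatum π φ ψ := by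
    refine ⟨hφ, hker, fun b => ?_, fun r => ?_, fun z => ?_⟩
    · rw [hψ, RingHom.comp_apply, ← hkerB]
      exact ⟨fun h0 => IsFractionRing.injective Bb (FractionRing Bb) (h0.trans (map_zero _).symm),
        fun h0 => by rw [h0, map_zero]⟩
    · rw [hψ, RingHom.comp_apply, hcomm, ← IsScalarTower.algebraMap_apply]
    · obtain ⟨a, c, hc, rfl⟩ := IsFractionRing.div_surjective (A := Bb) z
      obtain ⟨c', d, hd, hdc⟩ := (hintB c).isAlgebraic.exists_smul_eq_mul a hc
      obtain ⟨b', rfl⟩ := hred c'
      obtain ⟨r, rfl⟩ := hφ d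
      refine ⟨b', r, hd, ?_⟩
      have hc0 : algebraMap Bb (FractionRing Bb) c ≠ 0 := by
        intro h0
        exact nonZeroDivisors.ne_zero hc
          (IsFractionRing.injective Bb (FractionRing Bb) (h0.trans (map_zero _).symm))
      rw [hψ, RingHom.comp_apply, div_mul_eq_mul_div, div_eq_iff hc0,
        IsScalarTower.algebraMap_apply Pb Bb (FractionRing Bb), ← _root_.map_mul,
        ← _root_.map_mul, mul_comm a, ← Algebra.smul_def, hdc, mul_comm]
  have hinjκ : Function.Injective (algebraMap Pb (FractionRing Bb)) := by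
    rw [IsScalarTower.algebraMap_eq Pb Bb (FractionRing Bb)]
    exact (IsFractionRing.injective Bb (FractionRing Bb)).comp hinj
  -- every element of the fraction field is `ψ b / φ r`
  have hgen' : ∀ z : FractionRing Bb, ∃ (b : integralClosure R F) (r : R), φ r ≠ 0 ∧
      z = (algebraMap Pb (FractionRing Pb) (φ r))⁻¹ • ψ b := by
    intro z
    obtain ⟨b, r, hr, hz⟩ := hdatum.gen z
    refine ⟨b, r, hr, ?_⟩
    have hne : algebraMap (FractionRing Pb) (FractionRing Bb)
        (algebraMap Pb (FractionRing Pb) (φ r)) ≠ 0 := by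
      rw [← IsScalarTower.algebraMap_apply Pb (FractionRing Pb) (FractionRing Bb)]
      exact fun h0 => hr (hinjκ (h0.trans (map_zero _).symm))
    rw [← hz, IsScalarTower.algebraMap_apply Pb (FractionRing Pb) (FractionRing Bb),
      Algebra.smul_def, map_inv₀, mul_comm z, inv_mul_cancel_left₀ hne]
  haveI : FiniteDimensional (FractionRing Pb) (FractionRing Bb) := by
    have hfin : Module.Finite R (integralClosure R F) := IsIntegralClosure.finite R K F _
    obtain ⟨s, hs⟩ := Module.finite_def.mp hfin
    refine Module.finite_def.mpr ⟨s.image ψ, top_unique ?_⟩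
    have hψmem : ∀ b : integralClosure R F, ψ b ∈ Submodule.span (FractionRing Pb)
        ((s.image ψ : Finset (FractionRing Bb)) : Set (FractionRing Bb)) := by
      intro b
      have hb : b ∈ Submodule.span R (s : Set (integralClosure R F)) := hs ▸ Submodule.mem_top
      induction hb using Submodule.span_induction with
      | mem x hx =>
        exact Submodule.subset_span (by
          simp only [Finset.coe_image, Set.mem_image]; exact ⟨x, hx, rfl⟩)
      | zero => rw [map_zero]; exact Submodule.zero_mem _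
      | add x y _ _ hx hy => rw [map_add]; exact add_mem hx hy
      | smul r x _ hx =>
        rw [hdatum.psi_smul, ← algebraMap_smul (FractionRing Pb)]
        exact Submodule.smul_mem _ _ hx
    intro z _
    obtain ⟨b, r, hr, rfl⟩ := hgen' z
    exact Submodule.smul_mem _ _ (hψmem b)
  haveI : Algebra.IsSeparable (FractionRing Pb) (FractionRing Bb) := by
    refine ⟨fun z => ?_⟩
    obtain ⟨b, r, hr, rfl⟩ := hgen' z
    obtain ⟨p, hp0, hp1⟩ := hsep b
    have hcomp : (algebraMap (FractionRing Pb) (FractionRing Bb)).comp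
        ((algebraMap Pb (FractionRing Pb)).comp φ) =
        ψ.comp (algebraMap R (integralClosure R F)) := by
      ext t
      rw [RingHom.comp_apply, RingHom.comp_apply, RingHom.comp_apply, hdatum.comp,
        ← IsScalarTower.algebraMap_apply Pb (FractionRing Pb) (FractionRing Bb)]
    have hev : ∀ q : R[X], aeval (ψ b) (q.map ((algebraMap Pb (FractionRing Pb)).comp φ)) =
        ψ (aeval b q) := by
      intro q
      rw [aeval_def, Polynomial.eval₂_map, hcomp, aeval_def, Polynomial.hom_eval₂]
    have hψsep : IsSeparable (FractionRing Pb) (ψ b) := by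
      refine isSeparable_of_aeval_derivative_ne_zero (ψ b)
        (p.map ((algebraMap Pb (FractionRing Pb)).comp φ)) ?_ ?_
      · rw [hev, hψ, RingHom.comp_apply, hp0, map_zero]
      · rw [Polynomial.derivative_map, hev, hψ, RingHom.comp_apply]
        exact fun h0 => hp1 (IsFractionRing.injective Bb (FractionRing Bb)
          (h0.trans (map_zero _).symm))
    rw [Algebra.smul_def, map_inv₀]
    exact Field.isSeparable_mul (Field.isSeparable_inv (isSeparable_algebraMap _)) hψsep
  refine (isIntegrallyClosed_iff (FractionRing Bb)).mpr ?_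
  intro z hz
  have hz' : IsIntegral Pb z := isIntegral_trans z hz
  obtain ⟨b, hb⟩ := nc_core K (FractionRing Pb) hdatum hπ hP hπP hPint Pi hPi hunr z hz'
  exact ⟨red b, hb⟩

include K in
/-- **(NC), quotient form.**  Same as `nc_dom` with `Bb = B ⧸ π B`, assumed to be a domain. -/
theorem nc_quot (π : R) (hπ : π ≠ 0) (φ : R →+* Pb) (hφ : Function.Surjective φ)
    (hker : ∀ r, φ r = 0 ↔ π ∣ r)
    (hprime : (Ideal.span {algebraMap R (integralClosure R F) π}).IsPrime)
    (hsep : ∀ b : integralClosure R F, ∃ p : R[X],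
      aeval b p ∈ Ideal.span {algebraMap R (integralClosure R F) π} ∧
      aeval b (derivative p) ∉ Ideal.span {algebraMap R (integralClosure R F) π})
    (hP : ¬ IsField P) (hπP : IsUnit (algebraMap R P π))
    (hPint : ∀ y : F, IsIntegral P y → ∃ m : ℕ, IsIntegral R (algebraMap R F (π ^ m) * y))
    (Pi : R) (hPi : Squarefree (φ Pi))
    (hunr : ∀ p : Ideal P, p.IsMaximal → algebraMap R P Pi ∉ p →
      (p.map (algebraMap P (integralClosure P F))).IsRadical) :
    IsIntegrallyClosed
      (integralClosure R F ⧸ Ideal.span {algebraMap R (integralClosure R F) π}) := by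
  haveI := hprime
  have hle : RingHom.ker φ ≤ RingHom.ker
      ((Ideal.Quotient.mk (Ideal.span {algebraMap R (integralClosure R F) π})).comp
        (algebraMap R (integralClosure R F))) := by
    intro r hr
    rw [RingHom.mem_ker] at hr ⊢
    obtain ⟨c, rfl⟩ := (hker r).mp hr
    rw [RingHom.comp_apply, Ideal.Quotient.eq_zero_iff_mem, _root_.map_mul]
    exact Ideal.mul_mem_right _ _ (Ideal.mem_span_singleton_self _)
  letI : Algebra Pb
      (integralClosure R F ⧸ Ideal.span {algebraMap R (integralClosure R F) π}) :=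
    (φ.liftOfSurjective hφ ⟨_, hle⟩).toAlgebra
  refine nc_dom K π hπ φ hφ hker (Ideal.Quotient.mk _) Ideal.Quotient.mk_surjective ?_ ?_ ?_
    hP hπP hPint Pi hPi hunr
  · intro b
    rw [Ideal.Quotient.eq_zero_iff_mem, Ideal.mem_span_singleton']
    exact ⟨fun ⟨c, hc⟩ => ⟨c, by rw [← hc, mul_comm]⟩, fun ⟨c, hc⟩ => ⟨c, by rw [hc, mul_comm]⟩⟩
  · intro r
    exact (φ.liftOfRightInverse_comp_apply _ _ ⟨_, hle⟩ r).symm
  · intro b
    obtain ⟨p, hp0, hp1⟩ := hsep b
    exact ⟨p, Ideal.Quotient.eq_zero_iff_mem.mpr hp0,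
      fun h0 => hp1 (Ideal.Quotient.eq_zero_iff_mem.mp h0)⟩

end Dom

section Valuation

theorem inv_mem_of_add_eq_one {F : Type*} [Field F] (W : ValuationSubring F) {A' T B C : F}
    (hA : A' ∈ W) (hB : B ∈ W) (hT : T⁻¹ ∉ W) (h : A' * T + B * C = 1) : C⁻¹ ∈ W := by
  by_contra hC
  have hT0 : T ≠ 0 := by rintro rfl; exact hT (by rw [inv_zero]; exact W.zero_mem)
  have hC0 : C ≠ 0 := by rintro rfl; exact hC (by rw [inv_zero]; exact W.zero_mem)
  rcases W.mem_or_inv_mem (T / C) with h1 | h1
  · apply hC
    have : C⁻¹ = A' * (T / C) + B := by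
      field_simp
      linear_combination -h
    rw [this]; exact add_mem (mul_mem hA h1) hB
  · rw [inv_div] at h1
    apply hT
    have : T⁻¹ = A' + B * (C / T) := by
      field_simp
      linear_combination -h
    rw [this]; exact add_mem hA (mul_mem hB h1)

theorem isRadical_map_of_valuation {P F : Type*} [CommRing P] [IsDomain P]
    [IsPrincipalIdealRing P] [Field F] [Algebra P F] (q : P)
    (hval : ∀ W : ValuationSubring F, (∀ a : P, algebraMap P F a ∈ W) →
      (algebraMap P F q)⁻¹ ∈ W → ∀ y ∈ W, y⁻¹ ∉ W →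
      ∃ g : P, (algebraMap P F g)⁻¹ ∉ W ∧ y / algebraMap P F g ∈ W)
    (p : Ideal P) (hp : p.IsMaximal) (hq : q ∉ p) :
    (p.map (algebraMap P (integralClosure P F))).IsRadical := by
  obtain ⟨τ, hτ⟩ := (IsPrincipalIdealRing.principal p).principal
  have hpτ : p = Ideal.span {τ} := hτ
  intro y hy
  obtain ⟨n, hn⟩ := hy
  rw [hpτ, Ideal.map_span, Set.image_singleton, Ideal.mem_span_singleton'] at hn ⊢
  obtain ⟨w, hw⟩ := hn
  have hwF : (w : F) * algebraMap P F τ = (y : F) ^ n :=
    congrArg (Subtype.val : integralClosure P F → F) hw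
  by_contra hcon
  have hy0 : (y : F) ≠ 0 := by
    intro h0
    exact hcon ⟨0, by rw [zero_mul]; exact (Subtype.ext h0).symm⟩
  have hτ0 : algebraMap P F τ ≠ 0 := by
    intro h0
    rw [h0, mul_zero] at hwF
    exact pow_ne_zero n hy0 hwF.symm
  have hu : (y : F) / algebraMap P F τ ∉ (integralClosure P F).toSubring := by
    intro hu
    exact hcon ⟨⟨_, hu⟩, Subtype.ext (div_mul_cancel₀ _ hτ0)⟩
  have : IsIntegrallyClosedIn (integralClosure P F).toSubring F := by
    rw [Subring.isIntegrallyClosedIn_iff]
    intro x hx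
    have hx' : IsIntegral (integralClosure P F) x := hx
    exact isIntegral_trans x hx'
  obtain ⟨W, hW, huW⟩ := Subring.exists_le_valuationSubring_of_isIntegrallyClosedIn hu
  have hPW : ∀ a : P, algebraMap P F a ∈ W := fun a =>
    hW (show algebraMap P F a ∈ integralClosure P F from isIntegral_algebraMap)
  have hyW : (y : F) ∈ W := hW y.2
  have hwW : (w : F) ∈ W := hW w.2
  have hτW : (algebraMap P F τ)⁻¹ ∉ W := by
    intro h
    exact huW (by rw [div_eq_mul_inv]; exact mul_mem hyW h)
  have hunit : ∀ c : P, c ∉ p → (algebraMap P F c)⁻¹ ∈ W := by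
    intro c hc
    obtain ⟨b, a, ha, hab⟩ := hp.exists_inv hc
    rw [hpτ] at ha
    obtain ⟨a', rfl⟩ := Ideal.mem_span_singleton'.mp ha
    refine inv_mem_of_add_eq_one W (hPW a') (hPW b) hτW ?_
    rw [← map_mul, ← map_mul, ← map_add, add_comm, hab, map_one]
  have hyinv : (y : F)⁻¹ ∉ W := by
    intro h
    apply hτW
    have hw0 : (w : F) ≠ 0 := by
      intro h0
      rw [h0, zero_mul] at hwF
      exact pow_ne_zero n hy0 hwF.symm
    have : (algebraMap P F τ)⁻¹ = (w : F) * ((y : F)⁻¹) ^ n := by
      rw [inv_pow, ← hwF, mul_inv, mul_inv_cancel_left₀ hw0]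
    rw [this]; exact mul_mem hwW (pow_mem h n)
  obtain ⟨g, hg, hyg⟩ := hval W hPW (hunit q hq) (y : F) hyW hyinv
  have hgp : g ∈ p := by
    by_contra hgp
    exact hg (hunit g hgp)
  rw [hpτ] at hgp
  obtain ⟨c, rfl⟩ := Ideal.mem_span_singleton'.mp hgp
  have hg0 : algebraMap P F (c * τ) ≠ 0 := by
    intro h0
    exact hg (by rw [h0, inv_zero]; exact W.zero_mem)
  apply huW
  have : (y : F) / algebraMap P F τ = (y : F) / algebraMap P F (c * τ) * algebraMap P F c := by
    rw [map_mul] at hg0 ⊢
    have hc0 : algebraMap P F c ≠ 0 := left_ne_zero_of_mul hg0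
    field_simp
  rw [this]; exact mul_mem hyg (hPW c)

end Valuation

section Poly

variable {A₀ : Type*} [CommRing A₀] [IsDomain A₀] [IsDiscreteValuationRing A₀]
variable (K : Type*) [Field K] [Algebra A₀[X] K] [IsFractionRing A₀[X] K]
variable {F : Type*} [Field F] [CharZero F] [Algebra K F] [Algebra A₀[X] F]
  [IsScalarTower A₀[X] K F] [FiniteDimensional K F]

attribute [local instance] Polynomial.algebra in
include K in
/-- **(NC), polynomial form over a DVR** (the statement consumed by the S18 chain).
`A₀` a DVR with uniformiser `ϖ`, `F` a field of characteristic zero, finite over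
`K = Frac A₀[X]`, `B` the integral closure of `A₀[X]` in `F`.  If
(i) `ϖ B` is prime, (ii) the residue extension is separable (elementwise: every `b ∈ B` is a
simple root mod `ϖ B` of a polynomial over `A₀[X]`), and (iii) `F` is unramified over
`Frac(A₀)[X]` outside the zeros of `Pi`, where `Pi mod ϖ` is squarefree (valuation-subring form),
then `B ⧸ ϖ B` is integrally closed. -/
theorem nc_main (ϖ : A₀) (hϖ : Irreducible ϖ)
    (hprime : (Ideal.span {algebraMap A₀[X] (integralClosure A₀[X] F) (C ϖ)}).IsPrime)
    (hsep : ∀ b : integralClosure A₀[X] F, ∃ p : A₀[X][X],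
      aeval b p ∈ Ideal.span {algebraMap A₀[X] (integralClosure A₀[X] F) (C ϖ)} ∧
      aeval b (derivative p) ∉ Ideal.span {algebraMap A₀[X] (integralClosure A₀[X] F) (C ϖ)})
    (Pi : A₀[X]) (hPi : Squarefree (Pi.map (IsLocalRing.residue A₀)))
    (hbr : ∀ W : ValuationSubring F, (∀ p : A₀[X], algebraMap A₀[X] F p ∈ W) →
      (∀ a : A₀, a ≠ 0 → (algebraMap A₀[X] F (C a))⁻¹ ∈ W) →
      (algebraMap A₀[X] F Pi)⁻¹ ∈ W → ∀ y ∈ W, y⁻¹ ∉ W →
      ∃ g : A₀[X], (algebraMap A₀[X] F g)⁻¹ ∉ W ∧ y / algebraMap A₀[X] F g ∈ W) :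
    IsIntegrallyClosed (integralClosure A₀[X] F ⧸
      Ideal.span {algebraMap A₀[X] (integralClosure A₀[X] F) (C ϖ)}) := by
  classical
  haveI : CharZero K := RingHom.charZero (algebraMap K F)
  have hinjK : Function.Injective (algebraMap A₀[X] K) := IsFractionRing.injective _ _
  haveI : CharZero A₀ := RingHom.charZero ((algebraMap A₀[X] K).comp (C : A₀ →+* A₀[X]))
  haveI : CharZero (FractionRing A₀) :=
    charZero_of_injective_algebraMap (IsFractionRing.injective A₀ (FractionRing A₀))
  haveI hloc : IsLocalization ((nonZeroDivisors A₀).map (C : A₀ →+* A₀[X]))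
      (FractionRing A₀)[X] := Polynomial.isLocalization (nonZeroDivisors A₀) (FractionRing A₀)
  have hg : ∀ y : ((nonZeroDivisors A₀).map (C : A₀ →+* A₀[X])),
      IsUnit (algebraMap A₀[X] K y) := by
    rintro ⟨_, a, ha, rfl⟩
    apply IsUnit.mk0
    intro h0
    have : (C a : A₀[X]) = 0 := hinjK (h0.trans (map_zero _).symm)
    exact nonZeroDivisors.ne_zero ha (C_eq_zero.mp this)
  letI : Algebra (FractionRing A₀)[X] K := (IsLocalization.lift hg).toAlgebra
  haveI : IsScalarTower A₀[X] (FractionRing A₀)[X] K :=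
    IsScalarTower.of_algebraMap_eq (fun x => (IsLocalization.lift_eq hg x).symm)
  haveI : IsFractionRing (FractionRing A₀)[X] K :=
    IsFractionRing.isFractionRing_of_isDomain_of_isLocalization
      ((nonZeroDivisors A₀).map (C : A₀ →+* A₀[X])) (FractionRing A₀)[X] K
  letI : Algebra (FractionRing A₀)[X] F :=
    ((algebraMap K F).comp (algebraMap (FractionRing A₀)[X] K)).toAlgebra
  haveI : IsScalarTower (FractionRing A₀)[X] K F := IsScalarTower.of_algebraMap_eq (fun _ => rfl)
  haveI : IsScalarTower A₀[X] (FractionRing A₀)[X] F := IsScalarTower.of_algebraMap_eq (fun x => by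
    rw [IsScalarTower.algebraMap_apply A₀[X] K F,
      IsScalarTower.algebraMap_apply A₀[X] (FractionRing A₀)[X] K]
    rfl)
  have htow : ∀ r : A₀[X], algebraMap A₀[X] F r =
      algebraMap (FractionRing A₀)[X] F (algebraMap A₀[X] (FractionRing A₀)[X] r) :=
    fun r => IsScalarTower.algebraMap_apply _ _ _ r
  have hCne : ∀ a : A₀, a ≠ 0 → algebraMap A₀ (FractionRing A₀) a ≠ 0 := fun a ha h0 =>
    ha (IsFractionRing.injective A₀ (FractionRing A₀) (h0.trans (map_zero _).symm))
  refine nc_quot (P := (FractionRing A₀)[X]) K (C ϖ) (C_ne_zero.mpr hϖ.ne_zero)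
    (Polynomial.mapRingHom (IsLocalRing.residue A₀))
    (Polynomial.map_surjective _ IsLocalRing.residue_surjective) ?_ hprime hsep
    (Polynomial.not_isField (FractionRing A₀)) ?_ ?_ Pi hPi ?_
  · intro r
    rw [Polynomial.C_dvd_iff_dvd_coeff, coe_mapRingHom, Polynomial.ext_iff]
    refine forall_congr' fun i => ?_
    rw [coeff_map, coeff_zero, IsLocalRing.residue_eq_zero_iff, hϖ.maximalIdeal_eq,
      Ideal.mem_span_singleton]
  · rw [Polynomial.algebraMap_def, coe_mapRingHom, map_C]
    exact Polynomial.isUnit_C.mpr (IsUnit.mk0 _ (hCne ϖ hϖ.ne_zero))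
  · intro y hy
    obtain ⟨⟨_, a, ha, rfl⟩, hm⟩ := IsIntegral.exists_multiple_integral_of_isLocalization
      ((nonZeroDivisors A₀).map (C : A₀ →+* A₀[X])) y hy
    have hm' : IsIntegral A₀[X] (algebraMap A₀[X] F (C a) * y) := by
      rw [← Algebra.smul_def]; exact hm
    have ha0 : a ≠ 0 := nonZeroDivisors.ne_zero ha
    obtain ⟨n, u, hu⟩ := IsDiscreteValuationRing.eq_unit_mul_pow_irreducible ha0 hϖ
    refine ⟨n, ?_⟩
    have : algebraMap A₀[X] F (C ϖ ^ n) * y =
        algebraMap A₀[X] F (C ((u⁻¹ : A₀ˣ) : A₀)) * (algebraMap A₀[X] F (C a) * y) := by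
      rw [← mul_assoc, ← _root_.map_mul, ← C_pow, ← C_mul, hu, ← mul_assoc, Units.inv_mul,
        one_mul]
    rw [this]
    exact isIntegral_algebraMap.mul hm'
  · intro p hp hq
    refine isRadical_map_of_valuation (algebraMap A₀[X] (FractionRing A₀)[X] Pi) ?_ p hp hq
    intro W hPW hPiW y hyW hyinv
    have hCW : ∀ a : A₀, a ≠ 0 → (algebraMap A₀[X] F (C a))⁻¹ ∈ W := by
      intro a ha
      have : (algebraMap A₀[X] F (C a))⁻¹ =
          algebraMap (FractionRing A₀)[X] F (C (algebraMap A₀ (FractionRing A₀) a)⁻¹) := by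
        apply inv_eq_of_mul_eq_one_right
        rw [htow, Polynomial.algebraMap_def, coe_mapRingHom, map_C, ← _root_.map_mul, ← C_mul,
          mul_inv_cancel₀ (hCne a ha), C_1, map_one]
      rw [this]; exact hPW _
    obtain ⟨g, hg, hyg⟩ := hbr W (fun r => by rw [htow]; exact hPW _) hCW
      (by rw [htow]; exact hPiW) y hyW hyinv
    exact ⟨algebraMap A₀[X] (FractionRing A₀)[X] g, by rw [← htow]; exact hg,
      by rw [← htow]; exact hyg⟩

end Poly

end Fermat.Agent.S18.H49
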