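import Mathlib
import Fermat.Agent.S18.NC_helper49

/-!
# S18, node (NC): adapters for `H49.nc_main`

* `exists_poly_of_isSeparable`: separability of `ρ b` over a field `E` all of whose elements are
  ratios of `ρ`-images of elements of `R` gives the elementwise separability hypothesis `hsep`
  of `nc_dom` / `nc_quot` / `nc_main` (clearing denominators in the minimal polynomial).
* `nc_main_rho`: `nc_main` with hypotheses (i), (ii) in the `ρ`-form produced by the Gauss
  reduction (`ρ : B →+* Ω` with kernel `ϖ B`, every `ρ b` separable over the subfield generated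
  by `ρ (A₀[X])`).
-/

set_option autoImplicit false

open Polynomial

namespace Fermat.Agent.S18.H49

/-- Clearing denominators: if every element of the field `E ⊆ Ω` is a ratio of `ρ`-images of
elements of `R` and `ρ b` is separable over `E`, then `b` is, modulo `ker ρ`, a simple root of a
polynomial over `R`. -/
theorem exists_poly_of_isSeparable {R B Ω E : Type*} [CommRing R] [CommRing B] [Algebra R B]
    [Field Ω] [Field E] [Algebra E Ω] (ρ : B →+* Ω)
    (hE : ∀ e : E, ∃ a d : R, ρ (algebraMap R B d) ≠ 0 ∧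
      algebraMap E Ω e * ρ (algebraMap R B d) = ρ (algebraMap R B a))
    (b : B) (hb : IsSeparable E (ρ b)) :
    ∃ p : R[X], ρ (aeval b p) = 0 ∧ ρ (aeval b (derivative p)) ≠ 0 := by
  set f : R →+* Ω := ρ.comp (algebraMap R B) with hf
  have key : ∀ m : E[X], ∃ (d : R) (p : R[X]), f d ≠ 0 ∧
      p.map f = C (f d) * m.map (algebraMap E Ω) := by
    intro m
    induction m using Polynomial.induction_on' with
    | add m₁ m₂ h₁ h₂ =>
      obtain ⟨d₁, p₁, hd₁, hp₁⟩ := h₁
      obtain ⟨d₂, p₂, hd₂, hp₂⟩ := h₂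
      refine ⟨d₁ * d₂, C d₂ * p₁ + C d₁ * p₂, ?_, ?_⟩
      · rw [_root_.map_mul]; exact mul_ne_zero hd₁ hd₂
      · rw [Polynomial.map_add, Polynomial.map_mul, Polynomial.map_mul, Polynomial.map_C,
          Polynomial.map_C, hp₁, hp₂, Polynomial.map_add, _root_.map_mul, C_mul]
        ring
    | monomial n c =>
      obtain ⟨a, d, hd, hc⟩ := hE c
      refine ⟨d, monomial n a, hd, ?_⟩
      rw [Polynomial.map_monomial, Polynomial.map_monomial, C_mul_monomial, mul_comm]
      exact congrArg _ hc.symm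
  obtain ⟨d, p, hd, hp⟩ := key (minpoly E (ρ b))
  have hev : ∀ q : R[X], ρ (aeval b q) = (q.map f).eval (ρ b) := by
    intro q
    rw [aeval_def, Polynomial.hom_eval₂, Polynomial.eval_map]
  refine ⟨p, ?_, ?_⟩
  · rw [hev, hp, eval_mul, eval_C, Polynomial.eval_map, ← aeval_def, minpoly.aeval, mul_zero]
  · rw [hev, ← Polynomial.derivative_map, hp, derivative_mul, derivative_C, zero_mul, zero_add,
      eval_mul, eval_C, Polynomial.derivative_map, Polynomial.eval_map, ← aeval_def]
    exact mul_ne_zero hd (Polynomial.Separable.aeval_derivative_ne_zero hb (minpoly.aeval E (ρ b)))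

/-- The `Subfield.closure` form: separability over the subfield generated by `ρ (R)`. -/
theorem exists_poly_of_isSeparable_closure {R B Ω : Type*} [CommRing R] [CommRing B]
    [Algebra R B] [Field Ω] (ρ : B →+* Ω) (b : B)
    (hb : IsSeparable ↥(Subfield.closure (Set.range (ρ.comp (algebraMap R B)))) (ρ b)) :
    ∃ p : R[X], ρ (aeval b p) = 0 ∧ ρ (aeval b (derivative p)) ≠ 0 := by
  refine exists_poly_of_isSeparable
    (E := ↥(Subfield.closure (Set.range (ρ.comp (algebraMap R B))))) ρ ?_ b hb
  rintro ⟨e, he⟩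
  obtain ⟨y, hy, z, hz, rfl⟩ := Subfield.mem_closure_iff.mp he
  have hcl : Subring.closure (Set.range (ρ.comp (algebraMap R B))) =
      (ρ.comp (algebraMap R B)).range := by
    rw [← RingHom.coe_range, Subring.closure_eq]
  rw [hcl] at hy hz
  obtain ⟨a, rfl⟩ := hy
  obtain ⟨d, rfl⟩ := hz
  by_cases hd : ρ (algebraMap R B d) = 0
  · refine ⟨0, 1, ?_, ?_⟩
    · rw [map_one, map_one]; exact one_ne_zero
    · change (ρ.comp (algebraMap R B)) a / (ρ.comp (algebraMap R B)) d * _ = _
      rw [RingHom.comp_apply, RingHom.comp_apply, hd, div_zero, zero_mul, map_zero, map_zero]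
  · refine ⟨a, d, hd, ?_⟩
    change (ρ.comp (algebraMap R B)) a / (ρ.comp (algebraMap R B)) d * _ = _
    rw [RingHom.comp_apply, RingHom.comp_apply, div_mul_cancel₀ _ hd]

section Poly

variable {A₀ : Type*} [CommRing A₀] [IsDomain A₀] [IsDiscreteValuationRing A₀]
variable (K : Type*) [Field K] [Algebra A₀[X] K] [IsFractionRing A₀[X] K]
variable {F : Type*} [Field F] [CharZero F] [Algebra K F] [Algebra A₀[X] F]
  [IsScalarTower A₀[X] K F] [FiniteDimensional K F]

include K in
/-- **(NC), polynomial form over a DVR, `ρ`-form of (i) and (ii).**  `ρ` is a ring hom from the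
integral closure `B` of `A₀[X]` in `F` to a field with kernel `ϖ B` (the Gauss reduction), and
every `ρ b` is separable over the subfield generated by `ρ (A₀[X])`. -/
theorem nc_main_rho (ϖ : A₀) (hϖ : Irreducible ϖ) {Ω : Type*} [Field Ω]
    (ρ : integralClosure A₀[X] F →+* Ω)
    (hker : RingHom.ker ρ =
      Ideal.span {algebraMap A₀[X] (integralClosure A₀[X] F) (C ϖ)})
    (hsep : ∀ b : integralClosure A₀[X] F, IsSeparable
      ↥(Subfield.closure (Set.range (ρ.comp (algebraMap A₀[X] (integralClosure A₀[X] F)))))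
      (ρ b))
    (Pi : A₀[X]) (hPi : Squarefree (Pi.map (IsLocalRing.residue A₀)))
    (hbr : ∀ W : ValuationSubring F, (∀ p : A₀[X], algebraMap A₀[X] F p ∈ W) →
      (∀ a : A₀, a ≠ 0 → (algebraMap A₀[X] F (C a))⁻¹ ∈ W) →
      (algebraMap A₀[X] F Pi)⁻¹ ∈ W → ∀ y ∈ W, y⁻¹ ∉ W →
      ∃ g : A₀[X], (algebraMap A₀[X] F g)⁻¹ ∉ W ∧ y / algebraMap A₀[X] F g ∈ W) :
    IsIntegrallyClosed (integralClosure A₀[X] F ⧸
      Ideal.span {algebraMap A₀[X] (integralClosure A₀[X] F) (C ϖ)}) := by
  have hprime : (Ideal.span {algebraMap A₀[X] (integralClosure A₀[X] F) (C ϖ)}).IsPrime := by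
    rw [← hker]; exact RingHom.ker_isPrime ρ
  refine nc_main K ϖ hϖ hprime (fun b => ?_) Pi hPi hbr
  obtain ⟨p, hp0, hp1⟩ := exists_poly_of_isSeparable_closure ρ b (hsep b)
  refine ⟨p, ?_, ?_⟩
  · rw [← hker, RingHom.mem_ker]; exact hp0
  · rw [← hker, RingHom.mem_ker]; exact hp1

end Poly

end Fermat.Agent.S18.H49
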