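import Mathlib

set_option autoImplicit false

/-!
# S18, node NC-ASM (helper62): assembly of the "non-colliding branch points ⇒ normal special
fibre" theorem in abstract-reduction form.  Mathlib only.
-/

namespace Fermat.Agent.S18.H62

open scoped nonZeroDivisors
open Module

/-- `B ∩ K = R`: if `p ∣ r` in `B` then `p ∣ r` in `R`. -/
theorem dvd_of_algebraMap_dvd {R B : Type*} (K F : Type*)
    [CommRing R] [IsDomain R] [IsIntegrallyClosed R]
    [CommRing B] [IsDomain B] [Algebra R B] [Module.Finite R B]
    [Field K] [Algebra R K] [IsFractionRing R K]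
    [Field F] [Algebra B F] [IsFractionRing B F] [Algebra K F] [Algebra R F]
    [IsScalarTower R K F] [IsScalarTower R B F]
    (p r : R) (hp : p ≠ 0) (h : algebraMap R B p ∣ algebraMap R B r) : p ∣ r := by
  obtain ⟨c, hc⟩ := h
  have hcint : IsIntegral R c := Algebra.IsIntegral.isIntegral c
  have hpK : algebraMap R K p ≠ 0 := by
    simpa using (IsFractionRing.injective R K).ne hp
  have key : algebraMap B F c = algebraMap K F (algebraMap R K r / algebraMap R K p) := by
    have h1 : algebraMap B F (algebraMap R B r)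
        = algebraMap B F (algebraMap R B p) * algebraMap B F c := by
      rw [hc, map_mul]
    rw [← IsScalarTower.algebraMap_apply R B F, ← IsScalarTower.algebraMap_apply R B F,
      IsScalarTower.algebraMap_apply R K F r, IsScalarTower.algebraMap_apply R K F p] at h1
    have hpF : algebraMap K F (algebraMap R K p) ≠ 0 := by
      simpa using (algebraMap K F).injective.ne hpK
    rw [map_div₀, h1]
    field_simp
  have hint : IsIntegral R (algebraMap K F (algebraMap R K r / algebraMap R K p)) := by
    rw [← key]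
    exact hcint.map (IsScalarTower.toAlgHom R B F)
  have hint' : IsIntegral R (algebraMap R K r / algebraMap R K p) :=
    (isIntegral_algebraMap_iff (algebraMap K F).injective).mp hint
  obtain ⟨y, hy⟩ := (IsIntegrallyClosed.isIntegral_iff (R := R) (K := K)).mp hint'
  refine ⟨y, ?_⟩
  apply IsFractionRing.injective R K
  rw [map_mul, hy]
  field_simp


/-- A semilinear surjection from a finite module gives a finite module. -/
theorem finite_of_semilinear_surj {R B Rb Bb : Type*} [CommRing R] [CommRing B] [Algebra R B]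
    [Module.Finite R B] [CommRing Rb] [CommRing Bb] [Algebra Rb Bb] (ρR : R →+* Rb)
    (ρB : B →+* Bb) (hB : Function.Surjective ρB)
    (hcomp : ∀ r, ρB (algebraMap R B r) = algebraMap Rb Bb (ρR r)) :
    Module.Finite Rb Bb := by
  classical
  obtain ⟨T, hT⟩ := (Module.Finite.fg_top : (⊤ : Submodule R B).FG)
  refine ⟨⟨T.image ρB, ?_⟩⟩
  rw [eq_top_iff]
  rintro x -
  obtain ⟨b, rfl⟩ := hB x
  have hb : b ∈ Submodule.span R (T : Set B) := hT ▸ Submodule.mem_top
  induction hb using Submodule.span_induction with
  | mem t ht => exact Submodule.subset_span (by simpa using ⟨t, ht, rfl⟩)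
  | zero => simp
  | add x y _ _ hx hy => rw [map_add]; exact Submodule.add_mem _ hx hy
  | smul r x _ hx =>
    rw [Algebra.smul_def, map_mul, hcomp, ← Algebra.smul_def]
    exact Submodule.smul_mem _ _ hx

/-- (D): the trace of an element that is nilpotent modulo a radical principal ideal lies in
that ideal. -/
theorem trace_eq_mul_of_pow_eq_smul {O S : Type*} [CommRing O] [CommRing S] [Algebra O S]
    [Module.Free O S] [Module.Finite O S] (P : O) (hP : (Ideal.span {P}).IsRadical)
    (v u : S) (N : ℕ) (h : v ^ N = P • u) : ∃ c : O, Algebra.trace O S v = P * c := by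
  classical
  let ι := Module.Free.ChooseBasisIndex O S
  let cS : Basis ι O S := Module.Free.chooseBasis O S
  set M := Algebra.leftMulMatrix cS v with hM
  have hMN : M ^ N = P • Algebra.leftMulMatrix cS u := by
    rw [hM, ← map_pow, h, map_smul]
  let φ := Ideal.Quotient.mk (Ideal.span {P})
  have hred : IsReduced (O ⧸ Ideal.span {P}) := (Ideal.isRadical_iff_quotient_reduced _).mp hP
  have hnil : IsNilpotent (φ.mapMatrix M) := by
    refine ⟨N, ?_⟩
    rw [← map_pow, hMN]
    ext i j
    simp only [RingHom.mapMatrix_apply, Matrix.map_apply, Matrix.smul_apply, smul_eq_mul,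
      Matrix.zero_apply, map_mul]
    have : φ P = 0 := Ideal.Quotient.eq_zero_iff_mem.mpr (Ideal.mem_span_singleton_self P)
    rw [this, zero_mul]
  have htr : (φ.mapMatrix M).trace = 0 :=
    (Matrix.isNilpotent_trace_of_isNilpotent hnil).eq_zero
  have h2 : φ M.trace = 0 := by
    rw [← htr, RingHom.mapMatrix_apply]
    exact (AddMonoidHom.map_trace φ.toAddMonoidHom M)
  have h3 : M.trace ∈ Ideal.span {P} := Ideal.Quotient.eq_zero_iff_mem.mp h2
  obtain ⟨c, hc⟩ := Ideal.mem_span_singleton'.mp h3
  exact ⟨c, by rw [Algebra.trace_eq_matrix_trace cS, ← hM, ← hc, mul_comm]⟩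

/-- Stage 1 of the assembly: a basis of `Bb` over `Rb`, lifts, and the Nakayama multiplier. -/
theorem exists_lifted_basis {R B Rb Bb : Type*} (K F : Type*)
    [CommRing R] [IsDomain R] [IsNoetherianRing R] [IsIntegrallyClosed R]
    [CommRing B] [IsDomain B] [Algebra R B] [Module.Finite R B]
    [Field K] [Algebra R K] [IsFractionRing R K]
    [Field F] [Algebra B F] [IsFractionRing B F] [Algebra K F] [Algebra R F]
    [IsScalarTower R K F] [IsScalarTower R B F]
    [CommRing Rb] [IsDomain Rb] [IsPrincipalIdealRing Rb]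
    [CommRing Bb] [IsDomain Bb] [Algebra Rb Bb]
    (hinj : Function.Injective (algebraMap R B))
    (π : R) (hπ : π ≠ 0) (ρR : R →+* Rb) (ρB : B →+* Bb)
    (hR : Function.Surjective ρR) (hkR : RingHom.ker ρR = Ideal.span {π})
    (hB : Function.Surjective ρB) (hkB : RingHom.ker ρB = Ideal.span {algebraMap R B π})
    (hcomp : ∀ r, ρB (algebraMap R B r) = algebraMap Rb Bb (ρR r)) :
    Function.Injective (algebraMap Rb Bb) ∧
    ∃ (n : ℕ) (βb : Basis (Fin n) Rb Bb) (β : Fin n → B) (s : R),
      (∀ i, ρB (β i) = βb i) ∧ ρR s = 1 ∧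
      (∀ b : B, ∃ c : Fin n → R, ∑ i, c i • β i = s • b) ∧
      LinearIndependent R β := by
  classical
  have hinjb : Function.Injective (algebraMap Rb Bb) := by
    rw [injective_iff_map_eq_zero]
    intro x hx
    obtain ⟨r, rfl⟩ := hR x
    have h1 : algebraMap R B r ∈ RingHom.ker ρB := by
      rw [RingHom.mem_ker, hcomp, hx]
    rw [hkB, Ideal.mem_span_singleton] at h1
    have h2 : π ∣ r := dvd_of_algebraMap_dvd K F π r hπ h1
    have h3 : r ∈ RingHom.ker ρR := by
      rw [hkR, Ideal.mem_span_singleton]; exact h2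
    exact h3
  refine ⟨hinjb, ?_⟩
  have hfin : Module.Finite Rb Bb := finite_of_semilinear_surj ρR ρB hB hcomp
  have htf : Module.IsTorsionFree Rb Bb :=
    (Module.isTorsionFree_iff_algebraMap_injective).mpr hinjb
  have hfree : Module.Free Rb Bb := Module.free_of_finite_type_torsion_free'
  let n := Module.finrank Rb Bb
  let βb : Basis (Fin n) Rb Bb := Module.finBasis Rb Bb
  choose β hβ using fun i => hB (βb i)
  have hπB : algebraMap R B π ≠ 0 := by
    simpa using hinj.ne hπ
  have hρsmul : ∀ (r : R) (b : B), ρB (r • b) = ρR r • ρB b := by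
    intro r b
    rw [Algebra.smul_def, map_mul, hcomp, ← Algebra.smul_def]
  -- every element is in `Λ + π B`
  have hdecomp : ∀ b : B, ∃ c : Fin n → R, ∃ d : B, b = ∑ i, c i • β i + algebraMap R B π * d := by
    intro b
    choose c hc using fun i => hR (βb.repr (ρB b) i)
    have h1 : ρB (b - ∑ i, c i • β i) = 0 := by
      rw [map_sub, map_sum, sub_eq_zero]
      conv_lhs => rw [← βb.sum_repr (ρB b)]
      refine Finset.sum_congr rfl fun i _ => ?_
      rw [hρsmul, hc, hβ]
    have h2 : b - ∑ i, c i • β i ∈ RingHom.ker ρB := h1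
    rw [hkB, Ideal.mem_span_singleton] at h2
    obtain ⟨d, hd⟩ := h2
    exact ⟨c, d, by rw [← hd]; ring⟩
  -- Nakayama
  let Λ : Submodule R B := Submodule.span R (Set.range β)
  have hs : ∃ s : R, s - 1 ∈ Ideal.span {π} ∧ ∀ b : B, s • b ∈ Λ := by
    have hfg : (⊤ : Submodule R (B ⧸ Λ)).FG := Module.Finite.fg_top
    have hle : (⊤ : Submodule R (B ⧸ Λ)) ≤ (Ideal.span {π}) • (⊤ : Submodule R (B ⧸ Λ)) := by
      rintro x -
      obtain ⟨b, rfl⟩ := Submodule.Quotient.mk_surjective Λ x
      obtain ⟨c, d, hd⟩ := hdecomp b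
      have : (Submodule.Quotient.mk b : B ⧸ Λ) = π • Submodule.Quotient.mk d := by
        rw [← Submodule.Quotient.mk_smul, eq_comm, ← sub_eq_zero, ← Submodule.Quotient.mk_sub,
          Submodule.Quotient.mk_eq_zero, hd, Algebra.smul_def]
        have : algebraMap R B π * d - (∑ i, c i • β i + algebraMap R B π * d)
            = - ∑ i, c i • β i := by ring
        rw [this]
        exact Λ.neg_mem (Λ.sum_mem fun i _ => Λ.smul_mem _ (Submodule.subset_span ⟨i, rfl⟩))
      rw [this]
      exact Submodule.smul_mem_smul (Ideal.mem_span_singleton_self π) Submodule.mem_top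
    obtain ⟨s, hs1, hs2⟩ :=
      Submodule.exists_sub_one_mem_and_smul_eq_zero_of_fg_of_le_smul _ _ hfg hle
    refine ⟨s, hs1, fun b => ?_⟩
    have := hs2 (Submodule.Quotient.mk b) Submodule.mem_top
    rwa [← Submodule.Quotient.mk_smul, Submodule.Quotient.mk_eq_zero] at this
  obtain ⟨s, hs1, hs2⟩ := hs
  have hρs : ρR s = 1 := by
    have : s - 1 ∈ RingHom.ker ρR := by rw [hkR]; exact hs1
    rw [RingHom.mem_ker, map_sub, map_one, sub_eq_zero] at this
    exact this
  refine ⟨n, βb, β, s, hβ, hρs, fun b => ?_, ?_⟩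
  · exact (Submodule.mem_span_range_iff_exists_fun R).mp (hs2 b)
  · -- linear independence through the relation module
    rw [Fintype.linearIndependent_iff]
    let f : (Fin n → R) →ₗ[R] B := Fintype.linearCombination R β
    have hf : ∀ c, f c = ∑ i, c i • β i := fun c => Fintype.linearCombination_apply R β c
    have hle : LinearMap.ker f ≤ Ideal.span {π} • LinearMap.ker f := by
      intro c hc
      rw [LinearMap.mem_ker, hf] at hc
      have h1 : ∑ i, ρR (c i) • βb i = 0 := by
        have := congrArg ρB hc
        rw [map_sum, map_zero] at this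
        rw [← this]
        exact Finset.sum_congr rfl fun i _ => by rw [hρsmul, hβ]
      have h2 : ∀ i, ρR (c i) = 0 := fun i =>
        Fintype.linearIndependent_iff.mp βb.linearIndependent (fun i => ρR (c i)) h1 i
      have h3 : ∀ i, ∃ d, c i = π * d := fun i => by
        have : c i ∈ RingHom.ker ρR := h2 i
        rw [hkR, Ideal.mem_span_singleton] at this
        exact this
      choose d hd using h3
      have hdker : d ∈ LinearMap.ker f := by
        rw [LinearMap.mem_ker, hf]
        have : algebraMap R B π * ∑ i, d i • β i = 0 := by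
          rw [← hc, Finset.mul_sum]
          refine Finset.sum_congr rfl fun i _ => ?_
          rw [hd i, mul_smul, Algebra.smul_def π]
        exact (mul_eq_zero.mp this).resolve_left hπB
      have : c = π • d := by
        ext i; rw [hd i]; rfl
      rw [this]
      exact Submodule.smul_mem_smul (Ideal.mem_span_singleton_self π) hdker
    have hfg : (LinearMap.ker f).FG := IsNoetherian.noetherian _
    obtain ⟨t, ht1, ht2⟩ :=
      Submodule.exists_sub_one_mem_and_smul_eq_zero_of_fg_of_le_smul _ _ hfg hle
    have ht0 : t ≠ 0 := by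
      rintro rfl
      have : (0 : R) - 1 ∈ RingHom.ker ρR := by rw [hkR]; exact ht1
      rw [RingHom.mem_ker, map_sub, map_zero, map_one, zero_sub, neg_eq_zero] at this
      exact one_ne_zero this
    intro c hc i
    have hck : c ∈ LinearMap.ker f := by rw [LinearMap.mem_ker, hf]; exact hc
    have := congrFun (ht2 c hck) i
    simp only [Pi.smul_apply, smul_eq_mul, Pi.zero_apply] at this
    exact (mul_eq_zero.mp this).resolve_left ht0

/-- Stage 2: the lifted family is a `K`-basis of `F`, and traces reduce. -/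
theorem trace_compat {R B Rb Bb : Type*} (K F : Type*)
    [CommRing R] [IsDomain R]
    [CommRing B] [IsDomain B] [Algebra R B] [Module.Finite R B]
    [Field K] [Algebra R K] [IsFractionRing R K]
    [Field F] [Algebra B F] [IsFractionRing B F] [Algebra K F] [Algebra R F]
    [IsScalarTower R K F] [IsScalarTower R B F]
    [CommRing Rb] [Nontrivial Rb]
    [CommRing Bb] [Algebra Rb Bb]
    (hinj : Function.Injective (algebraMap R B))
    (ρR : R →+* Rb) (ρB : B →+* Bb)
    (hcomp : ∀ r, ρB (algebraMap R B r) = algebraMap Rb Bb (ρR r))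
    {n : ℕ} (βb : Basis (Fin n) Rb Bb) (β : Fin n → B) (s : R)
    (hβ : ∀ i, ρB (β i) = βb i) (hρs : ρR s = 1)
    (hsp : ∀ b : B, ∃ c : Fin n → R, ∑ i, c i • β i = s • b)
    (hli : LinearIndependent R β) (b : B) :
    ∃ t : R, algebraMap R K s * Algebra.trace K F (algebraMap B F b) = algebraMap R K t ∧
      Algebra.trace Rb Bb (ρB b) = ρR t := by
  classical
  have hρsmul : ∀ (r : R) (b : B), ρB (r • b) = ρR r • ρB b := by
    intro r b
    rw [Algebra.smul_def, map_mul, hcomp, ← Algebra.smul_def]
  have hs0 : s ≠ 0 := by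
    rintro rfl
    rw [map_zero] at hρs
    exact zero_ne_one hρs
  have hsK : algebraMap R K s ≠ 0 := by
    simpa using (IsFractionRing.injective R K).ne hs0
  have : FaithfulSMul R B := (faithfulSMul_iff_algebraMap_injective R B).mpr hinj
  have hinjBF : Function.Injective (algebraMap B F) := IsFractionRing.injective B F
  let v : Fin n → F := fun i => algebraMap B F (β i)
  have hsmulF : ∀ (r : R) (x : B), algebraMap B F (r • x) = algebraMap R K r • algebraMap B F x := by
    intro r x
    rw [Algebra.smul_def, map_mul, ← IsScalarTower.algebraMap_apply R B F,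
      IsScalarTower.algebraMap_apply R K F, ← Algebra.smul_def]
  have hliR : LinearIndependent R v := by
    have := hli.map' (IsScalarTower.toAlgHom R B F).toLinearMap
      (LinearMap.ker_eq_bot.mpr hinjBF)
    exact this
  have hliK : LinearIndependent K v := hliR.localization K R⁰
  -- expansion of any element of `B` in the family `v`
  have hexp : ∀ x : B, ∃ c : Fin n → R,
      algebraMap B F x = ∑ i, (algebraMap R K (c i) / algebraMap R K s) • v i := by
    intro x
    obtain ⟨c, hc⟩ := hsp x
    refine ⟨c, ?_⟩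
    have h1 : algebraMap R K s • algebraMap B F x = ∑ i, algebraMap R K (c i) • v i := by
      rw [← hsmulF, ← hc, map_sum]
      exact Finset.sum_congr rfl fun i _ => hsmulF _ _
    have h2 : algebraMap B F x = (algebraMap R K s)⁻¹ • ∑ i, algebraMap R K (c i) • v i := by
      rw [← h1, smul_smul, inv_mul_cancel₀ hsK, one_smul]
    rw [h2, Finset.smul_sum]
    refine Finset.sum_congr rfl fun i _ => ?_
    rw [smul_smul, div_eq_inv_mul]
  have hspK : ⊤ ≤ Submodule.span K (Set.range v) := by
    rintro x -
    obtain ⟨⟨y, ⟨_, r, hr, rfl⟩⟩, hy⟩ := IsLocalization.surj (Algebra.algebraMapSubmonoid B R⁰) x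
    simp only at hy
    obtain ⟨c, hc⟩ := hexp y
    have hr0 : algebraMap B F (algebraMap R B r) ≠ 0 := by
      have hr' : r ≠ 0 := nonZeroDivisors.ne_zero hr
      have h1 : algebraMap R B r ≠ 0 := by
        intro h0
        exact hr' (hinj (by rw [h0, map_zero]))
      intro h0
      exact h1 (hinjBF (by rw [h0, map_zero]))
    have hx : x = (algebraMap B F (algebraMap R B r))⁻¹ * algebraMap B F y := by
      rw [← hy]; field_simp
    rw [hx, hc, ← IsScalarTower.algebraMap_apply R B F, IsScalarTower.algebraMap_apply R K F,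
      ← map_inv₀, ← Algebra.smul_def]
    refine Submodule.smul_mem _ _ (Submodule.sum_mem _ fun i _ => ?_)
    exact Submodule.smul_mem _ _ (Submodule.subset_span ⟨i, rfl⟩)
  let bF : Basis (Fin n) K F := Basis.mk hliK hspK
  have hbF : ∀ i, bF i = algebraMap B F (β i) := fun i => by
    simp [bF, v]
  -- matrix coefficients of `b`
  choose cm hcm using fun j => hsp (b * β j)
  have hreprK : ∀ i j, bF.repr (algebraMap B F b * bF j) i
      = algebraMap R K (cm j i) / algebraMap R K s := by
    intro i j
    have h1 : algebraMap R K s • (algebraMap B F b * bF j)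
        = ∑ i, algebraMap R K (cm j i) • bF i := by
      rw [hbF, ← map_mul, ← hsmulF, ← hcm j, map_sum]
      exact Finset.sum_congr rfl fun i _ => by rw [hsmulF, hbF]
    have h2 : algebraMap B F b * bF j
        = ∑ i, (algebraMap R K (cm j i) / algebraMap R K s) • bF i := by
      have : algebraMap B F b * bF j
          = (algebraMap R K s)⁻¹ • ∑ i, algebraMap R K (cm j i) • bF i := by
        rw [← h1, smul_smul, inv_mul_cancel₀ hsK, one_smul]
      rw [this, Finset.smul_sum]
      exact Finset.sum_congr rfl fun i _ => by rw [smul_smul, div_eq_inv_mul]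
    rw [h2, Basis.repr_sum_self]
  have hreprb : ∀ i j, βb.repr (ρB b * βb j) i = ρR (cm j i) := by
    intro i j
    have h1 : ρB b * βb j = ∑ i, ρR (cm j i) • βb i := by
      have := congrArg ρB (hcm j)
      rw [hρsmul, hρs, one_smul, map_mul, hβ, map_sum] at this
      rw [← this]
      exact Finset.sum_congr rfl fun i _ => by rw [hρsmul, hβ]
    rw [h1, Basis.repr_sum_self]
  refine ⟨∑ j, cm j j, ?_, ?_⟩
  · rw [Algebra.trace_eq_matrix_trace bF, Matrix.trace, map_sum, Finset.mul_sum]
    refine Finset.sum_congr rfl fun j _ => ?_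
    rw [Matrix.diag_apply, Algebra.leftMulMatrix_eq_repr_mul, hreprK]
    field_simp
  · rw [Algebra.trace_eq_matrix_trace βb, Matrix.trace, map_sum]
    refine Finset.sum_congr rfl fun j _ => ?_
    rw [Matrix.diag_apply, Algebra.leftMulMatrix_eq_repr_mul, hreprb]

/-- **NC-ASM.**  Assembly of the "non-colliding branch points ⇒ normal special fibre" theorem,
in abstract-reduction form.  `ρR : R → Rb`, `ρB : B → Bb` model the reductions mod `π`;
`hC` is the characteristic-zero input (trace-dual elements times `Pi` are integral away from `π`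
and nilpotent modulo `Pi`). -/
theorem nc_assembly {R B Rb Bb K F Kb κ : Type*}
    [CommRing R] [IsDomain R] [IsNoetherianRing R] [IsIntegrallyClosed R]
    [CommRing B] [IsDomain B] [Algebra R B] [Module.Finite R B]
    [Field K] [Algebra R K] [IsFractionRing R K]
    [Field F] [Algebra B F] [IsFractionRing B F] [Algebra K F] [Algebra R F]
    [IsScalarTower R K F] [IsScalarTower R B F]
    [CommRing Rb] [IsDomain Rb] [IsPrincipalIdealRing Rb]
    [CommRing Bb] [IsDomain Bb] [Algebra Rb Bb]
    [Field Kb] [Algebra Rb Kb] [IsFractionRing Rb Kb]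
    [Field κ] [Algebra Bb κ] [IsFractionRing Bb κ] [Algebra Kb κ] [Algebra Rb κ]
    [IsScalarTower Rb Kb κ] [IsScalarTower Rb Bb κ]
    [Algebra.IsSeparable Kb κ]
    (hinj : Function.Injective (algebraMap R B))
    (π : R) (hπ : π ≠ 0) (ρR : R →+* Rb) (ρB : B →+* Bb)
    (hR : Function.Surjective ρR) (hkR : RingHom.ker ρR = Ideal.span {π})
    (hB : Function.Surjective ρB) (hkB : RingHom.ker ρB = Ideal.span {algebraMap R B π})
    (hcomp : ∀ r, ρB (algebraMap R B r) = algebraMap Rb Bb (ρR r))
    (Pi : R) (hPi : Squarefree (ρR Pi))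
    (hC : ∀ z : F,
      (∀ b : B, ∃ r : R, Algebra.trace K F (z * algebraMap B F b) = algebraMap R K r) →
      ∃ (N k : ℕ) (y w : B),
        algebraMap R F π ^ k * (algebraMap R F Pi * z) = algebraMap B F y ∧
        algebraMap R F π ^ k * (algebraMap R F Pi * z) ^ N
          = algebraMap R F Pi * algebraMap B F w) :
    IsIntegrallyClosed Bb := by
  classical
  obtain ⟨hinjb, n, βb, β, s, hβ, hρs, hsp, hli⟩ :=
    exists_lifted_basis K F hinj π hπ ρR ρB hR hkR hB hkB hcomp
  have htr := trace_compat K F hinj ρR ρB hcomp βb β s hβ hρs hsp hli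
  choose T hT1 hT2 using htr
  -- basic facts
  have hρsmul : ∀ (r : R) (b : B), ρB (r • b) = ρR r • ρB b := by
    intro r b
    rw [Algebra.smul_def, map_mul, hcomp, ← Algebra.smul_def]
  have hs0 : s ≠ 0 := by
    rintro rfl
    rw [map_zero] at hρs
    exact zero_ne_one hρs
  have hinjRK : Function.Injective (algebraMap R K) := IsFractionRing.injective R K
  have hinjBF : Function.Injective (algebraMap B F) := IsFractionRing.injective B F
  have hinjRF : Function.Injective (algebraMap R F) := by
    rw [IsScalarTower.algebraMap_eq R K F]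
    exact (algebraMap K F).injective.comp hinjRK
  have hsK : algebraMap R K s ≠ 0 := fun h => hs0 (hinjRK (by rw [h, map_zero]))
  have hπB : algebraMap R B π ≠ 0 := fun h => hπ (hinj (by rw [h, map_zero]))
  have hπF : algebraMap R F π ≠ 0 := fun h => hπ (hinjRF (by rw [h, map_zero]))
  -- the R-linear trace functional on B
  let trB : B →ₗ[R] K :=
    ((Algebra.trace K F).restrictScalars R).comp (IsScalarTower.toAlgHom R B F).toLinearMap
  have htrB : ∀ b, trB b = Algebra.trace K F (algebraMap B F b) := fun b => rfl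
  -- Gram matrix, scaled by s
  let G : Matrix (Fin n) (Fin n) R := fun i j => T (β i * β j)
  have hG1 : ∀ i j, algebraMap R K s * trB (β i * β j) = algebraMap R K (G i j) :=
    fun i j => hT1 (β i * β j)
  have hG2 : ρR.mapMatrix G = Algebra.traceMatrix Rb βb := by
    ext i j
    rw [RingHom.mapMatrix_apply, Matrix.map_apply, Algebra.traceMatrix_apply,
      Algebra.traceForm_apply, ← hβ, ← hβ, ← map_mul, hT2]
  set δ : R := G.det with hδ
  -- separability gives a nonzero discriminant
  have hfinb : Module.Finite Rb Bb := Module.Finite.of_basis βb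
  have hfreeb : Module.Free Rb Bb := Module.Free.of_basis βb
  have : FaithfulSMul Rb Bb := (faithfulSMul_iff_algebraMap_injective Rb Bb).mpr hinjb
  have hfinK : Module.Finite Kb κ := Module.Finite.of_isLocalization Rb Bb (nonZeroDivisors Rb)
  have hρδ : ρR δ = Algebra.discr Rb βb := by
    rw [Algebra.discr_def, ← hG2, hδ, RingHom.map_det]
  have hdisc : Algebra.discr Rb βb ≠ 0 := by
    have h1 := Algebra.discr_localizationLocalization Rb (nonZeroDivisors Rb) κ βb (Rₘ := Kb)
    have h2 := Algebra.discr_not_zero_of_basis Kb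
      (βb.localizationLocalization Kb (nonZeroDivisors Rb) κ)
    intro h0
    rw [h1, h0, map_zero] at h2
    exact h2 rfl
  have hρδ0 : ρR δ ≠ 0 := by rw [hρδ]; exact hdisc
  have hδ0 : δ ≠ 0 := by
    rintro h
    rw [h, map_zero] at hρδ0
    exact hρδ0 rfl
  have hδK : algebraMap R K δ ≠ 0 := fun h => hδ0 (hinjRK (by rw [h, map_zero]))
  have hδF : algebraMap R F δ ≠ 0 := fun h => hδ0 (hinjRF (by rw [h, map_zero]))
  -- adjugate and the dual-type elements
  let A : Matrix (Fin n) (Fin n) R := G.adjugate
  have hAG : A * G = δ • (1 : Matrix (Fin n) (Fin n) R) := Matrix.adjugate_mul G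
  let γ : Fin n → B := fun i => ∑ j, A i j • β j
  have hγβ : ∀ i j, algebraMap R K s * trB (γ i * β j)
      = algebraMap R K (if i = j then δ else 0) := by
    intro i j
    have h1 : γ i * β j = ∑ k, A i k • (β k * β j) := by
      simp only [γ, Finset.sum_mul, smul_mul_assoc]
    rw [h1, map_sum, Finset.mul_sum]
    have h2 : ∀ k, algebraMap R K s * trB (A i k • (β k * β j))
        = algebraMap R K (A i k * G k j) := by
      intro k
      rw [map_smul, Algebra.smul_def, mul_left_comm, hG1, map_mul]
    rw [Finset.sum_congr rfl fun k _ => h2 k, ← map_sum]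
    congr 1
    have h3 : (A * G) i j = ∑ k, A i k * G k j := Matrix.mul_apply
    rw [← h3, hAG, Matrix.smul_apply, Matrix.one_apply, smul_eq_mul]
    split_ifs <;> simp
  -- the elements z_i and the premise of hC
  let zz : Fin n → F := fun i =>
    (algebraMap R K s ^ 2 / algebraMap R K δ) • algebraMap B F (γ i)
  have hzz : ∀ i, algebraMap R F δ * zz i = algebraMap R F s ^ 2 * algebraMap B F (γ i) := by
    intro i
    have e : algebraMap K F (algebraMap R K δ)
        * algebraMap K F (algebraMap R K s ^ 2 / algebraMap R K δ)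
        = algebraMap K F (algebraMap R K s) ^ 2 := by
      rw [← map_mul (algebraMap K F), ← map_pow (algebraMap K F)]
      congr 1
      field_simp
    simp only [zz]
    rw [Algebra.smul_def, IsScalarTower.algebraMap_apply R K F δ,
      IsScalarTower.algebraMap_apply R K F s, ← mul_assoc, e]
  have hprem : ∀ i (b : B), ∃ r : R,
      Algebra.trace K F (zz i * algebraMap B F b) = algebraMap R K r := by
    intro i b
    obtain ⟨c, hc⟩ := hsp b
    refine ⟨c i, ?_⟩
    have h1 : algebraMap R K s * (algebraMap R K s * trB (γ i * b))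
        = algebraMap R K (c i) * algebraMap R K δ := by
      have e1 : algebraMap R K s * trB (γ i * b) = trB (γ i * (s • b)) := by
        rw [mul_smul_comm, map_smul, Algebra.smul_def]
      rw [e1, ← hc, Finset.mul_sum, map_sum, Finset.mul_sum]
      have e2 : ∀ j, algebraMap R K s * trB (γ i * c j • β j)
          = algebraMap R K (c j) * algebraMap R K (if i = j then δ else 0) := by
        intro j
        rw [mul_smul_comm, map_smul, Algebra.smul_def, mul_left_comm, hγβ]
      rw [Finset.sum_congr rfl fun j _ => e2 j]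
      simp only [apply_ite (algebraMap R K), map_zero, mul_ite, mul_zero, Finset.sum_ite_eq,
        Finset.mem_univ, if_true]
    have h2 : zz i * algebraMap B F b
        = (algebraMap R K s ^ 2 / algebraMap R K δ) • algebraMap B F (γ i * b) := by
      simp only [zz]; rw [smul_mul_assoc, map_mul]
    rw [h2, map_smul, smul_eq_mul, ← htrB]
    field_simp
    linear_combination h1
  -- primality of π in B
  have hprimeB : Prime (algebraMap R B π) := by
    have : (Ideal.span {algebraMap R B π}).IsPrime := by
      rw [← hkB]; exact RingHom.ker_isPrime ρB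
    exact (Ideal.span_singleton_prime hπB).mp this
  have hndvd : ∀ a : R, ρR a ≠ 0 → ¬ algebraMap R B π ∣ algebraMap R B a := by
    intro a ha hdvd
    have : algebraMap R B a ∈ RingHom.ker ρB := by
      rw [hkB, Ideal.mem_span_singleton]; exact hdvd
    rw [RingHom.mem_ker, hcomp] at this
    exact ha (hinjb (by rw [this, map_zero]))
  have hρPi : ρR Pi ≠ 0 := hPi.ne_zero
  -- the reduced elements
  have hkey : ∀ i, ∃ (N : ℕ) (yb wb : Bb),
      yb ^ N = algebraMap Rb Bb (ρR Pi) * wb ∧
      algebraMap Rb Bb (ρR δ) * yb = algebraMap Rb Bb (ρR Pi) * ρB (γ i) := by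
    intro i
    obtain ⟨N, k, y, w, hy, hw⟩ := hC (zz i) (hprem i)
    have h1 : algebraMap R B δ * y
        = algebraMap R B π ^ k * (algebraMap R B (Pi * s ^ 2) * γ i) := by
      apply hinjBF
      rw [map_mul, ← hy, map_mul, map_pow, map_mul, ← IsScalarTower.algebraMap_apply R B F,
        ← IsScalarTower.algebraMap_apply R B F, ← IsScalarTower.algebraMap_apply R B F,
        map_mul, map_pow]
      linear_combination (algebraMap R F π ^ k * algebraMap R F Pi) * hzz i
    obtain ⟨y1, rfl⟩ : algebraMap R B π ^ k ∣ y :=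
      hprimeB.pow_dvd_of_dvd_mul_left k (hndvd δ hρδ0) ⟨_, h1⟩
    have hπk : algebraMap R B π ^ k ≠ 0 := pow_ne_zero _ hπB
    have hπkF : algebraMap R F π ^ k ≠ 0 := pow_ne_zero _ hπF
    have h2 : algebraMap R B δ * y1 = algebraMap R B (Pi * s ^ 2) * γ i := by
      apply mul_left_cancel₀ hπk
      rw [← h1]; ring
    have h3 : algebraMap R F Pi * zz i = algebraMap B F y1 := by
      apply mul_left_cancel₀ hπkF
      rw [hy, map_mul, map_pow, ← IsScalarTower.algebraMap_apply R B F]
    have h4 : algebraMap R B π ^ k * y1 ^ N = algebraMap R B Pi * w := by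
      apply hinjBF
      rw [map_mul, map_pow, map_pow, ← IsScalarTower.algebraMap_apply R B F, map_mul,
        ← IsScalarTower.algebraMap_apply R B F, ← h3, hw]
    obtain ⟨w1, rfl⟩ : algebraMap R B π ^ k ∣ w :=
      hprimeB.pow_dvd_of_dvd_mul_left k (hndvd Pi hρPi) ⟨_, h4.symm⟩
    have h5 : y1 ^ N = algebraMap R B Pi * w1 := by
      apply mul_left_cancel₀ hπk
      rw [h4]; ring
    refine ⟨N, ρB y1, ρB w1, ?_, ?_⟩
    · rw [← map_pow, h5, map_mul, hcomp]
    · have := congrArg ρB h2
      rw [map_mul, map_mul, hcomp, hcomp, map_mul, map_pow, hρs, one_pow, mul_one] at this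
      exact this
  choose Nn yb wb hyb1 hyb2 using hkey
  have hTrb : ∀ i j, Algebra.trace Rb Bb (ρB (γ i) * βb j) = if i = j then ρR δ else 0 := by
    intro i j
    have h1 : T (γ i * β j) = if i = j then δ else 0 := by
      apply hinjRK
      rw [← hT1, ← htrB, hγβ]
    rw [← hβ j, ← map_mul, hT2, h1]
    split_ifs <;> simp
  -- the κ-side
  have hinjRbKb : Function.Injective (algebraMap Rb Kb) := IsFractionRing.injective Rb Kb
  have hrad : (Ideal.span {ρR Pi}).IsRadical := isRadical_iff_span_singleton.mp hPi.isRadical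
  rw [isIntegrallyClosed_iff κ]
  intro x hx
  have hxR : IsIntegral Rb x := isIntegral_trans x hx
  let S := integralClosure Rb κ
  have hfinS : Module.Finite Rb S := IsIntegralClosure.finite Rb Kb κ S
  have hinjS : Function.Injective (algebraMap Rb S) := by
    intro a b hab
    have h1 : algebraMap Rb κ a = algebraMap Rb κ b := congrArg (algebraMap S κ) hab
    rw [IsScalarTower.algebraMap_apply Rb Kb κ, IsScalarTower.algebraMap_apply Rb Kb κ] at h1
    exact hinjRbKb ((algebraMap Kb κ).injective h1)
  have htfS : Module.IsTorsionFree Rb S :=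
    (Module.isTorsionFree_iff_algebraMap_injective).mpr hinjS
  have hfreeS : Module.Free Rb S := Module.free_of_finite_type_torsion_free'
  have hlocS : IsLocalization (Algebra.algebraMapSubmonoid S (nonZeroDivisors Rb)) κ :=
    IsIntegralClosure.isLocalization Rb Kb κ S
  let xS : S := ⟨x, hxR⟩
  have hD : ∀ i, ∃ c : Rb,
      Algebra.trace Kb κ (algebraMap Bb κ (yb i) * x) = algebraMap Rb Kb (ρR Pi * c) := by
    intro i
    have hyint : IsIntegral Rb (algebraMap Bb κ (yb i)) :=
      (Algebra.IsIntegral.isIntegral (R := Rb) (yb i)).map (IsScalarTower.toAlgHom Rb Bb κ)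
    have hwint : IsIntegral Rb (algebraMap Bb κ (wb i)) :=
      (Algebra.IsIntegral.isIntegral (R := Rb) (wb i)).map (IsScalarTower.toAlgHom Rb Bb κ)
    let yS : S := ⟨_, hyint⟩
    let wS : S := ⟨_, hwint⟩
    have hpow : (yS * xS) ^ (Nn i) = ρR Pi • (wS * xS ^ (Nn i)) := by
      apply Subtype.ext
      show (algebraMap Bb κ (yb i) * x) ^ (Nn i)
        = ρR Pi • (algebraMap Bb κ (wb i) * x ^ (Nn i))
      rw [mul_pow, ← map_pow, hyb1, map_mul, ← IsScalarTower.algebraMap_apply Rb Bb κ,
        Algebra.smul_def, mul_assoc]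
    obtain ⟨c, hc⟩ := trace_eq_mul_of_pow_eq_smul (ρR Pi) hrad (yS * xS) _ (Nn i) hpow
    refine ⟨c, ?_⟩
    have h1 := Algebra.trace_localization Rb (nonZeroDivisors Rb) (yS * xS) (Rₘ := Kb) (Sₘ := κ)
    rw [hc] at h1
    exact h1
  -- basis of κ over Kb and coefficient comparison
  let bκ : Basis (Fin n) Kb κ := βb.localizationLocalization Kb (nonZeroDivisors Rb) κ
  have hbκ : ∀ j, bκ j = algebraMap Bb κ (βb j) := fun j =>
    Basis.localizationLocalization_apply Kb (nonZeroDivisors Rb) κ βb j
  have hψ : ∀ a : Bb, Algebra.trace Kb κ (algebraMap Bb κ a * x)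
      = ∑ j, bκ.repr x j * algebraMap Rb Kb (Algebra.trace Rb Bb (a * βb j)) := by
    intro a
    conv_lhs => rw [← bκ.sum_repr x]
    rw [Finset.mul_sum, map_sum]
    refine Finset.sum_congr rfl fun j _ => ?_
    rw [mul_smul_comm, map_smul, smul_eq_mul, hbκ, ← map_mul,
      Algebra.trace_localization Rb (nonZeroDivisors Rb)]
  have h6 : ∀ i, Algebra.trace Kb κ (algebraMap Bb κ (ρB (γ i)) * x)
      = bκ.repr x i * algebraMap Rb Kb (ρR δ) := by
    intro i
    rw [hψ]
    simp only [hTrb, apply_ite (algebraMap Rb Kb), map_zero, mul_ite, mul_zero,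
      Finset.sum_ite_eq, Finset.mem_univ, if_true]
  have hlin : ∀ (r : Rb) (a : Bb),
      Algebra.trace Kb κ (algebraMap Bb κ (algebraMap Rb Bb r * a) * x)
        = algebraMap Rb Kb r * Algebra.trace Kb κ (algebraMap Bb κ a * x) := by
    intro r a
    rw [map_mul (algebraMap Bb κ), ← IsScalarTower.algebraMap_apply Rb Bb κ,
      IsScalarTower.algebraMap_apply Rb Kb κ, mul_assoc, ← Algebra.smul_def, map_smul,
      smul_eq_mul]
  choose c hc using hD
  have hδKb : algebraMap Rb Kb (ρR δ) ≠ 0 := fun h => hρδ0 (hinjRbKb (by rw [h, map_zero]))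
  have hPiKb : algebraMap Rb Kb (ρR Pi) ≠ 0 := fun h => hρPi (hinjRbKb (by rw [h, map_zero]))
  have h7 : ∀ i, bκ.repr x i = algebraMap Rb Kb (c i) := by
    intro i
    have e1 := hlin (ρR δ) (yb i)
    rw [hyb2 i, hlin, h6, hc, map_mul] at e1
    apply mul_left_cancel₀ (mul_ne_zero hPiKb hδKb)
    linear_combination e1
  refine ⟨∑ j, c j • βb j, ?_⟩
  rw [map_sum]
  conv_rhs => rw [← bκ.sum_repr x]
  refine Finset.sum_congr rfl fun j _ => ?_
  rw [h7, hbκ, Algebra.smul_def, map_mul, ← IsScalarTower.algebraMap_apply Rb Bb κ,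
    IsScalarTower.algebraMap_apply Rb Kb κ, ← Algebra.smul_def]

end Fermat.Agent.S18.H62
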