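import Mathlib
import Fermat.Agent.S18.NCAdapt_helper49
import Fermat.Agent.S18.ChartsReg_helper97

/-!
# S18, (NC) fusion through `H49.nc_main_rho`: from the Gauss reduction, separability and the
# branch hypothesis in valuation-subring form to (REG)

`A₀` a discrete valuation ring with uniformiser `π` and fraction field `K₀` of characteristic
zero, `F` a field over `K₀`, `x : F` transcendental over `K₀` with `F / K₀(x)` finite.

* `isIntegrallyClosed_quotient_of_rho_branch`, `reg_chartU_of_rho_branch`,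
  `reg_chartV_of_rho_branch`: the `ρ`-form.  `A₀[X]` acts on `F` through `X ↦ x` (`hxA`, `rfl`
  for `(aeval x).toRingHom.toAlgebra`); `ρ` is the Gauss reduction on
  `integralClosure A₀[X] F` with kernel `(C π)`; every `ρ b` is separable over the subfield
  generated by `ρ (A₀[X])`; `Pi` has squarefree reduction; `hbr` is the branch hypothesis in
  valuation-subring form, literally the hypothesis `hbr` of `H49.nc_main`.  No `K₀[X]`-algebra,
  no `integralClosure K₀[X] F`, no fraction field of `A₀[X]` on the consumer side.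
* `reg_chartU_of_gauss_branch`, `reg_chartV_of_gauss_branch`: the valuation-ring form, from
  exactly the Gauss hypotheses of `H97.kc_charts` (`V`, `hAV`, `hxV`, `hπV`, `hVπ`, `hsatU`), a
  reduction `red : V →+* Ω` with kernel the maximal ideal, the separability statement for the
  subfield generated by `red (A₀[x])`, `Pi` and the branch hypothesis written with `aeval x`
  (`BranchAt`): no polynomial-algebra instance on `F` occurs in the statement.

The conclusions are the hypotheses `hregU` / `hregV` of `H97.kc_charts`, literally.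
-/

set_option autoImplicit false
set_option linter.style.haveILetI false

open Polynomial IntermediateField

namespace Fermat.Agent.S18.H49

/-- Squarefreeness descends along a homomorphism of fields. -/
theorem squarefree_of_squarefree_map {k k' : Type*} [Field k] [Field k'] (ι : k →+* k')
    (p : k[X]) (h : Squarefree (p.map ι)) : Squarefree p := by
  intro q hq
  have hu : IsUnit (q.map ι) := by
    refine h _ ?_
    obtain ⟨c, hc⟩ := hq
    exact ⟨c.map ι, by rw [hc, Polynomial.map_mul, Polynomial.map_mul]⟩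
  rw [Polynomial.isUnit_iff_degree_eq_zero] at hu ⊢
  rwa [Polynomial.degree_map] at hu

/-- Change of residue map: squarefree reduction along any homomorphism `res` to a field killing
the uniformiser gives squarefree reduction along `IsLocalRing.residue`. -/
theorem squarefree_map_residue_of_map {A₀ : Type*} [CommRing A₀] [IsDomain A₀]
    [IsDiscreteValuationRing A₀] (π : A₀) (hπ : Irreducible π) {k₀ : Type*} [Field k₀]
    (res : A₀ →+* k₀) (hres : res π = 0) (Pi : A₀[X]) (h : Squarefree (Pi.map res)) :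
    Squarefree (Pi.map (IsLocalRing.residue A₀)) := by
  have hmax : IsLocalRing.maximalIdeal A₀ = Ideal.span {π} :=
    (IsDiscreteValuationRing.irreducible_iff_uniformizer π).mp hπ
  have hle : ∀ a : A₀, a ∈ IsLocalRing.maximalIdeal A₀ → res a = 0 := by
    intro a ha
    rw [hmax, Ideal.mem_span_singleton'] at ha
    obtain ⟨c, rfl⟩ := ha
    rw [_root_.map_mul, hres, mul_zero]
  let ι : IsLocalRing.ResidueField A₀ →+* k₀ :=
    Ideal.Quotient.lift (IsLocalRing.maximalIdeal A₀) res hle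
  have hι : ι.comp (IsLocalRing.residue A₀) = res := RingHom.ext fun a => by
    show Ideal.Quotient.lift (IsLocalRing.maximalIdeal A₀) res hle
      (Ideal.Quotient.mk (IsLocalRing.maximalIdeal A₀) a) = res a
    exact Ideal.Quotient.lift_mk _ _ _
  apply squarefree_of_squarefree_map ι
  rw [Polynomial.map_map, hι]
  exact h

section Fusion

variable {A₀ K₀ F : Type*} [CommRing A₀] [IsDomain A₀] [IsDiscreteValuationRing A₀]
  [Field K₀] [Algebra A₀ K₀] [IsFractionRing A₀ K₀] [CharZero K₀]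
  [Field F] [Algebra K₀ F] [Algebra A₀ F] [IsScalarTower A₀ K₀ F]

section Rho

variable [Algebra A₀[X] F]

/-- **(NC) at a chart, `ρ`-form, through `H49.nc_main_rho`.**  The special fibre of the integral
closure of `A₀[X]` in `F` is integrally closed. -/
theorem isIntegrallyClosed_quotient_of_rho_branch (π : A₀) (hπ : Irreducible π) (x : F)
    (hx : Transcendental K₀ x) [FiniteDimensional K₀⟮x⟯ F]
    (hxA : ∀ p : A₀[X], algebraMap A₀[X] F p = aeval x p)
    {Ω : Type*} [Field Ω] (ρ : integralClosure A₀[X] F →+* Ω)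
    (hker : RingHom.ker ρ = Ideal.span {algebraMap A₀[X] (integralClosure A₀[X] F) (C π)})
    (hsep : ∀ b : integralClosure A₀[X] F,
      IsSeparable (Subfield.closure
        (Set.range (ρ.comp (algebraMap A₀[X] (integralClosure A₀[X] F))))) (ρ b))
    {k₀ : Type*} [Field k₀] (res : A₀ →+* k₀) (hres : res π = 0)
    (Pi : A₀[X]) (hPi : Squarefree (Pi.map res))
    (hbr : ∀ W : ValuationSubring F, (∀ p : A₀[X], algebraMap A₀[X] F p ∈ W) →
      (∀ a : A₀, a ≠ 0 → (algebraMap A₀[X] F (C a))⁻¹ ∈ W) →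
      (algebraMap A₀[X] F Pi)⁻¹ ∈ W → ∀ y ∈ W, y⁻¹ ∉ W →
      ∃ g : A₀[X], (algebraMap A₀[X] F g)⁻¹ ∉ W ∧ y / algebraMap A₀[X] F g ∈ W) :
    IsIntegrallyClosed (integralClosure A₀[X] F ⧸
      Ideal.span {algebraMap A₀[X] (integralClosure A₀[X] F) (C π)}) := by
  haveI : FaithfulSMul A₀[X] F := H97.faithfulSMul_polynomial (K := K₀) hxA hx
  letI : Algebra (FractionRing A₀[X]) F := FractionRing.liftAlgebra A₀[X] F
  haveI : IsScalarTower A₀[X] (FractionRing A₀[X]) F :=
    FractionRing.isScalarTower_liftAlgebra A₀[X] F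
  haveI : FiniteDimensional (FractionRing A₀[X]) F :=
    H97.finite_of_tower_polynomial (K := K₀) hxA (FractionRing A₀[X])
  haveI : CharZero F := charZero_of_injective_algebraMap (algebraMap K₀ F).injective
  exact nc_main_rho (FractionRing A₀[X]) π hπ ρ hker hsep Pi
    (squarefree_map_residue_of_map π hπ res hres Pi hPi) hbr

/-- **(REG) for the finite chart, `ρ`-form, through `H49.nc_main_rho`**: the hypothesis `hregU`
of `H97.kc_charts`, literally. -/
theorem reg_chartU_of_rho_branch (π : A₀) (hπ : Irreducible π) (x : F)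
    (hx : Transcendental K₀ x) [FiniteDimensional K₀⟮x⟯ F]
    (hxA : ∀ p : A₀[X], algebraMap A₀[X] F p = aeval x p)
    {Ω : Type*} [Field Ω] (ρ : integralClosure A₀[X] F →+* Ω)
    (hker : RingHom.ker ρ = Ideal.span {algebraMap A₀[X] (integralClosure A₀[X] F) (C π)})
    (hsep : ∀ b : integralClosure A₀[X] F,
      IsSeparable (Subfield.closure
        (Set.range (ρ.comp (algebraMap A₀[X] (integralClosure A₀[X] F))))) (ρ b))
    {k₀ : Type*} [Field k₀] (res : A₀ →+* k₀) (hres : res π = 0)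
    (Pi : A₀[X]) (hPi : Squarefree (Pi.map res))
    (hbr : ∀ W : ValuationSubring F, (∀ p : A₀[X], algebraMap A₀[X] F p ∈ W) →
      (∀ a : A₀, a ≠ 0 → (algebraMap A₀[X] F (C a))⁻¹ ∈ W) →
      (algebraMap A₀[X] F Pi)⁻¹ ∈ W → ∀ y ∈ W, y⁻¹ ∉ W →
      ∃ g : A₀[X], (algebraMap A₀[X] F g)⁻¹ ∉ W ∧ y / algebraMap A₀[X] F g ∈ W) :
    ∀ n : Ideal (H97.chartU A₀ x), n.IsMaximal → algebraMap A₀ (H97.chartU A₀ x) π ∈ n →
      ∃ τ ∈ n, ∀ a : H97.chartU A₀ x, a ∉ Ideal.span {algebraMap A₀ (H97.chartU A₀ x) π} →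
        ∃ (e : ℕ) (d u : H97.chartU A₀ x), d ∉ n ∧ u ∉ n ∧
          a * d - u * τ ^ e ∈ Ideal.span {algebraMap A₀ (H97.chartU A₀ x) π} := by
  haveI := isIntegrallyClosed_quotient_of_rho_branch π hπ x hx hxA ρ hker hsep res hres Pi hPi
    hbr
  haveI : IsNoetherianRing (integralClosure A₀[X] F) :=
    H97.isNoetherianRing_integralClosure_polynomial (K := K₀) hxA hx
  have hprime : (Ideal.span
      {algebraMap A₀[X] (integralClosure A₀[X] F) (C π)}).IsPrime := by
    rw [← hker]
    exact RingHom.ker_isPrime ρ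
  exact H97.reg_chartU_of_nc' π hπ hxA hprime

/-- **(REG) for the chart at infinity, `ρ`-form, through `H49.nc_main_rho`**: the hypothesis
`hregV` of `H97.kc_charts`, literally.  Here `A₀[X]` acts on `F` through `X ↦ x⁻¹`. -/
theorem reg_chartV_of_rho_branch (π : A₀) (hπ : Irreducible π) (x : F)
    (hx : Transcendental K₀ x) [FiniteDimensional K₀⟮x⟯ F]
    (hxA : ∀ p : A₀[X], algebraMap A₀[X] F p = aeval x⁻¹ p)
    {Ω : Type*} [Field Ω] (ρ : integralClosure A₀[X] F →+* Ω)
    (hker : RingHom.ker ρ = Ideal.span {algebraMap A₀[X] (integralClosure A₀[X] F) (C π)})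
    (hsep : ∀ b : integralClosure A₀[X] F,
      IsSeparable (Subfield.closure
        (Set.range (ρ.comp (algebraMap A₀[X] (integralClosure A₀[X] F))))) (ρ b))
    {k₀ : Type*} [Field k₀] (res : A₀ →+* k₀) (hres : res π = 0)
    (Pi : A₀[X]) (hPi : Squarefree (Pi.map res))
    (hbr : ∀ W : ValuationSubring F, (∀ p : A₀[X], algebraMap A₀[X] F p ∈ W) →
      (∀ a : A₀, a ≠ 0 → (algebraMap A₀[X] F (C a))⁻¹ ∈ W) →
      (algebraMap A₀[X] F Pi)⁻¹ ∈ W → ∀ y ∈ W, y⁻¹ ∉ W →
      ∃ g : A₀[X], (algebraMap A₀[X] F g)⁻¹ ∉ W ∧ y / algebraMap A₀[X] F g ∈ W) :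
    ∀ n : Ideal (H97.chartV A₀ x), n.IsMaximal → algebraMap A₀ (H97.chartV A₀ x) π ∈ n →
      ∃ τ ∈ n, ∀ a : H97.chartV A₀ x, a ∉ Ideal.span {algebraMap A₀ (H97.chartV A₀ x) π} →
        ∃ (e : ℕ) (d u : H97.chartV A₀ x), d ∉ n ∧ u ∉ n ∧
          a * d - u * τ ^ e ∈ Ideal.span {algebraMap A₀ (H97.chartV A₀ x) π} := by
  haveI : FiniteDimensional K₀⟮x⁻¹⟯ F := H97.finiteDimensional_adjoin_inv (K := K₀) x
  exact reg_chartU_of_rho_branch π hπ x⁻¹ (H97.transcendental_inv hx) hxA ρ hker hsep res hres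
    Pi hPi hbr

end Rho

/-- The branch hypothesis of `H49.nc_main` for the coordinate `x`, written with `aeval x`
(no `A₀[X]`-algebra structure on `F` in the statement): every valuation ring `W` of `F`
containing `A₀[x]`, in which the nonzero constants and `Pi(x)` are units, is unramified over its
centre on `A₀[x]`, i.e. its maximal ideal is generated by a polynomial in `x`.
For `letI := (aeval x).toRingHom.toAlgebra` this is the hypothesis `hbr` of `H49.nc_main`
(equivalently `H10.BranchVS A₀ F Pi`) up to unfolding. -/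
def BranchAt (A₀ : Type*) {F : Type*} [CommRing A₀] [Field F] [Algebra A₀ F] (x : F)
    (Pi : A₀[X]) : Prop :=
  ∀ W : ValuationSubring F, (∀ p : A₀[X], aeval x p ∈ W) →
    (∀ a : A₀, a ≠ 0 → (aeval x (C a : A₀[X]))⁻¹ ∈ W) →
    (aeval x Pi)⁻¹ ∈ W → ∀ y ∈ W, y⁻¹ ∉ W →
    ∃ g : A₀[X], (aeval x g)⁻¹ ∉ W ∧ y / aeval x g ∈ W

/-- `BranchAt` from the instance form (`hbr` of `H49.nc_main`, `H10.BranchVS`), for any
`A₀[X]`-algebra structure on `F` with `X ↦ x`. -/
theorem branchAt_of_algebra {A₀ F : Type*} [CommRing A₀] [Field F] [Algebra A₀ F]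
    [Algebra A₀[X] F] (x : F) (hxA : ∀ p : A₀[X], algebraMap A₀[X] F p = aeval x p)
    (Pi : A₀[X])
    (hbr : ∀ W : ValuationSubring F, (∀ p : A₀[X], algebraMap A₀[X] F p ∈ W) →
      (∀ a : A₀, a ≠ 0 → (algebraMap A₀[X] F (C a))⁻¹ ∈ W) →
      (algebraMap A₀[X] F Pi)⁻¹ ∈ W → ∀ y ∈ W, y⁻¹ ∉ W →
      ∃ g : A₀[X], (algebraMap A₀[X] F g)⁻¹ ∉ W ∧ y / algebraMap A₀[X] F g ∈ W) :
    BranchAt A₀ x Pi := by
  intro W h1 h2 h3 y hy hy'
  obtain ⟨g, hg1, hg2⟩ := hbr W (fun p => by rw [hxA]; exact h1 p)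
    (fun a ha => by rw [hxA]; exact h2 a ha) (by rw [hxA]; exact h3) y hy hy'
  rw [hxA] at hg1 hg2
  exact ⟨g, hg1, hg2⟩

/-- **(REG) for the finite chart, valuation-ring form, through `H49.nc_main_rho`**: the
hypothesis `hregU` of `H97.kc_charts`, literally, from the Gauss hypotheses of `H97.kc_charts`,
the reduction map, separability, squarefree `Pi` and the branch hypothesis `BranchAt`. -/
theorem reg_chartU_of_gauss_branch (π : A₀) (hπ : Irreducible π) (x : F)
    (hx : Transcendental K₀ x) [FiniteDimensional K₀⟮x⟯ F]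
    (V : ValuationSubring F) (hAV : ∀ a : A₀, algebraMap A₀ F a ∈ V) (hxV : x ∈ V)
    (hπV : algebraMap A₀ F π ∈ V.nonunits)
    (hVπ : ∀ y ∈ V.nonunits, ∃ z ∈ V, y = algebraMap A₀ F π * z)
    (hsatU : ∀ b ∈ H97.chartU A₀ x, (∃ y ∈ V, b = algebraMap A₀ F π * y) →
      ∃ c ∈ H97.chartU A₀ x, b = algebraMap A₀ F π * c)
    {Ω : Type*} [Field Ω] (red : V →+* Ω) (hred : ∀ v : V, (v : F) ∈ V.nonunits ↔ red v = 0)
    (hsep : ∀ y : Ω,
      IsAlgebraic (Subfield.closure (red '' {v : V | ∃ p : A₀[X], (v : F) = aeval x p})) y →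
      IsSeparable (Subfield.closure (red '' {v : V | ∃ p : A₀[X], (v : F) = aeval x p})) y)
    {k₀ : Type*} [Field k₀] (res : A₀ →+* k₀) (hres : res π = 0)
    (Pi : A₀[X]) (hPi : Squarefree (Pi.map res))
    (hbr : BranchAt A₀ x Pi) :
    ∀ n : Ideal (H97.chartU A₀ x), n.IsMaximal → algebraMap A₀ (H97.chartU A₀ x) π ∈ n →
      ∃ τ ∈ n, ∀ a : H97.chartU A₀ x, a ∉ Ideal.span {algebraMap A₀ (H97.chartU A₀ x) π} →
        ∃ (e : ℕ) (d u : H97.chartU A₀ x), d ∉ n ∧ u ∉ n ∧
          a * d - u * τ ^ e ∈ Ideal.span {algebraMap A₀ (H97.chartU A₀ x) π} := by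
  classical
  letI algA : Algebra A₀[X] F := (aeval x : A₀[X] →ₐ[A₀] F).toRingHom.toAlgebra
  have hxA : ∀ p : A₀[X], algebraMap A₀[X] F p = aeval x p := fun _ => rfl
  have hBV : ∀ b : integralClosure A₀[X] F, (b : F) ∈ V := fun b =>
    H97.chartU_le_valuationSubring V hAV hxV ((H97.mem_integralClosure_polynomial_iff hxA).mp b.2)
  let incl : integralClosure A₀[X] F →+* V :=
    (algebraMap (integralClosure A₀[X] F) F).codRestrict V hBV
  let ρ : integralClosure A₀[X] F →+* Ω := red.comp incl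
  have hρ : ∀ b : integralClosure A₀[X] F, ρ b = red ⟨(b : F), hBV b⟩ := fun _ => rfl
  have hπB : ((algebraMap A₀[X] (integralClosure A₀[X] F) (C π) : integralClosure A₀[X] F) : F)
      = algebraMap A₀ F π := by
    show algebraMap A₀[X] F (C π) = _
    rw [hxA, aeval_C]
  have hρπ : ρ (algebraMap A₀[X] (integralClosure A₀[X] F) (C π)) = 0 := by
    rw [hρ]
    refine (hred _).mp ?_
    show ((algebraMap A₀[X] (integralClosure A₀[X] F) (C π) : integralClosure A₀[X] F) : F)
      ∈ V.nonunits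
    rw [hπB]
    exact hπV
  have hker : RingHom.ker ρ
      = Ideal.span {algebraMap A₀[X] (integralClosure A₀[X] F) (C π)} := by
    ext b
    rw [RingHom.mem_ker, Ideal.mem_span_singleton']
    constructor
    · intro hb
      rw [hρ] at hb
      have hbn : (b : F) ∈ V.nonunits := (hred ⟨(b : F), hBV b⟩).mpr hb
      obtain ⟨z, hz, hbz⟩ := hVπ _ hbn
      obtain ⟨c, hc, hbc⟩ := hsatU (b : F)
        ((H97.mem_integralClosure_polynomial_iff hxA).mp b.2) ⟨z, hz, hbz⟩
      refine ⟨⟨c, (H97.mem_integralClosure_polynomial_iff hxA).mpr hc⟩, ?_⟩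
      apply Subtype.ext
      show c * ((algebraMap A₀[X] (integralClosure A₀[X] F) (C π) : integralClosure A₀[X] F) : F)
        = (b : F)
      rw [hπB, hbc, mul_comm]
    · rintro ⟨c, rfl⟩
      rw [_root_.map_mul, hρπ, mul_zero]
  have hS : Set.range (ρ.comp (algebraMap A₀[X] (integralClosure A₀[X] F)))
      = red '' {v : V | ∃ p : A₀[X], (v : F) = aeval x p} := by
    ext w
    constructor
    · rintro ⟨p, rfl⟩
      refine ⟨incl (algebraMap A₀[X] (integralClosure A₀[X] F) p), ⟨p, ?_⟩, rfl⟩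
      show algebraMap A₀[X] F p = _
      exact hxA p
    · rintro ⟨v, ⟨p, hp⟩, rfl⟩
      refine ⟨p, ?_⟩
      show red (incl (algebraMap A₀[X] (integralClosure A₀[X] F) p)) = red v
      congr 1
      apply Subtype.ext
      show algebraMap A₀[X] F p = (v : F)
      rw [hp, hxA]
  have hsep' : ∀ b : integralClosure A₀[X] F,
      IsSeparable (Subfield.closure
        (Set.range (ρ.comp (algebraMap A₀[X] (integralClosure A₀[X] F))))) (ρ b) := by
    rw [hS]
    intro b
    apply hsep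
    set E := Subfield.closure (red '' {v : V | ∃ p : A₀[X], (v : F) = aeval x p}) with hE
    have hmem : ∀ p : A₀[X], ρ (algebraMap A₀[X] (integralClosure A₀[X] F) p) ∈ E := by
      intro p
      apply Subfield.subset_closure
      rw [← hS]
      exact ⟨p, rfl⟩
    let g : A₀[X] →+* E :=
      (ρ.comp (algebraMap A₀[X] (integralClosure A₀[X] F))).codRestrict E hmem
    have hg : (algebraMap E Ω).comp g = ρ.comp (algebraMap A₀[X] (integralClosure A₀[X] F)) :=
      RingHom.ext fun _ => rfl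
    have hbint : IsIntegral A₀[X] b := Algebra.IsIntegral.isIntegral b
    obtain ⟨q, hq, hqb⟩ := hbint
    have hint : IsIntegral E (ρ b) := by
      refine ⟨q.map g, hq.map g, ?_⟩
      rw [eval₂_map, hg, ← Polynomial.hom_eval₂, hqb, map_zero]
    exact hint.isAlgebraic
  exact reg_chartU_of_rho_branch π hπ x hx hxA ρ hker hsep' res hres Pi hPi
    (fun W h1 h2 h3 y hy hy' => hbr W h1 h2 h3 y hy hy')

/-- **(REG) for the chart at infinity, valuation-ring form, through `H49.nc_main_rho`**: the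
hypothesis `hregV` of `H97.kc_charts`, literally.  The branch hypothesis is for the coordinate
`x⁻¹`. -/
theorem reg_chartV_of_gauss_branch (π : A₀) (hπ : Irreducible π) (x : F)
    (hx : Transcendental K₀ x) [FiniteDimensional K₀⟮x⟯ F]
    (V : ValuationSubring F) (hAV : ∀ a : A₀, algebraMap A₀ F a ∈ V) (hxV' : x⁻¹ ∈ V)
    (hπV : algebraMap A₀ F π ∈ V.nonunits)
    (hVπ : ∀ y ∈ V.nonunits, ∃ z ∈ V, y = algebraMap A₀ F π * z)
    (hsatV : ∀ b ∈ H97.chartV A₀ x, (∃ y ∈ V, b = algebraMap A₀ F π * y) →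
      ∃ c ∈ H97.chartV A₀ x, b = algebraMap A₀ F π * c)
    {Ω : Type*} [Field Ω] (red : V →+* Ω) (hred : ∀ v : V, (v : F) ∈ V.nonunits ↔ red v = 0)
    (hsep : ∀ y : Ω,
      IsAlgebraic (Subfield.closure (red '' {v : V | ∃ p : A₀[X], (v : F) = aeval x⁻¹ p})) y →
      IsSeparable (Subfield.closure (red '' {v : V | ∃ p : A₀[X], (v : F) = aeval x⁻¹ p})) y)
    {k₀ : Type*} [Field k₀] (res : A₀ →+* k₀) (hres : res π = 0)
    (Pi : A₀[X]) (hPi : Squarefree (Pi.map res))
    (hbr : BranchAt A₀ x⁻¹ Pi) :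
    ∀ n : Ideal (H97.chartV A₀ x), n.IsMaximal → algebraMap A₀ (H97.chartV A₀ x) π ∈ n →
      ∃ τ ∈ n, ∀ a : H97.chartV A₀ x, a ∉ Ideal.span {algebraMap A₀ (H97.chartV A₀ x) π} →
        ∃ (e : ℕ) (d u : H97.chartV A₀ x), d ∉ n ∧ u ∉ n ∧
          a * d - u * τ ^ e ∈ Ideal.span {algebraMap A₀ (H97.chartV A₀ x) π} := by
  haveI : FiniteDimensional K₀⟮x⁻¹⟯ F := H97.finiteDimensional_adjoin_inv (K := K₀) x
  exact reg_chartU_of_gauss_branch π hπ x⁻¹ (H97.transcendental_inv hx) V hAV hxV' hπV hVπ hsatV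
    red hred hsep res hres Pi hPi hbr

end Fusion

end Fermat.Agent.S18.H49
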