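import Mathlib
import Fermat.Agent.S18.NCFusion_helper49
import Fermat.Agent.S18.BranchModelVS_helper10

/-!
# S18, (NC) through `H49.nc_main_rho`: the branch hypothesis `BranchAt` for the `K0`-model

For `F0 = modularFunctionFieldFullC K0 L` and a chart coordinate `xi : F0` identified by its
`q`-expansion, the branch hypothesis `H49.BranchAt A0 xi Pi` of `H49.reg_chartU_of_gauss_branch`
/ `H49.reg_chartV_of_gauss_branch` for the six charts (`j`, `1/j`, `t₂`, `1/t₂`, `t₃`, `1/t₃`)
with the standard branch polynomials, with no hypothesis left and no polynomial-algebra instance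
in the statement.  These are `H10.branchVS_model_*` (`BranchModelVS_helper10`) for the algebra
structure `(aeval xi).toRingHom.toAlgebra`, which is built inside.
-/

set_option autoImplicit false
set_option linter.style.haveILetI false

open AlgebraicCurve IntermediateField Polynomial ModularCurve
open Fermat.Agent.S24 Fermat.Agent.S24.H98

namespace Fermat.Agent.S18.H49

section Ne

variable {A0 : Type*} [CommRing A0] [IsDomain A0]

private theorem ne1 (c : A0) : (X * (X - C c) : A0[X]) ≠ 0 :=
  mul_ne_zero X_ne_zero (X_sub_C_ne_zero _)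

private theorem ne2 (c : A0) : (X * (X + C c) : A0[X]) ≠ 0 :=
  mul_ne_zero X_ne_zero (X_add_C_ne_zero _)

private theorem ne3 (c : A0) : (X * (C c * X - 1) : A0[X]) ≠ 0 := by
  refine mul_ne_zero X_ne_zero (fun h => ?_)
  have h0 := congrArg (fun p : A0[X] => p.coeff 0) h
  simp at h0

private theorem ne4 (c : A0) : (X * (C c * X + 1) : A0[X]) ≠ 0 := by
  refine mul_ne_zero X_ne_zero (fun h => ?_)
  have h0 := congrArg (fun p : A0[X] => p.coeff 0) h
  simp at h0

end Ne

section Model

variable (K0 : Type*) [Field K0] [Algebra K0 Kbar] [Algebra.IsAlgebraic K0 Kbar]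
  (L : ℕ) [NeZero L]
  {A0 : Type*} [CommRing A0] [IsDomain A0] [Algebra A0 K0] [IsFractionRing A0 K0]
  [Algebra A0 ↥(modularFunctionFieldFullC K0 L)]
  [IsScalarTower A0 K0 ↥(modularFunctionFieldFullC K0 L)]

omit [Algebra K0 Kbar] [Algebra.IsAlgebraic K0 Kbar] [NeZero L] [IsDomain A0]
  [IsFractionRing A0 K0] in
/-- the general reduction: `BranchAt` in the model from the instance-form statement, for every
algebra structure `A0[X] → F0` with `X ↦ xi`. -/
theorem branchAt_model_of (xi : ↥(modularFunctionFieldFullC K0 L)) (Pi : A0[X])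
    (h : ∀ [Algebra A0[X] ↥(modularFunctionFieldFullC K0 L)],
      (∀ p : A0[X], algebraMap A0[X] ↥(modularFunctionFieldFullC K0 L) p
        = aeval xi (p.map (algebraMap A0 K0))) →
      H10.BranchVS A0 ↥(modularFunctionFieldFullC K0 L) Pi) :
    BranchAt A0 xi Pi := by
  letI : Algebra A0[X] ↥(modularFunctionFieldFullC K0 L) :=
    (aeval xi : A0[X] →ₐ[A0] ↥(modularFunctionFieldFullC K0 L)).toRingHom.toAlgebra
  exact branchAt_of_algebra xi (fun _ => rfl) Pi
    (h fun p => (aeval_map_algebraMap K0 xi p).symm)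

/-- chart `j`, `Pi = X (X - 1728)` -/
theorem branchAt_model_j (xi : ↥(modularFunctionFieldFullC K0 L))
    (hxi : (xi : LaurentSeries K0) = jqModC K0) :
    BranchAt A0 xi (X * (X - C 1728)) :=
  branchAt_model_of K0 L xi _ fun halg =>
    H10.branchVS_model_j K0 L xi hxi halg _ (ne1 _) (H10.roots_std_j_map (algebraMap A0 K0))

/-- chart `1/j`, `Pi = X (1728 X - 1)` -/
theorem branchAt_model_j_inv (xi : ↥(modularFunctionFieldFullC K0 L))
    (hxi : (xi : LaurentSeries K0) * jqModC K0 = 1) :
    BranchAt A0 xi (X * (C 1728 * X - 1)) :=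
  branchAt_model_of K0 L xi _ fun halg =>
    H10.branchVS_model_j_inv K0 L xi hxi halg _ (ne3 _)
      (H10.roots_std_j_inv_map (algebraMap A0 K0))

/-- chart `t₂`, `Pi = X (X + 64)` -/
theorem branchAt_model_two (xi : ↥(modularFunctionFieldFullC K0 L))
    (hxi : (xi : LaurentSeries K0) = H69.haupt2 K0) :
    BranchAt A0 xi (X * (X + C 64)) :=
  branchAt_model_of K0 L xi _ fun halg =>
    H10.branchVS_model_two K0 L xi hxi halg _ (ne2 _)
      (H10.roots_std_two_map (algebraMap A0 K0))

/-- chart `1/t₂`, `Pi = X (64 X + 1)` -/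
theorem branchAt_model_two_inv (xi t : ↥(modularFunctionFieldFullC K0 L))
    (ht : (t : LaurentSeries K0) = H69.haupt2 K0)
    (hxi : (xi : LaurentSeries K0) * (t : LaurentSeries K0) = 1) :
    BranchAt A0 xi (X * (C 64 * X + 1)) :=
  branchAt_model_of K0 L xi _ fun halg =>
    H10.branchVS_model_two_inv K0 L xi t ht hxi halg _ (ne4 _)
      (H10.roots_std_two_inv_map (algebraMap A0 K0))

/-- chart `t₃`, `Pi = X (X + 27)` -/
theorem branchAt_model_three (xi : ↥(modularFunctionFieldFullC K0 L))
    (hxi : (xi : LaurentSeries K0) = H69.haupt3 K0) :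
    BranchAt A0 xi (X * (X + C 27)) :=
  branchAt_model_of K0 L xi _ fun halg =>
    H10.branchVS_model_three K0 L xi hxi halg _ (ne2 _)
      (H10.roots_std_three_map (algebraMap A0 K0))

/-- chart `1/t₃`, `Pi = X (27 X + 1)` -/
theorem branchAt_model_three_inv (xi t : ↥(modularFunctionFieldFullC K0 L))
    (ht : (t : LaurentSeries K0) = H69.haupt3 K0)
    (hxi : (xi : LaurentSeries K0) * (t : LaurentSeries K0) = 1) :
    BranchAt A0 xi (X * (C 27 * X + 1)) :=
  branchAt_model_of K0 L xi _ fun halg =>
    H10.branchVS_model_three_inv K0 L xi t ht hxi halg _ (ne4 _)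
      (H10.roots_std_three_inv_map (algebraMap A0 K0))

end Model

end Fermat.Agent.S18.H49
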