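/-
S18, node (NC) -- interface-free bridges for the (NC) assembly (Mathlib + NCDual_helper57 only).

(BR-iii)  from the branch hypothesis in valuation-subring form to the trace-dual statement (hC):
* `isRadical_map_of_valuationSubring`: `S` Dedekind with fraction field `L`, `p` maximal in `O`;
  if in every valuation subring `W` of `L` over `S` in which `O \ p` consists of units every
  nonzero non-unit is a `W`-multiple of an element of `p`, then `p S` is radical.
* `exists_pow_eq_of_trace_mem_of_valuationSubring`: abstract form, `R` a domain, `O = R[1/pi]`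
  a PID containing `ℚ`, `F` finite over `K = Frac R`; branch hypothesis for the valuation
  subrings of `F` containing `R`, `pi⁻¹`, `Pi⁻¹`; then for `z` in the trace dual of
  `integralClosure R F`: `pi ^ k * (Pi z)` and `pi ^ k * w` are integral over `R` and
  `(Pi z) ^ N = Pi w`.
* `exists_pow_eq_of_trace_mem_of_branch`: the instance `R = A0[X]`, `A0` a discrete valuation
  ring with uniformiser `pi` (internally `O = (Frac A0)[X]`).

(BR-ii)  from elementwise separability of the reduction to the discriminant:
* `isSeparable_fractionRing_of_embedding`, `discr_ne_zero_of_isSeparable_embedding`: `Bb` a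
  domain with an `Rb`-basis `b`, `ι : Bb →+* Ω` injective into a field such that every `ι β` is
  separable over a subfield `k'` contained in the subfield generated by `ι (Rb)`; then
  `Algebra.discr Rb b ≠ 0`.
-/
import Mathlib
import Fermat.Agent.S18.NCDual_helper57

set_option autoImplicit false
set_option linter.style.haveILetI false
set_option linter.overlappingInstances false

namespace Fermat.Agent.S18.H57

open Polynomial IsDedekindDomain
open scoped nonZeroDivisors

/-- **(BR-iii), generic Dedekind form.** `S` a Dedekind domain with fraction field `L`, `p` a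
maximal ideal of a ring `O` mapping to `S`. Suppose that for every valuation subring `W` of `L`
containing `S` in which all elements of `O` outside `p` are units, every nonzero non-unit of `W`
is a `W`-multiple of an element of `p`. Then `p S` is a radical ideal. -/
theorem isRadical_map_of_valuationSubring {O S L : Type*} [CommRing O] [CommRing S]
    [IsDedekindDomain S] [Field L] [Algebra O S] [Algebra S L] [IsFractionRing S L] [Algebra O L]
    [IsScalarTower O S L] (p : Ideal O) [hp : p.IsMaximal]
    (h : ∀ W : ValuationSubring L, (∀ s : S, algebraMap S L s ∈ W) →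
      (∀ a : O, a ∉ p → (algebraMap O L a)⁻¹ ∈ W) →
      ∀ y ∈ W, y⁻¹ ∉ W → ∃ g ∈ p, ∃ w ∈ W, y = algebraMap O L g * w) :
    (p.map (algebraMap O S)).IsRadical := by
  set I : Ideal S := p.map (algebraMap O S) with hI
  by_cases hI0 : I = ⊥
  · rw [hI0]; exact Ideal.isRadical_bot
  rintro y ⟨n, hyn⟩
  by_contra hyI
  -- the colon ideal `(I : y)`
  let J : Ideal S :=
    { carrier := {d | d * y ∈ I}
      add_mem' := by
        intro a b ha hb
        show (a + b) * y ∈ I
        rw [add_mul]; exact I.add_mem ha hb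
      zero_mem' := by show (0 : S) * y ∈ I; rw [zero_mul]; exact I.zero_mem
      smul_mem' := by
        intro c a ha
        show c • a * y ∈ I
        rw [smul_eq_mul, mul_assoc]; exact I.mul_mem_left c ha }
  have hJ : J ≠ ⊤ := by
    intro hJ
    have h1 : (1 : S) ∈ J := by rw [hJ]; trivial
    have h1' : (1 : S) * y ∈ I := h1
    rw [one_mul] at h1'
    exact hyI h1'
  obtain ⟨P, hP, hJP⟩ := Ideal.exists_le_maximal J hJ
  have hIP : I ≤ P := fun a ha => hJP (show a * y ∈ I from I.mul_mem_right y ha)
  have hPbot : P ≠ ⊥ := fun hb => hI0 (le_bot_iff.mp (hb ▸ hIP))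
  let v : HeightOneSpectrum S := ⟨P, hP.isPrime, hPbot⟩
  have hyP : y ∈ P := hP.isPrime.mem_of_pow_mem n (hIP hyn)
  have hy0 : y ≠ 0 := fun h0 => hyI (h0 ▸ I.zero_mem)
  have hcomap : P.comap (algebraMap O S) = p := by
    symm
    apply hp.eq_of_le (Ideal.comap_ne_top _ hP.ne_top)
    rw [← Ideal.map_le_iff_le_comap]; exact hIP
  have hW1 : ∀ s : S, algebraMap S L s ∈ (v.valuation L).valuationSubring := fun s =>
    (Valuation.mem_valuationSubring_iff _ _).mpr (v.valuation_le_one s)
  have hW2 : ∀ a : O, a ∉ p → (algebraMap O L a)⁻¹ ∈ (v.valuation L).valuationSubring := by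
    intro a ha
    have haP : algebraMap O S a ∉ v.asIdeal := fun hmem => ha (hcomap ▸ Ideal.mem_comap.mpr hmem)
    have h1 : v.valuation L (algebraMap S L (algebraMap O S a)) = 1 :=
      (v.valuation_eq_one_iff_notMem).mpr haP
    rw [Valuation.mem_valuationSubring_iff, IsScalarTower.algebraMap_apply O S L, map_inv₀, h1,
      inv_one]
  have hyv : v.valuation L (algebraMap S L y) < 1 :=
    (v.valuation_lt_one_iff_mem y).mpr hyP
  have hyL0 : algebraMap S L y ≠ 0 := fun h0 =>
    hy0 (IsFractionRing.injective S L (by rw [h0, map_zero]))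
  have hynot : (algebraMap S L y)⁻¹ ∉ (v.valuation L).valuationSubring := by
    rw [Valuation.mem_valuationSubring_iff, map_inv₀, not_le]
    exact (one_lt_inv₀ (zero_lt_iff.mpr ((_root_.map_ne_zero _).mpr hyL0))).mpr hyv
  obtain ⟨g, hgp, w, hw, hyw⟩ := h _ hW1 hW2 _ (hW1 y) hynot
  obtain ⟨m, d, hmd⟩ := v.exists_primeCompl_mul_eq_of_integer w
    ((Valuation.mem_valuationSubring_iff _ _).mp hw)
  have hdJ : (d : S) ∈ J := by
    show (d : S) * y ∈ I
    have : (d : S) * y = algebraMap O S g * m := by
      apply IsFractionRing.injective S L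
      rw [map_mul, map_mul, hyw, ← hmd, IsScalarTower.algebraMap_apply O S L]
      ring
    rw [this]
    exact I.mul_mem_right _ (Ideal.mem_map_of_mem _ hgp)
  exact d.2 (hJP hdJ)

section Abstract

variable {R O K F : Type*} [CommRing R] [IsDomain R] [CommRing O] [IsDomain O]
  [IsPrincipalIdealRing O] [Algebra ℚ O] [Field K] [Field F]
  [Algebra R O] [Algebra R K] [Algebra O K] [IsScalarTower R O K] [IsFractionRing R K]
  [Algebra K F] [FiniteDimensional K F] [Algebra R F] [Algebra O F] [IsScalarTower R K F]
  [IsScalarTower O K F]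

/-- **(BR-iii), abstract form.** `R` a domain with fraction field `K`, `O = R[1/pi]` a PID (not
a field) containing `ℚ`, `F` a finite extension of `K`. Branch hypothesis `hiii`: in every
valuation subring `W` of `F` containing `R`, `pi⁻¹` and `Pi⁻¹`, every nonzero non-unit is
divisible by a non-unit coming from `R`. Then every `z` in the trace dual of
`integralClosure R F` satisfies: `pi ^ k * (Pi z)` and `pi ^ k * w` are integral over `R`, and
`(Pi z) ^ N = Pi w` (the statement (hC) of the (NC) core). -/
theorem exists_pow_eq_of_trace_mem_of_valuationSubring (pi : R) [IsLocalization.Away pi O]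
    (hO : ¬ IsField O) (Pi : R) (hPi : Pi ≠ 0)
    (hiii : ∀ W : ValuationSubring F, (∀ r : R, algebraMap R F r ∈ W) →
      (algebraMap R F pi)⁻¹ ∈ W → (algebraMap R F Pi)⁻¹ ∈ W →
      ∀ y ∈ W, y⁻¹ ∉ W → ∃ g : R, (algebraMap R F g)⁻¹ ∉ W ∧ y / algebraMap R F g ∈ W)
    (z : F)
    (hz : ∀ b ∈ integralClosure R F, Algebra.trace K F (z * b) ∈ (algebraMap R K).range) :
    ∃ (N k : ℕ) (w : F),
      algebraMap R F pi ^ k * (algebraMap R F Pi * z) ∈ integralClosure R F ∧
      algebraMap R F pi ^ k * w ∈ integralClosure R F ∧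
      (algebraMap R F Pi * z) ^ N = algebraMap R F Pi * w := by
  haveI : IsScalarTower R O F := IsScalarTower.of_algebraMap_eq (fun r => by
    rw [IsScalarTower.algebraMap_apply R K F, IsScalarTower.algebraMap_apply R O K,
      ← IsScalarTower.algebraMap_apply O K F])
  haveI : IsFractionRing O K :=
    IsFractionRing.isFractionRing_of_isDomain_of_isLocalization (Submonoid.powers pi) O K
  haveI : CharZero O := algebraRat.charZero O
  haveI : CharZero K := charZero_of_injective_algebraMap (IsFractionRing.injective O K)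
  haveI : Algebra.IsSeparable K F := inferInstance
  haveI : IsDedekindDomain (integralClosure O F) :=
    IsIntegralClosure.isDedekindDomain O K F (integralClosure O F)
  haveI : IsFractionRing (integralClosure O F) F :=
    IsIntegralClosure.isFractionRing_of_finite_extension O K F (integralClosure O F)
  have hunit : IsUnit (algebraMap R O pi) := IsLocalization.Away.algebraMap_isUnit pi
  have hmult : ∀ s : F, IsIntegral O s → ∃ k : ℕ, IsIntegral R (algebraMap R F pi ^ k * s) := by
    intro s hs
    obtain ⟨⟨_, k, rfl⟩, hk⟩ :=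
      IsIntegral.exists_multiple_integral_of_isLocalization (Submonoid.powers pi) (Rₘ := O) s hs
    refine ⟨k, ?_⟩
    rw [Submonoid.smul_def, Algebra.smul_def, map_pow] at hk
    exact hk
  have hunr : ∀ p : Ideal O, p.IsMaximal → algebraMap R O Pi ∉ p →
      (p.map (algebraMap O (integralClosure O F))).IsRadical := by
    intro p hp hq
    haveI := hp
    refine isRadical_map_of_valuationSubring (L := F) p ?_
    intro W hW1 hW2 y hy hyinv
    have hR : ∀ r : R, algebraMap R F r ∈ W := fun r => by
      have := hW1 (algebraMap O (integralClosure O F) (algebraMap R O r))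
      rwa [← IsScalarTower.algebraMap_apply O (integralClosure O F) F,
        ← IsScalarTower.algebraMap_apply R O F] at this
    have hpiW : (algebraMap R F pi)⁻¹ ∈ W := by
      have := hW2 (algebraMap R O pi)
        (fun hmem => hp.ne_top (Ideal.eq_top_of_isUnit_mem _ hmem hunit))
      rwa [← IsScalarTower.algebraMap_apply R O F] at this
    have hPiW : (algebraMap R F Pi)⁻¹ ∈ W := by
      have := hW2 _ hq
      rwa [← IsScalarTower.algebraMap_apply R O F] at this
    obtain ⟨g, hg, hyg⟩ := hiii W hR hpiW hPiW y hy hyinv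
    have hg0 : algebraMap R F g ≠ 0 := by
      intro h0; apply hg; rw [h0, inv_zero]; exact W.zero_mem
    refine ⟨algebraMap R O g, ?_, y / algebraMap R F g, hyg, ?_⟩
    · by_contra hgp
      apply hg
      have := hW2 _ hgp
      rwa [← IsScalarTower.algebraMap_apply R O F] at this
    · rw [← IsScalarTower.algebraMap_apply R O F, mul_div_cancel₀ _ hg0]
  have hpiK : algebraMap R K pi ≠ 0 := by
    intro h0
    have : algebraMap O K (algebraMap R O pi) = 0 := by
      rw [← IsScalarTower.algebraMap_apply R O K, h0]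
    have h1 : algebraMap R O pi = 0 := IsFractionRing.injective O K (by rw [this, map_zero])
    exact hunit.ne_zero h1
  have hz' : ∀ b : integralClosure O F,
      Algebra.trace K F (z * algebraMap (integralClosure O F) F b) ∈ (algebraMap O K).range := by
    intro b
    obtain ⟨k, hk⟩ := hmult (b : F) b.2
    obtain ⟨r, hr⟩ := hz _ hk
    have h1 : Algebra.trace K F (z * (algebraMap R F pi ^ k * (b : F))) =
        algebraMap R K pi ^ k * Algebra.trace K F (z * (b : F)) := by
      have : z * (algebraMap R F pi ^ k * (b : F)) = (algebraMap R K pi ^ k) • (z * (b : F)) := by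
        rw [Algebra.smul_def, map_pow, ← IsScalarTower.algebraMap_apply R K F]; ring
      rw [this, map_smul, smul_eq_mul]
    obtain ⟨u, hu⟩ := hunit.exists_left_inv
    refine ⟨u ^ k * algebraMap R O r, ?_⟩
    apply mul_left_cancel₀ (pow_ne_zero k hpiK)
    have h2 : algebraMap R K pi ^ k * algebraMap O K (u ^ k) = 1 := by
      rw [IsScalarTower.algebraMap_apply R O K, ← map_pow, ← map_mul, ← mul_pow, mul_comm, hu,
        one_pow, map_one]
    show algebraMap R K pi ^ k * algebraMap O K (u ^ k * algebraMap R O r) =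
      algebraMap R K pi ^ k * Algebra.trace K F (z * (b : F))
    rw [← h1, ← hr, map_mul, ← mul_assoc, h2, one_mul, ← IsScalarTower.algebraMap_apply R O K]
  have hq0 : algebraMap R O Pi ≠ 0 := by
    intro h0
    apply hPi
    apply IsFractionRing.injective R K
    rw [IsScalarTower.algebraMap_apply R O K, h0, map_zero, map_zero]
  obtain ⟨y, hy, N, hN⟩ := mul_mem_of_trace_mem (K := K) (L := F) (S := integralClosure O F) hO
    (algebraMap R O Pi) hq0 hunr z hz'
  obtain ⟨w', hw'⟩ := Ideal.mem_span_singleton'.mp hN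
  obtain ⟨k1, hk1⟩ := hmult (y : F) y.2
  obtain ⟨k2, hk2⟩ := hmult (w' : F) w'.2
  have hy' : (y : F) = algebraMap R F Pi * z := by
    rw [IsScalarTower.algebraMap_apply R O F]; exact hy
  have hpiint : ∀ k : ℕ, IsIntegral R (algebraMap R F pi ^ k) := fun k =>
    (isIntegral_algebraMap).pow k
  refine ⟨N, k1 + k2, (w' : F), ?_, ?_, ?_⟩
  · show IsIntegral R _
    have : algebraMap R F pi ^ (k1 + k2) * (algebraMap R F Pi * z) =
        algebraMap R F pi ^ k2 * (algebraMap R F pi ^ k1 * (y : F)) := by
      rw [hy', pow_add]; ring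
    rw [this]
    exact (hpiint k2).mul hk1
  · show IsIntegral R _
    have : algebraMap R F pi ^ (k1 + k2) * (w' : F) =
        algebraMap R F pi ^ k1 * (algebraMap R F pi ^ k2 * (w' : F)) := by
      rw [pow_add]; ring
    rw [this]
    exact (hpiint k1).mul hk2
  · rw [← hy']
    have h3 := congrArg (algebraMap (integralClosure O F) F) hw'
    rw [map_mul, map_pow, ← IsScalarTower.algebraMap_apply O (integralClosure O F) F,
      ← IsScalarTower.algebraMap_apply R O F] at h3
    rw [mul_comm]
    exact h3.symm

end Abstract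

section PolyInstance

variable {A0 : Type*} [CommRing A0] [IsDomain A0] [IsDiscreteValuationRing A0]
  {K F : Type*} [Field K] [Field F] [CharZero F]
  [Algebra A0[X] K] [IsFractionRing A0[X] K] [Algebra K F] [FiniteDimensional K F]
  [Algebra A0[X] F] [IsScalarTower A0[X] K F]

/-- the fraction field of a discrete valuation ring is its localisation away from a
uniformiser -/
theorem isLocalization_away_of_irreducible {pi : A0} (hpi : Irreducible pi) (K0 : Type*)
    [CommRing K0] [Algebra A0 K0] [IsFractionRing A0 K0] : IsLocalization.Away pi K0 := by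
  refine (IsLocalization.iff_of_le_of_exists_dvd (M := Submonoid.powers pi) (S := K0) A0⁰ ?_ ?_).mpr
    inferInstance
  · rintro _ ⟨n, rfl⟩
    exact mem_nonZeroDivisors_of_ne_zero (pow_ne_zero n hpi.ne_zero)
  · intro a ha
    obtain ⟨n, hn⟩ := IsDiscreteValuationRing.associated_pow_irreducible
      (nonZeroDivisors.ne_zero ha) hpi
    exact ⟨pi ^ n, ⟨n, rfl⟩, hn.dvd⟩

attribute [local instance] Polynomial.algebra in
/-- **(BR-iii), polynomial instance.** `A0` a discrete valuation ring with uniformiser `pi`,
`F` a field of characteristic `0`, finite over `K = Frac A0[X]`; branch hypothesis `hiii` in the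
valuation-subring form (HYP (iii) of (NC)). Then (hC) holds for `R = A0[X]`. -/
theorem exists_pow_eq_of_trace_mem_of_branch {pi : A0} (hpi : Irreducible pi) (Pi : A0[X])
    (hPi : Pi ≠ 0)
    (hiii : ∀ W : ValuationSubring F, (∀ p : A0[X], algebraMap A0[X] F p ∈ W) →
      (∀ a : A0, a ≠ 0 → (algebraMap A0[X] F (C a))⁻¹ ∈ W) →
      (algebraMap A0[X] F Pi)⁻¹ ∈ W →
      ∀ y ∈ W, y⁻¹ ∉ W → ∃ g : A0[X], (algebraMap A0[X] F g)⁻¹ ∉ W ∧
        y / algebraMap A0[X] F g ∈ W)
    (z : F)
    (hz : ∀ b ∈ integralClosure A0[X] F,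
      Algebra.trace K F (z * b) ∈ (algebraMap A0[X] K).range) :
    ∃ (N k : ℕ) (w : F),
      algebraMap A0[X] F (C pi) ^ k * (algebraMap A0[X] F Pi * z) ∈ integralClosure A0[X] F ∧
      algebraMap A0[X] F (C pi) ^ k * w ∈ integralClosure A0[X] F ∧
      (algebraMap A0[X] F Pi * z) ^ N = algebraMap A0[X] F Pi * w := by
  have hinjF : Function.Injective (algebraMap A0[X] F) := by
    rw [IsScalarTower.algebraMap_eq A0[X] K F]
    exact (algebraMap K F).injective.comp (IsFractionRing.injective A0[X] K)
  haveI : CharZero A0 := RingHom.charZero ((algebraMap A0[X] F).comp (C : A0 →+* A0[X]))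
  haveI : CharZero (FractionRing A0) :=
    charZero_of_injective_algebraMap (IsFractionRing.injective A0 (FractionRing A0))
  haveI hloc0 : IsLocalization.Away pi (FractionRing A0) :=
    isLocalization_away_of_irreducible hpi (FractionRing A0)
  haveI hloc : IsLocalization.Away (C pi) (FractionRing A0)[X] := by
    have h2 := Polynomial.isLocalization (Submonoid.powers pi) (FractionRing A0)
    rw [Submonoid.map_powers] at h2
    exact h2
  have hpiK : IsUnit (algebraMap A0[X] K (C pi)) := by
    refine IsUnit.mk0 _ ?_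
    intro h0
    have := IsFractionRing.injective A0[X] K (h0.trans (map_zero _).symm)
    exact hpi.ne_zero (C_injective (this.trans C_0.symm))
  letI : Algebra (FractionRing A0)[X] K := (IsLocalization.Away.lift (C pi) hpiK).toAlgebra
  haveI : IsScalarTower A0[X] (FractionRing A0)[X] K :=
    IsScalarTower.of_algebraMap_eq (fun r => (IsLocalization.Away.lift_eq (C pi) hpiK r).symm)
  letI : Algebra (FractionRing A0)[X] F :=
    ((algebraMap K F).comp (algebraMap (FractionRing A0)[X] K)).toAlgebra
  haveI : IsScalarTower (FractionRing A0)[X] K F := IsScalarTower.of_algebraMap_eq (fun _ => rfl)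
  refine exists_pow_eq_of_trace_mem_of_valuationSubring (O := (FractionRing A0)[X]) (K := K)
    (C pi) (Polynomial.not_isField _) Pi hPi ?_ z hz
  intro W hW hpiW hPiW y hy hyinv
  refine hiii W hW ?_ hPiW y hy hyinv
  intro a ha
  obtain ⟨n, u, hu⟩ := IsDiscreteValuationRing.associated_pow_irreducible ha hpi
  -- `a * u = pi ^ n`
  have h1 : algebraMap A0[X] F (C a) * algebraMap A0[X] F (C (u : A0)) =
      algebraMap A0[X] F (C pi) ^ n := by
    rw [← map_mul, ← C_mul, hu, C_pow, map_pow]
  have hpi0 : algebraMap A0[X] F (C pi) ≠ 0 := by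
    intro h0
    exact hpi.ne_zero (C_injective ((hinjF (h0.trans (map_zero _).symm)).trans C_0.symm))
  have ha0 : algebraMap A0[X] F (C a) ≠ 0 := by
    intro h0
    exact ha (C_injective ((hinjF (h0.trans (map_zero _).symm)).trans C_0.symm))
  have hu0 : algebraMap A0[X] F (C (u : A0)) ≠ 0 := by
    intro h0
    exact u.ne_zero (C_injective ((hinjF (h0.trans (map_zero _).symm)).trans C_0.symm))
  have h2 : (algebraMap A0[X] F (C a))⁻¹ =
      algebraMap A0[X] F (C (u : A0)) * ((algebraMap A0[X] F (C pi))⁻¹) ^ n := by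
    rw [inv_pow, ← h1]
    field_simp
  rw [h2]
  exact W.mul_mem _ _ (hW _) (pow_mem hpiW n)

/-- **(hC), literal shape of `H81.isIntegrallyClosed_of_core`** (for `R = A0[X]`, `π = C pi`,
`q = Pi`), from the branch hypothesis in valuation-subring form (the landed conclusion of
`H10.exists_dvd_of_unram`). -/
theorem hC_of_branch {pi : A0} (hpi : Irreducible pi) (Pi : A0[X]) (hPi : Pi ≠ 0)
    (hiii : ∀ W : ValuationSubring F, (∀ p : A0[X], algebraMap A0[X] F p ∈ W) →
      (∀ a : A0, a ≠ 0 → (algebraMap A0[X] F (C a))⁻¹ ∈ W) →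
      (algebraMap A0[X] F Pi)⁻¹ ∈ W →
      ∀ y ∈ W, y⁻¹ ∉ W → ∃ g : A0[X], (algebraMap A0[X] F g)⁻¹ ∉ W ∧
        y / algebraMap A0[X] F g ∈ W)
    (z : F)
    (hz : ∀ b : F, IsIntegral A0[X] b →
      ∃ r : A0[X], Algebra.trace K F (z * b) = algebraMap A0[X] K r) :
    ∃ (N k : ℕ) (w : F), IsIntegral A0[X] ((C pi) ^ k • (Pi • z)) ∧
      IsIntegral A0[X] ((C pi) ^ k • w) ∧ (Pi • z) ^ N = Pi • w := by
  obtain ⟨N, k, w, h1, h2, h3⟩ := exists_pow_eq_of_trace_mem_of_branch (K := K) hpi Pi hPi hiii z
    (fun b hb => by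
      obtain ⟨r, hr⟩ := hz b hb
      exact ⟨r, hr.symm⟩)
  refine ⟨N, k, w, ?_, ?_, ?_⟩
  · rw [Algebra.smul_def, Algebra.smul_def, map_pow]; exact h1
  · rw [Algebra.smul_def, map_pow]; exact h2
  · rw [Algebra.smul_def, Algebra.smul_def]; exact h3

/-- **(hC), literal shape of `H62.nc_assembly`** (`B` any model of the integral closure of
`A0[X]` in `F`). -/
theorem hC_of_branch' {B : Type*} [CommRing B] [Algebra A0[X] B] [Algebra B F]
    [IsScalarTower A0[X] B F] [IsIntegralClosure B A0[X] F]
    {pi : A0} (hpi : Irreducible pi) (Pi : A0[X]) (hPi : Pi ≠ 0)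
    (hiii : ∀ W : ValuationSubring F, (∀ p : A0[X], algebraMap A0[X] F p ∈ W) →
      (∀ a : A0, a ≠ 0 → (algebraMap A0[X] F (C a))⁻¹ ∈ W) →
      (algebraMap A0[X] F Pi)⁻¹ ∈ W →
      ∀ y ∈ W, y⁻¹ ∉ W → ∃ g : A0[X], (algebraMap A0[X] F g)⁻¹ ∉ W ∧
        y / algebraMap A0[X] F g ∈ W)
    (z : F)
    (hz : ∀ b : B, ∃ r : A0[X], Algebra.trace K F (z * algebraMap B F b) = algebraMap A0[X] K r) :
    ∃ (N k : ℕ) (y w : B),
      algebraMap A0[X] F (C pi) ^ k * (algebraMap A0[X] F Pi * z) = algebraMap B F y ∧
      algebraMap A0[X] F (C pi) ^ k * (algebraMap A0[X] F Pi * z) ^ N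
        = algebraMap A0[X] F Pi * algebraMap B F w := by
  obtain ⟨N, k, w, h1, h2, h3⟩ := exists_pow_eq_of_trace_mem_of_branch (K := K) hpi Pi hPi hiii z
    (fun b hb => by
      obtain ⟨b0, rfl⟩ :=
        (IsIntegralClosure.isIntegral_iff (A := B) (R := A0[X]) (B := F)).mp hb
      obtain ⟨r, hr⟩ := hz b0
      exact ⟨r, hr.symm⟩)
  obtain ⟨y0, hy0⟩ := (IsIntegralClosure.isIntegral_iff (A := B) (R := A0[X]) (B := F)).mp h1
  obtain ⟨w0, hw0⟩ := (IsIntegralClosure.isIntegral_iff (A := B) (R := A0[X]) (B := F)).mp h2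
  refine ⟨N, k, y0, w0, hy0.symm, ?_⟩
  rw [h3, hw0]
  ring

end PolyInstance

section Discr

variable {Rb Bb Ω : Type*} [CommRing Rb] [IsDomain Rb] [CommRing Bb] [IsDomain Bb]
  [Algebra Rb Bb] [Field Ω]

attribute [local instance] FractionRing.liftAlgebra in
/-- elementwise separability transfers from an embedding into a field `Ω` to the fraction
fields -/
theorem isSeparable_fractionRing_of_embedding [FaithfulSMul Rb Bb] [Algebra.IsAlgebraic Rb Bb]
    (ι : Bb →+* Ω) (hι : Function.Injective ι) (k' : Subfield Ω)
    (hk' : k' ≤ Subfield.closure (Set.range (ι.comp (algebraMap Rb Bb))))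
    (hsep : ∀ β : Bb, IsSeparable k' (ι β)) :
    Algebra.IsSeparable (FractionRing Rb) (FractionRing Bb) := by
  have hinj : Function.Injective (algebraMap Rb Bb) := FaithfulSMul.algebraMap_injective Rb Bb
  have hg : Function.Injective (ι.comp (algebraMap Rb Bb)) := hι.comp hinj
  set φ : FractionRing Rb →+* Ω := IsFractionRing.lift hg with hφ
  set ψ : FractionRing Bb →+* Ω := IsFractionRing.lift hι with hψ
  have hφψ : ψ.comp (algebraMap (FractionRing Rb) (FractionRing Bb)) = φ := by
    apply IsLocalization.ringHom_ext Rb⁰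
    ext r
    simp only [RingHom.comp_apply]
    rw [hφ, IsFractionRing.lift_algebraMap,
      ← IsScalarTower.algebraMap_apply Rb (FractionRing Rb) (FractionRing Bb),
      IsScalarTower.algebraMap_apply Rb Bb (FractionRing Bb), hψ, IsFractionRing.lift_algebraMap]
    rfl
  have hle : k' ≤ φ.fieldRange := by
    refine hk'.trans ?_
    rw [Subfield.closure_le]
    rintro _ ⟨r, rfl⟩
    exact ⟨algebraMap Rb (FractionRing Rb) r, by rw [hφ, IsFractionRing.lift_algebraMap]⟩
  -- elements of `Bb`
  have hB : ∀ β : Bb, IsSeparable (FractionRing Rb) (algebraMap Bb (FractionRing Bb) β) := by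
    intro β
    have hm : (minpoly k' (ι β)).Separable := hsep β
    have hlift : (minpoly k' (ι β)).map k'.subtype ∈ Polynomial.lifts φ := by
      rw [Polynomial.lifts_iff_coeff_lifts]
      intro i
      rw [coeff_map]
      obtain ⟨c, hc⟩ := hle ((minpoly k' (ι β)).coeff i).2
      exact ⟨c, hc⟩
    obtain ⟨m0, hm0⟩ := (Polynomial.mem_lifts _).mp hlift
    have hm0sep : m0.Separable := by
      rw [← Polynomial.separable_map φ, hm0, Polynomial.separable_map]
      exact hm
    have hroot : aeval (algebraMap Bb (FractionRing Bb) β) m0 = 0 := by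
      apply ψ.injective
      rw [map_zero, aeval_def, Polynomial.hom_eval₂, hφψ, hψ, IsFractionRing.lift_algebraMap,
        ← Polynomial.eval_map, hm0, Polynomial.eval_map]
      have := minpoly.aeval k' (ι β)
      rwa [aeval_def] at this
    exact hm0sep.of_dvd (minpoly.dvd _ _ hroot)
  rw [Algebra.isSeparable_def]
  intro x
  obtain ⟨⟨β, s⟩, hx⟩ := IsLocalization.surj (Algebra.algebraMapSubmonoid Bb Rb⁰) x
  obtain ⟨r, hr, hrs⟩ := s.2
  have hr0 : algebraMap Bb (FractionRing Bb) (algebraMap Rb Bb r) ≠ 0 := by
    intro h0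
    have h1 := IsFractionRing.injective Bb (FractionRing Bb) (h0.trans (map_zero _).symm)
    have h2 := hinj (h1.trans (map_zero _).symm)
    exact nonZeroDivisors.ne_zero hr h2
  have hxeq : x = algebraMap Bb (FractionRing Bb) β *
      (algebraMap (FractionRing Rb) (FractionRing Bb) (algebraMap Rb (FractionRing Rb) r))⁻¹ := by
    rw [← IsScalarTower.algebraMap_apply Rb (FractionRing Rb) (FractionRing Bb),
      IsScalarTower.algebraMap_apply Rb Bb (FractionRing Bb), eq_mul_inv_iff_mul_eq₀ hr0, hrs]
    exact hx
  rw [← mem_separableClosure_iff, hxeq]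
  refine mul_mem (mem_separableClosure_iff.mpr (hB β)) (inv_mem ?_)
  exact (separableClosure (FractionRing Rb) (FractionRing Bb)).algebraMap_mem _

attribute [local instance] FractionRing.liftAlgebra in
/-- **(BR-ii).** `Bb` a domain with an `Rb`-basis `b`, `ι : Bb →+* Ω` an embedding into a field
such that every `ι β` is separable over a subfield `k'` contained in the subfield generated by
`ι (Rb)`. Then the discriminant of `b` is nonzero. -/
theorem discr_ne_zero_of_isSeparable_embedding {n : Type*} [Fintype n] [DecidableEq n]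
    (b : Module.Basis n Rb Bb) (ι : Bb →+* Ω) (hι : Function.Injective ι) (k' : Subfield Ω)
    (hk' : k' ≤ Subfield.closure (Set.range (ι.comp (algebraMap Rb Bb))))
    (hsep : ∀ β : Bb, IsSeparable k' (ι β)) :
    Algebra.discr Rb b ≠ 0 := by
  have hinj : Function.Injective (algebraMap Rb Bb) := b.algebraMap_injective
  haveI : FaithfulSMul Rb Bb := (faithfulSMul_iff_algebraMap_injective Rb Bb).mpr hinj
  haveI : Module.Finite Rb Bb := Module.Finite.of_basis b
  haveI : Algebra.IsIntegral Rb Bb := Algebra.IsIntegral.of_finite Rb Bb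
  haveI : Algebra.IsSeparable (FractionRing Rb) (FractionRing Bb) :=
    isSeparable_fractionRing_of_embedding ι hι k' hk' hsep
  have hdisc := Algebra.discr_localizationLocalization Rb Rb⁰ (FractionRing Bb) b
    (Rₘ := FractionRing Rb)
  haveI : Module.Finite (FractionRing Rb) (FractionRing Bb) :=
    Module.Finite.of_basis (b.localizationLocalization (FractionRing Rb) Rb⁰ (FractionRing Bb))
  intro h0
  have h1 := Algebra.discr_not_zero_of_basis (FractionRing Rb)
    (b.localizationLocalization (FractionRing Rb) Rb⁰ (FractionRing Bb))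
  rw [hdisc, h0, map_zero] at h1
  exact h1 rfl

end Discr

end Fermat.Agent.S18.H57
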