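import Mathlib
import Fermat.Agent.S18.NCDual_helper57

/-!
# S18, (NC) bridge: unramifiedness of the generic fibre gives the characteristic-zero input `hC`

`R` a domain (think `A₀[X]`), `π : R`, `O` a principal ideal domain containing `ℚ` which is
"`R[1/π]`" in the elementary sense `hloc`/`hπu` below (think `K₀[X]`), `K = Frac O`, `F / K`
finite, `S` the integral closure of `O` in `F`.  If every maximal ideal of `O` not containing
(the image of) `q : R` is unramified in `S` (`hunr`), then the hypothesis `hC` of the (NC)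
assembly holds:

* `hC_of_unramified`     : in the shape of `H81.isIntegrallyClosed_of_core`;
* `hC_of_unramified'`    : in the shape of `H62.nc_assembly`.

The engine is Lemma (C) `H57.mul_mem_of_trace_mem`.
-/

set_option autoImplicit false

open Polynomial

namespace Fermat.Agent.S18.H68

section Scale

variable {R O F : Type*} [CommRing R] [CommRing O] [Algebra R O] [CommRing F] [Algebra R F]
  [Algebra O F] [IsScalarTower R O F]

/-- If `O = R[1/π]` (every element of `O` becomes an element of `R` after multiplication by a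
power of `π`), then every `O`-integral element of `F` becomes `R`-integral after multiplication
by any sufficiently high power of `π`. -/
theorem exists_forall_isIntegral_pow_smul (π : R)
    (hloc : ∀ o : O, ∃ (k : ℕ) (r : R), algebraMap R O π ^ k * o = algebraMap R O r)
    (y : F) (hy : IsIntegral O y) : ∃ k : ℕ, ∀ k' : ℕ, k ≤ k' → IsIntegral R (π ^ k' • y) := by
  classical
  obtain ⟨p, hp, hpy⟩ := hy
  choose kk rr hkr using hloc
  refine ⟨(Finset.range p.natDegree).sup fun i => kk (p.coeff i), fun k' hk' => ?_⟩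
  set s : O := algebraMap R O π ^ k' with hs
  set q := scaleRoots p s with hq
  have hqmonic : q.Monic := (monic_scaleRoots_iff s).mpr hp
  have hqroot : eval₂ (algebraMap O F) (algebraMap O F s * y) q = 0 :=
    scaleRoots_eval₂_eq_zero (algebraMap O F) hpy
  have hlifts : q ∈ lifts (algebraMap R O) := by
    rw [lifts_iff_coeff_lifts]
    intro i
    rw [hq, coeff_scaleRoots]
    rcases lt_trichotomy i p.natDegree with hi | hi | hi
    · have hle : kk (p.coeff i) ≤ k' :=
        le_trans (Finset.le_sup (f := fun i => kk (p.coeff i)) (Finset.mem_range.mpr hi)) hk'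
      obtain ⟨d, hd⟩ := Nat.exists_eq_add_of_le hle
      obtain ⟨e, he⟩ := Nat.exists_eq_add_of_le (Nat.one_le_iff_ne_zero.mpr (Nat.sub_ne_zero_of_lt hi))
      refine ⟨π ^ d * rr (p.coeff i) * (π ^ k') ^ e, ?_⟩
      rw [map_mul, map_mul, map_pow, map_pow, map_pow, ← hkr, he, pow_add, pow_one, hs, hd,
        pow_add]
      ring
    · rw [hi, Nat.sub_self, pow_zero, mul_one, hp.coeff_natDegree]
      exact ⟨1, map_one _⟩
    · rw [coeff_eq_zero_of_natDegree_lt hi, zero_mul]
      exact ⟨0, map_zero _⟩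
  obtain ⟨q', hq'q, -, hq'monic⟩ := lifts_and_natDegree_eq_and_monic hlifts hqmonic
  refine ⟨q', hq'monic, ?_⟩
  have h1 : π ^ k' • y = algebraMap O F s * y := by
    rw [Algebra.smul_def, IsScalarTower.algebraMap_apply R O F, map_pow]
  rw [h1, IsScalarTower.algebraMap_eq R O F, ← eval₂_map, hq'q]
  exact hqroot

end Scale

/-- the tower `R → O → F` from the towers `R → O → K`, `R → K → F`, `O → K → F` -/
theorem isScalarTower_of_towers (R O K F : Type*) [CommRing R] [CommRing O] [Algebra R O]
    [Field K] [Algebra R K] [Algebra O K] [IsScalarTower R O K] [Field F] [Algebra K F]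
    [Algebra R F] [Algebra O F] [IsScalarTower R K F] [IsScalarTower O K F] :
    IsScalarTower R O F :=
  IsScalarTower.of_algebraMap_eq fun r => by
    rw [IsScalarTower.algebraMap_apply R K F, IsScalarTower.algebraMap_apply R O K,
      ← IsScalarTower.algebraMap_apply O K F]

section Bridge

variable {R O K F S : Type*} [CommRing R] [IsDomain R] [CommRing O] [IsDomain O]
  [IsPrincipalIdealRing O] [Algebra ℚ O] [Algebra R O]
  [Field K] [Algebra R K] [Algebra O K] [IsScalarTower R O K] [IsFractionRing O K]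
  [Field F] [Algebra K F] [FiniteDimensional K F] [Algebra R F] [Algebra O F]
  [IsScalarTower R K F] [IsScalarTower O K F]
  [CommRing S] [IsDomain S] [Algebra O S] [Algebra S F] [IsScalarTower O S F]
  [IsIntegralClosure S O F]

/-- **`hC` from unramifiedness, shape of `H81.isIntegrallyClosed_of_core`.** -/
theorem hC_of_unramified (π q : R)
    (hloc : ∀ o : O, ∃ (k : ℕ) (r : R), algebraMap R O π ^ k * o = algebraMap R O r)
    (hπu : IsUnit (algebraMap R O π))
    (hO : ¬ IsField O) (hq : algebraMap R O q ≠ 0)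
    (hunr : ∀ p : Ideal O, p.IsMaximal → algebraMap R O q ∉ p →
      (p.map (algebraMap O S)).IsRadical)
    (z : F)
    (hz : ∀ b : F, IsIntegral R b → ∃ r : R, Algebra.trace K F (z * b) = algebraMap R K r) :
    ∃ (N k : ℕ) (w : F), IsIntegral R (π ^ k • (q • z)) ∧ IsIntegral R (π ^ k • w) ∧
      (q • z) ^ N = q • w := by
  haveI : IsScalarTower R O F := isScalarTower_of_towers R O K F
  -- the trace condition over `O`
  have hz' : ∀ b : S, Algebra.trace K F (z * algebraMap S F b) ∈ (algebraMap O K).range := by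
    intro b
    have hb : IsIntegral O (algebraMap S F b) :=
      (IsIntegralClosure.isIntegral_iff (A := S) (R := O) (B := F)).mpr ⟨b, rfl⟩
    obtain ⟨k, hk⟩ := exists_forall_isIntegral_pow_smul π hloc _ hb
    obtain ⟨r, hr⟩ := hz _ (hk k le_rfl)
    obtain ⟨u, hu⟩ := hπu.pow k
    refine ⟨↑u⁻¹ * algebraMap R O r, ?_⟩
    have h1 : z * π ^ k • algebraMap S F b
        = algebraMap R K (π ^ k) • (z * algebraMap S F b) := by
      rw [Algebra.smul_def, Algebra.smul_def, IsScalarTower.algebraMap_apply R K F]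
      ring
    rw [h1, map_smul, smul_eq_mul] at hr
    have h2 : algebraMap R K (π ^ k) = algebraMap O K (u : O) := by
      rw [hu, map_pow, map_pow, IsScalarTower.algebraMap_apply R O K]
    rw [h2] at hr
    rw [map_mul, ← IsScalarTower.algebraMap_apply R O K, ← hr, ← mul_assoc, ← map_mul,
      Units.inv_mul, map_one, one_mul]
  obtain ⟨y, hy, N, hN⟩ := H57.mul_mem_of_trace_mem (O := O) (K := K) (L := F) (S := S) hO
    (algebraMap R O q) hq hunr z hz'
  rw [Ideal.mem_span_singleton'] at hN
  obtain ⟨w', hw'⟩ := hN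
  have hqz : q • z = algebraMap S F y := by
    rw [hy, Algebra.smul_def, IsScalarTower.algebraMap_apply R O F]
  have hyint : IsIntegral O (algebraMap S F y) :=
    (IsIntegralClosure.isIntegral_iff (A := S) (R := O) (B := F)).mpr ⟨y, rfl⟩
  have hwint : IsIntegral O (algebraMap S F w') :=
    (IsIntegralClosure.isIntegral_iff (A := S) (R := O) (B := F)).mpr ⟨w', rfl⟩
  obtain ⟨k1, hk1⟩ := exists_forall_isIntegral_pow_smul π hloc _ hyint
  obtain ⟨k2, hk2⟩ := exists_forall_isIntegral_pow_smul π hloc _ hwint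
  refine ⟨N, max k1 k2, algebraMap S F w', ?_, hk2 _ (le_max_right _ _), ?_⟩
  · rw [hqz]
    exact hk1 _ (le_max_left _ _)
  · rw [hqz, ← map_pow, ← hw', map_mul, ← IsScalarTower.algebraMap_apply O S F,
      Algebra.smul_def, IsScalarTower.algebraMap_apply R O F]
    ring

/-- **`hC` from unramifiedness, shape of `H62.nc_assembly`** (`B` the integral closure of `R`
in `F`). -/
theorem hC_of_unramified' {B : Type*} [CommRing B] [Algebra R B] [Algebra B F]
    [IsScalarTower R B F] [IsIntegralClosure B R F] (π q : R)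
    (hloc : ∀ o : O, ∃ (k : ℕ) (r : R), algebraMap R O π ^ k * o = algebraMap R O r)
    (hπu : IsUnit (algebraMap R O π))
    (hO : ¬ IsField O) (hq : algebraMap R O q ≠ 0)
    (hunr : ∀ p : Ideal O, p.IsMaximal → algebraMap R O q ∉ p →
      (p.map (algebraMap O S)).IsRadical)
    (z : F)
    (hz : ∀ b : B, ∃ r : R, Algebra.trace K F (z * algebraMap B F b) = algebraMap R K r) :
    ∃ (N k : ℕ) (y w : B),
      algebraMap R F π ^ k * (algebraMap R F q * z) = algebraMap B F y ∧
      algebraMap R F π ^ k * (algebraMap R F q * z) ^ N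
        = algebraMap R F q * algebraMap B F w := by
  have hz' : ∀ b : F, IsIntegral R b →
      ∃ r : R, Algebra.trace K F (z * b) = algebraMap R K r := by
    intro b hb
    obtain ⟨b0, rfl⟩ := IsIntegralClosure.isIntegral_iff (A := B) (R := R) (B := F) |>.mp hb
    exact hz b0
  obtain ⟨N, k, w, h1, h2, h3⟩ := hC_of_unramified (O := O) (K := K) (S := S) π q hloc hπu hO hq
    hunr z hz'
  obtain ⟨y0, hy0⟩ := IsIntegralClosure.isIntegral_iff (A := B) (R := R) (B := F) |>.mp h1
  obtain ⟨w0, hw0⟩ := IsIntegralClosure.isIntegral_iff (A := B) (R := R) (B := F) |>.mp h2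
  refine ⟨N, k, y0, w0, ?_, ?_⟩
  · rw [hy0, Algebra.smul_def, Algebra.smul_def, map_pow]
  · have h3' : (algebraMap R F q * z) ^ N = algebraMap R F q * w := by
      rw [← Algebra.smul_def, h3, Algebra.smul_def]
    rw [h3', hw0, Algebra.smul_def, map_pow]
    ring

end Bridge

/-! ### The model instance `R = A₀[X]`, `O = K₀[X]`, `π = C ϖ` -/

section Model

variable {A0 K0 : Type*} [CommRing A0] [Field K0] [Algebra A0 K0]

/-- In the fraction field of a discrete valuation ring every element becomes integral after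
multiplication by a power of a uniformiser. -/
theorem exists_pow_mul_eq_algebraMap [IsDomain A0] [IsDiscreteValuationRing A0]
    [IsFractionRing A0 K0] (ϖ : A0) (hϖ : Irreducible ϖ) (c : K0) :
    ∃ (k : ℕ) (a : A0), algebraMap A0 K0 ϖ ^ k * c = algebraMap A0 K0 a := by
  obtain ⟨a, b, hb, rfl⟩ := IsFractionRing.div_surjective (A := A0) c
  have hb0 : b ≠ 0 := nonZeroDivisors.ne_zero hb
  obtain ⟨n, u, hu⟩ := IsDiscreteValuationRing.eq_unit_mul_pow_irreducible hb0 hϖ
  refine ⟨n, a * ↑u⁻¹, ?_⟩
  have hbK : algebraMap A0 K0 b ≠ 0 := by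
    intro h0
    exact hb0 (IsFractionRing.injective A0 K0 (by rw [h0, map_zero]))
  rw [mul_div_assoc', eq_comm, eq_div_iff hbK, ← map_pow, ← map_mul, ← map_mul, hu]
  congr 1
  calc a * ↑u⁻¹ * (↑u * ϖ ^ n) = (↑u⁻¹ * ↑u) * (ϖ ^ n * a) := by ring
    _ = ϖ ^ n * a := by rw [Units.inv_mul, one_mul]

/-- `hloc` for `R = A₀[X]`, `O = K₀[X]`, `π = C ϖ` (ring-hom form: the structure map is
`Polynomial.map (algebraMap A₀ K₀)`). -/
theorem exists_C_pow_mul_eq_map (ϖ : A0)
    (h : ∀ c : K0, ∃ (k : ℕ) (a : A0), algebraMap A0 K0 ϖ ^ k * c = algebraMap A0 K0 a)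
    (o : K0[X]) :
    ∃ (k : ℕ) (r : A0[X]), (C ϖ : A0[X]).map (algebraMap A0 K0) ^ k * o
      = r.map (algebraMap A0 K0) := by
  induction o using Polynomial.induction_on' with
  | add p q hp hq =>
    obtain ⟨k1, r1, h1⟩ := hp
    obtain ⟨k2, r2, h2⟩ := hq
    refine ⟨k1 + k2, C ϖ ^ k2 * r1 + C ϖ ^ k1 * r2, ?_⟩
    rw [Polynomial.map_add, Polynomial.map_mul, Polynomial.map_mul, Polynomial.map_pow,
      Polynomial.map_pow, ← h1, ← h2, pow_add]
    ring
  | monomial n c =>
    obtain ⟨k, a, hka⟩ := h c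
    refine ⟨k, monomial n a, ?_⟩
    rw [Polynomial.map_C, ← C_pow, C_mul_monomial, hka, Polynomial.map_monomial]

omit [Algebra A0 K0] in
/-- `K₀[X]` is not a field. -/
theorem not_isField_polynomial : ¬ IsField K0[X] := Polynomial.not_isField K0

/-- `C ϖ` is a unit of `K₀[X]` for `ϖ ≠ 0`. -/
theorem isUnit_map_C [IsDomain A0] [IsFractionRing A0 K0] (ϖ : A0) (hϖ : ϖ ≠ 0) :
    IsUnit ((C ϖ : A0[X]).map (algebraMap A0 K0)) := by
  rw [Polynomial.map_C]
  refine Polynomial.isUnit_C.mpr (IsUnit.mk0 _ ?_)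
  intro h0
  exact hϖ (IsFractionRing.injective A0 K0 (by rw [h0, map_zero]))

end Model

end Fermat.Agent.S18.H68
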