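import Mathlib
import Fermat.Agent.S18.NCAsm_helper81
import Fermat.Agent.S18.NCSep_helper68

/-!
# S18, node NC-ASM: the quotient instantiation of the abstract core

`A₀` a PID with an irreducible `π`, `F` a finite extension of `K = Frac A₀[X]` of characteristic
zero, `B = integralClosure A₀[X] F`.  The abstract core `isIntegrallyClosed_of_core` is
instantiated at `R = A₀[X]`, `Rb = (A₀ ⧸ π)[X]`, `Bb = B ⧸ (C π)`:

* `isIntegrallyClosed_quotient_of_core` : **(NC)** in the consumer's shape
  `IsIntegrallyClosed (B ⧸ Ideal.span {algebraMap A₀[X] B (C π)})`, from a reduction map `ρ` into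
  a field with kernel `(C π)` (Gauss), elementwise separability (SEP), a polynomial `Pi` with
  squarefree reduction and the hypothesis `hC` of the core (see `hC_model` in `NCInst_helper81`).
-/

set_option autoImplicit false
set_option linter.style.haveILetI false

open Polynomial

namespace Fermat.Agent.S18.H81

section Quot

variable {A0 : Type*} [CommRing A0] [IsDomain A0] [IsPrincipalIdealRing A0]

/-- **(NC)**, quotient form. -/
theorem isIntegrallyClosed_quotient_of_core (pi : A0) (hpi : Irreducible pi)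
    (K : Type*) {F : Type*} [Field K] [Algebra A0[X] K] [IsFractionRing A0[X] K] [CharZero K]
    [Field F] [Algebra K F] [Algebra A0[X] F] [IsScalarTower A0[X] K F] [FiniteDimensional K F]
    {Ω : Type*} [Field Ω] (ρ : integralClosure A0[X] F →+* Ω)
    (hker : RingHom.ker ρ =
      Ideal.span {algebraMap A0[X] (integralClosure A0[X] F) (C pi)})
    (hsep : ∀ b, IsSeparable
      ↥(Subfield.closure (Set.range (ρ.comp (algebraMap A0[X] (integralClosure A0[X] F)))))
      (ρ b))
    (Pi : A0[X]) (hPi : Squarefree (Pi.map (Ideal.Quotient.mk (Ideal.span {pi}))))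
    (hC : ∀ z : F, (∀ b : F, IsIntegral A0[X] b →
        ∃ r : A0[X], Algebra.trace K F (z * b) = algebraMap A0[X] K r) →
      ∃ (N k : ℕ) (w : F), IsIntegral A0[X] ((C pi : A0[X]) ^ k • (Pi • z)) ∧
        IsIntegral A0[X] ((C pi : A0[X]) ^ k • w) ∧ (Pi • z) ^ N = Pi • w) :
    IsIntegrallyClosed (integralClosure A0[X] F ⧸
      Ideal.span {algebraMap A0[X] (integralClosure A0[X] F) (C pi)}) := by
  classical
  obtain ⟨I, hI⟩ : ∃ I : Ideal (integralClosure A0[X] F),
      I = Ideal.span {algebraMap A0[X] (integralClosure A0[X] F) (C pi)} := ⟨_, rfl⟩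
  rw [← hI] at hker ⊢
  have hIprime : I.IsPrime := by
    rw [← hker]
    exact RingHom.ker_isPrime ρ
  have hmax : (Ideal.span {pi} : Ideal A0).IsMaximal :=
    PrincipalIdealRing.isMaximal_of_irreducible hpi
  letI : Field (A0 ⧸ Ideal.span {pi}) := Ideal.Quotient.field _
  have hpiC : (C pi : A0[X]) ≠ 0 := by simpa using hpi.ne_zero
  -- the algebra structure of `B ⧸ I` over `(A₀ ⧸ π)[X]`
  let f0 : A0 →+* integralClosure A0[X] F ⧸ I := (Ideal.Quotient.mk I).comp ((algebraMap A0[X] (integralClosure A0[X] F)).comp C)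
  have hf0 : ∀ a ∈ (Ideal.span {pi} : Ideal A0), f0 a = 0 := by
    intro a ha
    obtain ⟨c, rfl⟩ := Ideal.mem_span_singleton.mp ha
    show Ideal.Quotient.mk I (algebraMap A0[X] (integralClosure A0[X] F) (C (pi * c))) = 0
    rw [Ideal.Quotient.eq_zero_iff_mem, C_mul, map_mul, hI]
    exact Ideal.mul_mem_right _ _ (Ideal.subset_span rfl)
  let f : (A0 ⧸ Ideal.span {pi}) →+* integralClosure A0[X] F ⧸ I := Ideal.Quotient.lift _ f0 hf0
  let g : (A0 ⧸ Ideal.span {pi})[X] →+* integralClosure A0[X] F ⧸ I :=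
    Polynomial.eval₂RingHom f (Ideal.Quotient.mk I (algebraMap A0[X] (integralClosure A0[X] F) X))
  letI : Algebra (A0 ⧸ Ideal.span {pi})[X] (integralClosure A0[X] F ⧸ I) :=
    g.toAlgebra' fun c x => by exact mul_comm (g c) x
  have hcompat : ∀ r : A0[X], Ideal.Quotient.mk I (algebraMap A0[X] (integralClosure A0[X] F) r) =
      algebraMap (A0 ⧸ Ideal.span {pi})[X] (integralClosure A0[X] F ⧸ I)
        (mapRingHom (Ideal.Quotient.mk (Ideal.span {pi})) r) := by
    intro r
    have : (Ideal.Quotient.mk I).comp (algebraMap A0[X] (integralClosure A0[X] F)) =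
        g.comp (mapRingHom (Ideal.Quotient.mk (Ideal.span {pi}))) := by
      refine Polynomial.ringHom_ext (fun a => ?_) ?_
      · simp only [RingHom.comp_apply, coe_mapRingHom, map_C, g, coe_eval₂RingHom, eval₂_C, f,
          Ideal.Quotient.lift_mk, f0]
      · simp only [RingHom.comp_apply, coe_mapRingHom, map_X, g, coe_eval₂RingHom, eval₂_X]
    exact congrArg (fun h : A0[X] →+* integralClosure A0[X] F ⧸ I => h r) this
  have hsurjR : Function.Surjective (mapRingHom (Ideal.Quotient.mk (Ideal.span {pi}))) :=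
    map_surjective _ Ideal.Quotient.mk_surjective
  refine isIntegrallyClosed_of_core (R := A0[X]) K (C pi) hpiC
    (mapRingHom (Ideal.Quotient.mk (Ideal.span {pi}))) hsurjR ?_
    (Ideal.Quotient.mk I) Ideal.Quotient.mk_surjective ?_ hcompat Pi hPi.isRadical hPi.ne_zero
    ?_ hC
  · intro p
    rw [coe_mapRingHom, C_dvd_iff_dvd_coeff, Polynomial.ext_iff]
    simp only [coeff_map, coeff_zero, Ideal.Quotient.eq_zero_iff_mem, Ideal.mem_span_singleton]
  · intro b
    rw [Ideal.Quotient.eq_zero_iff_mem, hI, Ideal.mem_span_singleton]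
  · intro n b
    refine H68.discr_ne_zero_of_reduction (mapRingHom (Ideal.Quotient.mk (Ideal.span {pi})))
      hsurjR (Ideal.Quotient.mk I) Ideal.Quotient.mk_surjective hcompat Ω ρ ?_ hsep b
    rw [hker, Ideal.mk_ker]

end Quot

end Fermat.Agent.S18.H81
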