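import Mathlib
import Fermat.Agent.S18.NCQuot_helper81
import Fermat.Agent.S18.NCInst_helper81
import Fermat.Agent.S18.ChartsReg_helper97

/-!
# S18, node NC-ASM: from Gauss + SEP + BRANCH to the regularity hypothesis (REG) of a chart

Fusion of the landed pieces, for the `A₀[X]`-algebra structure `X ↦ x` on `F` (and the compatible
`K₀[X]`-algebra structure):

* `isIntegrallyClosed_quotient_model` : **(NC)**: `B ⧸ (C π)` is integrally closed, from the
  Gauss reduction `ρ` (kernel `(C π)`), elementwise separability of the special fibre, a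
  polynomial `Pi` with squarefree reduction, and unramifiedness of `K₀[X] → integralClosure K₀[X] F`
  away from `Pi`.
* `reg_chartU_model`, `reg_chartV_model` : the regularity hypothesis `(REG)` of the Kummer core
  for `H97.chartU A₀ x` / `H97.chartV A₀ x`, literally.
-/

set_option autoImplicit false

open Polynomial

namespace Fermat.Agent.S18.H81

section Model

variable {A0 : Type*} [CommRing A0] [IsDomain A0] [IsDiscreteValuationRing A0]
  {K0 : Type*} [Field K0] [Algebra A0 K0] [IsFractionRing A0 K0] [CharZero K0]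
  {F : Type*} [Field F] [Algebra A0[X] F] [Algebra K0[X] F]

/-- **(NC)**, model form: Gauss `ρ` + SEP + squarefree `Pi` mod `π` + BRANCH (`hunr`) give that
`B ⧸ (C π)` is integrally closed, `B = integralClosure A₀[X] F`. -/
theorem isIntegrallyClosed_quotient_model (pi : A0) (hpi : Irreducible pi)
    (hcomp : ∀ p : A0[X], algebraMap K0[X] F (p.map (algebraMap A0 K0)) = algebraMap A0[X] F p)
    (K : Type*) [Field K] [Algebra A0[X] K] [IsFractionRing A0[X] K]
    [Algebra K F] [IsScalarTower A0[X] K F] [FiniteDimensional K F]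
    {Ω : Type*} [Field Ω] (ρ : integralClosure A0[X] F →+* Ω)
    (hker : RingHom.ker ρ =
      Ideal.span {algebraMap A0[X] (integralClosure A0[X] F) (C pi)})
    (hsep : ∀ b, IsSeparable
      ↥(Subfield.closure (Set.range (ρ.comp (algebraMap A0[X] (integralClosure A0[X] F)))))
      (ρ b))
    (Pi : A0[X]) (hPi : Squarefree (Pi.map (Ideal.Quotient.mk (Ideal.span {pi}))))
    (hunr : ∀ p : Ideal K0[X], p.IsMaximal → Pi.map (algebraMap A0 K0) ∉ p →
      (p.map (algebraMap K0[X] (integralClosure K0[X] F))).IsRadical) :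
    IsIntegrallyClosed (integralClosure A0[X] F ⧸
      Ideal.span {algebraMap A0[X] (integralClosure A0[X] F) (C pi)}) := by
  have hcharA : CharZero A0 := (algebraMap A0 K0).charZero
  have hcharK : CharZero K := charZero_of_injective_algebraMap (IsFractionRing.injective A0[X] K)
  have hmax : (Ideal.span {pi} : Ideal A0).IsMaximal :=
    PrincipalIdealRing.isMaximal_of_irreducible hpi
  have hPi0 : Pi ≠ 0 := by
    rintro rfl
    exact hPi.ne_zero (Polynomial.map_zero _)
  exact isIntegrallyClosed_quotient_of_core pi hpi K ρ hker hsep Pi hPi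
    (hC_model hcomp pi hpi Pi hPi0 hunr)

variable [Algebra A0 F]

/-- **(NC) ⇒ (REG)** for the finite chart (`X ↦ x`), literal shape of the Kummer core. -/
theorem reg_chartU_model (pi : A0) (hpi : Irreducible pi) {x : F}
    (hx : ∀ p : A0[X], algebraMap A0[X] F p = aeval x p)
    (hcomp : ∀ p : A0[X], algebraMap K0[X] F (p.map (algebraMap A0 K0)) = algebraMap A0[X] F p)
    (K : Type*) [Field K] [Algebra A0[X] K] [IsFractionRing A0[X] K]
    [Algebra K F] [IsScalarTower A0[X] K F] [FiniteDimensional K F]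
    [IsNoetherianRing (integralClosure A0[X] F)]
    {Ω : Type*} [Field Ω] (ρ : integralClosure A0[X] F →+* Ω)
    (hker : RingHom.ker ρ =
      Ideal.span {algebraMap A0[X] (integralClosure A0[X] F) (C pi)})
    (hsep : ∀ b, IsSeparable
      ↥(Subfield.closure (Set.range (ρ.comp (algebraMap A0[X] (integralClosure A0[X] F)))))
      (ρ b))
    (Pi : A0[X]) (hPi : Squarefree (Pi.map (Ideal.Quotient.mk (Ideal.span {pi}))))
    (hunr : ∀ p : Ideal K0[X], p.IsMaximal → Pi.map (algebraMap A0 K0) ∉ p →
      (p.map (algebraMap K0[X] (integralClosure K0[X] F))).IsRadical) :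
    ∀ n : Ideal (H97.chartU A0 x), n.IsMaximal → algebraMap A0 (H97.chartU A0 x) pi ∈ n →
      ∃ τ ∈ n, ∀ a : H97.chartU A0 x, a ∉ Ideal.span {algebraMap A0 (H97.chartU A0 x) pi} →
        ∃ (e : ℕ) (d u : H97.chartU A0 x), d ∉ n ∧ u ∉ n ∧
          a * d - u * τ ^ e ∈ Ideal.span {algebraMap A0 (H97.chartU A0 x) pi} := by
  have hprime : (Ideal.span {algebraMap A0[X] (integralClosure A0[X] F) (C pi)}).IsPrime := by
    rw [← hker]
    exact RingHom.ker_isPrime ρ
  have hic := isIntegrallyClosed_quotient_model pi hpi hcomp K ρ hker hsep Pi hPi hunr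
  exact H97.reg_chartU_of_nc' pi hpi hx hprime

/-- **(NC) ⇒ (REG)** for the chart at infinity (`X ↦ x⁻¹`), literal shape of the Kummer core. -/
theorem reg_chartV_model (pi : A0) (hpi : Irreducible pi) {x : F}
    (hx : ∀ p : A0[X], algebraMap A0[X] F p = aeval x⁻¹ p)
    (hcomp : ∀ p : A0[X], algebraMap K0[X] F (p.map (algebraMap A0 K0)) = algebraMap A0[X] F p)
    (K : Type*) [Field K] [Algebra A0[X] K] [IsFractionRing A0[X] K]
    [Algebra K F] [IsScalarTower A0[X] K F] [FiniteDimensional K F]
    [IsNoetherianRing (integralClosure A0[X] F)]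
    {Ω : Type*} [Field Ω] (ρ : integralClosure A0[X] F →+* Ω)
    (hker : RingHom.ker ρ =
      Ideal.span {algebraMap A0[X] (integralClosure A0[X] F) (C pi)})
    (hsep : ∀ b, IsSeparable
      ↥(Subfield.closure (Set.range (ρ.comp (algebraMap A0[X] (integralClosure A0[X] F)))))
      (ρ b))
    (Pi : A0[X]) (hPi : Squarefree (Pi.map (Ideal.Quotient.mk (Ideal.span {pi}))))
    (hunr : ∀ p : Ideal K0[X], p.IsMaximal → Pi.map (algebraMap A0 K0) ∉ p →
      (p.map (algebraMap K0[X] (integralClosure K0[X] F))).IsRadical) :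
    ∀ n : Ideal (H97.chartV A0 x), n.IsMaximal → algebraMap A0 (H97.chartV A0 x) pi ∈ n →
      ∃ τ ∈ n, ∀ a : H97.chartV A0 x, a ∉ Ideal.span {algebraMap A0 (H97.chartV A0 x) pi} →
        ∃ (e : ℕ) (d u : H97.chartV A0 x), d ∉ n ∧ u ∉ n ∧
          a * d - u * τ ^ e ∈ Ideal.span {algebraMap A0 (H97.chartV A0 x) pi} := by
  have hprime : (Ideal.span {algebraMap A0[X] (integralClosure A0[X] F) (C pi)}).IsPrime := by
    rw [← hker]
    exact RingHom.ker_isPrime ρ
  have hic := isIntegrallyClosed_quotient_model pi hpi hcomp K ρ hker hsep Pi hPi hunr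
  exact H97.reg_chartV_of_nc' pi hpi hx hprime

end Model

end Fermat.Agent.S18.H81
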