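import Mathlib

set_option autoImplicit false

/-!
# Norm descent of an `m`-th power (helper76)

If `u ∈ K` becomes an `m`-th power in a finite extension `L / K` whose degree is prime to `m`,
then `u` is already an `m`-th power in `K`.  Also the `IntermediateField` form
(`K₁ ≤ K₂` inside a common field `E`, degree `relfinrank K₁ K₂`).
-/

namespace Fermat.Agent.S18.H76

open Module

/-- Norm descent: `u ∈ K`, `w ∈ L` with `w ^ m = u`, `[L : K]` finite and prime to `m`
⟹ `u` is an `m`-th power in `K`. -/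
theorem exists_pow_eq_of_coprime_finrank {K L : Type*} [Field K] [Field L] [Algebra K L]
    [FiniteDimensional K L] (m : ℕ) (hcop : Nat.Coprime (finrank K L) m) (u : K) (w : L)
    (hw : w ^ m = algebraMap K L u) : ∃ y : K, y ^ m = u := by
  rcases Nat.eq_zero_or_pos m with rfl | hm
  · -- `m = 0`: `u = 1`
    refine ⟨1, ?_⟩
    rw [pow_zero] at hw ⊢
    exact (algebraMap K L).injective (by rw [map_one, hw])
  have hnorm : Algebra.norm K w ^ m = u ^ finrank K L := by
    rw [← map_pow, hw, Algebra.norm_algebraMap]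
  by_cases hu : u = 0
  · exact ⟨0, by rw [hu, zero_pow hm.ne']⟩
  · have hN0 : Algebra.norm K w ≠ 0 := by
      intro h0
      rw [h0, zero_pow hm.ne'] at hnorm
      exact hu (pow_eq_zero_iff (finrank_pos (R := K) (M := L)).ne' |>.mp hnorm.symm)
    have hcop' : IsCoprime (finrank K L : ℤ) (m : ℤ) := Nat.isCoprime_iff_coprime.mpr hcop
    obtain ⟨a, b, hab⟩ := hcop'
    refine ⟨Algebra.norm K w ^ a * u ^ b, ?_⟩
    have h1 : (Algebra.norm K w ^ a) ^ m = u ^ ((finrank K L : ℤ) * a) := by
      rw [← zpow_natCast, ← zpow_mul, mul_comm a (m : ℤ), zpow_mul, zpow_natCast, hnorm,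
        ← zpow_natCast, ← zpow_mul]
    have h2 : (u ^ b) ^ m = u ^ (b * (m : ℤ)) := by
      rw [← zpow_natCast, ← zpow_mul]
    rw [mul_pow, h1, h2, ← zpow_add₀ hu,
      show (finrank K L : ℤ) * a + b * (m : ℤ) = 1 by linarith, zpow_one]

/-- `IntermediateField` form of the norm descent: `K₁ ≤ K₂` finite of degree prime to `m`,
`u ∈ K₁` an `m`-th power of an element of `K₂` ⟹ `u` is an `m`-th power of an element of `K₁`. -/
theorem exists_mem_pow_eq_of_coprime_relfinrank {k E : Type*} [Field k] [Field E] [Algebra k E]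
    (K₁ K₂ : IntermediateField k E) (h12 : K₁ ≤ K₂) (m : ℕ)
    (hfin : IntermediateField.relfinrank K₁ K₂ ≠ 0)
    (hcop : Nat.Coprime (IntermediateField.relfinrank K₁ K₂) m) (u w : E) (hu : u ∈ K₁)
    (hwmem : w ∈ K₂) (hw : w ^ m = u) : ∃ y ∈ K₁, y ^ m = u := by
  let _ : Algebra K₁ K₂ := (IntermediateField.inclusion h12).toRingHom.toAlgebra
  have hrank : finrank K₁ K₂ = IntermediateField.relfinrank K₁ K₂ := by
    rw [IntermediateField.relfinrank_eq_finrank_of_le h12]
    rfl
  have : FiniteDimensional K₁ K₂ := by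
    apply Module.finite_of_finrank_pos
    rw [hrank]
    exact Nat.pos_of_ne_zero hfin
  obtain ⟨y, hy⟩ := exists_pow_eq_of_coprime_finrank (K := K₁) (L := K₂) m (hrank ▸ hcop)
    ⟨u, hu⟩ ⟨w, hwmem⟩ (by
      apply Subtype.ext
      have h2 : ((algebraMap K₁ K₂ ⟨u, hu⟩ : K₂) : E) = u := rfl
      rw [h2]
      simpa using hw)
  exact ⟨y, y.2, by simpa using congrArg Subtype.val hy⟩

end Fermat.Agent.S18.H76

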