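/-
S18, model leaf for REG-MODEL / `H68.reg_chartU_full`: the instance argument
`[PerfectField (IsLocalRing.ResidueField A)]` for the DVR `A0 = A ∩ K0` of a number field
`K0 ⊆ ℚ̄` (finite residue field, `H86.finite_residueField_A0`), in the literal `H61.A0` form
used by `H19.modelKum_of_chart` / `H60.ModelKum`, and generically for a valuation subring of
a number field lying over a prime.
-/
import Mathlib
import Fermat.Agent.S18.DvrK0_helper86
import Fermat.Agent.S18.Desc_helper61

set_option autoImplicit false

namespace Fermat.Agent.S18.H51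

/-- A valuation subring of a number field lying over a prime has perfect residue field. -/
theorem perfectField_residueField_of_liesOverPrime {K : Type*} [Field K] [NumberField K]
    (V : ValuationSubring K) {ℓ : ℕ} (hℓ : ℓ.Prime) (hV : V.LiesOverPrime ℓ) :
    PerfectField (IsLocalRing.ResidueField V) := by
  have h : Finite (IsLocalRing.ResidueField V) :=
    H86.finite_residueField_of_liesOverPrime V hℓ hV
  exact PerfectField.ofFinite

set_option synthInstance.maxHeartbeats 400000 in
/-- The residue field of `A ∩ K0` (`K0` a number field inside `ℚ̄`, `A` over `ℓ`) is perfect;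
literal `H61.A0` form. -/
theorem perfectField_residueField_A0 (A : ValuationSubring (AlgebraicClosure ℚ))
    (K0 : IntermediateField ℚ (AlgebraicClosure ℚ)) [FiniteDimensional ℚ K0] {ℓ : ℕ}
    (hℓ : ℓ.Prime) (hA : A.LiesOverPrime ℓ) :
    PerfectField (IsLocalRing.ResidueField ↥(H61.A0 A K0)) := by
  have h : Finite (IsLocalRing.ResidueField ↥(H61.A0 A K0)) :=
    H86.finite_residueField_A0 A K0 hℓ hA
  exact PerfectField.ofFinite

set_option synthInstance.maxHeartbeats 400000 in
/-- The residue field of `A ∩ K0` is finite; literal `H61.A0` form. -/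
theorem finite_residueField_A0' (A : ValuationSubring (AlgebraicClosure ℚ))
    (K0 : IntermediateField ℚ (AlgebraicClosure ℚ)) [FiniteDimensional ℚ K0] {ℓ : ℕ}
    (hℓ : ℓ.Prime) (hA : A.LiesOverPrime ℓ) :
    Finite (IsLocalRing.ResidueField ↥(H61.A0 A K0)) :=
  H86.finite_residueField_A0 A K0 hℓ hA

end Fermat.Agent.S18.H51
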