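import Mathlib
import Fermat.Agent.S18.DvrK0_helper86
import Fermat.Agent.S18.Desc_helper61

/-!
# S18: the residue field of the number-field model base is perfect (helper63)

`PerfectField (IsLocalRing.ResidueField A₀)` for a valuation subring `A₀` of a number field lying
over a prime, and for `A₀ = A ∩ K0` (`H61.A0 A K0`, equivalently `H86.A0 A K0`) with `K0` a
number field inside `ℚ̄` and `A` a valuation subring of `ℚ̄` over `ℓ`.  This is the instance
argument `[PerfectField (IsLocalRing.ResidueField A)]` of `H68.reg_chartU_full` /
`H68.reg_chartV_full` in the model.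
-/

set_option autoImplicit false

namespace Fermat.Agent.S18.H63

/-- The residue field of a valuation subring of a number field lying over a prime is perfect
(it is finite). -/
theorem perfectField_residueField_of_liesOverPrime {K : Type*} [Field K] [NumberField K]
    (V : ValuationSubring K) {ℓ : ℕ} (hℓ : ℓ.Prime) (hV : V.LiesOverPrime ℓ) :
    PerfectField (IsLocalRing.ResidueField V) := by
  have : Finite (IsLocalRing.ResidueField V) := H86.finite_residueField_of_liesOverPrime V hℓ hV
  infer_instance

set_option synthInstance.maxHeartbeats 400000 in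
/-- The residue field of `A ∩ K0` (in the form `H86.A0 A K0`) is perfect. -/
theorem perfectField_residueField_A0' (A : ValuationSubring (AlgebraicClosure ℚ))
    (K0 : IntermediateField ℚ (AlgebraicClosure ℚ)) [FiniteDimensional ℚ K0] {ℓ : ℕ}
    (hℓ : ℓ.Prime) (hA : A.LiesOverPrime ℓ) :
    PerfectField (IsLocalRing.ResidueField (H86.A0 A K0)) := by
  have : Finite (IsLocalRing.ResidueField (H86.A0 A K0)) := H86.finite_residueField_A0 A K0 hℓ hA
  infer_instance

set_option synthInstance.maxHeartbeats 400000 in
/-- The residue field of `A ∩ K0` (in the form `H61.A0 A K0`, the one used by the chain of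
record `H60` / `H19`) is perfect. -/
theorem perfectField_residueField_A0 (A : ValuationSubring (AlgebraicClosure ℚ))
    (K0 : IntermediateField ℚ (AlgebraicClosure ℚ)) [FiniteDimensional ℚ K0] {ℓ : ℕ}
    (hℓ : ℓ.Prime) (hA : A.LiesOverPrime ℓ) :
    PerfectField (IsLocalRing.ResidueField (H61.A0 A K0)) :=
  perfectField_residueField_A0' A K0 hℓ hA

end Fermat.Agent.S18.H63
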