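import Mathlib
import Fermat.Agent.S18.PlaceExist_helper60
import Fermat.Agent.S28.PsiFinal_helper50
import Fermat.Agent.S28.DegreeQ_helper98
import Fermat.Agent.S18.ValRing_helper86

/-!
# Places of the modular function fields (S18, node DICT, instances), helper60

Instances of `PlaceExist_helper60` for
* `Fbar = modularFunctionFieldBar N` over `AlgebraicClosure ℚ` (with `x = jBar N`), and
* `F_k = modularFunctionFieldFullC k N` over an algebraically closed field `k` of
  characteristic `l ∤ N` (with `x = jbar`),
plus `deg Q = 1` for every place.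
-/

set_option autoImplicit false

noncomputable section

namespace Fermat.Agent.S18.H60

open IntermediateField AlgebraicCurve ModularCurve

section Generic

variable {k F : Type*} [Field k] [Field F] [Algebra k F]

/-- every place has degree one (`k` algebraically closed). -/
theorem deg_eq_one [IsAlgClosed k] (x : F) [FiniteDimensional k⟮x⟯ F] (Q : Place k F) :
    Q.deg = 1 := by
  obtain ⟨t, ht, ht', heq⟩ := exists_param x Q.toValuationSubring Q.algebraMap_mem' Q.ne_top'
  have : FiniteDimensional k⟮t⟯ F := by rw [heq]; infer_instance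
  have hfin : Module.Finite k
      (Q.toValuationSubring ⧸ Ideal.span {(⟨t, ht⟩ : Q.toValuationSubring)}) :=
    finite_quotient' Q.toValuationSubring ht ht'
  have hle : Ideal.span {(⟨t, ht⟩ : Q.toValuationSubring)}
      ≤ IsLocalRing.maximalIdeal Q.toValuationSubring := by
    rw [Ideal.span_singleton_le_iff_mem, IsLocalRing.mem_maximalIdeal, mem_nonunits_iff]
    intro hu
    obtain ⟨⟨y, hy⟩, hyu⟩ := isUnit_iff_exists_inv.mp hu
    apply ht'
    have h1 : t * y = 1 := congrArg Subtype.val hyu
    rw [← eq_inv_of_mul_eq_one_right h1]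
    exact hy
  have hfin' : Module.Finite k (IsLocalRing.ResidueField Q.toValuationSubring) :=
    Module.Finite.of_surjective (Ideal.Quotient.factorₐ k hle).toLinearMap
      (Ideal.Quotient.factor_surjective hle)
  have hbij : Function.Bijective
      (algebraMap k (IsLocalRing.ResidueField Q.toValuationSubring)) :=
    IsAlgClosed.algebraMap_bijective_of_isIntegral
  have e : k ≃ₗ[k] IsLocalRing.ResidueField Q.toValuationSubring :=
    LinearEquiv.ofBijective (Algebra.linearMap k _) hbij
  show Module.finrank k (IsLocalRing.ResidueField Q.toValuationSubring) = 1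
  rw [← e.finrank_eq, Module.finrank_self]

/-- bridge from `relfinrank` inside an ambient field to `FiniteDimensional` inside `B`. -/
theorem finiteDimensional_of_relfinrank_ne_zero {E : Type*} [Field E] [Algebra k E]
    (B : IntermediateField k E) (y : E) (hy : y ∈ B)
    (h : (IntermediateField.adjoin k {y}).relfinrank B ≠ 0) :
    FiniteDimensional k⟮(⟨y, hy⟩ : B)⟯ B := by
  have h1 : Module.finrank ((IntermediateField.adjoin k {y}).comap B.val) B
      = (IntermediateField.adjoin k {y}).relfinrank B := by
    rw [IntermediateField.finrank_comap, IntermediateField.fieldRange_val]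
  have h2 : (IntermediateField.adjoin k {y}).comap B.val = k⟮(⟨y, hy⟩ : B)⟯ := by
    have : IntermediateField.adjoin k {y} = (k⟮(⟨y, hy⟩ : B)⟯).map B.val := by
      rw [IntermediateField.adjoin_map, Set.image_singleton]
      rfl
    rw [this, IntermediateField.comap_map]
  rw [h2] at h1
  exact Module.finite_of_finrank_pos (by rw [h1]; exact Nat.pos_of_ne_zero h)

end Generic

section Bar

variable (N : ℕ) [NeZero N]

/-- `div g = 0 ⟹ g` constant, on `Fbar = modularFunctionFieldBar N`. -/
theorem bar_exists_algebraMap_eq_of_forall_ord_eq_zero (g : ↥(modularFunctionFieldBar N))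
    (h : ∀ Q : Place (AlgebraicClosure ℚ) ↥(modularFunctionFieldBar N), Q.ord g = 0) :
    ∃ c : AlgebraicClosure ℚ, g = algebraMap _ _ c := by
  have := (S28.H98.finrank_bar N).1
  exact exists_algebraMap_eq_of_forall_ord_eq_zero (S24.H98.jBar N) g h

/-- no poles `⟹` constant, on `Fbar`. -/
theorem bar_exists_algebraMap_eq_of_forall_ord_nonneg (g : ↥(modularFunctionFieldBar N))
    (h : ∀ Q : Place (AlgebraicClosure ℚ) ↥(modularFunctionFieldBar N), 0 ≤ Q.ord g) :
    ∃ c : AlgebraicClosure ℚ, g = algebraMap _ _ c := by
  have := (S28.H98.finrank_bar N).1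
  exact exists_algebraMap_eq_of_forall_ord_nonneg (S24.H98.jBar N) g h

/-- every nonconstant element of `Fbar` has a zero. -/
theorem bar_exists_place_ord_pos (g : ↥(modularFunctionFieldBar N))
    (hg : g ∉ Set.range (algebraMap (AlgebraicClosure ℚ) ↥(modularFunctionFieldBar N))) :
    ∃ Q : Place (AlgebraicClosure ℚ) ↥(modularFunctionFieldBar N), 0 < Q.ord g := by
  have := (S28.H98.finrank_bar N).1
  exact exists_place_ord_pos (S24.H98.jBar N) g hg

/-- every nontrivial valuation subring of `Fbar` over the constants is a place. -/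
def barPlaceOf (V : ValuationSubring ↥(modularFunctionFieldBar N))
    (hk : ∀ a : AlgebraicClosure ℚ, algebraMap _ ↥(modularFunctionFieldBar N) a ∈ V)
    (hV : V ≠ ⊤) : Place (AlgebraicClosure ℚ) ↥(modularFunctionFieldBar N) :=
  haveI := (S28.H98.finrank_bar N).1
  placeOf (S24.H98.jBar N) V hk hV

@[simp] theorem barPlaceOf_toValuationSubring (V : ValuationSubring ↥(modularFunctionFieldBar N))
    (hk : ∀ a : AlgebraicClosure ℚ, algebraMap _ ↥(modularFunctionFieldBar N) a ∈ V)
    (hV : V ≠ ⊤) : (barPlaceOf N V hk hV).toValuationSubring = V := rfl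

/-- places of `Fbar` have degree one. -/
theorem bar_deg_eq_one (Q : Place (AlgebraicClosure ℚ) ↥(modularFunctionFieldBar N)) :
    Q.deg = 1 := by
  have := (S28.H98.finrank_bar N).1
  exact deg_eq_one (S24.H98.jBar N) Q

end Bar

section CharL

universe u

variable (k : Type u) [Field k] [IsAlgClosed k] (l : ℕ) [Fact l.Prime] [CharP k l]
variable (N : ℕ) [NeZero N]

/-- `jbar` as an element of `F_k`. -/
def jC : ↥(modularFunctionFieldFullC k N) := ⟨jqModC k, jqModC_mem_full k N⟩

omit [IsAlgClosed k] [NeZero N] in
@[simp] theorem coe_jC : ((jC k N : ↥(modularFunctionFieldFullC k N)) : LaurentSeries k)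
    = jqModC k := rfl

/-- `F_k` is finite over `k(jbar)` (S28 degree theorem, `l ∤ N`). -/
theorem finiteDimensional_fullC (hlN : ¬ l ∣ N) :
    FiniteDimensional k⟮jC k N⟯ ↥(modularFunctionFieldFullC k N) :=
  finiteDimensional_of_relfinrank_ne_zero (modularFunctionFieldFullC k N) (jqModC k)
    (jqModC_mem_full k N) (S28.H50.relfinrank_ne_zero_and_psi_le_char k l N hlN).1

/-- `div g = 0 ⟹ g` constant, on `F_k`. -/
theorem fullC_exists_algebraMap_eq_of_forall_ord_eq_zero (hlN : ¬ l ∣ N)
    (g : ↥(modularFunctionFieldFullC k N))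
    (h : ∀ Q : Place k ↥(modularFunctionFieldFullC k N), Q.ord g = 0) :
    ∃ c : k, g = algebraMap k ↥(modularFunctionFieldFullC k N) c := by
  have := finiteDimensional_fullC k l N hlN
  exact exists_algebraMap_eq_of_forall_ord_eq_zero (jC k N) g h

/-- no poles `⟹` constant, on `F_k`. -/
theorem fullC_exists_algebraMap_eq_of_forall_ord_nonneg (hlN : ¬ l ∣ N)
    (g : ↥(modularFunctionFieldFullC k N))
    (h : ∀ Q : Place k ↥(modularFunctionFieldFullC k N), 0 ≤ Q.ord g) :
    ∃ c : k, g = algebraMap k ↥(modularFunctionFieldFullC k N) c := by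
  have := finiteDimensional_fullC k l N hlN
  exact exists_algebraMap_eq_of_forall_ord_nonneg (jC k N) g h

/-- every nonconstant element of `F_k` has a zero. -/
theorem fullC_exists_place_ord_pos (hlN : ¬ l ∣ N) (g : ↥(modularFunctionFieldFullC k N))
    (hg : g ∉ Set.range (algebraMap k ↥(modularFunctionFieldFullC k N))) :
    ∃ Q : Place k ↥(modularFunctionFieldFullC k N), 0 < Q.ord g := by
  have := finiteDimensional_fullC k l N hlN
  exact exists_place_ord_pos (jC k N) g hg

/-- every nontrivial valuation subring of `F_k` over the constants is a place. -/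
def fullCPlaceOf (hlN : ¬ l ∣ N) (V : ValuationSubring ↥(modularFunctionFieldFullC k N))
    (hk : ∀ a : k, algebraMap k ↥(modularFunctionFieldFullC k N) a ∈ V)
    (hV : V ≠ ⊤) : Place k ↥(modularFunctionFieldFullC k N) :=
  haveI := finiteDimensional_fullC k l N hlN
  placeOf (jC k N) V hk hV

@[simp] theorem fullCPlaceOf_toValuationSubring (hlN : ¬ l ∣ N)
    (V : ValuationSubring ↥(modularFunctionFieldFullC k N))
    (hk : ∀ a : k, algebraMap k ↥(modularFunctionFieldFullC k N) a ∈ V)
    (hV : V ≠ ⊤) : (fullCPlaceOf k l N hlN V hk hV).toValuationSubring = V := rfl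

/-- places of `F_k` have degree one. -/
theorem fullC_deg_eq_one (hlN : ¬ l ∣ N) (Q : Place k ↥(modularFunctionFieldFullC k N)) :
    Q.deg = 1 := by
  have := finiteDimensional_fullC k l N hlN
  exact deg_eq_one (jC k N) Q

end CharL

section Frozen

set_option synthInstance.maxHeartbeats 400000

variable (N : ℕ) [NeZero N] {ℓ : ℕ} [Fact ℓ.Prime]
variable (A : ValuationSubring (AlgebraicClosure ℚ))

/-- `hconstk` of `H18.bridge`, literally: on the mod-`ℓ` function field of level `N`
(`ℓ ∤ N`) over the residue field of the frozen base ring, `div g = 0 ⟹ g` constant. -/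
theorem hconstk (hℓN : ¬ ℓ ∣ N) (hA : A.LiesOverPrime ℓ) :
    ∀ g : ↥(modularFunctionFieldFullC (IsLocalRing.ResidueField A) N), g ≠ 0 →
      (∀ Q : Place (IsLocalRing.ResidueField A)
        ↥(modularFunctionFieldFullC (IsLocalRing.ResidueField A) N), Q.ord g = 0) →
      ∃ c : IsLocalRing.ResidueField A,
        g = algebraMap (IsLocalRing.ResidueField A)
          ↥(modularFunctionFieldFullC (IsLocalRing.ResidueField A) N) c := by
  have := H86.isAlgClosed_residueField A
  have := H86.charP_residueField A hA (Fact.out : ℓ.Prime)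
  intro g _ h
  exact fullC_exists_algebraMap_eq_of_forall_ord_eq_zero _ ℓ N hℓN g h

/-- no poles `⟹` constant, on the mod-`ℓ` function field over the frozen residue field. -/
theorem res_exists_algebraMap_eq_of_forall_ord_nonneg (hℓN : ¬ ℓ ∣ N) (hA : A.LiesOverPrime ℓ)
    (g : ↥(modularFunctionFieldFullC (IsLocalRing.ResidueField A) N))
    (h : ∀ Q : Place (IsLocalRing.ResidueField A)
        ↥(modularFunctionFieldFullC (IsLocalRing.ResidueField A) N), 0 ≤ Q.ord g) :
    ∃ c : IsLocalRing.ResidueField A,
      g = algebraMap (IsLocalRing.ResidueField A)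
        ↥(modularFunctionFieldFullC (IsLocalRing.ResidueField A) N) c := by
  have := H86.isAlgClosed_residueField A
  have := H86.charP_residueField A hA (Fact.out : ℓ.Prime)
  exact fullC_exists_algebraMap_eq_of_forall_ord_nonneg _ ℓ N hℓN g h

/-- every nonconstant element has a zero, over the frozen residue field. -/
theorem res_exists_place_ord_pos (hℓN : ¬ ℓ ∣ N) (hA : A.LiesOverPrime ℓ)
    (g : ↥(modularFunctionFieldFullC (IsLocalRing.ResidueField A) N))
    (hg : g ∉ Set.range (algebraMap (IsLocalRing.ResidueField A)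
      ↥(modularFunctionFieldFullC (IsLocalRing.ResidueField A) N))) :
    ∃ Q : Place (IsLocalRing.ResidueField A)
      ↥(modularFunctionFieldFullC (IsLocalRing.ResidueField A) N), 0 < Q.ord g := by
  have := H86.isAlgClosed_residueField A
  have := H86.charP_residueField A hA (Fact.out : ℓ.Prime)
  exact fullC_exists_place_ord_pos _ ℓ N hℓN g hg

/-- places of the mod-`ℓ` function field over the frozen residue field have degree one. -/
theorem res_deg_eq_one (hℓN : ¬ ℓ ∣ N) (hA : A.LiesOverPrime ℓ)
    (Q : Place (IsLocalRing.ResidueField A)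
      ↥(modularFunctionFieldFullC (IsLocalRing.ResidueField A) N)) : Q.deg = 1 := by
  have := H86.isAlgClosed_residueField A
  have := H86.charP_residueField A hA (Fact.out : ℓ.Prime)
  exact fullC_deg_eq_one _ ℓ N hℓN Q

end Frozen

end Fermat.Agent.S18.H60
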