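import Mathlib
import Fermat.Agent.S18.Ram0_helper10

/-!
# S18, node (IV) PRINCDIV: principal divisors on the generic fibre

For `Fbar_N = modularFunctionFieldBar N` over `Qbar`:

* `finite_ord_ne_zero` : a nonzero function has finitely many zeros and poles;
* `exists_divisor`     : its divisor exists and has degree `0`;
* `hasPrincipalDivisors_FN` : the prelude class `HasPrincipalDivisors`;
* `hdivL`              : the literal hypothesis `hdivL` of `H18.bridge`;
* `deg_eq_one`, `ord_algebraMap` : re-exports (every place has degree one, constants have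
  order zero).

Everything comes from the landed S24 function-field inputs (`H10.rhInputs_FN`).
-/

set_option autoImplicit false

open AlgebraicCurve IntermediateField
open Fermat.Agent.S24 Fermat.Agent.S24.H98

namespace Fermat.Agent.S18.H98

variable (N : ℕ) [NeZero N]

/-- every place of `Fbar_N` has degree one -/
theorem deg_eq_one (P : Place Kbar (FN N)) : P.deg = 1 :=
  (H10.rhInputs_FN N).deg_eq_one P

/-- constants have order zero at every place -/
theorem ord_algebraMap (P : Place Kbar (FN N)) (c : Kbar) :
    P.ord (algebraMap Kbar (FN N) c) = 0 :=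
  (H10.rhInputs_FN N).ord_algebraMap P c

/-- a function has finitely many zeros and poles -/
theorem finite_ord_ne_zero (f : FN N) : {P : Place Kbar (FN N) | P.ord f ≠ 0}.Finite := by
  have h1 := H14.finite_pos (H10.rhInputs_FN N) f
  have h2 := H14.finite_neg (H10.rhInputs_FN N) f
  refine (h1.union h2).subset ?_
  intro P hP
  simp only [Set.mem_ofPred_eq] at hP
  simp only [Set.mem_union, Set.mem_ofPred_eq]
  omega

/-- the divisor of a function exists and has degree zero -/
theorem exists_divisor (f : FN N) :
    ∃ E : Divisor Kbar (FN N), (∀ P, E P = P.ord f) ∧ Divisor.degree E = 0 := by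
  classical
  have hfin := finite_ord_ne_zero N f
  let E : Divisor Kbar (FN N) :=
    Finsupp.onFinset hfin.toFinset (fun P => P.ord f) (fun P hP => by
      simpa using hP)
  have hE : ∀ P, E P = P.ord f := fun P => rfl
  refine ⟨E, hE, ?_⟩
  have hdeg : Divisor.degree E = ∑ P ∈ hfin.toFinset, P.ord f := by
    have h1 : Divisor.degree E = E.sum fun P n => n * (P.deg : ℤ) := by
      simp [Divisor.degree, Finsupp.liftAddHom_apply]
    rw [h1, Finsupp.sum_of_support_subset E (s := hfin.toFinset)
      (Finsupp.support_onFinset_subset) _ (fun P _ => by simp)]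
    refine Finset.sum_congr rfl fun P _ => ?_
    rw [hE, deg_eq_one N P]
    simp
  rw [hdeg]
  refine H14.sum_ord_eq_zero (H10.rhInputs_FN N) f hfin.toFinset ?_ ?_
  · intro P hP
    simp only [Set.Finite.mem_toFinset, Set.mem_ofPred_eq]
    omega
  · intro P hP
    simp only [Set.Finite.mem_toFinset, Set.mem_ofPred_eq]
    omega

/-- the prelude class `HasPrincipalDivisors` for `Fbar_N` -/
theorem hasPrincipalDivisors_FN : HasPrincipalDivisors Kbar (FN N) :=
  ⟨fun f _ => exists_divisor N f⟩

/-- the hypothesis `hdivL` of `H18.bridge`, literally -/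
theorem hdivL : ∀ f : ↥(ModularCurve.modularFunctionFieldBar N), f ≠ 0 →
    ∃ E : Divisor (AlgebraicClosure ℚ) ↥(ModularCurve.modularFunctionFieldBar N),
      ∀ P, E P = P.ord f := fun f _ => by
  obtain ⟨E, hE, -⟩ := exists_divisor N f
  exact ⟨E, hE⟩

end Fermat.Agent.S18.H98
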