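import Mathlib

/-!
# S18 node (PUR): purity lemmas — helper50

Mathlib-only commutative algebra used in the "good reduction" part of S18.

* `basis_of_mod_pi` (P1): a family which is a basis modulo `π` is a basis (Nakayama + Krull
  intersection).
* `exists_basis_of_torsionFree_mod_pi` (P2): if `R/π` is a PID and `S/πS` is torsion-free over
  `R/π`, then `S` is free over `R`.
* `isUnit_of_forall_height_one_not_mem` (P3): an element of a noetherian domain lying in no
  height-one prime is a unit (Krull's principal ideal theorem), with the "vertical/horizontal"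
  variant `isUnit_of_not_dvd_of_forall_horizontal`.
* `isUnit_discr_of_isReduced_fiber` (P4): a finite free algebra over a local ring whose special
  fibre is reduced with separable residue fields has unit discriminant; localized versions
  `discr_not_mem_of_isReduced_fiber`, `discr_not_mem_of_isReduced_fiber_of_charZero`.
-/

namespace Fermat.Agent.S18.H50

open IsLocalRing

section P0

variable {R S : Type*} [CommRing R] [AddCommGroup S] [Module R S]

/-- Elements of `span {π} • ⊤` are exactly the multiples of `π`. -/
lemma mem_span_singleton_smul_top_iff (π : R) (x : S) :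
    x ∈ (Ideal.span {π} • ⊤ : Submodule R S) ↔ ∃ t : S, x = π • t := by
  rw [Submodule.ideal_span_singleton_smul, Submodule.mem_smul_pointwise_iff_exists]
  constructor
  · rintro ⟨t, -, rfl⟩
    exact ⟨t, rfl⟩
  · rintro ⟨t, rfl⟩
    exact ⟨t, Submodule.mem_top, rfl⟩

end P0

section P1

variable {R S : Type*} [CommRing R] [IsLocalRing R] [IsNoetherianRing R]
  [AddCommGroup S] [Module R S]

/-- Divisibility by all powers of a non-unit forces vanishing (Krull intersection). -/
lemma eq_zero_of_forall_pow_dvd {π : R} (hπ : π ∈ maximalIdeal R) {c : R}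
    (h : ∀ n : ℕ, π ^ n ∣ c) : c = 0 := by
  have hne : Ideal.span {π} ≠ (⊤ : Ideal R) := by
    intro htop
    have : (1 : R) ∈ Ideal.span {π} := htop ▸ Submodule.mem_top
    rw [Ideal.mem_span_singleton] at this
    exact (mem_maximalIdeal π).mp hπ (isUnit_of_dvd_one this)
  have hbot := Ideal.iInf_pow_eq_bot_of_isLocalRing (Ideal.span {π}) hne
  have hmem : c ∈ ⨅ i : ℕ, (Ideal.span {π} : Ideal R) ^ i := by
    rw [Ideal.mem_iInf]
    intro i
    rw [Ideal.span_singleton_pow, Ideal.mem_span_singleton]
    exact h i
  rw [hbot] at hmem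
  exact hmem

/-- **(P1)** A finite family of a finite module over a noetherian local ring which generates
modulo `π` and is linearly independent modulo `π` (`π` a non-unit acting injectively) is a
basis. -/
theorem basis_of_mod_pi [Module.Finite R S] (π : R) (hπ : π ∈ maximalIdeal R)
    (hreg : ∀ s : S, π • s = 0 → s = 0) {ι : Type*} [Fintype ι] (b : ι → S)
    (hgen : ∀ s : S, ∃ c : ι → R, ∃ t : S, s = ∑ i, c i • b i + π • t)
    (hind : ∀ c : ι → R, (∃ t : S, ∑ i, c i • b i = π • t) → ∀ i, π ∣ c i) :
    LinearIndependent R b ∧ Submodule.span R (Set.range b) = ⊤ := by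
  constructor
  · rw [Fintype.linearIndependent_iff]
    have key : ∀ n : ℕ, ∀ c : ι → R, ∑ i, c i • b i = 0 → ∀ i, π ^ n ∣ c i := by
      intro n
      induction n with
      | zero => intro c _ i; simp
      | succ n ih =>
        intro c hc i
        have hdiv := hind c ⟨0, by rw [hc, smul_zero]⟩
        choose c' hc' using hdiv
        have h0 : π • ∑ i, c' i • b i = 0 := by
          rw [Finset.smul_sum, ← hc]
          refine Finset.sum_congr rfl fun j _ => ?_
          rw [hc' j, mul_smul]
        have h1 := ih c' (hreg _ h0) i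
        rw [hc' i, pow_succ']
        exact mul_dvd_mul_left π h1
    intro c hc i
    exact eq_zero_of_forall_pow_dvd hπ fun n => key n c hc i
  · rw [eq_top_iff]
    have hfg : (⊤ : Submodule R S).FG := Module.finite_def.mp inferInstance
    refine Submodule.le_of_le_smul_of_le_jacobson_bot (I := Ideal.span {π}) hfg ?_ ?_
    · rw [Ideal.span_le, Set.singleton_subset_iff]
      exact (IsLocalRing.maximalIdeal_le_jacobson ⊥) hπ
    · intro s _
      obtain ⟨c, t, rfl⟩ := hgen s
      refine Submodule.add_mem_sup ?_ ?_
      · exact Submodule.sum_mem _ fun i _ =>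
          Submodule.smul_mem _ _ (Submodule.subset_span ⟨i, rfl⟩)
      · exact (mem_span_singleton_smul_top_iff π _).mpr ⟨t, rfl⟩

end P1

section P2

variable {R S : Type*} [CommRing R] [IsLocalRing R] [IsNoetherianRing R]
  [AddCommGroup S] [Module R S]

/-- **(P2)** Let `R` be a noetherian local ring, `π` a non-unit such that `R/π` is a principal
ideal domain (e.g. a DVR), and `S` a finite `R`-module on which `π` acts injectively and such
that `S/πS` is torsion-free over `R/π`.  Then `S` is free over `R`; more precisely a basis can be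
chosen whose reduction modulo `π` generates and is independent modulo `π`. -/
theorem exists_basis_of_torsionFree_mod_pi [Module.Finite R S] (π : R)
    (hπ : π ∈ maximalIdeal R) [IsDomain (R ⧸ Ideal.span {π})]
    [IsPrincipalIdealRing (R ⧸ Ideal.span {π})]
    (hreg : ∀ s : S, π • s = 0 → s = 0)
    (htf : ∀ (r : R) (s : S), (∃ t : S, r • s = π • t) → π ∣ r ∨ ∃ t : S, s = π • t) :
    ∃ (n : ℕ) (b : Module.Basis (Fin n) R S),
      (∀ s : S, ∃ c : Fin n → R, ∃ t : S, s = ∑ i, c i • b i + π • t) ∧
      (∀ c : Fin n → R, (∃ t : S, ∑ i, c i • b i = π • t) → ∀ i, π ∣ c i) := by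
  classical
  set I : Ideal R := Ideal.span {π} with hI
  set N : Submodule R S := I • ⊤ with hN
  have hmkS : ∀ s : S, (Submodule.Quotient.mk s : S ⧸ N) = 0 ↔ ∃ t : S, s = π • t := by
    intro s
    rw [Submodule.Quotient.mk_eq_zero, hN, hI, mem_span_singleton_smul_top_iff]
  have hmkR : ∀ r : R, (Ideal.Quotient.mk I r = 0) ↔ π ∣ r := by
    intro r
    rw [Ideal.Quotient.eq_zero_iff_mem, hI, Ideal.mem_span_singleton]
  -- `S/πS` is finite and torsion-free over `R/π`
  have : Module.Finite (R ⧸ I) (S ⧸ N) := by
    have : Module.Finite R (S ⧸ N) := inferInstance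
    exact Module.Finite.of_restrictScalars_finite R (R ⧸ I) (S ⧸ N)
  have : Module.IsTorsionFree (R ⧸ I) (S ⧸ N) := by
    rw [Module.isTorsionFree_iff_smul_eq_zero]
    intro r m hrm
    obtain ⟨r, rfl⟩ := Ideal.Quotient.mk_surjective r
    obtain ⟨s, rfl⟩ := Submodule.Quotient.mk_surjective N m
    have h1 : (Submodule.Quotient.mk (r • s) : S ⧸ N) = 0 := hrm
    rcases htf r s ((hmkS _).mp h1) with h | h
    · exact Or.inl ((hmkR r).mpr h)
    · exact Or.inr ((hmkS s).mpr h)
  obtain ⟨n, bb⟩ := Module.basisOfFiniteTypeTorsionFree' (R := R ⧸ I) (M := S ⧸ N)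
  choose b hb using fun i => Submodule.Quotient.mk_surjective N (bb i)
  have hsum : ∀ c : Fin n → R, (Submodule.Quotient.mk (∑ i, c i • b i) : S ⧸ N) =
      ∑ i, Ideal.Quotient.mk I (c i) • bb i := by
    intro c
    rw [← Submodule.mkQ_apply, map_sum]
    refine Finset.sum_congr rfl fun i _ => ?_
    rw [← hb i]
    rfl
  have hgen : ∀ s : S, ∃ c : Fin n → R, ∃ t : S, s = ∑ i, c i • b i + π • t := by
    intro s
    have hrepr := bb.sum_repr (Submodule.Quotient.mk s)
    choose c hc using fun i => Ideal.Quotient.mk_surjective (bb.repr (Submodule.Quotient.mk s) i)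
    have h0 : (Submodule.Quotient.mk (s - ∑ i, c i • b i) : S ⧸ N) = 0 := by
      rw [Submodule.Quotient.mk_sub, hsum, ← hrepr, sub_eq_zero]
      exact Finset.sum_congr rfl fun i _ => by rw [hc i]
    obtain ⟨t, ht⟩ := (hmkS _).mp h0
    exact ⟨c, t, by rw [← ht]; abel⟩
  have hind : ∀ c : Fin n → R, (∃ t : S, ∑ i, c i • b i = π • t) → ∀ i, π ∣ c i := by
    intro c hc i
    have h0 : ∑ i, Ideal.Quotient.mk I (c i) • bb i = 0 := by
      rw [← hsum]
      exact (hmkS _).mpr hc
    have := (Fintype.linearIndependent_iff.mp bb.linearIndependent) _ h0 i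
    exact (hmkR _).mp this
  obtain ⟨hli, hspan⟩ := basis_of_mod_pi π hπ hreg b hgen hind
  refine ⟨n, Module.Basis.mk hli hspan.ge, ?_, ?_⟩
  · simpa using hgen
  · simpa using hind

/-- Freeness form of `exists_basis_of_torsionFree_mod_pi`. -/
theorem free_of_torsionFree_mod_pi [Module.Finite R S] (π : R)
    (hπ : π ∈ maximalIdeal R) [IsDomain (R ⧸ Ideal.span {π})]
    [IsPrincipalIdealRing (R ⧸ Ideal.span {π})]
    (hreg : ∀ s : S, π • s = 0 → s = 0)
    (htf : ∀ (r : R) (s : S), (∃ t : S, r • s = π • t) → π ∣ r ∨ ∃ t : S, s = π • t) :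
    Module.Free R S := by
  obtain ⟨n, b, -⟩ := exists_basis_of_torsionFree_mod_pi π hπ hreg htf
  exact Module.Free.of_basis b

end P2

section P3

variable {R : Type*} [CommRing R] [IsDomain R]

/-- A nonzero prime of a domain has height at least one. -/
lemma one_le_height_of_ne_bot (p : Ideal R) [p.IsPrime] (hp : p ≠ ⊥) : 1 ≤ p.height := by
  rw [Order.one_le_iff_ne_zero]
  intro h0
  rw [Ideal.height_eq_zero_iff, IsDomain.minimalPrimes_eq_singleton_bot] at h0
  exact hp h0

variable [IsNoetherianRing R]

/-- **(P3)** In a noetherian domain, a nonzero element lying in no prime of height one is a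
unit (Krull's principal ideal theorem). -/
theorem isUnit_of_forall_height_one_not_mem (d : R) (hd : d ≠ 0)
    (h : ∀ p : Ideal R, p.IsPrime → p.height = 1 → d ∉ p) : IsUnit d := by
  by_contra hu
  have hne : Ideal.span {d} ≠ (⊤ : Ideal R) := by
    rwa [Ne, Ideal.span_singleton_eq_top]
  obtain ⟨p, hp⟩ := Ideal.nonempty_minimalPrimes hne
  have : p.IsPrime := hp.1.1
  have hdp : d ∈ p := hp.1.2 (Ideal.mem_span_singleton_self d)
  have hle := Ideal.height_le_one_of_isPrincipal_of_mem_minimalPrimes (Ideal.span {d}) p hp
  have hge := one_le_height_of_ne_bot p (fun hbot => hd (by rw [hbot] at hdp; exact hdp))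
  exact h p inferInstance (le_antisymm hle hge) hdp

/-- **(P3), vertical/horizontal form.** If `(π)` is a nonzero prime of the noetherian domain
`R`, then an element `d` not divisible by `π` and lying in no height-one prime avoiding `π` is
a unit. -/
theorem isUnit_of_not_dvd_of_forall_horizontal (π : R) (hπ0 : π ≠ 0)
    (hπ : (Ideal.span {π}).IsPrime) (d : R) (hd : ¬ π ∣ d)
    (h : ∀ q : Ideal R, q.IsPrime → π ∉ q → q.height = 1 → d ∉ q) : IsUnit d := by
  have hd0 : d ≠ 0 := fun h0 => hd (h0 ▸ dvd_zero π)
  refine isUnit_of_forall_height_one_not_mem d hd0 fun p hp hp1 hdp => ?_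
  by_cases hπp : π ∈ p
  · have hle : Ideal.span {π} ≤ p := (Ideal.span_singleton_le_iff_mem p).mpr hπp
    have hne : Ideal.span {π} ≠ (⊥ : Ideal R) := by
      rwa [Ne, Ideal.span_singleton_eq_bot]
    have h1 := one_le_height_of_ne_bot (Ideal.span {π}) hne
    have heq : Ideal.span {π} = p := by
      by_contra hneq
      have hlt : Ideal.span {π} < p := lt_of_le_of_ne hle hneq
      have h2 := Ideal.height_add_one_le_of_lt_of_isPrime hlt
      rw [hp1] at h2
      have h3 : (1 : ℕ∞) + 1 ≤ 1 := le_trans (add_le_add_left h1 1) h2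
      exact absurd h3 (by decide)
    rw [← heq, Ideal.mem_span_singleton] at hdp
    exact hd hdp
  · exact h p hp hπp hp1 hdp

end P3

section P4field

variable {κ T : Type*} [Field κ] [CommRing T] [Algebra κ T] [FiniteDimensional κ T] [IsReduced T]

/-- In a reduced finite-dimensional commutative algebra over a field all of whose residue
fields are separable, the trace form has trivial radical. -/
theorem eq_zero_of_forall_trace_mul_eq_zero
    (hsep : ∀ m : Ideal T, m.IsMaximal → Algebra.IsSeparable κ (T ⧸ m))
    (x : T) (hx : ∀ y : T, Algebra.trace κ T (x * y) = 0) : x = 0 := by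
  classical
  haveI : IsArtinianRing T := IsArtinianRing.of_finite κ T
  apply (IsArtinianRing.equivPi T).injective
  rw [map_zero]
  funext m
  rw [IsArtinianRing.equivPi_apply, Pi.zero_apply]
  letI := Ideal.Quotient.field m.asIdeal
  haveI := hsep m.asIdeal m.isMaximal
  have hfd : FiniteDimensional κ (T ⧸ m.asIdeal) := inferInstance
  have hnd := (traceForm_nondegenerate κ (T ⧸ m.asIdeal)).1
  apply hnd
  intro y
  rw [Algebra.traceForm_apply]
  -- the two linear maps
  let π : T →ₗ[κ] (T ⧸ m.asIdeal) := (Ideal.Quotient.mkₐ κ m.asIdeal).toLinearMap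
  let ι : (T ⧸ m.asIdeal) →ₗ[κ] T :=
    { toFun := fun z => (IsArtinianRing.equivPi T).symm (Pi.single m z)
      map_add' := fun z w => by rw [Pi.single_add, map_add]
      map_smul' := fun c z => by
        simp only [RingHom.id_apply]
        rw [← algebraMap_smul T c z, ← algebraMap_smul T c ((IsArtinianRing.equivPi T).symm _),
          ← map_smul]
        congr 1
        funext n
        by_cases hn : n = m
        · subst hn; simp
        · simp [Pi.single_eq_of_ne hn] }
  have hι : ∀ z, (IsArtinianRing.equivPi T) (ι z) = Pi.single m z := fun z =>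
    (IsArtinianRing.equivPi T).apply_symm_apply _
  have hπι : ∀ z, π (ι z) = z := by
    intro z
    have := congrFun (hι z) m
    rw [IsArtinianRing.equivPi_apply, Pi.single_eq_same] at this
    exact this
  have hmul : ∀ (t : T) (z : T ⧸ m.asIdeal), ι (π t * z) = t * ι z := by
    intro t z
    apply (IsArtinianRing.equivPi T).injective
    rw [hι, map_mul (IsArtinianRing.equivPi T), hι]
    funext n
    by_cases hn : n = m
    · subst hn
      simp [IsArtinianRing.equivPi_apply, π]
    · simp [Pi.single_eq_of_ne hn]
  have hcomp : Algebra.lmul κ T (x * ι y) =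
      ι ∘ₗ (Algebra.lmul κ (T ⧸ m.asIdeal) (π x * y) ∘ₗ π) := by
    ext z
    simp only [LinearMap.coe_comp, Function.comp_apply, Algebra.coe_lmul_eq_mul,
      LinearMap.mul_apply']
    have h2 := hmul (x * z) y
    have h3 : π (x * z) = π x * π z := map_mul (Ideal.Quotient.mkₐ κ m.asIdeal) x z
    rw [h3] at h2
    rw [show π x * y * π z = π x * π z * y by ring, h2]
    ring
  have h1 : Algebra.trace κ T (x * ι y) = Algebra.trace κ (T ⧸ m.asIdeal) (π x * y) := by
    rw [Algebra.trace_apply, Algebra.trace_apply, hcomp, LinearMap.trace_comp_comm']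
    congr 1
    ext z
    simp only [LinearMap.coe_comp, Function.comp_apply, hπι]
  have h4 := hx (ι y)
  rw [h1] at h4
  exact h4

/-- A reduced finite-dimensional commutative algebra over a field with separable residue fields
has nonzero discriminant with respect to any basis. -/
theorem discr_ne_zero_of_isReduced {ι : Type*} [Fintype ι] [DecidableEq ι]
    (hsep : ∀ m : Ideal T, m.IsMaximal → Algebra.IsSeparable κ (T ⧸ m))
    (b : Module.Basis ι κ T) : Algebra.discr κ b ≠ 0 := by
  rw [Algebra.discr_def, Algebra.traceMatrix_of_basis,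
    ← LinearMap.BilinForm.nondegenerate_iff_det_ne_zero]
  refine ⟨fun x hx => ?_, fun y hy => ?_⟩
  · exact eq_zero_of_forall_trace_mul_eq_zero hsep x fun y => by
      have := hx y
      rwa [Algebra.traceForm_apply] at this
  · exact eq_zero_of_forall_trace_mul_eq_zero hsep y fun x => by
      have := hy x
      rwa [Algebra.traceForm_apply, mul_comm] at this

omit [IsReduced T] in
/-- Over a perfect field the separability hypothesis is automatic. -/
theorem isSeparable_quotient_of_perfectField [PerfectField κ] (m : Ideal T) (hm : m.IsMaximal) :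
    Algebra.IsSeparable κ (T ⧸ m) := by
  letI := Ideal.Quotient.field m
  have : Algebra.IsAlgebraic κ (T ⧸ m) := Algebra.IsAlgebraic.of_finite κ (T ⧸ m)
  exact Algebra.IsAlgebraic.isSeparable_of_perfectField

theorem discr_ne_zero_of_isReduced_of_perfectField [PerfectField κ] {ι : Type*} [Fintype ι]
    [DecidableEq ι] (b : Module.Basis ι κ T) : Algebra.discr κ b ≠ 0 :=
  discr_ne_zero_of_isReduced (fun m hm => isSeparable_quotient_of_perfectField m hm) b

end P4field

section P4local

variable {R S : Type*} [CommRing R] [IsLocalRing R] [CommRing S] [Algebra R S]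

attribute [local instance] Ideal.Quotient.field

/-- The discriminant of a basis commutes with reduction modulo the maximal ideal. -/
theorem discr_basisQuotient [Module.Free R S] [Module.Finite R S] {ι : Type*} [Fintype ι]
    [DecidableEq ι] (b : Module.Basis ι R S) :
    Algebra.discr (R ⧸ maximalIdeal R) (basisQuotient b) =
      Ideal.Quotient.mk (maximalIdeal R) (Algebra.discr R b) := by
  rw [Algebra.discr_def, Algebra.discr_def, RingHom.map_det]
  refine congrArg Matrix.det ?_
  ext i j
  rw [Algebra.traceMatrix_apply, Algebra.traceForm_apply, basisQuotient_apply,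
    basisQuotient_apply, ← map_mul, Algebra.trace_quotient_mk, RingHom.mapMatrix_apply,
    Matrix.map_apply, Algebra.traceMatrix_apply, Algebra.traceForm_apply]

/-- **(P4)** Let `S` be a finite free algebra over a local ring `R` with basis `b`.  If the
special fibre `S/𝔪S` is reduced and its residue fields are separable over `R/𝔪`, then the
discriminant of `b` is a unit. -/
theorem isUnit_discr_of_isReduced_fiber [Module.Free R S] [Module.Finite R S] {ι : Type*}
    [Fintype ι] [DecidableEq ι] (b : Module.Basis ι R S)
    [IsReduced (S ⧸ (maximalIdeal R).map (algebraMap R S))]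
    (hsep : ∀ m : Ideal (S ⧸ (maximalIdeal R).map (algebraMap R S)), m.IsMaximal →
      Algebra.IsSeparable (R ⧸ maximalIdeal R) ((S ⧸ (maximalIdeal R).map (algebraMap R S)) ⧸ m)) :
    IsUnit (Algebra.discr R b) := by
  haveI : Module.Finite (R ⧸ maximalIdeal R) (S ⧸ (maximalIdeal R).map (algebraMap R S)) :=
    Module.Finite.of_basis (basisQuotient b)
  by_contra hu
  have hmem : Algebra.discr R b ∈ maximalIdeal R := (mem_maximalIdeal _).mpr hu
  have h0 : Algebra.discr (R ⧸ maximalIdeal R) (basisQuotient b) = 0 := by
    rw [discr_basisQuotient b, Ideal.Quotient.eq_zero_iff_mem]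
    exact hmem
  exact discr_ne_zero_of_isReduced hsep (basisQuotient b) h0

/-- **(P4)**, perfect residue field. -/
theorem isUnit_discr_of_isReduced_fiber_of_perfectField [Module.Free R S] [Module.Finite R S]
    {ι : Type*} [Fintype ι] [DecidableEq ι] (b : Module.Basis ι R S)
    [IsReduced (S ⧸ (maximalIdeal R).map (algebraMap R S))]
    [PerfectField (R ⧸ maximalIdeal R)] :
    IsUnit (Algebra.discr R b) := by
  haveI : Module.Finite (R ⧸ maximalIdeal R) (S ⧸ (maximalIdeal R).map (algebraMap R S)) :=
    Module.Finite.of_basis (basisQuotient b)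
  exact isUnit_discr_of_isReduced_fiber b
    (fun m hm => isSeparable_quotient_of_perfectField m hm)

end P4local

section P4loc

variable {R S : Type*} [CommRing R] [CommRing S] [Algebra R S] (q : Ideal R) [q.IsPrime]
  (Rq Sq : Type*) [CommRing Rq] [Algebra R Rq] [IsLocalization.AtPrime Rq q] [IsLocalRing Rq]
  [CommRing Sq] [Algebra S Sq] [IsLocalization (Algebra.algebraMapSubmonoid S q.primeCompl) Sq]
  [Algebra Rq Sq] [Algebra R Sq] [IsScalarTower R Rq Sq] [IsScalarTower R S Sq]

/-- **(P4), localized.**  Let `S` be a finite free `R`-algebra with basis `b` and `q` a prime of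
`R`.  If the fibre `S_q / q S_q` is reduced with residue fields separable over `κ(q)`, then the
discriminant of `b` does not lie in `q`. -/
theorem discr_not_mem_of_isReduced_fiber {ι : Type*} [Fintype ι] [DecidableEq ι]
    (b : Module.Basis ι R S)
    [IsReduced (Sq ⧸ (maximalIdeal Rq).map (algebraMap Rq Sq))]
    (hsep : ∀ m : Ideal (Sq ⧸ (maximalIdeal Rq).map (algebraMap Rq Sq)), m.IsMaximal →
      Algebra.IsSeparable (Rq ⧸ maximalIdeal Rq)
        ((Sq ⧸ (maximalIdeal Rq).map (algebraMap Rq Sq)) ⧸ m)) :
    Algebra.discr R b ∉ q := by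
  have hfree : Module.Free Rq Sq :=
    Module.Free.of_basis (b.localizationLocalization Rq q.primeCompl Sq)
  have hfin : Module.Finite Rq Sq :=
    Module.Finite.of_basis (b.localizationLocalization Rq q.primeCompl Sq)
  have hu := isUnit_discr_of_isReduced_fiber (b.localizationLocalization Rq q.primeCompl Sq) hsep
  rw [Algebra.discr_localizationLocalization R q.primeCompl Sq b] at hu
  intro hmem
  exact ((IsLocalization.AtPrime.isUnit_to_map_iff Rq q _).mp hu) hmem

attribute [local instance] Ideal.Quotient.field in
/-- **(P4), localized, residue characteristic zero** (the case of a horizontal prime). -/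
theorem discr_not_mem_of_isReduced_fiber_of_charZero {ι : Type*} [Fintype ι] [DecidableEq ι]
    (b : Module.Basis ι R S)
    [IsReduced (Sq ⧸ (maximalIdeal Rq).map (algebraMap Rq Sq))]
    [CharZero (Rq ⧸ maximalIdeal Rq)] :
    Algebra.discr R b ∉ q := by
  have hfree : Module.Free Rq Sq :=
    Module.Free.of_basis (b.localizationLocalization Rq q.primeCompl Sq)
  have hfin : Module.Finite Rq Sq :=
    Module.Finite.of_basis (b.localizationLocalization Rq q.primeCompl Sq)
  have hfin' : Module.Finite (Rq ⧸ maximalIdeal Rq)
      (Sq ⧸ (maximalIdeal Rq).map (algebraMap Rq Sq)) :=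
    Module.Finite.of_basis (basisQuotient (b.localizationLocalization Rq q.primeCompl Sq))
  exact discr_not_mem_of_isReduced_fiber q Rq Sq b
    (fun m hm => isSeparable_quotient_of_perfectField m hm)

end P4loc

section main

variable {R S : Type*} [CommRing R] [IsDomain R] [IsNoetherianRing R] [CommRing S] [Algebra R S]

/-- **Purity of the discriminant, assembled.**  `R` a noetherian domain in which `(π)` is a
nonzero prime, `S` a finite free `R`-algebra with basis `b`.  If the discriminant of `b` is not
divisible by `π` and lies in no height-one prime avoiding `π`, it is a unit. -/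
theorem isUnit_discr_of_vertical_of_horizontal {ι : Type*} [Fintype ι] [DecidableEq ι]
    (b : Module.Basis ι R S) (π : R) (hπ0 : π ≠ 0) (hπ : (Ideal.span {π}).IsPrime)
    (hV : ¬ π ∣ Algebra.discr R b)
    (hH : ∀ q : Ideal R, q.IsPrime → π ∉ q → q.height = 1 → Algebra.discr R b ∉ q) :
    IsUnit (Algebra.discr R b) :=
  isUnit_of_not_dvd_of_forall_horizontal π hπ0 hπ _ hV hH

end main

end Fermat.Agent.S18.H50
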