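/-
S18, node (PUR) (second seat), helper56.  Mathlib only.

* `linearIndependent_and_span_of_mod` : lifting a basis of `S/πS` over `R/π` to a basis of `S`
  over a noetherian local ring `R` (`π` in the maximal ideal, regular on the finite module `S`).
* `exists_basis_of_quotient_torsionFree` : if `R/π` is a PID and `S/πS` is torsion-free over it,
  then `S` is free over `R`, with a basis whose reduction is still independent.
* `isUnit_of_forall_height_one_not_mem` : an element of a noetherian domain which lies in no
  prime of height one is a unit (Krull's principal ideal theorem).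
* `isUnit_of_not_dvd_of_forall_height_one` : the same, split into the "vertical" prime `(π)`
  and the "horizontal" primes of height one not containing `π`.
-/
import Mathlib

set_option autoImplicit false

namespace Fermat.Agent.S18.H56

section Lift

variable {R : Type*} [CommRing R] [IsLocalRing R] [IsNoetherianRing R]
variable {S : Type*} [AddCommGroup S] [Module R S] [Module.Finite R S]

/-- (PUR1) Lifting a basis modulo `π`.  `hli` says that the images of the `b i` are linearly
independent in `S/πS` over `R/π`, `hsp` that they span `S/πS`. -/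
theorem linearIndependent_and_span_of_mod (π : R) (hπ : π ∈ IsLocalRing.maximalIdeal R)
    (hreg : ∀ s : S, π • s = 0 → s = 0) {ι : Type*} [Fintype ι] (b : ι → S)
    (hli : ∀ r : ι → R, (∃ t : S, ∑ i, r i • b i = π • t) → ∀ i, ∃ r' : R, r i = π * r')
    (hsp : ∀ s : S, ∃ (r : ι → R) (t : S), s = ∑ i, r i • b i + π • t) :
    LinearIndependent R b ∧ Submodule.span R (Set.range b) = ⊤ := by
  classical
  have hne : Ideal.span {π} ≠ ⊤ := by
    intro h
    have h1 : Ideal.span {π} ≤ IsLocalRing.maximalIdeal R :=
      (Ideal.span_singleton_le_iff_mem _).mpr hπ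
    rw [h] at h1
    exact (IsLocalRing.maximalIdeal.isMaximal R).ne_top (top_le_iff.mp h1)
  constructor
  · -- independence via the Krull intersection theorem
    have key : ∀ (k : ℕ) (r : ι → R), ∑ i, r i • b i = 0 → ∀ i, r i ∈ Ideal.span {π} ^ k := by
      intro k
      induction k with
      | zero => intro r _ i; simp
      | succ k ih =>
        intro r hr i
        have h1 := hli r ⟨0, by rw [hr, smul_zero]⟩
        choose r' hr' using h1
        have h2 : ∑ i, r' i • b i = 0 := by
          apply hreg
          rw [Finset.smul_sum, ← hr]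
          refine Finset.sum_congr rfl fun i _ => ?_
          rw [hr' i, mul_smul]
        have h3 := ih r' h2 i
        rw [hr' i, pow_succ']
        exact Ideal.mul_mem_mul (Ideal.mem_span_singleton_self π) h3
    rw [Fintype.linearIndependent_iff]
    intro r hr i
    have h1 : r i ∈ ⨅ k : ℕ, Ideal.span {π} ^ k :=
      (Ideal.mem_iInf).mpr fun k => key k r hr i
    rw [Ideal.iInf_pow_eq_bot_of_isLocalRing _ hne] at h1
    exact h1
  · -- spanning via Nakayama
    apply top_le_iff.mp
    apply Submodule.le_of_le_smul_of_le_jacobson_bot (I := Ideal.span {π})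
      (Module.Finite.fg_top)
    · rw [IsLocalRing.jacobson_eq_maximalIdeal ⊥ bot_ne_top]
      exact (Ideal.span_singleton_le_iff_mem _).mpr hπ
    · intro s _
      obtain ⟨r, t, rfl⟩ := hsp s
      refine Submodule.add_mem_sup ?_ ?_
      · exact Submodule.sum_mem _ fun i _ =>
          Submodule.smul_mem _ _ (Submodule.subset_span ⟨i, rfl⟩)
      · exact Submodule.smul_mem_smul (Ideal.mem_span_singleton_self π) Submodule.mem_top

/-- (PUR1') If `R/π` is a PID and `S/πS` is torsion-free over `R/π` (`htf`), then `S` is a free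
`R`-module; the basis can be chosen so that its reduction modulo `π` stays independent. -/
theorem exists_basis_of_quotient_torsionFree (π : R) (hπ : π ∈ IsLocalRing.maximalIdeal R)
    (hreg : ∀ s : S, π • s = 0 → s = 0)
    [IsDomain (R ⧸ Ideal.span {π})] [IsPrincipalIdealRing (R ⧸ Ideal.span {π})]
    (htf : ∀ (r : R) (s : S), (∃ t : S, r • s = π • t) →
      (∃ r' : R, r = π * r') ∨ ∃ s' : S, s = π • s') :
    ∃ (n : ℕ) (b : Module.Basis (Fin n) R S),
      (∀ r : Fin n → R, (∃ t : S, ∑ i, r i • b i = π • t) → ∀ i, ∃ r' : R, r i = π * r') ∧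
      (∀ s : S, ∃ (r : Fin n → R) (t : S), s = ∑ i, r i • b i + π • t) := by
  classical
  set I : Ideal R := Ideal.span {π} with hI
  set N : Submodule R S := I • ⊤ with hN
  have hmemN : ∀ x : S, x ∈ N ↔ ∃ t : S, x = π • t := by
    intro x
    rw [hN, hI, Submodule.ideal_span_singleton_smul, Submodule.mem_smul_pointwise_iff_exists]
    constructor
    · rintro ⟨t, _, rfl⟩; exact ⟨t, rfl⟩
    · rintro ⟨t, rfl⟩; exact ⟨t, Submodule.mem_top, rfl⟩
  have hmemI : ∀ r : R, r ∈ I ↔ ∃ r' : R, r = π * r' := by
    intro r
    rw [hI, Ideal.mem_span_singleton']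
    constructor
    · rintro ⟨a, rfl⟩; exact ⟨a, mul_comm _ _⟩
    · rintro ⟨a, rfl⟩; exact ⟨a, mul_comm _ _⟩
  -- the quotient module over the quotient ring
  have hfin : Module.Finite (R ⧸ I) (S ⧸ N) := by
    have : Module.Finite R (S ⧸ N) := inferInstance
    exact Module.Finite.of_restrictScalars_finite R (R ⧸ I) (S ⧸ N)
  have htfree : Module.IsTorsionFree (R ⧸ I) (S ⧸ N) := by
    refine ⟨fun r hr => ?_⟩
    have hr0 : r ≠ 0 := hr.ne_zero
    have hinj : ∀ x : S ⧸ N, r • x = 0 → x = 0 := by
      intro x hx
      obtain ⟨r₀, rfl⟩ := Ideal.Quotient.mk_surjective r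
      obtain ⟨s, rfl⟩ := Submodule.Quotient.mk_surjective N x
      have h1 : r₀ • s ∈ N := by
        have h2 : Submodule.Quotient.mk (p := N) (r₀ • s) = 0 := hx
        exact (Submodule.Quotient.mk_eq_zero N).mp h2
      rcases htf r₀ s ((hmemN _).mp h1) with h | h
      · exact absurd (Ideal.Quotient.eq_zero_iff_mem.mpr ((hmemI r₀).mpr h)) hr0
      · exact (Submodule.Quotient.mk_eq_zero N).mpr ((hmemN s).mpr h)
    intro x y hxy
    have h3 : r • (x - y) = 0 := by
      rw [smul_sub]; exact sub_eq_zero.mpr hxy
    exact sub_eq_zero.mp (hinj _ h3)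
  obtain ⟨n, bq⟩ : Σ n, Module.Basis (Fin n) (R ⧸ I) (S ⧸ N) :=
    Module.basisOfFiniteTypeTorsionFree'
  choose b hb using fun i => Submodule.Quotient.mk_surjective N (bq i)
  have hsum : ∀ r : Fin n → R,
      Submodule.Quotient.mk (p := N) (∑ i, r i • b i) =
        ∑ i, Ideal.Quotient.mk I (r i) • bq i := by
    intro r
    rw [← Submodule.mkQ_apply, map_sum]
    refine Finset.sum_congr rfl fun i _ => ?_
    rw [Submodule.mkQ_apply, ← hb i]
    rfl
  have hli : ∀ r : Fin n → R, (∃ t : S, ∑ i, r i • b i = π • t) →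
      ∀ i, ∃ r' : R, r i = π * r' := by
    intro r hr i
    have h1 : Submodule.Quotient.mk (p := N) (∑ i, r i • b i) = 0 :=
      (Submodule.Quotient.mk_eq_zero N).mpr ((hmemN _).mpr hr)
    rw [hsum] at h1
    have h2 := (Fintype.linearIndependent_iff.mp bq.linearIndependent) _ h1 i
    exact (hmemI _).mp (Ideal.Quotient.eq_zero_iff_mem.mp h2)
  have hsp : ∀ s : S, ∃ (r : Fin n → R) (t : S), s = ∑ i, r i • b i + π • t := by
    intro s
    choose r hr using fun i =>
      Ideal.Quotient.mk_surjective (bq.repr (Submodule.Quotient.mk (p := N) s) i)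
    have h1 : Submodule.Quotient.mk (p := N) (s - ∑ i, r i • b i) = 0 := by
      rw [Submodule.Quotient.mk_sub, hsum, sub_eq_zero]
      conv_lhs => rw [← bq.sum_repr (Submodule.Quotient.mk (p := N) s)]
      exact Finset.sum_congr rfl fun i _ => by rw [hr i]
    obtain ⟨t, ht⟩ := (hmemN _).mp ((Submodule.Quotient.mk_eq_zero N).mp h1)
    exact ⟨r, t, by rw [← ht]; abel⟩
  obtain ⟨h1, h2⟩ := linearIndependent_and_span_of_mod π hπ hreg b hli hsp
  refine ⟨n, Module.Basis.mk h1 h2.ge, ?_, ?_⟩
  · intro r hr i
    apply hli r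
    simpa using hr
  · intro s
    obtain ⟨r, t, hs⟩ := hsp s
    exact ⟨r, t, by simpa using hs⟩

end Lift

section Height

variable {R : Type*} [CommRing R] [IsDomain R] [IsNoetherianRing R]

/-- (PUR2) An element of a noetherian domain lying in no prime of height one is a unit. -/
theorem isUnit_of_forall_height_one_not_mem (d : R) (hd : d ≠ 0)
    (h : ∀ p : Ideal R, p.IsPrime → p.height = 1 → d ∉ p) : IsUnit d := by
  by_contra hnu
  have hne : Ideal.span {d} ≠ ⊤ := by rwa [Ne, Ideal.span_singleton_eq_top]
  obtain ⟨⟨p, hp⟩⟩ := Ideal.nonempty_minimalPrimes hne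
  have hprime : p.IsPrime := hp.1.1
  have hdp : d ∈ p := hp.1.2 (Ideal.mem_span_singleton_self d)
  have h1 : p.height ≤ 1 :=
    Ideal.height_le_one_of_isPrincipal_of_mem_minimalPrimes (Ideal.span {d}) p hp
  have h0 : p.height ≠ 0 := by
    rw [Ne, Ideal.height_eq_zero_iff_eq_bot]
    rintro rfl
    exact hd (by simpa using hdp)
  have h2 : p.height = 1 := le_antisymm h1 (Order.one_le_iff_pos.mpr (pos_iff_ne_zero.mpr h0))
  exact h p hprime h2 hdp

omit [IsNoetherianRing R] in
/-- (PUR3) A prime of height one containing a prime element `π` is `(π)`. -/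
theorem eq_span_singleton_of_height_one_of_mem {π : R} (hπ : Prime π) (p : Ideal R)
    [p.IsPrime] (hp : p.height = 1) (hmem : π ∈ p) : p = Ideal.span {π} :=
  Ideal.eq_span_singleton_of_height_eq_one hp hmem hπ

/-- (PUR2+3) Purity in the form used for the discriminant: `d ≠ 0` is a unit as soon as the
prime element `π` does not divide `d` ("vertical") and `d` lies in no height-one prime which
does not contain `π` ("horizontal"). -/
theorem isUnit_of_not_dvd_of_forall_height_one {π : R} (hπ : Prime π) (d : R) (hd : d ≠ 0)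
    (hv : ¬ π ∣ d)
    (hh : ∀ p : Ideal R, p.IsPrime → p.height = 1 → π ∉ p → d ∉ p) : IsUnit d := by
  refine isUnit_of_forall_height_one_not_mem d hd fun p hp hp1 hdp => ?_
  by_cases hπp : π ∈ p
  · have : p = Ideal.span {π} := eq_span_singleton_of_height_one_of_mem hπ p hp1 hπp
    rw [this, Ideal.mem_span_singleton] at hdp
    exact hv hdp
  · exact hh p hp hp1 hπp hdp

end Height

end Fermat.Agent.S18.H56
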