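/-
S18, node (REG-ADAPT), third file: the CONVERSE direction.

From the elementary regularity statement (REG) (`Reg B π` of `RegAdapt2_helper51`, literally the
`hreg` hypothesis of the Kummer core base step) back to "`B ⧸ (π)` is a Dedekind domain", for a
noetherian ring `B` in which `(π)` is prime.

* `isDedekindDomain_of_local_parameter`: quotient-free form (a noetherian domain in which every
  maximal ideal has a "local parameter" is Dedekind).
* `isDedekindDomain_of_reg`: the converse of `reg_of_isDedekindDomain`.

Mathlib only (+ the definition `Reg`).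
-/
import Mathlib
import Fermat.Agent.S18.RegAdapt2_helper51

set_option autoImplicit false

namespace Fermat.Agent.S18.H51

open Ideal

/-- In a domain with local parameters (in the sense below), every nonzero prime ideal is
maximal. -/
theorem isMaximal_of_local_parameter {C : Type*} [CommRing C] [IsDomain C]
    (h : ∀ P : Ideal C, P.IsMaximal → ∃ t ∈ P, ∀ c : C, c ≠ 0 →
      ∃ (e : ℕ) (d u : C), d ∉ P ∧ u ∉ P ∧ c * d = u * t ^ e)
    (p : Ideal C) (hp0 : p ≠ ⊥) (hpp : p.IsPrime) : p.IsMaximal := by
  obtain ⟨P, hP, hpP⟩ := Ideal.exists_le_maximal p hpp.ne_top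
  obtain ⟨t, -, ht⟩ := h P hP
  obtain ⟨c, hcp, hc0⟩ := (Submodule.ne_bot_iff p).mp hp0
  obtain ⟨e, d, u, -, hu, hcd⟩ := ht c hc0
  have htp : t ∈ p := by
    have h1 : u * t ^ e ∈ p := hcd ▸ p.mul_mem_right d hcp
    rcases hpp.mem_or_mem h1 with h2 | h2
    · exact absurd (hpP h2) hu
    · exact hpp.mem_of_pow_mem e h2
  have hPp : P ≤ p := by
    intro x hx
    by_cases hx0 : x = 0
    · rw [hx0]
      exact p.zero_mem
    obtain ⟨e', d', u', hd', hu', hxd⟩ := ht x hx0
    have he' : e' ≠ 0 := by
      rintro rfl
      rw [pow_zero, mul_one] at hxd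
      exact hu' (hxd ▸ P.mul_mem_right d' hx)
    have h1 : x * d' ∈ p := by
      rw [hxd]
      exact p.mul_mem_left u' (Ideal.pow_mem_of_mem p htp e' (Nat.pos_of_ne_zero he'))
    rcases hpp.mem_or_mem h1 with h2 | h2
    · exact h2
    · exact absurd (hpP h2) hd'
  have hpeq : p = P := le_antisymm hpP hPp
  rw [hpeq]
  exact hP

/-- **Quotient-free converse of `exists_local_parameter`.**  A noetherian domain in which every
maximal ideal `P` has a local parameter `t ∈ P` (every nonzero `c` satisfies `c * d = u * t ^ e`
with `d, u ∉ P`) is a Dedekind domain. -/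
theorem isDedekindDomain_of_local_parameter {C : Type*} [CommRing C] [IsDomain C]
    [IsNoetherianRing C]
    (h : ∀ P : Ideal C, P.IsMaximal → ∃ t ∈ P, ∀ c : C, c ≠ 0 →
      ∃ (e : ℕ) (d u : C), d ∉ P ∧ u ∉ P ∧ c * d = u * t ^ e) :
    IsDedekindDomain C := by
  have hdvr : IsDedekindDomainDvr C :=
    { is_dvr_at_nonzero_prime := by
        intro P hP0 hPp
        have hPmax : P.IsMaximal := isMaximal_of_local_parameter h P hP0 hPp
        obtain ⟨t, htP, ht⟩ := h P hPmax
        -- `t ≠ 0` because `P ≠ ⊥`
        have ht0 : t ≠ 0 := by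
          rintro rfl
          obtain ⟨c, hcP, hc0⟩ := (Submodule.ne_bot_iff P).mp hP0
          obtain ⟨e, d, u, hd, hu, hcd⟩ := ht c hc0
          rcases Nat.eq_zero_or_pos e with he | he
          · rw [he, pow_zero, mul_one] at hcd
            exact hu (hcd ▸ P.mul_mem_right d hcP)
          · rw [zero_pow he.ne', mul_zero] at hcd
            rcases mul_eq_zero.mp hcd with h1 | h1
            · exact hc0 h1
            · exact hd (h1 ▸ P.zero_mem)
        set S := Localization.AtPrime P
        have hinj : Function.Injective (algebraMap C S) :=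
          IsLocalization.injective S P.primeCompl_le_nonZeroDivisors
        have hunit : ∀ x : C, x ∉ P → IsUnit (algebraMap C S x) := fun x hx =>
          (IsLocalization.AtPrime.isUnit_to_map_iff S P x).2 hx
        have hτ0 : algebraMap C S t ≠ 0 := fun h0 => ht0 (hinj (by rw [h0, map_zero]))
        have hτnu : ¬ IsUnit (algebraMap C S t) := fun hu =>
          (IsLocalization.AtPrime.isUnit_to_map_iff S P t).1 hu htP
        -- every nonzero element is a unit times a power of `t`
        have hfact : ∀ x : S, x ≠ 0 → ∃ n : ℕ, Associated (algebraMap C S t ^ n) x := by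
          intro x hx
          obtain ⟨c, s, rfl⟩ := IsLocalization.exists_mk'_eq P.primeCompl x
          have hc0 : c ≠ 0 := by
            rintro rfl
            exact hx (IsLocalization.mk'_zero s)
          obtain ⟨e, d, u, hd, hu, hcd⟩ := ht c hc0
          obtain ⟨ud, hud⟩ := hunit d hd
          obtain ⟨uu, huu⟩ := hunit u hu
          obtain ⟨us, hus⟩ := hunit (s : C) s.2
          refine ⟨e, uu * ud⁻¹ * us⁻¹, ?_⟩
          have h1 : algebraMap C S c * algebraMap C S d
              = algebraMap C S u * algebraMap C S t ^ e := by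
            rw [← map_mul, hcd, map_mul, map_pow]
          have h2 : IsLocalization.mk' S c s * algebraMap C S (s : C) = algebraMap C S c :=
            IsLocalization.mk'_spec S c s
          have h3 : IsLocalization.mk' S c s = algebraMap C S c * ((us⁻¹ : Sˣ) : S) := by
            rw [← h2, ← hus, mul_assoc, Units.mul_inv, mul_one]
          have h4 : algebraMap C S c = algebraMap C S u * algebraMap C S t ^ e *
              ((ud⁻¹ : Sˣ) : S) := by
            rw [← h1, ← hud, mul_assoc, Units.mul_inv, mul_one]
          rw [h3, h4, ← huu]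
          push_cast
          ring
        have hirr : Irreducible (algebraMap C S t) := by
          refine ⟨hτnu, fun a b hab => ?_⟩
          have ha0 : a ≠ 0 := by
            rintro rfl
            rw [zero_mul] at hab
            exact hτ0 hab
          have hb0 : b ≠ 0 := by
            rintro rfl
            rw [mul_zero] at hab
            exact hτ0 hab
          obtain ⟨i, va, hva⟩ := hfact a ha0
          obtain ⟨k, vb, hvb⟩ := hfact b hb0
          rcases Nat.eq_zero_or_pos i with hi | hi
          · left
            rw [← hva, hi, pow_zero, one_mul]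
            exact va.isUnit
          rcases Nat.eq_zero_or_pos k with hk | hk
          · right
            rw [← hvb, hk, pow_zero, one_mul]
            exact vb.isUnit
          exfalso
          -- `t = t ^ (i + k) * unit` with `i + k ≥ 2` forces `t` to be a unit
          obtain ⟨n, hn⟩ : ∃ n : ℕ, i + k = n + 2 := ⟨i + k - 2, by omega⟩
          have h5 : algebraMap C S t * 1 = algebraMap C S t *
              (algebraMap C S t * (algebraMap C S t ^ n * ((va * vb : Sˣ) : S))) := by
            rw [mul_one]
            conv_lhs => rw [hab, ← hva, ← hvb]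
            have : algebraMap C S t ^ i * (va : S) * (algebraMap C S t ^ k * (vb : S))
                = algebraMap C S t ^ (i + k) * ((va * vb : Sˣ) : S) := by
              push_cast
              ring
            rw [this, hn]
            ring
          have h6 := mul_left_cancel₀ hτ0 h5
          exact hτnu (IsUnit.of_mul_eq_one _ h6.symm)
        exact IsDiscreteValuationRing.ofHasUnitMulPowIrreducibleFactorization
          ⟨algebraMap C S t, hirr, fun {x} hx => hfact x hx⟩ }
  exact IsDedekindDomainDvr.isDedekindDomain C

/-- **Converse of `reg_of_isDedekindDomain`.**  If `B` is noetherian, `(π)` is a prime ideal and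
the elementary regularity statement (REG) holds for `(B, π)`, then `B ⧸ (π)` is a Dedekind
domain. -/
theorem isDedekindDomain_of_reg {B : Type*} [CommRing B] [IsNoetherianRing B] (π : B)
    (hprime : (Ideal.span {π}).IsPrime) (hreg : Reg B π) :
    IsDedekindDomain (B ⧸ Ideal.span {π}) := by
  have := hprime
  set q := Ideal.Quotient.mk (Ideal.span {π}) with hq
  have hsurj : Function.Surjective q := Ideal.Quotient.mk_surjective
  apply isDedekindDomain_of_local_parameter
  intro P hP
  have hcm : (P.comap q).IsMaximal := Ideal.comap_isMaximal_of_surjective q hsurj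
  have hπ : π ∈ P.comap q := by
    show q π ∈ P
    have : q π = 0 := Ideal.Quotient.eq_zero_iff_mem.2 (Ideal.subset_span rfl)
    rw [this]
    exact P.zero_mem
  obtain ⟨τ, hτ, hloc⟩ := hreg (P.comap q) hcm hπ
  refine ⟨q τ, hτ, fun c hc => ?_⟩
  obtain ⟨a, rfl⟩ := hsurj c
  have ha : a ∉ Ideal.span {π} := fun h => hc (Ideal.Quotient.eq_zero_iff_mem.2 h)
  obtain ⟨e, d, u, hd, hu, hmem⟩ := hloc a ha
  refine ⟨e, q d, q u, hd, hu, ?_⟩
  have h0 : q (a * d - u * τ ^ e) = 0 := Ideal.Quotient.eq_zero_iff_mem.2 hmem
  rw [map_sub, map_mul, map_mul, map_pow, sub_eq_zero] at h0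
  exact h0

/-- The literal form for a chart presented as a subalgebra: if `(REG)` holds in the literal
shape of the base-step hypothesis, then the special fibre is Dedekind. -/
theorem isDedekindDomain_of_reg_subalgebra {A F : Type*} [CommRing A] [Field F] [Algebra A F]
    (π : A) (B : Subalgebra A F) [IsNoetherianRing B]
    (hprime : (Ideal.span {algebraMap A B π}).IsPrime)
    (hreg : ∀ n : Ideal B, n.IsMaximal → algebraMap A B π ∈ n →
      ∃ τ ∈ n, ∀ a : B, a ∉ Ideal.span {algebraMap A B π} →
        ∃ (e : ℕ) (d u : B), d ∉ n ∧ u ∉ n ∧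
          a * d - u * τ ^ e ∈ Ideal.span {algebraMap A B π}) :
    IsDedekindDomain (B ⧸ Ideal.span {algebraMap A B π}) :=
  isDedekindDomain_of_reg (algebraMap A B π) hprime hreg

end Fermat.Agent.S18.H51
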