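import Mathlib
import Fermat.Agent.S18.ModelChartsGen_helper35
import Fermat.Agent.S18.Coord_helper35
import Fermat.Agent.S18.HdivModel_helper74
import Fermat.Agent.S18.KC_helper8

/-!
# S18 (helper35): the frozen statement from `(REG)` at the six charts

`RegChart A K0 L x` is the regularity hypothesis `(REG)` of the generic Kummer core for the two
integral-closure charts `H97.chartU A₀ x`, `H97.chartV A₀ x` of the number-field model
(`A₀ = A ∩ K0`, `F₀ = K0(j(q^d) : d ∣ L)`), for every uniformiser of `A₀`.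

* `modelCharts_all` : `H60.ModelCharts A K0 L` for all data of the frozen statement, from
  `RegChart` at the coordinate `j` (`ℓ ≥ 5`), `t₂` (`ℓ = 3`, `2 ∣ L`), `t₃` (`ℓ = 2`, `3 ∣ L`).
* `result_of_reg` : the frozen statement S18 (literal signature) from these three families.
-/

set_option autoImplicit false
set_option linter.unusedSectionVars false
set_option linter.style.haveILetI false
set_option synthInstance.maxHeartbeats 400000

noncomputable section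

open HahnSeries ModularCurve Polynomial IntermediateField

namespace Fermat.Agent.S18.H35

section Model

variable (A : ValuationSubring (AlgebraicClosure ℚ))
  (K0 : IntermediateField ℚ (AlgebraicClosure ℚ)) (L : ℕ) [NeZero L]

attribute [local instance 2000] H60.algA0F0

/-- **(REG) at the two charts of the coordinate `x`**, for every uniformiser of `A₀ = A ∩ K0`
(the literal `hregU`, `hregV` of `H97.kc_charts`). -/
def RegChart (x : ↥(modularFunctionFieldFullC K0 L)) : Prop :=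
  ∀ π : ↥(H61.A0 A K0), Irreducible π →
    (∀ n : Ideal (H97.chartU ↥(H61.A0 A K0) x), n.IsMaximal →
      algebraMap ↥(H61.A0 A K0) (H97.chartU ↥(H61.A0 A K0) x) π ∈ n →
      ∃ τ ∈ n, ∀ a : H97.chartU ↥(H61.A0 A K0) x,
        a ∉ Ideal.span {algebraMap ↥(H61.A0 A K0) (H97.chartU ↥(H61.A0 A K0) x) π} →
        ∃ (e : ℕ) (d u : H97.chartU ↥(H61.A0 A K0) x), d ∉ n ∧ u ∉ n ∧
          a * d - u * τ ^ e ∈
            Ideal.span {algebraMap ↥(H61.A0 A K0) (H97.chartU ↥(H61.A0 A K0) x) π}) ∧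
    (∀ n : Ideal (H97.chartV ↥(H61.A0 A K0) x), n.IsMaximal →
      algebraMap ↥(H61.A0 A K0) (H97.chartV ↥(H61.A0 A K0) x) π ∈ n →
      ∃ τ ∈ n, ∀ a : H97.chartV ↥(H61.A0 A K0) x,
        a ∉ Ideal.span {algebraMap ↥(H61.A0 A K0) (H97.chartV ↥(H61.A0 A K0) x) π} →
        ∃ (e : ℕ) (d u : H97.chartV ↥(H61.A0 A K0) x), d ∉ n ∧ u ∉ n ∧
          a * d - u * τ ^ e ∈
            Ideal.span {algebraMap ↥(H61.A0 A K0) (H97.chartV ↥(H61.A0 A K0) x) π})

variable {A K0 L}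

set_option maxHeartbeats 1600000 in
/-- chart data at the coordinate `j`. -/
theorem modelCharts_j (hfin : FiniteDimensional ℚ K0) {ℓ : ℕ} [Fact ℓ.Prime]
    (hA : A.LiesOverPrime ℓ) (hℓL : ¬ ℓ ∣ L) (hreg : RegChart A K0 L (H93.jFullC K0 L)) :
    H60.ModelCharts A K0 L :=
  modelCharts_of_coord A K0 L hfin hA hℓL (H93.jFullC K0 L)
    (jqModC ↥(H61.A0 A K0)) (S28.H36.jInv ↥(H61.A0 A K0))
    (coe_jFullC_eq_iota ↥K0 L (H61.A0 A K0)) (coe_jFullC_inv_eq_iota ↥K0 L (H61.A0 A K0))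
    (transcendental_red_j ↥K0 (H61.A0 A K0)) (transcendental_red_jInv ↥K0 (H61.A0 A K0))
    (jFullC_mem_adjoin_self ↥K0 L) (transcendental_jFullC ↥K0 L) hreg

set_option maxHeartbeats 1600000 in
/-- chart data at the coordinate `t₂`. -/
theorem modelCharts_two (hfin : FiniteDimensional ℚ K0) {ℓ : ℕ} [Fact ℓ.Prime]
    (hA : A.LiesOverPrime ℓ) (hℓL : ¬ ℓ ∣ L) (hL : 2 ∣ L)
    (hreg : RegChart A K0 L (t2 ↥K0 L hL)) : H60.ModelCharts A K0 L := by
  refine modelCharts_of_coord A K0 L hfin hA hℓL (t2 ↥K0 L hL)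
    (H69.haupt2 ↥(H61.A0 A K0)) (H69.haupt2Inv ↥(H61.A0 A K0))
    (coe_t2_eq_iota ↥K0 L (H61.A0 A K0) hL) ?_
    (transcendental_red_t2 ↥K0 (H61.A0 A K0)) (transcendental_red_t2inv ↥K0 (H61.A0 A K0))
    (jFullC_mem_adjoin_t2 ↥K0 L hL) (transcendental_t2 ↥K0 L hL) hreg
  rw [← t2inv_eq_inv]
  exact coe_t2inv_eq_iota ↥K0 L (H61.A0 A K0) hL

set_option maxHeartbeats 1600000 in
/-- chart data at the coordinate `t₃`. -/
theorem modelCharts_three (hfin : FiniteDimensional ℚ K0) {ℓ : ℕ} [Fact ℓ.Prime]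
    (hA : A.LiesOverPrime ℓ) (hℓL : ¬ ℓ ∣ L) (hL : 3 ∣ L)
    (hreg : RegChart A K0 L (t3 ↥K0 L hL)) : H60.ModelCharts A K0 L := by
  refine modelCharts_of_coord A K0 L hfin hA hℓL (t3 ↥K0 L hL)
    (H69.haupt3 ↥(H61.A0 A K0)) (H69.haupt3Inv ↥(H61.A0 A K0))
    (coe_t3_eq_iota ↥K0 L (H61.A0 A K0) hL) ?_
    (transcendental_red_t3 ↥K0 (H61.A0 A K0)) (transcendental_red_t3inv ↥K0 (H61.A0 A K0))
    (jFullC_mem_adjoin_t3 ↥K0 L hL) (transcendental_t3 ↥K0 L hL) hreg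
  rw [← t3inv_eq_inv]
  exact coe_t3inv_eq_iota ↥K0 L (H61.A0 A K0) hL

end Model

/-- **(REG-MODEL), `ℓ ≥ 5`**: the two charts of the `j`-line. -/
def RegModelJ : Prop :=
  ∀ (L : ℕ) [NeZero L] (ℓ : ℕ) [Fact ℓ.Prime], ¬ ℓ ∣ L → ℓ ≠ 2 → ℓ ≠ 3 →
    ∀ A : ValuationSubring (AlgebraicClosure ℚ), A.LiesOverPrime ℓ →
      ∀ K0 : IntermediateField ℚ (AlgebraicClosure ℚ), FiniteDimensional ℚ K0 →
        RegChart A K0 L (H93.jFullC K0 L)

/-- **(REG-MODEL), `ℓ = 3`**: the two charts of the `t₂`-line (`2 ∣ L`, `3 ∤ L`). -/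
def RegModelTwo : Prop :=
  ∀ (L : ℕ) [NeZero L] (hL : 2 ∣ L), ¬ 3 ∣ L →
    ∀ A : ValuationSubring (AlgebraicClosure ℚ), A.LiesOverPrime 3 →
      ∀ K0 : IntermediateField ℚ (AlgebraicClosure ℚ), FiniteDimensional ℚ K0 →
        RegChart A K0 L (t2 ↥K0 L hL)

/-- **(REG-MODEL), `ℓ = 2`**: the two charts of the `t₃`-line (`3 ∣ L`, `2 ∤ L`). -/
def RegModelThree : Prop :=
  ∀ (L : ℕ) [NeZero L] (hL : 3 ∣ L), ¬ 2 ∣ L →
    ∀ A : ValuationSubring (AlgebraicClosure ℚ), A.LiesOverPrime 2 →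
      ∀ K0 : IntermediateField ℚ (AlgebraicClosure ℚ), FiniteDimensional ℚ K0 →
        RegChart A K0 L (t3 ↥K0 L hL)

/-- **Chart data for all models** (the `hCh` argument of `H60.result_of_charts`), from
`(REG-MODEL)` at the three coordinates. -/
theorem modelCharts_all (hJ : RegModelJ) (h2 : RegModelTwo) (h3 : RegModelThree)
    (L : ℕ) [NeZero L] (ℓ : ℕ) [Fact ℓ.Prime] (hℓL : ¬ ℓ ∣ L) (haux : H16.auxM ℓ ∣ L)
    (A : ValuationSubring (AlgebraicClosure ℚ)) (hA : A.LiesOverPrime ℓ) :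
    ∃ C : Finset (AlgebraicClosure ℚ),
      ∀ K0 : IntermediateField ℚ (AlgebraicClosure ℚ), FiniteDimensional ℚ K0 →
        (∀ c ∈ C, c ∈ K0) → H60.ModelCharts A K0 L := by
  refine ⟨∅, fun K0 hfin _ => ?_⟩
  by_cases hℓ2 : ℓ = 2
  · subst hℓ2
    have hL : 3 ∣ L := by rwa [H16.auxM_two] at haux
    exact modelCharts_three hfin hA hℓL hL (h3 L hL hℓL A hA K0 hfin)
  by_cases hℓ3 : ℓ = 3
  · subst hℓ3
    have hL : 2 ∣ L := by rwa [H16.auxM_three] at haux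
    exact modelCharts_two hfin hA hℓL hL (h2 L hL hℓL A hA K0 hfin)
  · exact modelCharts_j hfin hA hℓL (hJ L ℓ hℓL hℓ2 hℓ3 A hA K0 hfin)

/-- **The frozen statement S18 from `(REG-MODEL)`** (literal frozen signature). -/
theorem result_of_reg (hJ : RegModelJ) (h2 : RegModelTwo) (h3 : RegModelThree)
    (N : ℕ) [NeZero N] {ℓ : ℕ}
    [Fact ℓ.Prime] (hℓN : ¬ ℓ ∣ N) (A : ValuationSubring (AlgebraicClosure ℚ))
    (hA : A.LiesOverPrime ℓ)
    (h : ModularCurve.ReductionInputsModL A N) (m : ℕ) (hm : ¬ ℓ ∣ m) (z : ModularCurve.JZero N)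
    (hmz : m • z = 0) (hz : ModularCurve.reductionModL A N z = 0) :
    z = 0 :=
  H60.result_of_charts H08.stmtKC
    (fun L _ ℓ' _ hℓL haux A' hA' => modelCharts_all hJ h2 h3 L ℓ' hℓL haux A' hA')
    (fun A' K0 L _ m' hfin => H74.hdivModel_all A' K0 L m' hfin) N hℓN A hA h m hm z hmz hz

end Fermat.Agent.S18.H35
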