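import Mathlib
import Fermat.Agent.S18.TopReg_helper35
import Fermat.Agent.S18.RegFull_helper68
import Fermat.Agent.S18.SqfreeStd_helper51
import Fermat.Agent.S18.BranchModel_helper10
import Fermat.Agent.S18.PerfectRes_helper63

/-!
# S18 (helper35): `(REG)` at the six charts of the number-field model

The three Props `RegModelJ`, `RegModelTwo`, `RegModelThree` of `TopReg_helper35`, from
`H68.reg_chartU_full` / `H68.reg_chartV_full` (Gauss chart + separability + `(NC)`), the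
standard branch polynomials (`H51` squarefree reductions, `H10.isRadical_model_*_std`) and the
coordinate facts of `Coord_helper35`.
-/

set_option autoImplicit false
set_option linter.unusedSectionVars false
set_option linter.style.haveILetI false
set_option synthInstance.maxHeartbeats 400000

noncomputable section

open ModularCurve Polynomial IntermediateField

namespace Fermat.Agent.S18.H35

/-- `theta` of an inverse is nonzero. -/
theorem theta_ne_zero_of_mul_eq_one {k : Type*} [Field k] {x y : LaurentSeries k}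
    (h : x * y = 1) (hx : H85.theta x ≠ 0) : H85.theta y ≠ 0 := by
  intro hy
  have h1 : H85.theta (x * y) = 0 := by
    rw [h]
    exact Derivation.map_one_eq_zero _
  rw [Derivation.leibniz, hy, smul_zero, zero_add, smul_eq_mul] at h1
  have hy0 : y ≠ 0 := right_ne_zero_of_mul_eq_one h
  exact hx ((mul_eq_zero.mp h1).resolve_left hy0)

section Gen

variable (K0 : Type) [Field K0] [Algebra K0 (AlgebraicClosure ℚ)]
  [Algebra.IsAlgebraic K0 (AlgebraicClosure ℚ)] [CharZero K0]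
  (A0 : ValuationSubring K0) [IsDiscreteValuationRing A0]
  (ℓ : ℕ) [Fact ℓ.Prime] [CharP (IsLocalRing.ResidueField A0) ℓ]
  [PerfectField (IsLocalRing.ResidueField A0)]
  (L : ℕ) [NeZero L] (hℓL : ¬ ℓ ∣ L)

local notation "F0" => modularFunctionFieldFullC K0 L

/-! ### the `j`-line -/

include hℓL in
set_option maxHeartbeats 1600000 in
/-- `(REG)` for the finite chart of the `j`-line. -/
theorem regU_j {π : ↥A0} (hπ : Irreducible π) (h2 : ℓ ≠ 2) (h3 : ℓ ≠ 3) :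
    ∀ n : Ideal (H97.chartU ↥A0 (H93.jFullC K0 L)), n.IsMaximal →
      algebraMap ↥A0 (H97.chartU ↥A0 (H93.jFullC K0 L)) π ∈ n →
      ∃ τ ∈ n, ∀ a : H97.chartU ↥A0 (H93.jFullC K0 L),
        a ∉ Ideal.span {algebraMap ↥A0 (H97.chartU ↥A0 (H93.jFullC K0 L)) π} →
        ∃ (e : ℕ) (d u : H97.chartU ↥A0 (H93.jFullC K0 L)), d ∉ n ∧ u ∉ n ∧
          a * d - u * τ ^ e ∈
            Ideal.span {algebraMap ↥A0 (H97.chartU ↥A0 (H93.jFullC K0 L)) π} := by
  letI : Algebra K0[X] ↥F0 :=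
    (Polynomial.aeval (H93.jFullC K0 L) : K0[X] →ₐ[K0] ↥F0).toRingHom.toAlgebra
  haveI : FiniteDimensional K0⟮H93.jFullC K0 L⟯ ↥F0 :=
    finiteDimensional_adjoin_jFullC (A0 := A0) ℓ hℓL
  have hℓ : ℓ.Prime := Fact.out
  refine H68.reg_chartU_full K0 L A0 ℓ hℓL hπ (H93.jFullC K0 L) (jqModC ↥A0)
    (coe_jFullC_eq_iota K0 L A0) ?_ (jFullC_mem_adjoin_self K0 L) (transcendental_jFullC K0 L)
    (fun p => rfl) (X * (X - C 1728)) (H51.squarefree_std_j_dvr ℓ hπ hℓ h2 h3) ?_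
  · rw [show H93.redA A0 (jqModC ↥A0) = jqModC _ from coeffMap_jqModC _]
    exact H85.theta_ne_zero_of_coeff_neg_one _ (coeff_jqModC_neg_one _)
  · intro p hp hPip
    rw [Polynomial.map_mul, Polynomial.map_X, Polynomial.map_sub, Polynomial.map_X,
      Polynomial.map_C, map_ofNat] at hPip
    exact H10.isRadical_model_j_std K0 L (H93.jFullC K0 L) rfl (fun q => rfl) p hp hPip

include hℓL in
set_option maxHeartbeats 1600000 in
/-- `(REG)` for the chart at infinity of the `j`-line. -/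
theorem regV_j {π : ↥A0} (hπ : Irreducible π) (h2 : ℓ ≠ 2) (h3 : ℓ ≠ 3) :
    ∀ n : Ideal (H97.chartV ↥A0 (H93.jFullC K0 L)), n.IsMaximal →
      algebraMap ↥A0 (H97.chartV ↥A0 (H93.jFullC K0 L)) π ∈ n →
      ∃ τ ∈ n, ∀ a : H97.chartV ↥A0 (H93.jFullC K0 L),
        a ∉ Ideal.span {algebraMap ↥A0 (H97.chartV ↥A0 (H93.jFullC K0 L)) π} →
        ∃ (e : ℕ) (d u : H97.chartV ↥A0 (H93.jFullC K0 L)), d ∉ n ∧ u ∉ n ∧
          a * d - u * τ ^ e ∈
            Ideal.span {algebraMap ↥A0 (H97.chartV ↥A0 (H93.jFullC K0 L)) π} := by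
  letI : Algebra K0[X] ↥F0 :=
    (Polynomial.aeval (H93.jFullC K0 L)⁻¹ : K0[X] →ₐ[K0] ↥F0).toRingHom.toAlgebra
  haveI : FiniteDimensional K0⟮H93.jFullC K0 L⟯ ↥F0 :=
    finiteDimensional_adjoin_jFullC (A0 := A0) ℓ hℓL
  have hℓ : ℓ.Prime := Fact.out
  refine H68.reg_chartV_full K0 L A0 ℓ hℓL hπ (H93.jFullC K0 L) (S28.H36.jInv ↥A0)
    (coe_jFullC_inv_eq_iota K0 L A0) ?_ (jFullC_mem_adjoin_self K0 L)
    (transcendental_jFullC K0 L) (fun p => rfl) (X * (C 1728 * X - 1))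
    (H51.squarefree_std_j_inv_dvr ℓ hπ hℓ h2 h3) ?_
  · rw [show H93.redA A0 (S28.H36.jInv ↥A0) = S28.H36.jInv _ from S28.H36.coeffMap_jInv _]
    exact theta_ne_zero_of_mul_eq_one (S28.H36.jqModC_mul_jInv _)
      (H85.theta_ne_zero_of_coeff_neg_one _ (coeff_jqModC_neg_one _))
  · intro p hp hPip
    rw [Polynomial.map_mul, Polynomial.map_X, Polynomial.map_sub, Polynomial.map_mul,
      Polynomial.map_X, Polynomial.map_C, map_ofNat, Polynomial.map_one] at hPip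
    have hxi : (((H93.jFullC K0 L)⁻¹ : ↥F0) : LaurentSeries K0) * jqModC K0 = 1 := by
      rw [IntermediateField.coe_inv]
      exact inv_mul_cancel₀ (jqModC_ne_zero_of_nontrivial K0)
    exact H10.isRadical_model_j_inv_std K0 L (H93.jFullC K0 L)⁻¹ hxi (fun q => rfl) p hp hPip

/-! ### the `t₂`-line -/

include hℓL in
set_option maxHeartbeats 1600000 in
/-- `(REG)` for the finite chart of the `t₂`-line. -/
theorem regU_two (hL : 2 ∣ L) {π : ↥A0} (hπ : Irreducible π) (h2 : ℓ ≠ 2) :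
    ∀ n : Ideal (H97.chartU ↥A0 (t2 K0 L hL)), n.IsMaximal →
      algebraMap ↥A0 (H97.chartU ↥A0 (t2 K0 L hL)) π ∈ n →
      ∃ τ ∈ n, ∀ a : H97.chartU ↥A0 (t2 K0 L hL),
        a ∉ Ideal.span {algebraMap ↥A0 (H97.chartU ↥A0 (t2 K0 L hL)) π} →
        ∃ (e : ℕ) (d u : H97.chartU ↥A0 (t2 K0 L hL)), d ∉ n ∧ u ∉ n ∧
          a * d - u * τ ^ e ∈
            Ideal.span {algebraMap ↥A0 (H97.chartU ↥A0 (t2 K0 L hL)) π} := by
  letI : Algebra K0[X] ↥F0 :=
    (Polynomial.aeval (t2 K0 L hL) : K0[X] →ₐ[K0] ↥F0).toRingHom.toAlgebra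
  haveI : FiniteDimensional K0⟮t2 K0 L hL⟯ ↥F0 :=
    finiteDimensional_adjoin_coord (A0 := A0) ℓ hℓL _ (jFullC_mem_adjoin_t2 K0 L hL)
  have hℓ : ℓ.Prime := Fact.out
  refine H68.reg_chartU_full K0 L A0 ℓ hℓL hπ (t2 K0 L hL) (H69.haupt2 ↥A0)
    (coe_t2_eq_iota K0 L A0 hL) ?_ (jFullC_mem_adjoin_t2 K0 L hL) (transcendental_t2 K0 L hL)
    (fun p => rfl) (X * (X + C 64)) (H51.squarefree_std_two_dvr ℓ hπ hℓ h2) ?_
  · rw [show H93.redA A0 (H69.haupt2 ↥A0) = H69.haupt2 _ from H69.coeffMap_haupt2 _]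
    exact H85.theta_ne_zero_of_coeff_neg_one _ (H69.coeff_haupt2_neg_one _)
  · intro p hp hPip
    rw [Polynomial.map_mul, Polynomial.map_X, Polynomial.map_add, Polynomial.map_X,
      Polynomial.map_C, map_ofNat] at hPip
    exact H10.isRadical_model_two_std K0 L (t2 K0 L hL) rfl (fun q => rfl) p hp hPip

include hℓL in
set_option maxHeartbeats 1600000 in
/-- `(REG)` for the chart at infinity of the `t₂`-line. -/
theorem regV_two (hL : 2 ∣ L) {π : ↥A0} (hπ : Irreducible π) (h2 : ℓ ≠ 2) :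
    ∀ n : Ideal (H97.chartV ↥A0 (t2 K0 L hL)), n.IsMaximal →
      algebraMap ↥A0 (H97.chartV ↥A0 (t2 K0 L hL)) π ∈ n →
      ∃ τ ∈ n, ∀ a : H97.chartV ↥A0 (t2 K0 L hL),
        a ∉ Ideal.span {algebraMap ↥A0 (H97.chartV ↥A0 (t2 K0 L hL)) π} →
        ∃ (e : ℕ) (d u : H97.chartV ↥A0 (t2 K0 L hL)), d ∉ n ∧ u ∉ n ∧
          a * d - u * τ ^ e ∈
            Ideal.span {algebraMap ↥A0 (H97.chartV ↥A0 (t2 K0 L hL)) π} := by
  letI : Algebra K0[X] ↥F0 :=
    (Polynomial.aeval (t2 K0 L hL)⁻¹ : K0[X] →ₐ[K0] ↥F0).toRingHom.toAlgebra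
  haveI : FiniteDimensional K0⟮t2 K0 L hL⟯ ↥F0 :=
    finiteDimensional_adjoin_coord (A0 := A0) ℓ hℓL _ (jFullC_mem_adjoin_t2 K0 L hL)
  have hℓ : ℓ.Prime := Fact.out
  have hxA' : (((t2 K0 L hL)⁻¹ : ↥F0) : LaurentSeries K0) =
      H93.iotaA A0 (H69.haupt2Inv ↥A0) := by
    rw [← t2inv_eq_inv]
    exact coe_t2inv_eq_iota K0 L A0 hL
  refine H68.reg_chartV_full K0 L A0 ℓ hℓL hπ (t2 K0 L hL) (H69.haupt2Inv ↥A0)
    hxA' ?_ (jFullC_mem_adjoin_t2 K0 L hL) (transcendental_t2 K0 L hL) (fun p => rfl)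
    (X * (C 64 * X + 1)) (H51.squarefree_std_two_inv_dvr ℓ hπ hℓ h2) ?_
  · rw [show H93.redA A0 (H69.haupt2Inv ↥A0) = H69.haupt2Inv _ from H69.coeffMap_haupt2Inv _]
    exact theta_ne_zero_of_mul_eq_one (H69.haupt2_mul_inv _)
      (H85.theta_ne_zero_of_coeff_neg_one _ (H69.coeff_haupt2_neg_one _))
  · intro p hp hPip
    rw [Polynomial.map_mul, Polynomial.map_X, Polynomial.map_add, Polynomial.map_mul,
      Polynomial.map_X, Polynomial.map_C, map_ofNat, Polynomial.map_one] at hPip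
    have hxi : (((t2 K0 L hL)⁻¹ : ↥F0) : LaurentSeries K0) = H69.haupt2Inv K0 := by
      rw [← t2inv_eq_inv]
      rfl
    exact H10.isRadical_model_two_inv_std K0 L (t2 K0 L hL)⁻¹ hxi (fun q => rfl) p hp hPip

/-! ### the `t₃`-line -/

include hℓL in
set_option maxHeartbeats 1600000 in
/-- `(REG)` for the finite chart of the `t₃`-line. -/
theorem regU_three (hL : 3 ∣ L) {π : ↥A0} (hπ : Irreducible π) (h3 : ℓ ≠ 3) :
    ∀ n : Ideal (H97.chartU ↥A0 (t3 K0 L hL)), n.IsMaximal →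
      algebraMap ↥A0 (H97.chartU ↥A0 (t3 K0 L hL)) π ∈ n →
      ∃ τ ∈ n, ∀ a : H97.chartU ↥A0 (t3 K0 L hL),
        a ∉ Ideal.span {algebraMap ↥A0 (H97.chartU ↥A0 (t3 K0 L hL)) π} →
        ∃ (e : ℕ) (d u : H97.chartU ↥A0 (t3 K0 L hL)), d ∉ n ∧ u ∉ n ∧
          a * d - u * τ ^ e ∈
            Ideal.span {algebraMap ↥A0 (H97.chartU ↥A0 (t3 K0 L hL)) π} := by
  letI : Algebra K0[X] ↥F0 :=
    (Polynomial.aeval (t3 K0 L hL) : K0[X] →ₐ[K0] ↥F0).toRingHom.toAlgebra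
  haveI : FiniteDimensional K0⟮t3 K0 L hL⟯ ↥F0 :=
    finiteDimensional_adjoin_coord (A0 := A0) ℓ hℓL _ (jFullC_mem_adjoin_t3 K0 L hL)
  have hℓ : ℓ.Prime := Fact.out
  refine H68.reg_chartU_full K0 L A0 ℓ hℓL hπ (t3 K0 L hL) (H69.haupt3 ↥A0)
    (coe_t3_eq_iota K0 L A0 hL) ?_ (jFullC_mem_adjoin_t3 K0 L hL) (transcendental_t3 K0 L hL)
    (fun p => rfl) (X * (X + C 27)) (H51.squarefree_std_three_dvr ℓ hπ hℓ h3) ?_
  · rw [show H93.redA A0 (H69.haupt3 ↥A0) = H69.haupt3 _ from H69.coeffMap_haupt3 _]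
    exact H85.theta_ne_zero_of_coeff_neg_one _ (H69.coeff_haupt3_neg_one _)
  · intro p hp hPip
    rw [Polynomial.map_mul, Polynomial.map_X, Polynomial.map_add, Polynomial.map_X,
      Polynomial.map_C, map_ofNat] at hPip
    exact H10.isRadical_model_three_std K0 L (t3 K0 L hL) rfl (fun q => rfl) p hp hPip

include hℓL in
set_option maxHeartbeats 1600000 in
/-- `(REG)` for the chart at infinity of the `t₃`-line. -/
theorem regV_three (hL : 3 ∣ L) {π : ↥A0} (hπ : Irreducible π) (h3 : ℓ ≠ 3) :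
    ∀ n : Ideal (H97.chartV ↥A0 (t3 K0 L hL)), n.IsMaximal →
      algebraMap ↥A0 (H97.chartV ↥A0 (t3 K0 L hL)) π ∈ n →
      ∃ τ ∈ n, ∀ a : H97.chartV ↥A0 (t3 K0 L hL),
        a ∉ Ideal.span {algebraMap ↥A0 (H97.chartV ↥A0 (t3 K0 L hL)) π} →
        ∃ (e : ℕ) (d u : H97.chartV ↥A0 (t3 K0 L hL)), d ∉ n ∧ u ∉ n ∧
          a * d - u * τ ^ e ∈
            Ideal.span {algebraMap ↥A0 (H97.chartV ↥A0 (t3 K0 L hL)) π} := by
  letI : Algebra K0[X] ↥F0 :=
    (Polynomial.aeval (t3 K0 L hL)⁻¹ : K0[X] →ₐ[K0] ↥F0).toRingHom.toAlgebra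
  haveI : FiniteDimensional K0⟮t3 K0 L hL⟯ ↥F0 :=
    finiteDimensional_adjoin_coord (A0 := A0) ℓ hℓL _ (jFullC_mem_adjoin_t3 K0 L hL)
  have hℓ : ℓ.Prime := Fact.out
  have hxA' : (((t3 K0 L hL)⁻¹ : ↥F0) : LaurentSeries K0) =
      H93.iotaA A0 (H69.haupt3Inv ↥A0) := by
    rw [← t3inv_eq_inv]
    exact coe_t3inv_eq_iota K0 L A0 hL
  refine H68.reg_chartV_full K0 L A0 ℓ hℓL hπ (t3 K0 L hL) (H69.haupt3Inv ↥A0)
    hxA' ?_ (jFullC_mem_adjoin_t3 K0 L hL) (transcendental_t3 K0 L hL) (fun p => rfl)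
    (X * (C 27 * X + 1)) (H51.squarefree_std_three_inv_dvr ℓ hπ hℓ h3) ?_
  · rw [show H93.redA A0 (H69.haupt3Inv ↥A0) = H69.haupt3Inv _ from H69.coeffMap_haupt3Inv _]
    exact theta_ne_zero_of_mul_eq_one (H69.haupt3_mul_inv _)
      (H85.theta_ne_zero_of_coeff_neg_one _ (H69.coeff_haupt3_neg_one _))
  · intro p hp hPip
    rw [Polynomial.map_mul, Polynomial.map_X, Polynomial.map_add, Polynomial.map_mul,
      Polynomial.map_X, Polynomial.map_C, map_ofNat, Polynomial.map_one] at hPip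
    have hxi : (((t3 K0 L hL)⁻¹ : ↥F0) : LaurentSeries K0) = H69.haupt3Inv K0 := by
      rw [← t3inv_eq_inv]
      rfl
    exact H10.isRadical_model_three_inv_std K0 L (t3 K0 L hL)⁻¹ hxi (fun q => rfl) p hp hPip

end Gen

/-! ### the number-field model -/

section Model

attribute [local instance 2000] H60.algA0F0

/-- `ℚ̄` is algebraic over every intermediate field of `ℚ̄ / ℚ`. -/
theorem isAlgebraic_Qbar (K0 : IntermediateField ℚ (AlgebraicClosure ℚ)) :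
    Algebra.IsAlgebraic ↥K0 (AlgebraicClosure ℚ) := by
  haveI : Algebra.IsAlgebraic ℚ (AlgebraicClosure ℚ) := AlgebraicClosure.isAlgebraic ℚ
  exact Algebra.IsAlgebraic.tower_top (K := ℚ) ↥K0

set_option maxHeartbeats 1600000 in
/-- **(REG-MODEL) for the `j`-line**, `ℓ ≥ 5`. -/
theorem regModelJ : RegModelJ := by
  intro L _ ℓ _ hℓL h2 h3 A hA K0 hfin π hπ
  have hℓ : ℓ.Prime := Fact.out
  haveI := hfin
  haveI : IsDiscreteValuationRing ↥(H61.A0 A K0) := H86.isDiscreteValuationRing_A0 A K0 hℓ hA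
  haveI : CharP (IsLocalRing.ResidueField ↥(H61.A0 A K0)) ℓ :=
    H86.charP_residueField_A0 A K0 hℓ hA
  haveI : PerfectField (IsLocalRing.ResidueField ↥(H61.A0 A K0)) :=
    H63.perfectField_residueField_A0 A K0 hℓ hA
  haveI : Algebra.IsAlgebraic ↥K0 (AlgebraicClosure ℚ) := isAlgebraic_Qbar K0
  exact ⟨regU_j ↥K0 (H61.A0 A K0) ℓ L hℓL hπ h2 h3, regV_j ↥K0 (H61.A0 A K0) ℓ L hℓL hπ h2 h3⟩

set_option maxHeartbeats 1600000 in
/-- **(REG-MODEL) for the `t₂`-line**, `ℓ = 3`. -/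
theorem regModelTwo : RegModelTwo := by
  intro L _ hL hℓL A hA K0 hfin π hπ
  have hℓ : (3 : ℕ).Prime := Nat.prime_three
  haveI : Fact (3 : ℕ).Prime := ⟨hℓ⟩
  haveI := hfin
  haveI : IsDiscreteValuationRing ↥(H61.A0 A K0) := H86.isDiscreteValuationRing_A0 A K0 hℓ hA
  haveI : CharP (IsLocalRing.ResidueField ↥(H61.A0 A K0)) 3 :=
    H86.charP_residueField_A0 A K0 hℓ hA
  haveI : PerfectField (IsLocalRing.ResidueField ↥(H61.A0 A K0)) :=
    H63.perfectField_residueField_A0 A K0 hℓ hA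
  haveI : Algebra.IsAlgebraic ↥K0 (AlgebraicClosure ℚ) := isAlgebraic_Qbar K0
  exact ⟨regU_two ↥K0 (H61.A0 A K0) 3 L hℓL hL hπ (by norm_num),
    regV_two ↥K0 (H61.A0 A K0) 3 L hℓL hL hπ (by norm_num)⟩

set_option maxHeartbeats 1600000 in
/-- **(REG-MODEL) for the `t₃`-line**, `ℓ = 2`. -/
theorem regModelThree : RegModelThree := by
  intro L _ hL hℓL A hA K0 hfin π hπ
  have hℓ : (2 : ℕ).Prime := Nat.prime_two
  haveI : Fact (2 : ℕ).Prime := ⟨hℓ⟩
  haveI := hfin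
  haveI : IsDiscreteValuationRing ↥(H61.A0 A K0) := H86.isDiscreteValuationRing_A0 A K0 hℓ hA
  haveI : CharP (IsLocalRing.ResidueField ↥(H61.A0 A K0)) 2 :=
    H86.charP_residueField_A0 A K0 hℓ hA
  haveI : PerfectField (IsLocalRing.ResidueField ↥(H61.A0 A K0)) :=
    H63.perfectField_residueField_A0 A K0 hℓ hA
  haveI : Algebra.IsAlgebraic ↥K0 (AlgebraicClosure ℚ) := isAlgebraic_Qbar K0
  exact ⟨regU_three ↥K0 (H61.A0 A K0) 2 L hℓL hL hπ (by norm_num),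
    regV_three ↥K0 (H61.A0 A K0) 2 L hℓL hL hπ (by norm_num)⟩

end Model

/-- **The frozen statement S18** (literal frozen signature), with no hypothesis left. -/
theorem s18 (N : ℕ) [NeZero N] {ℓ : ℕ}
    [Fact ℓ.Prime] (hℓN : ¬ ℓ ∣ N) (A : ValuationSubring (AlgebraicClosure ℚ))
    (hA : A.LiesOverPrime ℓ)
    (h : ModularCurve.ReductionInputsModL A N) (m : ℕ) (hm : ¬ ℓ ∣ m) (z : ModularCurve.JZero N)
    (hmz : m • z = 0) (hz : ModularCurve.reductionModL A N z = 0) :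
    z = 0 :=
  result_of_reg regModelJ regModelTwo regModelThree N hℓN A hA h m hm z hmz hz

end Fermat.Agent.S18.H35
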