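import Mathlib

/-!
# S18, node SATX (helper33): saturation transfer between bases

`hsat` (the Gauss saturation `B ∩ ϖ V = ϖ B` for the integral closure `B` of `A0[x]`) for ONE base
`x0` implies `hsat` for EVERY base `x` such that `x0 = P(x) / Q(x)` with `Q ∉ (ϖ)`.
No degree count, no independence statement for the new base.

Main statements:
* `isIntegral_of_prime_smul_of_smul` : `R` integrally closed, `p` prime, `p ∤ d`, `p • w` and
  `d • w` integral over `R` implies `w` integral over `R`.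
* `sat_transfer_aux` : the transfer, integrality expressed along the ring homs `aeval x0`, `aeval x`.
* `sat_transfer` : the transfer, integrality over `Algebra.adjoin A0 {x0}`, `Algebra.adjoin A0 {x}`.
-/

set_option autoImplicit false

open Polynomial

namespace Fermat.Agent.S18.H33

/-- (T1) `R` integrally closed, `p` prime, `p ∤ d`, `p • w` and `d • w` integral over `R`
implies `w` integral over `R`. -/
theorem isIntegral_of_prime_smul_of_smul {R F : Type*} [CommRing R] [IsDomain R]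
    [IsIntegrallyClosed R] [Field F] [Algebra R F] [FaithfulSMul R F] {p d : R} (hp : Prime p)
    (hd : ¬ p ∣ d) {w : F} (h1 : IsIntegral R (p • w)) (h2 : IsIntegral R (d • w)) :
    IsIntegral R w := by
  classical
  let K := FractionRing R
  let _ : Algebra K F := FractionRing.liftAlgebra R F
  have _ : IsScalarTower R K F := FractionRing.isScalarTower_liftAlgebra R F
  have hp0 : p ≠ 0 := hp.ne_zero
  have hd0 : d ≠ 0 := fun h => hd (h ▸ dvd_zero p)
  have hpK : algebraMap R K p ≠ 0 := by simpa using hp0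
  have hwK : IsIntegral K w := by
    have h3 : IsIntegral K (algebraMap R K p • w) := by
      rw [algebraMap_smul]; exact h1.tower_top
    have h := h3.smul (algebraMap R K p)⁻¹
    rwa [smul_smul, inv_mul_cancel₀ hpK, one_smul] at h
  have key : ∀ c : R, c ≠ 0 → IsIntegral R (c • w) → ∀ i,
      (minpoly K w).coeff i * algebraMap R K c ^ ((minpoly K w).natDegree - i) ∈
        (algebraMap R K).range := by
    intro c hc hcw i
    have hcK : algebraMap R K c ≠ 0 := by simpa using hc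
    have e1 : minpoly K (algebraMap R K c • w) = (minpoly K w).scaleRoots (algebraMap R K c) :=
      IsIntegrallyClosed.minpoly_smul hcK hwK
    have e2 : minpoly K (c • w) = (minpoly R (c • w)).map (algebraMap R K) :=
      minpoly.isIntegrallyClosed_eq_field_fractions' K hcw
    rw [algebraMap_smul, e2] at e1
    have := congrArg (fun q => q.coeff i) e1
    simp only [coeff_map, coeff_scaleRoots] at this
    exact ⟨_, this⟩
  have hc : ∀ i, (minpoly K w).coeff i ∈ (algebraMap R K).range := by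
    intro i
    obtain ⟨a, ha⟩ := key p hp0 h1 i
    obtain ⟨b, hb⟩ := key d hd0 h2 i
    set k := (minpoly K w).natDegree - i
    have hab : a * d ^ k = b * p ^ k := by
      apply FaithfulSMul.algebraMap_injective R K
      rw [map_mul, map_mul, map_pow, map_pow, ha, hb]; ring
    have hdvd : p ^ k ∣ a := by
      have h4 : p ^ k ∣ a * d ^ k := ⟨b, by rw [hab]; ring⟩
      exact (hp.pow_dvd_of_dvd_mul_right k (fun h => hd (hp.dvd_of_dvd_pow h)) h4)
    obtain ⟨c, rfl⟩ := hdvd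
    refine ⟨c, ?_⟩
    have hpk : algebraMap R K p ^ k ≠ 0 := pow_ne_zero _ hpK
    apply mul_right_cancel₀ hpk
    rw [← ha, map_mul, map_pow]; ring
  have hlift : minpoly K w ∈ Polynomial.lifts (algebraMap R K) := by
    rw [Polynomial.lifts_iff_coeff_lifts]
    intro i
    exact hc i
  obtain ⟨g, hg, -, hgm⟩ := Polynomial.lifts_and_degree_eq_and_monic hlift (minpoly.monic hwK)
  refine ⟨g, hgm, ?_⟩
  have h5 : Polynomial.aeval w (g.map (algebraMap R K)) = 0 := by
    rw [hg]; exact minpoly.aeval K w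
  rwa [Polynomial.aeval_map_algebraMap, Polynomial.aeval_def] at h5

/-- Ring-hom form of (T1). -/
theorem isIntegralElem_of_prime_mul_of_mul {R F : Type*} [CommRing R] [IsDomain R]
    [IsIntegrallyClosed R] [Field F] (φ : R →+* F) (hφ : Function.Injective φ) {p d : R}
    (hp : Prime p) (hd : ¬ p ∣ d) {w : F} (h1 : φ.IsIntegralElem (φ p * w))
    (h2 : φ.IsIntegralElem (φ d * w)) : φ.IsIntegralElem w := by
  let _ : Algebra R F := φ.toAlgebra
  have _ : FaithfulSMul R F := (faithfulSMul_iff_algebraMap_injective R F).mpr hφ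
  have h1' : IsIntegral R (p • w) := h1
  have h2' : IsIntegral R (d • w) := h2
  exact isIntegral_of_prime_smul_of_smul hp hd h1' h2'

/-- A monic polynomial with coefficients in the range of `f` and root `z` witnesses integrality
of `z` along `f`. -/
theorem isIntegralElem_of_coeff_mem_range {R S : Type*} [CommRing R] [CommRing S] (f : R →+* S)
    {z : S} (p : S[X]) (hp : p.Monic) (hc : ∀ i, p.coeff i ∈ f.range) (hz : p.eval z = 0) :
    f.IsIntegralElem z := by
  rcases subsingleton_or_nontrivial S with hS | hS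
  · exact ⟨1, monic_one, Subsingleton.elim _ _⟩
  have hl : p ∈ Polynomial.lifts f := (Polynomial.lifts_iff_coeff_lifts p).mpr fun i => hc i
  obtain ⟨q, hq, -, hqm⟩ := Polynomial.lifts_and_degree_eq_and_monic hl hp
  exact ⟨q, hqm, by rw [eval₂_eq_eval_map, hq]; exact hz⟩

/-- If every element of the range of `f` becomes an element of the range of `g` after
multiplication by a power of `s ∈ range g`, then every element integral along `f` becomes integral
along `g` after multiplication by a power of `s`. -/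
theorem exists_pow_mul_isIntegralElem {R R' S : Type*} [CommRing R] [CommRing R'] [CommRing S]
    (f : R →+* S) (g : R' →+* S) (s : S) (hs : s ∈ g.range)
    (hfg : ∀ a : R, ∃ k : ℕ, s ^ k * f a ∈ g.range) {z : S} (hz : f.IsIntegralElem z) :
    ∃ k : ℕ, g.IsIntegralElem (s ^ k * z) := by
  classical
  obtain ⟨p, hp, hpz⟩ := hz
  choose kf hkf using hfg
  have hmono : ∀ (a : R) (k' : ℕ), kf a ≤ k' → s ^ k' * f a ∈ g.range := by
    intro a k' hk'
    have hj : k' = (k' - kf a) + kf a := by omega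
    have : s ^ k' * f a = s ^ (k' - kf a) * (s ^ kf a * f a) := by
      rw [← mul_assoc, ← pow_add, ← hj]
    rw [this]
    exact g.range.mul_mem (g.range.pow_mem hs _) (hkf a)
  set k := p.support.sup (fun i => kf (p.coeff i)) with hk
  have hkall : ∀ (i k' : ℕ), k ≤ k' → s ^ k' * f (p.coeff i) ∈ g.range := by
    intro i k' hk'
    by_cases hi : p.coeff i = 0
    · rw [hi, map_zero, mul_zero]; exact g.range.zero_mem
    · refine hmono _ _ (le_trans ?_ hk')
      exact Finset.le_sup (f := fun i => kf (p.coeff i)) (mem_support_iff.mpr hi)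
  refine ⟨k, isIntegralElem_of_coeff_mem_range g ((p.map f).scaleRoots (s ^ k)) ?_ ?_ ?_⟩
  · rw [monic_scaleRoots_iff]; exact hp.map f
  · intro i
    rw [coeff_scaleRoots]
    rcases lt_trichotomy i (p.map f).natDegree with hi | hi | hi
    · rw [coeff_map, ← pow_mul, mul_comm]
      refine hkall i _ ?_
      exact Nat.le_mul_of_pos_right k (Nat.sub_pos_of_lt hi)
    · rw [hi, Nat.sub_self, pow_zero, mul_one, (hp.map f).coeff_natDegree]
      exact g.range.one_mem
    · rw [coeff_eq_zero_of_natDegree_lt hi, zero_mul]; exact g.range.zero_mem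
  · rw [scaleRoots_eval_mul, ← eval₂_eq_eval_map, hpz, mul_zero]

/-- Clearing the denominators of `d(P(x)/Q(x))`. -/
theorem exists_aeval_eq_aeval_mul_pow {A0 F : Type*} [CommRing A0] [CommRing F] [Algebra A0 F]
    {x0 x : F} {P Q : A0[X]} (hrel : x0 * aeval x Q = aeval x P) (d : A0[X]) {n : ℕ}
    (hn : d.natDegree ≤ n) : ∃ D : A0[X], aeval x D = aeval x0 d * aeval x Q ^ n := by
  refine ⟨∑ i ∈ Finset.range (d.natDegree + 1), C (d.coeff i) * P ^ i * Q ^ (n - i), ?_⟩
  rw [map_sum, aeval_eq_sum_range, Finset.sum_mul]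
  refine Finset.sum_congr rfl fun i hi => ?_
  have hi' : i ≤ n := le_trans (Nat.lt_succ_iff.mp (Finset.mem_range.mp hi)) hn
  have hpow : aeval x Q ^ n = aeval x Q ^ i * aeval x Q ^ (n - i) := by
    rw [← pow_add, Nat.add_sub_cancel' hi']
  rw [map_mul, map_mul, map_pow, map_pow, aeval_C, ← hrel, hpow, Algebra.smul_def]
  ring

/-- Integrality over `Algebra.adjoin A0 {x}` is integrality along `aeval x`. -/
theorem isIntegral_adjoin_singleton_iff {A0 F : Type*} [CommRing A0] [CommRing F] [Algebra A0 F]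
    (x z : F) :
    IsIntegral (Algebra.adjoin A0 {x}) z ↔
      (aeval x : A0[X] →ₐ[A0] F).toRingHom.IsIntegralElem z := by
  constructor
  · rintro ⟨p, hp, hz⟩
    refine isIntegralElem_of_coeff_mem_range _
      (p.map (algebraMap (Algebra.adjoin A0 {x}) F)) (hp.map _) ?_ ?_
    · intro i
      rw [coeff_map]
      have h : ((p.coeff i : Algebra.adjoin A0 {x}) : F) ∈ (aeval x : A0[X] →ₐ[A0] F).range := by
        rw [← Algebra.adjoin_singleton_eq_range_aeval]; exact (p.coeff i).2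
      obtain ⟨q, hq⟩ := h
      exact ⟨q, hq⟩
    · rw [← eval₂_eq_eval_map]; exact hz
  · intro h
    have hcomp : (aeval x : A0[X] →ₐ[A0] F).toRingHom =
        (algebraMap (Algebra.adjoin A0 {x}) F).comp
          (aeval (⟨x, Algebra.subset_adjoin rfl⟩ : Algebra.adjoin A0 {x}) :
            A0[X] →ₐ[A0] _).toRingHom := by
      ext q
      · simp
      · simp
    rw [hcomp] at h
    exact RingHom.IsIntegralElem.of_comp h

section Transfer

variable {A0 F : Type*} [CommRing A0] [IsDomain A0] [UniqueFactorizationMonoid A0] [Field F]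
  [Algebra A0 F]

omit [IsDomain A0] [UniqueFactorizationMonoid A0] in
theorem aeval_mem_of_mem (V : Subring F) (hAV : ∀ a : A0, algebraMap A0 F a ∈ V) {y : F}
    (hy : y ∈ V) (R : A0[X]) : aeval y R ∈ V := by
  rw [aeval_eq_sum_range]
  refine V.sum_mem fun i _ => ?_
  rw [Algebra.smul_def]
  exact V.mul_mem (hAV _) (V.pow_mem hy i)

/-- `htr` implies that `x` is transcendental over `A0`. -/
theorem aeval_injective_of_htr (V : Subring F) (ϖ : A0) (hϖ : Prime ϖ)
    (hinj : Function.Injective (algebraMap A0 F)) (x : F)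
    (htr : ∀ P : A0[X], (∃ w ∈ V, aeval x P = algebraMap A0 F ϖ * w) → C ϖ ∣ P) :
    Function.Injective (aeval x : A0[X] →ₐ[A0] F) := by
  have hCϖ : Prime (C ϖ : A0[X]) := Polynomial.prime_C_iff.mpr hϖ
  have hϖ0 : algebraMap A0 F ϖ ≠ 0 := fun h => hϖ.ne_zero (hinj (by rw [h, map_zero]))
  rw [injective_iff_map_eq_zero]
  intro R hR
  by_contra hR0
  obtain ⟨a, R', hR', rfl⟩ := WfDvdMonoid.max_power_factor hR0 hCϖ.irreducible
  rw [map_mul, map_pow, aeval_C] at hR
  have h0 : aeval x R' = 0 := by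
    rcases mul_eq_zero.mp hR with h | h
    · exact absurd h (pow_ne_zero _ hϖ0)
    · exact h
  exact hR' (htr R' ⟨0, V.zero_mem, by rw [h0, mul_zero]⟩)

/-- (Step 1) From saturation to `(FIN)`: if the integral closure of `A0[x0]` is saturated in `V`
and `F` is algebraic over `A0[x0]`, every element of `V` becomes integral over `A0[x0]` after
multiplication by some `d(x0)` with `d ∉ (ϖ)`. -/
theorem fin_of_sat_aux (V : Subring F) (ϖ : A0) (hϖ : Prime ϖ)
    (hAV : ∀ a : A0, algebraMap A0 F a ∈ V) (x0 : F) (hx0 : x0 ∈ V)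
    (halg : ∀ y : F, ∃ d : A0[X], d ≠ 0 ∧
      (aeval x0 : A0[X] →ₐ[A0] F).toRingHom.IsIntegralElem (aeval x0 d * y))
    (hsat0 : ∀ b : F, (aeval x0 : A0[X] →ₐ[A0] F).toRingHom.IsIntegralElem b → ∀ w ∈ V,
      b = algebraMap A0 F ϖ * w → (aeval x0 : A0[X] →ₐ[A0] F).toRingHom.IsIntegralElem w) :
    ∀ y ∈ V, ∃ d : A0[X], ¬ C ϖ ∣ d ∧
      (aeval x0 : A0[X] →ₐ[A0] F).toRingHom.IsIntegralElem (aeval x0 d * y) := by
  classical
  set φ0 : A0[X] →+* F := (aeval x0 : A0[X] →ₐ[A0] F).toRingHom with hφ0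
  have hCϖ : Prime (C ϖ : A0[X]) := Polynomial.prime_C_iff.mpr hϖ
  have hstrip : ∀ (a : ℕ) (v : F), v ∈ V →
      φ0.IsIntegralElem (algebraMap A0 F ϖ ^ a * v) → φ0.IsIntegralElem v := by
    intro a
    induction a with
    | zero => intro v _ h; simpa using h
    | succ a ih =>
      intro v hv h
      apply ih v hv
      refine hsat0 _ h (algebraMap A0 F ϖ ^ a * v) (V.mul_mem (V.pow_mem (hAV ϖ) a) hv) ?_
      rw [pow_succ]; ring
  intro y hy
  obtain ⟨d, hd0, hd⟩ := halg y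
  obtain ⟨a, d', hd', rfl⟩ := WfDvdMonoid.max_power_factor hd0 hCϖ.irreducible
  refine ⟨d', hd', hstrip a _ (V.mul_mem (aeval_mem_of_mem V hAV hx0 d') hy) ?_⟩
  have e : aeval x0 (C ϖ ^ a * d') * y = algebraMap A0 F ϖ ^ a * (aeval x0 d' * y) := by
    rw [map_mul, map_pow, aeval_C]; ring
  rwa [e] at hd

omit [IsDomain A0] [UniqueFactorizationMonoid A0] in
/-- (Step 2) Transfer of `(FIN)` from the base `x0` to the base `x`, when `x0 = P(x) / Q(x)` with
`Q ∉ (ϖ)`. -/
theorem fin_transfer_aux (V : Subring F) (ϖ : A0) (hϖ : Prime ϖ)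
    (hAV : ∀ a : A0, algebraMap A0 F a ∈ V)
    (hloc : ∀ v ∈ V, v⁻¹ ∈ V ∨ ∃ w ∈ V, v = algebraMap A0 F ϖ * w)
    (x0 x : F) (hx : x ∈ V)
    (htr0 : ∀ P : A0[X], (∃ w ∈ V, aeval x0 P = algebraMap A0 F ϖ * w) → C ϖ ∣ P)
    (htr : ∀ P : A0[X], (∃ w ∈ V, aeval x P = algebraMap A0 F ϖ * w) → C ϖ ∣ P)
    (P Q : A0[X]) (hQ : ¬ C ϖ ∣ Q) (hrel : x0 * aeval x Q = aeval x P)
    (hfin0 : ∀ y ∈ V, ∃ d : A0[X], ¬ C ϖ ∣ d ∧
      (aeval x0 : A0[X] →ₐ[A0] F).toRingHom.IsIntegralElem (aeval x0 d * y)) :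
    ∀ y ∈ V, ∃ e : A0[X], ¬ C ϖ ∣ e ∧
      (aeval x : A0[X] →ₐ[A0] F).toRingHom.IsIntegralElem (aeval x e * y) := by
  classical
  set φ0 : A0[X] →+* F := (aeval x0 : A0[X] →ₐ[A0] F).toRingHom with hφ0
  set φ : A0[X] →+* F := (aeval x : A0[X] →ₐ[A0] F).toRingHom with hφ
  have hφ0a : ∀ R : A0[X], φ0 R = aeval x0 R := fun _ => rfl
  have hφa : ∀ R : A0[X], φ R = aeval x R := fun _ => rfl
  have hCϖ : Prime (C ϖ : A0[X]) := Polynomial.prime_C_iff.mpr hϖ
  have hmemV : ∀ y : F, y ∈ V → ∀ R : A0[X], aeval y R ∈ V :=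
    fun y hy R => aeval_mem_of_mem V hAV hy R
  -- `Q(x)` is a unit of `V`
  have hQx : (aeval x Q)⁻¹ ∈ V := by
    rcases hloc _ (hmemV x hx Q) with h | ⟨w, hw, h⟩
    · exact h
    · exact absurd (htr Q ⟨w, hw, h⟩) hQ
  have hQx0 : aeval x Q ≠ 0 := by
    intro h
    exact hQ (htr Q ⟨0, V.zero_mem, by rw [h, mul_zero]⟩)
  intro y hy
  obtain ⟨d, hd, hdy⟩ := hfin0 y hy
  have hfg : ∀ a : A0[X], ∃ k : ℕ, aeval x Q ^ k * φ0 a ∈ φ.range := by
    intro a
    obtain ⟨D, hD⟩ := exists_aeval_eq_aeval_mul_pow hrel a (le_refl a.natDegree)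
    exact ⟨a.natDegree, D, by rw [hφa, hD, hφ0a]; ring⟩
  obtain ⟨k, hk⟩ := exists_pow_mul_isIntegralElem φ0 φ (aeval x Q) ⟨Q, rfl⟩ hfg hdy
  obtain ⟨D, hD⟩ := exists_aeval_eq_aeval_mul_pow hrel d (le_refl d.natDegree)
  refine ⟨Q ^ d.natDegree * (Q ^ k * D), ?_, ?_⟩
  · intro hdvd
    rcases hCϖ.dvd_or_dvd hdvd with h | h
    · exact hQ (hCϖ.dvd_of_dvd_pow h)
    rcases hCϖ.dvd_or_dvd h with h | h
    · exact hQ (hCϖ.dvd_of_dvd_pow h)
    obtain ⟨D1, rfl⟩ := h
    apply hd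
    apply htr0
    refine ⟨aeval x D1 * ((aeval x Q)⁻¹) ^ d.natDegree,
      V.mul_mem (hmemV x hx D1) (V.pow_mem hQx _), ?_⟩
    have e : aeval x0 d * aeval x Q ^ d.natDegree = algebraMap A0 F ϖ * aeval x D1 := by
      rw [← hD, map_mul, aeval_C]
    have hQn : aeval x Q ^ d.natDegree ≠ 0 := pow_ne_zero _ hQx0
    rw [inv_pow, ← mul_assoc, ← e, mul_assoc, mul_inv_cancel₀ hQn, mul_one]
  · have e : aeval x (Q ^ d.natDegree * (Q ^ k * D)) * y =
        φ (Q ^ d.natDegree * Q ^ d.natDegree) * (aeval x Q ^ k * (aeval x0 d * y)) := by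
      rw [hφa, map_mul, map_mul, map_mul, map_pow, map_pow, hD]; ring
    rw [e]
    exact RingHom.IsIntegralElem.mul _ (φ.isIntegralElem_map) hk

/-- (Step 3) From `(FIN)` to saturation: if every element of `V` becomes integral over `A0[x]`
after multiplication by some `e(x)`, `e ∉ (ϖ)`, then the integral closure of `A0[x]` is saturated
in `V`. -/
theorem sat_of_fin_aux (V : Subring F) (ϖ : A0) (hϖ : Prime ϖ)
    (hinj : Function.Injective (algebraMap A0 F)) (x : F)
    (htr : ∀ P : A0[X], (∃ w ∈ V, aeval x P = algebraMap A0 F ϖ * w) → C ϖ ∣ P)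
    (hfin : ∀ y ∈ V, ∃ e : A0[X], ¬ C ϖ ∣ e ∧
      (aeval x : A0[X] →ₐ[A0] F).toRingHom.IsIntegralElem (aeval x e * y)) :
    ∀ b : F, (aeval x : A0[X] →ₐ[A0] F).toRingHom.IsIntegralElem b → ∀ w ∈ V,
      b = algebraMap A0 F ϖ * w → (aeval x : A0[X] →ₐ[A0] F).toRingHom.IsIntegralElem w := by
  classical
  set φ : A0[X] →+* F := (aeval x : A0[X] →ₐ[A0] F).toRingHom with hφ
  have hφa : ∀ R : A0[X], φ R = aeval x R := fun _ => rfl
  have hCϖ : Prime (C ϖ : A0[X]) := Polynomial.prime_C_iff.mpr hϖ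
  have hφinj : Function.Injective φ := aeval_injective_of_htr V ϖ hϖ hinj x htr
  intro b hb w hw hbw
  obtain ⟨e, he, hew⟩ := hfin w hw
  refine isIntegralElem_of_prime_mul_of_mul φ hφinj hCϖ he ?_ hew
  have e1 : φ (C ϖ) * w = b := by rw [hbw, hφa, aeval_C]
  rw [e1]; exact hb

/-- **Saturation transfer**, integrality expressed along the ring homs `aeval x0`, `aeval x`. -/
theorem sat_transfer_aux (V : Subring F) (ϖ : A0) (hϖ : Prime ϖ)
    (hinj : Function.Injective (algebraMap A0 F))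
    (hAV : ∀ a : A0, algebraMap A0 F a ∈ V)
    (hloc : ∀ v ∈ V, v⁻¹ ∈ V ∨ ∃ w ∈ V, v = algebraMap A0 F ϖ * w)
    (x0 x : F) (hx0 : x0 ∈ V) (hx : x ∈ V)
    (htr0 : ∀ P : A0[X], (∃ w ∈ V, aeval x0 P = algebraMap A0 F ϖ * w) → C ϖ ∣ P)
    (htr : ∀ P : A0[X], (∃ w ∈ V, aeval x P = algebraMap A0 F ϖ * w) → C ϖ ∣ P)
    (P Q : A0[X]) (hQ : ¬ C ϖ ∣ Q) (hrel : x0 * aeval x Q = aeval x P)
    (halg : ∀ y : F, ∃ d : A0[X], d ≠ 0 ∧
      (aeval x0 : A0[X] →ₐ[A0] F).toRingHom.IsIntegralElem (aeval x0 d * y))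
    (hsat0 : ∀ b : F, (aeval x0 : A0[X] →ₐ[A0] F).toRingHom.IsIntegralElem b → ∀ w ∈ V,
      b = algebraMap A0 F ϖ * w → (aeval x0 : A0[X] →ₐ[A0] F).toRingHom.IsIntegralElem w) :
    ∀ b : F, (aeval x : A0[X] →ₐ[A0] F).toRingHom.IsIntegralElem b → ∀ w ∈ V,
      b = algebraMap A0 F ϖ * w → (aeval x : A0[X] →ₐ[A0] F).toRingHom.IsIntegralElem w :=
  sat_of_fin_aux V ϖ hϖ hinj x htr
    (fin_transfer_aux V ϖ hϖ hAV hloc x0 x hx htr0 htr P Q hQ hrel
      (fin_of_sat_aux V ϖ hϖ hAV x0 hx0 halg hsat0))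

/-- `F` algebraic over `A0[x0]`, in the form used by `fin_of_sat_aux`. -/
theorem halg_aux_of_isAlgebraic {A0 F : Type*} [CommRing A0] [Field F] [Algebra A0 F] (x0 : F)
    (halg : ∀ y : F, IsAlgebraic (Algebra.adjoin A0 {x0}) y) :
    ∀ y : F, ∃ d : A0[X], d ≠ 0 ∧
      (aeval x0 : A0[X] →ₐ[A0] F).toRingHom.IsIntegralElem (aeval x0 d * y) := by
  intro y
  obtain ⟨a, ha0, ha⟩ := (halg y).exists_integral_multiple
  have hmem : (a : F) ∈ (aeval x0 : A0[X] →ₐ[A0] F).range := by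
    rw [← Algebra.adjoin_singleton_eq_range_aeval]; exact a.2
  obtain ⟨d, hd⟩ := hmem
  refine ⟨d, ?_, ?_⟩
  · rintro rfl
    apply ha0
    apply Subtype.ext
    rw [← hd]; simp
  · rw [← isIntegral_adjoin_singleton_iff]
    have e : aeval x0 d * y = a • y := by
      rw [Algebra.smul_def]
      congr 1
    rw [e]; exact ha

/-- **Saturation transfer** (node SATX): if the integral closure of `A0[x0]` in `F` is saturated
in the local ring `V` (maximal ideal `ϖ V`), then so is the integral closure of `A0[x]`, for every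
`x ∈ V` with transcendental reduction such that `x0 = P(x) / Q(x)` with `Q ∉ (ϖ)`. -/
theorem sat_transfer (V : Subring F) (ϖ : A0) (hϖ : Prime ϖ)
    (hinj : Function.Injective (algebraMap A0 F))
    (hAV : ∀ a : A0, algebraMap A0 F a ∈ V)
    (hloc : ∀ v ∈ V, v⁻¹ ∈ V ∨ ∃ w ∈ V, v = algebraMap A0 F ϖ * w)
    (x0 x : F) (hx0 : x0 ∈ V) (hx : x ∈ V)
    (htr0 : ∀ P : A0[X], (∃ w ∈ V, aeval x0 P = algebraMap A0 F ϖ * w) → C ϖ ∣ P)
    (htr : ∀ P : A0[X], (∃ w ∈ V, aeval x P = algebraMap A0 F ϖ * w) → C ϖ ∣ P)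
    (P Q : A0[X]) (hQ : ¬ C ϖ ∣ Q) (hrel : x0 * aeval x Q = aeval x P)
    (halg : ∀ y : F, IsAlgebraic (Algebra.adjoin A0 {x0}) y)
    (hsat0 : ∀ b : F, IsIntegral (Algebra.adjoin A0 {x0}) b → ∀ w ∈ V,
      b = algebraMap A0 F ϖ * w → IsIntegral (Algebra.adjoin A0 {x0}) w) :
    ∀ b : F, IsIntegral (Algebra.adjoin A0 {x}) b → ∀ w ∈ V,
      b = algebraMap A0 F ϖ * w → IsIntegral (Algebra.adjoin A0 {x}) w := by
  intro b hb w hw hbw
  rw [isIntegral_adjoin_singleton_iff] at hb ⊢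
  refine sat_transfer_aux V ϖ hϖ hinj hAV hloc x0 x hx0 hx htr0 htr P Q hQ hrel
    (halg_aux_of_isAlgebraic x0 halg) ?_ b hb w hw hbw
  intro b hb w hw hbw
  rw [← isIntegral_adjoin_singleton_iff] at hb ⊢
  exact hsat0 b hb w hw hbw

/-- `(FIN)` for the new base, in `Algebra.adjoin` form: under the hypotheses of `sat_transfer`,
every `y ∈ V` is `a / e(x)` with `a` integral over `A0[x]` and `e ∉ (ϖ)`; i.e. `V` is the
localisation of the integral closure of `A0[x]` at the prime `(ϖ)`. -/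
theorem fin_transfer (V : Subring F) (ϖ : A0) (hϖ : Prime ϖ)
    (hAV : ∀ a : A0, algebraMap A0 F a ∈ V)
    (hloc : ∀ v ∈ V, v⁻¹ ∈ V ∨ ∃ w ∈ V, v = algebraMap A0 F ϖ * w)
    (x0 x : F) (hx0 : x0 ∈ V) (hx : x ∈ V)
    (htr0 : ∀ P : A0[X], (∃ w ∈ V, aeval x0 P = algebraMap A0 F ϖ * w) → C ϖ ∣ P)
    (htr : ∀ P : A0[X], (∃ w ∈ V, aeval x P = algebraMap A0 F ϖ * w) → C ϖ ∣ P)
    (P Q : A0[X]) (hQ : ¬ C ϖ ∣ Q) (hrel : x0 * aeval x Q = aeval x P)
    (halg : ∀ y : F, IsAlgebraic (Algebra.adjoin A0 {x0}) y)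
    (hsat0 : ∀ b : F, IsIntegral (Algebra.adjoin A0 {x0}) b → ∀ w ∈ V,
      b = algebraMap A0 F ϖ * w → IsIntegral (Algebra.adjoin A0 {x0}) w) :
    ∀ y ∈ V, ∃ e : A0[X], ¬ C ϖ ∣ e ∧ IsIntegral (Algebra.adjoin A0 {x}) (aeval x e * y) := by
  intro y hy
  obtain ⟨e, he, h⟩ := fin_transfer_aux V ϖ hϖ hAV hloc x0 x hx htr0 htr P Q hQ hrel
    (fin_of_sat_aux V ϖ hϖ hAV x0 hx0 (halg_aux_of_isAlgebraic x0 halg) (by
      intro b hb w hw hbw
      rw [← isIntegral_adjoin_singleton_iff] at hb ⊢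
      exact hsat0 b hb w hw hbw)) y hy
  exact ⟨e, he, (isIntegral_adjoin_singleton_iff x _).mpr h⟩

/-- `(FIN)` for the base itself, in `Algebra.adjoin` form: saturation + algebraicity imply that
every `y ∈ V` is `a / d(x0)` with `a` integral over `A0[x0]` and `d ∉ (ϖ)`. -/
theorem fin_of_sat (V : Subring F) (ϖ : A0) (hϖ : Prime ϖ)
    (hAV : ∀ a : A0, algebraMap A0 F a ∈ V) (x0 : F) (hx0 : x0 ∈ V)
    (halg : ∀ y : F, IsAlgebraic (Algebra.adjoin A0 {x0}) y)
    (hsat0 : ∀ b : F, IsIntegral (Algebra.adjoin A0 {x0}) b → ∀ w ∈ V,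
      b = algebraMap A0 F ϖ * w → IsIntegral (Algebra.adjoin A0 {x0}) w) :
    ∀ y ∈ V, ∃ d : A0[X], ¬ C ϖ ∣ d ∧ IsIntegral (Algebra.adjoin A0 {x0}) (aeval x0 d * y) := by
  intro y hy
  obtain ⟨d, hd, h⟩ := fin_of_sat_aux V ϖ hϖ hAV x0 hx0 (halg_aux_of_isAlgebraic x0 halg) (by
      intro b hb w hw hbw
      rw [← isIntegral_adjoin_singleton_iff] at hb ⊢
      exact hsat0 b hb w hw hbw) y hy
  exact ⟨d, hd, (isIntegral_adjoin_singleton_iff x0 _).mpr h⟩

end Transfer

end Fermat.Agent.S18.H33
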