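import Mathlib
import Fermat.Agent.S18.Sep_helper85
import Fermat.Agent.S28.PsiFinal_helper50

set_option autoImplicit false

/-!
# S18 node SEP, unconditional form for the frozen field (helper85)

`k(J(q^d) : d ∣ N)` is separable over `k(J)` for an algebraically closed field `k` of
characteristic `l ∤ N` (finiteness from the landed S28 tower theorem `H50`).
-/

namespace Fermat.Agent.S18.H85

open IntermediateField ModularCurve

universe u

variable (k : Type u) [Field k] [IsAlgClosed k] (l : ℕ) [Fact l.Prime] [CharP k l]
  (N : ℕ) [NeZero N]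

include l in
theorem relfinrank_full_ne_zero (hlN : ¬ l ∣ N) :
    (IntermediateField.adjoin k {jqModC k}).relfinrank (modularFunctionFieldFullC k N) ≠ 0 :=
  (Fermat.Agent.S28.H50.relfinrank_ne_zero_and_psi_le_char k l N hlN).1

include l in
/-- finiteness over `k(J)` -/
theorem finiteDimensional_full_char (hlN : ¬ l ∣ N) :
    FiniteDimensional k⟮jqModC k⟯ (extendScalars (adjoin_jqModC_le_full k N)) :=
  finiteDimensional_full_of_relfinrank_ne_zero k N (relfinrank_full_ne_zero k l N hlN)

include l in
/-- **SEP (elementwise).** -/
theorem isSeparable_of_mem_full_char (hlN : ¬ l ∣ N) {y : LaurentSeries k}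
    (hy : y ∈ modularFunctionFieldFullC k N) : IsSeparable k⟮jqModC k⟯ y :=
  isSeparable_of_mem_full k l N (relfinrank_full_ne_zero k l N hlN) hy

include l in
/-- **SEP (bundled).** -/
theorem isSeparable_full_char (hlN : ¬ l ∣ N) :
    Algebra.IsSeparable k⟮jqModC k⟯ (extendScalars (adjoin_jqModC_le_full k N)) :=
  isSeparable_full k l N (relfinrank_full_ne_zero k l N hlN)

end Fermat.Agent.S18.H85
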