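import Mathlib
import Fermat.Agent.S18.BaseUFD_helper8
import Fermat.Agent.S18.KCStmts_helper63

/-!
# S18, node KC1: the base step `H63.StmtBase`, literally

`stmtBase : H63.StmtBase` -- the base section of the Kummer core on one chart, proved from the
local factoriality statement `local_unit_mul_pow` of `BaseUFD_helper8`.

Auxiliary generic lemmas:
* `regAt_of_reg`: the elementary regularity hypothesis (REG) implies `RegAt`.
* `reg_cross`: under (REG), if `p ^ m ≡ b * q ^ m` modulo `π` with `b` a unit at `n`, then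
  `p / q` is a unit at `n` modulo `π`.
* `ordSubring`, `divAt_of_forall_valuationSubring`: the valuation-subring form of the
  divisibility hypothesis implies `DivAt`.
-/

set_option autoImplicit false

namespace Fermat.Agent.S18.H08

section Reg

variable {B : Type*} [CommRing B]

/-- The elementary regularity hypothesis (REG) implies `RegAt`. -/
theorem regAt_of_reg {π : B}
    (h : ∀ n : Ideal B, n.IsMaximal → π ∈ n → ∃ τ ∈ n, ∀ a : B, a ∉ Ideal.span {π} →
      ∃ (e : ℕ) (d u : B), d ∉ n ∧ u ∉ n ∧ a * d - u * τ ^ e ∈ Ideal.span {π}) :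
    RegAt π := by
  intro n hn hπn
  obtain ⟨τ, hτn, hτ⟩ := h n hn hπn
  have hPn : Ideal.span {π} ≤ n := (Ideal.span_singleton_le_iff_mem _).mpr hπn
  have hPle : Ideal.span {π} ≤ Ideal.span {π, τ} := Ideal.span_mono (by simp)
  have hτmem : τ ∈ Ideal.span {π, τ} := Ideal.subset_span (by simp)
  refine ⟨τ, hτn, fun x hx => ?_⟩
  by_cases hxP : x ∈ Ideal.span {π}
  · exact ⟨1, (Ideal.ne_top_iff_one n).mp hn.ne_top, by rw [one_mul]; exact hPle hxP⟩
  · obtain ⟨e, d, u, hd, hu, hmem⟩ := hτ x hxP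
    refine ⟨d, hd, ?_⟩
    rcases Nat.eq_zero_or_pos e with he | he
    · exfalso
      rw [he, pow_zero, mul_one] at hmem
      have h1 : x * d - u ∈ n := hPn hmem
      have h2 : x * d ∈ n := n.mul_mem_right d hx
      apply hu
      have : u = x * d - (x * d - u) := by ring
      rw [this]
      exact n.sub_mem h2 h1
    · have h1 : u * τ ^ e ∈ Ideal.span {π, τ} := by
        obtain ⟨k, rfl⟩ : ∃ k, e = k + 1 := ⟨e - 1, by omega⟩
        rw [pow_succ, ← mul_assoc]
        exact Ideal.mul_mem_left _ _ hτmem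
      have : d * x = (x * d - u * τ ^ e) + u * τ ^ e := by ring
      rw [this]
      exact Ideal.add_mem _ (hPle hmem) h1

/-- Under (REG) at `n`: if `p ^ m ≡ b * q ^ m` modulo `π` with `b ∉ n`, then `p * c₂ ≡ q * c₁`
modulo `π` for some `c₁, c₂ ∉ n`. -/
theorem reg_cross {π : B} (hP : (Ideal.span {π}).IsPrime) {n : Ideal B} (hn : n.IsMaximal)
    (hπn : π ∈ n) {τ : B} (hτn : τ ∈ n)
    (hτ : ∀ a : B, a ∉ Ideal.span {π} →
      ∃ (e : ℕ) (d u : B), d ∉ n ∧ u ∉ n ∧ a * d - u * τ ^ e ∈ Ideal.span {π})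
    {m : ℕ} (hm : 0 < m) {p q b : B} (hp : p ∉ Ideal.span {π}) (hq : q ∉ Ideal.span {π})
    (hb : b ∉ n) (h : p ^ m - b * q ^ m ∈ Ideal.span {π}) :
    ∃ c₁ c₂ : B, c₁ ∉ n ∧ c₂ ∉ n ∧ p * c₂ - q * c₁ ∈ Ideal.span {π} := by
  have hnp : n.IsPrime := hn.isPrime
  have hPn : Ideal.span {π} ≤ n := (Ideal.span_singleton_le_iff_mem _).mpr hπn
  obtain ⟨e₁, d₁, u₁, hd₁, hu₁, h₁⟩ := hτ p hp
  obtain ⟨e₂, d₂, u₂, hd₂, hu₂, h₂⟩ := hτ q hq
  haveI := hP
  set φ := Ideal.Quotient.mk (Ideal.span {π}) with hφ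
  have hφ0 : ∀ x : B, φ x = 0 ↔ x ∈ Ideal.span {π} := fun x => Ideal.Quotient.eq_zero_iff_mem
  -- transfer of membership in `n` along congruences mod `π`
  have htr : ∀ x y : B, φ x = φ y → x ∈ n → y ∈ n := by
    intro x y hxy hx
    have h1 : x - y ∈ Ideal.span {π} := by
      rw [← hφ0, map_sub, hxy, sub_self]
    have : y = x - (x - y) := by ring
    rw [this]
    exact n.sub_mem hx (hPn h1)
  have e1 : φ p * φ d₁ = φ u₁ * φ τ ^ e₁ := by
    have := (hφ0 _).mpr h₁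
    rw [map_sub, map_mul, map_mul, map_pow, sub_eq_zero] at this
    exact this
  have e2 : φ q * φ d₂ = φ u₂ * φ τ ^ e₂ := by
    have := (hφ0 _).mpr h₂
    rw [map_sub, map_mul, map_mul, map_pow, sub_eq_zero] at this
    exact this
  have e3 : φ p ^ m = φ b * φ q ^ m := by
    have := (hφ0 _).mpr h
    rw [map_sub, map_mul, map_pow, map_pow, sub_eq_zero] at this
    exact this
  -- the key identity
  have key : φ u₁ ^ m * φ d₂ ^ m * φ τ ^ (m * e₁) =
      φ b * φ u₂ ^ m * φ d₁ ^ m * φ τ ^ (m * e₂) := by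
    have l1 : (φ p * φ d₁) ^ m * φ d₂ ^ m = φ u₁ ^ m * φ d₂ ^ m * φ τ ^ (m * e₁) := by
      rw [e1, mul_pow, ← pow_mul, mul_comm e₁ m]; ring
    have l2 : (φ p * φ d₁) ^ m * φ d₂ ^ m = φ b * φ u₂ ^ m * φ d₁ ^ m * φ τ ^ (m * e₂) := by
      have : (φ p * φ d₁) ^ m * φ d₂ ^ m = φ b * (φ q * φ d₂) ^ m * φ d₁ ^ m := by
        rw [mul_pow, mul_pow, e3]; ring
      rw [this, e2, mul_pow, ← pow_mul, mul_comm e₂ m]; ring
    rw [← l1, l2]
  have hnotn : ∀ x y : B, x ∉ n → y ∉ n → x * y ∉ n := fun x y hx hy hxy =>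
    (hnp.mem_or_mem hxy).elim hx hy
  have hpow : ∀ (x : B) (k : ℕ), x ∉ n → x ^ k ∉ n := fun x k hx hxk =>
    hx (hnp.mem_of_pow_mem k hxk)
  rcases lt_trichotomy e₁ e₂ with hlt | heq | hgt
  · -- `e₁ < e₂`: impossible
    exfalso
    obtain ⟨k, hk, rfl⟩ : ∃ k, 0 < k ∧ e₂ = e₁ + k := ⟨e₂ - e₁, by omega, by omega⟩
    by_cases hτP : τ ∈ Ideal.span {π}
    · have h1 : φ q * φ d₂ = 0 := by
        rw [e2, (hφ0 τ).mpr hτP, zero_pow (by omega), mul_zero]
      rw [← map_mul, hφ0] at h1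
      rcases hP.mem_or_mem h1 with h2 | h2
      · exact hq h2
      · exact hd₂ (hPn h2)
    · have hτ0 : φ τ ≠ 0 := fun h0 => hτP ((hφ0 τ).mp h0)
      have key' : φ u₁ ^ m * φ d₂ ^ m = φ b * φ u₂ ^ m * φ d₁ ^ m * φ τ ^ (m * k) := by
        apply mul_right_cancel₀ (pow_ne_zero (m * e₁) hτ0)
        rw [key, mul_add, pow_add]; ring
      have h1 : φ (u₁ ^ m * d₂ ^ m) = φ (b * u₂ ^ m * d₁ ^ m * τ ^ (m * k)) := by
        simp only [map_mul, map_pow]; exact key'
      have h2 : b * u₂ ^ m * d₁ ^ m * τ ^ (m * k) ∈ n :=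
        n.mul_mem_left _ (n.pow_mem_of_mem hτn _ (Nat.mul_pos hm hk))
      exact hnotn _ _ (hpow _ _ hu₁) (hpow _ _ hd₂) (htr _ _ h1.symm h2)
  · -- `e₁ = e₂`
    subst heq
    refine ⟨d₂ * u₁, d₁ * u₂, hnotn _ _ hd₂ hu₁, hnotn _ _ hd₁ hu₂, ?_⟩
    rw [← hφ0, map_sub, map_mul, map_mul, map_mul, map_mul, sub_eq_zero]
    calc φ p * (φ d₁ * φ u₂) = (φ p * φ d₁) * φ u₂ := by ring
      _ = (φ q * φ d₂) * φ u₁ := by rw [e1, e2]; ring
      _ = φ q * (φ d₂ * φ u₁) := by ring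
  · -- `e₂ < e₁`: impossible
    exfalso
    obtain ⟨k, hk, rfl⟩ : ∃ k, 0 < k ∧ e₁ = e₂ + k := ⟨e₁ - e₂, by omega, by omega⟩
    by_cases hτP : τ ∈ Ideal.span {π}
    · have h1 : φ p * φ d₁ = 0 := by
        rw [e1, (hφ0 τ).mpr hτP, zero_pow (by omega), mul_zero]
      rw [← map_mul, hφ0] at h1
      rcases hP.mem_or_mem h1 with h2 | h2
      · exact hp h2
      · exact hd₁ (hPn h2)
    · have hτ0 : φ τ ≠ 0 := fun h0 => hτP ((hφ0 τ).mp h0)
      have key' : φ u₁ ^ m * φ d₂ ^ m * φ τ ^ (m * k) = φ b * φ u₂ ^ m * φ d₁ ^ m := by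
        apply mul_right_cancel₀ (pow_ne_zero (m * e₂) hτ0)
        rw [← key, mul_add, pow_add]; ring
      have h1 : φ (u₁ ^ m * d₂ ^ m * τ ^ (m * k)) = φ (b * u₂ ^ m * d₁ ^ m) := by
        simp only [map_mul, map_pow]; exact key'
      have h2 : u₁ ^ m * d₂ ^ m * τ ^ (m * k) ∈ n :=
        n.mul_mem_left _ (n.pow_mem_of_mem hτn _ (Nat.mul_pos hm hk))
      exact hnotn _ _ (hnotn _ _ hb (hpow _ _ hu₂)) (hpow _ _ hd₁) (htr _ _ h1 h2)

end Reg

section Ord

variable {F : Type*} [Field F]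

/-- The valuation ring of an unbundled `ℤ`-valued additive valuation. -/
def ordSubring (v : F → ℤ) (hmul : ∀ x y : F, x ≠ 0 → y ≠ 0 → v (x * y) = v x + v y)
    (hadd : ∀ x y : F, x ≠ 0 → y ≠ 0 → x + y ≠ 0 → min (v x) (v y) ≤ v (x + y)) :
    ValuationSubring F where
  carrier := {x | x = 0 ∨ 0 ≤ v x}
  mul_mem' := by
    rintro x y hx hy
    by_cases hx0 : x = 0
    · left; rw [hx0, zero_mul]
    by_cases hy0 : y = 0
    · left; rw [hy0, mul_zero]
    right
    have hx' : 0 ≤ v x := hx.resolve_left hx0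
    have hy' : 0 ≤ v y := hy.resolve_left hy0
    rw [hmul x y hx0 hy0]
    omega
  one_mem' := by
    right
    have := hmul 1 1 one_ne_zero one_ne_zero
    rw [mul_one] at this
    omega
  add_mem' := by
    rintro x y hx hy
    by_cases hx0 : x = 0
    · rw [hx0, zero_add]; exact hy
    by_cases hy0 : y = 0
    · rw [hy0, add_zero]; exact hx
    by_cases hxy : x + y = 0
    · left; exact hxy
    right
    have h1 := hadd x y hx0 hy0 hxy
    have hx' : 0 ≤ v x := hx.resolve_left hx0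
    have hy' : 0 ≤ v y := hy.resolve_left hy0
    exact le_trans (le_min hx' hy') h1
  zero_mem' := Or.inl rfl
  neg_mem' := by
    rintro x hx
    by_cases hx0 : x = 0
    · left; rw [hx0, neg_zero]
    right
    have h1 : v (1 : F) = 0 := by
      have := hmul 1 1 one_ne_zero one_ne_zero
      rw [mul_one] at this
      omega
    have h2 : v (-1 : F) = 0 := by
      have := hmul (-1) (-1) (neg_ne_zero.mpr one_ne_zero) (neg_ne_zero.mpr one_ne_zero)
      rw [neg_mul_neg, mul_one, h1] at this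
      omega
    have h3 : v (-x) = v x := by
      have := hmul (-1) x (neg_ne_zero.mpr one_ne_zero) hx0
      rw [neg_one_mul, h2, zero_add] at this
      exact this
    rw [h3]
    exact hx.resolve_left hx0
  mem_or_inv_mem' := by
    intro x
    by_cases hx0 : x = 0
    · left; left; exact hx0
    have h1 : v (1 : F) = 0 := by
      have := hmul 1 1 one_ne_zero one_ne_zero
      rw [mul_one] at this
      omega
    have h2 : v x + v x⁻¹ = 0 := by
      have := hmul x x⁻¹ hx0 (inv_ne_zero hx0)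
      rw [mul_inv_cancel₀ hx0, h1] at this
      omega
    rcases le_total 0 (v x) with h | h
    · left; right; exact h
    · right; right; omega

theorem mem_ordSubring {v : F → ℤ} {hmul : ∀ x y : F, x ≠ 0 → y ≠ 0 → v (x * y) = v x + v y}
    {hadd : ∀ x y : F, x ≠ 0 → y ≠ 0 → x + y ≠ 0 → min (v x) (v y) ≤ v (x + y)} {x : F} :
    x ∈ ordSubring v hmul hadd ↔ x = 0 ∨ 0 ≤ v x := Iff.rfl

/-- The valuation-subring form of the divisibility hypothesis implies `DivAt`. -/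
theorem divAt_of_forall_valuationSubring {B : Type*} [CommRing B] [Algebra B F] {π : B} {m : ℕ}
    {f : F} (hf : f ≠ 0) (hπ : algebraMap B F π ≠ 0)
    (h : ∀ O : ValuationSubring F, (∀ b : B, algebraMap B F b ∈ O) →
      (algebraMap B F π)⁻¹ ∈ O → ∃ g : F, g ≠ 0 ∧ f / g ^ m ∈ O ∧ g ^ m / f ∈ O) :
    DivAt π m f := by
  intro v hmul hadd hB hπ0
  have h1 : v (1 : F) = 0 := by
    have := hmul 1 1 one_ne_zero one_ne_zero
    rw [mul_one] at this
    omega
  have hinv : ∀ x : F, x ≠ 0 → v x⁻¹ = - v x := by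
    intro x hx0
    have := hmul x x⁻¹ hx0 (inv_ne_zero hx0)
    rw [mul_inv_cancel₀ hx0, h1] at this
    omega
  have hpow : ∀ x : F, x ≠ 0 → ∀ k : ℕ, v (x ^ k) = k * v x := by
    intro x hx0 k
    induction k with
    | zero => simp [h1]
    | succ k ih =>
      rw [pow_succ, hmul _ _ (pow_ne_zero k hx0) hx0, ih]
      push_cast
      ring
  obtain ⟨g, hg, hfg, hgf⟩ := h (ordSubring v hmul hadd)
    (fun b => by
      rw [mem_ordSubring]
      by_cases h0 : algebraMap B F b = 0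
      · left; exact h0
      · right
        exact hB b (fun hb => h0 (by rw [hb, map_zero])))
    (by
      rw [mem_ordSubring]
      right
      rw [hinv _ hπ, hπ0]
      simp)
  have hgm : g ^ m ≠ 0 := pow_ne_zero m hg
  have e1 : 0 ≤ v (f / g ^ m) := (mem_ordSubring.mp hfg).resolve_left (div_ne_zero hf hgm)
  have e2 : 0 ≤ v (g ^ m / f) := (mem_ordSubring.mp hgf).resolve_left (div_ne_zero hgm hf)
  rw [div_eq_mul_inv, hmul _ _ hf (inv_ne_zero hgm), hinv _ hgm, hpow g hg m] at e1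
  rw [div_eq_mul_inv, hmul _ _ hgm (inv_ne_zero hf), hinv _ hf, hpow g hg m] at e2
  exact ⟨v g, by linarith⟩

end Ord

/-- **KC1, the base step**: the statement `H63.StmtBase`, literally. -/
theorem stmtBase : H63.StmtBase := by
  intro A F _ _ _ _ π m V B f hπ hinj harch hm hπV hVπ hBV hnoeth hic hfrac hsat hreg hf1 hdiv
  classical
  haveI := hnoeth
  set ϖ : F := algebraMap A F π with hϖ
  set πB : B := algebraMap A B π with hπB
  have hϖ0 : ϖ ≠ 0 := fun h => hπ (hinj (by rw [← hϖ, h, map_zero]))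
  have hϖV : ϖ ∈ V := hBV _ (B.algebraMap_mem π)
  have hϖinv : ϖ⁻¹ ∉ V := by
    rcases (V.mem_nonunits_iff_or).mp hπV with h | h
    · exact absurd h hϖ0
    · exact h
  have hnu_mul : ∀ c ∈ V, ϖ * c ∈ V.nonunits := by
    intro c hc
    rw [ValuationSubring.mem_nonunits_iff_or]
    by_cases h0 : ϖ * c = 0
    · left; exact h0
    right
    intro hinv
    apply hϖinv
    have hc0 : c ≠ 0 := right_ne_zero_of_mul h0
    have : ϖ⁻¹ = (ϖ * c)⁻¹ * c := by field_simp
    rw [this]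
    exact V.mul_mem _ _ hinv hc
  have hunit : ∀ x ∈ V, x ∉ V.nonunits → x ≠ 0 ∧ x⁻¹ ∈ V := by
    intro x _ hnu
    rw [ValuationSubring.mem_nonunits_iff_or] at hnu
    push Not at hnu
    exact hnu
  -- divisibility by `π` in `B` versus non-units of `V`
  have hdvd_iff : ∀ x : B, πB ∣ x ↔ (x : F) ∈ V.nonunits := by
    intro x
    constructor
    · rintro ⟨c, rfl⟩
      exact hnu_mul _ (hBV _ c.2)
    · intro hx
      obtain ⟨y, hy, e⟩ := hVπ _ hx
      obtain ⟨b, hb, e'⟩ := hsat _ x.2 ⟨y, hy, e⟩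
      exact ⟨⟨b, hb⟩, Subtype.ext e'⟩
  have hnd_unit : ∀ x : B, ¬ πB ∣ x → (x : F) ≠ 0 ∧ (x : F)⁻¹ ∈ V := fun x hx =>
    hunit _ (hBV _ x.2) (fun h => hx ((hdvd_iff x).mpr h))
  have hπB0 : πB ≠ 0 := by
    intro h
    apply hϖ0
    exact congrArg Subtype.val h
  have hprime : Prime πB := by
    refine ⟨hπB0, ?_, ?_⟩
    · intro hu
      have h1 := (hdvd_iff 1).mp hu.dvd
      rw [ValuationSubring.mem_nonunits_iff_or] at h1
      rcases h1 with h1 | h1
      · exact one_ne_zero h1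
      · apply h1
        simp
    · intro x y hxy
      have h1 := (hdvd_iff (x * y)).mp hxy
      by_contra hcon
      push Not at hcon
      obtain ⟨hx0, hxi⟩ := hnd_unit x hcon.1
      obtain ⟨hy0, hyi⟩ := hnd_unit y hcon.2
      rw [ValuationSubring.mem_nonunits_iff_or] at h1
      rcases h1 with h1 | h1
      · exact mul_ne_zero hx0 hy0 h1
      · apply h1
        rw [Subalgebra.coe_mul, mul_inv]
        exact V.mul_mem _ _ hxi hyi
  have hPprime : (Ideal.span {πB}).IsPrime := (Ideal.span_singleton_prime hπB0).mpr hprime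
  -- `F` is the fraction field of `B`
  haveI hfaith : FaithfulSMul B F :=
    (faithfulSMul_iff_algebraMap_injective B F).mpr Subtype.val_injective
  haveI hFR : IsFractionRing B F := IsFractionRing.of_field B F (fun z => by
    obtain ⟨a, ha, b, hb, hb0, e⟩ := hfrac z
    refine ⟨⟨a, ha⟩, ⟨b, hb⟩, ?_⟩
    rw [eq_div_iff (by exact hb0)]
    exact e)
  -- `V` is contained in the localisation of `B` at `(π)`
  have hVfrac : ∀ y ∈ V, ∃ a b : B, ¬ πB ∣ b ∧ y * (b : F) = (a : F) := by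
    intro y hy
    obtain ⟨a₀, ha₀, b₀, hb₀, hb₀0, e⟩ := hfrac y
    obtain ⟨k, b', hb', eb⟩ := WfDvdMonoid.max_power_factor (a₀ := (⟨b₀, hb₀⟩ : B))
      (fun h => hb₀0 (congrArg Subtype.val h)) hprime.irreducible
    have eb' : b₀ = ϖ ^ k * (b' : F) := by
      have := congrArg Subtype.val eb
      rw [Subalgebra.coe_mul, Subalgebra.coe_pow] at this
      exact this
    obtain ⟨a', ha', ea⟩ := H63.sat_pow hϖ0 hϖV hsat k a₀ ha₀
      ⟨y * b', V.mul_mem _ _ hy (hBV _ b'.2), by rw [← e, eb']; ring⟩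
    refine ⟨⟨a', ha'⟩, b', hb', ?_⟩
    apply mul_left_cancel₀ (pow_ne_zero k hϖ0)
    show ϖ ^ k * (y * b') = ϖ ^ k * a'
    rw [← ea, ← e, eb']
    ring
  -- `f` in fraction form
  obtain ⟨y₁, hy₁, ef⟩ := hf1
  obtain ⟨a₁, d₁, hd₁, e₁⟩ := hVfrac y₁ hy₁
  have hfd : f * (d₁ : F) = (d₁ : F) + ϖ * (a₁ : F) := by
    have : f = 1 + ϖ * y₁ := by linear_combination ef
    rw [this]
    linear_combination ϖ * e₁
  have hc₀ : ¬ πB ∣ d₁ + πB * a₁ := fun h =>
    hd₁ ((dvd_add_left (dvd_mul_right πB a₁)).mp h)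
  have hf0 : f ≠ 0 := by
    rintro rfl
    rw [zero_mul] at hfd
    apply hc₀
    have : d₁ + πB * a₁ = 0 := Subtype.ext hfd.symm
    rw [this]
    exact dvd_zero _
  have hfπ : ∃ c d : B, ¬ πB ∣ c ∧ ¬ πB ∣ d ∧ f * algebraMap B F d = algebraMap B F c :=
    ⟨d₁ + πB * a₁, d₁, hc₀, hd₁, hfd⟩
  have hfV : f ∈ V := by
    have : f = 1 + ϖ * y₁ := by linear_combination ef
    rw [this]
    exact V.add_mem _ _ V.one_mem (V.mul_mem _ _ hϖV hy₁)
  -- the divisibility hypothesis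
  have hdivAt : DivAt πB m f := by
    apply divAt_of_forall_valuationSubring hf0 (π := πB) hϖ0
    intro O hBO hπO
    apply hdiv O
    · intro a
      exact hBO (algebraMap A B a)
    · intro a ha
      obtain ⟨k, a', ea⟩ := harch a ha
      have h1 : ϖ ^ k = algebraMap A F a * algebraMap A F a' := by
        rw [← map_mul, ← ea, map_pow]
      have ha0 : algebraMap A F a ≠ 0 := fun h => ha (hinj (by rw [h, map_zero]))
      have ha'0 : algebraMap A F a' ≠ 0 := by
        intro h0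
        rw [h0, mul_zero] at h1
        exact pow_ne_zero k hϖ0 h1
      have e : (algebraMap A F a)⁻¹ = algebraMap A F a' * (ϖ⁻¹) ^ k := by
        rw [inv_pow, h1]
        field_simp
      rw [e]
      exact O.mul_mem _ _ (hBO (algebraMap A B a')) (O.pow_mem hπO k)
  have hregAt : RegAt πB := regAt_of_reg hreg
  have hroot : ∀ x : F, x ^ m ∈ B → x ∈ B := H63.root_closed_of_integrally_closed B hic hm
  -- the ideal of reductions of root sections
  let J : Ideal B :=
    { carrier := {β | ∃ y : F, (∃ b ∈ B, y ^ m = f * b) ∧ ∃ t ∈ V, y - (β : F) = ϖ * t}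
      add_mem' := by
        rintro β₁ β₂ ⟨y₁, hy₁, t₁, ht₁, e₁⟩ ⟨y₂, hy₂, t₂, ht₂, e₂⟩
        refine ⟨y₁ + y₂, H63.root_add B f hf0 m hroot hy₁ hy₂, t₁ + t₂, V.add_mem _ _ ht₁ ht₂, ?_⟩
        rw [Subalgebra.coe_add]
        linear_combination e₁ + e₂
      zero_mem' := ⟨0, ⟨0, B.zero_mem, by rw [zero_pow hm.ne', mul_zero]⟩, 0, V.zero_mem, by simp⟩
      smul_mem' := by
        rintro c β ⟨y, ⟨b, hb, hy⟩, t, ht, e⟩
        refine ⟨(c : F) * y, ⟨(c : F) ^ m * b, B.mul_mem (B.pow_mem c.2 m) hb, ?_⟩,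
          (c : F) * t, V.mul_mem _ _ (hBV _ c.2) ht, ?_⟩
        · rw [mul_pow, hy]; ring
        · rw [smul_eq_mul, Subalgebra.coe_mul]
          linear_combination (c : F) * e }
  by_cases hJ : J = ⊤
  · have h1 : (1 : B) ∈ J := by rw [hJ]; trivial
    obtain ⟨y, hy, t, ht, e⟩ := h1
    exact ⟨y, hy, t, ht, by simpa using e⟩
  · exfalso
    obtain ⟨n, hn, hJn⟩ := Ideal.exists_le_maximal J hJ
    have hπJ : πB ∈ J := ⟨0, ⟨0, B.zero_mem, by rw [zero_pow hm.ne', mul_zero]⟩, -1,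
      V.neg_mem _ V.one_mem, by show (0 : F) - ϖ = ϖ * (-1); ring⟩
    have hπn : πB ∈ n := hJn hπJ
    obtain ⟨g, c, e, hg, hc, he, hfe⟩ :=
      local_unit_mul_pow hprime hregAt m hf0 hfπ hdivAt n hn hπn
    obtain ⟨τ, hτn, hτ⟩ := hreg n hn hπn
    have hnp : n.IsPrime := hn.isPrime
    have hb₀n : e * c ^ (m - 1) ∉ n := fun h =>
      (hnp.mem_or_mem h).elim he (fun h' => hc (hnp.mem_of_pow_mem _ h'))
    have hym : (g * (c : F)) ^ m = f * ((e * c ^ (m - 1) : B) : F) := by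
      have h1 : (c : F) ^ m = (c : F) * (c : F) ^ (m - 1) := by
        rw [← pow_succ', Nat.sub_add_cancel hm]
      have h2 : f * (e : F) = g ^ m * (c : F) := hfe
      rw [mul_pow, h1, Subalgebra.coe_mul, Subalgebra.coe_pow]
      linear_combination (-(c : F) ^ (m - 1)) * h2
    have hyV : g * (c : F) ∈ V := by
      have h1 : (g * (c : F)) ^ m ∈ V := by
        rw [hym]
        exact V.mul_mem _ _ hfV (hBV _ (e * c ^ (m - 1)).2)
      rcases V.mem_or_inv_mem (g * (c : F)) with h | h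
      · exact h
      · by_cases h0 : g * (c : F) = 0
        · rw [h0]; exact V.zero_mem
        have : g * (c : F) = (g * (c : F)) ^ m * (g * (c : F))⁻¹ ^ (m - 1) := by
          have h2 : (g * (c : F)) ^ m = (g * (c : F)) * (g * (c : F)) ^ (m - 1) := by
            rw [← pow_succ', Nat.sub_add_cancel hm]
          rw [h2, inv_pow, mul_assoc, mul_inv_cancel₀ (pow_ne_zero _ h0), mul_one]
        rw [this]
        exact V.mul_mem _ _ h1 (V.pow_mem h _)
    obtain ⟨p₀, q₀, hq₀, epq⟩ := hVfrac _ hyV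
    have hcong : p₀ ^ m - e * c ^ (m - 1) * q₀ ^ m ∈ Ideal.span {πB} := by
      have h1 : d₁ * (p₀ ^ m - e * c ^ (m - 1) * q₀ ^ m) =
          πB * (a₁ * (e * c ^ (m - 1)) * q₀ ^ m) := by
        apply Subtype.ext
        simp only [Subalgebra.coe_mul, Subalgebra.coe_sub, Subalgebra.coe_pow]
        have h3 : ((p₀ : B) : F) ^ m = f * ((e : F) * (c : F) ^ (m - 1)) * (q₀ : F) ^ m := by
          rw [← epq, mul_pow, hym, Subalgebra.coe_mul, Subalgebra.coe_pow]
        rw [h3]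
        show (d₁ : F) * (f * ((e : F) * (c : F) ^ (m - 1)) * (q₀ : F) ^ m -
          (e : F) * (c : F) ^ (m - 1) * (q₀ : F) ^ m) =
          ϖ * ((a₁ : F) * ((e : F) * (c : F) ^ (m - 1)) * (q₀ : F) ^ m)
        linear_combination ((e : F) * (c : F) ^ (m - 1) * (q₀ : F) ^ m) * hfd
      have h2 : πB ∣ d₁ * (p₀ ^ m - e * c ^ (m - 1) * q₀ ^ m) := ⟨_, h1⟩
      rw [Ideal.mem_span_singleton]
      exact (hprime.dvd_or_dvd h2).resolve_left hd₁
    have hq₀P : q₀ ∉ Ideal.span {πB} := fun h => hq₀ (Ideal.mem_span_singleton.mp h)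
    have hPn : Ideal.span {πB} ≤ n := (Ideal.span_singleton_le_iff_mem _).mpr hπn
    have hp₀P : p₀ ∉ Ideal.span {πB} := by
      intro h
      have h1 : e * c ^ (m - 1) * q₀ ^ m ∈ Ideal.span {πB} := by
        have : e * c ^ (m - 1) * q₀ ^ m = p₀ ^ m - (p₀ ^ m - e * c ^ (m - 1) * q₀ ^ m) := by ring
        rw [this]
        exact Ideal.sub_mem _ (Ideal.pow_mem_of_mem _ h m hm) hcong
      rcases hPprime.mem_or_mem h1 with h2 | h2
      · exact hb₀n (hPn h2)
      · exact hq₀P (hPprime.mem_of_pow_mem _ h2)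
    obtain ⟨c₁, c₂, hc₁, hc₂, hcr⟩ :=
      reg_cross hPprime hn hπn hτn hτ hm hp₀P hq₀P hb₀n hcong
    apply hc₁
    apply hJn
    obtain ⟨t, ht⟩ := Ideal.mem_span_singleton.mp hcr
    obtain ⟨hq₀0, hq₀i⟩ := hnd_unit q₀ hq₀
    refine ⟨(c₂ : F) * (g * (c : F)), ⟨(c₂ : F) ^ m * ((e * c ^ (m - 1) : B) : F),
      B.mul_mem (B.pow_mem c₂.2 m) (e * c ^ (m - 1)).2, by rw [mul_pow, hym]; ring⟩,
      (t : F) * (q₀ : F)⁻¹, V.mul_mem _ _ (hBV _ t.2) hq₀i, ?_⟩
    have ht' : (p₀ : F) * (c₂ : F) - (q₀ : F) * (c₁ : F) = ϖ * (t : F) := by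
      have := congrArg Subtype.val ht
      rw [Subalgebra.coe_sub, Subalgebra.coe_mul, Subalgebra.coe_mul, Subalgebra.coe_mul] at this
      exact this
    rw [← epq] at ht'
    field_simp
    linear_combination ht'

end Fermat.Agent.S18.H08
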