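import Mathlib
import Fermat.Prelude.Def_ModularCurve_ReductionModL
import Fermat.Prelude.Def_EllipticCurve_FrobeniusTrace

/-!
# S18: top-level interface

`GRFin A N` / `GRInf A N`: Igusa's good reduction of `X₀(N)` at the residue characteristic of
the valuation ring `A` of `ℚ̄`, in lifting form: every element of the mod-`ℓ` function field
`modularFunctionFieldFullC k N` (`k` the residue field of `A`) that is integral over `k[j̄]`
(resp. `k[j̄⁻¹]`) is the coefficientwise reduction of an `A`-integral `q`-series lying in the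
function field over `ℚ̄` and integral over `ℚ̄[j]` (resp. `ℚ̄[j⁻¹]`).

`GRStmt`: good reduction for every `ℓ ∤ N`.  `CoreStmt`: the frozen statement S18 from good
reduction.  `result_of` glues the two and is checked against the frozen type.
-/

set_option autoImplicit false

open ModularCurve

namespace Fermat.Agent.S18.H64

/-- Good reduction, finite chart (`j ≠ ∞`), lifting form. -/
def GRFin (A : ValuationSubring (AlgebraicClosure ℚ)) (N : ℕ) [NeZero N] : Prop :=
  ∀ c : LaurentSeries (IsLocalRing.ResidueField A),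
    c ∈ modularFunctionFieldFullC (IsLocalRing.ResidueField A) N →
    IsIntegral (Algebra.adjoin (IsLocalRing.ResidueField A)
      {jqModC (IsLocalRing.ResidueField A)}) c →
    ∃ y : LaurentSeries A,
      coeffMap A.subtype y ∈ modularFunctionFieldBar N ∧
      IsIntegral (Algebra.adjoin (AlgebraicClosure ℚ) {jqModC (AlgebraicClosure ℚ)})
        (coeffMap A.subtype y) ∧
      coeffMap (IsLocalRing.residue A) y = c

/-- Good reduction, chart at infinity (`j ≠ 0`), lifting form. -/
def GRInf (A : ValuationSubring (AlgebraicClosure ℚ)) (N : ℕ) [NeZero N] : Prop :=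
  ∀ c : LaurentSeries (IsLocalRing.ResidueField A),
    c ∈ modularFunctionFieldFullC (IsLocalRing.ResidueField A) N →
    IsIntegral (Algebra.adjoin (IsLocalRing.ResidueField A)
      {(jqModC (IsLocalRing.ResidueField A))⁻¹}) c →
    ∃ y : LaurentSeries A,
      coeffMap A.subtype y ∈ modularFunctionFieldBar N ∧
      IsIntegral (Algebra.adjoin (AlgebraicClosure ℚ) {(jqModC (AlgebraicClosure ℚ))⁻¹})
        (coeffMap A.subtype y) ∧
      coeffMap (IsLocalRing.residue A) y = c

/-- **(GR)** Igusa: good reduction of `X₀(N)` at every prime `ℓ ∤ N`. -/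
def GRStmt : Prop :=
  ∀ (N : ℕ) [NeZero N] (ℓ : ℕ) [Fact ℓ.Prime], ¬ ℓ ∣ N →
    ∀ A : ValuationSubring (AlgebraicClosure ℚ), A.LiesOverPrime ℓ → GRFin A N ∧ GRInf A N

/-- **(CORE)** the frozen statement from good reduction. -/
def CoreStmt : Prop :=
  ∀ (N : ℕ) [NeZero N] (ℓ : ℕ) [Fact ℓ.Prime], ¬ ℓ ∣ N →
    ∀ A : ValuationSubring (AlgebraicClosure ℚ), A.LiesOverPrime ℓ →
      GRFin A N → GRInf A N →
      ∀ (_h : ModularCurve.ReductionInputsModL A N) (m : ℕ), ¬ ℓ ∣ m →
        ∀ z : ModularCurve.JZero N, m • z = 0 → ModularCurve.reductionModL A N z = 0 → z = 0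

/-- The frozen statement S18 from the two halves. -/
theorem result_of (hGR : GRStmt) (hCore : CoreStmt) (N : ℕ) [NeZero N] {ℓ : ℕ}
    [Fact ℓ.Prime] (hℓN : ¬ ℓ ∣ N) (A : ValuationSubring (AlgebraicClosure ℚ))
    (hA : A.LiesOverPrime ℓ)
    (h : ModularCurve.ReductionInputsModL A N) (m : ℕ) (hm : ¬ ℓ ∣ m) (z : ModularCurve.JZero N)
    (hmz : m • z = 0) (hz : ModularCurve.reductionModL A N z = 0) :
    z = 0 :=
  hCore N ℓ hℓN A hA (hGR N ℓ hℓN A hA).1 (hGR N ℓ hℓN A hA).2 h m hm z hmz hz

end Fermat.Agent.S18.H64
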