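/-
S18 support (helper24): the finite Sturm numerics for the Hauptmodul identities of `X₀(2)`, `X₀(3)`.

For `P = eisenstein4`, `e = dedekindEtaUnit` (`= etaProd ^ 24`) and ANY power series `Q`, `E` with
the coefficients of `P(q^M)`, `e(q^M)` (`M = 2, 3`), the first `4` resp. `6` coefficients of
  `(P - Q) (16 Q - P)^2 - 54000 q e`,            `(P - Q)^2 (16 Q - P) - 864000 q^2 E`            (M = 2)
  `(P - Q) (81 Q - P)^3 - 12288000 (P + 9 Q) q e`, `(P - Q)^3 (81 Q - P) - 110592000 (P + 9 Q) q^3 E` (M = 3)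
vanish.  Corollaries for `Q = PowerSeries.expand M _ P`, `E = PowerSeries.expand M _ e`.
-/
import Mathlib
import Fermat.Prelude.Def_ModularCurve_X0ModL
import Fermat.Agent.S28.CoefL_helper24

set_option autoImplicit false

namespace Fermat.Agent.S18.H24

open PowerSeries ModularCurve Fermat.Agent.S28.H24

theorem agree_add {N : ℕ} {f g : ℤ⟦X⟧} {F G : List ℤ} (H : List ℤ) (hf : Agree N f F)
    (hg : Agree N g G) (h : ∀ n < N, cl F n + cl G n = cl H n) : Agree N (f + g) H := by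
  intro n hn
  rw [map_add, hf n hn, hg n hn, h n hn]

theorem agree_sub {N : ℕ} {f g : ℤ⟦X⟧} {F G : List ℤ} (H : List ℤ) (hf : Agree N f F)
    (hg : Agree N g G) (h : ∀ n < N, cl F n - cl G n = cl H n) : Agree N (f - g) H := by
  intro n hn
  rw [map_sub, hf n hn, hg n hn, h n hn]

theorem agree_C (N : ℕ) (c : ℤ) : Agree N (C c : ℤ⟦X⟧) [c] := by
  intro n _
  rw [coeff_C]
  cases n with
  | zero => rfl
  | succ n => rfl

theorem agree_ofNat (N : ℕ) (c : ℕ) [c.AtLeastTwo] :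
    Agree N (OfNat.ofNat c : ℤ⟦X⟧) [(OfNat.ofNat c : ℤ)] := by
  have h : (OfNat.ofNat c : ℤ⟦X⟧) = C (OfNat.ofNat c : ℤ) := (map_ofNat (C (R := ℤ)) c).symm
  rw [h]
  exact agree_C N _

theorem agree_X (N : ℕ) : Agree N (X : ℤ⟦X⟧) [0, 1] := by
  intro n _
  rw [coeff_X]
  rcases n with _ | _ | n
  · rfl
  · rfl
  · rfl

theorem agree_mono {N N' : ℕ} {f : ℤ⟦X⟧} {L : List ℤ} (h : Agree N f L) (hN : N' ≤ N) :
    Agree N' f L := fun n hn => h n (lt_of_lt_of_le hn hN)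

/-- Coefficients of a series `Q` with the coefficient formula of `P(q^M)`. -/
theorem agree_of_expand {M N : ℕ} {P Q : ℤ⟦X⟧} {L : List ℤ} (hP : Agree N P L)
    (hQ : ∀ n, coeff n Q = if M ∣ n then coeff (n / M) P else 0) (L' : List ℤ)
    (h : ∀ n < N, (if M ∣ n then cl L (n / M) else 0) = cl L' n) : Agree N Q L' := by
  intro n hn
  rw [hQ, ← h n hn]
  split_ifs with hd
  · exact hP _ (lt_of_le_of_lt (Nat.div_le_self _ _) hn)
  · rfl

theorem coeff_sub_eq_zero_of_agree {N : ℕ} {f g : ℤ⟦X⟧} {L : List ℤ} (hf : Agree N f L)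
    (hg : Agree N g L) (n : ℕ) (hn : n < N) : coeff n (f - g) = 0 := by
  rw [map_sub, hf n hn, hg n hn, sub_self]

theorem sturm_two_a (Q : ℤ⟦X⟧)
    (hQ : ∀ n, coeff n Q = if 2 ∣ n then coeff (n / 2) eisenstein4 else 0) :
    ∀ n ≤ 3, coeff n ((eisenstein4 - Q) * (((16 : ℤ⟦X⟧) * Q) - eisenstein4) ^ 2 - 54000 * (X * dedekindEtaUnit)) = 0 := by
  have hP : Agree 4 eisenstein4 e4L := agree_mono agree_eisenstein4 (by norm_num)
  have he : Agree 4 dedekindEtaUnit eta24L := agree_mono agree_dedekindEtaUnit (by norm_num)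
  have hX : Agree 4 (X : ℤ⟦X⟧) [0, 1] := agree_X 4
  have hQ' : Agree 4 Q [1, 0, 240, 0] := agree_of_expand hP hQ _ (by decide)
  have h1 : Agree 4 (eisenstein4 - Q) [0, 240, 1920, 6720] :=
    agree_sub _ hP hQ' (by decide)
  have h2 : Agree 4 ((16 : ℤ⟦X⟧)) [16] := agree_ofNat 4 16
  have h3 : Agree 4 ((16 : ℤ⟦X⟧) * Q) [16, 0, 3840, 0] :=
    Agree.mul _ h2 hQ' (by decide)
  have h4 : Agree 4 (((16 : ℤ⟦X⟧) * Q) - eisenstein4) [15, -240, 1680, -6720] :=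
    agree_sub _ h3 hP (by decide)
  have h5 : Agree 4 ((((16 : ℤ⟦X⟧) * Q) - eisenstein4) * (((16 : ℤ⟦X⟧) * Q) - eisenstein4)) [225, -7200, 108000, -1008000] :=
    Agree.mul _ h4 h4 (by decide)
  have h6 : Agree 4 ((eisenstein4 - Q) * ((((16 : ℤ⟦X⟧) * Q) - eisenstein4) * (((16 : ℤ⟦X⟧) * Q) - eisenstein4))) [0, 54000, -1296000, 13608000] :=
    Agree.mul _ h1 h5 (by decide)
  have h7 : Agree 4 ((54000 : ℤ⟦X⟧)) [54000] := agree_ofNat 4 54000
  have h8 : Agree 4 (X * dedekindEtaUnit) [0, 1, -24, 252] :=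
    Agree.mul _ hX he (by decide)
  have h9 : Agree 4 ((54000 : ℤ⟦X⟧) * (X * dedekindEtaUnit)) [0, 54000, -1296000, 13608000] :=
    Agree.mul _ h7 h8 (by decide)
  have el : (eisenstein4 - Q) * (((16 : ℤ⟦X⟧) * Q) - eisenstein4) ^ 2 = (eisenstein4 - Q) * ((((16 : ℤ⟦X⟧) * Q) - eisenstein4) * (((16 : ℤ⟦X⟧) * Q) - eisenstein4)) := by ring
  have er : 54000 * (X * dedekindEtaUnit) = (54000 : ℤ⟦X⟧) * (X * dedekindEtaUnit) := by ring
  intro n hn
  rw [el, er]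
  exact coeff_sub_eq_zero_of_agree h6 h9 n (by omega)

theorem sturm_two_b (Q E : ℤ⟦X⟧)
    (hQ : ∀ n, coeff n Q = if 2 ∣ n then coeff (n / 2) eisenstein4 else 0)
    (hE : ∀ n, coeff n E = if 2 ∣ n then coeff (n / 2) dedekindEtaUnit else 0) :
    ∀ n ≤ 3, coeff n ((eisenstein4 - Q) ^ 2 * (((16 : ℤ⟦X⟧) * Q) - eisenstein4) - 864000 * (X ^ 2 * E)) = 0 := by
  have hP : Agree 4 eisenstein4 e4L := agree_mono agree_eisenstein4 (by norm_num)
  have he : Agree 4 dedekindEtaUnit eta24L := agree_mono agree_dedekindEtaUnit (by norm_num)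
  have hX : Agree 4 (X : ℤ⟦X⟧) [0, 1] := agree_X 4
  have hQ' : Agree 4 Q [1, 0, 240, 0] := agree_of_expand hP hQ _ (by decide)
  have hE' : Agree 4 E [1, 0, -24, 0] := agree_of_expand he hE _ (by decide)
  have h1 : Agree 4 (eisenstein4 - Q) [0, 240, 1920, 6720] :=
    agree_sub _ hP hQ' (by decide)
  have h2 : Agree 4 ((16 : ℤ⟦X⟧)) [16] := agree_ofNat 4 16
  have h3 : Agree 4 ((16 : ℤ⟦X⟧) * Q) [16, 0, 3840, 0] :=
    Agree.mul _ h2 hQ' (by decide)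
  have h4 : Agree 4 (((16 : ℤ⟦X⟧) * Q) - eisenstein4) [15, -240, 1680, -6720] :=
    agree_sub _ h3 hP (by decide)
  have h5 : Agree 4 ((eisenstein4 - Q) * (eisenstein4 - Q)) [0, 0, 57600, 921600] :=
    Agree.mul _ h1 h1 (by decide)
  have h6 : Agree 4 (((eisenstein4 - Q) * (eisenstein4 - Q)) * (((16 : ℤ⟦X⟧) * Q) - eisenstein4)) [0, 0, 864000, 0] :=
    Agree.mul _ h5 h4 (by decide)
  have h7 : Agree 4 ((864000 : ℤ⟦X⟧)) [864000] := agree_ofNat 4 864000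
  have h8 : Agree 4 (X * X) [0, 0, 1, 0] :=
    Agree.mul _ hX hX (by decide)
  have h9 : Agree 4 ((X * X) * E) [0, 0, 1, 0] :=
    Agree.mul _ h8 hE' (by decide)
  have h10 : Agree 4 ((864000 : ℤ⟦X⟧) * ((X * X) * E)) [0, 0, 864000, 0] :=
    Agree.mul _ h7 h9 (by decide)
  have el : (eisenstein4 - Q) ^ 2 * (((16 : ℤ⟦X⟧) * Q) - eisenstein4) = ((eisenstein4 - Q) * (eisenstein4 - Q)) * (((16 : ℤ⟦X⟧) * Q) - eisenstein4) := by ring
  have er : 864000 * (X ^ 2 * E) = (864000 : ℤ⟦X⟧) * ((X * X) * E) := by ring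
  intro n hn
  rw [el, er]
  exact coeff_sub_eq_zero_of_agree h6 h10 n (by omega)

theorem sturm_three_a (Q : ℤ⟦X⟧)
    (hQ : ∀ n, coeff n Q = if 3 ∣ n then coeff (n / 3) eisenstein4 else 0) :
    ∀ n ≤ 5, coeff n ((eisenstein4 - Q) * (((81 : ℤ⟦X⟧) * Q) - eisenstein4) ^ 3 - 12288000 * ((eisenstein4 + ((9 : ℤ⟦X⟧) * Q)) * (X * dedekindEtaUnit))) = 0 := by
  have hP : Agree 6 eisenstein4 e4L := agree_mono agree_eisenstein4 (by norm_num)
  have he : Agree 6 dedekindEtaUnit eta24L := agree_mono agree_dedekindEtaUnit (by norm_num)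
  have hX : Agree 6 (X : ℤ⟦X⟧) [0, 1] := agree_X 6
  have hQ' : Agree 6 Q [1, 0, 0, 240, 0, 0] := agree_of_expand hP hQ _ (by decide)
  have h1 : Agree 6 (eisenstein4 - Q) [0, 240, 2160, 6480, 17520, 30240] :=
    agree_sub _ hP hQ' (by decide)
  have h2 : Agree 6 ((81 : ℤ⟦X⟧)) [81] := agree_ofNat 6 81
  have h3 : Agree 6 ((81 : ℤ⟦X⟧) * Q) [81, 0, 0, 19440, 0, 0] :=
    Agree.mul _ h2 hQ' (by decide)
  have h4 : Agree 6 (((81 : ℤ⟦X⟧) * Q) - eisenstein4) [80, -240, -2160, 12720, -17520, -30240] :=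
    agree_sub _ h3 hP (by decide)
  have h5 : Agree 6 ((9 : ℤ⟦X⟧)) [9] := agree_ofNat 6 9
  have h6 : Agree 6 ((9 : ℤ⟦X⟧) * Q) [9, 0, 0, 2160, 0, 0] :=
    Agree.mul _ h5 hQ' (by decide)
  have h7 : Agree 6 (eisenstein4 + ((9 : ℤ⟦X⟧) * Q)) [10, 240, 2160, 8880, 17520, 30240] :=
    agree_add _ hP h6 (by decide)
  have h8 : Agree 6 ((((81 : ℤ⟦X⟧) * Q) - eisenstein4) * (((81 : ℤ⟦X⟧) * Q) - eisenstein4)) [6400, -38400, -288000, 3072000, -4243200, -51379200] :=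
    Agree.mul _ h4 h4 (by decide)
  have h9 : Agree 6 (((((81 : ℤ⟦X⟧) * Q) - eisenstein4) * (((81 : ℤ⟦X⟧) * Q) - eisenstein4)) * (((81 : ℤ⟦X⟧) * Q) - eisenstein4)) [512000, -4608000, -27648000, 479232000, -1055232000, -12911616000] :=
    Agree.mul _ h8 h4 (by decide)
  have h10 : Agree 6 ((eisenstein4 - Q) * (((((81 : ℤ⟦X⟧) * Q) - eisenstein4) * (((81 : ℤ⟦X⟧) * Q) - eisenstein4)) * (((81 : ℤ⟦X⟧) * Q) - eisenstein4))) [0, 122880000, 0, -13271040000, 34406400000, 537477120000] :=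
    Agree.mul _ h1 h9 (by decide)
  have h11 : Agree 6 ((12288000 : ℤ⟦X⟧)) [12288000] := agree_ofNat 6 12288000
  have h12 : Agree 6 (X * dedekindEtaUnit) [0, 1, -24, 252, -1472, 4830] :=
    Agree.mul _ hX he (by decide)
  have h13 : Agree 6 ((eisenstein4 + ((9 : ℤ⟦X⟧) * Q)) * (X * dedekindEtaUnit)) [0, 10, 0, -1080, 2800, 43740] :=
    Agree.mul _ h7 h12 (by decide)
  have h14 : Agree 6 ((12288000 : ℤ⟦X⟧) * ((eisenstein4 + ((9 : ℤ⟦X⟧) * Q)) * (X * dedekindEtaUnit))) [0, 122880000, 0, -13271040000, 34406400000, 537477120000] :=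
    Agree.mul _ h11 h13 (by decide)
  have el : (eisenstein4 - Q) * (((81 : ℤ⟦X⟧) * Q) - eisenstein4) ^ 3 = (eisenstein4 - Q) * (((((81 : ℤ⟦X⟧) * Q) - eisenstein4) * (((81 : ℤ⟦X⟧) * Q) - eisenstein4)) * (((81 : ℤ⟦X⟧) * Q) - eisenstein4)) := by ring
  have er : 12288000 * ((eisenstein4 + ((9 : ℤ⟦X⟧) * Q)) * (X * dedekindEtaUnit)) = (12288000 : ℤ⟦X⟧) * ((eisenstein4 + ((9 : ℤ⟦X⟧) * Q)) * (X * dedekindEtaUnit)) := by ring
  intro n hn
  rw [el, er]
  exact coeff_sub_eq_zero_of_agree h10 h14 n (by omega)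

theorem sturm_three_b (Q E : ℤ⟦X⟧)
    (hQ : ∀ n, coeff n Q = if 3 ∣ n then coeff (n / 3) eisenstein4 else 0)
    (hE : ∀ n, coeff n E = if 3 ∣ n then coeff (n / 3) dedekindEtaUnit else 0) :
    ∀ n ≤ 5, coeff n ((eisenstein4 - Q) ^ 3 * (((81 : ℤ⟦X⟧) * Q) - eisenstein4) - 110592000 * ((eisenstein4 + ((9 : ℤ⟦X⟧) * Q)) * (X ^ 3 * E))) = 0 := by
  have hP : Agree 6 eisenstein4 e4L := agree_mono agree_eisenstein4 (by norm_num)
  have he : Agree 6 dedekindEtaUnit eta24L := agree_mono agree_dedekindEtaUnit (by norm_num)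
  have hX : Agree 6 (X : ℤ⟦X⟧) [0, 1] := agree_X 6
  have hQ' : Agree 6 Q [1, 0, 0, 240, 0, 0] := agree_of_expand hP hQ _ (by decide)
  have hE' : Agree 6 E [1, 0, 0, -24, 0, 0] := agree_of_expand he hE _ (by decide)
  have h1 : Agree 6 (eisenstein4 - Q) [0, 240, 2160, 6480, 17520, 30240] :=
    agree_sub _ hP hQ' (by decide)
  have h2 : Agree 6 ((81 : ℤ⟦X⟧)) [81] := agree_ofNat 6 81
  have h3 : Agree 6 ((81 : ℤ⟦X⟧) * Q) [81, 0, 0, 19440, 0, 0] :=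
    Agree.mul _ h2 hQ' (by decide)
  have h4 : Agree 6 (((81 : ℤ⟦X⟧) * Q) - eisenstein4) [80, -240, -2160, 12720, -17520, -30240] :=
    agree_sub _ h3 hP (by decide)
  have h5 : Agree 6 ((9 : ℤ⟦X⟧)) [9] := agree_ofNat 6 9
  have h6 : Agree 6 ((9 : ℤ⟦X⟧) * Q) [9, 0, 0, 2160, 0, 0] :=
    Agree.mul _ h5 hQ' (by decide)
  have h7 : Agree 6 (eisenstein4 + ((9 : ℤ⟦X⟧) * Q)) [10, 240, 2160, 8880, 17520, 30240] :=
    agree_add _ hP h6 (by decide)
  have h8 : Agree 6 ((eisenstein4 - Q) * (eisenstein4 - Q)) [0, 0, 57600, 1036800, 7776000, 36403200] :=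
    Agree.mul _ h1 h1 (by decide)
  have h9 : Agree 6 (((eisenstein4 - Q) * (eisenstein4 - Q)) * (eisenstein4 - Q)) [0, 0, 0, 13824000, 373248000, 4478976000] :=
    Agree.mul _ h8 h1 (by decide)
  have h10 : Agree 6 ((((eisenstein4 - Q) * (eisenstein4 - Q)) * (eisenstein4 - Q)) * (((81 : ℤ⟦X⟧) * Q) - eisenstein4)) [0, 0, 0, 1105920000, 26542080000, 238878720000] :=
    Agree.mul _ h9 h4 (by decide)
  have h11 : Agree 6 ((110592000 : ℤ⟦X⟧)) [110592000] := agree_ofNat 6 110592000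
  have h12 : Agree 6 (X * X) [0, 0, 1, 0, 0, 0] :=
    Agree.mul _ hX hX (by decide)
  have h13 : Agree 6 ((X * X) * X) [0, 0, 0, 1, 0, 0] :=
    Agree.mul _ h12 hX (by decide)
  have h14 : Agree 6 (((X * X) * X) * E) [0, 0, 0, 1, 0, 0] :=
    Agree.mul _ h13 hE' (by decide)
  have h15 : Agree 6 ((eisenstein4 + ((9 : ℤ⟦X⟧) * Q)) * (((X * X) * X) * E)) [0, 0, 0, 10, 240, 2160] :=
    Agree.mul _ h7 h14 (by decide)
  have h16 : Agree 6 ((110592000 : ℤ⟦X⟧) * ((eisenstein4 + ((9 : ℤ⟦X⟧) * Q)) * (((X * X) * X) * E))) [0, 0, 0, 1105920000, 26542080000, 238878720000] :=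
    Agree.mul _ h11 h15 (by decide)
  have el : (eisenstein4 - Q) ^ 3 * (((81 : ℤ⟦X⟧) * Q) - eisenstein4) = (((eisenstein4 - Q) * (eisenstein4 - Q)) * (eisenstein4 - Q)) * (((81 : ℤ⟦X⟧) * Q) - eisenstein4) := by ring
  have er : 110592000 * ((eisenstein4 + ((9 : ℤ⟦X⟧) * Q)) * (X ^ 3 * E)) = (110592000 : ℤ⟦X⟧) * ((eisenstein4 + ((9 : ℤ⟦X⟧) * Q)) * (((X * X) * X) * E)) := by ring
  intro n hn
  rw [el, er]
  exact coeff_sub_eq_zero_of_agree h10 h16 n (by omega)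

/-! ### `PowerSeries.expand` forms -/

theorem sturm_two_a_expand :
    ∀ n ≤ 3, coeff n ((eisenstein4 - expand 2 two_ne_zero eisenstein4) *
      (16 * expand 2 two_ne_zero eisenstein4 - eisenstein4) ^ 2 -
      54000 * (X * dedekindEtaUnit)) = 0 :=
  sturm_two_a _ fun _ => coeff_expand 2 two_ne_zero _

theorem sturm_two_b_expand :
    ∀ n ≤ 3, coeff n ((eisenstein4 - expand 2 two_ne_zero eisenstein4) ^ 2 *
      (16 * expand 2 two_ne_zero eisenstein4 - eisenstein4) -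
      864000 * (X ^ 2 * expand 2 two_ne_zero dedekindEtaUnit)) = 0 :=
  sturm_two_b _ _ (fun _ => coeff_expand 2 two_ne_zero _) (fun _ => coeff_expand 2 two_ne_zero _)

theorem sturm_three_a_expand :
    ∀ n ≤ 5, coeff n ((eisenstein4 - expand 3 three_ne_zero eisenstein4) *
      (81 * expand 3 three_ne_zero eisenstein4 - eisenstein4) ^ 3 -
      12288000 * ((eisenstein4 + 9 * expand 3 three_ne_zero eisenstein4) *
        (X * dedekindEtaUnit))) = 0 :=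
  sturm_three_a _ fun _ => coeff_expand 3 three_ne_zero _

theorem sturm_three_b_expand :
    ∀ n ≤ 5, coeff n ((eisenstein4 - expand 3 three_ne_zero eisenstein4) ^ 3 *
      (81 * expand 3 three_ne_zero eisenstein4 - eisenstein4) -
      110592000 * ((eisenstein4 + 9 * expand 3 three_ne_zero eisenstein4) *
        (X ^ 3 * expand 3 three_ne_zero dedekindEtaUnit))) = 0 :=
  sturm_three_b _ _ (fun _ => coeff_expand 3 three_ne_zero _)
    (fun _ => coeff_expand 3 three_ne_zero _)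

end Fermat.Agent.S18.H24
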