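/-
S18, node (DISC) / TN-etale (helper13).  Mathlib only.

Pure commutative algebra: "finite free with unit discriminant => all maximal localisations are
discrete valuation rings".

* `exists_isDomain_isDVR_of_maximalIdeal_eq_span`: a noetherian local ring whose maximal ideal is
  generated by one non-zero-divisor is a discrete valuation ring.
* `mem_map_of_pow_mem`: for a finite free algebra `B` over `R` and a prime `p` of `R` not
  containing the discriminant, `B / p B` is reduced.
* `exists_not_mem_forall_mul_mem`: a maximal ideal `n` of `B` over such a maximal `p` is, locally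
  at `n`, equal to `p B`.
* `localization_structure`: if `p` is locally generated by `π, P` with `P` regular modulo `π`,
  then `D = B_n` is a noetherian local ring with maximal ideal `(π, P) D` and `P` is regular
  modulo `π` on `D`.
* `tn_etale`: the local case `R` local with maximal ideal `(π, P)`: `B_n / π B_n` is a DVR.
* `exists_isDomain_isDVR_of_principal`, `exists_isDomain_isDVR_of_discr`,
  `exists_isDomain_isDVR_of_discr_isUnit`: over a base that is locally principal at `p` (a DVR, a
  Dedekind domain), `B_n` itself is a DVR.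
-/
import Mathlib

set_option autoImplicit false

namespace Fermat.Agent.S18.H13

open IsLocalRing

section DVR

variable {D : Type*} [CommRing D] [IsLocalRing D] [IsNoetherianRing D]

omit [IsNoetherianRing D] in
theorem pow_ne_zero_of_regular (t : D) (hreg : ∀ x : D, t * x = 0 → x = 0) (n : ℕ) :
    t ^ n ≠ 0 := by
  induction n with
  | zero => simp
  | succ n ih =>
    intro h
    rw [pow_succ'] at h
    exact ih (hreg _ h)

theorem exists_eq_pow_mul_unit (t : D) (ht : maximalIdeal D = Ideal.span {t}) (x : D)
    (hx : x ≠ 0) : ∃ (n : ℕ) (u : D), IsUnit u ∧ x = t ^ n * u := by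
  classical
  have hbot : ⨅ i : ℕ, (maximalIdeal D) ^ i = ⊥ :=
    Ideal.iInf_pow_eq_bot_of_isLocalRing (maximalIdeal D) Ideal.IsPrime.ne_top'
  have hex : ∃ n : ℕ, x ∉ (maximalIdeal D) ^ n := by
    by_contra hcon
    have : x ∈ ⨅ i : ℕ, (maximalIdeal D) ^ i := by
      simp only [Ideal.mem_iInf]
      intro i
      by_contra hi
      exact hcon ⟨i, hi⟩
    rw [hbot] at this
    exact hx (by simpa using this)
  let n := Nat.find hex
  have hn : x ∉ (maximalIdeal D) ^ n := Nat.find_spec hex
  have hn0 : n ≠ 0 := by
    intro h0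
    rw [h0] at hn
    simp at hn
  obtain ⟨k, hk⟩ := Nat.exists_eq_succ_of_ne_zero hn0
  have hk' : x ∈ (maximalIdeal D) ^ k := by
    by_contra hcon
    have := Nat.find_min' hex hcon
    omega
  rw [ht, Ideal.span_singleton_pow, Ideal.mem_span_singleton'] at hk'
  obtain ⟨u, hu⟩ := hk'
  refine ⟨k, u, ?_, by rw [← hu, mul_comm]⟩
  by_contra hnu
  have humem : u ∈ maximalIdeal D := (IsLocalRing.mem_maximalIdeal u).mpr hnu
  rw [ht, Ideal.mem_span_singleton'] at humem
  obtain ⟨v, hv⟩ := humem
  apply hn
  rw [hk, ht, Ideal.span_singleton_pow, Ideal.mem_span_singleton']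
  exact ⟨v, by rw [← hu, ← hv, pow_succ]; ring⟩

/-- A noetherian local ring whose maximal ideal is generated by a single non-zero-divisor is a
discrete valuation ring (in particular a domain). -/
theorem exists_isDomain_isDVR_of_maximalIdeal_eq_span (t : D)
    (ht : maximalIdeal D = Ideal.span {t}) (hreg : ∀ x : D, t * x = 0 → x = 0) :
    ∃ _ : IsDomain D, IsDiscreteValuationRing D := by
  have hnzd : NoZeroDivisors D := by
    refine ⟨fun {x y} hxy => ?_⟩
    by_contra hcon
    rw [not_or] at hcon
    obtain ⟨n, u, hu, rfl⟩ := exists_eq_pow_mul_unit t ht x hcon.1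
    obtain ⟨m, v, hv, rfl⟩ := exists_eq_pow_mul_unit t ht y hcon.2
    have h1 : t ^ (n + m) * (u * v) = 0 := by rw [← hxy, pow_add]; ring
    have h2 : t ^ (n + m) = 0 := by
      have := congrArg (fun z => z * ((hu.mul hv).unit⁻¹ : Dˣ).val) h1
      simpa [mul_assoc] using this
    exact pow_ne_zero_of_regular t hreg _ h2
  have hdom : IsDomain D := NoZeroDivisors.to_isDomain D
  refine ⟨hdom, ?_⟩
  have hnf : ¬ IsField D := by
    rw [IsLocalRing.isField_iff_maximalIdeal_eq, ht, Ideal.span_singleton_eq_bot]
    intro h0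
    have := hreg 1 (by rw [h0, zero_mul])
    exact one_ne_zero this
  refine ((IsDiscreteValuationRing.TFAE D hnf).out 0 4).mpr ?_
  exact ⟨⟨t, ht⟩⟩

end DVR

section Trace

variable {R B : Type*} [CommRing R] [CommRing B] [Algebra R B]

/-- Every `R`-linear functional maps `I B` into `I`. -/
theorem functional_mem_of_mem_map (I : Ideal R) (w : B) (hw : w ∈ I.map (algebraMap R B))
    (l : B →ₗ[R] R) : l w ∈ I := by
  revert l
  refine Submodule.span_induction (p := fun w _ => ∀ l : B →ₗ[R] R, l w ∈ I) ?_ ?_ ?_ ?_ hw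
  · rintro _ ⟨m, hm, rfl⟩ l
    rw [Algebra.algebraMap_eq_smul_one, map_smul, smul_eq_mul]
    exact I.mul_mem_right _ hm
  · intro l
    simp
  · intro x y _ _ hx hy l
    rw [map_add]
    exact I.add_mem (hx l) (hy l)
  · intro a x _ hx l
    have := hx (l.comp (LinearMap.mulLeft R a))
    simpa using this

variable {ι : Type*} [Fintype ι] [DecidableEq ι]

/-- If the discriminant of a basis is not in the prime `p`, the trace form detects `p B`. -/
theorem mem_map_of_trace_mem (b : Module.Basis ι R B) (p : Ideal R) [hp : p.IsPrime]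
    (hd : Algebra.discr R b ∉ p) (x : B) (hx : ∀ y : B, Algebra.trace R B (x * y) ∈ p) :
    x ∈ p.map (algebraMap R B) := by
  set T := Algebra.traceMatrix R b with hT
  set c : ι → R := fun i => b.repr x i with hc
  have h1 : ∀ j, (T.mulVec c) j ∈ p := by
    intro j
    have : (T.mulVec c) j = Algebra.trace R B (x * b j) := by
      have hxsum : x = ∑ i, c i • b i := (b.sum_repr x).symm
      conv_rhs => rw [hxsum, Finset.sum_mul, map_sum]
      simp only [Matrix.mulVec, dotProduct, hT, Algebra.traceMatrix_apply,
        Algebra.traceForm_apply]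
      refine Finset.sum_congr rfl fun i _ => ?_
      rw [smul_mul_assoc, map_smul, smul_eq_mul, mul_comm (b j) (b i), mul_comm]
    rw [this]
    exact hx _
  have h2 : T.det • c = T.adjugate.mulVec (T.mulVec c) := by
    rw [Matrix.mulVec_mulVec, Matrix.adjugate_mul, Matrix.smul_mulVec, Matrix.one_mulVec]
  have h3 : ∀ i, c i ∈ p := by
    intro i
    have h4 : T.det * c i ∈ p := by
      have := congrFun h2 i
      rw [Pi.smul_apply, smul_eq_mul] at this
      rw [this]
      simp only [Matrix.mulVec, dotProduct]
      exact p.sum_mem fun j _ => p.mul_mem_left _ (h1 j)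
    exact (hp.mem_or_mem h4).resolve_left hd
  rw [← b.sum_repr x]
  refine Ideal.sum_mem _ fun i _ => ?_
  rw [Algebra.smul_def]
  exact Ideal.mul_mem_right _ _ (Ideal.mem_map_of_mem _ (h3 i))

/-- Elements that are nilpotent modulo `p B` (`p` prime) have trace in `p`. -/
theorem trace_mem_of_pow_mem (b : Module.Basis ι R B) (p : Ideal R) [hp : p.IsPrime] (x : B)
    (N : ℕ) (hx : x ^ N ∈ p.map (algebraMap R B)) : Algebra.trace R B x ∈ p := by
  rw [Algebra.trace_eq_matrix_trace b]
  set M := Algebra.leftMulMatrix b x with hM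
  set φ : R →+* R ⧸ p := Ideal.Quotient.mk p with hφ
  have hpow : (M.map φ) ^ N = 0 := by
    have h1 : (M.map φ) ^ N = (M ^ N).map φ := by
      rw [← RingHom.mapMatrix_apply, ← RingHom.mapMatrix_apply, map_pow]
    rw [h1, hM, ← map_pow]
    ext i j
    rw [Matrix.map_apply, Matrix.zero_apply, Algebra.leftMulMatrix_eq_repr_mul, hφ,
      Ideal.Quotient.eq_zero_iff_mem]
    have hmem : x ^ N * b j ∈ p.map (algebraMap R B) := Ideal.mul_mem_right _ _ hx
    exact functional_mem_of_mem_map _ _ hmem (b.coord i)
  have hnil : IsNilpotent (M.map φ).trace :=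
    Matrix.isNilpotent_trace_of_isNilpotent ⟨N, hpow⟩
  have h0 : (M.map φ).trace = 0 := hnil.eq_zero
  have h1 : (M.map φ).trace = φ M.trace := by
    simp [Matrix.trace, Matrix.diag]
  rw [h1, hφ, Ideal.Quotient.eq_zero_iff_mem] at h0
  exact h0

/-- `B / p B` is reduced when the discriminant of a basis is not in the prime `p`. -/
theorem mem_map_of_pow_mem (b : Module.Basis ι R B) (p : Ideal R) [p.IsPrime]
    (hd : Algebra.discr R b ∉ p) (x : B) (N : ℕ) (hx : x ^ N ∈ p.map (algebraMap R B)) :
    x ∈ p.map (algebraMap R B) := by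
  refine mem_map_of_trace_mem b p hd x fun y => ?_
  refine trace_mem_of_pow_mem b p (x * y) N ?_
  rw [mul_pow]
  exact Ideal.mul_mem_right _ _ hx

end Trace

section Main

variable {R B : Type*} [CommRing R] [CommRing B] [Algebra R B]
variable {ι : Type*} [Fintype ι] [DecidableEq ι]

/-- If the discriminant is not in the maximal ideal `p`, a maximal ideal `n` of `B` over `p`
coincides with `p B` locally at `n`: there is `s ∉ n` with `s • n ⊆ p B`. -/
theorem exists_not_mem_forall_mul_mem (b : Module.Basis ι R B) (p : Ideal R) [hp : p.IsMaximal]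
    (hd : Algebra.discr R b ∉ p) (n : Ideal B) [hn : n.IsMaximal]
    (hnp : n.comap (algebraMap R B) = p) :
    ∃ s : B, s ∉ n ∧ ∀ x ∈ n, s * x ∈ p.map (algebraMap R B) := by
  classical
  have hfin : Module.Finite R B := Module.Finite.of_basis b
  set J := p.map (algebraMap R B) with hJ
  have hJn : J ≤ n := by
    rw [hJ, Ideal.map_le_iff_le_comap, hnp]
  have hart : IsArtinianRing (B ⧸ J) := by
    let _ : Field (R ⧸ p) := Ideal.Quotient.field _
    have : Module.Finite (R ⧸ p) (B ⧸ J) := Module.Finite.of_restrictScalars_finite R _ _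
    exact IsArtinianRing.of_finite (R ⧸ p) _
  have hred : IsReduced (B ⧸ J) := by
    refine ⟨fun x hx => ?_⟩
    obtain ⟨x, rfl⟩ := Ideal.Quotient.mk_surjective x
    obtain ⟨N, hN⟩ := hx
    rw [← map_pow, Ideal.Quotient.eq_zero_iff_mem] at hN
    rw [Ideal.Quotient.eq_zero_iff_mem]
    exact mem_map_of_pow_mem b p hd x N hN
  set q := Ideal.Quotient.mk J with hq
  have hqs : Function.Surjective q := Ideal.Quotient.mk_surjective
  have hnbar : (n.map q).IsMaximal := by
    rcases Ideal.map_eq_top_or_isMaximal_of_surjective q hqs hn with h | h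
    · exfalso
      have h2 : (n.map q).comap q = n := by
        rw [Ideal.comap_map_of_surjective' q hqs, Ideal.mk_ker, sup_eq_left.mpr hJn]
      rw [h, Ideal.comap_top] at h2
      exact hn.ne_top h2.symm
    · exact h
  let m₀ : MaximalSpectrum (B ⧸ J) := ⟨n.map q, hnbar⟩
  set e := (IsArtinianRing.equivPi (B ⧸ J)).symm (Pi.single m₀ 1) with he
  have hem : IsArtinianRing.equivPi (B ⧸ J) e = Pi.single m₀ 1 := by
    rw [he, AlgEquiv.apply_symm_apply]
  obtain ⟨s, hs⟩ := hqs e
  refine ⟨s, ?_, ?_⟩
  · intro hsn
    have h1 : e ∈ n.map q := by rw [← hs]; exact Ideal.mem_map_of_mem q hsn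
    have h2 := congrFun hem m₀
    rw [IsArtinianRing.equivPi_apply, Pi.single_eq_same] at h2
    have h3 : (Ideal.Quotient.mk m₀.asIdeal) e = 0 := Ideal.Quotient.eq_zero_iff_mem.mpr h1
    rw [h3] at h2
    have : Nontrivial ((B ⧸ J) ⧸ m₀.asIdeal) :=
      Ideal.Quotient.nontrivial_iff.mpr hnbar.ne_top
    exact zero_ne_one h2
  · intro x hx
    rw [← Ideal.Quotient.eq_zero_iff_mem, map_mul]
    change q s * q x = 0
    rw [hs]
    apply (IsArtinianRing.equivPi (B ⧸ J)).injective
    rw [map_mul, map_zero, hem]
    funext m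
    rw [Pi.mul_apply, Pi.zero_apply, IsArtinianRing.equivPi_apply]
    by_cases hm : m = m₀
    · subst hm
      have : (Ideal.Quotient.mk m₀.asIdeal) (q x) = 0 :=
        Ideal.Quotient.eq_zero_iff_mem.mpr (Ideal.mem_map_of_mem q hx)
      rw [this, mul_zero]
    · rw [Pi.single_eq_of_ne hm, zero_mul]

/-- The maximal ideal of a quotient of a local ring. -/
theorem maximalIdeal_quotient {D : Type*} [CommRing D] [IsLocalRing D] (I : Ideal D)
    (hI : I ≤ maximalIdeal D) [IsLocalRing (D ⧸ I)] :
    maximalIdeal (D ⧸ I) = (maximalIdeal D).map (Ideal.Quotient.mk I) := by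
  have hqs : Function.Surjective (Ideal.Quotient.mk I) := Ideal.Quotient.mk_surjective
  symm
  apply IsLocalRing.eq_maximalIdeal
  rcases Ideal.map_eq_top_or_isMaximal_of_surjective (Ideal.Quotient.mk I) hqs
    (maximalIdeal.isMaximal D) with h | h
  · exfalso
    have h2 : ((maximalIdeal D).map (Ideal.Quotient.mk I)).comap (Ideal.Quotient.mk I)
        = maximalIdeal D := by
      rw [Ideal.comap_map_of_surjective' _ hqs, Ideal.mk_ker, sup_eq_left.mpr hI]
    rw [h, Ideal.comap_top] at h2
    exact (maximalIdeal.isMaximal D).ne_top h2.symm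
  · exact h

/-- **Local structure of a finite free algebra with unit discriminant.**
`R` noetherian, `p` a maximal ideal of `R` which is generated by `π, P` locally at `p`, with `P`
regular modulo `π` locally at `p`; `B` finite free over `R` with discriminant not in `p`; `n` a
maximal ideal of `B` over `p` and `D = B_n`.  Then `D` is a noetherian local ring with maximal
ideal `(π, P) D`, and `P` is regular modulo `π` on `D`. -/
theorem localization_structure [IsNoetherianRing R] (b : Module.Basis ι R B)
    (p : Ideal R) [hp : p.IsMaximal] (hd : Algebra.discr R b ∉ p)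
    (π P : R) (hπ : π ∈ p) (hP : P ∈ p)
    (hgen : ∃ s₀ : R, s₀ ∉ p ∧ ∀ x ∈ p, s₀ * x ∈ Ideal.span {π, P})
    (hreg : ∀ r s : R, P * r = π * s → ∃ u : R, u ∉ p ∧ π ∣ u * r)
    (n : Ideal B) [hn : n.IsMaximal] (hnp : n.comap (algebraMap R B) = p)
    (D : Type*) [CommRing D] [Algebra B D] [IsLocalization.AtPrime D n] :
    ∃ _ : IsLocalRing D, IsNoetherianRing D ∧
      maximalIdeal D =
        Ideal.span {algebraMap B D (algebraMap R B π), algebraMap B D (algebraMap R B P)} ∧
      ∀ x y : D, algebraMap B D (algebraMap R B P) * x = algebraMap B D (algebraMap R B π) * y →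
        ∃ z : D, x = algebraMap B D (algebraMap R B π) * z := by
  classical
  have hfin : Module.Finite R B := Module.Finite.of_basis b
  have hBnoeth : IsNoetherianRing B := isNoetherian_of_isNoetherianRing_of_finite R B |>
    fun h => isNoetherian_of_tower R h
  have hDnoeth : IsNoetherianRing D := IsLocalization.isNoetherianRing n.primeCompl D hBnoeth
  have hDloc : IsLocalRing D := IsLocalization.AtPrime.isLocalRing D n
  refine ⟨hDloc, hDnoeth, ?_, ?_⟩
  · set J := p.map (algebraMap R B) with hJ
    have hJn : J ≤ n := by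
      rw [hJ, Ideal.map_le_iff_le_comap, hnp]
    set π' : D := algebraMap B D (algebraMap R B π) with hπ'
    set P' : D := algebraMap B D (algebraMap R B P) with hP'
    have hπJ : algebraMap R B π ∈ J := Ideal.mem_map_of_mem _ hπ
    have hPJ : algebraMap R B P ∈ J := Ideal.mem_map_of_mem _ hP
    obtain ⟨s₀, hs₀, hs₀p⟩ := hgen
    have hs₀n : algebraMap R B s₀ ∉ n := fun h => hs₀ (by rw [← hnp]; exact h)
    -- `s₀ • J ⊆ (π, P) B`
    have hJspan : ∀ w ∈ J, algebraMap R B s₀ * w ∈
        Ideal.span {algebraMap R B π, algebraMap R B P} := by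
      intro w hw
      refine Submodule.span_induction (p := fun w _ => algebraMap R B s₀ * w ∈
        Ideal.span {algebraMap R B π, algebraMap R B P}) ?_ ?_ ?_ ?_ hw
      · rintro _ ⟨m, hm, rfl⟩
        rw [← map_mul]
        have := Ideal.mem_map_of_mem (algebraMap R B) (hs₀p m hm)
        rwa [Ideal.map_span, Set.image_pair] at this
      · simp
      · intro x y _ _ hx hy
        rw [mul_add]
        exact Ideal.add_mem _ hx hy
      · intro a x _ hx
        rw [smul_eq_mul, mul_left_comm]
        exact Ideal.mul_mem_left _ _ hx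
    apply le_antisymm
    · obtain ⟨s, hsn, hs⟩ := exists_not_mem_forall_mul_mem b p hd n hnp
      rw [← IsLocalization.AtPrime.map_eq_maximalIdeal n D, Ideal.map_le_iff_le_comap]
      intro x hx
      rw [Ideal.mem_comap]
      have hsx : s * x ∈ J := hs x hx
      have hunit : IsUnit (algebraMap B D s) :=
        IsLocalization.map_units D (⟨s, hsn⟩ : n.primeCompl)
      have hunit₀ : IsUnit (algebraMap B D (algebraMap R B s₀)) :=
        IsLocalization.map_units D (⟨algebraMap R B s₀, hs₀n⟩ : n.primeCompl)
      have h1 : algebraMap B D (algebraMap R B s₀ * (s * x)) ∈ Ideal.span {π', P'} := by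
        have := Ideal.mem_map_of_mem (algebraMap B D) (hJspan _ hsx)
        rwa [Ideal.map_span, Set.image_pair] at this
      rw [map_mul, map_mul] at h1
      exact (Ideal.unit_mul_mem_iff_mem _ hunit).mp
        ((Ideal.unit_mul_mem_iff_mem _ hunit₀).mp h1)
    · rw [Ideal.span_le]
      rintro _ (rfl | rfl)
      · exact (IsLocalization.AtPrime.to_map_mem_maximal_iff D n _).mpr (hJn hπJ)
      · exact (IsLocalization.AtPrime.to_map_mem_maximal_iff D n _).mpr (hJn hPJ)
  · -- regularity of `P` on `B / π B`, locally at `p`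
    have hregB : ∀ x y : B, algebraMap R B P * x = algebraMap R B π * y →
        ∃ (v : R) (z : B), v ∉ p ∧ algebraMap R B v * x = algebraMap R B π * z := by
      intro x y hxy
      have hcoord : ∀ i, ∃ u : R, u ∉ p ∧ π ∣ u * b.repr x i := by
        intro i
        refine hreg (b.repr x i) (b.repr y i) ?_
        have := congrArg (fun w => b.repr w i) hxy
        simpa [← Algebra.smul_def] using this
      choose u hu hdvd using hcoord
      have hvall : ∀ i, π ∣ (∏ j, u j) * b.repr x i := by
        intro i
        rw [← Finset.mul_prod_erase Finset.univ u (Finset.mem_univ i), mul_right_comm]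
        exact Dvd.dvd.mul_right (hdvd i) _
      choose c hc using hvall
      refine ⟨∏ j, u j, ∑ i, c i • b i, ?_, ?_⟩
      · intro hmem
        obtain ⟨j, -, hj⟩ := (hp.isPrime.prod_mem_iff).mp hmem
        exact hu j hj
      · rw [Finset.mul_sum]
        conv_lhs => rw [← b.sum_repr x, Finset.mul_sum]
        refine Finset.sum_congr rfl fun i _ => ?_
        rw [← Algebra.smul_def, smul_smul, hc i, mul_smul, Algebra.smul_def (π : R)]
    intro x y hxy
    obtain ⟨a, s, rfl⟩ := IsLocalization.exists_mk'_eq n.primeCompl x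
    obtain ⟨c, s', rfl⟩ := IsLocalization.exists_mk'_eq n.primeCompl y
    have h1 : algebraMap B D (c * algebraMap R B π * s) =
        algebraMap B D (algebraMap R B P * a * s') := by
      have e1 := IsLocalization.mk'_spec D a s
      have e2 := IsLocalization.mk'_spec D c s'
      simp only [map_mul]
      rw [← e2, ← e1]
      linear_combination (-(algebraMap B D s' * algebraMap B D s)) * hxy
    obtain ⟨u, hu⟩ := (IsLocalization.eq_iff_exists n.primeCompl D).mp h1
    have h2 : algebraMap R B P * ((u : B) * a * s') = algebraMap R B π * ((u : B) * c * s) := by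
      linear_combination -hu
    obtain ⟨v, z, hv, hz⟩ := hregB _ _ h2
    have hvn : algebraMap R B v ∉ n := fun h => hv (by rw [← hnp]; exact h)
    let w : n.primeCompl := ⟨algebraMap R B v, hvn⟩ * u * s * s'
    refine ⟨IsLocalization.mk' D z w, ?_⟩
    have hunit : IsUnit (algebraMap B D (w : B)) := IsLocalization.map_units D w
    have e3 := IsLocalization.mk'_spec D z w
    have e1 := IsLocalization.mk'_spec D a s
    apply hunit.mul_right_cancel
    have hz' : algebraMap B D (algebraMap R B v) * algebraMap B D (u : B) * algebraMap B D a *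
        algebraMap B D (s' : B) = algebraMap B D (algebraMap R B π) * algebraMap B D z := by
      rw [← map_mul, ← map_mul, ← map_mul, ← map_mul, ← hz]
      congr 1
      ring
    have hw : algebraMap B D (w : B) = algebraMap B D (algebraMap R B v) * algebraMap B D (u : B) *
        algebraMap B D (s : B) * algebraMap B D (s' : B) := by
      simp only [w, Submonoid.coe_mul, map_mul]
    rw [hw] at e3 ⊢
    linear_combination
      (algebraMap B D (algebraMap R B v) * algebraMap B D (u : B) * algebraMap B D (s' : B)) * e1 +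
        hz' - (algebraMap B D (algebraMap R B π)) * e3

/-- A noetherian local ring `D` with maximal ideal `(π, P)`, `P` regular modulo `π`: the
quotient `D / π` is a discrete valuation ring. -/
theorem exists_isDomain_isDVR_quotient {D : Type*} [CommRing D] [IsLocalRing D]
    [IsNoetherianRing D] (π' P' : D) (hmaxD : maximalIdeal D = Ideal.span {π', P'})
    (hregD : ∀ x y : D, P' * x = π' * y → ∃ z : D, x = π' * z) :
    ∃ _ : IsDomain (D ⧸ Ideal.span {π'}), IsDiscreteValuationRing (D ⧸ Ideal.span {π'}) := by
  set I : Ideal D := Ideal.span {π'} with hI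
  have hIle : I ≤ maximalIdeal D := by
    rw [hI, hmaxD]
    exact Ideal.span_mono (by simp)
  have hnt : Nontrivial (D ⧸ I) :=
    Ideal.Quotient.nontrivial_iff.mpr fun h => (maximalIdeal.isMaximal D).ne_top
      (top_le_iff.mp (h ▸ hIle))
  have hQloc : IsLocalRing (D ⧸ I) :=
    IsLocalRing.of_surjective' (Ideal.Quotient.mk I) Ideal.Quotient.mk_surjective
  have hQmax : maximalIdeal (D ⧸ I) = Ideal.span {Ideal.Quotient.mk I P'} := by
    rw [maximalIdeal_quotient I hIle, hmaxD, Ideal.map_span, Set.image_pair]
    have h0 : Ideal.Quotient.mk I π' = 0 :=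
      Ideal.Quotient.eq_zero_iff_mem.mpr (Ideal.subset_span rfl)
    rw [h0]
    apply le_antisymm
    · rw [Ideal.span_le]
      rintro _ (rfl | rfl)
      · exact Ideal.zero_mem _
      · exact Ideal.subset_span rfl
    · exact Ideal.span_mono (by simp)
  have hreg' : ∀ x : D ⧸ I, Ideal.Quotient.mk I P' * x = 0 → x = 0 := by
    intro x hx
    obtain ⟨x, rfl⟩ := Ideal.Quotient.mk_surjective x
    rw [← map_mul, Ideal.Quotient.eq_zero_iff_mem, hI, Ideal.mem_span_singleton'] at hx
    obtain ⟨y, hy⟩ := hx
    rw [Ideal.Quotient.eq_zero_iff_mem, hI, Ideal.mem_span_singleton']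
    obtain ⟨z, hz⟩ := hregD x y (by rw [← hy, mul_comm])
    exact ⟨z, by rw [hz, mul_comm]⟩
  have hQnoeth : IsNoetherianRing (D ⧸ I) := Ideal.Quotient.isNoetherianRing I
  exact exists_isDomain_isDVR_of_maximalIdeal_eq_span _ hQmax hreg'

/-- **TN, etale point.**  `R` noetherian local with maximal ideal `(π, P)`, `P` regular modulo
`π`; `B` a finite free `R`-algebra with unit trace discriminant.  Then for every maximal ideal
`n` of `B`, with `D = B_n`: `D` is local with maximal ideal `(π, P) D`, and `D / π D` is a
discrete valuation ring. -/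
theorem tn_etale [IsLocalRing R] [IsNoetherianRing R] (b : Module.Basis ι R B)
    (hd : IsUnit (Algebra.discr R b)) (π P : R) (hm : maximalIdeal R = Ideal.span {π, P})
    (hreg : ∀ r s : R, P * r = π * s → π ∣ r)
    (n : Ideal B) [hn : n.IsMaximal]
    (D : Type*) [CommRing D] [Algebra B D] [IsLocalization.AtPrime D n] :
    ∃ _ : IsLocalRing D,
      maximalIdeal D =
        Ideal.span {algebraMap B D (algebraMap R B π), algebraMap B D (algebraMap R B P)} ∧
      ∃ _ : IsDomain (D ⧸ Ideal.span {algebraMap B D (algebraMap R B π)}),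
        IsDiscreteValuationRing (D ⧸ Ideal.span {algebraMap B D (algebraMap R B π)}) := by
  have hfin : Module.Finite R B := Module.Finite.of_basis b
  have hnp : n.comap (algebraMap R B) = maximalIdeal R :=
    IsLocalRing.eq_maximalIdeal (Ideal.isMaximal_comap_of_isIntegral_of_isMaximal (R := R) n)
  have hd' : Algebra.discr R b ∉ maximalIdeal R := fun h =>
    (IsLocalRing.mem_maximalIdeal _).mp h hd
  have hπ : π ∈ maximalIdeal R := by rw [hm]; exact Ideal.subset_span (by simp)
  have hP : P ∈ maximalIdeal R := by rw [hm]; exact Ideal.subset_span (by simp)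
  obtain ⟨hloc, hnoeth, hmax, hregD⟩ := localization_structure b (maximalIdeal R) hd' π P hπ hP
    ⟨1, fun h => (maximalIdeal.isMaximal R).ne_top ((Ideal.eq_top_iff_one _).mpr h),
      fun x hx => by rw [one_mul, ← hm]; exact hx⟩
    (fun r s h => ⟨1, fun h1 => (maximalIdeal.isMaximal R).ne_top ((Ideal.eq_top_iff_one _).mpr h1),
      by rw [one_mul]; exact hreg r s h⟩) n hnp D
  exact ⟨hloc, hmax, exists_isDomain_isDVR_quotient _ _ hmax hregD⟩

/-- Variant of `localization_structure` for a base which is, locally at `p`, generated by ONE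
regular element `t` (e.g. a discrete valuation ring, or a Dedekind domain): then `D = B_n` is a
discrete valuation ring. -/
theorem exists_isDomain_isDVR_of_principal [IsNoetherianRing R] (b : Module.Basis ι R B)
    (p : Ideal R) [hp : p.IsMaximal] (hd : Algebra.discr R b ∉ p)
    (t : R) (ht : t ∈ p)
    (hgen : ∃ s₀ : R, s₀ ∉ p ∧ ∀ x ∈ p, s₀ * x ∈ Ideal.span {t})
    (hreg : ∀ r : R, t * r = 0 → ∃ u : R, u ∉ p ∧ u * r = 0)
    (n : Ideal B) [hn : n.IsMaximal] (hnp : n.comap (algebraMap R B) = p)
    (D : Type*) [CommRing D] [Algebra B D] [IsLocalization.AtPrime D n] :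
    ∃ _ : IsDomain D, IsDiscreteValuationRing D := by
  obtain ⟨s₀, hs₀, hs₀p⟩ := hgen
  obtain ⟨hloc, hnoeth, hmax, hregD⟩ := localization_structure b p hd 0 t (Ideal.zero_mem p) ht
    ⟨s₀, hs₀, fun x hx => Ideal.span_mono (by simp) (hs₀p x hx)⟩
    (fun r s h => by
      obtain ⟨u, hu, hur⟩ := hreg r (by rw [h, zero_mul])
      exact ⟨u, hu, by rw [hur]⟩) n hnp D
  have hmax' : maximalIdeal D = Ideal.span {algebraMap B D (algebraMap R B t)} := by
    rw [hmax, map_zero, map_zero]
    apply le_antisymm
    · rw [Ideal.span_le]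
      rintro _ (rfl | rfl)
      · exact Ideal.zero_mem _
      · exact Ideal.subset_span rfl
    · exact Ideal.span_mono (by simp)
  refine exists_isDomain_isDVR_of_maximalIdeal_eq_span _ hmax' fun x hx => ?_
  obtain ⟨z, hz⟩ := hregD x 0 (by rw [hx, mul_zero])
  rw [hz, map_zero, map_zero, zero_mul]

/-- **(DISC), global form over a Dedekind base.**  `T` a Dedekind domain which is not a field,
`S` a finite free `T`-algebra, `n` a maximal ideal of `S` such that the discriminant of a basis
is not in `n ∩ T` (e.g. the discriminant is a unit).  Then `S_n` is a discrete valuation ring. -/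
theorem exists_isDomain_isDVR_of_discr {T S : Type*} [CommRing T]
    [IsDedekindDomain T] [CommRing S] [Algebra T S] {ι : Type*} [Fintype ι] [DecidableEq ι]
    (hT : ¬ IsField T) (b : Module.Basis ι T S) (n : Ideal S) [hn : n.IsMaximal]
    (hd : Algebra.discr T b ∉ n.comap (algebraMap T S))
    (D : Type*) [CommRing D] [Algebra S D] [IsLocalization.AtPrime D n] :
    ∃ _ : IsDomain D, IsDiscreteValuationRing D := by
  have hfin : Module.Finite T S := Module.Finite.of_basis b
  set p := n.comap (algebraMap T S) with hp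
  have hpmax : p.IsMaximal := Ideal.isMaximal_comap_of_isIntegral_of_isMaximal (R := T) n
  have hp0 : p ≠ ⊥ := Ring.ne_bot_of_isMaximal_of_not_isField hpmax hT
  obtain ⟨t, ht, ht2⟩ := Ideal.exists_mem_pow_notMem_pow_succ p hp0 hpmax.ne_top 1
  rw [pow_one] at ht
  have ht0 : t ≠ 0 := fun h => ht2 (h ▸ Ideal.zero_mem _)
  have hle : Ideal.span {t} ≤ p := (Ideal.span_singleton_le_iff_mem _).mpr ht
  obtain ⟨J, hJ⟩ := Ideal.dvd_iff_le.mpr hle
  have hJp : ¬ J ≤ p := by
    intro hJp
    apply ht2
    have : Ideal.span {t} ≤ p ^ 2 := by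
      rw [hJ, pow_two]
      exact Ideal.mul_mono_right hJp
    exact this (Ideal.subset_span rfl)
  obtain ⟨s₀, hs₀J, hs₀p⟩ := SetLike.not_le_iff_exists.mp hJp
  refine exists_isDomain_isDVR_of_principal b p hd t ht ⟨s₀, hs₀p, fun x hx => ?_⟩
    (fun r hr => ⟨1, fun h => hpmax.ne_top ((Ideal.eq_top_iff_one _).mpr h), ?_⟩) n rfl D
  · rw [hJ, mul_comm s₀ x]
    exact Ideal.mul_mem_mul hx hs₀J
  · rw [one_mul]
    exact (mul_eq_zero.mp hr).resolve_left ht0

/-- `exists_isDomain_isDVR_of_discr` with a unit discriminant: ALL maximal localisations of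
`S` are discrete valuation rings. -/
theorem exists_isDomain_isDVR_of_discr_isUnit {T S : Type*} [CommRing T]
    [IsDedekindDomain T] [CommRing S] [Algebra T S] {ι : Type*} [Fintype ι] [DecidableEq ι]
    (hT : ¬ IsField T) (b : Module.Basis ι T S) (hd : IsUnit (Algebra.discr T b))
    (n : Ideal S) [hn : n.IsMaximal]
    (D : Type*) [CommRing D] [Algebra S D] [IsLocalization.AtPrime D n] :
    ∃ _ : IsDomain D, IsDiscreteValuationRing D := by
  have hfin : Module.Finite T S := Module.Finite.of_basis b
  have hpmax : (n.comap (algebraMap T S)).IsMaximal :=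
    Ideal.isMaximal_comap_of_isIntegral_of_isMaximal (R := T) n
  exact exists_isDomain_isDVR_of_discr hT b n
    (fun h => hpmax.ne_top (Ideal.eq_top_of_isUnit_mem _ h hd)) D

end Main

end Fermat.Agent.S18.H13
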