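import Fermat.Agent.S18.Top_helper64

/-!
# S18, TOP chain, part 2 (helper64): descent to a number field

* `Kum0 K0 A0 L m` : the model-level Kummer statement over a field `K0` with a valuation
  subring `A0` (think: number field, `A0 = A ∩ K0` a DVR).
* `StmtDesc L` : node (DESC), every finite family of `Fbar_L` is defined over a number field.
* `kumPow_of_kum0` : `StmtDesc L` + `Kum0` for all number fields `K0 ≤ Qbar` ⟹ `KumPow A L m`.
-/

set_option autoImplicit false

noncomputable section

open ModularCurve AlgebraicCurve HahnSeries IntermediateField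

namespace Fermat.Agent.S18.T64

/-- **(KUM0), the model-level Kummer statement.**  `K0` a field, `A0` a valuation subring,
`F0 = K0(j(q^d) : d ∣ L)` inside `K0((q))`.  For `A0`-integral `Y1, Y2` in `F0` with equal
nonzero reductions such that `f = Y1 / Y2` is a unit times an `m`-th power at every valuation
subring of `F0` containing `K0`: `f = σ ^ m / c` with `σ ∈ F0` and `c ∈ K0` nonzero. -/
def Kum0 (K0 : Type) [Field K0] (A0 : ValuationSubring K0) (L m : ℕ) [NeZero L] : Prop :=
  ∀ (Y1 Y2 : LaurentSeries A0)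
    (h1 : coeffMap A0.subtype Y1 ∈ modularFunctionFieldFullC K0 L)
    (h2 : coeffMap A0.subtype Y2 ∈ modularFunctionFieldFullC K0 L),
    coeffMap (IsLocalRing.residue A0) Y1 ≠ 0 →
    coeffMap (IsLocalRing.residue A0) Y1 = coeffMap (IsLocalRing.residue A0) Y2 →
    (∀ O : ValuationSubring (modularFunctionFieldFullC K0 L),
      (∀ c : K0, algebraMap K0 (modularFunctionFieldFullC K0 L) c ∈ O) →
      ∃ g : modularFunctionFieldFullC K0 L, g ≠ 0 ∧
        ((⟨coeffMap A0.subtype Y1, h1⟩ : modularFunctionFieldFullC K0 L) /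
          ⟨coeffMap A0.subtype Y2, h2⟩) / g ^ m ∈ O ∧
        g ^ m / ((⟨coeffMap A0.subtype Y1, h1⟩ : modularFunctionFieldFullC K0 L) /
          ⟨coeffMap A0.subtype Y2, h2⟩) ∈ O) →
    ∃ (σ : LaurentSeries K0) (c : K0), σ ∈ modularFunctionFieldFullC K0 L ∧ c ≠ 0 ∧
      σ ^ m * coeffMap A0.subtype Y2 =
        algebraMap K0 (LaurentSeries K0) c * coeffMap A0.subtype Y1

/-- **(DESC).**  Every finite family of `Fbar_L` is defined over a number field `K0 ≤ Qbar`. -/
def StmtDesc (L : ℕ) [NeZero L] : Prop :=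
  ∀ S : Finset (LaurentSeries (AlgebraicClosure ℚ)),
    (∀ y ∈ S, y ∈ modularFunctionFieldBar L) →
    ∃ K0 : IntermediateField ℚ (AlgebraicClosure ℚ), FiniteDimensional ℚ K0 ∧
      ∀ y ∈ S, ∃ y0 : LaurentSeries K0, y0 ∈ modularFunctionFieldFullC K0 L ∧
        coeffMap (algebraMap K0 (AlgebraicClosure ℚ)) y0 = y

section CoeffMap

/-- `coeffMap` of an injective map is injective -/
theorem coeffMap_injective_of_injective {R S : Type*} [CommRing R] [CommRing S] (f : R →+* S)
    (hf : Function.Injective f) : Function.Injective (coeffMap f) := by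
  intro x y h
  ext n
  apply hf
  have := congrArg (fun z : LaurentSeries S => z.coeff n) h
  simpa using this

/-- a Laurent series all of whose coefficients lie in a valuation subring comes from it -/
theorem exists_coeffMap_subtype_eq {K : Type*} [Field K] (A : ValuationSubring K)
    (z : LaurentSeries K) (h : ∀ n : ℤ, z.coeff n ∈ A) :
    ∃ Y : LaurentSeries A, coeffMap A.subtype Y = z := by
  refine ⟨⟨fun n => ⟨z.coeff n, h n⟩, z.isPWO_support.mono ?_⟩, ?_⟩
  · intro n hn
    rw [Function.mem_support] at hn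
    rw [HahnSeries.mem_support]
    intro h0
    exact hn (Subtype.ext h0)
  · ext n
    rfl

/-- a field homomorphism maps the level-`L` function field into any subfield containing the
constants and the generators. -/
theorem coeffMap_mem_of_mem_fullC {K K' : Type*} [Field K] [Field K'] (f : K →+* K')
    (L : ℕ) [NeZero L] (T : IntermediateField K' (LaurentSeries K'))
    (hT : ∀ (d : ℕ) [NeZero d], d ∣ L → qExpand K' d (jqModC K') ∈ T)
    {y : LaurentSeries K} (hy : y ∈ modularFunctionFieldFullC K L) : coeffMap f y ∈ T := by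
  have hy' : y ∈ Subfield.closure
      (Set.range (algebraMap K (LaurentSeries K)) ∪ divisorExpansionsC K L) := hy
  clear hy
  induction hy' using Subfield.closure_induction with
  | mem y hy =>
    rcases hy with ⟨c, rfl⟩ | ⟨d, hd0, hd, rfl⟩
    · rw [algebraMap_laurentSeries_eq_single, coeffMap_single,
        ← algebraMap_laurentSeries_eq_single]
      exact T.algebraMap_mem _
    · rw [coeffMap_qExpand, coeffMap_jqModC]
      exact hT d hd
  | one => rw [map_one]; exact one_mem _
  | add x y _ _ hx hy => rw [map_add]; exact add_mem hx hy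
  | neg x _ hx => rw [map_neg]; exact neg_mem hx
  | inv x _ hx => rw [map_inv₀]; exact inv_mem hx
  | mul x y _ _ hx hy => rw [map_mul]; exact mul_mem hx hy

/-- the generators of level `L` lie in `Fbar_L` -/
theorem qExpand_jq_mem_bar (L : ℕ) [NeZero L] (d : ℕ) [NeZero d] (hd : d ∣ L) :
    qExpand (AlgebraicClosure ℚ) d (jqModC (AlgebraicClosure ℚ)) ∈ modularFunctionFieldBar L := by
  have h0 : qExpand ℚ d (jqModC ℚ) ∈ modularFunctionFieldFull L := by
    rw [← modularFunctionFieldFullC_rat]
    exact jqModCd_mem_full ℚ L hd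
  have h1 := coeffEmb_mem_laurentBaseChange (AlgebraicClosure ℚ) h0
  rw [coeffEmb, coeffMap_qExpand, coeffMap_jqModC] at h1
  exact h1

/-- the model field over `K0 ≤ Qbar` maps into `Fbar_L` -/
theorem incl_mem_bar (K0 : IntermediateField ℚ (AlgebraicClosure ℚ)) (L : ℕ) [NeZero L]
    {y : LaurentSeries K0} (hy : y ∈ modularFunctionFieldFullC K0 L) :
    coeffMap (algebraMap K0 (AlgebraicClosure ℚ)) y ∈ modularFunctionFieldBar L :=
  coeffMap_mem_of_mem_fullC _ L _ (fun d _ hd => qExpand_jq_mem_bar L d hd) hy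

end CoeffMap

section Glue

/-- the comparison map `F0 → Fbar_L` (coefficients `K0 → Qbar`). -/
def inclF (K0 : IntermediateField ℚ (AlgebraicClosure ℚ)) (L : ℕ) [NeZero L] :
    modularFunctionFieldFullC K0 L →+* modularFunctionFieldBar L where
  toFun x := ⟨coeffMap (algebraMap K0 (AlgebraicClosure ℚ)) x.1, incl_mem_bar K0 L x.2⟩
  map_one' := Subtype.ext (map_one _)
  map_mul' x y := Subtype.ext (map_mul _ _ _)
  map_zero' := Subtype.ext (map_zero _)
  map_add' x y := Subtype.ext (map_add _ _ _)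

theorem inclF_coe (K0 : IntermediateField ℚ (AlgebraicClosure ℚ)) (L : ℕ) [NeZero L]
    (x : modularFunctionFieldFullC K0 L) :
    ((inclF K0 L x : modularFunctionFieldBar L) : LaurentSeries (AlgebraicClosure ℚ)) =
      coeffMap (algebraMap K0 (AlgebraicClosure ℚ)) x.1 := rfl

variable {A : ValuationSubring (AlgebraicClosure ℚ)}

/-- **(KUM) at level `L` from the model-level statement over all number fields.** -/
theorem kumPow_of_kum0 (L m : ℕ) [NeZero L] (hm0 : m ≠ 0) (hdesc : StmtDesc L)
    (hk : ∀ K0 : IntermediateField ℚ (AlgebraicClosure ℚ), FiniteDimensional ℚ K0 →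
      Kum0 K0 (A.comap (algebraMap K0 (AlgebraicClosure ℚ))) L m) :
    KumPow A L m := by
  classical
  intro Y1 Y2 h1 h2 hne heq hdvd
  have hY1 : coeffMap A.subtype Y1 ≠ 0 := H18.coeffMap_subtype_ne_zero A hne
  have hY2 : coeffMap A.subtype Y2 ≠ 0 := H18.coeffMap_subtype_ne_zero A (heq ▸ hne)
  have hg1 : (⟨coeffMap A.subtype Y1, h1.1⟩ : modularFunctionFieldBar L) ≠ 0 :=
    fun h0 => hY1 (congrArg Subtype.val h0)
  have hg2 : (⟨coeffMap A.subtype Y2, h2.1⟩ : modularFunctionFieldBar L) ≠ 0 :=
    fun h0 => hY2 (congrArg Subtype.val h0)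
  -- the support of the divisor and uniformisers there
  have hfin := H98.finite_ord_ne_zero L
    ((⟨coeffMap A.subtype Y1, h1.1⟩ : modularFunctionFieldBar L) / ⟨coeffMap A.subtype Y2, h2.1⟩)
  choose t ht using fun P : Place (AlgebraicClosure ℚ) (modularFunctionFieldBar L) =>
    S24.H19.exists_ord_eq_one P
  obtain ⟨K0, hK0fin, hK0⟩ := hdesc
    (insert (coeffMap A.subtype Y1) (insert (coeffMap A.subtype Y2)
      (hfin.toFinset.image
        (fun P => ((t P : modularFunctionFieldBar L) : LaurentSeries (AlgebraicClosure ℚ))))))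
    (by
      intro y hy
      rw [Finset.mem_insert, Finset.mem_insert, Finset.mem_image] at hy
      rcases hy with rfl | rfl | ⟨P, -, rfl⟩
      · exact h1.1
      · exact h2.1
      · exact (t P).2)
  obtain ⟨y1, hy1, e1⟩ := hK0 (coeffMap A.subtype Y1) (Finset.mem_insert_self _ _)
  obtain ⟨y2, hy2, e2⟩ := hK0 (coeffMap A.subtype Y2)
    (Finset.mem_insert_of_mem (Finset.mem_insert_self _ _))
  -- integral lifts over `A0 = A ∩ K0`
  have hcoeff : ∀ (y : LaurentSeries K0) (Y : LaurentSeries A),
      coeffMap (algebraMap K0 (AlgebraicClosure ℚ)) y = coeffMap A.subtype Y →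
      ∀ n, y.coeff n ∈ A.comap (algebraMap K0 (AlgebraicClosure ℚ)) := by
    intro y Y e n
    have h3 := congrArg (fun z : LaurentSeries (AlgebraicClosure ℚ) => z.coeff n) e
    simp only [coeffMap_coeff] at h3
    show algebraMap K0 (AlgebraicClosure ℚ) (y.coeff n) ∈ A
    rw [h3]
    exact (Y.coeff n).2
  obtain ⟨Z1, hZ1⟩ := exists_coeffMap_subtype_eq _ y1 (hcoeff y1 Y1 e1)
  obtain ⟨Z2, hZ2⟩ := exists_coeffMap_subtype_eq _ y2 (hcoeff y2 Y2 e2)
  -- reductions
  have hred : ∀ (Z : LaurentSeries (A.comap (algebraMap K0 (AlgebraicClosure ℚ))))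
      (Y : LaurentSeries A),
      coeffMap (algebraMap K0 (AlgebraicClosure ℚ))
        (coeffMap (A.comap (algebraMap K0 (AlgebraicClosure ℚ))).subtype Z) =
        coeffMap A.subtype Y →
      coeffMap (H17.comapResidue (algebraMap K0 (AlgebraicClosure ℚ)) A)
        (coeffMap (IsLocalRing.residue _) Z) = coeffMap (IsLocalRing.residue A) Y := by
    intro Z Y e
    have e' : coeffMap (H17.comapIncl (algebraMap K0 (AlgebraicClosure ℚ)) A) Z = Y := by
      apply H18.coeffMap_subtype_injective A
      rw [← e, coeffMap_coeffMap, coeffMap_coeffMap]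
      exact coeffMap_congr (RingHom.ext fun x => rfl) Z
    rw [← e', coeffMap_coeffMap, coeffMap_coeffMap]
    exact coeffMap_congr (RingHom.ext fun x => rfl) Z
  have hr1 := hred Z1 Y1 (by rw [hZ1, e1])
  have hr2 := hred Z2 Y2 (by rw [hZ2, e2])
  have hne0 : coeffMap (IsLocalRing.residue _) Z1 ≠ 0 := by
    intro h0
    apply hne
    rw [← hr1, h0, map_zero]
  have heq0 : coeffMap (IsLocalRing.residue _) Z1 = coeffMap (IsLocalRing.residue _) Z2 := by
    apply coeffMap_injective_of_injective _
      (H17.comapResidue_injective (algebraMap K0 (AlgebraicClosure ℚ)) A)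
    rw [hr1, hr2]
    exact heq
  have h1' : coeffMap (A.comap (algebraMap K0 (AlgebraicClosure ℚ))).subtype Z1 ∈
      modularFunctionFieldFullC K0 L := by rw [hZ1]; exact hy1
  have h2' : coeffMap (A.comap (algebraMap K0 (AlgebraicClosure ℚ))).subtype Z2 ∈
      modularFunctionFieldFullC K0 L := by rw [hZ2]; exact hy2
  have hφ1 : inclF K0 L ⟨_, h1'⟩ = ⟨coeffMap A.subtype Y1, h1.1⟩ :=
    Subtype.ext (by
      show coeffMap (algebraMap K0 (AlgebraicClosure ℚ)) (coeffMap _ Z1) = coeffMap A.subtype Y1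
      rw [hZ1, e1])
  have hφ2 : inclF K0 L ⟨_, h2'⟩ = ⟨coeffMap A.subtype Y2, h2.1⟩ :=
    Subtype.ext (by
      show coeffMap (algebraMap K0 (AlgebraicClosure ℚ)) (coeffMap _ Z2) = coeffMap A.subtype Y2
      rw [hZ2, e2])
  obtain ⟨σ, c, hσ, hc, eσ⟩ := hk K0 hK0fin Z1 Z2 h1' h2' hne0 heq0 (by
    intro O hO
    letI : Algebra (modularFunctionFieldFullC K0 L) (modularFunctionFieldBar L) :=
      (inclF K0 L).toAlgebra
    obtain ⟨W, hW⟩ := H74.exists_valuationSubring_comap_eq (F0 := modularFunctionFieldFullC K0 L)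
      (F := modularFunctionFieldBar L) O
    have hOW : ∀ x : modularFunctionFieldFullC K0 L, x ∈ O ↔ inclF K0 L x ∈ W := by
      intro x
      rw [← hW]
      exact Iff.rfl
    have hkW : ∀ a : AlgebraicClosure ℚ,
        algebraMap (AlgebraicClosure ℚ) (modularFunctionFieldBar L) a ∈ W := by
      intro a
      let i0 : Algebra ℚ (AlgebraicClosure ℚ) := AlgebraicClosure.instAlgebra ℚ
      have ha : @IsIntegral ℚ (AlgebraicClosure ℚ) _ _ i0 a :=
        (@Algebra.IsAlgebraic.isAlgebraic ℚ _ _ _ i0 (AlgebraicClosure.isAlgebraic ℚ) a).isIntegral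
      obtain ⟨p, hp, hpa⟩ := ha
      let i1 : Algebra ℚ (modularFunctionFieldBar L) :=
        ((algebraMap (AlgebraicClosure ℚ) (modularFunctionFieldBar L)).comp
          (@algebraMap ℚ (AlgebraicClosure ℚ) _ _ i0)).toAlgebra
      refine @H74.mem_of_isIntegral_of_forall_mem ℚ (modularFunctionFieldBar L) _ _ i1 W ?_ _
        ⟨p, hp, ?_⟩
      · intro q
        show (algebraMap (AlgebraicClosure ℚ) (modularFunctionFieldBar L))
          (@algebraMap ℚ (AlgebraicClosure ℚ) _ _ i0 q) ∈ W
        have e3 : (algebraMap (AlgebraicClosure ℚ) (modularFunctionFieldBar L))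
            (@algebraMap ℚ (AlgebraicClosure ℚ) _ _ i0 q) =
            inclF K0 L (algebraMap K0 (modularFunctionFieldFullC K0 L) (q : K0)) := by
          rw [map_ratCast (algebraMap K0 (modularFunctionFieldFullC K0 L)),
            map_ratCast (inclF K0 L), eq_ratCast (@algebraMap ℚ (AlgebraicClosure ℚ) _ _ i0) q,
            map_ratCast]
        rw [e3]
        exact (hOW _).mp (hO _)
      · show Polynomial.eval₂ ((algebraMap (AlgebraicClosure ℚ) (modularFunctionFieldBar L)).comp
          (@algebraMap ℚ (AlgebraicClosure ℚ) _ _ i0))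
          (algebraMap (AlgebraicClosure ℚ) (modularFunctionFieldBar L) a) p = 0
        rw [← Polynomial.hom_eval₂, hpa, map_zero]
    by_cases hWtop : W = ⊤
    · refine ⟨1, one_ne_zero, (hOW _).mpr ?_, (hOW _).mpr ?_⟩ <;>
      · rw [hWtop]; exact ValuationSubring.mem_top _
    · set P := H60.barPlaceOf L W hkW hWtop with hP
      have hPW : P.toValuationSubring = W := rfl
      have hdvdP : (m : ℤ) ∣ P.ord ((⟨coeffMap A.subtype Y1, h1.1⟩ : modularFunctionFieldBar L) /
          ⟨coeffMap A.subtype Y2, h2.1⟩) := by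
        rw [H18.ord_div P hg1 hg2]
        exact hdvd P
      by_cases h0 : P.ord ((⟨coeffMap A.subtype Y1, h1.1⟩ : modularFunctionFieldBar L) /
          ⟨coeffMap A.subtype Y2, h2.1⟩) = 0
      · refine ⟨1, one_ne_zero, (hOW _).mpr ?_, (hOW _).mpr ?_⟩
        · rw [one_pow, div_one, map_div₀, hφ1, hφ2, ← hPW]
          exact S24.H19.mem_of_ord_nonneg P (by rw [h0])
        · rw [one_pow, one_div, map_inv₀, map_div₀, hφ1, hφ2, ← hPW]
          exact S24.H19.mem_of_ord_nonneg P (by rw [P.ord_inv, h0, neg_zero])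
      · obtain ⟨t0, ht0, et0⟩ := hK0 ((t P : modularFunctionFieldBar L) :
            LaurentSeries (AlgebraicClosure ℚ))
          (Finset.mem_insert_of_mem (Finset.mem_insert_of_mem (Finset.mem_image.mpr
            ⟨P, hfin.mem_toFinset.mpr h0, rfl⟩)))
        have hφt : inclF K0 L ⟨t0, ht0⟩ = t P := Subtype.ext (by rw [inclF_coe, et0])
        obtain ⟨e, he⟩ := hdvdP
        have htP0 : t P ≠ 0 := by
          intro h00
          have := ht P
          rw [h00, P.ord_zero] at this
          exact zero_ne_one this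
        have hτ0 : (⟨t0, ht0⟩ : modularFunctionFieldFullC K0 L) ≠ 0 := by
          intro h00
          apply htP0
          rw [← hφt, h00, map_zero]
        have hx0 : ((⟨coeffMap A.subtype Y1, h1.1⟩ : modularFunctionFieldBar L) /
            ⟨coeffMap A.subtype Y2, h2.1⟩) ≠ 0 := div_ne_zero hg1 hg2
        have hord : P.ord (((⟨coeffMap A.subtype Y1, h1.1⟩ : modularFunctionFieldBar L) /
            ⟨coeffMap A.subtype Y2, h2.1⟩) / (t P ^ e) ^ m) = 0 := by
          rw [H18.ord_div P hx0 (pow_ne_zero m (zpow_ne_zero e htP0)), H18.ord_pow, P.ord_zpow,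
            ht P, he]
          ring
        refine ⟨⟨t0, ht0⟩ ^ e, zpow_ne_zero e hτ0, (hOW _).mpr ?_, (hOW _).mpr ?_⟩
        · rw [map_div₀, map_div₀, hφ1, hφ2, map_pow, map_zpow₀, hφt, ← hPW]
          exact S24.H19.mem_of_ord_nonneg P (by rw [hord])
        · rw [map_div₀, map_div₀, hφ1, hφ2, map_pow, map_zpow₀, hφt, ← hPW, ← inv_div]
          exact S24.H19.mem_of_ord_nonneg P (by rw [P.ord_inv, hord, neg_zero]))
  -- back to `Qbar`: extract an `m`-th root of the constant
  have eσ' := congrArg (coeffMap (algebraMap K0 (AlgebraicClosure ℚ))) eσ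
  rw [map_mul, map_pow, map_mul, hZ1, hZ2, e1, e2, algebraMap_laurentSeries_eq_single,
    coeffMap_single, ← algebraMap_laurentSeries_eq_single] at eσ'
  obtain ⟨r, hr⟩ := IsAlgClosed.exists_pow_nat_eq (algebraMap K0 (AlgebraicClosure ℚ) c)
    (Nat.pos_of_ne_zero hm0)
  have hc' : algebraMap K0 (AlgebraicClosure ℚ) c ≠ 0 := (map_ne_zero _).mpr hc
  have hr0 : r ≠ 0 := by
    rintro rfl
    rw [zero_pow hm0] at hr
    exact hc' hr.symm
  have hR0 : algebraMap (AlgebraicClosure ℚ) (LaurentSeries (AlgebraicClosure ℚ)) r ≠ 0 :=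
    (map_ne_zero _).mpr hr0
  refine ⟨coeffMap (algebraMap K0 (AlgebraicClosure ℚ)) σ *
    (algebraMap (AlgebraicClosure ℚ) (LaurentSeries (AlgebraicClosure ℚ)) r)⁻¹,
    mul_mem (incl_mem_bar K0 L hσ) (inv_mem ((modularFunctionFieldBar L).algebraMap_mem r)), ?_⟩
  rw [mul_pow, mul_right_comm, eσ', ← hr, map_pow, inv_pow]
  field_simp

end Glue

end Fermat.Agent.S18.T64
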