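import Fermat.Agent.S18.TopDesc_helper64
import Fermat.Agent.S18.ValRing_helper86

/-!
# S18, TOP chain, part 3 (helper64): the model-level statement from the Kummer core

* `ChartHyps A F π V BU BV j` : the chart hypotheses of the generic Kummer core `H63.StmtKC`
  (everything that does not mention `m` or `f`).
* `StmtCharts K0 A0 L` : node (CHARTS), existence of a Gauss valuation ring and of two good
  charts for the model field `F0 = K0(j(q^d) : d ∣ L)`.
* `kum0_of_charts` : `H63.StmtKC` + `StmtCharts K0 A0 L` ⟹ `Kum0 K0 A0 L m` (`m` a unit of `A0`).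
* `s18_of_nodes` : the frozen S18 from `H63.StmtKC`, `StmtDesc` and `StmtChartsAll`.
-/

set_option autoImplicit false

noncomputable section

open ModularCurve AlgebraicCurve HahnSeries IntermediateField

namespace Fermat.Agent.S18.T64

/-- **The chart hypotheses of the generic Kummer core** `H63.StmtKC`. -/
structure ChartHyps (A F : Type) [CommRing A] [IsDomain A] [Field F] [Algebra A F]
    (π : A) (V : ValuationSubring F) (BU BV : Subalgebra A F) (j : F) : Prop where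
  pi_ne : π ≠ 0
  inj : Function.Injective (algebraMap A F)
  arch : ∀ c : A, c ≠ 0 → ∃ n : ℕ, c ∣ π ^ n
  pi_mem : algebraMap A F π ∈ V.nonunits
  unif : ∀ x ∈ V.nonunits, ∃ y ∈ V, x = algebraMap A F π * y
  leU : ∀ x ∈ BU, x ∈ V
  leV : ∀ x ∈ BV, x ∈ V
  icU : ∀ x : F, IsIntegral BU x → x ∈ BU
  icV : ∀ x : F, IsIntegral BV x → x ∈ BV
  satU : ∀ x ∈ BU, (∃ y ∈ V, x = algebraMap A F π * y) → ∃ b ∈ BU, x = algebraMap A F π * b
  satV : ∀ x ∈ BV, (∃ y ∈ V, x = algebraMap A F π * y) → ∃ b ∈ BV, x = algebraMap A F π * b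
  j_ne : j ≠ 0
  j_mem : j ∈ BU
  inv_mem : j⁻¹ ∈ BV
  UtoV : ∀ x ∈ BU, ∃ n : ℕ, j⁻¹ ^ n * x ∈ BV
  VtoU : ∀ x ∈ BV, ∃ n : ℕ, j ^ n * x ∈ BU
  noethU : IsNoetherianRing BU
  noethV : IsNoetherianRing BV
  fg : ∀ M : Submodule (Algebra.adjoin A {j}) F, (∀ x ∈ M, x ∈ BU) → M.FG
  fracU : ∀ x : F, ∃ a ∈ BU, ∃ b ∈ BU, b ≠ 0 ∧ x * b = a
  fracV : ∀ x : F, ∃ a ∈ BV, ∃ b ∈ BV, b ≠ 0 ∧ x * b = a
  regU : ∀ n : Ideal BU, n.IsMaximal → algebraMap A BU π ∈ n →
    ∃ τ ∈ n, ∀ a : BU, a ∉ Ideal.span {algebraMap A BU π} →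
      ∃ (e : ℕ) (d u : BU), d ∉ n ∧ u ∉ n ∧
        a * d - u * τ ^ e ∈ Ideal.span {algebraMap A BU π}
  regV : ∀ n : Ideal BV, n.IsMaximal → algebraMap A BV π ∈ n →
    ∃ τ ∈ n, ∀ a : BV, a ∉ Ideal.span {algebraMap A BV π} →
      ∃ (e : ℕ) (d u : BV), d ∉ n ∧ u ∉ n ∧
        a * d - u * τ ^ e ∈ Ideal.span {algebraMap A BV π}

/-- the generic Kummer core applied to a chart package. -/
theorem kc_of_chartHyps (hKC : H63.StmtKC) {A F : Type} [CommRing A] [IsDomain A] [Field F]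
    [Algebra A F] {π : A} {V : ValuationSubring F} {BU BV : Subalgebra A F} {j : F}
    (hc : ChartHyps A F π V BU BV j) (m : ℕ) (hm : IsUnit (m : A)) (f : F)
    (hf : ∃ y ∈ V, f - 1 = algebraMap A F π * y)
    (hdiv : ∀ O : ValuationSubring F, (∀ a : A, algebraMap A F a ∈ O) →
      (∀ a : A, a ≠ 0 → (algebraMap A F a)⁻¹ ∈ O) →
      ∃ g : F, g ≠ 0 ∧ f / g ^ m ∈ O ∧ g ^ m / f ∈ O) :
    ∃ σ γ : F, σ ≠ 0 ∧ γ ≠ 0 ∧ γ ∈ BU ∧ γ ∈ BV ∧ σ ^ m = f * γ :=
  hKC A F π m V BU BV j f hc.pi_ne hc.inj hc.arch hm hc.pi_mem hc.unif hc.leU hc.leV hc.icU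
    hc.icV hc.satU hc.satV hc.j_ne hc.j_mem hc.inv_mem hc.UtoV hc.VtoU hc.noethU hc.noethV
    hc.fg hc.fracU hc.fracV hc.regU hc.regV hf hdiv

/-- the `A0`-algebra structure on the model field `F0 = K0(j(q^d) : d ∣ L)`. -/
@[reducible] def algA0 (K0 : Type) [Field K0] (A0 : ValuationSubring K0) (L : ℕ) [NeZero L] :
    Algebra A0 (modularFunctionFieldFullC K0 L) :=
  ((algebraMap K0 (modularFunctionFieldFullC K0 L)).comp A0.subtype).toAlgebra

/-- **(CHARTS).**  For the model field `F0 = K0(j(q^d) : d ∣ L)` over `A0`: a valuation subring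
`V` of `F0` (the Gauss valuation ring, uniformiser `π`), two charts `BU ∋ ξ`, `BV ∋ ξ⁻¹`
satisfying the chart hypotheses of the Kummer core, such that
* (GAUSS) an `A0`-integral series in `F0` with zero reduction is `π * y * W` with `y ∈ V`, for
  every `A0`-integral `W` in `F0` with nonzero reduction;
* (NOPOLE) an element of `BU ∩ BV` is a constant. -/
def StmtCharts (K0 : Type) [Field K0] (A0 : ValuationSubring K0) (L : ℕ) [NeZero L] : Prop :=
  letI := algA0 K0 A0 L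
  ∃ (π : A0) (V : ValuationSubring (modularFunctionFieldFullC K0 L))
    (BU BV : Subalgebra A0 (modularFunctionFieldFullC K0 L))
    (ξ : modularFunctionFieldFullC K0 L),
    ChartHyps A0 (modularFunctionFieldFullC K0 L) π V BU BV ξ ∧
    (∀ (Z W : LaurentSeries A0) (hZ : coeffMap A0.subtype Z ∈ modularFunctionFieldFullC K0 L)
      (hW : coeffMap A0.subtype W ∈ modularFunctionFieldFullC K0 L),
      coeffMap (IsLocalRing.residue A0) W ≠ 0 → coeffMap (IsLocalRing.residue A0) Z = 0 →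
      ∃ y ∈ V, (⟨coeffMap A0.subtype Z, hZ⟩ : modularFunctionFieldFullC K0 L) =
        algebraMap A0 (modularFunctionFieldFullC K0 L) π * y * ⟨coeffMap A0.subtype W, hW⟩) ∧
    (∀ γ : modularFunctionFieldFullC K0 L, γ ∈ BU → γ ∈ BV →
      ∃ c : K0, γ = algebraMap K0 (modularFunctionFieldFullC K0 L) c)

/-- **(KUM0) from the Kummer core and the chart package.** -/
theorem kum0_of_charts (hKC : H63.StmtKC) (K0 : Type) [Field K0] (A0 : ValuationSubring K0)
    (L m : ℕ) [NeZero L] (hm : IsUnit ((m : ℕ) : A0)) (hch : StmtCharts K0 A0 L) :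
    Kum0 K0 A0 L m := by
  letI := algA0 K0 A0 L
  obtain ⟨π, V, BU, BV, ξ, hc, hgauss, hnopole⟩ := hch
  intro Y1 Y2 h1 h2 hne heq hdiv
  have hm0 : m ≠ 0 := by
    rintro rfl
    rw [Nat.cast_zero] at hm
    exact not_isUnit_zero hm
  have hι2 : coeffMap A0.subtype Y2 ≠ 0 := by
    intro h0
    apply hne
    rw [heq]
    have hY2 : Y2 = 0 :=
      coeffMap_injective_of_injective A0.subtype Subtype.val_injective (by rw [h0, map_zero])
    rw [hY2, map_zero]
  have hg2 : (⟨coeffMap A0.subtype Y2, h2⟩ : modularFunctionFieldFullC K0 L) ≠ 0 :=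
    fun h0 => hι2 (congrArg Subtype.val h0)
  -- `f - 1 ∈ π V`
  have hsub : coeffMap A0.subtype (Y1 - Y2) ∈ modularFunctionFieldFullC K0 L := by
    rw [map_sub]; exact sub_mem h1 h2
  obtain ⟨y, hy, ey⟩ := hgauss (Y1 - Y2) Y2 hsub h2 (heq ▸ hne) (by rw [map_sub, heq, sub_self])
  have hf : ∃ y ∈ V, (⟨coeffMap A0.subtype Y1, h1⟩ : modularFunctionFieldFullC K0 L) /
      ⟨coeffMap A0.subtype Y2, h2⟩ - 1 =
      algebraMap A0 (modularFunctionFieldFullC K0 L) π * y := by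
    refine ⟨y, hy, ?_⟩
    have e1 : (⟨coeffMap A0.subtype (Y1 - Y2), hsub⟩ : modularFunctionFieldFullC K0 L) =
        ⟨coeffMap A0.subtype Y1, h1⟩ - ⟨coeffMap A0.subtype Y2, h2⟩ :=
      Subtype.ext (map_sub _ _ _)
    rw [e1] at ey
    rw [div_sub_one hg2, ey, mul_div_assoc, div_self hg2, mul_one]
  obtain ⟨σ, γ, hσ0, hγ0, hγU, hγV, e⟩ := kc_of_chartHyps hKC hc m hm _ hf (by
    intro O hO hO'
    refine hdiv O (fun c => ?_)
    rcases A0.mem_or_inv_mem c with hcA | hcA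
    · exact hO ⟨c, hcA⟩
    · rcases eq_or_ne c 0 with rfl | hc0
      · rw [map_zero]; exact zero_mem _
      · have h3 := hO' ⟨c⁻¹, hcA⟩ (fun h0 => inv_ne_zero hc0 (congrArg Subtype.val h0))
        have e3 : (algebraMap A0 (modularFunctionFieldFullC K0 L) ⟨c⁻¹, hcA⟩)⁻¹ =
            algebraMap K0 (modularFunctionFieldFullC K0 L) c := by
          show (algebraMap K0 (modularFunctionFieldFullC K0 L) c⁻¹)⁻¹ = _
          rw [map_inv₀, inv_inv]
        rw [e3] at h3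
        exact h3)
  obtain ⟨c, rfl⟩ := hnopole γ hγU hγV
  have hc0 : c ≠ 0 := by
    rintro rfl
    exact hγ0 (map_zero _)
  refine ⟨σ, c, σ.2, hc0, ?_⟩
  have e4 : σ ^ m * (⟨coeffMap A0.subtype Y2, h2⟩ : modularFunctionFieldFullC K0 L) =
      algebraMap K0 (modularFunctionFieldFullC K0 L) c * ⟨coeffMap A0.subtype Y1, h1⟩ := by
    rw [e]
    field_simp
  exact congrArg Subtype.val e4

/-- **(CHARTS) for all models**: `A0` a discrete valuation subring with finite residue field of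
characteristic `ℓ ∤ L` of a field `K0` of characteristic zero, `auxM ℓ ∣ L`
(no condition for `ℓ ≥ 5`; `2 ∣ L` for `ℓ = 3`; `3 ∣ L` for `ℓ = 2`). -/
def StmtChartsAll : Prop :=
  ∀ (ℓ : ℕ), ℓ.Prime → ∀ (K0 : Type) [Field K0] [CharZero K0] (A0 : ValuationSubring K0)
    [IsDiscreteValuationRing A0] [Finite (IsLocalRing.ResidueField A0)],
    A0.LiesOverPrime ℓ → ∀ (L : ℕ) [NeZero L], ¬ ℓ ∣ L → H16.auxM ℓ ∣ L → StmtCharts K0 A0 L

/-- **The frozen S18 from the three nodes** `H63.StmtKC` (generic Kummer core), `StmtDesc`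
(field of definition) and `StmtChartsAll` (good charts over every number-field model). -/
theorem s18_of_nodes (hKC : H63.StmtKC) (hdesc : ∀ (L : ℕ) [NeZero L], StmtDesc L)
    (hch : StmtChartsAll) (N : ℕ) [NeZero N] {ℓ : ℕ} [Fact ℓ.Prime] (hℓN : ¬ ℓ ∣ N)
    (A : ValuationSubring (AlgebraicClosure ℚ)) (hA : A.LiesOverPrime ℓ)
    (h : ModularCurve.ReductionInputsModL A N) (m : ℕ) (hm : ¬ ℓ ∣ m)
    (z : ModularCurve.JZero N) (hmz : m • z = 0) (hz : ModularCurve.reductionModL A N z = 0) :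
    z = 0 := by
  have hℓ : ℓ.Prime := Fact.out
  have hm0 : m ≠ 0 := fun h0 => hm (h0 ▸ dvd_zero ℓ)
  refine s18_of_kumPow h m hm0 z hmz hz (kumPow_of_aux hℓ m hm ?_)
  refine kumPow_of_kum0 _ m hm0 (hdesc _) (fun K0 hK0 => ?_)
  haveI := hK0
  haveI := H17.isDiscreteValuationRing_inter_Qbar K0 A hℓ hA
  haveI := H17.finite_residueField_inter_Qbar K0 A hℓ hA
  have hA0 : (A.comap (algebraMap K0 (AlgebraicClosure ℚ))).LiesOverPrime ℓ :=
    H17.liesOverPrime_comap _ A hA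
  exact kum0_of_charts hKC K0 _ _ m (H86.isUnit_natCast _ hA0 hℓ hm)
    (hch ℓ hℓ K0 _ hA0 _ (H16.not_dvd_lcm_auxM hℓ hℓN) (Nat.dvd_lcm_right N (H16.auxM ℓ)))

end Fermat.Agent.S18.T64
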