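import Fermat.Agent.S18.BridgeClosed_helper2
import Fermat.Agent.S18.PlaceRestrict_helper74
import Fermat.Agent.S18.Deg_helper16
import Fermat.Agent.S18.PlaceInst_helper60
import Fermat.Agent.S18.PrincDiv_helper98
import Fermat.Agent.S18.DvrK0_helper17
import Fermat.Agent.S18.KCStmts_helper63

/-!
# S18, TOP chain (helper64)

The frozen S18 is reduced, arrow by arrow, to statements over a number field:

* `KumPow A L m` : the Kummer statement `(KUM)` at level `L` in `m`-th power form.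
* `s18_of_kumPow` : frozen S18 from `KumPow A N m` (through `H2.s18_of_kum`).
* `kumPow_descend` : norm descent `KumPow A N' m → KumPow A N m` for `N ∣ N'` of degree prime
  to `m`; `kumPow_of_aux` : the case `N' = lcm N (auxM ℓ)`.
-/

set_option autoImplicit false

noncomputable section

open ModularCurve AlgebraicCurve HahnSeries IntermediateField

namespace Fermat.Agent.S18.T64

/-! ### (KUM) in `m`-th power form -/

section KumPow

variable (A : ValuationSubring (AlgebraicClosure ℚ))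

/-- **(KUM), `m`-th power form, level `L`.**  For Gauss-integral `Y1, Y2` of level `L` with equal
nonzero reductions: if `m` divides the order of `ι Y1 / ι Y2` at every place of `Fbar_L`, then
`ι Y1 / ι Y2` is an `m`-th power in `Fbar_L`. -/
def KumPow (L m : ℕ) [NeZero L] : Prop :=
  ∀ (Y1 Y2 : LaurentSeries A) (h1 : Y1 ∈ H18.gaussRing A L) (h2 : Y2 ∈ H18.gaussRing A L),
    coeffMap (IsLocalRing.residue A) Y1 ≠ 0 →
    coeffMap (IsLocalRing.residue A) Y1 = coeffMap (IsLocalRing.residue A) Y2 →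
    (∀ P : Place (AlgebraicClosure ℚ) (modularFunctionFieldBar L),
      (m : ℤ) ∣ P.ord (⟨coeffMap A.subtype Y1, h1.1⟩ : modularFunctionFieldBar L) -
        P.ord (⟨coeffMap A.subtype Y2, h2.1⟩ : modularFunctionFieldBar L)) →
    ∃ s : LaurentSeries (AlgebraicClosure ℚ), s ∈ modularFunctionFieldBar L ∧
      s ^ m * coeffMap A.subtype Y2 = coeffMap A.subtype Y1

variable {A}

/-- **Frozen S18 from `KumPow` at the same level.** -/
theorem s18_of_kumPow {N : ℕ} [NeZero N] (h : ReductionInputsModL A N) (m : ℕ) (hm0 : m ≠ 0)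
    (z : JZero N) (hmz : m • z = 0) (hz : reductionModL A N z = 0) (hk : KumPow A N m) :
    z = 0 := by
  refine H2.s18_of_kum h m hm0 z hmz hz ?_
  intro Y1 Y2 h1 h2 hne heq hdvd
  obtain ⟨s, hs, e⟩ := hk Y1 Y2 h1 h2 hne heq hdvd
  have hg1 : (⟨coeffMap A.subtype Y1, h1.1⟩ : modularFunctionFieldBar N) ≠ 0 :=
    fun h0 => H18.coeffMap_subtype_ne_zero A hne (congrArg Subtype.val h0)
  have hg2 : (⟨coeffMap A.subtype Y2, h2.1⟩ : modularFunctionFieldBar N) ≠ 0 :=
    fun h0 => H18.coeffMap_subtype_ne_zero A (heq ▸ hne) (congrArg Subtype.val h0)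
  have e' : (⟨s, hs⟩ : modularFunctionFieldBar N) ^ m *
      (⟨coeffMap A.subtype Y2, h2.1⟩ : modularFunctionFieldBar N) =
      ⟨coeffMap A.subtype Y1, h1.1⟩ := Subtype.ext e
  have hs0 : (⟨s, hs⟩ : modularFunctionFieldBar N) ≠ 0 := by
    intro h0
    rw [h0, zero_pow hm0, zero_mul] at e'
    exact hg1 e'.symm
  refine ⟨⟨s, hs⟩, hs0, fun P => ?_⟩
  have h3 := congrArg P.ord e'
  rw [P.ord_mul (pow_ne_zero m hs0) hg2, H18.ord_pow] at h3
  linarith

/-- norm descent inside an ambient field (degree `relfinrank K₁ K₂` prime to `m`). -/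
theorem exists_mem_pow_eq {k E : Type*} [Field k] [Field E] [Algebra k E]
    (K₁ K₂ : IntermediateField k E) (h12 : K₁ ≤ K₂) (m : ℕ)
    (hfin : IntermediateField.relfinrank K₁ K₂ ≠ 0)
    (hcop : Nat.Coprime (IntermediateField.relfinrank K₁ K₂) m) (u w : E) (hu : u ∈ K₁)
    (hwmem : w ∈ K₂) (hw : w ^ m = u) : ∃ y ∈ K₁, y ^ m = u := by
  letI : Algebra K₁ K₂ := (IntermediateField.inclusion h12).toRingHom.toAlgebra
  have hrank : Module.finrank K₁ K₂ = IntermediateField.relfinrank K₁ K₂ := by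
    rw [IntermediateField.relfinrank_eq_finrank_of_le h12]
    rfl
  haveI : FiniteDimensional K₁ K₂ := by
    apply Module.finite_of_finrank_pos
    rw [hrank]
    exact Nat.pos_of_ne_zero hfin
  obtain ⟨y, hy⟩ := H74.exists_pow_eq_of_coprime_finrank (F := K₁) (F' := K₂) m (hrank ▸ hcop)
    ⟨u, hu⟩ ⟨⟨w, hwmem⟩, by
      apply Subtype.ext
      have h2 : ((algebraMap K₁ K₂ ⟨u, hu⟩ : K₂) : E) = u := rfl
      rw [h2]
      simpa using hw⟩
  exact ⟨y, y.2, by simpa using congrArg Subtype.val hy⟩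

/-- divisibility of all orders goes up from `K₁` to `K₂` (finite extension inside `E`). -/
theorem dvd_ord_of_le {k E : Type*} [Field k] [Field E] [Algebra k E]
    (K₁ K₂ : IntermediateField k E) (h12 : K₁ ≤ K₂)
    (hfin : IntermediateField.relfinrank K₁ K₂ ≠ 0) (m : ℤ) (u : E) (hu : u ∈ K₁)
    (h : ∀ P : Place k K₁, m ∣ P.ord ⟨u, hu⟩) (P' : Place k K₂) :
    m ∣ P'.ord ⟨u, h12 hu⟩ := by
  letI : Algebra K₁ K₂ := (IntermediateField.inclusion h12).toRingHom.toAlgebra
  have hrank : Module.finrank K₁ K₂ = IntermediateField.relfinrank K₁ K₂ := by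
    rw [IntermediateField.relfinrank_eq_finrank_of_le h12]
    rfl
  haveI : FiniteDimensional K₁ K₂ := by
    apply Module.finite_of_finrank_pos
    rw [hrank]
    exact Nat.pos_of_ne_zero hfin
  haveI : IsScalarTower k K₁ K₂ := IsScalarTower.of_algebraMap_eq (fun _ => rfl)
  exact H74.dvd_ord_algebraMap_of_forall (K := k) (F := K₁) (F' := K₂) m ⟨u, hu⟩ h P'

/-- **Norm descent of (KUM).**  `N ∣ N'`, `[Fbar_N' : Fbar_N]` prime to `m`. -/
theorem kumPow_descend {N N' : ℕ} [NeZero N] [NeZero N'] (hNN : N ∣ N') (m : ℕ)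
    (hfin : relfinrank (modularFunctionFieldBar N) (modularFunctionFieldBar N') ≠ 0)
    (hcop : Nat.Coprime
      (relfinrank (modularFunctionFieldBar N) (modularFunctionFieldBar N')) m)
    (hk : KumPow A N' m) : KumPow A N m := by
  intro Y1 Y2 h1 h2 hne heq hdvd
  have hle : modularFunctionFieldBar N ≤ modularFunctionFieldBar N' := H16.bar_mono hNN
  have hlek : modularFunctionFieldFullC (IsLocalRing.ResidueField A) N ≤
      modularFunctionFieldFullC (IsLocalRing.ResidueField A) N' := full_degeneracyC_le _ hNN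
  have h1' : Y1 ∈ H18.gaussRing A N' := ⟨hle h1.1, hlek h1.2⟩
  have h2' : Y2 ∈ H18.gaussRing A N' := ⟨hle h2.1, hlek h2.2⟩
  have hY1 : coeffMap A.subtype Y1 ≠ 0 := H18.coeffMap_subtype_ne_zero A hne
  have hY2 : coeffMap A.subtype Y2 ≠ 0 := H18.coeffMap_subtype_ne_zero A (heq ▸ hne)
  have hg1 : (⟨coeffMap A.subtype Y1, h1.1⟩ : modularFunctionFieldBar N) ≠ 0 :=
    fun h0 => hY1 (congrArg Subtype.val h0)
  have hg2 : (⟨coeffMap A.subtype Y2, h2.1⟩ : modularFunctionFieldBar N) ≠ 0 :=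
    fun h0 => hY2 (congrArg Subtype.val h0)
  have hg1' : (⟨coeffMap A.subtype Y1, h1'.1⟩ : modularFunctionFieldBar N') ≠ 0 :=
    fun h0 => hY1 (congrArg Subtype.val h0)
  have hg2' : (⟨coeffMap A.subtype Y2, h2'.1⟩ : modularFunctionFieldBar N') ≠ 0 :=
    fun h0 => hY2 (congrArg Subtype.val h0)
  have hu : coeffMap A.subtype Y1 / coeffMap A.subtype Y2 ∈ modularFunctionFieldBar N :=
    div_mem h1.1 h2.1
  obtain ⟨s, hs, e⟩ := hk Y1 Y2 h1' h2' hne heq (fun P' => by
    have h3 := dvd_ord_of_le (modularFunctionFieldBar N) (modularFunctionFieldBar N') hle hfin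
      (m : ℤ) _ hu (fun P => by
        have e1 : (⟨coeffMap A.subtype Y1 / coeffMap A.subtype Y2, hu⟩ :
            modularFunctionFieldBar N) =
            (⟨coeffMap A.subtype Y1, h1.1⟩ : modularFunctionFieldBar N) /
              ⟨coeffMap A.subtype Y2, h2.1⟩ := rfl
        rw [e1, H18.ord_div P hg1 hg2]
        exact hdvd P) P'
    have e2 : (⟨coeffMap A.subtype Y1 / coeffMap A.subtype Y2, hle hu⟩ :
        modularFunctionFieldBar N') =
        (⟨coeffMap A.subtype Y1, h1'.1⟩ : modularFunctionFieldBar N') /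
          ⟨coeffMap A.subtype Y2, h2'.1⟩ := rfl
    rw [e2, H18.ord_div P' hg1' hg2'] at h3
    exact h3)
  have hsm : s ^ m = coeffMap A.subtype Y1 / coeffMap A.subtype Y2 := by
    rw [eq_div_iff hY2]
    exact e
  obtain ⟨y, hy, hym⟩ := exists_mem_pow_eq (modularFunctionFieldBar N)
    (modularFunctionFieldBar N') hle m hfin hcop _ s hu hs hsm
  exact ⟨y, hy, by rw [hym, div_mul_cancel₀ _ hY2]⟩

/-- **Norm descent from the auxiliary level** `lcm N (auxM ℓ)` (`auxM ℓ = 3, 2, 1` for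
`ℓ = 2, 3, ≥ 5`). -/
theorem kumPow_of_aux {N : ℕ} [NeZero N] {ℓ : ℕ} (hℓ : ℓ.Prime) (m : ℕ) (hm : ¬ ℓ ∣ m)
    (hk : KumPow A (Nat.lcm N (H16.auxM ℓ)) m) : KumPow A N m := by
  obtain ⟨-, h2, h3⟩ := H16.coprime_relfinrank_bar_aux N ℓ m hℓ hm
  exact kumPow_descend (Nat.dvd_lcm_left N (H16.auxM ℓ)) m h2 h3 hk

end KumPow

end Fermat.Agent.S18.T64
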