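/-
S18 glue node ZVAL-PLACE (helper94): the adapter between the two shapes of the divisibility
hypothesis (DIV) of the Kummer core.

* supply side: `∀ Q : Place K F, m ∣ Q.ord f` (places of the model over its constant field);
* consumer side (KC / KC1): `∀ w : ZVal F, (∀ a : A, a ≠ 0 → w.ord (algebraMap A F a) = 0) →
  (m : ℤ) ∣ w.ord f` for a base domain `A` with fraction field `K`.

The step "a nontrivial `ZVal` trivial on the constants is a positive multiple of a place" is
`S24.H19.exists_place_of_zval` (already landed); this file only packages the consequences.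
-/
import Mathlib
import Fermat.Prelude.Def_AlgebraicCurve_DivisorClassGroup
import Fermat.Agent.S24.ZVal_helper31
import Fermat.Agent.S24.Basics_helper19

set_option autoImplicit false

namespace Fermat.Agent.S18.H94

open AlgebraicCurve
open Fermat.Agent.S24.H31 (ZVal)

variable {K F : Type*} [Field K] [Field F] [Algebra K F]

/-- **(ZP2)** If `m` divides the order of `u` at every place of `F / K`, then `m` divides
`w.ord u` for every bare additive valuation `w` that is trivial on the nonzero constants. -/
theorem dvd_zval_ord_of_forall_place (m : ℤ) (u : F) (hu : u ≠ 0)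
    (h : ∀ Q : Place K F, m ∣ Q.ord u) (w : ZVal F)
    (htriv : ∀ a : K, a ≠ 0 → w.ord (algebraMap K F a) = 0) : m ∣ w.ord u := by
  by_cases hnt : ∃ f : F, f ≠ 0 ∧ w.ord f ≠ 0
  · obtain ⟨Q, d, -, hd⟩ := Fermat.Agent.S24.H19.exists_place_of_zval (K := K) w htriv hnt
    rw [hd u hu]
    exact Dvd.dvd.mul_left (h Q) d
  · have h0 : w.ord u = 0 := by
      by_contra hne
      exact hnt ⟨u, hu, hne⟩
    rw [h0]
    exact dvd_zero m

/-- A `ZVal` that vanishes on the nonzero elements of a domain `A` vanishes on the nonzero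
elements of its fraction field `K`. -/
theorem zval_trivial_of_fractionRing {A : Type*} [CommRing A] [IsDomain A] [Algebra A K]
    [IsFractionRing A K] [Algebra A F] [IsScalarTower A K F] (w : ZVal F)
    (hA : ∀ a : A, a ≠ 0 → w.ord (algebraMap A F a) = 0) :
    ∀ c : K, c ≠ 0 → w.ord (algebraMap K F c) = 0 := by
  intro c hc
  obtain ⟨x, y, hy, rfl⟩ := IsFractionRing.div_surjective (A := A) c
  have hy0 : y ≠ 0 := nonZeroDivisors.ne_zero hy
  have hinjK : Function.Injective (algebraMap A K) := IsFractionRing.injective A K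
  have hyK : algebraMap A K y ≠ 0 := fun h0 => hy0 (hinjK (by rw [h0, map_zero]))
  have hx0 : x ≠ 0 := by
    rintro rfl
    apply hc
    rw [map_zero, zero_div]
  have hxK : algebraMap A K x ≠ 0 := fun h0 => hx0 (hinjK (by rw [h0, map_zero]))
  have hxF : algebraMap A F x ≠ 0 := by
    rw [IsScalarTower.algebraMap_apply A K F]
    exact fun h0 => hxK ((algebraMap K F).injective (by rw [h0, map_zero]))
  have hyF : algebraMap A F y ≠ 0 := by
    rw [IsScalarTower.algebraMap_apply A K F]
    exact fun h0 => hyK ((algebraMap K F).injective (by rw [h0, map_zero]))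
  have hcF : algebraMap K F (algebraMap A K x / algebraMap A K y)
      = algebraMap A F x / algebraMap A F y := by
    rw [map_div₀, ← IsScalarTower.algebraMap_apply A K F, ← IsScalarTower.algebraMap_apply A K F]
  rw [hcF, w.ord_div hxF hyF, hA x hx0, hA y hy0, sub_zero]

/-- **(ZP3)** The consumer form of (DIV): from divisibility at all places of `F / K`
(`K = Frac A`) to the `ZVal` statement used by the Kummer core, literally. -/
theorem hDIV_of_forall_place {A : Type*} [CommRing A] [IsDomain A] [Algebra A K]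
    [IsFractionRing A K] [Algebra A F] [IsScalarTower A K F] (m : ℕ) (f : F) (hf : f ≠ 0)
    (h : ∀ Q : Place K F, (m : ℤ) ∣ Q.ord f) :
    ∀ w : ZVal F, (∀ a : A, a ≠ 0 → w.ord (algebraMap A F a) = 0) → (m : ℤ) ∣ w.ord f :=
  fun w hA =>
    dvd_zval_ord_of_forall_place (K := K) (m : ℤ) f hf h w (zval_trivial_of_fractionRing w hA)

/-- Variant of **(ZP3)** for a difference of two orders (the shape produced by the bridge:
`P.ord y₁ - P.ord y₂`). -/
theorem hDIV_of_forall_place_sub {A : Type*} [CommRing A] [IsDomain A] [Algebra A K]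
    [IsFractionRing A K] [Algebra A F] [IsScalarTower A K F] (m : ℕ) (y₁ y₂ : F)
    (h₁ : y₁ ≠ 0) (h₂ : y₂ ≠ 0)
    (h : ∀ Q : Place K F, (m : ℤ) ∣ Q.ord y₁ - Q.ord y₂) :
    ∀ w : ZVal F, (∀ a : A, a ≠ 0 → w.ord (algebraMap A F a) = 0) →
      (m : ℤ) ∣ w.ord (y₁ / y₂) := by
  refine hDIV_of_forall_place (K := K) m (y₁ / y₂) (div_ne_zero h₁ h₂) fun Q => ?_
  rw [Fermat.Agent.S24.H19.ord_div Q h₁ h₂]
  exact h Q

/-- The converse direction: a statement about all `ZVal`s trivial on the constants specialises
to places. -/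
theorem forall_place_of_hDIV (m : ℤ) (f : F)
    (h : ∀ w : ZVal F, (∀ a : K, a ≠ 0 → w.ord (algebraMap K F a) = 0) → m ∣ w.ord f)
    (hconst : ∀ (Q : Place K F) (a : K), a ≠ 0 → Q.ord (algebraMap K F a) = 0)
    (Q : Place K F) : m ∣ Q.ord f :=
  h (Fermat.Agent.S24.H19.toZVal Q) (fun a ha => hconst Q a ha)

end Fermat.Agent.S18.H94
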